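/-
S34, THE CUT OF [LIFT2] (sub-architect: helper18; architect of S34: helper13).  Prefix `s34l_`.
Definitions and `Prop`s only (plus the composition `s34l_lift2_of`).  PURE COMMUTATIVE ALGEBRA,
no modular vocabulary.  It generalises helper13's [ASTAR] of `S18/LiftDefs.lean`: NO hypothesis
on the special fibre.

SETTING.  `O` a discrete valuation ring with uniformizer `ϖ`, `K = Frac O` of characteristic `0`,
`F / K(j)` finite, `j` transcendental, `B = s18_chart O {j}`, `B' = s18_chart O {j⁻¹}` (the two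
charts of the normalisation of `P¹_O` in `F`).  The special fibre may be reducible.

  `W`        a subring of `F` with `s34l_IsW O j ϖ W`: it contains both charts, it is saturated in
             both charts (`w ∈ W`, `π w ∈ B` ⟹ `w ∈ B`), it contains the roots of its elements and
             `1 + π W ⊆ Wˣ`.  (In the application `W` is the intersection of the valuation rings
             of the generic points of the components of the special fibre.)
  `π^k W`    `s34l_gauss O ϖ W k = {π^k w : w ∈ W}`.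
  `I`, `I'`, `H⁰(n)`, Čech, approximate roots: `s18_root`, `s18_H0`, `s18_Cech`, `s18_Approx` of
             `S18/LiftDefs.lean` (they do not mention the special fibre).

  [LOCGEN]   the HYPOTHESIS of [LIFT2] (`s34l_LocGen`): at every closed point `𝔫 ∋ π` of a chart
             there is `g ∈ Fˣ` with `g ≡ 1` modulo `π W` and `g^m = u · (unit of B_𝔫)`.
  [SURJ2]    [LOCGEN] ⟹ the reduction `I → B / π B` is onto (modulo `π W`).
  [POLE2]    [LOCGEN] ⟹ the pole lemma (the Hensel step does not increase the pole order).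
  [FIN2]     `H⁰(n)` is a finitely generated `O`-module          (helper7, `s34fin_main`).
  [CECH2]    `I[1/j] = I + jⁿ I'` for `n ≥ n₀`                    (helper7, `s34ce_main`).
  [GLOB2]    gluing + iteration: approximate `m`-th roots of `u` modulo `π^k` for all `k` in a
             finitely generated `O`-module.
  [NSATZ]    `s18_NsatzStatement` (`s18ns_main`, reused verbatim).
-/
import Mathlib
import Fermat.Agent.S18.LiftDefs

set_option autoImplicit false

open AlgebraicCurve IntermediateField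
open scoped TensorProduct

noncomputable section

namespace Fermat.Agent.S34

open Fermat.Agent.S18

section Defs

variable (O : Type) [CommRing O] [IsLocalRing O] {F : Type} [Field F] [Algebra O F]

/-- `π^k W = {π^k w : w ∈ W}`. -/
def s34l_gauss (ϖ : O) (W : Subring F) (k : ℕ) : Set F :=
  {f | ∃ w ∈ W, f = algebraMap O F ϖ ^ k * w}

/-- The hypotheses on the ring `W` of the generic points of the special fibre. -/
structure s34l_IsW (j : F) (ϖ : O) (W : Subring F) : Prop where
  /-- `B ⊆ W` -/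
  chart_le : ∀ x ∈ s18_chart O ({j} : Set F), x ∈ W
  /-- `B' ⊆ W` -/
  chart_le' : ∀ x ∈ s18_chart O ({j⁻¹} : Set F), x ∈ W
  /-- saturation in the finite chart: `B ∩ π W = π B` -/
  sat : ∀ w ∈ W, algebraMap O F ϖ * w ∈ s18_chart O ({j} : Set F) →
    w ∈ s18_chart O ({j} : Set F)
  /-- saturation in the chart at infinity: `B' ∩ π W = π B'` -/
  sat' : ∀ w ∈ W, algebraMap O F ϖ * w ∈ s18_chart O ({j⁻¹} : Set F) →
    w ∈ s18_chart O ({j⁻¹} : Set F)
  /-- `W` contains the roots of its elements -/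
  root : ∀ (f : F) (n : ℕ), 0 < n → f ^ n ∈ W → f ∈ W
  /-- `1 + π W ⊆ Wˣ` -/
  unit : ∀ w ∈ W, (1 + algebraMap O F ϖ * w)⁻¹ ∈ W

/-- **[LOCGEN]** normalised local generators at the closed points of the special fibre of the
chart of `j`: for every maximal ideal `𝔫 ∋ π` of `B` there is `g ∈ Fˣ` with `g - 1 ∈ π W` and
`g^m = u · d / c`, `c, d ∈ B \ 𝔫`. -/
def s34l_LocGen (j : F) (ϖ : O) (W : Subring F) (u : F) (m : ℕ) : Prop :=
  ∀ 𝔫 : Ideal ↥(s18_chart O ({j} : Set F)), 𝔫.IsMaximal →
    s18_fibreIdeal O ({j} : Set F) ≤ 𝔫 →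
    ∃ g : F, g ≠ 0 ∧ g - 1 ∈ s34l_gauss O ϖ W 1 ∧
      ∃ c d : ↥(s18_chart O ({j} : Set F)), c ∉ 𝔫 ∧ d ∉ 𝔫 ∧
        g ^ m * (c : F) = u * (d : F)

/-- **(S)** the reduction `I → B / π B` is onto: every `b ∈ B` is `≡ f` modulo `π W` for some
`f ∈ I = s18_root O j u m`. -/
def s34l_Surj (j : F) (ϖ : O) (W : Subring F) (u : F) (m : ℕ) : Prop :=
  ∀ b : ↥(s18_chart O ({j} : Set F)), ∃ f : F, f ∈ s18_root O j u m ∧
    f - (b : F) ∈ s34l_gauss O ϖ W 1

/-- **(P)** the pole lemma for the chart of `j`: if `jⁿ s ∈ I`, `s ≡ 1` modulo `π W` and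
`s^m ≡ u` modulo `π^(k+1) W` then there is `t ∈ (π B)^(k+1)` with
`jⁿ (s^m - u) - u t ∈ π^(k+2) W`. -/
def s34l_Pole (j : F) (ϖ : O) (W : Subring F) (u : F) (m : ℕ) : Prop :=
  ∀ (n k : ℕ) (s : F), j ^ n * s ∈ s18_root O j u m → s - 1 ∈ s34l_gauss O ϖ W 1 →
    s ^ m - u ∈ s34l_gauss O ϖ W (k + 1) →
    ∃ t : ↥(s18_chart O ({j} : Set F)), t ∈ s18_fibreIdeal O ({j} : Set F) ^ (k + 1) ∧
      j ^ n * (s ^ m - u) - u * (t : F) ∈ s34l_gauss O ϖ W (k + 2)

end Defs

/-- **[SURJ2]** -/
def s34l_SurjStatement : Prop :=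
  ∀ (O K F : Type) [CommRing O] [IsDomain O] [IsDiscreteValuationRing O]
    [Field K] [CharZero K] [Algebra O K] [IsFractionRing O K] [Field F] [Algebra K F]
    [Algebra O F] [IsScalarTower O K F] (j : F), Transcendental K j →
    FiniteDimensional ↥K⟮j⟯ F → ∀ ϖ : O, Irreducible ϖ →
    ∀ W : Subring F, s34l_IsW O j ϖ W →
    ∀ (m : ℕ) (u : F), 0 < m → u ≠ 0 → u - 1 ∈ s34l_gauss O ϖ W 1 →
      s34l_LocGen O j ϖ W u m → s34l_Surj O j ϖ W u m

/-- **[POLE2]** -/
def s34l_PoleStatement : Prop :=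
  ∀ (O K F : Type) [CommRing O] [IsDomain O] [IsDiscreteValuationRing O]
    [Field K] [CharZero K] [Algebra O K] [IsFractionRing O K] [Field F] [Algebra K F]
    [Algebra O F] [IsScalarTower O K F] (j : F), Transcendental K j →
    FiniteDimensional ↥K⟮j⟯ F → ∀ ϖ : O, Irreducible ϖ →
    ∀ W : Subring F, s34l_IsW O j ϖ W →
    ∀ (m : ℕ) (u : F), IsUnit (m : O) → u ≠ 0 → u - 1 ∈ s34l_gauss O ϖ W 1 →
      s34l_LocGen O j ϖ W u m → s34l_Pole O j ϖ W u m

/-- **[FIN2]** -/
def s34l_FinStatement : Prop :=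
  ∀ (O K F : Type) [CommRing O] [IsDomain O] [IsDiscreteValuationRing O]
    [Field K] [CharZero K] [Algebra O K] [IsFractionRing O K] [Field F] [Algebra K F]
    [Algebra O F] [IsScalarTower O K F] (j : F), Transcendental K j →
    FiniteDimensional ↥K⟮j⟯ F → ∀ n : ℕ, (s18_H0 O j n).FG

/-- **[CECH2]** -/
def s34l_CechStatement : Prop :=
  ∀ (O K F : Type) [CommRing O] [IsDomain O] [IsDiscreteValuationRing O]
    [Field K] [CharZero K] [Algebra O K] [IsFractionRing O K] [Field F] [Algebra K F]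
    [Algebra O F] [IsScalarTower O K F] (j : F), Transcendental K j →
    FiniteDimensional ↥K⟮j⟯ F →
    ∀ (m : ℕ) (u : F), 0 < m → u ≠ 0 → s18_Cech O j u m

/-- **[GLOB2]** gluing and iteration. -/
def s34l_GlobStatement : Prop :=
  ∀ (O K F : Type) [CommRing O] [IsDomain O] [IsDiscreteValuationRing O]
    [Field K] [CharZero K] [Algebra O K] [IsFractionRing O K] [Field F] [Algebra K F]
    [Algebra O F] [IsScalarTower O K F] (j : F), Transcendental K j →
    FiniteDimensional ↥K⟮j⟯ F → ∀ ϖ : O, Irreducible ϖ →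
    ∀ W : Subring F, s34l_IsW O j ϖ W →
    ∀ (m : ℕ) (u : F), IsUnit (m : O) → u ≠ 0 → u - 1 ∈ s34l_gauss O ϖ W 1 →
      s34l_Surj O j ϖ W u m → s34l_Surj O j⁻¹ ϖ W u m → s34l_Pole O j⁻¹ ϖ W u m →
      (∀ n : ℕ, (s18_H0 O j n).FG) → s18_Cech O j u m → s18_Approx O ϖ u m

/-- **[LIFT2]** the abstract theorem: normalised local generators at all closed points of the
special fibre of both charts ⟹ `u` is an `m`-th power after extension of constants to an
algebraically closed field. -/
def s34l_Lift2Statement : Prop :=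
  ∀ (O K F : Type) [CommRing O] [IsDomain O] [IsDiscreteValuationRing O]
    [Field K] [CharZero K] [Algebra O K] [IsFractionRing O K] [Field F] [Algebra K F]
    [Algebra O F] [IsScalarTower O K F] (j : F), Transcendental K j →
    FiniteDimensional ↥K⟮j⟯ F → ∀ ϖ : O, Irreducible ϖ →
    ∀ W : Subring F, s34l_IsW O j ϖ W →
    ∀ m : ℕ, IsUnit (m : O) → ∀ u : F, u ≠ 0 → u - 1 ∈ s34l_gauss O ϖ W 1 →
      s34l_LocGen O j ϖ W u m → s34l_LocGen O j⁻¹ ϖ W u m →
      ∀ (C : Type) [Field C] [IsAlgClosed C] [Algebra K C],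
        ∃ y : C ⊗[K] F, y ^ m = (1 : C) ⊗ₜ[K] u

/-- The roles of `j` and `j⁻¹` are symmetric in `s34l_IsW`. -/
theorem s34l_IsW.symm {O : Type} [CommRing O] [IsLocalRing O] {F : Type} [Field F] [Algebra O F]
    {j : F} {ϖ : O} {W : Subring F} (h : s34l_IsW O j ϖ W) : s34l_IsW O j⁻¹ ϖ W where
  chart_le := h.chart_le'
  chart_le' := by rw [inv_inv]; exact h.chart_le
  sat := h.sat'
  sat' := by rw [inv_inv]; exact h.sat
  root := h.root
  unit := h.unit

/-- **The composition**: [LIFT2] from its six packages. -/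
theorem s34l_lift2_of (hS : s34l_SurjStatement) (hP : s34l_PoleStatement)
    (hF : s34l_FinStatement) (hC : s34l_CechStatement) (hG : s34l_GlobStatement)
    (hN : s18_NsatzStatement) : s34l_Lift2Statement := by
  intro O K F _ _ _ _ _ _ _ _ _ _ _ j htr hfin ϖ hϖ W hW m hm u hu hred hloc hloc' C _ _ _
  have hm0 : 0 < m := by
    rcases Nat.eq_zero_or_pos m with h | h
    · subst h
      simp at hm
    · exact h
  have htr' : Transcendental K j⁻¹ := by
    intro halg
    exact htr (by simpa using halg.inv)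
  have hfin' : FiniteDimensional ↥K⟮j⁻¹⟯ F := by
    have e : K⟮j⁻¹⟯ = K⟮j⟯ := by
      apply le_antisymm
      · rw [adjoin_simple_le_iff]
        exact inv_mem (mem_adjoin_simple_self K j)
      · rw [adjoin_simple_le_iff]
        have := inv_mem (mem_adjoin_simple_self K j⁻¹)
        rwa [inv_inv] at this
    rw [e]
    exact hfin
  have hs := hS O K F j htr hfin ϖ hϖ W hW m u hm0 hu hred hloc
  have hs' := hS O K F j⁻¹ htr' hfin' ϖ hϖ W hW.symm m u hm0 hu hred hloc'
  have hp' := hP O K F j⁻¹ htr' hfin' ϖ hϖ W hW.symm m u hm hu hred hloc'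
  have hfinH := hF O K F j htr hfin
  have hcech := hC O K F j htr hfin m u hm0 hu
  exact hN O K F ϖ hϖ m u
    (hG O K F j htr hfin ϖ hϖ W hW m u hm hu hred hs hs' hp' hfinH hcech) C

end Fermat.Agent.S34
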