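/-
S34 (unipotent inertia at `q ∥ N`), TOP INTERFACE.  Architect: helper13.  Prefix `s34_`.
Definitions, `Prop`s and the compositions.

ROUTE (board #1598 / #1599, GO #1604).  `A` a valuation ring of `Q̄` over `q`, `τ` in its inertia
group, `q ∥ N`, `q ∤ m`.

  [UNIP-J]   `(τ - 1)² = 0` on `J₀(N)(Q̄)[m]`:  `τ • τ • x + x = 2 • τ • x`.
  [S34-TR]   [UNIP-J] ⟹ S34                (the S31 trace trick: `V_{m₁}(T_{ℓ₁}) = τ + τ⁻¹ = 2`
             on `J[p^k]`, [FAITH] with `P₂ = 2`; `det ρ(τ) = 1` by [CYC]).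
  [U-DOWN]   [UNIP-J] at the level `s18_level N q` ⟹ [UNIP-J] at `N`     (DONE HERE: the conorm
             `S37.s37da_conorm` is Galois equivariant and injective on torsion).
  (USTAR)    the Kummer form at level `N`: for `f ∈ F̄_Nˣ` with `m ∣ ord_P f` at all places,
             `τ²f · f / (τ f)²` is an `m`-th power in `F̄_N`.
  [U-WIRE]   (USTAR) at level `N` ⟹ [UNIP-J] at level `N`              (Kummer dictionary).
  [U-RAT]    (USTAR-K) ⟹ (USTAR) at the levels `M * q`, `q ∤ M`, `4 ∣ M` or `9 ∣ M`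
             (descent to a number field `K0` NORMAL over `ℚ` over which all zeros and poles of
             `f` have degree `1`).
  (USTAR-K)  ⟸ [LIFT2] (`S34/LiftDefs.lean`) + [LOC1] (`S34/ModelDefs.lean`).
-/
import Mathlib
import Fermat.Prelude.Def_CuspForm_HeckeGaloisRepDatum
import Fermat.Prelude.Def_GaloisRep_LocalConditions
import Fermat.Agent.S37.DescAsm
import Fermat.Agent.S34.LiftDefs

set_option autoImplicit false

open AlgebraicCurve ModularCurve IntermediateField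
open scoped TensorProduct

noncomputable section

namespace Fermat.Agent.S34

open Fermat.Agent.S18

/-! ### [UNIP-J] -/

/-- **[UNIP-J] at the level `N` and the prime `q`**: the second difference `(τ - 1)²` of every
`τ` in an inertia group at `q` kills the torsion of order prime to `q` of `J₀(N)(Q̄)`. -/
def s34_UnipJAt (N q : ℕ) : Prop :=
  ∀ A : ValuationSubring (AlgebraicClosure ℚ), A.LiesOverPrime q →
    ∀ m : ℕ, ¬ q ∣ m → ∀ τ : AlgebraicClosure ℚ ≃ₐ[ℚ] AlgebraicClosure ℚ,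
      τ ∈ A.inertiaSubgroupIn ℚ → ∀ x : JZero N, m • x = 0 → τ • τ • x + x = 2 • τ • x

/-- **[UNIP-J]** at all levels `N` with `q ∥ N`. -/
def s34_UnipJStatement : Prop :=
  ∀ (N q : ℕ) [NeZero N], q.Prime → q ∣ N → ¬ q ^ 2 ∣ N → s34_UnipJAt N q

/-- **[UNIP-J-M]** at the levels `M * q`, `q ∤ M`, `4 ∣ M` or `9 ∣ M`. -/
def s34_UnipJMStatement : Prop :=
  ∀ (M q : ℕ) [NeZero M], q.Prime → ¬ q ∣ M → (4 ∣ M ∨ 9 ∣ M) → s34_UnipJAt (M * q) q

/-! ### The Kummer form -/

section SD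

variable {L : Type*} [Field L] [Algebra ℚ L] (N : ℕ)

/-- The second difference `(τ - 1)² f = τ²f · f / (τ f)²` of a function, `τ` acting on the
coefficients of the `q`-expansion. -/
def s34_sd (τ : L ≃ₐ[ℚ] L) (f : ↥(laurentBaseChange L (modularFunctionFieldFull N))) :
    ↥(laurentBaseChange L (modularFunctionFieldFull N)) :=
  (arithmeticGalois (modularFunctionFieldFull N) τ •
      (arithmeticGalois (modularFunctionFieldFull N) τ • f)) * f /
    (arithmeticGalois (modularFunctionFieldFull N) τ • f) ^ 2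

end SD

/-- **(USTAR)** at level `N` for the exponent `m` and the automorphism `τ`: for every
`f ∈ F̄_Nˣ` all of whose orders are divisible by `m`, the second difference `(τ - 1)² f` is an
`m`-th power in `F̄_N`. -/
def s34_UStar (N m : ℕ) (τ : AlgebraicClosure ℚ ≃ₐ[ℚ] AlgebraicClosure ℚ) : Prop :=
  ∀ f : ↥(modularFunctionFieldBar N), f ≠ 0 →
    (∀ P : Place (AlgebraicClosure ℚ) ↥(modularFunctionFieldBar N), (m : ℤ) ∣ P.ord f) →
    ∃ v : ↥(modularFunctionFieldBar N), v ^ m = s34_sd N τ f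

/-- **(USTAR-M)** (USTAR) at the levels `M * q`, `q ∤ M`, `4 ∣ M` or `9 ∣ M`, for the inertia
groups at `q` and the exponents prime to `q`. -/
def s34_UStarMStatement : Prop :=
  ∀ (M q : ℕ) [NeZero M], q.Prime → ¬ q ∣ M → (4 ∣ M ∨ 9 ∣ M) →
    ∀ A : ValuationSubring (AlgebraicClosure ℚ), A.LiesOverPrime q →
    ∀ m : ℕ, ¬ q ∣ m → ∀ τ : AlgebraicClosure ℚ ≃ₐ[ℚ] AlgebraicClosure ℚ,
      τ ∈ A.inertiaSubgroupIn ℚ → s34_UStar (M * q) m τ

/-- **[U-WIRE]** the Kummer dictionary: (USTAR) at level `N` implies [UNIP-J] at level `N`. -/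
def s34_WireStatement : Prop :=
  ∀ (N q : ℕ) [NeZero N], q.Prime →
    (∀ A : ValuationSubring (AlgebraicClosure ℚ), A.LiesOverPrime q →
      ∀ m : ℕ, ¬ q ∣ m → ∀ τ : AlgebraicClosure ℚ ≃ₐ[ℚ] AlgebraicClosure ℚ,
        τ ∈ A.inertiaSubgroupIn ℚ → s34_UStar N m τ) →
    s34_UnipJAt N q

/-! ### The number field form -/

/-- **(USTAR-K)** over a number field `K0 ⊆ Q̄`: `O` a discrete valuation ring of `K0` over `q`,
`τ0` an automorphism of `K0` in the inertia group of `O` (`τ0 O = O`, `τ0 = id` on the residue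
field), `f ∈ F_{K0}(M q)ˣ` with all orders divisible by `m` and all zeros and poles of
degree `1`: the second difference of `f` is an `m`-th power after extension of constants to an
algebraically closed field. -/
def s34_UStarKStatement : Prop :=
  ∀ (M q : ℕ) [NeZero M], q.Prime → ¬ q ∣ M → (4 ∣ M ∨ 9 ∣ M) →
    ∀ (K0 : IntermediateField ℚ (AlgebraicClosure ℚ)), FiniteDimensional ℚ ↥K0 →
    ∀ (O : ValuationSubring ↥K0) [IsDiscreteValuationRing ↥O],
      (q : ↥O) ∈ IsLocalRing.maximalIdeal ↥O →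
    ∀ τ0 : ↥K0 ≃ₐ[ℚ] ↥K0,
      (∀ x : ↥O, ∃ y : ↥O, y ∈ IsLocalRing.maximalIdeal ↥O ∧ (y : ↥K0) = τ0 (x : ↥K0) - x) →
    ∀ m : ℕ, ¬ q ∣ m → ∀ f : ↥(s18_F ↥K0 (M * q)), f ≠ 0 →
      (∀ P : Place ↥K0 ↥(s18_F ↥K0 (M * q)), (m : ℤ) ∣ P.ord f) →
      (∀ P : Place ↥K0 ↥(s18_F ↥K0 (M * q)), P.ord f ≠ 0 → P.deg = 1) →
      ∀ (C : Type) [Field C] [IsAlgClosed C] [Algebra ↥K0 C],
        ∃ y : C ⊗[↥K0] ↥(s18_F ↥K0 (M * q)), y ^ m = (1 : C) ⊗ₜ[↥K0] s34_sd (M * q) τ0 f

/-- **[U-RAT]** the passage from `Q̄`, `A`, `τ` to number fields. -/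
def s34_RatStatement : Prop := s34_UStarKStatement → s34_UStarMStatement

/-! ### S34 -/

/-- The statement S34, verbatim. -/
def s34_Goal : Prop :=
  ∀ {𝒪 : Type} [CommRing 𝒪] [IsDomain 𝒪] [IsDiscreteValuationRing 𝒪]
    [IsAdicComplete (IsLocalRing.maximalIdeal 𝒪) 𝒪] [Finite (IsLocalRing.ResidueField 𝒪)]
    [CharZero 𝒪]
    {p : ℕ} (_ : p.Prime) (_ : (p : 𝒪) ∈ IsLocalRing.maximalIdeal 𝒪)
    {N : ℕ} [NeZero N] {S : Finset ℕ} (_ : p ∈ S) (_ : ∀ q : ℕ, q.Prime → q ∣ N → q ∈ S)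
    {θ : CuspForm.heckeAlgebra N 2 (↑S : Set ℕ) →+* IsLocalRing.ResidueField 𝒪}
    {T : Type} [CommRing T] [IsLocalRing T] [IsNoetherianRing T]
    [IsAdicComplete (IsLocalRing.maximalIdeal T) T] [Algebra 𝒪 T] [IsLocalHom (algebraMap 𝒪 T)]
    [Module.Finite 𝒪 T] [Module.Free 𝒪 T]
    (H : CuspForm.HeckeGaloisRepDatum N (↑S : Set ℕ) 𝒪 θ T)
    (q : ℕ) (_ : q.Prime) (_ : q ≠ p) (_ : q ∣ N) (_ : ¬ q ^ 2 ∣ N),
    H.ρ.IsUnipotentOnInertiaAt q

/-- **[S34-TR]** the trace trick: [UNIP-J] implies S34. -/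
def s34_TrStatement : Prop := s34_UnipJStatement → s34_Goal

/-! ### [U-DOWN] -/

/-- **[U-DOWN]** [UNIP-J] descends along the conorm `J₀(N) → J₀(s18_level N q)`. -/
theorem s34_smul_torsion {N : ℕ} (τ : AlgebraicClosure ℚ ≃ₐ[ℚ] AlgebraicClosure ℚ) {m : ℕ}
    {x : JZero N} (hx : m • x = 0) : m • (τ • x) = 0 := by
  have h : τ • (m • x) = m • (τ • x) :=
    map_nsmul (DistribSMul.toAddMonoidHom (JZero N) τ) m x
  rw [← h, hx]
  exact smul_zero (A := JZero N) τ

theorem s34_down (N q : ℕ) [NeZero N] (h : s34_UnipJAt (S18.s18_level N q) q) :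
    s34_UnipJAt N q := by
  haveI : NeZero (S18.s18_level N q) := ⟨S18.s18_level_ne_zero N q⟩
  intro A hA m hm τ hτ x hx
  have hm0 : m ≠ 0 := by
    rintro rfl
    exact hm (dvd_zero q)
  have hcx : m • S37.s37da_conorm N q x = 0 := by rw [← map_nsmul, hx, map_zero]
  have h1 := h A hA m hm τ hτ (S37.s37da_conorm N q x) hcx
  have h2 : S37.s37da_conorm N q (τ • τ • x + x - 2 • τ • x) = 0 := by
    rw [map_sub, map_add, map_nsmul, S37.s37da_galois, S37.s37da_galois, h1, sub_self]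
  have e1 : m • (τ • x) = 0 := s34_smul_torsion τ hx
  have e2 : m • (τ • τ • x) = 0 := s34_smul_torsion τ e1
  have h3 : m • (τ • τ • x + x - 2 • τ • x) = 0 := by
    rw [nsmul_sub, nsmul_add, e2, hx, nsmul_left_comm, e1]
    simp
  exact sub_eq_zero.mp (S37.s37da_inj N q m hm0 _ h3 h2)

/-! ### The compositions -/

/-- The auxiliary level `s18_level N q` of a level `N` with `q ∥ N` is `M * q` with `q ∤ M` and
`4 ∣ M` or `9 ∣ M`. -/
theorem s34_level_eq (N q : ℕ) [NeZero N] (hq : q.Prime) (hqN : q ∣ N) (hq2 : ¬ q ^ 2 ∣ N) :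
    ∃ M : ℕ, M ≠ 0 ∧ S18.s18_level N q = M * q ∧ ¬ q ∣ M ∧ (4 ∣ M ∨ 9 ∣ M) := by
  have hN' : S18.s18_level N q ≠ 0 := S18.s18_level_ne_zero N q
  have hNN' : N ∣ S18.s18_level N q := S37.s37di_dvd_level N q
  obtain ⟨M, hM⟩ := hqN.trans hNN'
  have hM' : S18.s18_level N q = M * q := by rw [hM, mul_comm]
  have hM0 : M ≠ 0 := by
    rintro rfl
    rw [zero_mul] at hM'
    exact hN' hM'
  have hq2' : ¬ q ^ 2 ∣ S18.s18_level N q := by
    unfold S18.s18_level
    split_ifs with h2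
    · subst h2
      intro h
      have h1 : (2 : ℕ) ^ 2 ∣ N * 9 := h.trans (Nat.lcm_dvd_mul N 9)
      exact hq2 ((Nat.Coprime.dvd_of_dvd_mul_right (by norm_num) h1))
    · intro h
      have h1 : q ^ 2 ∣ N * 4 := h.trans (Nat.lcm_dvd_mul N 4)
      have hc : Nat.Coprime (q ^ 2) 4 := by
        have : Nat.Coprime q 2 := (Nat.coprime_primes hq Nat.prime_two).2 h2
        have h4 : Nat.Coprime q (2 ^ 2) := Nat.Coprime.pow_right 2 this
        exact Nat.Coprime.pow_left 2 (by simpa using h4)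
      exact hq2 (Nat.Coprime.dvd_of_dvd_mul_right hc h1)
  refine ⟨M, hM0, hM', ?_, ?_⟩
  · intro h
    apply hq2'
    rw [hM', pow_two]
    exact Nat.mul_dvd_mul h dvd_rfl
  · rcases S18.s18_level_dvd N q with h4 | h9
    · by_cases h2 : q = 2
      · exfalso
        subst h2
        apply hq2'
        simpa using h4
      · left
        rw [hM'] at h4
        have hc : Nat.Coprime 4 q := by
          have : Nat.Coprime 2 q := (Nat.coprime_primes Nat.prime_two hq).2 (Ne.symm h2)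
          have h4' : Nat.Coprime (2 ^ 2) q := Nat.Coprime.pow_left 2 this
          simpa using h4'
        exact Nat.Coprime.dvd_of_dvd_mul_right hc h4
    · by_cases h3 : q = 3
      · exfalso
        subst h3
        apply hq2'
        simpa using h9
      · right
        rw [hM'] at h9
        have hc : Nat.Coprime 9 q := by
          have : Nat.Coprime 3 q := (Nat.coprime_primes Nat.prime_three hq).2 (Ne.symm h3)
          have h9' : Nat.Coprime (3 ^ 2) q := Nat.Coprime.pow_left 2 this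
          simpa using h9'
        exact Nat.Coprime.dvd_of_dvd_mul_right hc h9

/-- [UNIP-J] from [UNIP-J-M] (by [U-DOWN]). -/
theorem s34_unipJ_of_M (h : s34_UnipJMStatement) : s34_UnipJStatement := by
  intro N q _ hq hqN hq2
  obtain ⟨M, hM0, hM, hqM, h49⟩ := s34_level_eq N q hq hqN hq2
  haveI : NeZero M := ⟨hM0⟩
  apply s34_down N q
  rw [hM]
  exact h M q hq hqM h49

/-- [UNIP-J-M] from (USTAR-M) and [U-WIRE]. -/
theorem s34_unipJM_of (hW : s34_WireStatement) (hU : s34_UStarMStatement) :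
    s34_UnipJMStatement := by
  intro M q _ hq hqM h49
  haveI : NeZero (M * q) := ⟨Nat.mul_ne_zero (NeZero.ne M) hq.ne_zero⟩
  exact hW (M * q) q hq fun A hA m hm τ hτ => hU M q hq hqM h49 A hA m hm τ hτ

/-- **The top composition**: S34 from [S34-TR], [U-WIRE], [U-RAT] and (USTAR-K). -/
theorem s34_goal_of (hT : s34_TrStatement) (hW : s34_WireStatement) (hR : s34_RatStatement)
    (hK : s34_UStarKStatement) : s34_Goal :=
  hT (s34_unipJ_of_M (s34_unipJM_of hW (hR hK)))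

end Fermat.Agent.S34
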