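/-
S34, THE WIRING OF (USTAR-K) (architect: helper13).  Prefix `s34_`.

  `s34_ustarK_of : s34l_Lift2Statement → s34_KDataStatement → s34_UStarKStatement`.

`s34_KDataStatement` is what the MODEL ([SS-GAUSS], [SS-W], [SS-INT], [DEG-K], [SS-COUNT],
[SS-BRANCH], [SS-NODE]) and the LOCAL ANALYSIS ([LOC-ABS], [LOC-DER], [LOC-UNIT], [SS-LOC1]) deliver
together, in the vocabulary of helper18's `S34/LiftDefs.lean`: at the level `M * q` over the
discrete valuation ring `O` of the number field `K0`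

  * a coordinate `J` (`J = j · j_q`), a uniformizer `ϖ` of `O`, a subring `W` (`W = V_∞ ⊓ V_0`)
    with `s34l_IsW O J ϖ W`;
  * for every `τ0` in the inertia group of `O`, every exponent `m` prime to `q` and every
    `f ≠ 0` with all orders divisible by `m` and all zeros and poles of degree `1`: the second
    difference `u = s34_sd τ0 f` is `≡ 1` modulo `π W` and has normalised local generators
    (`s34l_LocGen`) at all closed points of the special fibre of both charts.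
-/
import Mathlib
import Fermat.Agent.S34.Defs

set_option autoImplicit false

open AlgebraicCurve ModularCurve IntermediateField
open scoped TensorProduct

noncomputable section

namespace Fermat.Agent.S34

open Fermat.Agent.S18

/-- **[K-DATA]** the model at level `M * q` with its normalised local generators. -/
def s34_KDataStatement : Prop :=
  ∀ (M q : ℕ) [NeZero M], q.Prime → ¬ q ∣ M → (4 ∣ M ∨ 9 ∣ M) →
    ∀ (K0 : IntermediateField ℚ (AlgebraicClosure ℚ)), FiniteDimensional ℚ ↥K0 →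
    ∀ (O : ValuationSubring ↥K0) [IsDiscreteValuationRing ↥O],
      (q : ↥O) ∈ IsLocalRing.maximalIdeal ↥O →
      letI := s18_algOF ↥O ↥K0 (M * q)
      ∃ (J : ↥(s18_F ↥K0 (M * q))) (ϖ : ↥O) (W : Subring ↥(s18_F ↥K0 (M * q))),
        Irreducible ϖ ∧ Transcendental ↥K0 J ∧
        FiniteDimensional ↥(↥K0)⟮J⟯ ↥(s18_F ↥K0 (M * q)) ∧
        s34l_IsW ↥O J ϖ W ∧
        ∀ τ0 : ↥K0 ≃ₐ[ℚ] ↥K0,
          (∀ x : ↥O, ∃ y : ↥O, y ∈ IsLocalRing.maximalIdeal ↥O ∧
            (y : ↥K0) = τ0 (x : ↥K0) - x) →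
          ∀ m : ℕ, ¬ q ∣ m → ∀ f : ↥(s18_F ↥K0 (M * q)), f ≠ 0 →
            (∀ P : Place ↥K0 ↥(s18_F ↥K0 (M * q)), (m : ℤ) ∣ P.ord f) →
            (∀ P : Place ↥K0 ↥(s18_F ↥K0 (M * q)), P.ord f ≠ 0 → P.deg = 1) →
            s34_sd (M * q) τ0 f - 1 ∈ s34l_gauss ↥O ϖ W 1 ∧
            s34l_LocGen ↥O J ϖ W (s34_sd (M * q) τ0 f) m ∧
            s34l_LocGen ↥O J⁻¹ ϖ W (s34_sd (M * q) τ0 f) m

/-- An exponent prime to the residue characteristic is a unit. -/
theorem s34_isUnit_of_not_dvd {O : Type*} [CommRing O] [IsLocalRing O] {q m : ℕ}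
    (hq : q.Prime) (hqO : (q : O) ∈ IsLocalRing.maximalIdeal O) (hm : ¬ q ∣ m) :
    IsUnit (m : O) := by
  by_contra h
  have hmO : (m : O) ∈ IsLocalRing.maximalIdeal O := (IsLocalRing.mem_maximalIdeal _).2 h
  have hc : Nat.Coprime q m := (Nat.Prime.coprime_iff_not_dvd hq).2 hm
  have h1 : ((Nat.gcd q m : ℕ) : ℤ) = q * Nat.gcdA q m + m * Nat.gcdB q m :=
    Nat.gcd_eq_gcd_ab q m
  rw [hc.gcd_eq_one] at h1
  have h2 : (1 : O) = (q : O) * ((Nat.gcdA q m : ℤ) : O) + (m : O) * ((Nat.gcdB q m : ℤ) : O) := by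
    have := congrArg (fun z : ℤ => (z : O)) h1
    simpa using this
  have h3 : (1 : O) ∈ IsLocalRing.maximalIdeal O := by
    rw [h2]
    exact Ideal.add_mem _ (Ideal.mul_mem_right _ _ hqO) (Ideal.mul_mem_right _ _ hmO)
  exact (IsLocalRing.maximalIdeal.isMaximal O).ne_top
    ((Ideal.eq_top_iff_one _).2 h3)

/-- The second difference of a non-zero function is non-zero. -/
theorem s34_sd_ne_zero {L : Type*} [Field L] [Algebra ℚ L] (N : ℕ) (τ : L ≃ₐ[ℚ] L)
    {f : ↥(laurentBaseChange L (modularFunctionFieldFull N))} (hf : f ≠ 0) :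
    s34_sd N τ f ≠ 0 := by
  have h1 : arithmeticGalois (modularFunctionFieldFull N) τ • f ≠ 0 := by
    intro h
    apply hf
    have := congrArg (fun x => (arithmeticGalois (modularFunctionFieldFull N) τ)⁻¹ • x) h
    simpa using this
  have h2 : arithmeticGalois (modularFunctionFieldFull N) τ •
      (arithmeticGalois (modularFunctionFieldFull N) τ • f) ≠ 0 := by
    intro h
    apply h1
    have := congrArg (fun x => (arithmeticGalois (modularFunctionFieldFull N) τ)⁻¹ • x) h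
    simpa using this
  unfold s34_sd
  exact div_ne_zero (mul_ne_zero h2 hf) (pow_ne_zero 2 h1)

/-- **The wiring**: (USTAR-K) from [LIFT2] and [K-DATA]. -/
theorem s34_ustarK_of (hL : s34l_Lift2Statement) (hD : s34_KDataStatement) :
    s34_UStarKStatement := by
  intro M q _ hq hqM h49 K0 hK0 O _ hqO τ0 hτ0 m hm f hf hord hdeg C _ _ _
  letI := s18_algOF ↥O ↥K0 (M * q)
  haveI := s18_towerOF ↥O ↥K0 (M * q)
  obtain ⟨J, ϖ, W, hϖ, hJ, hfin, hW, hloc⟩ := hD M q hq hqM h49 K0 hK0 O hqO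
  obtain ⟨h1, h2, h3⟩ := hloc τ0 hτ0 m hm f hf hord hdeg
  exact hL ↥O ↥K0 ↥(s18_F ↥K0 (M * q)) J hJ hfin ϖ hϖ W hW m
    (s34_isUnit_of_not_dvd hq hqO hm) (s34_sd (M * q) τ0 f) (s34_sd_ne_zero (M * q) τ0 hf)
    h1 h2 h3 C

end Fermat.Agent.S34
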