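/-
S34, leaf [SS-LOC1], step 1: the abstract core (owner: helper29).  Prefix `s34l1_`.

`B` a domain with field of fractions `F`, `π ∈ B`, `n ∋ π` a prime ideal, `τ` an automorphism of
`F` which induces an automorphism `σ` of `B` with `σ b ≡ b` modulo `π` and `σ π = η π`, `η ∈ Bˣ`;
`𝒬` a `σ`-stable set of prime ideals inside `n` (in the application: the primes of height one
inside `n`) such that

* `B_q` is a discrete valuation ring with uniformizer `π` for the `q ∈ 𝒬` with `π ∈ q`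
  (the BRANCHES through `n`),
* a non-zero element of `F` which is a unit at every `q ∈ 𝒬` is a unit at `n` ([LOC-UNIT]).

Write `(τ - 1) h := τ h / h`.

* `s34l1_sq_oneMod`: `(τ - 1)² h ∈ 1 + π B_q` for EVERY `h ∈ Fˣ` and every branch `q`
  (the monodromy `(τ - 1) h ≡ η ^ ord_q h` is a constant, the second difference kills it);
* `s34l1_abs`: if `f / G ^ m` is a unit at every `q ∈ 𝒬` with `π ∉ q` (the horizontal primes),
  then `g := (τ - 1)² G` and `u := (τ - 1)² f` satisfy `g ^ m / u ∈ 1 + π B_n` and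
  `g ∈ 1 + π B_q` for every branch `q`: this is `LocGen1` at `n`.
-/
import Mathlib

set_option autoImplicit false

namespace Fermat.Agent.S34

variable {B F : Type*} [CommRing B] [IsDomain B] [Field F] [Algebra B F] [IsFractionRing B F]

/-- `x` is a unit of the localisation of `B` at `q`. -/
def s34l1_IsUnitAt (q : Ideal B) (x : F) : Prop :=
  ∃ a b : B, a ∉ q ∧ b ∉ q ∧ x * algebraMap B F b = algebraMap B F a

/-- `x ∈ 1 + π B_q`. -/
def s34l1_OneMod (π : B) (q : Ideal B) (x : F) : Prop :=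
  ∃ c d : B, d ∉ q ∧ (x - 1) * algebraMap B F d = algebraMap B F (π * c)

section basic

variable (q : Ideal B) [hq : q.IsPrime]

omit [IsDomain B] hq in
theorem s34l1_map_ne_zero {b : B} (hb : b ∉ q) : algebraMap B F b ≠ 0 := by
  intro h
  have h0 : b = 0 := IsFractionRing.injective B F (h.trans (map_zero _).symm)
  exact hb (h0 ▸ q.zero_mem)

omit [IsDomain B] hq in
theorem s34l1_isUnitAt_ne_zero {x : F} (hx : s34l1_IsUnitAt q x) : x ≠ 0 := by
  obtain ⟨a, b, ha, -, hab⟩ := hx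
  rintro rfl
  rw [zero_mul] at hab
  exact s34l1_map_ne_zero q ha hab.symm

omit [IsDomain B] [IsFractionRing B F] in
theorem s34l1_isUnitAt_one : s34l1_IsUnitAt q (1 : F) :=
  ⟨1, 1, fun h => hq.ne_top ((Ideal.eq_top_iff_one q).mpr h),
    fun h => hq.ne_top ((Ideal.eq_top_iff_one q).mpr h), by rw [one_mul]⟩

omit [IsDomain B] [IsFractionRing B F] in
theorem s34l1_isUnitAt_mul {x y : F} (hx : s34l1_IsUnitAt q x) (hy : s34l1_IsUnitAt q y) :
    s34l1_IsUnitAt q (x * y) := by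
  obtain ⟨a, b, ha, hb, hab⟩ := hx
  obtain ⟨a', b', ha', hb', hab'⟩ := hy
  refine ⟨a * a', b * b', fun h => (hq.mem_or_mem h).elim ha ha',
    fun h => (hq.mem_or_mem h).elim hb hb', ?_⟩
  rw [map_mul, map_mul, ← hab, ← hab']
  ring

omit [IsDomain B] hq in
theorem s34l1_isUnitAt_inv {x : F} (hx : s34l1_IsUnitAt q x) : s34l1_IsUnitAt q x⁻¹ := by
  have hx0 := s34l1_isUnitAt_ne_zero q hx
  obtain ⟨a, b, ha, hb, hab⟩ := hx
  refine ⟨b, a, hb, ha, ?_⟩
  rw [← hab]
  field_simp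

omit [IsDomain B] in
theorem s34l1_isUnitAt_div {x y : F} (hx : s34l1_IsUnitAt q x) (hy : s34l1_IsUnitAt q y) :
    s34l1_IsUnitAt q (x / y) := by
  rw [div_eq_mul_inv]
  exact s34l1_isUnitAt_mul q hx (s34l1_isUnitAt_inv q hy)

omit [IsDomain B] [IsFractionRing B F] in
theorem s34l1_isUnitAt_pow {x : F} (hx : s34l1_IsUnitAt q x) (k : ℕ) :
    s34l1_IsUnitAt q (x ^ k) := by
  induction k with
  | zero => rw [pow_zero]; exact s34l1_isUnitAt_one q
  | succ k ih => rw [pow_succ]; exact s34l1_isUnitAt_mul q ih hx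

omit [IsDomain B] in
theorem s34l1_isUnitAt_zpow {x : F} (hx : s34l1_IsUnitAt q x) (k : ℤ) :
    s34l1_IsUnitAt q (x ^ k) := by
  cases k with
  | ofNat k => rw [Int.ofNat_eq_natCast, zpow_natCast]; exact s34l1_isUnitAt_pow q hx k
  | negSucc k =>
    rw [zpow_negSucc]
    exact s34l1_isUnitAt_inv q (s34l1_isUnitAt_pow q hx _)

omit [IsDomain B] [IsFractionRing B F] in
/-- A unit of `B` is a unit at every prime. -/
theorem s34l1_isUnitAt_of_isUnit {η : B} (hη : IsUnit η) :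
    s34l1_IsUnitAt q (algebraMap B F η) :=
  ⟨η, 1, fun h => hq.ne_top (Ideal.eq_top_of_isUnit_mem q h hη),
    fun h => hq.ne_top ((Ideal.eq_top_iff_one q).mpr h), by rw [map_one, mul_one]⟩

omit [IsDomain B] [IsFractionRing B F] hq in
theorem s34l1_isUnitAt_mono {n : Ideal B} (hqn : q ≤ n) {x : F} (hx : s34l1_IsUnitAt n x) :
    s34l1_IsUnitAt q x := by
  obtain ⟨a, b, ha, hb, hab⟩ := hx
  exact ⟨a, b, fun h => ha (hqn h), fun h => hb (hqn h), hab⟩

omit [IsDomain B] [IsFractionRing B F] hq in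
theorem s34l1_oneMod_mono {π : B} {n : Ideal B} (hqn : q ≤ n) {x : F}
    (hx : s34l1_OneMod π n x) : s34l1_OneMod π q x := by
  obtain ⟨c, d, hd, hcd⟩ := hx
  exact ⟨c, d, fun h => hd (hqn h), hcd⟩

variable {π : B}

omit [IsDomain B] [IsFractionRing B F] in
theorem s34l1_oneMod_one : s34l1_OneMod π q (1 : F) :=
  ⟨0, 1, fun h => hq.ne_top ((Ideal.eq_top_iff_one q).mpr h), by
    rw [sub_self, zero_mul, mul_zero, map_zero]⟩

omit [IsDomain B] [IsFractionRing B F] hq in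
theorem s34l1_oneMod_isUnitAt (hπ : π ∈ q) {x : F} (hx : s34l1_OneMod π q x) :
    s34l1_IsUnitAt q x := by
  obtain ⟨c, d, hd, hcd⟩ := hx
  refine ⟨d + π * c, d, ?_, hd, ?_⟩
  · intro h
    exact hd ((q.add_mem_iff_left (q.mul_mem_right c hπ)).mp h)
  · rw [map_add, ← hcd]
    ring

omit [IsDomain B] [IsFractionRing B F] in
theorem s34l1_oneMod_mul {x y : F} (hx : s34l1_OneMod π q x) (hy : s34l1_OneMod π q y) :
    s34l1_OneMod π q (x * y) := by
  obtain ⟨c, d, hd, hcd⟩ := hx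
  obtain ⟨c', d', hd', hcd'⟩ := hy
  refine ⟨c * d' + c' * d + π * c * c', d * d', fun h => (hq.mem_or_mem h).elim hd hd', ?_⟩
  have e1 : x * algebraMap B F d = algebraMap B F d + algebraMap B F (π * c) := by
    rw [← hcd]; ring
  have e2 : y * algebraMap B F d' = algebraMap B F d' + algebraMap B F (π * c') := by
    rw [← hcd']; ring
  have e3 : (x * y - 1) * algebraMap B F (d * d') =
      (x * algebraMap B F d) * (y * algebraMap B F d') - algebraMap B F d * algebraMap B F d' := by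
    rw [map_mul]; ring
  rw [e3, e1, e2]
  simp only [map_mul, map_add]
  ring

omit [IsDomain B] hq in
theorem s34l1_oneMod_inv (hπ : π ∈ q) {x : F} (hx : s34l1_OneMod π q x) :
    s34l1_OneMod π q x⁻¹ := by
  have hx0 := s34l1_isUnitAt_ne_zero q (s34l1_oneMod_isUnitAt q hπ hx)
  obtain ⟨c, d, hd, hcd⟩ := hx
  have hd' : d + π * c ∉ q := fun h => hd ((q.add_mem_iff_left (q.mul_mem_right c hπ)).mp h)
  refine ⟨-c, d + π * c, hd', ?_⟩
  have e1 : x * algebraMap B F d = algebraMap B F d + algebraMap B F (π * c) := by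
    rw [← hcd]; ring
  have hd0 : algebraMap B F d ≠ 0 := s34l1_map_ne_zero q hd
  have e2 : algebraMap B F (d + π * c) = x * algebraMap B F d := by rw [map_add, e1]
  rw [e2]
  have e3 : algebraMap B F (π * -c) = algebraMap B F d - x * algebraMap B F d := by
    rw [e1, mul_neg, map_neg]; ring
  rw [e3]
  field_simp

omit [IsDomain B] in
theorem s34l1_oneMod_div (hπ : π ∈ q) {x y : F} (hx : s34l1_OneMod π q x)
    (hy : s34l1_OneMod π q y) : s34l1_OneMod π q (x / y) := by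
  rw [div_eq_mul_inv]
  exact s34l1_oneMod_mul q hx (s34l1_oneMod_inv q hπ hy)

omit [IsDomain B] [IsFractionRing B F] in
theorem s34l1_oneMod_pow {x : F} (hx : s34l1_OneMod π q x) (k : ℕ) :
    s34l1_OneMod π q (x ^ k) := by
  induction k with
  | zero => rw [pow_zero]; exact s34l1_oneMod_one q
  | succ k ih => rw [pow_succ]; exact s34l1_oneMod_mul q ih hx

omit [IsDomain B] in
theorem s34l1_oneMod_zpow (hπ : π ∈ q) {x : F} (hx : s34l1_OneMod π q x) (k : ℤ) :
    s34l1_OneMod π q (x ^ k) := by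
  cases k with
  | ofNat k => rw [Int.ofNat_eq_natCast, zpow_natCast]; exact s34l1_oneMod_pow q hx k
  | negSucc k =>
    rw [zpow_negSucc]
    exact s34l1_oneMod_inv q hπ (s34l1_oneMod_pow q hx _)

end basic

/-! ### The automorphism -/

section tau

variable (π : B) (τ : F ≃+* F) (σ : B ≃+* B)

omit [IsDomain B] [IsFractionRing B F] in
/-- A prime containing `π` is `σ`-stable. -/
theorem s34l1_sigma_mem_iff (hσ : ∀ b : B, ∃ c : B, σ b - b = π * c) (q : Ideal B) (hπ : π ∈ q)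
    (b : B) : σ b ∈ q ↔ b ∈ q := by
  obtain ⟨c, hc⟩ := hσ b
  have e : σ b = b + π * c := by rw [← hc]; ring
  rw [e]
  exact q.add_mem_iff_left (q.mul_mem_right c hπ)

omit [IsDomain B] [IsFractionRing B F] in
/-- `x` a unit at `comap σ q` implies `τ x` a unit at `q`. -/
theorem s34l1_isUnitAt_tau (hστ : ∀ b : B, τ (algebraMap B F b) = algebraMap B F (σ b))
    (q : Ideal B) {x : F} (hx : s34l1_IsUnitAt (q.comap (σ : B →+* B)) x) :
    s34l1_IsUnitAt q (τ x) := by
  obtain ⟨a, b, ha, hb, hab⟩ := hx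
  refine ⟨σ a, σ b, fun h => ha (Ideal.mem_comap.mpr h), fun h => hb (Ideal.mem_comap.mpr h), ?_⟩
  rw [← hστ, ← hστ, ← map_mul, hab]

omit [IsDomain B] in
/-- The key congruence: `τ x / x ∈ 1 + π B_q` for a unit `x` at a prime `q ∋ π`. -/
theorem s34l1_oneMod_tau_div (hστ : ∀ b : B, τ (algebraMap B F b) = algebraMap B F (σ b))
    (hσ : ∀ b : B, ∃ c : B, σ b - b = π * c) (q : Ideal B) [hq : q.IsPrime] (hπ : π ∈ q)
    {x : F} (hx : s34l1_IsUnitAt q x) : s34l1_OneMod π q (τ x / x) := by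
  have hx0 := s34l1_isUnitAt_ne_zero q hx
  obtain ⟨a, b, ha, hb, hab⟩ := hx
  obtain ⟨a', ha'⟩ := hσ a
  obtain ⟨b', hb'⟩ := hσ b
  have hσb : σ b ∉ q := fun h => hb ((s34l1_sigma_mem_iff π σ hσ q hπ b).mp h)
  refine ⟨a' * b - b' * a, σ b * a, fun h => (hq.mem_or_mem h).elim hσb ha, ?_⟩
  have hb0 : algebraMap B F b ≠ 0 := s34l1_map_ne_zero q hb
  have hσb0 : algebraMap B F (σ b) ≠ 0 := s34l1_map_ne_zero q hσb
  have hτ : τ x * algebraMap B F (σ b) = algebraMap B F (σ a) := by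
    rw [← hστ, ← hστ, ← map_mul, hab]
  have e1 : algebraMap B F (σ a) = algebraMap B F a + algebraMap B F (π * a') := by
    rw [← map_add, ← ha']; congr 1; ring
  have e2 : algebraMap B F (σ b) = algebraMap B F b + algebraMap B F (π * b') := by
    rw [← map_add, ← hb']; congr 1; ring
  have e3 : algebraMap B F (π * (a' * b - b' * a)) =
      algebraMap B F (π * a') * algebraMap B F b - algebraMap B F (π * b') * algebraMap B F a := by
    rw [← map_mul, ← map_mul, ← map_sub]; congr 1; ring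
  have e4 : (τ x / x - 1) * algebraMap B F (σ b * a) =
      (τ x * algebraMap B F (σ b)) * algebraMap B F b - algebraMap B F (σ b) * algebraMap B F a := by
    rw [map_mul, ← hab]
    field_simp
  rw [e4, hτ, e3, e1, e2]
  ring

variable (η : B)

omit [IsDomain B] in
/-- `(τ - 1)² h ∈ 1 + π B_q` for every `h ≠ 0`, at a prime `q ∋ π` at which `B_q` is a discrete
valuation ring with uniformizer `π`. -/
theorem s34l1_sq_oneMod (hστ : ∀ b : B, τ (algebraMap B F b) = algebraMap B F (σ b))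
    (hσ : ∀ b : B, ∃ c : B, σ b - b = π * c) (hη : IsUnit η) (hσπ : σ π = η * π)
    (hπ0 : π ≠ 0) (q : Ideal B) [hq : q.IsPrime] (hπ : π ∈ q)
    (hDVR : ∀ h : F, h ≠ 0 → ∃ (c : ℤ) (h' : F), s34l1_IsUnitAt q h' ∧
      h = algebraMap B F π ^ c * h')
    (h : F) (hh : h ≠ 0) : s34l1_OneMod π q (τ (τ h) * h / τ h ^ 2) := by
  obtain ⟨c, h', hh', rfl⟩ := hDVR h hh
  have hP0 : algebraMap B F π ≠ 0 := fun e =>
    hπ0 (IsFractionRing.injective B F (e.trans (map_zero _).symm))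
  have hE : s34l1_IsUnitAt q (algebraMap B F η) := s34l1_isUnitAt_of_isUnit q hη
  have hE0 : algebraMap B F η ≠ 0 := s34l1_isUnitAt_ne_zero q hE
  have hh'0 : h' ≠ 0 := s34l1_isUnitAt_ne_zero q hh'
  -- the two congruences
  have h1 : s34l1_OneMod π q (τ (algebraMap B F η) / algebraMap B F η) :=
    s34l1_oneMod_tau_div π τ σ hστ hσ q hπ hE
  have hε : s34l1_OneMod π q (τ h' / h') := s34l1_oneMod_tau_div π τ σ hστ hσ q hπ hh'
  have h2 : s34l1_OneMod π q (τ (τ h' / h') / (τ h' / h')) :=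
    s34l1_oneMod_tau_div π τ σ hστ hσ q hπ (s34l1_oneMod_isUnitAt q hπ hε)
  have h3 := s34l1_oneMod_mul q (s34l1_oneMod_zpow q hπ h1 c) h2
  -- the identity
  have hτP : τ (algebraMap B F π) = algebraMap B F η * algebraMap B F π := by
    rw [hστ, hσπ, map_mul]
  have hX0 : algebraMap B F π ^ c ≠ 0 := zpow_ne_zero c hP0
  have hY0 : algebraMap B F η ^ c ≠ 0 := zpow_ne_zero c hE0
  have hτE0 : τ (algebraMap B F η) ≠ 0 := (map_ne_zero τ).mpr hE0
  have hZ0 : τ (algebraMap B F η) ^ c ≠ 0 := zpow_ne_zero c hτE0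
  have hτh' : τ h' ≠ 0 := (map_ne_zero τ).mpr hh'0
  have hττh' : τ (τ h') ≠ 0 := (map_ne_zero τ).mpr hτh'
  have e1 : τ (algebraMap B F π ^ c * h') =
      algebraMap B F η ^ c * algebraMap B F π ^ c * τ h' := by
    rw [map_mul, map_zpow₀, hτP, mul_zpow]
  have e2 : τ (τ (algebraMap B F π ^ c * h')) =
      τ (algebraMap B F η) ^ c * (algebraMap B F η ^ c * algebraMap B F π ^ c) * τ (τ h') := by
    rw [e1, map_mul, map_mul, map_zpow₀, map_zpow₀, hτP, mul_zpow]
  have e3 : τ (τ (algebraMap B F π ^ c * h')) * (algebraMap B F π ^ c * h') /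
      τ (algebraMap B F π ^ c * h') ^ 2 =
      (τ (algebraMap B F η) / algebraMap B F η) ^ c * (τ (τ h' / h') / (τ h' / h')) := by
    rw [e2, e1, div_zpow, map_div₀]
    field_simp
  rw [e3]
  exact h3

omit [IsDomain B] in
/-- **[LOC1-ABS]**: `LocGen1` at `n` for the second difference of `f`, given a local
generator `G` of the `m`-th root of the horizontal divisor of `f` at `n`. -/
theorem s34l1_abs (hστ : ∀ b : B, τ (algebraMap B F b) = algebraMap B F (σ b))
    (hσ : ∀ b : B, ∃ c : B, σ b - b = π * c) (hη : IsUnit η) (hσπ : σ π = η * π)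
    (hπ0 : π ≠ 0) (n : Ideal B) [hn : n.IsPrime] (hπn : π ∈ n)
    (𝒬 : Set (Ideal B)) (h𝒬prime : ∀ q ∈ 𝒬, q.IsPrime)
    (h𝒬σ : ∀ q ∈ 𝒬, q.comap (σ : B →+* B) ∈ 𝒬)
    (hDVR : ∀ q ∈ 𝒬, π ∈ q → ∀ h : F, h ≠ 0 → ∃ (c : ℤ) (h' : F), s34l1_IsUnitAt q h' ∧
      h = algebraMap B F π ^ c * h')
    (hUnit : ∀ x : F, x ≠ 0 → (∀ q ∈ 𝒬, s34l1_IsUnitAt q x) → s34l1_IsUnitAt n x)
    (m : ℕ) (f G : F) (hf : f ≠ 0) (hG : G ≠ 0)
    (hhor : ∀ q ∈ 𝒬, π ∉ q → s34l1_IsUnitAt q (f / G ^ m)) :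
    s34l1_OneMod π n ((τ (τ G) * G / τ G ^ 2) ^ m / (τ (τ f) * f / τ f ^ 2)) ∧
      ∀ q ∈ 𝒬, π ∈ q → s34l1_OneMod π q (τ (τ G) * G / τ G ^ 2) := by
  refine ⟨?_, fun q hq hπq => ?_⟩
  · have hx0 : f / G ^ m ≠ 0 := div_ne_zero hf (pow_ne_zero m hG)
    have hτx0 : τ (f / G ^ m) ≠ 0 := (map_ne_zero τ).mpr hx0
    -- `y := τ x / x` is a unit at every `q ∈ 𝒬`
    have hy : ∀ q ∈ 𝒬, s34l1_IsUnitAt q (τ (f / G ^ m) / (f / G ^ m)) := by
      intro q hq
      have := h𝒬prime q hq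
      by_cases hπq : π ∈ q
      · obtain ⟨c, x', hx', hxe⟩ := hDVR q hq hπq _ hx0
        have hP0 : algebraMap B F π ≠ 0 := fun e =>
          hπ0 (IsFractionRing.injective B F (e.trans (map_zero _).symm))
        have hx'0 : x' ≠ 0 := s34l1_isUnitAt_ne_zero q hx'
        have hE : s34l1_IsUnitAt q (algebraMap B F η) := s34l1_isUnitAt_of_isUnit q hη
        have hε : s34l1_IsUnitAt q (τ x' / x') :=
          s34l1_oneMod_isUnitAt q hπq (s34l1_oneMod_tau_div π τ σ hστ hσ q hπq hx')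
        have hτP : τ (algebraMap B F π) = algebraMap B F η * algebraMap B F π := by
          rw [hστ, hσπ, map_mul]
        have hX0 : algebraMap B F π ^ c ≠ 0 := zpow_ne_zero c hP0
        have e : τ (f / G ^ m) / (f / G ^ m) = algebraMap B F η ^ c * (τ x' / x') := by
          rw [hxe, map_mul, map_zpow₀, hτP, mul_zpow]
          field_simp
        rw [e]
        exact s34l1_isUnitAt_mul q (s34l1_isUnitAt_zpow q hE c) hε
      · have hq' := h𝒬σ q hq
        have hπq' : π ∉ q.comap (σ : B →+* B) := by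
          intro h
          have h1 : σ π ∈ q := Ideal.mem_comap.mp h
          rw [hσπ] at h1
          rcases (h𝒬prime q hq).mem_or_mem h1 with h2 | h2
          · exact (h𝒬prime q hq).ne_top (Ideal.eq_top_of_isUnit_mem q h2 hη)
          · exact hπq h2
        exact s34l1_isUnitAt_div q
          (s34l1_isUnitAt_tau τ σ hστ q (hhor _ hq' hπq')) (hhor q hq hπq)
    have hyn : s34l1_IsUnitAt n (τ (f / G ^ m) / (f / G ^ m)) :=
      hUnit _ (div_ne_zero hτx0 hx0) hy
    have h1 := s34l1_oneMod_tau_div π τ σ hστ hσ n hπn hyn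
    have h2 := s34l1_oneMod_inv n hπn h1
    have hτf : τ f ≠ 0 := (map_ne_zero τ).mpr hf
    have hττf : τ (τ f) ≠ 0 := (map_ne_zero τ).mpr hτf
    have hτG : τ G ≠ 0 := (map_ne_zero τ).mpr hG
    have hττG : τ (τ G) ≠ 0 := (map_ne_zero τ).mpr hτG
    have e : (τ (τ G) * G / τ G ^ 2) ^ m / (τ (τ f) * f / τ f ^ 2) =
        (τ (τ (f / G ^ m) / (f / G ^ m)) / (τ (f / G ^ m) / (f / G ^ m)))⁻¹ := by
      simp only [map_div₀, map_pow, div_pow, mul_pow]
      have h1 : τ G ^ m ≠ 0 := pow_ne_zero m hτG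
      have h2 : τ (τ G) ^ m ≠ 0 := pow_ne_zero m hττG
      have h3 : G ^ m ≠ 0 := pow_ne_zero m hG
      field_simp
      ring
    rw [e]
    exact h2
  · have := h𝒬prime q hq
    exact s34l1_sq_oneMod π τ σ η hστ hσ hη hσπ hπ0 q hπq (hDVR q hq hπq) G hG

end tau

end Fermat.Agent.S34
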