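/-
S34, leaf [SS-LOC1], step 2a: the product of the local generators (owner: helper29).
Prefix `s34l1_`.  Mathlib only.

`ord i : F → ℤ` a family of "orders" (additive on products of non-zero elements), `f ≠ 0` with
`m ∣ ord i f` for all `i`, only finitely many `i` with `ord i f ≠ 0`, and for each of them an
element `g` with `ord i g = 1` and `ord j g = 0` for `j ≠ i` (a LOCAL GENERATOR).  Then there is
`G ≠ 0` with `ord i (f / G ^ m) = 0` for all `i`  (`s34l1_prod`).
-/
import Mathlib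

set_option autoImplicit false

namespace Fermat.Agent.S34

section prod

variable {F : Type*} [Field F] {ι : Type*} (ord : ι → F → ℤ)

theorem s34l1_ord_one (hmul : ∀ i (x y : F), x ≠ 0 → y ≠ 0 → ord i (x * y) = ord i x + ord i y)
    (i : ι) : ord i 1 = 0 := by
  have h := hmul i 1 1 one_ne_zero one_ne_zero
  rw [mul_one] at h
  omega

theorem s34l1_ord_inv (hmul : ∀ i (x y : F), x ≠ 0 → y ≠ 0 → ord i (x * y) = ord i x + ord i y)
    (i : ι) {x : F} (hx : x ≠ 0) : ord i x⁻¹ = - ord i x := by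
  have h := hmul i x x⁻¹ hx (inv_ne_zero hx)
  rw [mul_inv_cancel₀ hx, s34l1_ord_one ord hmul] at h
  omega

theorem s34l1_ord_div (hmul : ∀ i (x y : F), x ≠ 0 → y ≠ 0 → ord i (x * y) = ord i x + ord i y)
    (i : ι) {x y : F} (hx : x ≠ 0) (hy : y ≠ 0) : ord i (x / y) = ord i x - ord i y := by
  rw [div_eq_mul_inv, hmul i x y⁻¹ hx (inv_ne_zero hy), s34l1_ord_inv ord hmul i hy]
  ring

theorem s34l1_ord_pow (hmul : ∀ i (x y : F), x ≠ 0 → y ≠ 0 → ord i (x * y) = ord i x + ord i y)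
    (i : ι) {x : F} (hx : x ≠ 0) (k : ℕ) : ord i (x ^ k) = k * ord i x := by
  induction k with
  | zero => rw [pow_zero, s34l1_ord_one ord hmul]; simp
  | succ k ih =>
    rw [pow_succ, hmul i _ _ (pow_ne_zero k hx) hx, ih]
    push_cast
    ring

theorem s34l1_ord_zpow (hmul : ∀ i (x y : F), x ≠ 0 → y ≠ 0 → ord i (x * y) = ord i x + ord i y)
    (i : ι) {x : F} (hx : x ≠ 0) (k : ℤ) : ord i (x ^ k) = k * ord i x := by
  cases k with
  | ofNat k =>
    rw [Int.ofNat_eq_natCast, zpow_natCast, s34l1_ord_pow ord hmul i hx]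
  | negSucc k =>
    rw [zpow_negSucc, s34l1_ord_inv ord hmul i (pow_ne_zero _ hx), s34l1_ord_pow ord hmul i hx,
      Int.negSucc_eq]
    push_cast
    ring

theorem s34l1_ord_finset_prod
    (hmul : ∀ i (x y : F), x ≠ 0 → y ≠ 0 → ord i (x * y) = ord i x + ord i y)
    (i : ι) {κ : Type*} (S : Finset κ) (a : κ → F) (ha : ∀ k ∈ S, a k ≠ 0) :
    ord i (∏ k ∈ S, a k) = ∑ k ∈ S, ord i (a k) := by
  classical
  induction S using Finset.induction_on with
  | empty => rw [Finset.prod_empty, Finset.sum_empty, s34l1_ord_one ord hmul]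
  | insert k S hk ih =>
    rw [Finset.prod_insert hk, Finset.sum_insert hk,
      hmul i _ _ (ha k (Finset.mem_insert_self k S))
        (Finset.prod_ne_zero_iff.mpr fun j hj => ha j (Finset.mem_insert_of_mem hj)),
      ih fun j hj => ha j (Finset.mem_insert_of_mem hj)]

/-- **The product of the local generators.** -/
theorem s34l1_prod
    (hmul : ∀ i (x y : F), x ≠ 0 → y ≠ 0 → ord i (x * y) = ord i x + ord i y)
    (m : ℕ) (f : F) (hf : f ≠ 0) (hdiv : ∀ i, (m : ℤ) ∣ ord i f)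
    (hfin : {i | ord i f ≠ 0}.Finite)
    (hloc : ∀ i, ord i f ≠ 0 → ∃ g : F, g ≠ 0 ∧ ord i g = 1 ∧ ∀ j, j ≠ i → ord j g = 0) :
    ∃ G : F, G ≠ 0 ∧ ∀ i, ord i (f / G ^ m) = 0 := by
  classical
  -- choose the local generators
  have hloc' : ∀ i, ∃ g : F, g ≠ 0 ∧ (ord i f ≠ 0 → ord i g = 1 ∧ ∀ j, j ≠ i → ord j g = 0) := by
    intro i
    by_cases h : ord i f ≠ 0
    · obtain ⟨g, hg, h1, h2⟩ := hloc i h
      exact ⟨g, hg, fun _ => ⟨h1, h2⟩⟩
    · exact ⟨1, one_ne_zero, fun h' => absurd h' h⟩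
  choose g hg0 hg using hloc'
  set S : Finset ι := hfin.toFinset with hS
  have hmemS : ∀ i, i ∈ S ↔ ord i f ≠ 0 := fun i => by rw [hS, Set.Finite.mem_toFinset]; rfl
  set G : F := ∏ i ∈ S, g i ^ (ord i f / (m : ℤ)) with hGdef
  have hG0 : G ≠ 0 :=
    Finset.prod_ne_zero_iff.mpr fun i _ => zpow_ne_zero _ (hg0 i)
  have hordG : ∀ j, ord j G = ord j f / (m : ℤ) := by
    intro j
    rw [hGdef, s34l1_ord_finset_prod ord hmul j S _ fun i _ => zpow_ne_zero _ (hg0 i)]
    have e : ∀ i ∈ S, ord j (g i ^ (ord i f / (m : ℤ))) =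
        if i = j then ord j f / (m : ℤ) else 0 := by
      intro i hi
      rw [s34l1_ord_zpow ord hmul j (hg0 i)]
      have hi' := (hmemS i).mp hi
      by_cases hij : i = j
      · subst hij
        rw [if_pos rfl, (hg i hi').1, mul_one]
      · rw [if_neg hij, (hg i hi').2 j (Ne.symm hij), mul_zero]
    rw [Finset.sum_congr rfl e, Finset.sum_ite_eq' S j]
    by_cases hj : j ∈ S
    · rw [if_pos hj]
    · rw [if_neg hj]
      have h0 : ord j f = 0 := by
        by_contra h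
        exact hj ((hmemS j).mpr h)
      rw [h0, Int.zero_ediv]
  refine ⟨G, hG0, fun i => ?_⟩
  rw [s34l1_ord_div ord hmul i hf (pow_ne_zero m hG0), s34l1_ord_pow ord hmul i hG0, hordG,
    Int.mul_ediv_cancel' (hdiv i), sub_self]

end prod

end Fermat.Agent.S34
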