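/-
S34, leaf [SS-LOC1], step 2b: the abstract assembly (owner: helper29).  Prefix `s34l1_`.
Mathlib only.

`B` a domain with field of fractions `F`, `π ∈ B`, `n ∋ π` a prime ideal, `τ`, `σ`, `η` as in
`Loc1Abs.lean`;

* `𝒱` a set of primes containing `π` at which `B_q` is a discrete valuation ring with uniformizer
  `π` (the VERTICAL primes: the generic points of the components of the special fibre);
* `hor i`, `i : ι`, a `σ`-stable family of primes not containing `π` with additive orders `ord i`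
  such that `ord i x = 0` implies that `x` is a unit at `hor i` (the HORIZONTAL primes through
  `n`);
* a non-zero element of `F` which is a unit at the vertical primes inside `n` and at all the
  horizontal primes is a unit at `n` ([LOC-UNIT]);
* `f ≠ 0` with `m ∣ ord i f`, finitely many `i` with `ord i f ≠ 0` and a local generator at
  each of them.

Then there is `g ≠ 0` with `g ∈ 1 + π B_q` for ALL `q ∈ 𝒱` and `g ^ m c = u d`, `c, d ∉ n`, for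
the second difference `u = τ²f · f / (τ f)²` of `f` (`s34l1_asm`); and `u ∈ 1 + π B_q` for all
`q ∈ 𝒱` (`s34l1_asm_red`).
-/
import Mathlib
import Fermat.Agent.S34.Loc1Abs
import Fermat.Agent.S34.Loc1Prod

set_option autoImplicit false

namespace Fermat.Agent.S34

variable {B F : Type*} [CommRing B] [IsDomain B] [Field F] [Algebra B F] [IsFractionRing B F]

omit [IsDomain B] [IsFractionRing B F] in
/-- `x ∈ 1 + π B_n` gives `x d = d'` with `d, d' ∉ n`, `d' - d ∈ π B`. -/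
theorem s34l1_oneMod_frac (π : B) (n : Ideal B) (hπn : π ∈ n) {x : F}
    (hx : s34l1_OneMod π n x) :
    ∃ d d' : B, d ∉ n ∧ d' ∉ n ∧ (∃ c, d' - d = π * c) ∧
      x * algebraMap B F d = algebraMap B F d' := by
  obtain ⟨c, d, hd, h⟩ := hx
  refine ⟨d, d + π * c, hd, fun h' => hd ?_, ⟨c, by ring⟩, ?_⟩
  · exact (n.add_mem_iff_left (n.mul_mem_right c hπn)).mp h'
  · rw [map_add, ← h]
    ring

omit [IsDomain B] in
/-- The second difference of ANY `f ≠ 0` is in `1 + π B_q` at the vertical primes. -/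
theorem s34l1_asm_red (π : B) (τ : F ≃+* F) (σ : B ≃+* B) (η : B)
    (hστ : ∀ b : B, τ (algebraMap B F b) = algebraMap B F (σ b))
    (hσ : ∀ b : B, ∃ c : B, σ b - b = π * c) (hη : IsUnit η) (hσπ : σ π = η * π)
    (hπ0 : π ≠ 0)
    (𝒱 : Set (Ideal B)) (h𝒱prime : ∀ q ∈ 𝒱, q.IsPrime) (h𝒱π : ∀ q ∈ 𝒱, π ∈ q)
    (hDVR : ∀ q ∈ 𝒱, ∀ h : F, h ≠ 0 → ∃ (c : ℤ) (h' : F), s34l1_IsUnitAt q h' ∧
      h = algebraMap B F π ^ c * h')
    (f : F) (hf : f ≠ 0) :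
    ∀ q ∈ 𝒱, s34l1_OneMod π q (τ (τ f) * f / τ f ^ 2) := by
  intro q hq
  have := h𝒱prime q hq
  exact s34l1_sq_oneMod π τ σ η hστ hσ hη hσπ hπ0 q (h𝒱π q hq) (hDVR q hq) f hf

omit [IsDomain B] in
/-- **[LOC1-ASM]** the abstract assembly. -/
theorem s34l1_asm (π : B) (τ : F ≃+* F) (σ : B ≃+* B) (η : B)
    (hστ : ∀ b : B, τ (algebraMap B F b) = algebraMap B F (σ b))
    (hσ : ∀ b : B, ∃ c : B, σ b - b = π * c) (hη : IsUnit η) (hσπ : σ π = η * π)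
    (hπ0 : π ≠ 0) (n : Ideal B) [hn : n.IsPrime] (hπn : π ∈ n)
    (𝒱 : Set (Ideal B)) (h𝒱prime : ∀ q ∈ 𝒱, q.IsPrime) (h𝒱π : ∀ q ∈ 𝒱, π ∈ q)
    (hDVR : ∀ q ∈ 𝒱, ∀ h : F, h ≠ 0 → ∃ (c : ℤ) (h' : F), s34l1_IsUnitAt q h' ∧
      h = algebraMap B F π ^ c * h')
    {ι : Type*} (hor : ι → Ideal B) (hhp : ∀ i, (hor i).IsPrime) (hhπ : ∀ i, π ∉ hor i)
    (hhσ : ∀ i, ∃ j, hor j = (hor i).comap (σ : B →+* B))
    (ord : ι → F → ℤ)
    (hmul : ∀ i (x y : F), x ≠ 0 → y ≠ 0 → ord i (x * y) = ord i x + ord i y)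
    (hord : ∀ i (x : F), x ≠ 0 → ord i x = 0 → s34l1_IsUnitAt (hor i) x)
    (hUnit : ∀ x : F, x ≠ 0 → (∀ q ∈ 𝒱, q ≤ n → s34l1_IsUnitAt q x) →
      (∀ i, s34l1_IsUnitAt (hor i) x) → s34l1_IsUnitAt n x)
    (m : ℕ) (f : F) (hf : f ≠ 0) (hdiv : ∀ i, (m : ℤ) ∣ ord i f)
    (hfin : {i | ord i f ≠ 0}.Finite)
    (hloc : ∀ i, ord i f ≠ 0 → ∃ g : F, g ≠ 0 ∧ ord i g = 1 ∧ ∀ j, j ≠ i → ord j g = 0) :
    ∃ g : F, g ≠ 0 ∧ (∀ q ∈ 𝒱, s34l1_OneMod π q g) ∧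
      ∃ c d : B, c ∉ n ∧ d ∉ n ∧ (∃ e, d - c = π * e) ∧
        g ^ m * algebraMap B F c = (τ (τ f) * f / τ f ^ 2) * algebraMap B F d := by
  obtain ⟨G, hG0, hG⟩ := s34l1_prod ord hmul m f hf hdiv hfin hloc
  have hτG : τ G ≠ 0 := (map_ne_zero τ).mpr hG0
  have hττG : τ (τ G) ≠ 0 := (map_ne_zero τ).mpr hτG
  have hτf : τ f ≠ 0 := (map_ne_zero τ).mpr hf
  have hττf : τ (τ f) ≠ 0 := (map_ne_zero τ).mpr hτf
  have hg0 : τ (τ G) * G / τ G ^ 2 ≠ 0 :=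
    div_ne_zero (mul_ne_zero hττG hG0) (pow_ne_zero 2 hτG)
  have hu0 : τ (τ f) * f / τ f ^ 2 ≠ 0 :=
    div_ne_zero (mul_ne_zero hττf hf) (pow_ne_zero 2 hτf)
  refine ⟨τ (τ G) * G / τ G ^ 2, hg0,
    s34l1_asm_red π τ σ η hστ hσ hη hσπ hπ0 𝒱 h𝒱prime h𝒱π hDVR G hG0, ?_⟩
  -- the set of primes
  set 𝒬 : Set (Ideal B) := {q | (q ∈ 𝒱 ∧ q ≤ n) ∨ ∃ i, q = hor i} with h𝒬
  have h𝒬prime : ∀ q ∈ 𝒬, q.IsPrime := by
    rintro q (⟨hq, -⟩ | ⟨i, rfl⟩)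
    · exact h𝒱prime q hq
    · exact hhp i
  have hcomap : ∀ q : Ideal B, π ∈ q → q.comap (σ : B →+* B) = q := by
    intro q hπq
    ext b
    rw [Ideal.mem_comap]
    exact s34l1_sigma_mem_iff π σ hσ q hπq b
  have h𝒬σ : ∀ q ∈ 𝒬, q.comap (σ : B →+* B) ∈ 𝒬 := by
    rintro q (⟨hq, hqn⟩ | ⟨i, rfl⟩)
    · rw [hcomap q (h𝒱π q hq)]
      exact Or.inl ⟨hq, hqn⟩
    · obtain ⟨j, hj⟩ := hhσ i
      exact Or.inr ⟨j, hj.symm⟩
  have hDVR' : ∀ q ∈ 𝒬, π ∈ q → ∀ h : F, h ≠ 0 → ∃ (c : ℤ) (h' : F), s34l1_IsUnitAt q h' ∧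
      h = algebraMap B F π ^ c * h' := by
    rintro q (⟨hq, -⟩ | ⟨i, rfl⟩) hπq
    · exact hDVR q hq
    · exact absurd hπq (hhπ i)
  have hUnit' : ∀ x : F, x ≠ 0 → (∀ q ∈ 𝒬, s34l1_IsUnitAt q x) → s34l1_IsUnitAt n x := by
    intro x hx h
    exact hUnit x hx (fun q hq hqn => h q (Or.inl ⟨hq, hqn⟩)) (fun i => h _ (Or.inr ⟨i, rfl⟩))
  have hhor : ∀ q ∈ 𝒬, π ∉ q → s34l1_IsUnitAt q (f / G ^ m) := by
    rintro q (⟨hq, -⟩ | ⟨i, rfl⟩) hπq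
    · exact absurd (h𝒱π q hq) hπq
    · exact hord i _ (div_ne_zero hf (pow_ne_zero m hG0)) (hG i)
  obtain ⟨h1, -⟩ := s34l1_abs π τ σ η hστ hσ hη hσπ hπ0 n hπn 𝒬 h𝒬prime h𝒬σ hDVR' hUnit' m f G
    hf hG0 hhor
  obtain ⟨d, d', hd, hd', hdd, h⟩ := s34l1_oneMod_frac π n hπn h1
  refine ⟨d, d', hd, hd', hdd, ?_⟩
  rw [div_mul_eq_mul_div, div_eq_iff hu0] at h
  rw [h]
  ring

end Fermat.Agent.S34
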