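/-
S34, leaf [SS-LOC1], step 2c: the horizontal primes and their places (owner: helper29).
Prefix `s34l1_`.  Mathlib + Prelude (`Place`) + S18 `s18lpp_main`.

`B` a noetherian integrally closed domain with field of fractions `F`, `K ⊆ B[1/π]` a field of
characteristic `0`, `t ∈ B` a coordinate of `F / K`, `n ∋ π` a prime ideal.  A HORIZONTAL prime
through `n` is a prime `q ≤ n` of height one with `π ∉ q` (`s34l1_IsHor`); its local ring is the
valuation ring of a place `s34l1_place` of `F / K`.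

* `s34l1_isUnitAt_of_ord`: `ord x = 0` implies that `x` is a unit at `q`;
* `s34l1_hor_finite`: a function has only finitely many horizontal zeros and poles through `n`;
* `s34l1_IsLocGen`: `g` generates `q B_n` up to a power of `π`
  (`g ∈ q B_n` and `π^j q ⊆ g B_n`); then `ord_q g = 1` and `ord_q' g = 0` at the other
  horizontal primes through `n` (`s34l1_locGen_ord`, `s34l1_locGen_ord'`);
* `s34l1_place_main`: the assembly `s34l1_asm` for the horizontal primes through `n`.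
-/
import Mathlib
import Fermat.Prelude.Def_AlgebraicCurve_DivisorClassGroup
import Fermat.Agent.S18.LocPP
import Fermat.Agent.S34.Loc1Asm

set_option autoImplicit false
set_option linter.unusedSectionVars false

open AlgebraicCurve IntermediateField

noncomputable section

namespace Fermat.Agent.S34

open Fermat.Agent.S18

section hor

variable {B : Type} [CommRing B]

/-- Height one, in the spelling of [LOC-UNIT]. -/
def s34l1_IsHt1 (q : Ideal B) : Prop :=
  ∀ q' : Ideal B, q'.IsPrime → q' ≤ q → q' = ⊥ ∨ q' = q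

/-- The horizontal primes through `n`. -/
structure s34l1_IsHor (π : B) (n q : Ideal B) : Prop where
  prime : q.IsPrime
  le : q ≤ n
  ne_bot : q ≠ ⊥
  notMem : π ∉ q
  ht : s34l1_IsHt1 q

/-- `g` generates `q B_n` up to a power of `π`. -/
def s34l1_IsLocGen {F : Type} [Field F] [Algebra B F] (π : B) (n q : Ideal B) (g : F) : Prop :=
  g ≠ 0 ∧ (∃ a s : B, a ∈ q ∧ s ∉ n ∧ g * algebraMap B F s = algebraMap B F a) ∧
    ∃ j : ℕ, ∀ t ∈ q, ∃ c s : B, s ∉ n ∧
      algebraMap B F (π ^ j * t * s) = algebraMap B F c * g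

end hor

section place

variable {K F B : Type} [Field K] [CharZero K] [Field F] [Algebra K F] [CommRing B]
  [Algebra B F]

/-- The three properties of the place of a prime `q`. -/
structure s34l1_IsPlaceOf (q : Ideal B) (Q : Place K F) : Prop where
  nonneg : ∀ b : B, 0 ≤ Q.ord (algebraMap B F b)
  mem_iff : ∀ b : B, b ∈ q ↔ b = 0 ∨ 0 < Q.ord (algebraMap B F b)
  frac : ∀ x : F, 0 ≤ Q.ord x → ∃ y z : B, z ∉ q ∧ x * algebraMap B F z = algebraMap B F y

variable {q : Ideal B} {Q : Place K F}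

theorem s34l1_ord_eq_zero (hQ : s34l1_IsPlaceOf q Q) {b : B} (hb : b ∉ q) : Q.ord (algebraMap B F b) = 0 := by
  have h1 := hQ.nonneg b
  have h2 : ¬ 0 < Q.ord (algebraMap B F b) := fun h => hb ((hQ.mem_iff b).mpr (Or.inr h))
  omega

theorem s34l1_ord_pos (hQ : s34l1_IsPlaceOf q Q) {b : B} (hb : b ∈ q) (hb0 : b ≠ 0) :
    0 < Q.ord (algebraMap B F b) := by
  rcases (hQ.mem_iff b).mp hb with h | h
  · exact absurd h hb0
  · exact h

theorem s34l1_place_ord_div {x y : F} (hx : x ≠ 0) (hy : y ≠ 0) :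
    Q.ord (x / y) = Q.ord x - Q.ord y := by
  rw [div_eq_mul_inv, Q.ord_mul hx (inv_ne_zero hy), Q.ord_inv]
  ring

/-- `ord x = 0` implies that `x` is a unit at `q`. -/
theorem s34l1_isUnitAt_of_ord (hinj : Function.Injective (algebraMap B F))
    (hQ : s34l1_IsPlaceOf q Q) {x : F} (hx : x ≠ 0) (h : Q.ord x = 0) :
    s34l1_IsUnitAt q x := by
  obtain ⟨y, z, hz, hxz⟩ := hQ.frac x (le_of_eq h.symm)
  refine ⟨y, z, ?_, hz, hxz⟩
  have hz0 : algebraMap B F z ≠ 0 := by
    intro h0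
    apply hz
    have : z = 0 := hinj (h0.trans (map_zero _).symm)
    rw [this]
    exact q.zero_mem
  have hy : Q.ord (algebraMap B F y) = 0 := by
    rw [← hxz, Q.ord_mul hx hz0, h, s34l1_ord_eq_zero hQ hz]
    rfl
  intro hyq
  rcases (hQ.mem_iff y).mp hyq with h0 | h0
  · rw [h0, map_zero] at hxz
    rcases mul_eq_zero.mp hxz with h1 | h1
    · exact hx h1
    · exact hz0 h1
  · omega

/-- A unit at `q` has order `0`. -/
theorem s34l1_ord_of_isUnitAt (hinj : Function.Injective (algebraMap B F))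
    (hQ : s34l1_IsPlaceOf q Q) {x : F} (h : s34l1_IsUnitAt q x) : Q.ord x = 0 := by
  obtain ⟨a, b, ha, hb, hab⟩ := h
  have ha0 : algebraMap B F a ≠ 0 := by
    intro h0
    apply ha
    have : a = 0 := hinj (h0.trans (map_zero _).symm)
    rw [this]
    exact q.zero_mem
  have hb0 : algebraMap B F b ≠ 0 := by
    intro h0
    apply hb
    have : b = 0 := hinj (h0.trans (map_zero _).symm)
    rw [this]
    exact q.zero_mem
  have hx0 : x ≠ 0 := by
    rintro rfl
    rw [zero_mul] at hab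
    exact ha0 hab.symm
  have h1 := Q.ord_mul hx0 hb0
  rw [hab, s34l1_ord_eq_zero hQ ha, s34l1_ord_eq_zero hQ hb] at h1
  omega

/-- There is an element of `q` of order `1`. -/
theorem s34l1_exists_ord_one (hinj : Function.Injective (algebraMap B F))
    (hQ : s34l1_IsPlaceOf q Q) : ∃ y : B, y ∈ q ∧ Q.ord (algebraMap B F y) = 1 := by
  obtain ⟨ϖ, hϖ⟩ := IsDiscreteValuationRing.exists_irreducible ↥Q.toValuationSubring
  have h1 : Q.ord (ϖ : F) = 1 := Q.ord_coe_irreducible hϖ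
  have hϖ0 : (ϖ : F) ≠ 0 := by
    intro h
    rw [h, Q.ord_zero] at h1
    omega
  obtain ⟨y, z, hz, hyz⟩ := hQ.frac (ϖ : F) (by omega)
  have hz0 : algebraMap B F z ≠ 0 := by
    intro h0
    apply hz
    have : z = 0 := hinj (h0.trans (map_zero _).symm)
    rw [this]
    exact q.zero_mem
  have hy : Q.ord (algebraMap B F y) = 1 := by
    rw [← hyz, Q.ord_mul hϖ0 hz0, h1, s34l1_ord_eq_zero hQ hz]
    rfl
  exact ⟨y, (hQ.mem_iff y).mpr (Or.inr (by omega)), hy⟩

/-- A local generator of `q` has order `1` at `q`. -/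
theorem s34l1_locGen_ord (hinj : Function.Injective (algebraMap B F))
    (hQ : s34l1_IsPlaceOf q Q) {π : B} {n : Ideal B} (hqn : q ≤ n) (hπq : π ∉ q) {g : F}
    (hg : s34l1_IsLocGen π n q g) : Q.ord g = 1 := by
  obtain ⟨hg0, ⟨a, s, ha, hs, has⟩, j, hj⟩ := hg
  have hinj0 : ∀ {b : B}, algebraMap B F b = 0 → b = 0 := fun h =>
    hinj (h.trans (map_zero _).symm)
  have hsq : s ∉ q := fun h => hs (hqn h)
  have hs0 : algebraMap B F s ≠ 0 := fun h => hsq (hinj0 h ▸ q.zero_mem)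
  have ha0 : a ≠ 0 := by
    rintro rfl
    rw [map_zero] at has
    rcases mul_eq_zero.mp has with h | h
    · exact hg0 h
    · exact hs0 h
  -- `ord g ≥ 1`
  have h1 : 0 < Q.ord g := by
    have h := Q.ord_mul hg0 hs0
    rw [has, s34l1_ord_eq_zero hQ hsq] at h
    have := s34l1_ord_pos hQ ha ha0
    omega
  -- `ord g ≤ 1`
  obtain ⟨y, hy, hy1⟩ := s34l1_exists_ord_one hinj hQ
  obtain ⟨c, s', hs', hc⟩ := hj y hy
  have hs'q : s' ∉ q := fun h => hs' (hqn h)
  have hy0 : algebraMap B F y ≠ 0 := by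
    intro h
    rw [h, Q.ord_zero] at hy1
    omega
  have hs'0 : algebraMap B F s' ≠ 0 := fun h => hs'q (hinj0 h ▸ q.zero_mem)
  have hπ0 : algebraMap B F π ≠ 0 := fun h => hπq (hinj0 h ▸ q.zero_mem)
  have hπj : Q.ord (algebraMap B F π ^ j) = 0 := by
    have := Q.ord_zpow (algebraMap B F π) (j : ℤ)
    rw [zpow_natCast, s34l1_ord_eq_zero hQ hπq, mul_zero] at this
    exact this
  have hL : Q.ord (algebraMap B F (π ^ j * y * s')) = 1 := by
    rw [map_mul, map_mul, map_pow, Q.ord_mul (mul_ne_zero (pow_ne_zero j hπ0) hy0) hs'0,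
      Q.ord_mul (pow_ne_zero j hπ0) hy0, hπj, hy1, s34l1_ord_eq_zero hQ hs'q]
    rfl
  have hc0 : algebraMap B F c ≠ 0 := by
    intro h
    rw [hc, h, zero_mul, Q.ord_zero] at hL
    omega
  rw [hc, Q.ord_mul hc0 hg0] at hL
  have := hQ.nonneg c
  omega

/-- A local generator of `q` is a unit at the other primes of height one inside `n` which do
not contain `π`. -/
theorem s34l1_locGen_ord' (hinj : Function.Injective (algebraMap B F))
    {π : B} {n : Ideal B} (hq0 : q ≠ ⊥) {g : F} (hg : s34l1_IsLocGen π n q g)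
    {q' : Ideal B} {Q' : Place K F} (hQ' : s34l1_IsPlaceOf q' Q') (hq'n : q' ≤ n)
    (hπq' : π ∉ q') (hht : s34l1_IsHt1 q') (hq : q.IsPrime) (hne : q' ≠ q) :
    Q'.ord g = 0 := by
  obtain ⟨hg0, ⟨a, s, ha, hs, has⟩, j, hj⟩ := hg
  have hinj0 : ∀ {b : B}, algebraMap B F b = 0 → b = 0 := fun h =>
    hinj (h.trans (map_zero _).symm)
  have hsq : s ∉ q' := fun h => hs (hq'n h)
  have hs0 : algebraMap B F s ≠ 0 := fun h => hsq (hinj0 h ▸ q'.zero_mem)
  have h0 : 0 ≤ Q'.ord g := by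
    have h := Q'.ord_mul hg0 hs0
    rw [has, s34l1_ord_eq_zero hQ' hsq] at h
    have := hQ'.nonneg a
    omega
  by_contra hne0
  have hpos : 0 < Q'.ord g := by omega
  have hπ0 : algebraMap B F π ≠ 0 := fun h => hπq' (hinj0 h ▸ q'.zero_mem)
  have hπj : Q'.ord (algebraMap B F π ^ j) = 0 := by
    have := Q'.ord_zpow (algebraMap B F π) (j : ℤ)
    rw [zpow_natCast, s34l1_ord_eq_zero hQ' hπq', mul_zero] at this
    exact this
  have hle : q ≤ q' := by
    intro t ht
    by_cases ht0 : t = 0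
    · rw [ht0]
      exact q'.zero_mem
    obtain ⟨c, s', hs', hc⟩ := hj t ht
    have hs'q : s' ∉ q' := fun h => hs' (hq'n h)
    have hs'0 : algebraMap B F s' ≠ 0 := fun h => hs'q (hinj0 h ▸ q'.zero_mem)
    have ht0' : algebraMap B F t ≠ 0 := fun h => ht0 (hinj0 h)
    have hL : Q'.ord (algebraMap B F (π ^ j * t * s')) = Q'.ord (algebraMap B F t) := by
      rw [map_mul, map_mul, map_pow, Q'.ord_mul (mul_ne_zero (pow_ne_zero j hπ0) ht0') hs'0,
        Q'.ord_mul (pow_ne_zero j hπ0) ht0', hπj, s34l1_ord_eq_zero hQ' hs'q]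
      ring
    have hc0 : algebraMap B F c ≠ 0 := by
      intro h
      have h1 : algebraMap B F (π ^ j * t * s') = 0 := by rw [hc, h, zero_mul]
      rw [map_mul, map_mul, map_pow] at h1
      rcases mul_eq_zero.mp h1 with h2 | h2
      · rcases mul_eq_zero.mp h2 with h3 | h3
        · exact pow_ne_zero j hπ0 h3
        · exact ht0' h3
      · exact hs'0 h2
    rw [hc, Q'.ord_mul hc0 hg0] at hL
    have := hQ'.nonneg c
    exact (hQ'.mem_iff t).mpr (Or.inr (by omega))
  rcases hht q hq hle with h | h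
  · exact hq0 h
  · exact hne h.symm

end place

/-! ### The horizontal primes through `n` -/

section main

variable (K F B : Type) [Field K] [CharZero K] [Field F] [Algebra K F] [CommRing B] [IsDomain B]
  [IsNoetherianRing B] [IsIntegrallyClosed B] [Algebra B F] [IsFractionRing B F]

/-- The place of a prime `q ≠ 0` with `π ∉ q`. -/
theorem s34l1_exists_place (t : B) (ht : Transcendental K (algebraMap B F t))
    (hfin : FiniteDimensional K⟮algebraMap B F t⟯ F) (π : B)
    (hK : ∀ c : K, ∃ x y : B, ∃ k : ℕ, y ∣ π ^ k ∧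
      algebraMap K F c * algebraMap B F y = algebraMap B F x)
    (q : Ideal B) (hq : q.IsPrime) (hq0 : q ≠ ⊥) (hπq : π ∉ q) :
    ∃ Q : Place K F, s34l1_IsPlaceOf q Q := by
  have hinj : Function.Injective (algebraMap B F) := IsFractionRing.injective B F
  have hic : ∀ x : F, IsIntegral B x → ∃ b, algebraMap B F b = x := fun x hx =>
    IsIntegrallyClosed.isIntegral_iff.mp hx
  have hK' : ∀ c : K, ∃ y z : B, z ∉ q ∧
      algebraMap K F c * algebraMap B F z = algebraMap B F y := by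
    intro c
    obtain ⟨x, y, k, hy, hxy⟩ := hK c
    refine ⟨x, y, fun hyq => hπq ?_, hxy⟩
    exact hq.mem_of_pow_mem k (q.mem_of_dvd hy hyq)
  obtain ⟨Q, h1, h2, h3⟩ := s18lpp_main K F B hinj hic t ht hfin q hq0 hK'
  exact ⟨Q, ⟨h1, h2, h3⟩⟩

variable {K F B}

omit [IsNoetherianRing B] [IsIntegrallyClosed B] in
/-- The horizontal primes through `n` are permuted by `σ`. -/
theorem s34l1_isHor_comap (π : B) (σ : B ≃+* B) (η : B)
    (hσ : ∀ b : B, ∃ c : B, σ b - b = π * c) (hη : IsUnit η) (hσπ : σ π = η * π)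
    (n : Ideal B) (hπn : π ∈ n) {q : Ideal B} (h : s34l1_IsHor π n q) :
    s34l1_IsHor π n (q.comap (σ : B →+* B)) := by
  have hqp := h.prime
  refine ⟨Ideal.comap_isPrime _ q, ?_, ?_, ?_, ?_⟩
  · intro b hb
    have hb' : σ b ∈ n := h.le (Ideal.mem_comap.mp hb)
    exact (s34l1_sigma_mem_iff π σ hσ n hπn b).mp hb'
  · intro h0
    obtain ⟨x, hx, hx0⟩ := Submodule.exists_mem_ne_zero_of_ne_bot h.ne_bot
    have h1 : σ.symm x ∈ q.comap (σ : B →+* B) := by
      rw [Ideal.mem_comap]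
      simpa using hx
    rw [h0, Ideal.mem_bot] at h1
    apply hx0
    have := congrArg σ h1
    simpa using this
  · intro hπ
    have h1 : σ π ∈ q := Ideal.mem_comap.mp hπ
    rw [hσπ] at h1
    rcases hqp.mem_or_mem h1 with h2 | h2
    · exact hqp.ne_top (Ideal.eq_top_of_isUnit_mem q h2 hη)
    · exact h.notMem h2
  · intro q' hq' hle
    have hq'' : (q'.comap (σ.symm : B →+* B)).IsPrime := Ideal.comap_isPrime _ q'
    have hle' : q'.comap (σ.symm : B →+* B) ≤ q := by
      intro b hb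
      have h1 : σ.symm b ∈ q' := Ideal.mem_comap.mp hb
      have h2 := Ideal.mem_comap.mp (hle h1)
      simpa using h2
    rcases h.ht _ hq'' hle' with h1 | h1
    · left
      rw [eq_bot_iff]
      intro b hb
      have h2 : σ b ∈ q'.comap (σ.symm : B →+* B) := by
        rw [Ideal.mem_comap]
        simpa using hb
      rw [h1, Ideal.mem_bot] at h2
      rw [Ideal.mem_bot]
      have := congrArg σ.symm h2
      simpa using this
    · right
      ext b
      rw [Ideal.mem_comap, ← h1, Ideal.mem_comap]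
      simp

omit [IsIntegrallyClosed B] in
/-- Only finitely many primes of height one contain a numerator or a denominator of `f`. -/
theorem s34l1_hor_finite (π : B) (n : Ideal B) (f : F) (hf : f ≠ 0) :
    {q : Ideal B | s34l1_IsHor π n q ∧ ¬ s34l1_IsUnitAt q f}.Finite := by
  obtain ⟨a, b, hb, hab⟩ := IsFractionRing.div_surjective (A := B) f
  have hb0 : b ≠ 0 := nonZeroDivisors.ne_zero hb
  have hinj : Function.Injective (algebraMap B F) := IsFractionRing.injective B F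
  have hb0' : algebraMap B F b ≠ 0 := fun h => hb0 (hinj (h.trans (map_zero _).symm))
  have ha0 : a ≠ 0 := by
    rintro rfl
    rw [map_zero, zero_div] at hab
    exact hf hab.symm
  refine (Ideal.finite_minimalPrimes_of_isNoetherianRing B (Ideal.span {a * b})).subset ?_
  rintro q ⟨hq, hu⟩
  have hqp := hq.prime
  have hmem : a * b ∈ q := by
    by_contra h
    apply hu
    refine ⟨a, b, fun ha => h (q.mul_mem_right b ha), fun hb' => h (q.mul_mem_left a hb'), ?_⟩
    rw [← hab, div_mul_cancel₀ _ hb0']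
  refine ⟨⟨hqp, (Ideal.span_singleton_le_iff_mem q).mpr hmem⟩, ?_⟩
  rintro q' ⟨hq'p, hq'⟩ hle
  rcases hq.ht q' hq'p hle with h | h
  · exfalso
    have h1 : a * b ∈ q' := (Ideal.span_singleton_le_iff_mem q').mp hq'
    rw [h, Ideal.mem_bot] at h1
    rcases mul_eq_zero.mp h1 with h2 | h2
    · exact ha0 h2
    · exact hb0 h2
  · exact h.ge

/-- **[LOC1-PLACE]** the assembly for the horizontal primes through `n`: if every horizontal
prime through `n` at which `f` has a zero or a pole has a local generator, then the second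
difference `u` of `f` has a normalised local generator at `n`. -/
theorem s34l1_place_main (t : B) (ht : Transcendental K (algebraMap B F t))
    (hfin : FiniteDimensional K⟮algebraMap B F t⟯ F) (π : B) (hπ0 : π ≠ 0)
    (hK : ∀ c : K, ∃ x y : B, ∃ k : ℕ, y ∣ π ^ k ∧
      algebraMap K F c * algebraMap B F y = algebraMap B F x)
    (τ : F ≃+* F) (σ : B ≃+* B) (η : B)
    (hστ : ∀ b : B, τ (algebraMap B F b) = algebraMap B F (σ b))
    (hσ : ∀ b : B, ∃ c : B, σ b - b = π * c) (hη : IsUnit η) (hσπ : σ π = η * π)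
    (n : Ideal B) [hn : n.IsPrime] (hπn : π ∈ n)
    (𝒱 : Set (Ideal B)) (h𝒱prime : ∀ q ∈ 𝒱, q.IsPrime) (h𝒱π : ∀ q ∈ 𝒱, π ∈ q)
    (hDVR : ∀ q ∈ 𝒱, ∀ h : F, h ≠ 0 → ∃ (c : ℤ) (h' : F), s34l1_IsUnitAt q h' ∧
      h = algebraMap B F π ^ c * h')
    (hV : ∀ q : Ideal B, q.IsPrime → q ≤ n → π ∈ q → s34l1_IsHt1 q → q ∈ 𝒱)
    (hU : ∀ e : F, (∀ 𝔮 : Ideal B, 𝔮.IsPrime → 𝔮 ≤ n → 𝔮 ≠ ⊥ →
        (∀ 𝔮' : Ideal B, 𝔮'.IsPrime → 𝔮' ≤ 𝔮 → 𝔮' = ⊥ ∨ 𝔮' = 𝔮) →
        ∃ y z : B, y ∉ 𝔮 ∧ z ∉ 𝔮 ∧ e * algebraMap B F z = algebraMap B F y) →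
      ∃ y z : B, y ∉ n ∧ z ∉ n ∧ e * algebraMap B F z = algebraMap B F y)
    (m : ℕ) (f : F) (hf : f ≠ 0) (hdiv : ∀ P : Place K F, (m : ℤ) ∣ P.ord f)
    (hLG : ∀ q : Ideal B, s34l1_IsHor π n q → ∀ Q : Place K F, s34l1_IsPlaceOf q Q →
      Q.ord f ≠ 0 → ∃ g : F, s34l1_IsLocGen π n q g) :
    ∃ g : F, g ≠ 0 ∧ (∀ q ∈ 𝒱, s34l1_OneMod π q g) ∧
      ∃ c d : B, c ∉ n ∧ d ∉ n ∧ (∃ e, d - c = π * e) ∧
        g ^ m * algebraMap B F c = (τ (τ f) * f / τ f ^ 2) * algebraMap B F d := by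
  classical
  have hinj : Function.Injective (algebraMap B F) := IsFractionRing.injective B F
  have hpl : ∀ i : {q : Ideal B // s34l1_IsHor π n q}, ∃ Q : Place K F,
      s34l1_IsPlaceOf i.1 Q := fun i =>
    s34l1_exists_place K F B t ht hfin π hK i.1 i.2.prime i.2.ne_bot i.2.notMem
  choose Q hQ using hpl
  refine s34l1_asm π τ σ η hστ hσ hη hσπ hπ0 n hπn 𝒱 h𝒱prime h𝒱π hDVR
    (ι := {q : Ideal B // s34l1_IsHor π n q}) (fun i => i.1) (fun i => i.2.prime)
    (fun i => i.2.notMem) ?_ (fun i x => (Q i).ord x) ?_ ?_ ?_ m f hf (fun i => hdiv (Q i))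
    ?_ ?_
  · intro i
    exact ⟨⟨_, s34l1_isHor_comap π σ η hσ hη hσπ n hπn i.2⟩, rfl⟩
  · intro i x y hx hy
    exact (Q i).ord_mul hx hy
  · intro i x hx h
    exact s34l1_isUnitAt_of_ord hinj (hQ i) hx h
  · intro x hx hver hhor
    obtain ⟨y, z, hy, hz, h⟩ := hU x (fun 𝔮 h𝔮 hle h0 hht => by
      by_cases hπ𝔮 : π ∈ 𝔮
      · exact hver 𝔮 (hV 𝔮 h𝔮 hle hπ𝔮 hht) hle
      · exact hhor ⟨𝔮, ⟨h𝔮, hle, h0, hπ𝔮, hht⟩⟩)
    exact ⟨y, z, hy, hz, h⟩
  · have hfin' := s34l1_hor_finite π n f hf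
    have hsub : {i : {q : Ideal B // s34l1_IsHor π n q} | (Q i).ord f ≠ 0} ⊆
        Subtype.val ⁻¹' {q : Ideal B | s34l1_IsHor π n q ∧ ¬ s34l1_IsUnitAt q f} := by
      intro i hi
      refine ⟨i.2, fun hu => hi ?_⟩
      exact s34l1_ord_of_isUnitAt hinj (hQ i) hu
    exact (hfin'.preimage Subtype.val_injective.injOn).subset hsub
  · intro i hi
    obtain ⟨g, hg⟩ := hLG i.1 i.2 (Q i) (hQ i) hi
    refine ⟨g, hg.1, s34l1_locGen_ord hinj (hQ i) i.2.le i.2.notMem hg, ?_⟩
    intro j hj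
    exact s34l1_locGen_ord' hinj i.2.ne_bot hg (hQ j) j.2.le j.2.notMem j.2.ht i.2.prime
      (fun h => hj (Subtype.ext h))

end main

end Fermat.Agent.S34
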