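/-
S34, leaf [LOC-UNIT] (owner: helper5).  Prefix `s34lu_`.  Mathlib only.

The height-one intersection theorem, in the elementary spelling of localisations used by
`S34/Loc1Abs.lean` (no `Localization` type, no `Ideal.height` in any statement):

`B` a noetherian integrally closed domain with field of fractions `F`, `n` a prime ideal of `B`.

* `s34lu_HtOne q`: `q` is a non-zero prime whose only prime sub-ideals are `⊥` and `q`;
* `s34lu_Q n`: the set of the primes of height one contained in `n`;
* `s34lu_mem`: an element of `F` which lies in `B_q` for every `q ∈ s34lu_Q n` lies in `B_n`;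
* `s34lu_unit`: a non-zero element of `F` which is a unit of `B_q` for every `q ∈ s34lu_Q n`
  is a unit of `B_n`;
* `s34lu_Q_comap`: `s34lu_Q n` is stable under an automorphism `σ` of `B` which is the identity
  modulo some `π ∈ n`;
* `s34lu_htOne_iff_minimalPrimes`: the primes of height one containing `π ≠ 0` are the minimal
  primes over `π B` (Krull's principal ideal theorem for one direction).

Route (no localisation, no Krull dimension): for `e ∈ F` put `den x := {r | x r ∈ B}`.  If
`den e ≤ n`, choose `p = den (c e)` maximal among the ideals `den (c e) ≤ n`, `c ∈ B`.  It is a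
prime, and `p e' ⊄ p` for `e' := c e` (determinant trick, `B` integrally closed); so there is
`p₀ ∈ p` with `u := p₀ e' ∈ B ∖ p`, and `u r = p₀ (r e')` for `r ∈ p`.  A prime `q' < p` does not
contain `p₀`, hence `q' e' ⊆ q'`, hence `q' = ⊥` (determinant trick again).  So `p` is of
height one, `p ≤ n`, and `e ∉ B_p`.
-/
import Mathlib

set_option autoImplicit false

namespace Fermat.Agent.S34

/-- `q` is a prime of height one, in elementary terms. -/
def s34lu_HtOne {B : Type*} [CommRing B] (q : Ideal B) : Prop :=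
  q.IsPrime ∧ q ≠ ⊥ ∧ ∀ q' : Ideal B, q'.IsPrime → q' ≤ q → q' = ⊥ ∨ q' = q

/-- The primes of height one inside `n`. -/
def s34lu_Q {B : Type*} [CommRing B] (n : Ideal B) : Set (Ideal B) :=
  {q | s34lu_HtOne q ∧ q ≤ n}

/-- The denominator ideal `{r | x r ∈ B}` of `x ∈ F`. -/
def s34lu_den (B : Type*) {F : Type*} [CommRing B] [Field F] [Algebra B F] (x : F) :
    Ideal B where
  carrier := {r | ∃ y : B, x * algebraMap B F r = algebraMap B F y}
  add_mem' := by
    rintro a b ⟨y, hy⟩ ⟨z, hz⟩
    exact ⟨y + z, by rw [map_add, mul_add, hy, hz, map_add]⟩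
  zero_mem' := ⟨0, by rw [map_zero, mul_zero]⟩
  smul_mem' := by
    rintro c a ⟨y, hy⟩
    refine ⟨c * y, ?_⟩
    rw [smul_eq_mul, map_mul, map_mul, ← hy]
    ring

section

variable {B F : Type*} [CommRing B] [Field F] [Algebra B F]

theorem s34lu_mem_den {x : F} {r : B} :
    r ∈ s34lu_den B x ↔ ∃ y : B, x * algebraMap B F r = algebraMap B F y := Iff.rfl

theorem s34lu_mul_mem_den {x : F} {c r : B} :
    r ∈ s34lu_den B (algebraMap B F c * x) ↔ r * c ∈ s34lu_den B x := by
  rw [s34lu_mem_den, s34lu_mem_den]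
  have e : algebraMap B F c * x * algebraMap B F r = x * algebraMap B F (r * c) := by
    rw [map_mul]; ring
  rw [e]

theorem s34lu_den_le_mul (x : F) (c : B) :
    s34lu_den B x ≤ s34lu_den B (algebraMap B F c * x) := by
  intro r hr
  rw [s34lu_mul_mem_den]
  exact Ideal.mul_mem_right c _ hr

variable [IsDomain B] [IsFractionRing B F]

omit [IsDomain B] in
/-- The determinant trick: `x q ⊆ q` for a non-zero finitely generated ideal `q` of an
integrally closed domain forces `x ∈ B`. -/
theorem s34lu_int [IsNoetherianRing B] [IsIntegrallyClosed B] (q : Ideal B) (hq : q ≠ ⊥) (x : F)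
    (h : ∀ r ∈ q, ∃ y ∈ q, x * algebraMap B F r = algebraMap B F y) :
    ∃ y : B, algebraMap B F y = x := by
  have hinj : Function.Injective (Algebra.linearMap B F) := IsFractionRing.injective B F
  have hN : Submodule.map (Algebra.linearMap B F) q ≠ ⊥ := by
    intro h0
    obtain ⟨r, hr, hr0⟩ := Submodule.exists_mem_ne_zero_of_ne_bot hq
    have h1 : Algebra.linearMap B F r ∈ Submodule.map (Algebra.linearMap B F) q :=
      Submodule.mem_map_of_mem hr
    rw [h0, Submodule.mem_bot] at h1
    exact hr0 (hinj (h1.trans (map_zero _).symm))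
  have hfg : (Submodule.map (Algebra.linearMap B F) q).FG :=
    Submodule.FG.map _ (IsNoetherian.noetherian q)
  have hint : IsIntegral B x := by
    refine isIntegral_of_smul_mem_submodule (Submodule.map (Algebra.linearMap B F) q) hN hfg x ?_
    rintro _ ⟨r, hr, rfl⟩
    obtain ⟨y, hy, hxy⟩ := h r hr
    refine ⟨y, hy, ?_⟩
    rw [smul_eq_mul, Algebra.linearMap_apply, Algebra.linearMap_apply, hxy]
  exact IsIntegrallyClosed.isIntegral_iff.mp hint


variable [IsNoetherianRing B] [IsIntegrallyClosed B]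

/-- If the denominator ideal of `e` lies in the prime `n`, it lies in a prime of height one
inside `n`. -/
theorem s34lu_exists_htOne (n : Ideal B) [hn : n.IsPrime] (e : F) (hen : s34lu_den B e ≤ n) :
    ∃ p : Ideal B, s34lu_HtOne p ∧ p ≤ n ∧ s34lu_den B e ≤ p := by
  -- a maximal denominator ideal inside `n`
  have hS : ({J | ∃ c : B, J = s34lu_den B (algebraMap B F c * e) ∧ J ≤ n} :
      Set (Ideal B)).Nonempty := ⟨s34lu_den B e, 1, by rw [map_one, one_mul], hen⟩
  have hex : ∃ p : Ideal B, (∃ c : B, p = s34lu_den B (algebraMap B F c * e) ∧ p ≤ n) ∧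
      ∀ I : Ideal B, (∃ c : B, I = s34lu_den B (algebraMap B F c * e) ∧ I ≤ n) → ¬ p < I :=
    set_has_maximal_iff_noetherian.mpr (inferInstance : IsNoetherian B B) _ hS
  obtain ⟨p, ⟨c, hpc, hpn⟩, hmax⟩ := hex
  -- `e' := c e`
  have hmem : ∀ r : B, r ∈ p ↔ ∃ y : B, algebraMap B F c * e * algebraMap B F r =
      algebraMap B F y := fun r => by rw [hpc]; exact Iff.rfl
  have hmax' : ∀ x : B, s34lu_den B (algebraMap B F x * (algebraMap B F c * e)) ≤ n →
      s34lu_den B (algebraMap B F x * (algebraMap B F c * e)) = p := by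
    intro x hx
    have hle : p ≤ s34lu_den B (algebraMap B F x * (algebraMap B F c * e)) := by
      rw [hpc]; exact s34lu_den_le_mul _ x
    by_contra hne
    refine hmax _ ⟨x * c, ?_, hx⟩ (lt_of_le_of_ne hle (Ne.symm hne))
    rw [map_mul, mul_assoc]
  have hone : (1 : B) ∉ p := fun h => hn.ne_top ((Ideal.eq_top_iff_one n).mpr (hpn h))
  have hprime : p.IsPrime := by
    rw [Ideal.isPrime_iff]
    refine ⟨fun h => hone (h ▸ Submodule.mem_top), ?_⟩
    intro x y hxy
    by_contra hcon
    rw [not_or] at hcon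
    obtain ⟨hx, hy⟩ := hcon
    by_cases hcase : s34lu_den B (algebraMap B F x * (algebraMap B F c * e)) ≤ n
    · have h1 := hmax' x hcase
      apply hy
      rw [← h1, s34lu_mul_mem_den, ← hpc, mul_comm]
      exact hxy
    · obtain ⟨s, hs, hsn⟩ := Set.not_subset.mp hcase
      have hs' : s * x ∈ p := by
        have := s34lu_mul_mem_den.mp hs
        rwa [← hpc] at this
      have hle : s34lu_den B (algebraMap B F s * (algebraMap B F c * e)) ≤ n := by
        intro r hr
        have h2 : r * s ∈ p := by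
          have := s34lu_mul_mem_den.mp hr
          rwa [← hpc] at this
        exact (hn.mem_or_mem (hpn h2)).resolve_right hsn
      have h1 := hmax' s hle
      apply hx
      rw [← h1, s34lu_mul_mem_den, ← hpc, mul_comm]
      exact hs'
  -- `p ≠ ⊥`
  have hbot : p ≠ ⊥ := by
    obtain ⟨a, b, hb, hab⟩ := IsFractionRing.div_surjective (A := B) e
    have hb0 : b ≠ 0 := nonZeroDivisors.ne_zero hb
    have hbF : algebraMap B F b ≠ 0 := fun h =>
      hb0 (IsFractionRing.injective B F (h.trans (map_zero _).symm))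
    intro h0
    have : b ∈ p := by
      rw [hmem]
      refine ⟨c * a, ?_⟩
      rw [← hab, map_mul]
      field_simp
    rw [h0, Ideal.mem_bot] at this
    exact hb0 this
  -- not integral
  have hnotB : ¬ ∃ y : B, algebraMap B F y = algebraMap B F c * e := by
    rintro ⟨y, hy⟩
    exact hone ((hmem 1).mpr ⟨y, by rw [map_one, mul_one, hy]⟩)
  -- the generator `p₀` of `p B_p`
  obtain ⟨p₀, hp₀, u, hu, hup⟩ : ∃ p₀ ∈ p, ∃ u : B, u ∉ p ∧
      algebraMap B F c * e * algebraMap B F p₀ = algebraMap B F u := by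
    by_contra hcon
    apply hnotB
    refine s34lu_int p hbot _ (fun r hr => ?_)
    obtain ⟨y, hy⟩ := (hmem r).mp hr
    refine ⟨y, ?_, hy⟩
    by_contra hyp
    exact hcon ⟨r, hr, y, hyp, hy⟩
  have hkey : ∀ r y : B, algebraMap B F c * e * algebraMap B F r = algebraMap B F y →
      u * r = p₀ * y := by
    intro r y hy
    apply IsFractionRing.injective B F
    rw [map_mul, map_mul, ← hup, ← hy]
    ring
  refine ⟨p, ⟨hprime, hbot, ?_⟩, hpn, ?_⟩
  · intro q' hq' hle
    by_cases hqp : q' = p
    · exact Or.inr hqp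
    left
    have hp₀q : p₀ ∉ q' := by
      intro hp₀q
      apply hqp
      refine le_antisymm hle (fun r hr => ?_)
      obtain ⟨y, hy⟩ := (hmem r).mp hr
      have h1 : u * r ∈ q' := by
        rw [hkey r y hy]
        exact Ideal.mul_mem_right y _ hp₀q
      exact (hq'.mem_or_mem h1).resolve_left (fun h => hu (hle h))
    by_contra hq0
    apply hnotB
    refine s34lu_int q' hq0 _ (fun r hr => ?_)
    obtain ⟨y, hy⟩ := (hmem r).mp (hle hr)
    refine ⟨y, ?_, hy⟩
    have h1 : p₀ * y ∈ q' := by
      rw [← hkey r y hy]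
      exact Ideal.mul_mem_left _ u hr
    exact (hq'.mem_or_mem h1).resolve_left hp₀q
  · rw [hpc]
    exact s34lu_den_le_mul e c

/-- **[LOC-UNIT], membership form.**  An element of `F` which lies in `B_q` for every prime `q`
of height one inside `n` lies in `B_n`. -/
theorem s34lu_mem (n : Ideal B) [n.IsPrime] (e : F)
    (h : ∀ q ∈ s34lu_Q n, ∃ y z : B, z ∉ q ∧ e * algebraMap B F z = algebraMap B F y) :
    ∃ y z : B, z ∉ n ∧ e * algebraMap B F z = algebraMap B F y := by
  by_contra hcon
  have hen : s34lu_den B e ≤ n := by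
    intro z hz
    by_contra hzn
    obtain ⟨y, hy⟩ := hz
    exact hcon ⟨y, z, hzn, hy⟩
  obtain ⟨p, hp1, hpn, hle⟩ := s34lu_exists_htOne n e hen
  obtain ⟨y, z, hz, hyz⟩ := h p ⟨hp1, hpn⟩
  exact hz (hle ⟨y, hyz⟩)

/-- **[LOC-UNIT].**  A non-zero element of `F` which is a unit of `B_q` for every prime `q` of
height one inside `n` is a unit of `B_n`. -/
theorem s34lu_unit (n : Ideal B) [hn : n.IsPrime] (e : F) (he : e ≠ 0)
    (h : ∀ q ∈ s34lu_Q n, ∃ y z : B, y ∉ q ∧ z ∉ q ∧ e * algebraMap B F z = algebraMap B F y) :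
    ∃ y z : B, y ∉ n ∧ z ∉ n ∧ e * algebraMap B F z = algebraMap B F y := by
  obtain ⟨y, z, hz, hyz⟩ := s34lu_mem n e (fun q hq => by
    obtain ⟨y, z, -, hz, hyz⟩ := h q hq
    exact ⟨y, z, hz, hyz⟩)
  obtain ⟨y', z', hz', hyz'⟩ := s34lu_mem n e⁻¹ (fun q hq => by
    obtain ⟨y, z, hy, -, hyz⟩ := h q hq
    refine ⟨z, y, hy, ?_⟩
    rw [← hyz]
    field_simp)
  -- `e z = y`, `y' = e z'`
  have h1 : algebraMap B F z' = e * algebraMap B F y' := by
    rw [← hyz']
    field_simp
  have h2 : y * y' = z * z' := by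
    apply IsFractionRing.injective B F
    rw [map_mul, map_mul, ← hyz, h1]
    ring
  have hzz : z * z' ∉ n := fun h => (hn.mem_or_mem h).elim hz hz'
  refine ⟨z * z', z * y', hzz, ?_, ?_⟩
  · intro h3
    rcases hn.mem_or_mem h3 with h4 | h4
    · exact hz h4
    · exact hzz (h2 ▸ Ideal.mul_mem_left _ y h4)
  · rw [map_mul, map_mul, h1]
    ring


omit [IsIntegrallyClosed B] in
/-- The primes of height one containing `π ≠ 0` are the minimal primes over `π B`. -/
theorem s34lu_htOne_iff_minimalPrimes (π : B) (hπ0 : π ≠ 0) (q : Ideal B) :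
    s34lu_HtOne q ∧ π ∈ q ↔ q ∈ (Ideal.span {π}).minimalPrimes := by
  constructor
  · rintro ⟨⟨hq, -, hmin⟩, hπq⟩
    refine ⟨⟨hq, (Ideal.span_singleton_le_iff_mem q).mpr hπq⟩, ?_⟩
    rintro q' ⟨hq', hπq'⟩ hle
    rcases hmin q' hq' hle with h | h
    · exfalso
      have : π ∈ q' := (Ideal.span_singleton_le_iff_mem q').mp hπq'
      rw [h, Ideal.mem_bot] at this
      exact hπ0 this
    · exact h.ge
  · intro hq
    have hq' : q.IsPrime := hq.1.1
    have hπq : π ∈ q := (Ideal.span_singleton_le_iff_mem q).mp hq.1.2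
    have hq0 : q ≠ ⊥ := by
      intro h
      rw [h, Ideal.mem_bot] at hπq
      exact hπ0 hπq
    refine ⟨⟨hq', hq0, ?_⟩, hπq⟩
    intro q' hq'p hle
    by_cases hqq : q' = q
    · exact Or.inr hqq
    left
    have hlt : q' < q := lt_of_le_of_ne hle hqq
    have h1 : q.height ≤ 1 :=
      Ideal.height_le_one_of_isPrincipal_of_mem_minimalPrimes (Ideal.span {π}) q hq
    have h2 : q'.height < q.height := Ideal.height_strict_mono_of_isPrime hlt
    have h3 : q'.height = 0 := by
      have : q'.height < 1 := lt_of_lt_of_le h2 h1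
      exact Order.lt_one_iff.mp this
    exact Ideal.height_eq_zero_iff_eq_bot.mp h3

omit [IsNoetherianRing B] [IsIntegrallyClosed B] [IsDomain B] in
theorem s34lu_Q_prime (n : Ideal B) (q : Ideal B) (hq : q ∈ s34lu_Q n) : q.IsPrime := hq.1.1

omit [IsNoetherianRing B] [IsIntegrallyClosed B] [IsDomain B] in
/-- The set of the primes of height one inside `n` is stable under an automorphism of `B`
which is the identity modulo `π ∈ n`. -/
theorem s34lu_Q_comap (π : B) (σ : B ≃+* B) (hσ : ∀ b : B, ∃ c : B, σ b - b = π * c)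
    (n : Ideal B) (hπn : π ∈ n) (q : Ideal B) (hq : q ∈ s34lu_Q n) :
    q.comap (σ : B →+* B) ∈ s34lu_Q n := by
  obtain ⟨⟨hqp, hq0, hmin⟩, hqn⟩ := hq
  refine ⟨⟨Ideal.comap_isPrime _ q, ?_, ?_⟩, ?_⟩
  · intro h0
    apply hq0
    rw [eq_bot_iff]
    intro r hr
    have h1 : σ.symm r ∈ q.comap (σ : B →+* B) := by
      rw [Ideal.mem_comap]
      simpa using hr
    rw [h0, Ideal.mem_bot] at h1
    rw [Ideal.mem_bot]
    simpa using congrArg σ h1
  · intro q' hq' hle
    have hle' : q'.comap (σ.symm : B →+* B) ≤ q := by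
      intro r hr
      have h1 : σ.symm r ∈ q.comap (σ : B →+* B) := hle (Ideal.mem_comap.mp hr)
      rw [Ideal.mem_comap] at h1
      simpa using h1
    rcases hmin _ (Ideal.comap_isPrime _ q') hle' with h | h
    · left
      rw [eq_bot_iff]
      intro r hr
      have h1 : σ r ∈ q'.comap (σ.symm : B →+* B) := by
        rw [Ideal.mem_comap]
        simpa using hr
      rw [h, Ideal.mem_bot] at h1
      rw [Ideal.mem_bot]
      simpa using congrArg σ.symm h1
    · right
      refine le_antisymm hle ?_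
      intro r hr
      have h1 : σ r ∈ q'.comap (σ.symm : B →+* B) := by
        rw [h]
        exact Ideal.mem_comap.mp hr
      rw [Ideal.mem_comap] at h1
      simpa using h1
  · intro r hr
    obtain ⟨c, hc⟩ := hσ r
    have h1 : σ r ∈ n := hqn (Ideal.mem_comap.mp hr)
    have h2 : r = σ r - π * c := by rw [← hc]; ring
    rw [h2]
    exact n.sub_mem h1 (n.mul_mem_right c hπn)

/-- **[LOC-UNIT], split form.**  A non-zero element of `F` which is a unit at every minimal
prime of `π B` inside `n` (the branches through `n`) and at every prime of height one inside `n`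
which does not contain `π` (the horizontal primes through `n`) is a unit of `B_n`. -/
theorem s34lu_unit_split (π : B) (hπ0 : π ≠ 0) (n : Ideal B) [hn : n.IsPrime] (e : F)
    (he : e ≠ 0)
    (hver : ∀ q ∈ (Ideal.span {π}).minimalPrimes, q ≤ n →
      ∃ y z : B, y ∉ q ∧ z ∉ q ∧ e * algebraMap B F z = algebraMap B F y)
    (hhor : ∀ q ∈ s34lu_Q n, π ∉ q →
      ∃ y z : B, y ∉ q ∧ z ∉ q ∧ e * algebraMap B F z = algebraMap B F y) :
    ∃ y z : B, y ∉ n ∧ z ∉ n ∧ e * algebraMap B F z = algebraMap B F y := by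
  refine s34lu_unit n e he (fun q hq => ?_)
  by_cases hπq : π ∈ q
  · exact hver q ((s34lu_htOne_iff_minimalPrimes π hπ0 q).mp ⟨hq.1, hπq⟩) hq.2
  · exact hhor q hq hπq

end

end Fermat.Agent.S34
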