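/-
S34, leaf [SS-LOC1], step 3: the chart (owner: helper29).  Prefix `s34l1_`.

`O` a discrete valuation ring with uniformizer `ϖ`, `K = Frac O` of characteristic `0`, `F / K(j)`
finite, `B = s18_chart O {j}`, `τ` an automorphism of `F`.  THE MODEL FACTS which are consumed:

* [K-TAU]    `τ B = B`, `τ b - b ∈ π B` for `b ∈ B`, `τ π = η π` with `η` a unit of `O`;
* [SS-GAUSS] + [COUNT]  a set `𝒱` of valuation subrings of `F` (`V_∞`, `V_0`) with `⨅ 𝒱 ≤ W`,
             `B ⊆ V`, `π` a uniformizer of `V`, `V = B` localised at its centre, and every prime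
             of height one of `B` containing `π` is the centre of some `V ∈ 𝒱`;
* [LOC]      every horizontal prime `q` through a closed point `n` of the special fibre whose
             place has degree `1` is principal up to a power of `π` (`s34l1_IsLocGen`).

CONCLUSION (`s34l1_chart`): for `f ≠ 0` with `m ∣ ord_P f` for all places `P` and all zeros and
poles of degree `1`, the second difference `u` of `f` satisfies `s34l_LocGen O j ϖ W u m` and
`u - 1 ∈ π W`.
-/
import Mathlib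
import Fermat.Agent.S18.BasicA
import Fermat.Agent.S18.PoleOf
import Fermat.Agent.S34.LiftDefs
import Fermat.Agent.S34.LocUnit
import Fermat.Agent.S34.Loc1Place

set_option autoImplicit false
set_option linter.unusedSectionVars false
set_option linter.style.haveILetI false

open AlgebraicCurve IntermediateField

noncomputable section

namespace Fermat.Agent.S34

open Fermat.Agent.S18

section centre

variable {B F : Type*} [CommRing B] [Field F] [Algebra B F]

/-- The centre on `B` of a valuation subring `V ⊇ B`. -/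
def s34l1_centre (V : ValuationSubring F) (hVB : ∀ b : B, algebraMap B F b ∈ V) : Ideal B where
  carrier := {b | V.valuation (algebraMap B F b) < 1}
  add_mem' := by
    intro a b ha hb
    show V.valuation (algebraMap B F (a + b)) < 1
    rw [map_add]
    exact V.valuation.map_add_lt ha hb
  zero_mem' := by
    show V.valuation (algebraMap B F 0) < 1
    rw [map_zero, map_zero]
    exact zero_lt_one
  smul_mem' := by
    intro c b hb
    show V.valuation (algebraMap B F (c • b)) < 1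
    rw [smul_eq_mul, map_mul, map_mul]
    have hc : V.valuation (algebraMap B F c) ≤ 1 := (V.valuation_le_one_iff _).mpr (hVB c)
    calc V.valuation (algebraMap B F c) * V.valuation (algebraMap B F b)
        ≤ 1 * V.valuation (algebraMap B F b) := mul_le_mul' hc le_rfl
      _ = V.valuation (algebraMap B F b) := one_mul _
      _ < 1 := hb

theorem s34l1_mem_centre (V : ValuationSubring F) (hVB : ∀ b : B, algebraMap B F b ∈ V) (b : B) :
    b ∈ s34l1_centre V hVB ↔ algebraMap B F b ∈ V.nonunits :=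
  (V.mem_nonunits_iff).symm

theorem s34l1_centre_isPrime (V : ValuationSubring F) (hVB : ∀ b : B, algebraMap B F b ∈ V) :
    (s34l1_centre V hVB).IsPrime := by
  refine ⟨?_, ?_⟩
  · intro h
    have h1 : (1 : B) ∈ s34l1_centre V hVB := by rw [h]; exact Submodule.mem_top
    have h2 : V.valuation (algebraMap B F 1) < 1 := h1
    rw [map_one, map_one] at h2
    exact lt_irrefl _ h2
  · intro a b hab
    have h1 : V.valuation (algebraMap B F (a * b)) < 1 := hab
    rw [map_mul, map_mul] at h1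
    by_contra hne
    rw [not_or] at hne
    have ha : V.valuation (algebraMap B F a) = 1 :=
      le_antisymm ((V.valuation_le_one_iff _).mpr (hVB a)) (not_lt.mp hne.1)
    have hb : V.valuation (algebraMap B F b) = 1 :=
      le_antisymm ((V.valuation_le_one_iff _).mpr (hVB b)) (not_lt.mp hne.2)
    rw [ha, hb, one_mul] at h1
    exact lt_irrefl _ h1

/-- A fraction `a / b` with `b` outside the centre lies in `V`. -/
theorem s34l1_mem_of_frac (V : ValuationSubring F) (hVB : ∀ b : B, algebraMap B F b ∈ V)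
    {x : F} {a b : B} (hb : b ∉ s34l1_centre V hVB)
    (h : x * algebraMap B F b = algebraMap B F a) : x ∈ V := by
  have hb1 : V.valuation (algebraMap B F b) = 1 :=
    le_antisymm ((V.valuation_le_one_iff _).mpr (hVB b)) (not_lt.mp hb)
  have h1 := congrArg V.valuation h
  rw [map_mul, hb1, mul_one] at h1
  rw [← V.valuation_le_one_iff, h1]
  exact (V.valuation_le_one_iff _).mpr (hVB a)

/-- A unit of `V` which is a fraction with denominator outside the centre is a unit at the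
centre. -/
theorem s34l1_isUnitAt_centre (V : ValuationSubring F) (hVB : ∀ b : B, algebraMap B F b ∈ V)
    {x : F} (hx0 : x ≠ 0) (hx : x ∈ V) (hx' : x⁻¹ ∈ V)
    (hloc : ∃ a b : B, algebraMap B F b ∉ V.nonunits ∧ x * algebraMap B F b = algebraMap B F a) :
    s34l1_IsUnitAt (s34l1_centre V hVB) x := by
  obtain ⟨a, b, hb, hab⟩ := hloc
  have hb1 : V.valuation (algebraMap B F b) = 1 := by
    rw [V.mem_nonunits_iff] at hb
    exact le_antisymm ((V.valuation_le_one_iff _).mpr (hVB b)) (not_lt.mp hb)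
  have hx1 : V.valuation x = 1 := by
    have h1 : V.valuation x ≤ 1 := (V.valuation_le_one_iff _).mpr hx
    have h2 : V.valuation x⁻¹ ≤ 1 := (V.valuation_le_one_iff _).mpr hx'
    rw [map_inv₀] at h2
    have h0 : V.valuation x ≠ 0 := fun h => hx0 ((V.valuation.zero_iff).mp h)
    exact le_antisymm h1 ((inv_le_one₀ (zero_lt_iff.mpr h0)).mp h2)
  have ha1 : V.valuation (algebraMap B F a) = 1 := by
    rw [← hab, map_mul, hx1, hb1, one_mul]
  refine ⟨a, b, ?_, ?_, hab⟩
  · intro h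
    have h' : V.valuation (algebraMap B F a) < 1 := h
    rw [ha1] at h'
    exact lt_irrefl _ h'
  · intro h
    have h' : V.valuation (algebraMap B F b) < 1 := h
    rw [hb1] at h'
    exact lt_irrefl _ h'

end centre

/-! ### The chart -/

section chart

variable (O K : Type) {F : Type} [CommRing O] [IsDomain O] [IsDiscreteValuationRing O]
  [Field K] [CharZero K] [Algebra O K] [IsFractionRing O K] [Field F] [Algebra K F]
  [Algebra O F] [IsScalarTower O K F]

/-- **[LOC]** as it is consumed: every horizontal prime through a closed point of the special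
fibre of the chart of `j` whose place has degree `1` is principal up to a power of `π`. -/
def s34l1_LocStatementAt (j : F) (ϖ : O) : Prop :=
  ∀ n : Ideal ↥(s18_chart O ({j} : Set F)), n.IsMaximal →
    algebraMap O ↥(s18_chart O ({j} : Set F)) ϖ ∈ n →
    ∀ q : Ideal ↥(s18_chart O ({j} : Set F)),
      s34l1_IsHor (algebraMap O ↥(s18_chart O ({j} : Set F)) ϖ) n q →
      ∀ Q : Place K F, s34l1_IsPlaceOf q Q → Q.deg = 1 →
        ∃ g : F, s34l1_IsLocGen (algebraMap O ↥(s18_chart O ({j} : Set F)) ϖ) n q g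

/-- **[K-TAU]** as it is consumed. -/
structure s34l1_IsTau (j : F) (ϖ : O) (τ : F ≃+* F) : Prop where
  mem : ∀ b ∈ s18_chart O ({j} : Set F), τ b ∈ s18_chart O ({j} : Set F)
  symm_mem : ∀ b ∈ s18_chart O ({j} : Set F), τ.symm b ∈ s18_chart O ({j} : Set F)
  sub : ∀ b ∈ s18_chart O ({j} : Set F), ∃ c ∈ s18_chart O ({j} : Set F),
    τ b - b = algebraMap O F ϖ * c
  pi : ∃ η : O, IsUnit η ∧ τ (algebraMap O F ϖ) = algebraMap O F η * algebraMap O F ϖ

/-- **[SS-GAUSS] + [COUNT]** as they are consumed: the valuation rings of the generic points of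
the special fibre. -/
structure s34l1_IsVert (j : F) (ϖ : O) (W : Subring F) (𝒱 : Set (ValuationSubring F)) :
    Prop where
  inf_le : ∀ w : F, (∀ V ∈ 𝒱, w ∈ V) → w ∈ W
  chart_le : ∀ V ∈ 𝒱, ∀ b ∈ s18_chart O ({j} : Set F), b ∈ V
  pi : ∀ V ∈ 𝒱, algebraMap O F ϖ ∈ V.nonunits
  unif : ∀ V ∈ 𝒱, ∀ h : F, h ≠ 0 → ∃ (c : ℤ) (h' : F), h' ∈ V ∧ h'⁻¹ ∈ V ∧
    h = algebraMap O F ϖ ^ c * h'
  loc : ∀ V ∈ 𝒱, ∀ x ∈ V, ∃ a b : ↥(s18_chart O ({j} : Set F)),
    (b : F) ∉ V.nonunits ∧ x * (b : F) = (a : F)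
  all : ∀ q : Ideal ↥(s18_chart O ({j} : Set F)), q.IsPrime →
    algebraMap O ↥(s18_chart O ({j} : Set F)) ϖ ∈ q → s34l1_IsHt1 q →
    ∃ V ∈ 𝒱, ∀ b : ↥(s18_chart O ({j} : Set F)), b ∈ q ↔ (b : F) ∈ V.nonunits

variable {O K}

/-- `B` is integrally closed. -/
theorem s34l1_chart_isIntegrallyClosed (j : F)
    (hfrac : IsFractionRing ↥(s18_chart O ({j} : Set F)) F) :
    IsIntegrallyClosed ↥(s18_chart O ({j} : Set F)) := by
  refine (isIntegrallyClosed_iff F).mpr (fun {x} hx => ?_)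
  exact ⟨⟨x, s18p_intClosed O j x hx⟩, rfl⟩

/-- **[SS-LOC1]** for one chart. -/
theorem s34l1_chart (j : F) (htr : Transcendental K j) (hfin : FiniteDimensional ↥K⟮j⟯ F)
    (ϖ : O) (hϖ : Irreducible ϖ) (W : Subring F) (τ : F ≃+* F)
    (hτ : s34l1_IsTau O j ϖ τ) (𝒱 : Set (ValuationSubring F))
    (hV : s34l1_IsVert O j ϖ W 𝒱) (hLG : s34l1_LocStatementAt O K j ϖ)
    (m : ℕ) (f : F) (hf : f ≠ 0) (hdiv : ∀ P : Place K F, (m : ℤ) ∣ P.ord f)
    (hdeg : ∀ P : Place K F, P.ord f ≠ 0 → P.deg = 1) :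
    (τ (τ f) * f / τ f ^ 2) - 1 ∈ s34l_gauss O ϖ W 1 ∧
      s34l_LocGen O j ϖ W (τ (τ f) * f / τ f ^ 2) m := by
  classical
  -- the ring `B`
  have hnoeth : IsNoetherianRing ↥(s18_chart O ({j} : Set F)) := s18b_noeth (O := O) htr hfin
  have hfrac : IsFractionRing ↥(s18_chart O ({j} : Set F)) F := by
    refine IsFractionRing.of_field _ F (fun z => ?_)
    obtain ⟨x, y, hy, hxy⟩ := s18b_frac (O := O) htr hfin z
    refine ⟨x, y, ?_⟩
    have hy' : (y : F) ≠ 0 := fun h => hy (Subtype.ext h)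
    exact (eq_div_iff hy').2 hxy
  have hic : IsIntegrallyClosed ↥(s18_chart O ({j} : Set F)) :=
    s34l1_chart_isIntegrallyClosed j hfrac
  have hinjOF : Function.Injective (algebraMap O F) := by
    rw [IsScalarTower.algebraMap_eq O K F]
    exact (algebraMap K F).injective.comp (IsFractionRing.injective O K)
  have hϖ0 : algebraMap O ↥(s18_chart O ({j} : Set F)) ϖ ≠ 0 := by
    intro h
    have h1 : algebraMap O F ϖ = 0 := congrArg Subtype.val h
    exact hϖ.ne_zero (hinjOF (h1.trans (map_zero _).symm))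
  have hK : ∀ c : K, ∃ x y : ↥(s18_chart O ({j} : Set F)), ∃ k : ℕ,
      y ∣ algebraMap O ↥(s18_chart O ({j} : Set F)) ϖ ^ k ∧
      algebraMap K F c * algebraMap ↥(s18_chart O ({j} : Set F)) F y =
        algebraMap ↥(s18_chart O ({j} : Set F)) F x := by
    intro c
    obtain ⟨a, b, hb', hab⟩ := IsFractionRing.div_surjective (A := O) c
    have hb0 : b ≠ 0 := nonZeroDivisors.ne_zero hb'
    have hb0' : algebraMap O K b ≠ 0 := fun h =>
      hb0 (IsFractionRing.injective O K (h.trans (map_zero _).symm))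
    obtain ⟨k, ε, hε⟩ := IsDiscreteValuationRing.eq_unit_mul_pow_irreducible hb0 hϖ
    refine ⟨algebraMap O _ a, algebraMap O _ b, k, ?_, ?_⟩
    · have h1 : b ∣ ϖ ^ k := ⟨((ε⁻¹ : Oˣ) : O), by
        rw [hε, mul_comm (ε : O), mul_assoc, Units.mul_inv, mul_one]⟩
      have h2 := map_dvd (algebraMap O ↥(s18_chart O ({j} : Set F))) h1
      rwa [map_pow] at h2
    · show algebraMap K F c * algebraMap O F b = algebraMap O F a
      rw [IsScalarTower.algebraMap_apply O K F, IsScalarTower.algebraMap_apply O K F, ← map_mul,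
        ← hab, div_mul_cancel₀ _ hb0']
  -- the automorphism
  let σ : ↥(s18_chart O ({j} : Set F)) ≃+* ↥(s18_chart O ({j} : Set F)) :=
    { toFun := fun b => ⟨τ b, hτ.mem b b.2⟩
      invFun := fun b => ⟨τ.symm b, hτ.symm_mem b b.2⟩
      left_inv := fun b => Subtype.ext (τ.symm_apply_apply b)
      right_inv := fun b => Subtype.ext (τ.apply_symm_apply b)
      map_mul' := fun a b => Subtype.ext (map_mul τ (a : F) b)
      map_add' := fun a b => Subtype.ext (map_add τ (a : F) b) }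
  have hστ : ∀ b : ↥(s18_chart O ({j} : Set F)),
      τ (algebraMap ↥(s18_chart O ({j} : Set F)) F b) =
        algebraMap ↥(s18_chart O ({j} : Set F)) F (σ b) := fun b => rfl
  have hσ : ∀ b : ↥(s18_chart O ({j} : Set F)), ∃ c : ↥(s18_chart O ({j} : Set F)),
      σ b - b = algebraMap O ↥(s18_chart O ({j} : Set F)) ϖ * c := by
    intro b
    obtain ⟨c, hc, h⟩ := hτ.sub b b.2
    exact ⟨⟨c, hc⟩, Subtype.ext h⟩
  obtain ⟨η, hη, hτπ⟩ := hτ.pi
  have hσπ : σ (algebraMap O ↥(s18_chart O ({j} : Set F)) ϖ) =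
      algebraMap O ↥(s18_chart O ({j} : Set F)) η *
        algebraMap O ↥(s18_chart O ({j} : Set F)) ϖ := Subtype.ext hτπ
  have hηB : IsUnit (algebraMap O ↥(s18_chart O ({j} : Set F)) η) := hη.map _
  -- the vertical primes
  have hVB : ∀ V ∈ 𝒱, ∀ b : ↥(s18_chart O ({j} : Set F)),
      algebraMap ↥(s18_chart O ({j} : Set F)) F b ∈ V := fun V hVm b => hV.chart_le V hVm b b.2
  set 𝒞 : Set (Ideal ↥(s18_chart O ({j} : Set F))) :=
    {q | ∃ (V : ValuationSubring F) (hVm : V ∈ 𝒱), q = s34l1_centre V (hVB V hVm)} with h𝒞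
  have h𝒞prime : ∀ q ∈ 𝒞, q.IsPrime := by
    rintro q ⟨V, hVm, rfl⟩
    exact s34l1_centre_isPrime V _
  have h𝒞π : ∀ q ∈ 𝒞, algebraMap O ↥(s18_chart O ({j} : Set F)) ϖ ∈ q := by
    rintro q ⟨V, hVm, rfl⟩
    rw [s34l1_mem_centre]
    exact hV.pi V hVm
  have hDVR : ∀ q ∈ 𝒞, ∀ h : F, h ≠ 0 → ∃ (c : ℤ) (h' : F), s34l1_IsUnitAt q h' ∧
      h = algebraMap ↥(s18_chart O ({j} : Set F)) F
        (algebraMap O ↥(s18_chart O ({j} : Set F)) ϖ) ^ c * h' := by
    rintro q ⟨V, hVm, rfl⟩ h hh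
    obtain ⟨c, h', h1, h2, h3⟩ := hV.unif V hVm h hh
    have hh'0 : h' ≠ 0 := by
      rintro rfl
      rw [mul_zero] at h3
      exact hh h3
    exact ⟨c, h', s34l1_isUnitAt_centre V _ hh'0 h1 h2 (hV.loc V hVm h' h1), h3⟩
  have hVall : ∀ q : Ideal ↥(s18_chart O ({j} : Set F)), q.IsPrime →
      algebraMap O ↥(s18_chart O ({j} : Set F)) ϖ ∈ q → s34l1_IsHt1 q → q ∈ 𝒞 := by
    intro q hq hπq hht
    obtain ⟨V, hVm, hVq⟩ := hV.all q hq hπq hht
    refine ⟨V, hVm, ?_⟩
    ext b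
    rw [s34l1_mem_centre]
    exact hVq b
  -- from `1 + π B_q` at the centres to `1 + π W`
  have hgauss : ∀ x : F, (∀ q ∈ 𝒞, s34l1_OneMod
      (algebraMap O ↥(s18_chart O ({j} : Set F)) ϖ) q x) → x - 1 ∈ s34l_gauss O ϖ W 1 := by
    intro x hx
    have hπF : algebraMap O F ϖ ≠ 0 := fun h => hϖ.ne_zero (hinjOF (h.trans (map_zero _).symm))
    refine ⟨(x - 1) / algebraMap O F ϖ, hV.inf_le _ (fun V hVm => ?_), ?_⟩
    · obtain ⟨c, d, hd, hcd⟩ := hx _ ⟨V, hVm, rfl⟩
      refine s34l1_mem_of_frac V (hVB V hVm) hd (a := c) ?_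
      have h1 : (x - 1) * algebraMap ↥(s18_chart O ({j} : Set F)) F d =
          algebraMap O F ϖ * algebraMap ↥(s18_chart O ({j} : Set F)) F c := by
        rw [hcd, map_mul]
        rfl
      rw [div_mul_eq_mul_div, h1, mul_div_assoc, mul_div_cancel₀ _ hπF]
    · rw [pow_one, mul_div_cancel₀ _ hπF]
  refine ⟨hgauss _ (s34l1_asm_red _ τ σ _ hστ hσ hηB hσπ hϖ0 𝒞 h𝒞prime h𝒞π hDVR f hf), ?_⟩
  -- local generators
  intro n hn hle
  have hnp : n.IsPrime := hn.isPrime
  have hπn : algebraMap O ↥(s18_chart O ({j} : Set F)) ϖ ∈ n := by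
    apply hle
    exact Ideal.mem_map_of_mem _ (hϖ.maximalIdeal_eq ▸ Ideal.mem_span_singleton_self ϖ)
  have hj : j ∈ s18_chart O ({j} : Set F) := s18p_j_mem O j
  have hU : ∀ e : F, (∀ 𝔮 : Ideal ↥(s18_chart O ({j} : Set F)), 𝔮.IsPrime → 𝔮 ≤ n → 𝔮 ≠ ⊥ →
        (∀ 𝔮' : Ideal ↥(s18_chart O ({j} : Set F)), 𝔮'.IsPrime → 𝔮' ≤ 𝔮 → 𝔮' = ⊥ ∨ 𝔮' = 𝔮) →
        ∃ y z : ↥(s18_chart O ({j} : Set F)), y ∉ 𝔮 ∧ z ∉ 𝔮 ∧
          e * algebraMap ↥(s18_chart O ({j} : Set F)) F z =
            algebraMap ↥(s18_chart O ({j} : Set F)) F y) →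
      ∃ y z : ↥(s18_chart O ({j} : Set F)), y ∉ n ∧ z ∉ n ∧
        e * algebraMap ↥(s18_chart O ({j} : Set F)) F z =
          algebraMap ↥(s18_chart O ({j} : Set F)) F y := by
    intro e he
    have he0 : e ≠ 0 := by
      rintro rfl
      obtain ⟨p, hp, hpn⟩ := Ideal.exists_minimalPrimes_le
        (show Ideal.span {algebraMap O ↥(s18_chart O ({j} : Set F)) ϖ} ≤ n from
          (Ideal.span_singleton_le_iff_mem n).mpr hπn)
      have hp1 := (s34lu_htOne_iff_minimalPrimes _ hϖ0 p).mpr hp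
      obtain ⟨y, z, hy, -, hyz⟩ := he p hp1.1.1 hpn hp1.1.2.1 hp1.1.2.2
      rw [zero_mul] at hyz
      have : y = 0 := IsFractionRing.injective ↥(s18_chart O ({j} : Set F)) F
        (hyz.symm.trans (map_zero _).symm)
      exact hy (this ▸ p.zero_mem)
    exact s34lu_unit n e he0 (fun q hq => he q hq.1.1 hq.2 hq.1.2.1 hq.1.2.2)
  obtain ⟨g, hg0, hgV, c, d, hc, hd, -, hcd⟩ :=
    s34l1_place_main (K := K) (⟨j, hj⟩ : ↥(s18_chart O ({j} : Set F))) htr hfin
      (algebraMap O ↥(s18_chart O ({j} : Set F)) ϖ) hϖ0 hK τ σ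
      (algebraMap O ↥(s18_chart O ({j} : Set F)) η) hστ hσ hηB hσπ n hπn 𝒞 h𝒞prime h𝒞π hDVR
      (fun q hq _ hπq hht => hVall q hq hπq hht) hU m f hf hdiv
      (fun q hq Q hQ hQf => hLG n hn hπn q hq Q hQ (hdeg Q hQf))
  exact ⟨g, hg0, hgauss g hgV, c, d, hc, hd, hcd⟩

end chart

end Fermat.Agent.S34
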