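/-
S34, leaf [SS-LOC1], step 4: [K-DATA] from the model facts (owner: helper29).  Prefix `s34l1_`.

    theorem s34l1_kdata_of : s34l1_ModelStatement → s34_KDataStatement

`s34l1_ModelStatement` is the EXACT list of model facts which the assembly consumes, at the level
`M * q` over the discrete valuation ring `O` of the number field `K0`: a coordinate `J`, a
uniformizer `ϖ`, the ring `W` and the set `𝒱` of the valuation rings of the generic points of the
special fibre with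

* [K-COORD]  `Transcendental K0 J`, `FiniteDimensional K0⟮J⟯ F`;
* [K-ISW]    `s34l_IsW O J ϖ W`;
* [SS-GAUSS] + [COUNT]  `s34l1_IsVert O J ϖ W 𝒱`, `s34l1_IsVert O J⁻¹ ϖ W 𝒱`;
* [LOC]      `s34l1_LocStatementAt O K0 J ϖ`, `s34l1_LocStatementAt O K0 J⁻¹ ϖ`;
* [K-TAU]    `s34l1_IsTau O J ϖ τ`, `s34l1_IsTau O J⁻¹ ϖ τ` for the coefficientwise action `τ` of
             every `τ0` in the inertia group of `O`
(the three structures are defined in `S34/Loc1Chart.lean`).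
-/
import Mathlib
import Fermat.Agent.S34.KOf
import Fermat.Agent.S34.Loc1Chart

set_option autoImplicit false
set_option linter.style.haveILetI false

open AlgebraicCurve ModularCurve IntermediateField

noncomputable section

namespace Fermat.Agent.S34

open Fermat.Agent.S18

/-- **[MODEL]** the model facts consumed by [K-DATA]. -/
def s34l1_ModelStatement : Prop :=
  ∀ (M q : ℕ) [NeZero M], q.Prime → ¬ q ∣ M → (4 ∣ M ∨ 9 ∣ M) →
    ∀ (K0 : IntermediateField ℚ (AlgebraicClosure ℚ)), FiniteDimensional ℚ ↥K0 →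
    ∀ (O : ValuationSubring ↥K0) [IsDiscreteValuationRing ↥O],
      (q : ↥O) ∈ IsLocalRing.maximalIdeal ↥O →
      letI := s18_algOF ↥O ↥K0 (M * q)
      ∃ (J : ↥(s18_F ↥K0 (M * q))) (ϖ : ↥O) (W : Subring ↥(s18_F ↥K0 (M * q)))
        (𝒱 : Set (ValuationSubring ↥(s18_F ↥K0 (M * q)))),
        Irreducible ϖ ∧ Transcendental ↥K0 J ∧
        FiniteDimensional ↥(↥K0)⟮J⟯ ↥(s18_F ↥K0 (M * q)) ∧
        s34l_IsW ↥O J ϖ W ∧
        s34l1_IsVert ↥O J ϖ W 𝒱 ∧ s34l1_IsVert ↥O J⁻¹ ϖ W 𝒱 ∧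
        s34l1_LocStatementAt ↥O ↥K0 J ϖ ∧ s34l1_LocStatementAt ↥O ↥K0 J⁻¹ ϖ ∧
        ∀ τ0 : ↥K0 ≃ₐ[ℚ] ↥K0,
          (∀ x : ↥O, ∃ y : ↥O, y ∈ IsLocalRing.maximalIdeal ↥O ∧
            (y : ↥K0) = τ0 (x : ↥K0) - x) →
          s34l1_IsTau ↥O J ϖ (arithmeticRingAut (modularFunctionFieldFull (M * q)) τ0) ∧
          s34l1_IsTau ↥O J⁻¹ ϖ (arithmeticRingAut (modularFunctionFieldFull (M * q)) τ0)

/-- The second difference in terms of the ring automorphism. -/
theorem s34l1_sd_eq {L : Type*} [Field L] [Algebra ℚ L] (N : ℕ) (τ : L ≃ₐ[ℚ] L)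
    (f : ↥(laurentBaseChange L (modularFunctionFieldFull N))) :
    s34_sd N τ f =
      arithmeticRingAut (modularFunctionFieldFull N) τ
          (arithmeticRingAut (modularFunctionFieldFull N) τ f) * f /
        arithmeticRingAut (modularFunctionFieldFull N) τ f ^ 2 := rfl

/-- `j⁻¹` is a coordinate when `j` is. -/
theorem s34l1_inv_coord {K F : Type} [Field K] [Field F] [Algebra K F] (j : F)
    (htr : Transcendental K j) (hfin : FiniteDimensional ↥K⟮j⟯ F) :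
    Transcendental K j⁻¹ ∧ FiniteDimensional ↥K⟮j⁻¹⟯ F := by
  refine ⟨fun halg => htr (by simpa using halg.inv), ?_⟩
  have e : K⟮j⁻¹⟯ = K⟮j⟯ := by
    apply le_antisymm
    · rw [adjoin_simple_le_iff]
      exact inv_mem (mem_adjoin_simple_self K j)
    · rw [adjoin_simple_le_iff]
      have := inv_mem (mem_adjoin_simple_self K j⁻¹)
      rwa [inv_inv] at this
  rw [e]
  exact hfin

/-- **[K-DATA]** from the model facts. -/
theorem s34l1_kdata_of (h : s34l1_ModelStatement) : s34_KDataStatement := by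
  intro M q _ hq hqM h49 K0 hK0 O _ hqO
  letI := s18_algOF ↥O ↥K0 (M * q)
  haveI := s18_towerOF ↥O ↥K0 (M * q)
  obtain ⟨J, ϖ, W, 𝒱, hϖ, hJ, hfin, hW, hV, hV', hL, hL', hτ⟩ := h M q hq hqM h49 K0 hK0 O hqO
  refine ⟨J, ϖ, W, hϖ, hJ, hfin, hW, ?_⟩
  intro τ0 hτ0 m hm f hf hdiv hdeg
  obtain ⟨hτ1, hτ2⟩ := hτ τ0 hτ0
  obtain ⟨htr', hfin'⟩ := s34l1_inv_coord J hJ hfin
  have h1 := s34l1_chart (K := ↥K0) J hJ hfin ϖ hϖ W _ hτ1 𝒱 hV hL m f hf hdiv hdeg
  have h2 := s34l1_chart (K := ↥K0) J⁻¹ htr' hfin' ϖ hϖ W _ hτ2 𝒱 hV' hL' m f hf hdiv hdeg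
  rw [s34l1_sd_eq]
  exact ⟨h1.1, h1.2, h2.2⟩

end Fermat.Agent.S34
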