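/-
S34, leaf [SS-GAUSS] = (D0) of the cut, part (a) (helper27).  Prefix `s34g_`.

THE GAUSS VALUATION AT THE CUSP `∞`, at an ARBITRARY level `N`, over an arbitrary discrete
valuation ring `O` of characteristic zero with fraction field `K` and residue field `κ`
(no hypothesis relating the residue characteristic and the level):

  `s34g_V O K N`   : the valuation subring `V_∞ = F_K(N) ∩ R` of `F_K(N) = s18_F K N`, where
                     `R ⊆ K((q))` is the local ring of quotients `a / s` of integral Laurent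
                     series with `s ≢ 0` modulo the maximal ideal (S18 `s18ga_R`);
  `s34g_rho O K N` : the reduction `ρ_∞ : V_∞ → κ((q))`.

Facts: `ρ_∞` is the coefficientwise reduction on integral series, its kernel is `π V_∞`, the
units of `V_∞` are the elements with nonzero reduction, every nonzero element of `F_K(N)` is
`π ^ e` times a unit (`e = 1`: `π` is a uniformizer), `V_∞` contains every chart
`s18_chart O S` with `S ⊆ V_∞`, it contains all the `j_d = j(q^d)`, `d ∣ N`, and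
`ρ_∞ (j_d) = j̄(q^d)`.
-/
import Mathlib
import Fermat.Agent.S18.GaussAbs
import Fermat.Agent.S18.GaussQOfFrac

set_option autoImplicit false
set_option linter.unusedSectionVars false
set_option linter.unusedVariables false
set_option linter.style.haveILetI false

open AlgebraicCurve ModularCurve IntermediateField
open Fermat.Agent.S18

noncomputable section

namespace Fermat.Agent.S34

section Gauss

variable (O K : Type) [CommRing O] [IsDomain O] [IsDiscreteValuationRing O] [Field K]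
  [CharZero K] [Algebra O K] [IsFractionRing O K] (N : ℕ) [NeZero N]

theorem s34g_hfrac : ∀ y ∈ s18_F K N, ∃ a b : LaurentSeries O, b ≠ 0 ∧
    y * coeffMap (algebraMap O K) b = coeffMap (algebraMap O K) a :=
  fun y hy => s18gq_isFrac_of_mem O K N y hy

/-- **The Gauss valuation ring at `∞`**: `V_∞ = F_K(N) ∩ R`. -/
def s34g_V : ValuationSubring ↥(s18_F K N) :=
  s18ga_V (s18_F K N) (s34g_hfrac O K N)

/-- **The reduction at `∞`**: `ρ_∞ : V_∞ → κ((q))`. -/
def s34g_rho : ↥(s34g_V O K N) →+* LaurentSeries (IsLocalRing.ResidueField O) :=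
  s18ga_rhoV (s34g_hfrac O K N)

variable {O K N}

theorem s34g_mem_V_iff (y : ↥(s18_F K N)) :
    y ∈ s34g_V O K N ↔ ∃ a s : LaurentSeries O, coeffMap (IsLocalRing.residue O) s ≠ 0 ∧
      (y : LaurentSeries K) * coeffMap (algebraMap O K) s = coeffMap (algebraMap O K) a :=
  Iff.rfl

theorem s34g_mem_V_iff' (y : ↥(s18_F K N)) :
    y ∈ s34g_V O K N ↔ (y : LaurentSeries K) ∈ s18ga_R O K :=
  Iff.rfl

/-- `ρ_∞ (a / s) = ā / s̄`. -/
theorem s34g_rho_eq (y : ↥(s34g_V O K N)) (a s : LaurentSeries O)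
    (hs : coeffMap (IsLocalRing.residue O) s ≠ 0)
    (h : ((y : ↥(s18_F K N)) : LaurentSeries K) * coeffMap (algebraMap O K) s =
      coeffMap (algebraMap O K) a) :
    s34g_rho O K N y =
      coeffMap (IsLocalRing.residue O) a / coeffMap (IsLocalRing.residue O) s :=
  s18ga_rho_eq ⟨_, y.2⟩ a s hs h

/-- Integral series of `F_K(N)` lie in `V_∞`. -/
theorem s34g_int_mem (G : LaurentSeries O) (hG : coeffMap (algebraMap O K) G ∈ s18_F K N) :
    (⟨coeffMap (algebraMap O K) G, hG⟩ : ↥(s18_F K N)) ∈ s34g_V O K N :=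
  s18ga_int_mem G

theorem s34g_mem_of_coe_eq (G : LaurentSeries O) (y : ↥(s18_F K N))
    (hy : (y : LaurentSeries K) = coeffMap (algebraMap O K) G) : y ∈ s34g_V O K N := by
  rw [s34g_mem_V_iff', hy]
  exact s18ga_int_mem G

/-- `ρ_∞` is the coefficientwise reduction on integral series. -/
theorem s34g_rho_int (G : LaurentSeries O) (y : ↥(s34g_V O K N))
    (hy : ((y : ↥(s18_F K N)) : LaurentSeries K) = coeffMap (algebraMap O K) G) :
    s34g_rho O K N y = coeffMap (IsLocalRing.residue O) G :=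
  s18ga_rhoV_int _ G y hy

/-- `ρ_∞` is compatible with multiplication by integral series. -/
theorem s34g_rho_mul_int (y y' : ↥(s34g_V O K N)) (a : LaurentSeries O)
    (h : ((y' : ↥(s18_F K N)) : LaurentSeries K) =
      coeffMap (algebraMap O K) a * ((y : ↥(s18_F K N)) : LaurentSeries K)) :
    s34g_rho O K N y' = coeffMap (IsLocalRing.residue O) a * s34g_rho O K N y := by
  show s18ga_rho O K ⟨_, y'.2⟩ = _ * s18ga_rho O K ⟨_, y.2⟩
  rw [← s18ga_rho_int (K := K) a, ← map_mul]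
  congr 1
  exact Subtype.ext h

theorem s34g_coe_algebraMap (a : O) :
    letI := s18_algOF O K N
    ((algebraMap O ↥(s18_F K N) a : ↥(s18_F K N)) : LaurentSeries K) =
      HahnSeries.C (algebraMap O K a) := by
  have h := s18ga_coe_algebraMap (F := s18_F K N) a
  rw [s18ga_coeffMap_C] at h
  exact h

/-- The constants of `O` lie in `V_∞`. -/
theorem s34g_algebraMap_mem (a : O) :
    letI := s18_algOF O K N
    algebraMap O ↥(s18_F K N) a ∈ s34g_V O K N :=
  s18ga_hOV (s34g_hfrac O K N) a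

theorem s34g_rho_algebraMap (a : O) (y : ↥(s34g_V O K N))
    (hy : letI := s18_algOF O K N
      (y : ↥(s18_F K N)) = algebraMap O ↥(s18_F K N) a) :
    s34g_rho O K N y = HahnSeries.C (IsLocalRing.residue O a) := by
  letI := s18_algOF O K N
  have h1 : ((y : ↥(s18_F K N)) : LaurentSeries K) =
      coeffMap (algebraMap O K) (HahnSeries.C a) := by
    rw [hy, s34g_coe_algebraMap, s18ga_coeffMap_C]
  rw [s34g_rho_int (HahnSeries.C a) y h1, s18ga_coeffMap_C]

/-- The units of `V_∞` are the elements with nonzero reduction. -/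
theorem s34g_inv_mem (y : ↥(s34g_V O K N)) (h : s34g_rho O K N y ≠ 0) :
    (y : ↥(s18_F K N))⁻¹ ∈ s34g_V O K N :=
  s18ga_hunitV (s34g_hfrac O K N) y h

theorem s34g_isUnit_iff (y : ↥(s34g_V O K N)) :
    IsUnit y ↔ s34g_rho O K N y ≠ 0 := by
  constructor
  · intro h
    exact (h.map (s34g_rho O K N)).ne_zero
  · intro h
    have hy0 : (y : ↥(s18_F K N)) ≠ 0 := by
      intro hy
      have : y = 0 := Subtype.ext hy
      rw [this, map_zero] at h
      exact h rfl
    refine IsUnit.of_mul_eq_one ⟨(y : ↥(s18_F K N))⁻¹, s34g_inv_mem y h⟩ ?_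
    exact Subtype.ext (mul_inv_cancel₀ hy0)

/-- The kernel of `ρ_∞` is the maximal ideal of `V_∞`. -/
theorem s34g_mem_maximalIdeal_iff (y : ↥(s34g_V O K N)) :
    y ∈ IsLocalRing.maximalIdeal ↥(s34g_V O K N) ↔ s34g_rho O K N y = 0 := by
  rw [IsLocalRing.mem_maximalIdeal, mem_nonunits_iff, s34g_isUnit_iff, not_not]

theorem s34g_ker_rho :
    RingHom.ker (s34g_rho O K N) = IsLocalRing.maximalIdeal ↥(s34g_V O K N) := by
  ext y
  rw [RingHom.mem_ker, s34g_mem_maximalIdeal_iff]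

/-- **The kernel of `ρ_∞` is `π V_∞`.** -/
theorem s34g_rho_eq_zero {ϖ : O} (hϖ : Irreducible ϖ) (y : ↥(s34g_V O K N))
    (h : s34g_rho O K N y = 0) :
    letI := s18_algOF O K N
    (y : ↥(s18_F K N)) / algebraMap O ↥(s18_F K N) ϖ ∈ s34g_V O K N := by
  letI := s18_algOF O K N
  have h1 := s18ga_rho_eq_zero hϖ ⟨_, y.2⟩ h
  rw [s34g_mem_V_iff', IntermediateField.coe_div, s34g_coe_algebraMap]
  exact h1

theorem s34g_algebraMap_ne_zero {ϖ : O} (hϖ : ϖ ≠ 0) :
    letI := s18_algOF O K N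
    algebraMap O ↥(s18_F K N) ϖ ≠ 0 := by
  letI := s18_algOF O K N
  intro h0
  have h1 : algebraMap K ↥(s18_F K N) (algebraMap O K ϖ) = 0 := h0
  rw [map_eq_zero, map_eq_zero_iff _ (IsFractionRing.injective O K)] at h1
  exact hϖ h1

theorem s34g_rho_pi {ϖ : O} (hϖ : Irreducible ϖ) (y : ↥(s34g_V O K N))
    (hy : letI := s18_algOF O K N
      (y : ↥(s18_F K N)) = algebraMap O ↥(s18_F K N) ϖ) :
    s34g_rho O K N y = 0 := by
  rw [s34g_rho_algebraMap ϖ y hy]
  have : IsLocalRing.residue O ϖ = 0 := by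
    rw [IsLocalRing.residue_eq_zero_iff, hϖ.maximalIdeal_eq]
    exact Ideal.mem_span_singleton_self ϖ
  rw [this, map_zero]

theorem s34g_rho_eq_zero_iff {ϖ : O} (hϖ : Irreducible ϖ) (y : ↥(s34g_V O K N)) :
    s34g_rho O K N y = 0 ↔
      ∃ z : ↥(s34g_V O K N), y = ⟨_, s34g_algebraMap_mem (K := K) (N := N) ϖ⟩ * z := by
  letI := s18_algOF O K N
  constructor
  · intro h
    refine ⟨⟨_, s34g_rho_eq_zero hϖ y h⟩, Subtype.ext ?_⟩
    show (y : ↥(s18_F K N)) = algebraMap O ↥(s18_F K N) ϖ *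
      ((y : ↥(s18_F K N)) / algebraMap O ↥(s18_F K N) ϖ)
    have := s34g_algebraMap_ne_zero (K := K) (N := N) hϖ.ne_zero
    field_simp
  · rintro ⟨z, rfl⟩
    rw [map_mul, s34g_rho_pi hϖ _ rfl, zero_mul]

/-- `π` generates the maximal ideal of `V_∞` (`e = 1`). -/
theorem s34g_maximalIdeal_eq {ϖ : O} (hϖ : Irreducible ϖ) :
    IsLocalRing.maximalIdeal ↥(s34g_V O K N) =
      Ideal.span {(⟨_, s34g_algebraMap_mem (K := K) (N := N) ϖ⟩ : ↥(s34g_V O K N))} := by
  ext y
  rw [s34g_mem_maximalIdeal_iff, s34g_rho_eq_zero_iff hϖ, Ideal.mem_span_singleton']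
  constructor
  · rintro ⟨z, rfl⟩
    exact ⟨z, mul_comm _ _⟩
  · rintro ⟨z, rfl⟩
    exact ⟨z, mul_comm _ _⟩

/-- Every nonzero element of `F_K(N)` is `π ^ e` times a unit of `V_∞`. -/
theorem s34g_exists_pow {ϖ : O} (hϖ : Irreducible ϖ) (y : ↥(s18_F K N)) (hy : y ≠ 0) :
    letI := s18_algOF O K N
    ∃ (e : ℤ) (u : ↥(s34g_V O K N)), s34g_rho O K N u ≠ 0 ∧
      y = (algebraMap O ↥(s18_F K N) ϖ) ^ e * (u : ↥(s18_F K N)) := by
  letI := s18_algOF O K N
  have hy0 : (y : LaurentSeries K) ≠ 0 := fun h => hy (Subtype.ext h)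
  obtain ⟨e, u, hu, hyu⟩ := s18ga_exists_pow hϖ (y : LaurentSeries K)
    (s34g_hfrac O K N y y.2) hy0
  have hπ : ((algebraMap O ↥(s18_F K N) ϖ : ↥(s18_F K N)) : LaurentSeries K) =
      HahnSeries.C (algebraMap O K ϖ) := s34g_coe_algebraMap ϖ
  have hπ0 := s18ga_pi_ne_zero (K := K) hϖ
  have huF : (u : LaurentSeries K) ∈ s18_F K N := by
    have h1 : (u : LaurentSeries K) =
        ((HahnSeries.C (algebraMap O K ϖ) : LaurentSeries K) ^ e)⁻¹ * (y : LaurentSeries K) := by
      rw [hyu, ← mul_assoc, inv_mul_cancel₀ (zpow_ne_zero _ hπ0), one_mul]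
    rw [h1, ← hπ]
    exact mul_mem (inv_mem (zpow_mem (Subtype.mem _) e)) y.2
  refine ⟨e, ⟨⟨(u : LaurentSeries K), huF⟩, u.2⟩, hu, Subtype.ext ?_⟩
  have hz : (((algebraMap O ↥(s18_F K N) ϖ) ^ e : ↥(s18_F K N)) : LaurentSeries K) =
      (HahnSeries.C (algebraMap O K ϖ) : LaurentSeries K) ^ e := by
    rw [← hπ]
    exact map_zpow₀ (s18_F K N).val _ e
  rw [IntermediateField.coe_mul, hz]
  exact hyu

/-! ### Charts -/

theorem s34g_adjoin_le (S : Set ↥(s18_F K N)) (hS : ∀ t ∈ S, t ∈ s34g_V O K N)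
    (z : ↥(s18_F K N))
    (hz : letI := s18_algOF O K N
      z ∈ Algebra.adjoin O S) : z ∈ s34g_V O K N := by
  letI := s18_algOF O K N
  induction hz using Algebra.adjoin_induction with
  | mem x hx => exact hS x hx
  | algebraMap r => exact s34g_algebraMap_mem r
  | add x y _ _ hx hy => exact (s34g_V O K N).add_mem _ _ hx hy
  | mul x y _ _ hx hy => exact (s34g_V O K N).mul_mem _ _ hx hy

/-- `V_∞` contains the integral closure of `O[S]` for every `S ⊆ V_∞`. -/
theorem s34g_chart_le (S : Set ↥(s18_F K N)) (hS : ∀ t ∈ S, t ∈ s34g_V O K N)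
    (b : ↥(s18_F K N))
    (hb : letI := s18_algOF O K N
      b ∈ s18_chart O S) : b ∈ s34g_V O K N := by
  letI := s18_algOF O K N
  have h1 : IsIntegral ↥(s34g_V O K N) b := by
    refine s18ga_isIntegral_of_range_le ?_ hb
    intro a
    exact ⟨⟨(a : ↥(s18_F K N)), s34g_adjoin_le S hS _ a.2⟩, rfl⟩
  obtain ⟨y, hy⟩ := (IsIntegrallyClosed.isIntegral_iff (R := ↥(s34g_V O K N))
    (K := ↥(s18_F K N))).mp h1
  rw [← hy]
  exact y.2

/-! ### The functions `j_d = j(q^d)` -/

/-- `j_d = j(q^d) ∈ F_K(N)` for `d ∣ N`. -/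
def s34g_jd (K : Type) [Field K] [CharZero K] (N : ℕ) [NeZero N] (d : ℕ) [NeZero d]
    (hd : d ∣ N) : ↥(s18_F K N) :=
  ⟨coeffEmb K (qExpand ℚ d jq), coeffEmb_mem_laurentBaseChange K (jqd_mem_full N hd)⟩

theorem s34g_jd_coe (d : ℕ) [NeZero d] (hd : d ∣ N) :
    ((s34g_jd K N d hd : ↥(s18_F K N)) : LaurentSeries K) =
      coeffMap (algebraMap O K) (qExpand O d (jqModC O)) := by
  show coeffEmb K (qExpand ℚ d jq) = _
  rw [coeffMap_qExpand, coeffMap_jqModC]
  show coeffMap (algebraMap ℚ K) (qExpand ℚ d (jqModC ℚ)) = _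
  rw [coeffMap_qExpand, coeffMap_jqModC]

theorem s34g_jd_mem (d : ℕ) [NeZero d] (hd : d ∣ N) : s34g_jd K N d hd ∈ s34g_V O K N :=
  s34g_mem_of_coe_eq _ _ (s34g_jd_coe (O := O) d hd)

/-- `ρ_∞ (j_d) = j̄(q^d)`. -/
theorem s34g_rho_jd (d : ℕ) [NeZero d] (hd : d ∣ N) :
    s34g_rho O K N ⟨s34g_jd K N d hd, s34g_jd_mem d hd⟩ =
      qExpand (IsLocalRing.ResidueField O) d (jqModC (IsLocalRing.ResidueField O)) := by
  rw [s34g_rho_int _ _ (s34g_jd_coe (O := O) d hd), coeffMap_qExpand, coeffMap_jqModC]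

theorem s34g_j_eq : s18_j K N = s34g_jd K N 1 (one_dvd N) := by
  apply Subtype.ext
  show coeffEmb K jq = coeffEmb K (qExpand ℚ 1 jq)
  rw [qExpand_one_apply]

theorem s34g_j_mem : s18_j K N ∈ s34g_V O K N := by
  rw [s34g_j_eq]
  exact s34g_jd_mem 1 (one_dvd N)

/-- `ρ_∞ (j) = j̄`. -/
theorem s34g_rho_j :
    s34g_rho O K N ⟨s18_j K N, s34g_j_mem⟩ = jqModC (IsLocalRing.ResidueField O) := by
  have h1 : ((s18_j K N : ↥(s18_F K N)) : LaurentSeries K) =
      coeffMap (algebraMap O K) (jqModC O) := by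
    rw [s34g_j_eq, s34g_jd_coe (O := O) 1 (one_dvd N), qExpand_one_apply]
  rw [s34g_rho_int _ _ h1, coeffMap_jqModC]

end Gauss

end Fermat.Agent.S34
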