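/-
S34, leaf [SS-GAUSS] = (D0) of the cut, part (c) (helper27).  Prefix `s34g_`.

THE INERTIA GROUP ACTS TRIVIALLY ON THE GAUSS BRANCH AT `∞`.

`O` a discrete valuation ring of characteristic zero, `K = Frac O`, `σ : K ≃ₐ[ℚ] K` with
`σ x - x ∈ 𝔪_O` for all `x ∈ O` (the hypothesis on `τ0` of `s34_UStarKStatement`).  Then for
every level `N`, with `σ` acting on `F_K(N)` through the coefficients of the `q`-expansion
(`arithmeticGalois`):

  `s34g_tau_mem_iff` : `σ • y ∈ V_∞ ↔ y ∈ V_∞`,
  `s34g_rho_tau`     : `ρ_∞ (σ • y) = ρ_∞ y`.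

Also: the generator principle `s34g_gen` (a subfield of `F_K(N)` containing the constants and
the `j_d`, `d ∣ N`, is everything) and `s34g_tau_jd : σ • j_d = j_d`.
-/
import Mathlib
import Fermat.Prelude.Def_ModularCurve_ArithmeticGalois
import Fermat.Agent.S34.SsGaussA

set_option autoImplicit false
set_option linter.unusedSectionVars false
set_option linter.unusedVariables false
set_option linter.style.haveILetI false

open AlgebraicCurve ModularCurve IntermediateField
open Fermat.Agent.S18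

noncomputable section

namespace Fermat.Agent.S34

/-! ### The generator principle -/

section Gen

variable {K : Type} [Field K] [CharZero K] {N : ℕ} [NeZero N]

/-- A subfield of `F_K(N)` which contains the constants and the functions `j_d`, `d ∣ N`, is
everything. -/
theorem s34g_gen (S : Subfield ↥(s18_F K N))
    (h1 : ∀ c : K, algebraMap K ↥(s18_F K N) c ∈ S)
    (h2 : ∀ (d : ℕ) [NeZero d] (hd : d ∣ N), s34g_jd K N d hd ∈ S)
    (x : ↥(s18_F K N)) : x ∈ S := by
  have hrat : ∀ r : ℚ, coeffEmb K (algebraMap ℚ (LaurentSeries ℚ) r) =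
      algebraMap K (LaurentSeries K) (algebraMap ℚ K r) := by
    intro r
    rw [algebraMap_laurentSeries_eq_single, algebraMap_laurentSeries_eq_single]
    exact coeffMap_single _ _ _
  have key : ∀ w ∈ Subfield.closure
      (Set.range (algebraMap ℚ (LaurentSeries ℚ)) ∪ divisorExpansions N),
      coeffEmb K w ∈ S.map (s18_F K N).val.toRingHom := by
    intro w hw
    induction hw using Subfield.closure_induction with
    | mem y hy =>
        rcases hy with ⟨r, rfl⟩ | ⟨d, hd, hdN, rfl⟩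
        · exact ⟨algebraMap K ↥(s18_F K N) (algebraMap ℚ K r), h1 _, (hrat r).symm⟩
        · exact ⟨s34g_jd K N d hdN, h2 d hdN, rfl⟩
    | one => rw [map_one]; exact one_mem _
    | add x y _ _ hx hy => rw [map_add]; exact add_mem hx hy
    | neg x _ hx => rw [map_neg]; exact neg_mem hx
    | inv x _ hx => rw [map_inv₀]; exact inv_mem hx
    | mul x y _ _ hx hy => rw [map_mul]; exact mul_mem hx hy
  have hle : Subfield.closure (Set.range (algebraMap K (LaurentSeries K)) ∪
      (⇑(coeffEmb K) '' (modularFunctionFieldFull N : Set (LaurentSeries ℚ)))) ≤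
      S.map (s18_F K N).val.toRingHom := by
    rw [Subfield.closure_le]
    rintro y (⟨a, rfl⟩ | ⟨z, hz, rfl⟩)
    · exact ⟨algebraMap K ↥(s18_F K N) a, h1 a, rfl⟩
    · exact key z hz
  obtain ⟨s, hs, hsx⟩ := hle (mem_laurentBaseChange_iff.1 x.2)
  have : s = x := Subtype.ext hsx
  rw [← this]
  exact hs

/-- Two ring homomorphisms on `F_K(N)` which agree on the constants and on the `j_d` are
equal. -/
theorem s34g_ringHom_ext {R : Type*} [DivisionRing R] (f g : ↥(s18_F K N) →+* R)
    (h1 : ∀ c : K, f (algebraMap K ↥(s18_F K N) c) = g (algebraMap K ↥(s18_F K N) c))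
    (h2 : ∀ (d : ℕ) [NeZero d] (hd : d ∣ N), f (s34g_jd K N d hd) = g (s34g_jd K N d hd)) :
    f = g := by
  ext x
  exact s34g_gen (RingHom.eqLocusField f g) h1 (fun d _ hd => h2 d hd) x

end Gen

/-! ### The action on `R` -/

section Inertia

variable {O K : Type} [CommRing O] [IsDomain O] [IsDiscreteValuationRing O] [Field K]
  [Algebra O K] [IsFractionRing O K] (σ : K →+* K)
  (hσ : ∀ x : O, ∃ y : O, y ∈ IsLocalRing.maximalIdeal O ∧
    algebraMap O K y = σ (algebraMap O K x) - algebraMap O K x)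

theorem s34g_sigmaO_aux (x : O) :
    algebraMap O K (x + Classical.choose (hσ x)) = σ (algebraMap O K x) := by
  rw [map_add, (Classical.choose_spec (hσ x)).2]
  ring

/-- The restriction of `σ` to `O`. -/
def s34g_sigmaO : O →+* O where
  toFun x := x + Classical.choose (hσ x)
  map_one' := by
    apply IsFractionRing.injective O K
    rw [s34g_sigmaO_aux σ hσ, map_one, map_one]
  map_mul' a b := by
    apply IsFractionRing.injective O K
    rw [s34g_sigmaO_aux σ hσ, map_mul, map_mul, map_mul, s34g_sigmaO_aux σ hσ,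
      s34g_sigmaO_aux σ hσ]
  map_zero' := by
    apply IsFractionRing.injective O K
    rw [s34g_sigmaO_aux σ hσ, map_zero, map_zero]
  map_add' a b := by
    apply IsFractionRing.injective O K
    rw [s34g_sigmaO_aux σ hσ, map_add, map_add, map_add, s34g_sigmaO_aux σ hσ,
      s34g_sigmaO_aux σ hσ]

theorem s34g_algebraMap_sigmaO (x : O) :
    algebraMap O K (s34g_sigmaO σ hσ x) = σ (algebraMap O K x) :=
  s34g_sigmaO_aux σ hσ x

theorem s34g_residue_sigmaO (x : O) :
    IsLocalRing.residue O (s34g_sigmaO σ hσ x) = IsLocalRing.residue O x := by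
  show IsLocalRing.residue O (x + Classical.choose (hσ x)) = _
  rw [map_add, (IsLocalRing.residue_eq_zero_iff _).2 (Classical.choose_spec (hσ x)).1,
    add_zero]

theorem s34g_iota_sigmaO (a : LaurentSeries O) :
    coeffMap (algebraMap O K) (coeffMap (s34g_sigmaO σ hσ) a) =
      coeffMap σ (coeffMap (algebraMap O K) a) := by
  rw [coeffMap_coeffMap, coeffMap_coeffMap]
  exact coeffMap_congr (RingHom.ext fun x => s34g_algebraMap_sigmaO σ hσ x) a

theorem s34g_red_sigmaO (a : LaurentSeries O) :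
    coeffMap (IsLocalRing.residue O) (coeffMap (s34g_sigmaO σ hσ) a) =
      coeffMap (IsLocalRing.residue O) a := by
  rw [coeffMap_coeffMap]
  exact coeffMap_congr (RingHom.ext fun x => s34g_residue_sigmaO σ hσ x) a

include hσ in
/-- `σ R ⊆ R`. -/
theorem s34g_R_map (x : LaurentSeries K) (hx : x ∈ s18ga_R O K) :
    coeffMap σ x ∈ s18ga_R O K := by
  obtain ⟨a, s, hs, h⟩ := hx
  refine ⟨coeffMap (s34g_sigmaO σ hσ) a, coeffMap (s34g_sigmaO σ hσ) s, ?_, ?_⟩
  · rw [s34g_red_sigmaO]
    exact hs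
  · rw [s34g_iota_sigmaO, s34g_iota_sigmaO, ← map_mul, h]

/-- `ρ₀ ∘ σ = ρ₀` on `R`. -/
theorem s34g_rho_R_map (x : ↥(s18ga_R O K)) :
    s18ga_rho O K ⟨coeffMap σ (x : LaurentSeries K), s34g_R_map σ hσ _ x.2⟩ =
      s18ga_rho O K x := by
  obtain ⟨a, s, hs, h⟩ := x.2
  have hs' : coeffMap (IsLocalRing.residue O) (coeffMap (s34g_sigmaO σ hσ) s) ≠ 0 := by
    rw [s34g_red_sigmaO]
    exact hs
  rw [s18ga_rho_eq x a s hs h,
    s18ga_rho_eq ⟨coeffMap σ (x : LaurentSeries K), s34g_R_map σ hσ _ x.2⟩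
      (coeffMap (s34g_sigmaO σ hσ) a) (coeffMap (s34g_sigmaO σ hσ) s) hs'
      (by
        show coeffMap σ (x : LaurentSeries K) * _ = _
        rw [s34g_iota_sigmaO, s34g_iota_sigmaO, ← map_mul, h]),
    s34g_red_sigmaO, s34g_red_sigmaO]

end Inertia

/-! ### The action on the Gauss branch at `∞` -/

section Tau

variable {O K : Type} [CommRing O] [IsDomain O] [IsDiscreteValuationRing O] [Field K]
  [CharZero K] [Algebra O K] [IsFractionRing O K] {N : ℕ} [NeZero N] (σ : K ≃ₐ[ℚ] K)
  (hσ : ∀ x : O, ∃ y : O, y ∈ IsLocalRing.maximalIdeal O ∧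
    algebraMap O K y = σ (algebraMap O K x) - algebraMap O K x)

theorem s34g_tau_coe (y : ↥(s18_F K N)) :
    ((arithmeticGalois (modularFunctionFieldFull N) σ • y : ↥(s18_F K N)) : LaurentSeries K) =
      coeffMap (σ : K →+* K) (y : LaurentSeries K) := rfl

include hσ in
/-- `σ V_∞ ⊆ V_∞`. -/
theorem s34g_tau_mem (y : ↥(s18_F K N)) (hy : y ∈ s34g_V O K N) :
    arithmeticGalois (modularFunctionFieldFull N) σ • y ∈ s34g_V O K N :=
  s34g_R_map (σ : K →+* K) hσ _ hy

/-- **`ρ_∞ ∘ σ = ρ_∞`.** -/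
theorem s34g_rho_tau (y : ↥(s34g_V O K N)) :
    s34g_rho O K N ⟨arithmeticGalois (modularFunctionFieldFull N) σ • (y : ↥(s18_F K N)),
      s34g_tau_mem σ hσ _ y.2⟩ = s34g_rho O K N y :=
  s34g_rho_R_map (σ : K →+* K) hσ ⟨_, y.2⟩

include hσ in
/-- **`σ V_∞ = V_∞`.** -/
theorem s34g_tau_mem_iff (y : ↥(s18_F K N)) :
    arithmeticGalois (modularFunctionFieldFull N) σ • y ∈ s34g_V O K N ↔
      y ∈ s34g_V O K N := by
  refine ⟨fun h => ?_, s34g_tau_mem σ hσ y⟩
  by_contra hy
  have hinv : y⁻¹ ∈ s34g_V O K N := ((s34g_V O K N).mem_or_inv_mem y).resolve_left hy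
  have hy0 : y ≠ 0 := by
    rintro rfl
    exact hy (zero_mem _)
  have hnu : s34g_rho O K N ⟨y⁻¹, hinv⟩ = 0 := by
    by_contra h0
    have := s34g_inv_mem ⟨y⁻¹, hinv⟩ h0
    rw [inv_inv] at this
    exact hy this
  have h1 := s34g_rho_tau σ hσ ⟨y⁻¹, hinv⟩
  rw [hnu] at h1
  have h2 : (⟨arithmeticGalois (modularFunctionFieldFull N) σ • y, h⟩ : ↥(s34g_V O K N)) *
      ⟨arithmeticGalois (modularFunctionFieldFull N) σ • y⁻¹, s34g_tau_mem σ hσ _ hinv⟩ = 1 := by
    apply Subtype.ext
    show arithmeticGalois (modularFunctionFieldFull N) σ • y *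
      arithmeticGalois (modularFunctionFieldFull N) σ • y⁻¹ = 1
    rw [← smul_mul', mul_inv_cancel₀ hy0, smul_one]
  have h3 := congrArg (s34g_rho O K N) h2
  rw [map_mul, h1, mul_zero, map_one] at h3
  exact zero_ne_one h3

/-- `σ • j_d = j_d`. -/
theorem s34g_tau_jd (d : ℕ) [NeZero d] (hd : d ∣ N) :
    arithmeticGalois (modularFunctionFieldFull N) σ • s34g_jd K N d hd = s34g_jd K N d hd :=
  Subtype.ext (coeffMap_coeffEmb σ _)

theorem s34g_tau_algebraMap (c : K) :
    arithmeticGalois (modularFunctionFieldFull N) σ • algebraMap K ↥(s18_F K N) c =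
      algebraMap K ↥(s18_F K N) (σ c) :=
  arithmeticRingAut_algebraMap (modularFunctionFieldFull N) σ c

end Tau

end Fermat.Agent.S34
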