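/-
S34, leaf [SS-GAUSS] = (D0) of the cut, part (b'), PARAMETRIC IN `W` (helper27).  Prefix `s34g_`.

THE SECOND GAUSS BRANCH.  `O` a discrete valuation ring of characteristic zero, `K = Frac O`,
`F = F_K(N)`, `W : F ≃ₐ[K] F` ANY `K`-automorphism (in the application the Atkin-Lehner
involution of helper8's [SS-W]).

  `s34g_V0 O W`   : `V_0 = W⁻¹ V_∞` (`y ∈ V_0 ↔ W y ∈ V_∞`),
  `s34g_rho0 O W` : `ρ_0 = ρ_∞ ∘ W : V_0 → κ((q))`,
  `s34g_W2 O W`   : the subring `V_∞ ∩ V_0` of `F` (the ring `W` of `s34l_IsW`).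

The mirror of `SsGaussA.lean` for `(V_0, ρ_0)`, the action of the inertia group on `V_0` from
the hypothesis `W τ = τ W`, and the facts `chart_le`, `root`, `unit` of `s34l_IsW` for
`V_∞ ∩ V_0`.
-/
import Mathlib
import Fermat.Agent.S34.SsGaussTau

set_option autoImplicit false
set_option linter.unusedSectionVars false
set_option linter.unusedVariables false
set_option linter.style.haveILetI false
set_option maxHeartbeats 400000

open AlgebraicCurve ModularCurve IntermediateField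
open Fermat.Agent.S18

noncomputable section

namespace Fermat.Agent.S34

/-! ### Generalities on valuation subrings -/

section Val

variable {F : Type*} [Field F]

theorem s34g_val_root (V : ValuationSubring F) (f : F) (n : ℕ) (hn : 0 < n) (h : f ^ n ∈ V) :
    f ∈ V := by
  rw [← V.valuation_le_one_iff] at h ⊢
  rw [map_pow] at h
  exact (pow_le_one_iff_of_nonneg zero_le' hn.ne').1 h

variable (O : Type*) [CommRing O] [Algebra O F]

/-- A valuation subring containing `O` and `S` contains the chart of `S`. -/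
theorem s34g_val_chart_le (V : ValuationSubring F) (hO : ∀ a : O, algebraMap O F a ∈ V)
    (S : Set F) (hS : ∀ t ∈ S, t ∈ V) (b : F) (hb : b ∈ s18_chart O S) : b ∈ V := by
  have hadj : ∀ z ∈ Algebra.adjoin O S, z ∈ V := by
    intro z hz
    induction hz using Algebra.adjoin_induction with
    | mem x hx => exact hS x hx
    | algebraMap r => exact hO r
    | add x y _ _ hx hy => exact V.add_mem _ _ hx hy
    | mul x y _ _ hx hy => exact V.mul_mem _ _ hx hy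
  have h1 : IsIntegral ↥V b := by
    refine s18ga_isIntegral_of_range_le ?_ hb
    intro a
    exact ⟨⟨(a : F), hadj _ a.2⟩, rfl⟩
  obtain ⟨y, hy⟩ := (IsIntegrallyClosed.isIntegral_iff (R := ↥V) (K := F)).mp h1
  rw [← hy]
  exact y.2

end Val

section V0

variable (O : Type) {K : Type} [CommRing O] [IsDomain O] [IsDiscreteValuationRing O] [Field K]
  [CharZero K] [Algebra O K] [IsFractionRing O K] {N : ℕ} [NeZero N]
  (W : ↥(s18_F K N) ≃ₐ[K] ↥(s18_F K N))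

/-- **The second Gauss valuation ring** `V_0 = W⁻¹ V_∞`. -/
def s34g_V0 : ValuationSubring ↥(s18_F K N) :=
  (s34g_V O K N).comap (W : ↥(s18_F K N) →+* ↥(s18_F K N))

/-- `W : V_0 → V_∞`. -/
def s34g_WV : ↥(s34g_V0 O W) →+* ↥(s34g_V O K N) where
  toFun y := ⟨W (y : ↥(s18_F K N)), y.2⟩
  map_one' := Subtype.ext (map_one W)
  map_mul' a b := Subtype.ext (map_mul W _ _)
  map_zero' := Subtype.ext (map_zero W)
  map_add' a b := Subtype.ext (map_add W _ _)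

/-- **The second reduction** `ρ_0 = ρ_∞ ∘ W : V_0 → κ((q))`. -/
def s34g_rho0 : ↥(s34g_V0 O W) →+* LaurentSeries (IsLocalRing.ResidueField O) :=
  (s34g_rho O K N).comp (s34g_WV O W)

variable {O W}

theorem s34g_mem_V0_iff (y : ↥(s18_F K N)) : y ∈ s34g_V0 O W ↔ W y ∈ s34g_V O K N :=
  Iff.rfl

theorem s34g_rho0_apply (y : ↥(s34g_V0 O W)) :
    s34g_rho0 O W y = s34g_rho O K N ⟨W (y : ↥(s18_F K N)), y.2⟩ := rfl

theorem s34g_W_algebraMap (a : O) :
    letI := s18_algOF O K N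
    W (algebraMap O ↥(s18_F K N) a) = algebraMap O ↥(s18_F K N) a := by
  letI := s18_algOF O K N
  show W (algebraMap K ↥(s18_F K N) (algebraMap O K a)) = _
  rw [W.commutes]
  rfl

theorem s34g_algebraMap_mem0 (a : O) :
    letI := s18_algOF O K N
    algebraMap O ↥(s18_F K N) a ∈ s34g_V0 O W := by
  letI := s18_algOF O K N
  rw [s34g_mem_V0_iff, s34g_W_algebraMap]
  exact s34g_algebraMap_mem a

theorem s34g_rho0_algebraMap (a : O) (y : ↥(s34g_V0 O W))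
    (hy : letI := s18_algOF O K N
      (y : ↥(s18_F K N)) = algebraMap O ↥(s18_F K N) a) :
    s34g_rho0 O W y = HahnSeries.C (IsLocalRing.residue O a) := by
  letI := s18_algOF O K N
  rw [s34g_rho0_apply]
  refine s34g_rho_algebraMap a _ ?_
  show W (y : ↥(s18_F K N)) = _
  rw [hy, s34g_W_algebraMap]

/-- The units of `V_0` are the elements with nonzero reduction. -/
theorem s34g_inv_mem0 (y : ↥(s34g_V0 O W)) (h : s34g_rho0 O W y ≠ 0) :
    (y : ↥(s18_F K N))⁻¹ ∈ s34g_V0 O W := by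
  rw [s34g_rho0_apply] at h
  have h1 := s34g_inv_mem (⟨W (y : ↥(s18_F K N)), y.2⟩ : ↥(s34g_V O K N)) h
  rw [s34g_mem_V0_iff, map_inv₀]
  exact h1

theorem s34g_isUnit_iff0 (y : ↥(s34g_V0 O W)) :
    IsUnit y ↔ s34g_rho0 O W y ≠ 0 := by
  constructor
  · intro h
    exact (h.map (s34g_rho0 O W)).ne_zero
  · intro h
    have hy0 : (y : ↥(s18_F K N)) ≠ 0 := by
      intro hy
      have : y = 0 := Subtype.ext hy
      rw [this, map_zero] at h
      exact h rfl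
    refine IsUnit.of_mul_eq_one ⟨(y : ↥(s18_F K N))⁻¹, s34g_inv_mem0 y h⟩ ?_
    exact Subtype.ext (mul_inv_cancel₀ hy0)

theorem s34g_mem_maximalIdeal_iff0 (y : ↥(s34g_V0 O W)) :
    y ∈ IsLocalRing.maximalIdeal ↥(s34g_V0 O W) ↔ s34g_rho0 O W y = 0 := by
  rw [IsLocalRing.mem_maximalIdeal, mem_nonunits_iff, s34g_isUnit_iff0, not_not]

theorem s34g_ker_rho0 :
    RingHom.ker (s34g_rho0 O W) = IsLocalRing.maximalIdeal ↥(s34g_V0 O W) := by
  ext y
  rw [RingHom.mem_ker, s34g_mem_maximalIdeal_iff0]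

/-- **The kernel of `ρ_0` is `π V_0`.** -/
theorem s34g_rho0_eq_zero {ϖ : O} (hϖ : Irreducible ϖ) (y : ↥(s34g_V0 O W))
    (h : s34g_rho0 O W y = 0) :
    letI := s18_algOF O K N
    (y : ↥(s18_F K N)) / algebraMap O ↥(s18_F K N) ϖ ∈ s34g_V0 O W := by
  letI := s18_algOF O K N
  rw [s34g_rho0_apply] at h
  have h1 := s34g_rho_eq_zero hϖ (⟨W (y : ↥(s18_F K N)), y.2⟩ : ↥(s34g_V O K N)) h
  rw [s34g_mem_V0_iff, map_div₀, s34g_W_algebraMap]
  exact h1

theorem s34g_rho0_pi {ϖ : O} (hϖ : Irreducible ϖ) (y : ↥(s34g_V0 O W))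
    (hy : letI := s18_algOF O K N
      (y : ↥(s18_F K N)) = algebraMap O ↥(s18_F K N) ϖ) :
    s34g_rho0 O W y = 0 := by
  rw [s34g_rho0_algebraMap ϖ y hy]
  have : IsLocalRing.residue O ϖ = 0 := by
    rw [IsLocalRing.residue_eq_zero_iff, hϖ.maximalIdeal_eq]
    exact Ideal.mem_span_singleton_self ϖ
  rw [this, map_zero]

theorem s34g_rho0_eq_zero_iff {ϖ : O} (hϖ : Irreducible ϖ) (y : ↥(s34g_V0 O W)) :
    s34g_rho0 O W y = 0 ↔
      ∃ z : ↥(s34g_V0 O W), y = ⟨_, s34g_algebraMap_mem0 (W := W) ϖ⟩ * z := by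
  letI := s18_algOF O K N
  constructor
  · intro h
    refine ⟨⟨_, s34g_rho0_eq_zero hϖ y h⟩, Subtype.ext ?_⟩
    show (y : ↥(s18_F K N)) = algebraMap O ↥(s18_F K N) ϖ *
      ((y : ↥(s18_F K N)) / algebraMap O ↥(s18_F K N) ϖ)
    have := s34g_algebraMap_ne_zero (K := K) (N := N) hϖ.ne_zero
    field_simp
  · rintro ⟨z, rfl⟩
    rw [map_mul, s34g_rho0_pi hϖ _ rfl, zero_mul]

/-- `π` generates the maximal ideal of `V_0` (`e = 1`). -/
theorem s34g_maximalIdeal_eq0 {ϖ : O} (hϖ : Irreducible ϖ) :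
    IsLocalRing.maximalIdeal ↥(s34g_V0 O W) =
      Ideal.span {(⟨_, s34g_algebraMap_mem0 (W := W) ϖ⟩ : ↥(s34g_V0 O W))} := by
  ext y
  rw [s34g_mem_maximalIdeal_iff0, s34g_rho0_eq_zero_iff hϖ, Ideal.mem_span_singleton']
  constructor
  · rintro ⟨z, rfl⟩
    exact ⟨z, mul_comm _ _⟩
  · rintro ⟨z, rfl⟩
    exact ⟨z, mul_comm _ _⟩

/-- Every nonzero element of `F_K(N)` is `π ^ e` times a unit of `V_0`. -/
theorem s34g_exists_pow0 {ϖ : O} (hϖ : Irreducible ϖ) (y : ↥(s18_F K N)) (hy : y ≠ 0) :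
    letI := s18_algOF O K N
    ∃ (e : ℤ) (u : ↥(s34g_V0 O W)), s34g_rho0 O W u ≠ 0 ∧
      y = (algebraMap O ↥(s18_F K N) ϖ) ^ e * (u : ↥(s18_F K N)) := by
  letI := s18_algOF O K N
  have hWy : W y ≠ 0 := (map_ne_zero_iff _ W.injective).2 hy
  obtain ⟨e, u, hu, hyu⟩ := s34g_exists_pow (O := O) hϖ (W y) hWy
  have hmem : W.symm (u : ↥(s18_F K N)) ∈ s34g_V0 O W := by
    rw [s34g_mem_V0_iff, W.apply_symm_apply]
    exact u.2
  refine ⟨e, ⟨_, hmem⟩, ?_, ?_⟩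
  · rw [s34g_rho0_apply]
    have : (⟨W (W.symm (u : ↥(s18_F K N))), hmem⟩ : ↥(s34g_V O K N)) = u :=
      Subtype.ext (W.apply_symm_apply _)
    rw [this]
    exact hu
  · apply W.injective
    rw [hyu, map_mul, map_zpow₀, s34g_W_algebraMap, W.apply_symm_apply]

/-- `V_0` contains the integral closure of `O[S]` for every `S ⊆ V_0`. -/
theorem s34g_chart_le0 (S : Set ↥(s18_F K N)) (hS : ∀ t ∈ S, t ∈ s34g_V0 O W)
    (b : ↥(s18_F K N))
    (hb : letI := s18_algOF O K N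
      b ∈ s18_chart O S) : b ∈ s34g_V0 O W := by
  letI := s18_algOF O K N
  exact s34g_val_chart_le O (s34g_V0 O W) (fun a => s34g_algebraMap_mem0 a) S hS b hb

/-! ### `W` an involution -/

theorem s34g_W_mem_V0_iff (hWW : ∀ y, W (W y) = y) (y : ↥(s18_F K N)) :
    W y ∈ s34g_V0 O W ↔ y ∈ s34g_V O K N := by
  rw [s34g_mem_V0_iff, hWW]

theorem s34g_rho0_W (hWW : ∀ y, W (W y) = y) (y : ↥(s34g_V O K N)) :
    s34g_rho0 O W ⟨W (y : ↥(s18_F K N)), (s34g_W_mem_V0_iff hWW _).2 y.2⟩ =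
      s34g_rho O K N y := by
  rw [s34g_rho0_apply]
  congr 1
  exact Subtype.ext (hWW _)

/-! ### The inertia group -/

section Tau

variable (σ : K ≃ₐ[ℚ] K)
  (hσ : ∀ x : O, ∃ y : O, y ∈ IsLocalRing.maximalIdeal O ∧
    algebraMap O K y = σ (algebraMap O K x) - algebraMap O K x)
  (hWσ : ∀ y : ↥(s18_F K N), W (arithmeticGalois (modularFunctionFieldFull N) σ • y) =
    arithmeticGalois (modularFunctionFieldFull N) σ • W y)

include hσ hWσ in
/-- **`σ V_0 = V_0`.** -/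
theorem s34g_tau_mem_iff0 (y : ↥(s18_F K N)) :
    arithmeticGalois (modularFunctionFieldFull N) σ • y ∈ s34g_V0 O W ↔
      y ∈ s34g_V0 O W := by
  rw [s34g_mem_V0_iff, s34g_mem_V0_iff, hWσ]
  exact s34g_tau_mem_iff σ hσ (W y)

include hσ hWσ in
theorem s34g_tau_mem0 (y : ↥(s18_F K N)) (hy : y ∈ s34g_V0 O W) :
    arithmeticGalois (modularFunctionFieldFull N) σ • y ∈ s34g_V0 O W :=
  (s34g_tau_mem_iff0 σ hσ hWσ y).2 hy

/-- **`ρ_0 ∘ σ = ρ_0`.** -/
theorem s34g_rho0_tau (y : ↥(s34g_V0 O W)) :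
    s34g_rho0 O W ⟨arithmeticGalois (modularFunctionFieldFull N) σ • (y : ↥(s18_F K N)),
      s34g_tau_mem0 σ hσ hWσ _ y.2⟩ = s34g_rho0 O W y := by
  rw [s34g_rho0_apply, s34g_rho0_apply, ← s34g_rho_tau σ hσ ⟨W (y : ↥(s18_F K N)), y.2⟩]
  congr 1
  exact Subtype.ext (hWσ _)

end Tau

end V0

/-! ### The ring `V_∞ ∩ V_0` -/

section W2

variable (O : Type) {K : Type} [CommRing O] [IsDomain O] [IsDiscreteValuationRing O] [Field K]
  [CharZero K] [Algebra O K] [IsFractionRing O K] {N : ℕ} [NeZero N]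
  (W : ↥(s18_F K N) ≃ₐ[K] ↥(s18_F K N))

/-- The subring `V_∞ ∩ V_0` of `F_K(N)`. -/
def s34g_W2 : Subring ↥(s18_F K N) :=
  (s34g_V O K N).toSubring ⊓ (s34g_V0 O W).toSubring

variable {O W}

theorem s34g_mem_W2_iff (y : ↥(s18_F K N)) :
    y ∈ s34g_W2 O W ↔ y ∈ s34g_V O K N ∧ W y ∈ s34g_V O K N :=
  Iff.rfl

theorem s34g_W2_algebraMap_mem (a : O) :
    letI := s18_algOF O K N
    algebraMap O ↥(s18_F K N) a ∈ s34g_W2 O W :=
  ⟨s34g_algebraMap_mem a, s34g_algebraMap_mem0 a⟩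

/-- `chart_le`: `V_∞ ∩ V_0` contains the chart of every `S ⊆ V_∞ ∩ V_0`. -/
theorem s34g_W2_chart_le (S : Set ↥(s18_F K N)) (hS : ∀ t ∈ S, t ∈ s34g_W2 O W)
    (b : ↥(s18_F K N))
    (hb : letI := s18_algOF O K N
      b ∈ s18_chart O S) : b ∈ s34g_W2 O W :=
  ⟨s34g_chart_le S (fun t ht => (hS t ht).1) b hb,
    s34g_chart_le0 S (fun t ht => (hS t ht).2) b hb⟩

/-- `root`: `V_∞ ∩ V_0` contains the roots of its elements. -/
theorem s34g_W2_root (f : ↥(s18_F K N)) (n : ℕ) (hn : 0 < n) (h : f ^ n ∈ s34g_W2 O W) :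
    f ∈ s34g_W2 O W :=
  ⟨s34g_val_root _ f n hn h.1, s34g_val_root (s34g_V0 O W) f n hn h.2⟩

/-- `unit`: `1 + π (V_∞ ∩ V_0)` consists of units. -/
theorem s34g_W2_unit {ϖ : O} (hϖ : Irreducible ϖ) (w : ↥(s18_F K N)) (hw : w ∈ s34g_W2 O W) :
    letI := s18_algOF O K N
    (1 + algebraMap O ↥(s18_F K N) ϖ * w)⁻¹ ∈ s34g_W2 O W := by
  letI := s18_algOF O K N
  have h1 : (1 + algebraMap O ↥(s18_F K N) ϖ * w) ∈ s34g_V O K N :=
    add_mem (one_mem _) (mul_mem (s34g_algebraMap_mem ϖ) hw.1)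
  have h2 : (1 + algebraMap O ↥(s18_F K N) ϖ * w) ∈ s34g_V0 O W :=
    add_mem (one_mem _) (mul_mem (s34g_algebraMap_mem0 ϖ) hw.2)
  constructor
  · refine s34g_inv_mem ⟨_, h1⟩ ?_
    have e : (⟨_, h1⟩ : ↥(s34g_V O K N)) =
        1 + ⟨_, s34g_algebraMap_mem (K := K) (N := N) ϖ⟩ * ⟨w, hw.1⟩ := rfl
    rw [e, map_add, map_mul, map_one, s34g_rho_pi hϖ _ rfl, zero_mul, add_zero]
    exact one_ne_zero
  · refine s34g_inv_mem0 ⟨_, h2⟩ ?_
    have e : (⟨_, h2⟩ : ↥(s34g_V0 O W)) =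
        1 + ⟨_, s34g_algebraMap_mem0 (W := W) ϖ⟩ * ⟨w, hw.2⟩ := rfl
    rw [e, map_add, map_mul, map_one, s34g_rho0_pi hϖ _ rfl, zero_mul, add_zero]
    exact one_ne_zero

/-- `V_∞ ∩ V_0` is stable under an involution `W`. -/
theorem s34g_W2_W_mem (hWW : ∀ y, W (W y) = y) (y : ↥(s18_F K N)) (hy : y ∈ s34g_W2 O W) :
    W y ∈ s34g_W2 O W := by
  rw [s34g_mem_W2_iff] at hy ⊢
  rw [hWW]
  exact ⟨hy.2, hy.1⟩

/-- `V_∞ ∩ V_0` is stable under the inertia group. -/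
theorem s34g_W2_tau_mem (σ : K ≃ₐ[ℚ] K)
    (hσ : ∀ x : O, ∃ y : O, y ∈ IsLocalRing.maximalIdeal O ∧
      algebraMap O K y = σ (algebraMap O K x) - algebraMap O K x)
    (hWσ : ∀ y : ↥(s18_F K N), W (arithmeticGalois (modularFunctionFieldFull N) σ • y) =
      arithmeticGalois (modularFunctionFieldFull N) σ • W y)
    (y : ↥(s18_F K N)) (hy : y ∈ s34g_W2 O W) :
    arithmeticGalois (modularFunctionFieldFull N) σ • y ∈ s34g_W2 O W :=
  ⟨s34g_tau_mem σ hσ y hy.1, s34g_tau_mem0 σ hσ hWσ y hy.2⟩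

/-- `σ y - y ∈ π (V_∞ ∩ V_0)` for `y ∈ V_∞ ∩ V_0`: the inertia group acts trivially modulo `π`
on both branches. -/
theorem s34g_W2_tau_sub (σ : K ≃ₐ[ℚ] K)
    (hσ : ∀ x : O, ∃ y : O, y ∈ IsLocalRing.maximalIdeal O ∧
      algebraMap O K y = σ (algebraMap O K x) - algebraMap O K x)
    (hWσ : ∀ y : ↥(s18_F K N), W (arithmeticGalois (modularFunctionFieldFull N) σ • y) =
      arithmeticGalois (modularFunctionFieldFull N) σ • W y)
    {ϖ : O} (hϖ : Irreducible ϖ)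
    (y : ↥(s18_F K N)) (hy : y ∈ s34g_W2 O W) :
    letI := s18_algOF O K N
    ∃ w ∈ s34g_W2 O W, arithmeticGalois (modularFunctionFieldFull N) σ • y - y =
      algebraMap O ↥(s18_F K N) ϖ * w := by
  letI := s18_algOF O K N
  have hπ := s34g_algebraMap_ne_zero (K := K) (N := N) hϖ.ne_zero
  have h1 : arithmeticGalois (modularFunctionFieldFull N) σ • y - y ∈ s34g_V O K N :=
    sub_mem (s34g_tau_mem σ hσ y hy.1) hy.1
  have h2 : arithmeticGalois (modularFunctionFieldFull N) σ • y - y ∈ s34g_V0 O W :=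
    sub_mem (s34g_tau_mem0 σ hσ hWσ y hy.2) hy.2
  have e1 : s34g_rho O K N ⟨_, h1⟩ = 0 := by
    have e : (⟨_, h1⟩ : ↥(s34g_V O K N)) =
        ⟨arithmeticGalois (modularFunctionFieldFull N) σ • y, s34g_tau_mem σ hσ y hy.1⟩ -
          ⟨y, hy.1⟩ := rfl
    rw [e, map_sub, s34g_rho_tau σ hσ ⟨y, hy.1⟩, sub_self]
  have e2 : s34g_rho0 O W ⟨_, h2⟩ = 0 := by
    have e : (⟨_, h2⟩ : ↥(s34g_V0 O W)) =
        ⟨arithmeticGalois (modularFunctionFieldFull N) σ • y,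
          s34g_tau_mem0 σ hσ hWσ y hy.2⟩ - ⟨y, hy.2⟩ := rfl
    rw [e, map_sub, s34g_rho0_tau σ hσ hWσ ⟨y, hy.2⟩, sub_self]
  refine ⟨(arithmeticGalois (modularFunctionFieldFull N) σ • y - y) /
    algebraMap O ↥(s18_F K N) ϖ, ⟨s34g_rho_eq_zero hϖ ⟨_, h1⟩ e1, ?_⟩, ?_⟩
  · exact s34g_rho0_eq_zero hϖ ⟨_, h2⟩ e2
  · field_simp

end W2

end Fermat.Agent.S34
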