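/-
S34, leaf [SS-W] (helper8).  Prefix `s34w_`.

THE ATKIN-LEHNER INVOLUTION OVER A SUBFIELD OF `Q̄`.  For `M`, `q` coprime and a field `K` of
characteristic zero inside a field `L` over which an involution `W_L` of `F_L(M q)` swapping the
two degeneracy maps is given, `W_L` restricts to `F_K(M q)`:

  `s34w_gen`       : `F_K(N)` is generated, as a field, by the constants and the `j_d`, `d ∣ N`;
  `s34w_W`         : the restriction `W_K : F_K(M q) ≃ₐ[K] F_K(M q)`;
  `s34w_W_W`, `s34w_W_alpha`, `s34w_W_beta`, `s34w_W_jd`, `s34w_W_jdq`, `s34w_W_galois`.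
-/
import Mathlib
import Fermat.Prelude.Def_ModularCurve_HeckeOperator
import Fermat.Agent.S18.Cfe
import Fermat.Agent.S24.Bridge
import Fermat.Agent.S37.AtkinLehnerInv
import Fermat.Agent.S34.SsGaussA

set_option autoImplicit false
set_option linter.unusedSectionVars false
set_option linter.unusedVariables false
set_option linter.style.haveILetI false

open AlgebraicCurve ModularCurve IntermediateField
open Fermat.Agent.S18 Fermat.Agent.S24

noncomputable section

namespace Fermat.Agent.S34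

/-! ### Generators of `F_K(N)` -/

section Gen

variable (K : Type) [Field K] [CharZero K] (N : ℕ) [NeZero N]

theorem s34w_coeffEmb_algebraMap (r : ℚ) :
    coeffEmb K (algebraMap ℚ (LaurentSeries ℚ) r) =
      algebraMap K (LaurentSeries K) (algebraMap ℚ K r) := by
  rw [algebraMap_laurentSeries_eq_single, algebraMap_laurentSeries_eq_single, coeffEmb,
    coeffMap_single]

/-- Every `coeffEmb z`, `z ∈ F_ℚ(N)`, lies in a subfield of `F_K(N)` which contains the
constants and the `j_d`. -/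
theorem s34w_gen_aux (S : Subfield ↥(s18_F K N))
    (hc : ∀ c : K, algebraMap K ↥(s18_F K N) c ∈ S)
    (hj : ∀ (d : ℕ) [NeZero d] (hd : d ∣ N), s34g_jd K N d hd ∈ S)
    (z : LaurentSeries ℚ) (hz : z ∈ modularFunctionFieldFull N) :
    ∃ s ∈ S, (s : LaurentSeries K) = coeffEmb K z := by
  unfold modularFunctionFieldFull at hz
  induction hz using IntermediateField.adjoin_induction with
  | mem z hz =>
    obtain ⟨d, hne, hd, rfl⟩ := hz
    haveI := hne
    exact ⟨s34g_jd K N d hd, hj d hd, rfl⟩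
  | algebraMap r =>
    refine ⟨algebraMap K ↥(s18_F K N) (algebraMap ℚ K r), hc _, ?_⟩
    rw [s34w_coeffEmb_algebraMap]
    rfl
  | add x y _ _ hx hy =>
    obtain ⟨s, hs, hs'⟩ := hx
    obtain ⟨t, ht, ht'⟩ := hy
    refine ⟨s + t, S.add_mem hs ht, ?_⟩
    rw [map_add, ← hs', ← ht']
    rfl
  | inv x _ hx =>
    obtain ⟨s, hs, hs'⟩ := hx
    refine ⟨s⁻¹, S.inv_mem hs, ?_⟩
    rw [map_inv₀, ← hs']
    rfl
  | mul x y _ _ hx hy =>
    obtain ⟨s, hs, hs'⟩ := hx
    obtain ⟨t, ht, ht'⟩ := hy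
    refine ⟨s * t, S.mul_mem hs ht, ?_⟩
    rw [map_mul, ← hs', ← ht']
    rfl

/-- **Generation**: a subfield of `F_K(N)` which contains the constants and the `j_d`, `d ∣ N`,
is everything. -/
theorem s34w_gen (S : Subfield ↥(s18_F K N))
    (hc : ∀ c : K, algebraMap K ↥(s18_F K N) c ∈ S)
    (hj : ∀ (d : ℕ) [NeZero d] (hd : d ∣ N), s34g_jd K N d hd ∈ S)
    (x : ↥(s18_F K N)) : x ∈ S := by
  have hle : Subfield.closure (Set.range (algebraMap K (LaurentSeries K)) ∪
      (⇑(coeffEmb K) '' ((modularFunctionFieldFull N : IntermediateField ℚ (LaurentSeries ℚ)) :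
        Set (LaurentSeries ℚ)))) ≤
      S.map (s18_F K N).val.toRingHom := by
    rw [Subfield.closure_le]
    rintro y (⟨a, rfl⟩ | ⟨z, hz, rfl⟩)
    · exact ⟨algebraMap K ↥(s18_F K N) a, hc a, rfl⟩
    · obtain ⟨s, hs, hs'⟩ := s34w_gen_aux K N S hc hj z hz
      exact ⟨s, hs, hs'⟩
  obtain ⟨s, hs, hsx⟩ := hle (mem_laurentBaseChange_iff.1 x.2)
  have : s = x := Subtype.ext hsx
  rw [← this]
  exact hs

/-- Two ring homomorphisms on `F_K(N)` which agree on the constants and on the `j_d` are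
equal. -/
theorem s34w_ringHom_ext {R : Type*} [DivisionRing R] (f g : ↥(s18_F K N) →+* R)
    (hc : ∀ c : K, f (algebraMap K ↥(s18_F K N) c) = g (algebraMap K ↥(s18_F K N) c))
    (hj : ∀ (d : ℕ) [NeZero d] (hd : d ∣ N), f (s34g_jd K N d hd) = g (s34g_jd K N d hd)) :
    f = g := by
  refine RingHom.ext fun x => ?_
  exact s34w_gen K N (RingHom.eqLocusField f g) hc (fun d _ hd => hj d hd) x

end Gen

/-! ### The coefficient embedding and the degeneracy maps -/

section Iota

variable (K L : Type) [Field K] [CharZero K] [Field L] [Algebra ℚ L] [Algebra K L]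
  (M q : ℕ) [NeZero M] [NeZero q]

/-- The coefficient embedding `F_K(N) → F_L(N)`. -/
abbrev s34w_iota (N : ℕ) [NeZero N] :
    ↥(s18_F K N) →+* ↥(laurentBaseChange L (modularFunctionFieldFull N)) :=
  s18cfe_iota K L (modularFunctionFieldFull N)

theorem s34w_iota_injective (N : ℕ) [NeZero N] : Function.Injective (s34w_iota K L N) :=
  (s34w_iota K L N).injective

theorem s34w_iota_alpha (f : ↥(s18_F K M)) :
    s34w_iota K L (M * q) (heckeAlphaBar K M q f) = heckeAlphaBar L M q (s34w_iota K L M f) := by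
  apply Subtype.ext
  rw [s18cfe_iota_coe, coe_heckeAlphaBar, coe_heckeAlphaBar, s18cfe_iota_coe]

theorem s34w_iota_beta (f : ↥(s18_F K M)) :
    s34w_iota K L (M * q) (heckeBetaBar K M q f) = heckeBetaBar L M q (s34w_iota K L M f) := by
  apply Subtype.ext
  rw [s18cfe_iota_coe, coe_heckeBetaBar, coe_heckeBetaBar, s18cfe_iota_coe]
  exact anA_coeffMap_qExpand (algebraMap K L) q (f : LaurentSeries K)

variable {M} in
theorem s34w_alpha_jd (d : ℕ) [NeZero d] (hd : d ∣ M) :
    heckeAlphaBar K M q (s34g_jd K M d hd) =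
      s34g_jd K (M * q) d (hd.trans (dvd_mul_right M q)) := by
  apply Subtype.ext
  rw [coe_heckeAlphaBar]
  rfl

variable {M} in
theorem s34w_beta_jd (d : ℕ) [NeZero d] [NeZero (d * q)] (hd : d ∣ M) :
    heckeBetaBar K M q (s34g_jd K M d hd) =
      s34g_jd K (M * q) (d * q) (Nat.mul_dvd_mul_right hd q) := by
  apply Subtype.ext
  rw [coe_heckeBetaBar]
  show qExpand K q (coeffEmb K (qExpand ℚ d jq)) = coeffEmb K (qExpand ℚ (d * q) jq)
  rw [coeffEmb, ← anA_coeffMap_qExpand, qExpand_qExpand]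
  exact congrArg _ (qExpand_congr (mul_comm q d) jq)

theorem s34w_jd_congr (N : ℕ) [NeZero N] {d d' : ℕ} [NeZero d] [NeZero d'] (h : d = d')
    (hd : d ∣ N) (hd' : d' ∣ N) : s34g_jd K N d hd = s34g_jd K N d' hd' := by
  subst h
  rfl

/-- For a prime `q`, every `j_d`, `d ∣ M q`, of `F_K(M q)` is `α (j_e)` or `β (j_e)` with
`e ∣ M`. -/
theorem s34w_jd_cases (hq : q.Prime) (d : ℕ) [NeZero d] (hd : d ∣ M * q) :
    ∃ (e : ℕ) (_ : NeZero e) (he : e ∣ M),
      s34g_jd K (M * q) d hd = heckeAlphaBar K M q (s34g_jd K M e he) ∨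
      s34g_jd K (M * q) d hd = heckeBetaBar K M q (s34g_jd K M e he) := by
  by_cases hqd : q ∣ d
  · obtain ⟨e, rfl⟩ := hqd
    have he : e ∣ M := by
      rw [mul_comm M q] at hd
      exact Nat.dvd_of_mul_dvd_mul_left hq.pos hd
    have he0 : e ≠ 0 := by
      rintro rfl
      exact NeZero.ne (q * 0) (mul_zero q)
    haveI : NeZero e := ⟨he0⟩
    haveI : NeZero (e * q) := ⟨mul_ne_zero he0 hq.ne_zero⟩
    refine ⟨e, ⟨he0⟩, he, Or.inr ?_⟩
    rw [s34w_beta_jd]
    exact s34w_jd_congr K (M * q) (mul_comm q e) _ _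
  · have hcop : Nat.Coprime d q := ((Nat.Prime.coprime_iff_not_dvd hq).2 hqd).symm
    have hd' : d ∣ M := hcop.dvd_of_dvd_mul_right hd
    exact ⟨d, inferInstance, hd', Or.inl (s34w_alpha_jd K q d hd').symm⟩

end Iota

/-! ### The restriction of an involution -/

section Restrict

variable (K L : Type) [Field K] [CharZero K] [Field L] [Algebra ℚ L] [Algebra K L]
  (M q : ℕ) [NeZero M] [NeZero q]
  (WL : ↥(laurentBaseChange L (modularFunctionFieldFull (M * q))) →+*
    ↥(laurentBaseChange L (modularFunctionFieldFull (M * q))))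

variable {K L M q} in
/-- `W_L` maps the image of `F_K(M q)` into itself. -/
theorem s34w_exists (hq : q.Prime)
    (hWc : ∀ c : L, WL (algebraMap L _ c) = algebraMap L _ c)
    (hWa : ∀ f, WL (heckeAlphaBar L M q f) = heckeBetaBar L M q f)
    (hWb : ∀ f, WL (heckeBetaBar L M q f) = heckeAlphaBar L M q f)
    (x : ↥(s18_F K (M * q))) :
    ∃ y : ↥(s18_F K (M * q)), s34w_iota K L (M * q) y = WL (s34w_iota K L (M * q) x) := by
  have key : x ∈ Subfield.comap (WL.comp (s34w_iota K L (M * q)))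
      (s34w_iota K L (M * q)).fieldRange := by
    refine s34w_gen K (M * q) _ ?_ ?_ x
    · intro c
      show WL (s34w_iota K L (M * q) (algebraMap K _ c)) ∈ (s34w_iota K L (M * q)).fieldRange
      rw [s18cfe_iota_algebraMap, hWc, ← s18cfe_iota_algebraMap]
      exact ⟨_, rfl⟩
    · intro d _ hd
      show WL (s34w_iota K L (M * q) (s34g_jd K (M * q) d hd)) ∈
        (s34w_iota K L (M * q)).fieldRange
      obtain ⟨e, hne, he, h | h⟩ := s34w_jd_cases K M q hq d hd
      · rw [h, s34w_iota_alpha, hWa, ← s34w_iota_beta]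
        exact ⟨_, rfl⟩
      · rw [h, s34w_iota_beta, hWb, ← s34w_iota_alpha]
        exact ⟨_, rfl⟩
  obtain ⟨y, hy⟩ := key
  exact ⟨y, hy⟩

variable {K L M q} in
/-- The restriction of `W_L` to `F_K(M q)`, as a function. -/
def s34w_fun (hq : q.Prime)
    (hWc : ∀ c : L, WL (algebraMap L _ c) = algebraMap L _ c)
    (hWa : ∀ f, WL (heckeAlphaBar L M q f) = heckeBetaBar L M q f)
    (hWb : ∀ f, WL (heckeBetaBar L M q f) = heckeAlphaBar L M q f)
    (x : ↥(s18_F K (M * q))) : ↥(s18_F K (M * q)) :=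
  Classical.choose (s34w_exists (K := K) WL hq hWc hWa hWb x)

variable {K L M q} in
theorem s34w_fun_spec (hq : q.Prime)
    (hWc : ∀ c : L, WL (algebraMap L _ c) = algebraMap L _ c)
    (hWa : ∀ f, WL (heckeAlphaBar L M q f) = heckeBetaBar L M q f)
    (hWb : ∀ f, WL (heckeBetaBar L M q f) = heckeAlphaBar L M q f)
    (x : ↥(s18_F K (M * q))) :
    s34w_iota K L (M * q) (s34w_fun (K := K) WL hq hWc hWa hWb x) =
      WL (s34w_iota K L (M * q) x) :=
  Classical.choose_spec (s34w_exists (K := K) WL hq hWc hWa hWb x)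

variable {K L M q} in
/-- **The restriction of `W_L` to `F_K(M q)`**, a `K`-algebra endomorphism. -/
def s34w_res (hq : q.Prime)
    (hWc : ∀ c : L, WL (algebraMap L _ c) = algebraMap L _ c)
    (hWa : ∀ f, WL (heckeAlphaBar L M q f) = heckeBetaBar L M q f)
    (hWb : ∀ f, WL (heckeBetaBar L M q f) = heckeAlphaBar L M q f) :
    ↥(s18_F K (M * q)) →ₐ[K] ↥(s18_F K (M * q)) where
  toFun := s34w_fun (K := K) WL hq hWc hWa hWb
  map_one' := by
    apply s34w_iota_injective K L (M * q)
    rw [s34w_fun_spec, map_one, map_one]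
  map_mul' x y := by
    apply s34w_iota_injective K L (M * q)
    rw [s34w_fun_spec, map_mul, map_mul, map_mul, s34w_fun_spec, s34w_fun_spec]
  map_zero' := by
    apply s34w_iota_injective K L (M * q)
    rw [s34w_fun_spec, map_zero, map_zero]
  map_add' x y := by
    apply s34w_iota_injective K L (M * q)
    rw [s34w_fun_spec, map_add, map_add, map_add, s34w_fun_spec, s34w_fun_spec]
  commutes' c := by
    apply s34w_iota_injective K L (M * q)
    rw [s34w_fun_spec, s18cfe_iota_algebraMap, hWc]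

section Props

variable {K L M q}
variable (hq : q.Prime)
  (hWc : ∀ c : L, WL (algebraMap L _ c) = algebraMap L _ c)
  (hWa : ∀ f, WL (heckeAlphaBar L M q f) = heckeBetaBar L M q f)
  (hWb : ∀ f, WL (heckeBetaBar L M q f) = heckeAlphaBar L M q f)

theorem s34w_res_spec (x : ↥(s18_F K (M * q))) :
    s34w_iota K L (M * q) (s34w_res (K := K) WL hq hWc hWa hWb x) =
      WL (s34w_iota K L (M * q) x) :=
  s34w_fun_spec WL hq hWc hWa hWb x

theorem s34w_res_alpha (f : ↥(s18_F K M)) :
    s34w_res (K := K) WL hq hWc hWa hWb (heckeAlphaBar K M q f) = heckeBetaBar K M q f := by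
  apply s34w_iota_injective K L (M * q)
  rw [s34w_res_spec, s34w_iota_alpha, hWa, s34w_iota_beta]

theorem s34w_res_beta (f : ↥(s18_F K M)) :
    s34w_res (K := K) WL hq hWc hWa hWb (heckeBetaBar K M q f) = heckeAlphaBar K M q f := by
  apply s34w_iota_injective K L (M * q)
  rw [s34w_res_spec, s34w_iota_beta, hWb, s34w_iota_alpha]

theorem s34w_res_res (hWW : ∀ f, WL (WL f) = f) (x : ↥(s18_F K (M * q))) :
    s34w_res (K := K) WL hq hWc hWa hWb (s34w_res (K := K) WL hq hWc hWa hWb x) = x := by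
  apply s34w_iota_injective K L (M * q)
  rw [s34w_res_spec, s34w_res_spec, hWW]

theorem s34w_res_jd (d : ℕ) [NeZero d] [NeZero (d * q)] (hd : d ∣ M) :
    s34w_res (K := K) WL hq hWc hWa hWb (s34g_jd K (M * q) d (hd.trans (dvd_mul_right M q))) =
      s34g_jd K (M * q) (d * q) (Nat.mul_dvd_mul_right hd q) := by
  rw [← s34w_alpha_jd K q d hd, s34w_res_alpha, s34w_beta_jd]

theorem s34w_res_jdq (d : ℕ) [NeZero d] [NeZero (d * q)] (hd : d ∣ M) :
    s34w_res (K := K) WL hq hWc hWa hWb (s34g_jd K (M * q) (d * q) (Nat.mul_dvd_mul_right hd q)) =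
      s34g_jd K (M * q) d (hd.trans (dvd_mul_right M q)) := by
  rw [← s34w_beta_jd K q d hd, s34w_res_beta, s34w_alpha_jd]

/-- `W_K` permutes the `j_d`, `d ∣ M q`. -/
theorem s34w_res_jd_exists (d : ℕ) [NeZero d] (hd : d ∣ M * q) :
    ∃ (e : ℕ) (_ : NeZero e) (he : e ∣ M * q),
      s34w_res (K := K) WL hq hWc hWa hWb (s34g_jd K (M * q) d hd) = s34g_jd K (M * q) e he := by
  obtain ⟨e, hne, he, h | h⟩ := s34w_jd_cases K M q hq d hd
  · haveI := hne
    haveI : NeZero (e * q) := ⟨mul_ne_zero (NeZero.ne e) hq.ne_zero⟩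
    exact ⟨e * q, inferInstance, Nat.mul_dvd_mul_right he q, by
      rw [h, s34w_res_alpha, s34w_beta_jd]⟩
  · haveI := hne
    exact ⟨e, inferInstance, he.trans (dvd_mul_right M q), by
      rw [h, s34w_res_beta, s34w_alpha_jd]⟩

/-- The coefficientwise Galois action fixes the `j_d`. -/
theorem s34w_galois_jd (N : ℕ) [NeZero N] (τ0 : K ≃ₐ[ℚ] K) (d : ℕ) [NeZero d] (hd : d ∣ N) :
    arithmeticGalois (modularFunctionFieldFull N) τ0 • s34g_jd K N d hd = s34g_jd K N d hd :=
  Subtype.ext (coeffMap_coeffEmb τ0 _)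

/-- **`W τ = τ W`**: the restriction `W_K` commutes with the coefficientwise action of the
automorphisms of `K`. -/
theorem s34w_res_galois (τ0 : K ≃ₐ[ℚ] K) (f : ↥(s18_F K (M * q))) :
    s34w_res (K := K) WL hq hWc hWa hWb
        (arithmeticGalois (modularFunctionFieldFull (M * q)) τ0 • f) =
      arithmeticGalois (modularFunctionFieldFull (M * q)) τ0 •
        s34w_res (K := K) WL hq hWc hWa hWb f := by
  have key : (s34w_res (K := K) WL hq hWc hWa hWb).toRingHom.comp
      (arithmeticRingAut (modularFunctionFieldFull (M * q)) τ0).toRingHom =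
      (arithmeticRingAut (modularFunctionFieldFull (M * q)) τ0).toRingHom.comp
        (s34w_res (K := K) WL hq hWc hWa hWb).toRingHom := by
    refine s34w_ringHom_ext K (M * q) _ _ ?_ ?_
    · intro c
      show s34w_res (K := K) WL hq hWc hWa hWb
          (arithmeticRingAut (modularFunctionFieldFull (M * q)) τ0 (algebraMap K _ c)) =
        arithmeticRingAut (modularFunctionFieldFull (M * q)) τ0
          (s34w_res (K := K) WL hq hWc hWa hWb (algebraMap K _ c))
      rw [arithmeticRingAut_algebraMap, AlgHom.commutes, AlgHom.commutes,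
        arithmeticRingAut_algebraMap]
    · intro d _ hd
      show s34w_res (K := K) WL hq hWc hWa hWb
          (arithmeticGalois (modularFunctionFieldFull (M * q)) τ0 • s34g_jd K (M * q) d hd) =
        arithmeticGalois (modularFunctionFieldFull (M * q)) τ0 •
          (s34w_res (K := K) WL hq hWc hWa hWb (s34g_jd K (M * q) d hd))
      obtain ⟨e, hne, he, h⟩ := s34w_res_jd_exists (K := K) WL hq hWc hWa hWb d hd
      haveI := hne
      rw [s34w_galois_jd, h, s34w_galois_jd]
  exact RingHom.congr_fun key f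

end Props

end Restrict

end Fermat.Agent.S34
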