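/-
S34, leaf [SS-W] (helper8), the export.  Prefix `s34w_`.

THE ATKIN-LEHNER INVOLUTION `W = W_q` OF `F_{K0}(M q)` OVER A SUBFIELD `K0` OF `Q̄`
(`q` a prime, `q ∤ M`): the restriction of the involution `S37.s37al_Wequiv` of `F̄_{M q}`.

  `s34w_W M q hq hM K0 : F_{K0}(M q) ≃ₐ[K0] F_{K0}(M q)`
  `s34w_W_W`       : `W ∘ W = id`
  `s34w_W_alpha`   : `W ∘ α = β`        (`α = heckeAlphaBar`, the inclusion `F(M) ⊆ F(M q)`)
  `s34w_W_beta`    : `W ∘ β = α`        (`β = heckeBetaBar`, `f(q) ↦ f(q^q)`)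
  `s34w_W_jd`, `s34w_W_jdq` : `W j_d = j_{d q}`, `W j_{d q} = j_d` for `d ∣ M`
  `s34w_W_j`, `s34w_W_jq`   : `W j = j_q`, `W j_q = j`
  `s34w_W_galois`  : `W (τ • f) = τ • W f` for the coefficientwise action of `τ : K0 ≃ₐ[ℚ] K0`
  `s34w_W_bar`     : compatibility with the involution over `Q̄`
  `s34w_main`      : the existential form.
-/
import Mathlib
import Fermat.Agent.S34.SsW

set_option autoImplicit false
set_option linter.unusedSectionVars false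
set_option linter.unusedVariables false
set_option linter.style.haveILetI false

open AlgebraicCurve ModularCurve IntermediateField
open Fermat.Agent.S18 Fermat.Agent.S24

noncomputable section

namespace Fermat.Agent.S34

section Main

variable (M q : ℕ) [NeZero M] [NeZero q]

theorem s34w_coprime (hq : q.Prime) (hM : ¬ q ∣ M) : Nat.Coprime M q :=
  ((Nat.Prime.coprime_iff_not_dvd hq).2 hM).symm

theorem s34w_bezout (hq : q.Prime) (hM : ¬ q ∣ M) :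
    (Nat.gcdB M q) * (q : ℤ) - (-(Nat.gcdA M q)) * (M : ℤ) = 1 := by
  have hb := Nat.gcd_eq_gcd_ab M q
  rw [Nat.Coprime.gcd_eq_one (s34w_coprime M q hq hM)] at hb
  have : ((1 : ℕ) : ℤ) = 1 := rfl
  rw [this] at hb
  rw [hb]
  ring

/-- The Atkin-Lehner involution of `F̄_{M q}` (S37). -/
def s34w_Wbar (hq : q.Prime) (hM : ¬ q ∣ M) : FunField (M * q) ≃ₐ[QBar] FunField (M * q) :=
  S37.s37al_Wequiv M q (Nat.gcdB M q) (-(Nat.gcdA M q)) (s34w_bezout M q hq hM)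

theorem s34w_Wbar_Wbar (hq : q.Prime) (hM : ¬ q ∣ M) (f : FunField (M * q)) :
    s34w_Wbar M q hq hM (s34w_Wbar M q hq hM f) = f :=
  S37.s37al_Walg_Walg M q _ _ (s34w_bezout M q hq hM) f

theorem s34w_Wbar_alpha (hq : q.Prime) (hM : ¬ q ∣ M) (f : FunField M) :
    s34w_Wbar M q hq hM (heckeAlphaBar QBar M q f) = heckeBetaBar QBar M q f :=
  S37.s37al_Walg_alpha M q _ _ (s34w_bezout M q hq hM) f

theorem s34w_Wbar_beta (hq : q.Prime) (hM : ¬ q ∣ M) (f : FunField M) :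
    s34w_Wbar M q hq hM (heckeBetaBar QBar M q f) = heckeAlphaBar QBar M q f :=
  S37.s37al_Walg_beta M q _ _ (s34w_bezout M q hq hM) f

/-- The involution over `Q̄` as a ring homomorphism. -/
def s34w_WbarHom (hq : q.Prime) (hM : ¬ q ∣ M) : FunField (M * q) →+* FunField (M * q) :=
  ((s34w_Wbar M q hq hM : FunField (M * q) ≃ₐ[QBar] FunField (M * q)) :
    FunField (M * q) →+* FunField (M * q))

theorem s34w_WbarHom_const (hq : q.Prime) (hM : ¬ q ∣ M) (c : QBar) :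
    s34w_WbarHom M q hq hM (algebraMap QBar (FunField (M * q)) c) =
      algebraMap QBar (FunField (M * q)) c :=
  (s34w_Wbar M q hq hM).commutes c

theorem s34w_WbarHom_alpha (hq : q.Prime) (hM : ¬ q ∣ M) (f : FunField M) :
    s34w_WbarHom M q hq hM (heckeAlphaBar QBar M q f) = heckeBetaBar QBar M q f :=
  s34w_Wbar_alpha M q hq hM f

theorem s34w_WbarHom_beta (hq : q.Prime) (hM : ¬ q ∣ M) (f : FunField M) :
    s34w_WbarHom M q hq hM (heckeBetaBar QBar M q f) = heckeAlphaBar QBar M q f :=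
  s34w_Wbar_beta M q hq hM f

theorem s34w_WbarHom_WbarHom (hq : q.Prime) (hM : ¬ q ∣ M) (f : FunField (M * q)) :
    s34w_WbarHom M q hq hM (s34w_WbarHom M q hq hM f) = f :=
  s34w_Wbar_Wbar M q hq hM f

variable (K0 : IntermediateField ℚ (AlgebraicClosure ℚ))

/-- The Atkin-Lehner involution over `K0`, as an algebra endomorphism. -/
def s34w_Walg (hq : q.Prime) (hM : ¬ q ∣ M) :
    ↥(s18_F ↥K0 (M * q)) →ₐ[↥K0] ↥(s18_F ↥K0 (M * q)) :=
  s34w_res (K := ↥K0) (L := AlgebraicClosure ℚ) (M := M) (q := q)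
    (s34w_WbarHom M q hq hM) hq (s34w_WbarHom_const M q hq hM)
    (s34w_WbarHom_alpha M q hq hM) (s34w_WbarHom_beta M q hq hM)

theorem s34w_Walg_Walg (hq : q.Prime) (hM : ¬ q ∣ M) (f : ↥(s18_F ↥K0 (M * q))) :
    s34w_Walg M q K0 hq hM (s34w_Walg M q K0 hq hM f) = f :=
  s34w_res_res (K := ↥K0) (L := AlgebraicClosure ℚ) (M := M) (q := q)
    (s34w_WbarHom M q hq hM) hq (s34w_WbarHom_const M q hq hM)
    (s34w_WbarHom_alpha M q hq hM) (s34w_WbarHom_beta M q hq hM)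
    (s34w_WbarHom_WbarHom M q hq hM) f

/-- **The Atkin-Lehner involution `W_q` of `F_{K0}(M q)`**. -/
def s34w_W (hq : q.Prime) (hM : ¬ q ∣ M) :
    ↥(s18_F ↥K0 (M * q)) ≃ₐ[↥K0] ↥(s18_F ↥K0 (M * q)) :=
  AlgEquiv.ofAlgHom (s34w_Walg M q K0 hq hM) (s34w_Walg M q K0 hq hM)
    (AlgHom.ext (s34w_Walg_Walg M q K0 hq hM)) (AlgHom.ext (s34w_Walg_Walg M q K0 hq hM))

variable {M q K0}
variable (hq : q.Prime) (hM : ¬ q ∣ M)

theorem s34w_W_apply (f : ↥(s18_F ↥K0 (M * q))) :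
    s34w_W M q K0 hq hM f = s34w_Walg M q K0 hq hM f := rfl

theorem s34w_W_symm_apply (f : ↥(s18_F ↥K0 (M * q))) :
    (s34w_W M q K0 hq hM).symm f = s34w_W M q K0 hq hM f := rfl

/-- `W ∘ W = id`. -/
theorem s34w_W_W (f : ↥(s18_F ↥K0 (M * q))) :
    s34w_W M q K0 hq hM (s34w_W M q K0 hq hM f) = f :=
  s34w_Walg_Walg M q K0 hq hM f

/-- `W ∘ α = β`. -/
theorem s34w_W_alpha (f : ↥(s18_F ↥K0 M)) :
    s34w_W M q K0 hq hM (heckeAlphaBar ↥K0 M q f) = heckeBetaBar ↥K0 M q f :=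
  s34w_res_alpha (K := ↥K0) (L := AlgebraicClosure ℚ) (M := M) (q := q)
    (s34w_WbarHom M q hq hM) hq (s34w_WbarHom_const M q hq hM)
    (s34w_WbarHom_alpha M q hq hM) (s34w_WbarHom_beta M q hq hM) f

/-- `W ∘ β = α`. -/
theorem s34w_W_beta (f : ↥(s18_F ↥K0 M)) :
    s34w_W M q K0 hq hM (heckeBetaBar ↥K0 M q f) = heckeAlphaBar ↥K0 M q f :=
  s34w_res_beta (K := ↥K0) (L := AlgebraicClosure ℚ) (M := M) (q := q)
    (s34w_WbarHom M q hq hM) hq (s34w_WbarHom_const M q hq hM)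
    (s34w_WbarHom_alpha M q hq hM) (s34w_WbarHom_beta M q hq hM) f

/-- `W j_d = j_{d q}` for `d ∣ M`. -/
theorem s34w_W_jd (d : ℕ) [NeZero d] [NeZero (d * q)] (hd : d ∣ M) :
    s34w_W M q K0 hq hM (s34g_jd ↥K0 (M * q) d (hd.trans (dvd_mul_right M q))) =
      s34g_jd ↥K0 (M * q) (d * q) (Nat.mul_dvd_mul_right hd q) :=
  s34w_res_jd (K := ↥K0) (L := AlgebraicClosure ℚ) (M := M) (q := q)
    (s34w_WbarHom M q hq hM) hq (s34w_WbarHom_const M q hq hM)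
    (s34w_WbarHom_alpha M q hq hM) (s34w_WbarHom_beta M q hq hM) d hd

/-- `W j_{d q} = j_d` for `d ∣ M`. -/
theorem s34w_W_jdq (d : ℕ) [NeZero d] [NeZero (d * q)] (hd : d ∣ M) :
    s34w_W M q K0 hq hM (s34g_jd ↥K0 (M * q) (d * q) (Nat.mul_dvd_mul_right hd q)) =
      s34g_jd ↥K0 (M * q) d (hd.trans (dvd_mul_right M q)) :=
  s34w_res_jdq (K := ↥K0) (L := AlgebraicClosure ℚ) (M := M) (q := q)
    (s34w_WbarHom M q hq hM) hq (s34w_WbarHom_const M q hq hM)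
    (s34w_WbarHom_alpha M q hq hM) (s34w_WbarHom_beta M q hq hM) d hd

/-- `W` commutes with the coefficientwise Galois action. -/
theorem s34w_W_galois (τ0 : ↥K0 ≃ₐ[ℚ] ↥K0) (f : ↥(s18_F ↥K0 (M * q))) :
    s34w_W M q K0 hq hM (arithmeticGalois (modularFunctionFieldFull (M * q)) τ0 • f) =
      arithmeticGalois (modularFunctionFieldFull (M * q)) τ0 • s34w_W M q K0 hq hM f :=
  s34w_res_galois (K := ↥K0) (L := AlgebraicClosure ℚ) (M := M) (q := q)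
    (s34w_WbarHom M q hq hM) hq (s34w_WbarHom_const M q hq hM)
    (s34w_WbarHom_alpha M q hq hM) (s34w_WbarHom_beta M q hq hM) τ0 f

/-- Compatibility with the involution over `Q̄`. -/
theorem s34w_W_bar (f : ↥(s18_F ↥K0 (M * q))) :
    s34w_iota ↥K0 (AlgebraicClosure ℚ) (M * q) (s34w_W M q K0 hq hM f) =
      s34w_Wbar M q hq hM (s34w_iota ↥K0 (AlgebraicClosure ℚ) (M * q) f) :=
  s34w_res_spec (K := ↥K0) (L := AlgebraicClosure ℚ) (M := M) (q := q)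
    (s34w_WbarHom M q hq hM) hq (s34w_WbarHom_const M q hq hM)
    (s34w_WbarHom_alpha M q hq hM) (s34w_WbarHom_beta M q hq hM) f

/-- `W j = j_q`. -/
theorem s34w_W_j [NeZero (M * q)] :
    s34w_W M q K0 hq hM (s18_j ↥K0 (M * q)) = s34g_jd ↥K0 (M * q) q (dvd_mul_left q M) := by
  haveI : NeZero (1 * q) := ⟨by rw [one_mul]; exact hq.ne_zero⟩
  rw [s34g_j_eq, s34w_jd_congr ↥K0 (M * q) rfl (one_dvd (M * q))
    ((one_dvd M).trans (dvd_mul_right M q)), s34w_W_jd hq hM 1 (one_dvd M)]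
  exact s34w_jd_congr ↥K0 (M * q) (one_mul q) _ _

/-- `W j_q = j`. -/
theorem s34w_W_jq [NeZero (M * q)] :
    s34w_W M q K0 hq hM (s34g_jd ↥K0 (M * q) q (dvd_mul_left q M)) = s18_j ↥K0 (M * q) := by
  rw [← s34w_W_j hq hM, s34w_W_W]

/-- **[SS-W]**, existential form. -/
theorem s34w_main (M q : ℕ) [NeZero M] [NeZero q] (hq : q.Prime) (hM : ¬ q ∣ M)
    (K0 : IntermediateField ℚ (AlgebraicClosure ℚ)) :
    ∃ W : ↥(s18_F ↥K0 (M * q)) ≃ₐ[↥K0] ↥(s18_F ↥K0 (M * q)),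
      (∀ f, W (W f) = f) ∧
      (∀ f : ↥(s18_F ↥K0 M), W (heckeAlphaBar ↥K0 M q f) = heckeBetaBar ↥K0 M q f) ∧
      (∀ f : ↥(s18_F ↥K0 M), W (heckeBetaBar ↥K0 M q f) = heckeAlphaBar ↥K0 M q f) ∧
      (∀ (τ0 : ↥K0 ≃ₐ[ℚ] ↥K0) (f : ↥(s18_F ↥K0 (M * q))),
        W (arithmeticGalois (modularFunctionFieldFull (M * q)) τ0 • f) =
          arithmeticGalois (modularFunctionFieldFull (M * q)) τ0 • W f) :=
  ⟨s34w_W M q K0 hq hM, s34w_W_W hq hM, s34w_W_alpha hq hM, s34w_W_beta hq hM,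
    s34w_W_galois hq hM⟩

end Main

end Fermat.Agent.S34
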