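/-
S34, THE LAST WIRING (owner: helper29).  Prefix `s34km_`.  Props + the composition.

THE MODEL DATA at the level `M * q` over the discrete valuation ring `O` of the number field `K0`:

    J   = j · j_q                      (`s34km_J`)
    W_q = the Atkin-Lehner involution  (`s34w_W`, helper8)
    V_∞ = `s34g_V`, V_0 = `s34g_V0 O W_q`, W = V_∞ ⊓ V_0 = `s34g_W2 O W_q`   (helper27)
    𝒱   = {V_∞, V_0}                   (`s34km_Vset`)

FIVE STATEMENTS, one per group of leaves, and the composition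

    theorem s34km_model_of : [K-COORD] → [K-ISW] → [K-VERT] → [K-LOC] → [K-TAU] →
      s34l1_ModelStatement

so that `s34_KDataStatement = s34l1_kdata_of (s34km_model_of …)`.
-/
import Mathlib
import Fermat.Agent.S34.KData
import Fermat.Agent.S34.SsGaussV0
import Fermat.Agent.S34.SsWMain

set_option autoImplicit false
set_option linter.style.haveILetI false
set_option linter.unusedVariables false

open AlgebraicCurve ModularCurve IntermediateField

noncomputable section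

namespace Fermat.Agent.S34

open Fermat.Agent.S18

section data

variable (M q : ℕ) [NeZero M] [NeZero q] [NeZero (M * q)]
  (K0 : IntermediateField ℚ (AlgebraicClosure ℚ))

/-- The coordinate `J = j · j_q` of the model. -/
def s34km_J : ↥(s18_F ↥K0 (M * q)) :=
  s18_j ↥K0 (M * q) * s34g_jd ↥K0 (M * q) q (dvd_mul_left q M)

variable (hq : q.Prime) (hM : ¬ q ∣ M) (O : ValuationSubring ↥K0) [IsDiscreteValuationRing ↥O]

/-- The valuation rings of the generic points of the two components of the special fibre. -/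
def s34km_Vset : Set (ValuationSubring ↥(s18_F ↥K0 (M * q))) :=
  {s34g_V ↥O ↥K0 (M * q), s34g_V0 ↥O (s34w_W M q K0 hq hM)}

end data

/-- **[K-COORD]** `J` is a coordinate. -/
def s34km_CoordStatement : Prop :=
  ∀ (M q : ℕ) [NeZero M] [NeZero q] [NeZero (M * q)], q.Prime → ¬ q ∣ M →
    ∀ (K0 : IntermediateField ℚ (AlgebraicClosure ℚ)),
      Transcendental ↥K0 (s34km_J M q K0) ∧
      FiniteDimensional ↥(↥K0)⟮s34km_J M q K0⟯ ↥(s18_F ↥K0 (M * q))

/-- **[K-ISW]** `W = V_∞ ⊓ V_0` satisfies `s34l_IsW`. -/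
def s34km_IsWStatement : Prop :=
  ∀ (M q : ℕ) [NeZero M] [NeZero q] [NeZero (M * q)] (hq : q.Prime) (hM : ¬ q ∣ M),
    (4 ∣ M ∨ 9 ∣ M) →
    ∀ (K0 : IntermediateField ℚ (AlgebraicClosure ℚ)), FiniteDimensional ℚ ↥K0 →
    ∀ (O : ValuationSubring ↥K0) [IsDiscreteValuationRing ↥O],
      (q : ↥O) ∈ IsLocalRing.maximalIdeal ↥O → ∀ ϖ : ↥O, Irreducible ϖ →
      letI := s18_algOF ↥O ↥K0 (M * q)
      s34l_IsW ↥O (s34km_J M q K0) ϖ (s34g_W2 ↥O (s34w_W M q K0 hq hM))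

/-- **[K-VERT]** the vertical primes of both charts. -/
def s34km_VertStatement : Prop :=
  ∀ (M q : ℕ) [NeZero M] [NeZero q] [NeZero (M * q)] (hq : q.Prime) (hM : ¬ q ∣ M),
    (4 ∣ M ∨ 9 ∣ M) →
    ∀ (K0 : IntermediateField ℚ (AlgebraicClosure ℚ)), FiniteDimensional ℚ ↥K0 →
    ∀ (O : ValuationSubring ↥K0) [IsDiscreteValuationRing ↥O],
      (q : ↥O) ∈ IsLocalRing.maximalIdeal ↥O → ∀ ϖ : ↥O, Irreducible ϖ →
      letI := s18_algOF ↥O ↥K0 (M * q)
      s34l1_IsVert ↥O (s34km_J M q K0) ϖ (s34g_W2 ↥O (s34w_W M q K0 hq hM))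
          (s34km_Vset M q K0 hq hM O) ∧
        s34l1_IsVert ↥O (s34km_J M q K0)⁻¹ ϖ (s34g_W2 ↥O (s34w_W M q K0 hq hM))
          (s34km_Vset M q K0 hq hM O)

/-- **[K-LOC]** the local generators of the places of degree one on both charts. -/
def s34km_LocStatement : Prop :=
  ∀ (M q : ℕ) [NeZero M] [NeZero q] [NeZero (M * q)], q.Prime → ¬ q ∣ M →
    (4 ∣ M ∨ 9 ∣ M) →
    ∀ (K0 : IntermediateField ℚ (AlgebraicClosure ℚ)), FiniteDimensional ℚ ↥K0 →
    ∀ (O : ValuationSubring ↥K0) [IsDiscreteValuationRing ↥O],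
      (q : ↥O) ∈ IsLocalRing.maximalIdeal ↥O → ∀ ϖ : ↥O, Irreducible ϖ →
      letI := s18_algOF ↥O ↥K0 (M * q)
      s34l1_LocStatementAt ↥O ↥K0 (s34km_J M q K0) ϖ ∧
        s34l1_LocStatementAt ↥O ↥K0 (s34km_J M q K0)⁻¹ ϖ

/-- **[K-TAU]** the inertia group acts trivially on the special fibre of both charts. -/
def s34km_TauStatement : Prop :=
  ∀ (M q : ℕ) [NeZero M] [NeZero q] [NeZero (M * q)], q.Prime → ¬ q ∣ M →
    (4 ∣ M ∨ 9 ∣ M) →
    ∀ (K0 : IntermediateField ℚ (AlgebraicClosure ℚ)), FiniteDimensional ℚ ↥K0 →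
    ∀ (O : ValuationSubring ↥K0) [IsDiscreteValuationRing ↥O],
      (q : ↥O) ∈ IsLocalRing.maximalIdeal ↥O → ∀ ϖ : ↥O, Irreducible ϖ →
    ∀ τ0 : ↥K0 ≃ₐ[ℚ] ↥K0,
      (∀ x : ↥O, ∃ y : ↥O, y ∈ IsLocalRing.maximalIdeal ↥O ∧
        (y : ↥K0) = τ0 (x : ↥K0) - x) →
      letI := s18_algOF ↥O ↥K0 (M * q)
      s34l1_IsTau ↥O (s34km_J M q K0) ϖ
          (arithmeticRingAut (modularFunctionFieldFull (M * q)) τ0) ∧
        s34l1_IsTau ↥O (s34km_J M q K0)⁻¹ ϖ
          (arithmeticRingAut (modularFunctionFieldFull (M * q)) τ0)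

/-- **The composition**: the model facts from the five statements. -/
theorem s34km_model_of (hC : s34km_CoordStatement) (hW : s34km_IsWStatement)
    (hV : s34km_VertStatement) (hL : s34km_LocStatement) (hT : s34km_TauStatement) :
    s34l1_ModelStatement := by
  intro M q _ hq hqM h49 K0 hK0 O _ hqO
  haveI : NeZero q := ⟨hq.ne_zero⟩
  haveI : NeZero (M * q) := ⟨Nat.mul_ne_zero (NeZero.ne M) hq.ne_zero⟩
  letI := s18_algOF ↥O ↥K0 (M * q)
  obtain ⟨ϖ, hϖ⟩ := IsDiscreteValuationRing.exists_irreducible ↥O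
  obtain ⟨hC1, hC2⟩ := hC M q hq hqM K0
  obtain ⟨hV1, hV2⟩ := hV M q hq hqM h49 K0 hK0 O hqO ϖ hϖ
  obtain ⟨hL1, hL2⟩ := hL M q hq hqM h49 K0 hK0 O hqO ϖ hϖ
  exact ⟨s34km_J M q K0, ϖ, s34g_W2 ↥O (s34w_W M q K0 hq hqM), s34km_Vset M q K0 hq hqM O, hϖ,
    hC1, hC2, hW M q hq hqM h49 K0 hK0 O hqO ϖ hϖ, hV1, hV2, hL1, hL2,
    fun τ0 hτ0 => hT M q hq hqM h49 K0 hK0 O hqO ϖ hϖ τ0 hτ0⟩

/-- **[K-DATA]** from the five statements. -/
theorem s34km_kdata_of (hC : s34km_CoordStatement) (hW : s34km_IsWStatement)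
    (hV : s34km_VertStatement) (hL : s34km_LocStatement) (hT : s34km_TauStatement) :
    s34_KDataStatement :=
  s34l1_kdata_of (s34km_model_of hC hW hV hL hT)

end Fermat.Agent.S34
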