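/-
S34, THE LAST WIRING, statement (1) [K-COORD] (owner: helper29).  Prefix `s34km_`.

    theorem s34km_coord_main : s34km_CoordStatement

`J = j · j_q` is a coordinate of `F_K(M q) / K`: its `q`-expansion has order `-(q + 1) ≠ 0`, so
`J` is transcendental over `K` (S28 `locO_transcendental`), and `F` is finite over `K(J)` by the
exchange lemma (S24 `coord_isCoordinate_of_transcendental`) applied to the coordinate `j`.
-/
import Mathlib
import Fermat.Agent.S18.GaussQOfBasic
import Fermat.Agent.S18.GaussQOfSpan
import Fermat.Agent.S24.CoordDiv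
import Fermat.Agent.S28.LocalOrder
import Fermat.Agent.S34.KMainDefs

set_option autoImplicit false
set_option linter.style.haveILetI false
set_option linter.unusedSectionVars false

open AlgebraicCurve ModularCurve IntermediateField

noncomputable section

namespace Fermat.Agent.S34

open Fermat.Agent.S18

section coord

variable (K : Type) [Field K] [CharZero K] (N : ℕ) [NeZero N] (d : ℕ) [NeZero d] (hd : d ∣ N)

/-- The `q`-expansion of `j_d`. -/
theorem s34km_jd_coe :
    ((s34g_jd K N d hd : ↥(s18_F K N)) : LaurentSeries K) = qExpand K d (jqModC K) := by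
  show coeffEmb K (qExpand ℚ d jq) = _
  rw [← jqModC_rat]
  show coeffMap (algebraMap ℚ K) (qExpand ℚ d (jqModC ℚ)) = _
  rw [coeffMap_qExpand, coeffMap_jqModC]

/-- The order of the `q`-expansion of `j · j_d` is `-(d + 1)`. -/
theorem s34km_order :
    (((s18_j K N * s34g_jd K N d hd : ↥(s18_F K N)) : ↥(s18_F K N)) : LaurentSeries K).order =
      -((d : ℤ) + 1) := by
  have h1 : (((s18_j K N * s34g_jd K N d hd : ↥(s18_F K N)) : ↥(s18_F K N)) : LaurentSeries K) =
      jqModC K * qExpand K d (jqModC K) := by
    show ((s18_j K N : ↥(s18_F K N)) : LaurentSeries K) *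
      ((s34g_jd K N d hd : ↥(s18_F K N)) : LaurentSeries K) = _
    rw [s18gq_j_coe, s34km_jd_coe]
  have hne : jqModC K ≠ 0 := jqModC_ne_zero_of_nontrivial K
  rw [h1, HahnSeries.order_mul hne (Fermat.Agent.S28.locO_qExpand_ne_zero d hne),
    Fermat.Agent.S28.locO_order_qExpand d _ hne, s18gq_order_jq]
  ring

/-- `j · j_d` is transcendental over `K`. -/
theorem s34km_transc : Transcendental K (s18_j K N * s34g_jd K N d hd) := by
  intro h
  have h2 : IsAlgebraic K
      (((s18_j K N * s34g_jd K N d hd : ↥(s18_F K N)) : ↥(s18_F K N)) : LaurentSeries K) :=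
    (isAlgebraic_algebraMap_iff (A := LaurentSeries K)
      (algebraMap ↥(s18_F K N) (LaurentSeries K)).injective).2 h
  refine Fermat.Agent.S28.locO_transcendental _ ?_ h2
  rw [s34km_order]
  have : (0 : ℤ) ≤ (d : ℤ) := Int.natCast_nonneg d
  omega

/-- `F_K(N)` is finite over `K(j · j_d)`. -/
theorem s34km_finite :
    FiniteDimensional ↥(K⟮s18_j K N * s34g_jd K N d hd⟯) ↥(s18_F K N) :=
  (Fermat.Agent.S24.coord_isCoordinate_of_transcendental
    (⟨s18gq_transc_j K N, s18gq_finite K N⟩ : Fermat.Agent.S24.IsCoordinate K (s18_j K N))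
    (s34km_transc K N d hd)).finite

end coord

/-- **[K-COORD]** -/
theorem s34km_coord_main : s34km_CoordStatement := by
  intro M q _ _ _ hq hM K0
  exact ⟨s34km_transc ↥K0 (M * q) q (dvd_mul_left q M),
    s34km_finite ↥K0 (M * q) q (dvd_mul_left q M)⟩

end Fermat.Agent.S34
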