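/-
S34, leaf [K-TAU], the abstract half (helper3).  Prefix `s34kt_`.

`O` a discrete valuation ring, `K = Frac O`, `σ` an automorphism of `K` with `σ x - x ∈ 𝔪_O` for
all `x ∈ O` (the inertia clause of (USTAR-K)).  Then

  * `s34kt_inertia_symm` : the inverse of `σ` satisfies the same clause;
  * `s34kt_map_mem`      : `σ O ⊆ O`;
  * `s34kt_pi`           : `σ ϖ = η ϖ` with `η ∈ Oˣ` for a uniformizer `ϖ`.

`F` a field over `O`, `τ` a ring endomorphism of `F` which maps the constants of `O` to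
constants of `O` and the elements of `S` into `O[S]`.  Then

  * `s34kt_adjoin_map` : `τ O[S] ⊆ O[S]`;
  * `s34kt_chart_map`  : `τ` maps the chart `s18_chart O S` (the integral closure of `O[S]`)
                         into itself.
-/
import Mathlib
import Fermat.Agent.S18.StarDefs

set_option autoImplicit false
set_option linter.unusedSectionVars false

noncomputable section

namespace Fermat.Agent.S34

open Fermat.Agent.S18

section Inertia

variable {O K : Type*} [CommRing O] [IsDomain O] [IsDiscreteValuationRing O] [Field K]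
  [Algebra O K] [IsFractionRing O K]

/-- `σ O ⊆ O`. -/
theorem s34kt_map_mem (σ : K ≃+* K)
    (hσ : ∀ x : O, ∃ y : O, y ∈ IsLocalRing.maximalIdeal O ∧
      algebraMap O K y = σ (algebraMap O K x) - algebraMap O K x) (x : O) :
    ∃ x' : O, σ (algebraMap O K x) = algebraMap O K x' ∧
      (x' ∈ IsLocalRing.maximalIdeal O ↔ x ∈ IsLocalRing.maximalIdeal O) := by
  obtain ⟨y, hy, h⟩ := hσ x
  refine ⟨x + y, ?_, ?_⟩
  · rw [map_add, h]
    ring
  · exact (IsLocalRing.maximalIdeal O).add_mem_iff_left hy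

/-- `σ⁻¹ O ⊆ O`. -/
theorem s34kt_symm_mem (σ : K ≃+* K)
    (hσ : ∀ x : O, ∃ y : O, y ∈ IsLocalRing.maximalIdeal O ∧
      algebraMap O K y = σ (algebraMap O K x) - algebraMap O K x) (x : O) :
    ∃ z : O, σ.symm (algebraMap O K x) = algebraMap O K z := by
  have hinj : Function.Injective (algebraMap O K) := IsFractionRing.injective O K
  rcases ValuationRing.isInteger_or_isInteger O (σ.symm (algebraMap O K x)) with h | h
  · obtain ⟨z, hz⟩ := h
    exact ⟨z, hz.symm⟩
  · obtain ⟨z, hz⟩ := h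
    by_cases hx : x = 0
    · refine ⟨0, ?_⟩
      simp [hx]
    -- `z = (σ⁻¹ x)⁻¹`, so `σ z = x⁻¹`
    obtain ⟨z', hz', hzm⟩ := s34kt_map_mem σ hσ z
    have hx0 : algebraMap O K x ≠ 0 := fun h0 => hx (hinj (h0.trans (map_zero _).symm))
    have h1 : algebraMap O K z' = (algebraMap O K x)⁻¹ := by
      rw [← hz', hz, map_inv₀, RingEquiv.apply_symm_apply]
    have h2 : z' * x = 1 := by
      apply hinj
      rw [map_mul, h1, map_one, inv_mul_cancel₀ hx0]
    have hz'u : IsUnit z' := IsUnit.of_mul_eq_one x h2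
    have hzu : IsUnit z := by
      by_contra hzn
      have : z ∈ IsLocalRing.maximalIdeal O := (IsLocalRing.mem_maximalIdeal _).2 hzn
      exact (IsLocalRing.mem_maximalIdeal _).1 (hzm.2 this) hz'u
    obtain ⟨u, rfl⟩ := hzu
    refine ⟨((u⁻¹ : Oˣ) : O), ?_⟩
    have h3 : algebraMap O K (u : O) * algebraMap O K ((u⁻¹ : Oˣ) : O) = 1 := by
      rw [← map_mul, Units.mul_inv, map_one]
    have h4 : algebraMap O K (u : O) ≠ 0 := left_ne_zero_of_mul_eq_one h3
    rw [hz] at h3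
    have h5 : (σ.symm (algebraMap O K x))⁻¹ ≠ 0 := by rw [← hz]; exact h4
    have h6 : σ.symm (algebraMap O K x) ≠ 0 := fun h0 => h5 (by rw [h0, inv_zero])
    field_simp at h3
    exact h3.symm

/-- The inverse of `σ` satisfies the inertia clause. -/
theorem s34kt_inertia_symm (σ : K ≃+* K)
    (hσ : ∀ x : O, ∃ y : O, y ∈ IsLocalRing.maximalIdeal O ∧
      algebraMap O K y = σ (algebraMap O K x) - algebraMap O K x) (x : O) :
    ∃ y : O, y ∈ IsLocalRing.maximalIdeal O ∧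
      algebraMap O K y = σ.symm (algebraMap O K x) - algebraMap O K x := by
  obtain ⟨z, hz⟩ := s34kt_symm_mem σ hσ x
  obtain ⟨y, hy, h⟩ := hσ z
  refine ⟨-y, neg_mem hy, ?_⟩
  rw [map_neg, h, hz, ← hz, RingEquiv.apply_symm_apply]
  ring

/-- `σ ϖ = η ϖ` with `η` a unit of `O`. -/
theorem s34kt_pi (σ : K ≃+* K)
    (hσ : ∀ x : O, ∃ y : O, y ∈ IsLocalRing.maximalIdeal O ∧
      algebraMap O K y = σ (algebraMap O K x) - algebraMap O K x) {ϖ : O}
    (hϖ : Irreducible ϖ) :
    ∃ η : O, IsUnit η ∧ σ (algebraMap O K ϖ) = algebraMap O K η * algebraMap O K ϖ := by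
  have hinj : Function.Injective (algebraMap O K) := IsFractionRing.injective O K
  have hmem : ∀ a : O, a ∈ IsLocalRing.maximalIdeal O ↔ ∃ c : O, a = c * ϖ := by
    intro a
    rw [hϖ.maximalIdeal_eq, Ideal.mem_span_singleton']
    exact ⟨fun ⟨c, hc⟩ => ⟨c, hc.symm⟩, fun ⟨c, hc⟩ => ⟨c, hc.symm⟩⟩
  have hϖm : ϖ ∈ IsLocalRing.maximalIdeal O := (hmem ϖ).2 ⟨1, (one_mul ϖ).symm⟩
  -- `σ ϖ = η ϖ`
  obtain ⟨p, hp, hpm⟩ := s34kt_map_mem σ hσ ϖ
  obtain ⟨η, hη⟩ := (hmem p).1 (hpm.2 hϖm)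
  -- `σ⁻¹ ϖ = η' ϖ`
  obtain ⟨p', hp', hpm'⟩ := s34kt_map_mem σ.symm (s34kt_inertia_symm σ hσ) ϖ
  obtain ⟨η', hη'⟩ := (hmem p').1 (hpm'.2 hϖm)
  obtain ⟨η'', hη'', -⟩ := s34kt_map_mem σ hσ η'
  refine ⟨η, ?_, ?_⟩
  · -- `ϖ = σ (σ⁻¹ ϖ) = σ η' · η ϖ`
    have h1 : algebraMap O K ϖ = algebraMap O K (η'' * (η * ϖ)) := by
      have : σ (σ.symm (algebraMap O K ϖ)) = algebraMap O K ϖ := σ.apply_symm_apply _
      rw [hp', hη', map_mul, map_mul, hη'', hp, hη] at this
      rw [map_mul]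
      exact this.symm
    have h2 : ϖ = η'' * (η * ϖ) := hinj h1
    have h3 : (η'' * η) * ϖ = 1 * ϖ := by rw [one_mul, mul_assoc]; exact h2.symm
    have h4 : η'' * η = 1 := mul_right_cancel₀ hϖ.ne_zero h3
    exact IsUnit.of_mul_eq_one η'' (by rw [mul_comm]; exact h4)
  · rw [hp, hη, map_mul]

end Inertia

section Chart

variable {O F : Type*} [CommRing O] [Field F] [Algebra O F]

/-- `τ O[S] ⊆ O[S]`. -/
theorem s34kt_adjoin_map (τ : F →+* F)
    (hO : ∀ a : O, ∃ a' : O, τ (algebraMap O F a) = algebraMap O F a') (S : Set F)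
    (hS : ∀ t ∈ S, τ t ∈ Algebra.adjoin O S) (x : F) (hx : x ∈ Algebra.adjoin O S) :
    τ x ∈ Algebra.adjoin O S := by
  induction hx using Algebra.adjoin_induction with
  | mem x hx => exact hS x hx
  | algebraMap r =>
      obtain ⟨r', hr'⟩ := hO r
      rw [hr']
      exact Subalgebra.algebraMap_mem _ r'
  | add x y _ _ hx hy => rw [map_add]; exact add_mem hx hy
  | mul x y _ _ hx hy => rw [map_mul]; exact mul_mem hx hy

/-- `τ` maps the chart of `S` into itself. -/
theorem s34kt_chart_map (τ : F →+* F)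
    (hO : ∀ a : O, ∃ a' : O, τ (algebraMap O F a) = algebraMap O F a') (S : Set F)
    (hS : ∀ t ∈ S, τ t ∈ Algebra.adjoin O S) (x : F) (hx : x ∈ s18_chart O S) :
    τ x ∈ s18_chart O S := by
  have hx' : IsIntegral ↥(Algebra.adjoin O S) x := hx
  have hmap : ∀ a ∈ Algebra.adjoin O S, τ a ∈ Algebra.adjoin O S :=
    fun a ha => s34kt_adjoin_map τ hO S hS a ha
  exact IsIntegral.map_of_comp_eq
    (RingHom.restrict τ (Algebra.adjoin O S) (Algebra.adjoin O S) hmap) τ
    (RingHom.ext fun a => rfl) hx'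

/-- The chart of a point fixed by `τ`. -/
theorem s34kt_chart_map_singleton (τ : F →+* F)
    (hO : ∀ a : O, ∃ a' : O, τ (algebraMap O F a) = algebraMap O F a') (t : F) (ht : τ t = t)
    (x : F) (hx : x ∈ s18_chart O ({t} : Set F)) : τ x ∈ s18_chart O ({t} : Set F) := by
  refine s34kt_chart_map τ hO _ ?_ x hx
  intro s hs
  rw [Set.mem_singleton_iff.1 hs, ht]
  exact Algebra.subset_adjoin (Set.mem_singleton t)

end Chart

end Fermat.Agent.S34
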