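/-
S34, leaf [K-TAU] (helper3).  Prefix `s34kt_`.

THE INERTIA GROUP ACTS TRIVIALLY ON THE SPECIAL FIBRE OF BOTH CHARTS.

`O` a discrete valuation ring of characteristic zero, `K = Frac O`, `σ : K ≃ₐ[ℚ] K` with
`σ x - x ∈ 𝔪_O` for `x ∈ O`, acting on `F = F_K(N)` through the coefficients of the
`q`-expansion (`τ = arithmeticRingAut`); `W` an involution of `F` commuting with `τ`,
`W2 = V_∞ ⊓ V_0` (helper27); `t ∈ F` with `τ t = t`, `B = s18_chart O {t}`.

  `s34kt_isTau` : if `B ⊆ W2` and `B` is saturated in `W2` (`w ∈ W2`, `π w ∈ B` ⟹ `w ∈ B`), then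
                  `τ B = B`, `τ b - b ∈ π B` for `b ∈ B` and `τ π = η π` with `η ∈ Oˣ`
                  (`s34l1_IsTau O t ϖ τ`, helper29's structure).
  `s34kt_main`  : `s34km_IsWStatement → s34km_TauStatement` (the model: `t = J`, `t = J⁻¹`,
                  `J = j · j_q`, `W` the Atkin-Lehner involution).
-/
import Mathlib
import Fermat.Agent.S34.KMainDefs
import Fermat.Agent.S34.KTauAbs

set_option autoImplicit false
set_option linter.unusedSectionVars false
set_option linter.unusedVariables false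
set_option linter.style.haveILetI false

open AlgebraicCurve ModularCurve IntermediateField

noncomputable section

namespace Fermat.Agent.S34

open Fermat.Agent.S18

section Tau

variable {O K : Type} [CommRing O] [IsDomain O] [IsDiscreteValuationRing O] [Field K]
  [CharZero K] [Algebra O K] [IsFractionRing O K] {N : ℕ} [NeZero N] (σ : K ≃ₐ[ℚ] K)
  (hσ : ∀ x : O, ∃ y : O, y ∈ IsLocalRing.maximalIdeal O ∧
    algebraMap O K y = σ (algebraMap O K x) - algebraMap O K x)

theorem s34kt_tau_apply (y : ↥(s18_F K N)) :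
    arithmeticRingAut (modularFunctionFieldFull N) σ y =
      arithmeticGalois (modularFunctionFieldFull N) σ • y := rfl

theorem s34kt_tau_symm_apply (y : ↥(s18_F K N)) :
    (arithmeticRingAut (modularFunctionFieldFull N) σ).symm y =
      arithmeticRingAut (modularFunctionFieldFull N) σ.symm y := rfl

include hσ in
/-- `τ` maps the constants of `O` to constants of `O`. -/
theorem s34kt_tau_const (a : O) :
    letI := s18_algOF O K N
    ∃ a' : O, arithmeticRingAut (modularFunctionFieldFull N) σ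
      (algebraMap O ↥(s18_F K N) a) = algebraMap O ↥(s18_F K N) a' := by
  letI := s18_algOF O K N
  obtain ⟨a', ha', -⟩ := s34kt_map_mem (σ : K ≃+* K) hσ a
  refine ⟨a', ?_⟩
  show arithmeticRingAut (modularFunctionFieldFull N) σ
    (algebraMap K ↥(s18_F K N) (algebraMap O K a)) =
      algebraMap K ↥(s18_F K N) (algebraMap O K a')
  rw [arithmeticRingAut_algebraMap]
  exact congrArg (algebraMap K ↥(s18_F K N)) ha'

include hσ in
/-- The inertia clause for the inverse of `σ`. -/
theorem s34kt_hsymm (x : O) :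
    ∃ y : O, y ∈ IsLocalRing.maximalIdeal O ∧
      algebraMap O K y = σ.symm (algebraMap O K x) - algebraMap O K x :=
  s34kt_inertia_symm (σ : K ≃+* K) hσ x

include hσ in
/-- `τ π = η π` with `η` a unit of `O`. -/
theorem s34kt_tau_pi {ϖ : O} (hϖ : Irreducible ϖ) :
    letI := s18_algOF O K N
    ∃ η : O, IsUnit η ∧ arithmeticRingAut (modularFunctionFieldFull N) σ
      (algebraMap O ↥(s18_F K N) ϖ) =
        algebraMap O ↥(s18_F K N) η * algebraMap O ↥(s18_F K N) ϖ := by
  letI := s18_algOF O K N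
  obtain ⟨η, hη, h⟩ := s34kt_pi (σ : K ≃+* K) hσ hϖ
  refine ⟨η, hη, ?_⟩
  show arithmeticRingAut (modularFunctionFieldFull N) σ
    (algebraMap K ↥(s18_F K N) (algebraMap O K ϖ)) =
      algebraMap K ↥(s18_F K N) (algebraMap O K η) *
        algebraMap K ↥(s18_F K N) (algebraMap O K ϖ)
  rw [arithmeticRingAut_algebraMap, ← map_mul]
  exact congrArg (algebraMap K ↥(s18_F K N)) h

include hσ in
/-- `τ B ⊆ B` for the chart of a `τ`-fixed function. -/
theorem s34kt_tau_chart (t : ↥(s18_F K N))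
    (ht : arithmeticGalois (modularFunctionFieldFull N) σ • t = t) (b : ↥(s18_F K N))
    (hb : letI := s18_algOF O K N
      b ∈ s18_chart O ({t} : Set ↥(s18_F K N))) :
    letI := s18_algOF O K N
    arithmeticRingAut (modularFunctionFieldFull N) σ b ∈
      s18_chart O ({t} : Set ↥(s18_F K N)) := by
  letI := s18_algOF O K N
  exact s34kt_chart_map_singleton
    ((arithmeticRingAut (modularFunctionFieldFull N) σ : ↥(s18_F K N) ≃+* ↥(s18_F K N)) :
      ↥(s18_F K N) →+* ↥(s18_F K N))
    (fun a => s34kt_tau_const σ hσ a) t ht b hb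

theorem s34kt_symm_fixed (t : ↥(s18_F K N))
    (ht : arithmeticGalois (modularFunctionFieldFull N) σ • t = t) :
    arithmeticGalois (modularFunctionFieldFull N) σ.symm • t = t := by
  have h1 : (arithmeticRingAut (modularFunctionFieldFull N) σ).symm
      (arithmeticRingAut (modularFunctionFieldFull N) σ t) = t :=
    RingEquiv.symm_apply_apply _ t
  rw [s34kt_tau_apply, ht] at h1
  exact h1

include hσ in
/-- **[K-TAU]** for one chart, parametric in the involution `W`: the chart of a `τ`-fixed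
function which lies in `W2 = V_∞ ⊓ V_0` and is saturated in it. -/
theorem s34kt_isTau (W : ↥(s18_F K N) ≃ₐ[K] ↥(s18_F K N))
    (hWσ : ∀ y : ↥(s18_F K N), W (arithmeticGalois (modularFunctionFieldFull N) σ • y) =
      arithmeticGalois (modularFunctionFieldFull N) σ • W y)
    {ϖ : O} (hϖ : Irreducible ϖ) (t : ↥(s18_F K N))
    (ht : arithmeticGalois (modularFunctionFieldFull N) σ • t = t)
    (hle : letI := s18_algOF O K N
      ∀ b ∈ s18_chart O ({t} : Set ↥(s18_F K N)), b ∈ s34g_W2 O W)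
    (hsat : letI := s18_algOF O K N
      ∀ w ∈ s34g_W2 O W, algebraMap O ↥(s18_F K N) ϖ * w ∈
        s18_chart O ({t} : Set ↥(s18_F K N)) → w ∈ s18_chart O ({t} : Set ↥(s18_F K N))) :
    letI := s18_algOF O K N
    s34l1_IsTau O t ϖ (arithmeticRingAut (modularFunctionFieldFull N) σ) := by
  letI := s18_algOF O K N
  refine ⟨fun b hb => s34kt_tau_chart σ hσ t ht b hb, fun b hb => ?_, fun b hb => ?_,
    s34kt_tau_pi σ hσ hϖ⟩
  · rw [s34kt_tau_symm_apply]
    exact s34kt_tau_chart σ.symm (s34kt_hsymm σ hσ) t (s34kt_symm_fixed σ t ht) b hb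
  · obtain ⟨w, hw, h⟩ := s34g_W2_tau_sub σ hσ hWσ hϖ b (hle b hb)
    refine ⟨w, hsat w hw ?_, h⟩
    rw [← h]
    exact sub_mem (s34kt_tau_chart σ hσ t ht b hb) hb

/-- `τ` fixes `J = j · j_d`. -/
theorem s34kt_tau_J (d : ℕ) [NeZero d] (hd : d ∣ N) :
    arithmeticGalois (modularFunctionFieldFull N) σ • (s18_j K N * s34g_jd K N d hd) =
      s18_j K N * s34g_jd K N d hd := by
  rw [smul_mul', s34g_tau_jd, s34g_j_eq, s34g_tau_jd]

theorem s34kt_tau_inv (t : ↥(s18_F K N))
    (ht : arithmeticGalois (modularFunctionFieldFull N) σ • t = t) :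
    arithmeticGalois (modularFunctionFieldFull N) σ • t⁻¹ = t⁻¹ := by
  rw [smul_inv'', ht]

end Tau

/-- **[K-TAU]** for the model, from [K-ISW]. -/
theorem s34kt_main (hW : s34km_IsWStatement) : s34km_TauStatement := by
  intro M q _ _ _ hq hqM h49 K0 hK0 O _ hqO ϖ hϖ τ0 hτ0
  letI := s18_algOF ↥O ↥K0 (M * q)
  have hIsW := hW M q hq hqM h49 K0 hK0 O hqO ϖ hϖ
  have hJ : arithmeticGalois (modularFunctionFieldFull (M * q)) τ0 • s34km_J M q K0 =
      s34km_J M q K0 := s34kt_tau_J τ0 q (dvd_mul_left q M)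
  have hWσ := s34w_W_galois (K0 := K0) hq hqM τ0
  exact ⟨s34kt_isTau τ0 hτ0 (s34w_W M q K0 hq hqM) hWσ hϖ (s34km_J M q K0) hJ
      hIsW.chart_le hIsW.sat,
    s34kt_isTau τ0 hτ0 (s34w_W M q K0 hq hqM) hWσ hϖ (s34km_J M q K0)⁻¹
      (s34kt_tau_inv τ0 _ hJ) hIsW.chart_le' hIsW.sat'⟩

end Fermat.Agent.S34
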