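/-
S34, sub-leaf **[K-EV]** of [K-PLACES] (helper10).  Prefix `s34ev_`.

`O` a discrete valuation ring with field of fractions `K`, `F / K` a function field, `B` an
`O`-algebra inside `F` (a chart), `Q` a place of `F / K` of DEGREE ONE with `B ⊆ O_Q` whose
centre `{b | 0 < ord_Q b}` on `B` lies in a proper ideal `n ∋ ϖ`.  Then the value at `Q` is an
`O`-algebra homomorphism `ev : B → O` (an `O`-point of the chart), its kernel is the centre of
`Q`, and `n` is the inverse image of the maximal ideal of `O` (the closed point through which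
the `O`-point passes).  This is the input `ev` of [LOC-ABS] (`S34/LocAbs.lean`).
-/
import Mathlib
import Fermat.Prelude.Def_AlgebraicCurve_DivisorClassGroup
import Fermat.Agent.S18.LocPP

set_option autoImplicit false

open AlgebraicCurve

noncomputable section

namespace Fermat.Agent.S34

open Fermat.Agent.S18

/-! ### The value at a place of degree one -/

section Val

variable {K F : Type*} [Field K] [Field F] [Algebra K F] (Q : Place K F)

/-- The residue field of a place of degree one is the field of constants. -/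
theorem s34ev_bijective (hdeg : Q.deg = 1) :
    Function.Bijective (algebraMap K Q.ResidueField) := by
  refine ⟨(algebraMap K Q.ResidueField).injective, fun x => ?_⟩
  have h1 : (⊥ : Subalgebra K Q.ResidueField) = ⊤ :=
    Subalgebra.bot_eq_top_of_finrank_eq_one hdeg
  have h2 : x ∈ (⊥ : Subalgebra K Q.ResidueField) := by rw [h1]; exact Algebra.mem_top
  exact Algebra.mem_bot.1 h2

/-- The value at a place of degree one, on its valuation ring. -/
def s34ev_val (hdeg : Q.deg = 1) : ↥Q.toValuationSubring →+* K :=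
  ((RingEquiv.ofBijective (algebraMap K Q.ResidueField) (s34ev_bijective Q hdeg)).symm :
    Q.ResidueField →+* K).comp (IsLocalRing.residue ↥Q.toValuationSubring)

theorem s34ev_val_algebraMap (hdeg : Q.deg = 1) (c : K) :
    s34ev_val Q hdeg (algebraMap K ↥Q.toValuationSubring c) = c := by
  unfold s34ev_val
  rw [RingHom.comp_apply, RingHom.coe_coe, RingEquiv.symm_apply_eq]
  rfl

theorem s34ev_val_eq_zero_iff (hdeg : Q.deg = 1) (x : ↥Q.toValuationSubring) :
    s34ev_val Q hdeg x = 0 ↔ x ∈ IsLocalRing.maximalIdeal ↥Q.toValuationSubring := by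
  unfold s34ev_val
  rw [RingHom.comp_apply, RingHom.coe_coe, map_eq_zero_iff _ (RingEquiv.injective _),
    IsLocalRing.residue_eq_zero_iff]

/-- The value at a place of degree one in terms of the order. -/
theorem s34ev_val_eq_zero_iff_ord (hdeg : Q.deg = 1) (x : F) (hx : x ∈ Q.toValuationSubring) :
    s34ev_val Q hdeg ⟨x, hx⟩ = 0 ↔ x = 0 ∨ 0 < Q.ord x := by
  rw [s34ev_val_eq_zero_iff]
  rcases eq_or_ne x 0 with rfl | hx0
  · simp only [true_or, iff_true]
    exact zero_mem _
  · rw [← s18lpp_ord_pos_iff Q hx0 hx]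
    simp [hx0]

end Val

/-! ### The `O`-point of a chart -/

section Ev

variable {O K F B : Type*} [CommRing O] [IsDomain O] [IsDiscreteValuationRing O] [Field K]
  [Algebra O K] [IsFractionRing O K] [Field F] [Algebra K F] [Algebra O F] [IsScalarTower O K F]
  [CommRing B] [Algebra O B] [Algebra B F] [IsScalarTower O B F]

/-- The value at `Q` on the chart, with values in `K`. -/
def s34ev_evK (Q : Place K F) (hdeg : Q.deg = 1)
    (hB : ∀ b : B, 0 ≤ Q.ord (algebraMap B F b)) : B →+* K :=
  (s34ev_val Q hdeg).comp ((algebraMap B F).codRestrict Q.toValuationSubring.toSubring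
    (fun b => s18lpp_mem_of_ord_nonneg Q (hB b)))

omit [IsDomain O] [IsDiscreteValuationRing O] [IsFractionRing O K] in
theorem s34ev_evK_algebraMap (Q : Place K F) (hdeg : Q.deg = 1)
    (hB : ∀ b : B, 0 ≤ Q.ord (algebraMap B F b)) (a : O) :
    s34ev_evK Q hdeg hB (algebraMap O B a) = algebraMap O K a := by
  unfold s34ev_evK
  rw [RingHom.comp_apply]
  have h : (algebraMap B F).codRestrict Q.toValuationSubring.toSubring
      (fun b => s18lpp_mem_of_ord_nonneg Q (hB b)) (algebraMap O B a) =
      algebraMap K ↥Q.toValuationSubring (algebraMap O K a) := by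
    apply Subtype.ext
    show algebraMap B F (algebraMap O B a) = algebraMap K F (algebraMap O K a)
    rw [← IsScalarTower.algebraMap_apply, ← IsScalarTower.algebraMap_apply]
  rw [h, s34ev_val_algebraMap]

theorem s34ev_evK_eq_zero_iff (Q : Place K F) (hdeg : Q.deg = 1)
    (hB : ∀ b : B, 0 ≤ Q.ord (algebraMap B F b)) (b : B) :
    s34ev_evK Q hdeg hB b = 0 ↔ algebraMap B F b = 0 ∨ 0 < Q.ord (algebraMap B F b) := by
  unfold s34ev_evK
  rw [RingHom.comp_apply]
  exact s34ev_val_eq_zero_iff_ord Q hdeg (algebraMap B F b) _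

/-- The values of the chart at `Q` lie in `O`. -/
theorem s34ev_evK_mem (Q : Place K F) (hdeg : Q.deg = 1)
    (hB : ∀ b : B, 0 ≤ Q.ord (algebraMap B F b)) {ϖ : O} (hϖ : Irreducible ϖ)
    (n : Ideal B) (hn : n ≠ ⊤) (hπ : algebraMap O B ϖ ∈ n)
    (hQn : ∀ b : B, algebraMap B F b = 0 ∨ 0 < Q.ord (algebraMap B F b) → b ∈ n) (b : B) :
    ∃ a : O, algebraMap O K a = s34ev_evK Q hdeg hB b := by
  by_cases hc0 : s34ev_evK Q hdeg hB b = 0
  · exact ⟨0, by rw [hc0, map_zero]⟩
  rcases ValuationRing.isInteger_or_isInteger O (s34ev_evK Q hdeg hB b) with ⟨a, ha⟩ | ⟨a, ha⟩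
  · exact ⟨a, ha⟩
  · by_cases hau : IsUnit a
    · obtain ⟨u, rfl⟩ := hau
      refine ⟨((u⁻¹ : Oˣ) : O), ?_⟩
      have h1 : algebraMap O K (u : O) * algebraMap O K ((u⁻¹ : Oˣ) : O) = 1 := by
        rw [← map_mul, Units.mul_inv, map_one]
      rw [ha] at h1
      rw [← mul_one (algebraMap O K ((u⁻¹ : Oˣ) : O)), ← mul_inv_cancel₀ hc0, ← mul_assoc,
        mul_comm (algebraMap O K ((u⁻¹ : Oˣ) : O)), mul_assoc, mul_comm _ (s34ev_evK Q hdeg hB b)⁻¹,
        h1, mul_one]
    · exfalso
      -- `a ∈ 𝔪_O = (ϖ)`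
      have ham : a ∈ IsLocalRing.maximalIdeal O := (IsLocalRing.mem_maximalIdeal a).2 hau
      rw [hϖ.maximalIdeal_eq, Ideal.mem_span_singleton] at ham
      obtain ⟨a', rfl⟩ := ham
      have han : algebraMap O B (ϖ * a') ∈ n := by
        rw [map_mul]
        exact n.mul_mem_right _ hπ
      have h1 : s34ev_evK Q hdeg hB (algebraMap O B (ϖ * a') * b - 1) = 0 := by
        rw [map_sub, map_mul, map_one, s34ev_evK_algebraMap, ha, inv_mul_cancel₀ hc0, sub_self]
      have h2 : algebraMap O B (ϖ * a') * b - 1 ∈ n :=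
        hQn _ ((s34ev_evK_eq_zero_iff Q hdeg hB _).1 h1)
      have h3 : (1 : B) ∈ n := by
        have := n.sub_mem (n.mul_mem_right b han) h2
        simpa using this
      exact hn ((Ideal.eq_top_iff_one n).2 h3)

/-- **[K-EV]** the `O`-point of the chart `B` defined by a place `Q` of degree one whose centre
on `B` lies in the proper ideal `n ∋ ϖ`. -/
theorem s34ev_main (Q : Place K F) (hdeg : Q.deg = 1)
    (hB : ∀ b : B, 0 ≤ Q.ord (algebraMap B F b)) {ϖ : O} (hϖ : Irreducible ϖ)
    (n : Ideal B) (hn : n ≠ ⊤) (hπ : algebraMap O B ϖ ∈ n)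
    (hQn : ∀ b : B, algebraMap B F b = 0 ∨ 0 < Q.ord (algebraMap B F b) → b ∈ n) :
    ∃ ev : B →ₐ[O] O,
      (∀ b, algebraMap O K (ev b) = s34ev_evK Q hdeg hB b) ∧
      (∀ b, ev b = 0 ↔ algebraMap B F b = 0 ∨ 0 < Q.ord (algebraMap B F b)) ∧
      (∀ b, b ∈ n ↔ ev b ∈ IsLocalRing.maximalIdeal O) := by
  classical
  have hinj : Function.Injective (algebraMap O K) := IsFractionRing.injective O K
  have hmem := s34ev_evK_mem Q hdeg hB hϖ n hn hπ hQn
  choose e he using hmem
  have hadd : ∀ x y, e (x + y) = e x + e y := fun x y =>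
    hinj (by rw [he, map_add, map_add, he, he])
  have hmul : ∀ x y, e (x * y) = e x * e y := fun x y =>
    hinj (by rw [he, map_mul, map_mul, he, he])
  have hone : e 1 = 1 := hinj (by rw [he, map_one, map_one])
  have hzero : e 0 = 0 := hinj (by rw [he, map_zero, map_zero])
  have hcomm : ∀ a : O, e (algebraMap O B a) = a := fun a =>
    hinj (by rw [he, s34ev_evK_algebraMap])
  let ev : B →ₐ[O] O :=
    { toFun := e
      map_one' := hone
      map_mul' := hmul
      map_zero' := hzero
      map_add' := hadd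
      commutes' := hcomm }
  have hev : ∀ b, ev b = e b := fun _ => rfl
  have hker : ∀ b, ev b = 0 ↔ algebraMap B F b = 0 ∨ 0 < Q.ord (algebraMap B F b) := by
    intro b
    rw [← s34ev_evK_eq_zero_iff Q hdeg hB b, ← he b, hev]
    constructor
    · intro h
      rw [h, map_zero]
    · intro h
      exact hinj (h.trans (map_zero _).symm)
  refine ⟨ev, fun b => he b, hker, fun b => ?_⟩
  have hsub : b - algebraMap O B (ev b) ∈ n := by
    apply hQn
    rw [← hker, map_sub, AlgHom.commutes, Algebra.algebraMap_self, RingHom.id_apply, sub_self]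
  constructor
  · intro hb
    rw [IsLocalRing.mem_maximalIdeal, mem_nonunits_iff]
    intro hu
    have h1 : algebraMap O B (ev b) ∈ n := by
      have := n.sub_mem hb hsub
      simpa using this
    exact hn (Ideal.eq_top_of_isUnit_mem n h1 (hu.map (algebraMap O B)))
  · intro hb
    rw [hϖ.maximalIdeal_eq, Ideal.mem_span_singleton] at hb
    obtain ⟨a', ha'⟩ := hb
    have h1 : algebraMap O B (ev b) ∈ n := by
      rw [ha', map_mul]
      exact n.mul_mem_right _ hπ
    have := n.add_mem hsub h1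
    simpa using this

/-- **[K-EV]**, ideal form: the centre `q` of `Q` on `B` is the kernel of the `O`-point, and
`n` is the inverse image of the maximal ideal of `O`. -/
theorem s34ev_of_centre (hinj : Function.Injective (algebraMap B F)) (Q : Place K F)
    (hdeg : Q.deg = 1) (hB : ∀ b : B, 0 ≤ Q.ord (algebraMap B F b)) {ϖ : O} (hϖ : Irreducible ϖ)
    (n : Ideal B) (hn : n ≠ ⊤) (hπ : algebraMap O B ϖ ∈ n) (q : Ideal B)
    (hq : ∀ b : B, b ∈ q ↔ b = 0 ∨ 0 < Q.ord (algebraMap B F b)) (hqn : q ≤ n) :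
    ∃ ev : B →ₐ[O] O, RingHom.ker (ev : B →+* O) = q ∧
      n = (IsLocalRing.maximalIdeal O).comap (ev : B →+* O) ∧
      (∀ b, ev b = 0 ↔ b ∈ q) ∧ (∀ b, b ∈ n ↔ ev b ∈ IsLocalRing.maximalIdeal O) := by
  have hz : ∀ b : B, algebraMap B F b = 0 ↔ b = 0 := fun b =>
    ⟨fun h => hinj (h.trans (map_zero _).symm), fun h => by rw [h, map_zero]⟩
  have hQn : ∀ b : B, algebraMap B F b = 0 ∨ 0 < Q.ord (algebraMap B F b) → b ∈ n := by
    intro b hb
    rw [hz] at hb
    exact hqn ((hq b).2 hb)
  obtain ⟨ev, -, hker, hnn⟩ := s34ev_main Q hdeg hB hϖ n hn hπ hQn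
  have hker' : ∀ b, ev b = 0 ↔ b ∈ q := fun b => by rw [hker, hz, hq]
  refine ⟨ev, ?_, ?_, hker', hnn⟩
  · ext b
    rw [RingHom.mem_ker]
    exact hker' b
  · ext b
    rw [Ideal.mem_comap]
    exact hnn b

end Ev

end Fermat.Agent.S34
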