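/-
S34 [LOC-DER] (helper21), part 1: the Taylor embedding.  Prefix `s34ld_`.  Mathlib only.

`A` a domain containing a field `K`, `t : A` a "parameter": every non-unit is a multiple of `t`,
every element is a constant modulo the non-units, `⋂ tⁿ A = 0`.  Then the Taylor coefficients
define an injective `K`-algebra homomorphism `s34ld_iota : A →ₐ[K] K⟦X⟧` with `t ↦ X`, and
divisibility in `A` can be read off in `K⟦X⟧` (`s34ld_dvd_of_iota`).
-/
import Mathlib

set_option autoImplicit false

noncomputable section

namespace Fermat.Agent.S34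

open Polynomial

/-- `t` is a parameter of the local `K`-algebra `A` with residue field `K`. -/
structure s34ld_IsParam (K : Type*) {A : Type*} [Field K] [CommRing A] [Algebra K A]
    (t : A) : Prop where
  loc : ∀ x : A, ¬ IsUnit x → ∃ y : A, x = t * y
  res : ∀ x : A, ∃ a : K, ¬ IsUnit (x - algebraMap K A a)
  sep : ∀ x : A, (∀ n : ℕ, ∃ y : A, x = t ^ n * y) → x = 0
  ne_zero : t ≠ 0
  nonunit : ¬ IsUnit t

set_option linter.unusedSectionVars false

variable {K : Type*} {A : Type*} [Field K] [CommRing A] [IsDomain A] [Algebra K A] {t : A}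

namespace s34ld_IsParam

variable (h : s34ld_IsParam K t)
include h

theorem decomp (x : A) : ∃ a : K, ∃ y : A, x = algebraMap K A a + t * y := by
  obtain ⟨a, ha⟩ := h.res x
  obtain ⟨y, hy⟩ := h.loc _ ha
  exact ⟨a, y, by rw [← hy]; ring⟩

theorem const_eq_zero {a : K} {y : A} (hay : algebraMap K A a = t * y) : a = 0 := by
  by_contra ha
  have hu : IsUnit (algebraMap K A a) := (IsUnit.mk0 a ha).map (algebraMap K A)
  rw [hay] at hu
  exact h.nonunit (isUnit_of_mul_isUnit_left hu)

theorem decomp_unique {a a' : K} {y y' : A}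
    (e : algebraMap K A a + t * y = algebraMap K A a' + t * y') : a = a' ∧ y = y' := by
  have h1 : algebraMap K A (a - a') = t * (y' - y) := by
    rw [map_sub]; linear_combination e
  have h2 : a - a' = 0 := h.const_eq_zero h1
  have h3 : a = a' := sub_eq_zero.mp h2
  refine ⟨h3, ?_⟩
  subst h3
  have h4 : t * y = t * y' := by linear_combination e
  exact mul_left_cancel₀ h.ne_zero h4

end s34ld_IsParam

/-- The constant term. -/
def s34ld_res (h : s34ld_IsParam K t) (x : A) : K := (h.decomp x).choose

/-- The Taylor remainder `(x - x(0)) / t`. -/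
def s34ld_step (h : s34ld_IsParam K t) (x : A) : A := (h.decomp x).choose_spec.choose

theorem s34ld_decomp_spec (h : s34ld_IsParam K t) (x : A) :
    x = algebraMap K A (s34ld_res h x) + t * s34ld_step h x :=
  (h.decomp x).choose_spec.choose_spec

theorem s34ld_res_eq (h : s34ld_IsParam K t) {x : A} {a : K} {y : A}
    (e : x = algebraMap K A a + t * y) : s34ld_res h x = a ∧ s34ld_step h x = y :=
  h.decomp_unique ((s34ld_decomp_spec h x).symm.trans e)

/-- The `n`-th Taylor remainder. -/
def s34ld_rem (h : s34ld_IsParam K t) (n : ℕ) (x : A) : A := (s34ld_step h)^[n] x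

/-- The Taylor series. -/
def s34ld_series (h : s34ld_IsParam K t) (x : A) : PowerSeries K :=
  PowerSeries.mk fun n => s34ld_res h (s34ld_rem h n x)

theorem s34ld_rem_succ (h : s34ld_IsParam K t) (n : ℕ) (x : A) :
    s34ld_rem h (n + 1) x = s34ld_step h (s34ld_rem h n x) := by
  simp only [s34ld_rem, Function.iterate_succ_apply']

theorem s34ld_trunc_succ (s : PowerSeries K) (n : ℕ) :
    PowerSeries.trunc (n + 1) s = PowerSeries.trunc n s + monomial n (PowerSeries.coeff n s) :=
  PowerSeries.trunc_succ s n

/-- The Taylor formula. -/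
theorem s34ld_taylor (h : s34ld_IsParam K t) (n : ℕ) (x : A) :
    x = aeval t (PowerSeries.trunc n (s34ld_series h x)) + t ^ n * s34ld_rem h n x := by
  induction n with
  | zero =>
    simp [s34ld_rem]
  | succ n ih =>
    rw [s34ld_trunc_succ, map_add, aeval_monomial, s34ld_rem_succ]
    have e := s34ld_decomp_spec h (s34ld_rem h n x)
    have e2 : PowerSeries.coeff n (s34ld_series h x) = s34ld_res h (s34ld_rem h n x) := by
      simp [s34ld_series]
    rw [e2]
    calc x = aeval t (PowerSeries.trunc n (s34ld_series h x)) + t ^ n * s34ld_rem h n x := ih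
      _ = aeval t (PowerSeries.trunc n (s34ld_series h x)) +
          t ^ n * (algebraMap K A (s34ld_res h (s34ld_rem h n x)) +
            t * s34ld_step h (s34ld_rem h n x)) := by rw [← e]
      _ = _ := by ring

/-- A polynomial of degree `< n` whose value at `t` is divisible by `tⁿ` vanishes. -/
theorem s34ld_poly_eq_zero (h : s34ld_IsParam K t) :
    ∀ (n : ℕ) (p : K[X]), p.natDegree < n → (∃ y : A, aeval t p = t ^ n * y) → p = 0 := by
  intro n
  induction n with
  | zero => intro p hp; exact absurd hp (Nat.not_lt_zero _)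
  | succ n ih =>
    intro p hp ⟨y, hy⟩
    have hp0 : p = p.divX * X + C (p.coeff 0) := (Polynomial.divX_mul_X_add p).symm
    have e1 : aeval t p = aeval t p.divX * t + algebraMap K A (p.coeff 0) := by
      conv_lhs => rw [hp0]
      simp [Polynomial.aeval_C]
    have e2 : algebraMap K A (p.coeff 0) = t * (t ^ n * y - aeval t p.divX) := by
      have : aeval t p.divX * t + algebraMap K A (p.coeff 0) = t ^ (n + 1) * y := by
        rw [← e1, hy]
      rw [pow_succ] at this
      linear_combination this
    have e3 : p.coeff 0 = 0 := h.const_eq_zero e2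
    have e4 : t * aeval t p.divX = t * (t ^ n * y) := by
      rw [e3, map_zero] at e2
      linear_combination e2
    have e5 : aeval t p.divX = t ^ n * y := mul_left_cancel₀ h.ne_zero e4
    by_cases hd : p.divX = 0
    · rw [hp0, hd, e3]; simp
    · have hdeg : p.divX.natDegree < n := by
        have := Polynomial.natDegree_divX_eq_natDegree_tsub_one (p := p)
        have hpd : p.natDegree ≠ 0 := by
          intro h0
          apply hd
          rw [Polynomial.divX_eq_zero_iff]
          rw [Polynomial.eq_C_of_natDegree_eq_zero h0]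
          simp
        omega
      have := ih p.divX hdeg ⟨y, e5⟩
      exact absurd this hd

/-- Characterisation of the Taylor series by its approximation property. -/
theorem s34ld_series_eq (h : s34ld_IsParam K t) (x : A) (s : PowerSeries K)
    (hs : ∀ n : ℕ, ∃ y : A, x = aeval t (PowerSeries.trunc n s) + t ^ n * y) :
    s34ld_series h x = s := by
  ext n
  obtain ⟨y, hy⟩ := hs (n + 1)
  have e := s34ld_taylor h (n + 1) x
  have hsub : aeval t (PowerSeries.trunc (n + 1) (s34ld_series h x) -
      PowerSeries.trunc (n + 1) s) = t ^ (n + 1) * (y - s34ld_rem h (n + 1) x) := by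
    rw [map_sub]
    have : aeval t (PowerSeries.trunc (n + 1) (s34ld_series h x)) +
        t ^ (n + 1) * s34ld_rem h (n + 1) x =
        aeval t (PowerSeries.trunc (n + 1) s) + t ^ (n + 1) * y := by
      rw [← e, ← hy]
    linear_combination this
  have hdeg : (PowerSeries.trunc (n + 1) (s34ld_series h x) -
      PowerSeries.trunc (n + 1) s).natDegree < n + 1 := by
    refine lt_of_le_of_lt (Polynomial.natDegree_sub_le _ _) ?_
    rw [max_lt_iff]
    exact ⟨PowerSeries.natDegree_trunc_lt _ _, PowerSeries.natDegree_trunc_lt _ _⟩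
  have hz := s34ld_poly_eq_zero h (n + 1) _ hdeg ⟨_, hsub⟩
  have hc := congrArg (fun p : K[X] => p.coeff n) hz
  simp only [Polynomial.coeff_sub, Polynomial.coeff_zero] at hc
  rw [PowerSeries.coeff_trunc, PowerSeries.coeff_trunc, if_pos (Nat.lt_succ_self n),
    if_pos (Nat.lt_succ_self n)] at hc
  exact sub_eq_zero.mp hc


theorem s34ld_poly_trunc (n : ℕ) (p : K[X]) :
    ∃ q : K[X], p = PowerSeries.trunc n (p : PowerSeries K) + X ^ n * q := by
  have hdvd : (X : K[X]) ^ n ∣ p - PowerSeries.trunc n (p : PowerSeries K) := by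
    rw [Polynomial.X_pow_dvd_iff]
    intro d hd
    rw [Polynomial.coeff_sub, PowerSeries.coeff_trunc, if_pos hd, Polynomial.coeff_coe, sub_self]
  obtain ⟨q, hq⟩ := hdvd
  exact ⟨q, by rw [← hq]; ring⟩

theorem s34ld_series_add (h : s34ld_IsParam K t) (x y : A) :
    s34ld_series h (x + y) = s34ld_series h x + s34ld_series h y := by
  apply s34ld_series_eq
  intro n
  refine ⟨s34ld_rem h n x + s34ld_rem h n y, ?_⟩
  rw [map_add, map_add]
  have ex := s34ld_taylor h n x
  have ey := s34ld_taylor h n y
  linear_combination ex + ey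

theorem s34ld_series_mul (h : s34ld_IsParam K t) (x y : A) :
    s34ld_series h (x * y) = s34ld_series h x * s34ld_series h y := by
  apply s34ld_series_eq
  intro n
  obtain ⟨q, hq⟩ := s34ld_poly_trunc n
    (PowerSeries.trunc n (s34ld_series h x) * PowerSeries.trunc n (s34ld_series h y))
  have hq' : PowerSeries.trunc n (s34ld_series h x) * PowerSeries.trunc n (s34ld_series h y) =
      PowerSeries.trunc n (s34ld_series h x * s34ld_series h y) + X ^ n * q := by
    conv_lhs => rw [hq]
    rw [Polynomial.coe_mul, PowerSeries.trunc_trunc_mul_trunc]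
  have hq'' := congrArg (aeval t) hq'
  simp only [map_mul, map_add, map_pow, aeval_X] at hq''
  have ex := s34ld_taylor h n x
  have ey := s34ld_taylor h n y
  refine ⟨aeval t (PowerSeries.trunc n (s34ld_series h x)) * s34ld_rem h n y +
    aeval t (PowerSeries.trunc n (s34ld_series h y)) * s34ld_rem h n x +
    t ^ n * s34ld_rem h n x * s34ld_rem h n y + aeval t q, ?_⟩
  rw [← sub_eq_zero]
  have key : x * y - (aeval t (PowerSeries.trunc n (s34ld_series h x)) +
      t ^ n * s34ld_rem h n x) * (aeval t (PowerSeries.trunc n (s34ld_series h y)) +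
      t ^ n * s34ld_rem h n y) = 0 := by
    rw [← ex, ← ey]; ring
  linear_combination key + hq''

theorem s34ld_series_algebraMap (h : s34ld_IsParam K t) (a : K) :
    s34ld_series h (algebraMap K A a) = PowerSeries.C a := by
  apply s34ld_series_eq
  intro n
  cases n with
  | zero => exact ⟨algebraMap K A a, by simp⟩
  | succ n => exact ⟨0, by rw [PowerSeries.trunc_C]; simp⟩

theorem s34ld_series_t (h : s34ld_IsParam K t) : s34ld_series h t = PowerSeries.X := by
  apply s34ld_series_eq
  intro n
  match n with
  | 0 => exact ⟨t, by simp⟩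
  | 1 => exact ⟨1, by simp⟩
  | n + 2 => exact ⟨0, by rw [PowerSeries.trunc_X]; simp⟩

/-- **The Taylor embedding.** -/
def s34ld_iota (h : s34ld_IsParam K t) : A →ₐ[K] PowerSeries K where
  toFun := s34ld_series h
  map_one' := by
    have := s34ld_series_algebraMap h 1
    rwa [map_one, map_one] at this
  map_mul' := s34ld_series_mul h
  map_zero' := by
    have := s34ld_series_algebraMap h 0
    rwa [map_zero, map_zero] at this
  map_add' := s34ld_series_add h
  commutes' a := by
    rw [s34ld_series_algebraMap]
    rfl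

@[simp] theorem s34ld_iota_apply (h : s34ld_IsParam K t) (x : A) :
    s34ld_iota h x = s34ld_series h x := rfl

theorem s34ld_iota_t (h : s34ld_IsParam K t) : s34ld_iota h t = PowerSeries.X :=
  s34ld_series_t h

theorem s34ld_iota_injective (h : s34ld_IsParam K t) : Function.Injective (s34ld_iota h) := by
  rw [injective_iff_map_eq_zero]
  intro x hx
  apply h.sep
  intro n
  refine ⟨s34ld_rem h n x, ?_⟩
  have e := s34ld_taylor h n x
  rw [s34ld_iota_apply] at hx
  rw [hx] at e
  simpa using e

theorem s34ld_constantCoeff (h : s34ld_IsParam K t) (x : A) :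
    PowerSeries.constantCoeff (s34ld_iota h x) = s34ld_res h x := by
  rw [s34ld_iota_apply, ← PowerSeries.coeff_zero_eq_constantCoeff_apply]
  simp [s34ld_series, s34ld_rem]

theorem s34ld_exists_pow_unit (h : s34ld_IsParam K t) {b : A} (hb : b ≠ 0) :
    ∃ (n : ℕ) (u : A), IsUnit u ∧ b = t ^ n * u := by
  classical
  have hex : ∃ n : ℕ, ¬ ∃ y : A, b = t ^ n * y := by
    by_contra hcon
    push Not at hcon
    exact hb (h.sep b hcon)
  have hn0 : Nat.find hex ≠ 0 := by
    intro h0
    have := Nat.find_spec hex
    rw [h0] at this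
    exact this ⟨b, by simp⟩
  obtain ⟨m, hm⟩ := Nat.exists_eq_succ_of_ne_zero hn0
  have hlt : m < Nat.find hex := by omega
  have hm' := Nat.find_min hex hlt
  push Not at hm'
  obtain ⟨y, hy⟩ := hm'
  refine ⟨m, y, ?_, hy⟩
  by_contra hu
  obtain ⟨z, hz⟩ := h.loc y hu
  have := Nat.find_spec hex
  apply this
  refine ⟨z, ?_⟩
  rw [hm, hy, hz, pow_succ]
  ring

/-- Divisibility can be read off after the Taylor embedding. -/
theorem s34ld_dvd_of_iota (h : s34ld_IsParam K t) {a b : A} (hb : b ≠ 0) (s : PowerSeries K)
    (e : s34ld_iota h a = s * s34ld_iota h b) : ∃ c : A, a = c * b := by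
  obtain ⟨n, u, hu, rfl⟩ := s34ld_exists_pow_unit h hb
  clear hb
  induction n generalizing a with
  | zero =>
    obtain ⟨v, rfl⟩ := hu
    exact ⟨a * ↑v⁻¹, by simp [mul_assoc]⟩
  | succ n ih =>
    have e1 : s34ld_iota h (t ^ (n + 1) * u) = PowerSeries.X * s34ld_iota h (t ^ n * u) := by
      rw [pow_succ, mul_comm (t ^ n) t, mul_assoc, map_mul, s34ld_iota_t]
    have e2 : PowerSeries.constantCoeff (s34ld_iota h a) = 0 := by
      rw [e, e1]
      simp
    rw [s34ld_constantCoeff] at e2
    have e3 : a = t * s34ld_step h a := by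
      have := s34ld_decomp_spec h a
      rw [e2, map_zero, zero_add] at this
      exact this
    have e4 : PowerSeries.X * s34ld_iota h (s34ld_step h a) =
        PowerSeries.X * (s * s34ld_iota h (t ^ n * u)) := by
      rw [← s34ld_iota_t h, ← map_mul, ← e3, e, e1, s34ld_iota_t]
      ring
    have e5 := mul_left_cancel₀ PowerSeries.X_ne_zero e4
    obtain ⟨c, hc⟩ := ih e5
    refine ⟨c, ?_⟩
    rw [e3, hc, pow_succ]
    ring

end Fermat.Agent.S34
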