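/-
S34 [LOC-DER] (helper21), part 2: the derivation `d/dt` on a local `K`-algebra `A` with
parameter `t`, residue field `K`, all of whose elements are separably algebraic over `K[t]`.
Prefix `s34ld_`.  Mathlib only.

`s34ld_D h ha : Derivation K A A` with `s34ld_D h ha t = 1`; it is the pull-back of the formal
derivative along the Taylor embedding `s34ld_iota`.
-/
import Mathlib
import Fermat.Agent.S34.LocDerTaylor

set_option autoImplicit false
set_option linter.unusedSectionVars false

noncomputable section

namespace Fermat.Agent.S34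

open Polynomial

/-- The chain rule for the formal derivative of `P(X, g)`, `P ∈ K[X][Y]`. -/
theorem s34ld_chain {K : Type*} [Field K] (P : Polynomial (Polynomial K)) :
    ∃ Q : Polynomial (Polynomial K), ∀ g : PowerSeries K,
      PowerSeries.derivative K (eval₂ (Polynomial.coeToPowerSeries.ringHom (R := K)) g P) =
        eval₂ (Polynomial.coeToPowerSeries.ringHom (R := K)) g Q +
          eval₂ (Polynomial.coeToPowerSeries.ringHom (R := K)) g (derivative P) *
            PowerSeries.derivative K g := by
  induction P using Polynomial.induction_on' with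
  | add p q hp hq =>
    obtain ⟨Q₁, h₁⟩ := hp
    obtain ⟨Q₂, h₂⟩ := hq
    refine ⟨Q₁ + Q₂, fun g => ?_⟩
    rw [eval₂_add, map_add, h₁, h₂, eval₂_add, derivative_add, eval₂_add]
    ring
  | monomial n p =>
    refine ⟨monomial n (derivative p), fun g => ?_⟩
    rw [eval₂_monomial, eval₂_monomial, derivative_monomial, eval₂_monomial,
      Derivation.leibniz, Derivation.leibniz_pow]
    have hn : ((n : K[X]) : PowerSeries K) = (n : PowerSeries K) :=
      map_natCast (Polynomial.coeToPowerSeries.ringHom (R := K)) n
    simp only [Polynomial.coeToPowerSeries.ringHom_apply, smul_eq_mul, nsmul_eq_mul,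
      PowerSeries.derivative_coe, Polynomial.coe_mul, hn]
    ring

variable {K : Type*} {A : Type*} [Field K] [CommRing A] [IsDomain A] [Algebra K A] {t : A}

/-- The coefficient homomorphism `K[X] → A`, `X ↦ t`. -/
def s34ld_ev (K : Type*) {A : Type*} [Field K] [CommRing A] [Algebra K A] (t : A) :
    K[X] →+* A := (aeval t : K[X] →ₐ[K] A).toRingHom

@[simp] theorem s34ld_ev_apply (p : K[X]) : s34ld_ev K t p = aeval t p := rfl

theorem s34ld_iota_comp (h : s34ld_IsParam K t) :
    (s34ld_iota h).toRingHom.comp (s34ld_ev K t) =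
      Polynomial.coeToPowerSeries.ringHom (R := K) := by
  apply Polynomial.ringHom_ext
  · intro a
    simp only [RingHom.coe_comp, Function.comp_apply, s34ld_ev_apply, aeval_C,
      AlgHom.toRingHom_eq_coe, RingHom.coe_coe, AlgHom.commutes,
      Polynomial.coeToPowerSeries.ringHom_apply, Polynomial.coe_C]
    rfl
  · simp only [RingHom.coe_comp, Function.comp_apply, s34ld_ev_apply, aeval_X,
      AlgHom.toRingHom_eq_coe, RingHom.coe_coe, Polynomial.coeToPowerSeries.ringHom_apply,
      Polynomial.coe_X]
    exact s34ld_iota_t h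

theorem s34ld_iota_eval₂ (h : s34ld_IsParam K t) (f : A) (P : Polynomial (Polynomial K)) :
    s34ld_iota h (eval₂ (s34ld_ev K t) f P) =
      eval₂ (Polynomial.coeToPowerSeries.ringHom (R := K)) (s34ld_iota h f) P := by
  have := Polynomial.hom_eval₂ P (s34ld_ev K t) (s34ld_iota h).toRingHom f
  rw [s34ld_iota_comp h] at this
  exact this

/-- For a separably algebraic element, the derivative of the Taylor series is again a
Taylor series. -/
theorem s34ld_exists_deriv (h : s34ld_IsParam K t) (f : A) (P : Polynomial (Polynomial K))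
    (hP : eval₂ (s34ld_ev K t) f P = 0)
    (hP' : eval₂ (s34ld_ev K t) f (derivative P) ≠ 0) :
    ∃ g : A, s34ld_iota h g = PowerSeries.derivative K (s34ld_iota h f) := by
  obtain ⟨Q, hQ⟩ := s34ld_chain P
  have e0 := hQ (s34ld_iota h f)
  rw [← s34ld_iota_eval₂, ← s34ld_iota_eval₂, ← s34ld_iota_eval₂, hP, map_zero, map_zero] at e0
  have e1 : s34ld_iota h (-(eval₂ (s34ld_ev K t) f Q)) =
      PowerSeries.derivative K (s34ld_iota h f) *
        s34ld_iota h (eval₂ (s34ld_ev K t) f (derivative P)) := by
    rw [map_neg]
    linear_combination e0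
  obtain ⟨g, hg⟩ := s34ld_dvd_of_iota h hP' _ e1
  refine ⟨g, ?_⟩
  have hb : s34ld_iota h (eval₂ (s34ld_ev K t) f (derivative P)) ≠ 0 := by
    intro hz
    exact hP' ((injective_iff_map_eq_zero _).mp (s34ld_iota_injective h) _ hz)
  apply mul_right_cancel₀ hb
  rw [← map_mul, ← hg, e1]

/-- Every element of `A` is separably algebraic over `K[t]`. -/
def s34ld_IsAlg (K : Type*) {A : Type*} [Field K] [CommRing A] [Algebra K A] (t : A) : Prop :=
  ∀ f : A, ∃ P : Polynomial (Polynomial K),
    eval₂ (s34ld_ev K t) f P = 0 ∧ eval₂ (s34ld_ev K t) f (derivative P) ≠ 0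

/-- The underlying function of `d/dt`. -/
def s34ld_Dfun (h : s34ld_IsParam K t) (ha : s34ld_IsAlg K t) (f : A) : A :=
  (s34ld_exists_deriv h f (ha f).choose (ha f).choose_spec.1 (ha f).choose_spec.2).choose

theorem s34ld_Dfun_spec (h : s34ld_IsParam K t) (ha : s34ld_IsAlg K t) (f : A) :
    s34ld_iota h (s34ld_Dfun h ha f) = PowerSeries.derivative K (s34ld_iota h f) :=
  (s34ld_exists_deriv h f (ha f).choose (ha f).choose_spec.1 (ha f).choose_spec.2).choose_spec

/-- **The derivation `d/dt`.** -/
def s34ld_D (h : s34ld_IsParam K t) (ha : s34ld_IsAlg K t) : Derivation K A A :=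
  Derivation.mk'
    { toFun := s34ld_Dfun h ha
      map_add' := fun x y => by
        apply s34ld_iota_injective h
        simp only [map_add, s34ld_Dfun_spec]
      map_smul' := fun c x => by
        apply s34ld_iota_injective h
        simp only [map_smul, s34ld_Dfun_spec, RingHom.id_apply, Derivation.map_smul] }
    (fun a b => by
      apply s34ld_iota_injective h
      simp only [LinearMap.coe_mk, AddHom.coe_mk, map_add, smul_eq_mul, map_mul,
        s34ld_Dfun_spec, Derivation.leibniz])

theorem s34ld_iota_D (h : s34ld_IsParam K t) (ha : s34ld_IsAlg K t) (f : A) :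
    s34ld_iota h (s34ld_D h ha f) = PowerSeries.derivative K (s34ld_iota h f) :=
  s34ld_Dfun_spec h ha f

theorem s34ld_D_t (h : s34ld_IsParam K t) (ha : s34ld_IsAlg K t) : s34ld_D h ha t = 1 := by
  apply s34ld_iota_injective h
  rw [s34ld_iota_D, s34ld_iota_t, map_one]
  exact PowerSeries.derivative_X

end Fermat.Agent.S34
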