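/-
S34 [LOC-DER] (helper21), part 3: a valuation subring `V` of a function field `F` over `K`
which is a discrete valuation ring with residue field `K` and uniformizer `t` carries the
derivation `d/dt`, and the derivation extends to `F`.  Prefix `s34ld_`.  Mathlib only.

Main export: `s34ld_main`.
-/
import Mathlib
import Fermat.Agent.S34.LocDerDer

set_option autoImplicit false
set_option linter.unusedSectionVars false
set_option linter.style.haveILetI false

noncomputable section

namespace Fermat.Agent.S34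

open Polynomial

section abstract

variable {K : Type*} {A : Type*} [Field K] [CommRing A] [IsDomain A] [Algebra K A] {t : A}

/-- A parameter is transcendental over the constants. -/
theorem s34ld_transc (h : s34ld_IsParam K t) (p : K[X]) (hp : s34ld_ev K t p = 0) : p = 0 := by
  have e := RingHom.congr_fun (s34ld_iota_comp h) p
  simp only [RingHom.coe_comp, Function.comp_apply, hp, map_zero,
    Polynomial.coeToPowerSeries.ringHom_apply] at e
  exact Polynomial.coe_eq_zero_iff.mp e.symm

/-- In characteristic zero, algebraic over `K[t]` implies separably algebraic (take a relation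
of minimal degree). -/
theorem s34ld_isAlg_of_exists [CharZero K] (h : s34ld_IsParam K t)
    (hex : ∀ f : A, ∃ P : Polynomial (Polynomial K), P ≠ 0 ∧ eval₂ (s34ld_ev K t) f P = 0) :
    s34ld_IsAlg K t := by
  intro f
  classical
  have hne : ∃ n, ∃ P : Polynomial (Polynomial K),
      P ≠ 0 ∧ eval₂ (s34ld_ev K t) f P = 0 ∧ P.natDegree = n := by
    obtain ⟨P, hP0, hP⟩ := hex f
    exact ⟨_, P, hP0, hP, rfl⟩
  obtain ⟨P, hP0, hP, hdeg⟩ := Nat.find_spec hne
  have hmin := fun m (hm : m < Nat.find hne) => Nat.find_min hne hm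
  refine ⟨P, hP, ?_⟩
  have hd0 : P.natDegree ≠ 0 := by
    intro h0
    rw [Polynomial.natDegree_eq_zero] at h0
    obtain ⟨c, rfl⟩ := h0
    rw [eval₂_C] at hP
    have := s34ld_transc h c hP
    exact hP0 (by rw [this, C_0])
  have hder : derivative P ≠ 0 := by
    intro hz
    exact hd0 (Polynomial.derivative_eq_zero.mp hz)
  intro hz
  exact hmin (derivative P).natDegree
    (by rw [← hdeg]; exact Polynomial.natDegree_derivative_lt hd0) ⟨derivative P, hder, hz, rfl⟩

end abstract

open scoped IntermediateField.algebraAdjoinAdjoin in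
/-- Algebraic over `K(t)` gives a nonzero polynomial relation over `K[t]`. -/
theorem s34ld_exists_poly (K F : Type*) [Field K] [Field F] [Algebra K F] (t f : F)
    (halg : IsAlgebraic ↥(IntermediateField.adjoin K {t}) f) :
    ∃ P : Polynomial (Polynomial K),
      P ≠ 0 ∧ eval₂ ((aeval t : K[X] →ₐ[K] F) : K[X] →+* F) f P = 0 := by
  have h1 : IsAlgebraic ↥(Algebra.adjoin K {t}) f :=
    (IsFractionRing.isAlgebraic_iff (Algebra.adjoin K {t})
      (IntermediateField.adjoin K {t}) F).mpr halg
  obtain ⟨p, hp0, hp⟩ := h1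
  let ψ : K[X] →+* ↥(Algebra.adjoin K {t}) :=
    ((aeval t : K[X] →ₐ[K] F).codRestrict (Algebra.adjoin K {t})
      (fun _ => Polynomial.aeval_mem_adjoin_singleton K t) : K[X] →+* ↥(Algebra.adjoin K {t}))
  have hψ : Function.Surjective ψ := by
    rintro ⟨c, hc⟩
    rw [Algebra.adjoin_singleton_eq_range_aeval] at hc
    obtain ⟨q, hq⟩ := hc
    exact ⟨q, Subtype.ext hq⟩
  obtain ⟨P, hP⟩ := Polynomial.map_surjective ψ hψ p
  refine ⟨P, ?_, ?_⟩
  · rintro rfl
    rw [Polynomial.map_zero] at hP
    exact hp0 hP.symm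
  · rw [← hP, aeval_def, eval₂_map] at hp
    exact hp

/-- The `K`-algebra structure on a valuation subring containing the constants. -/
@[reducible] def s34ld_algV (K F : Type*) [Field K] [Field F] [Algebra K F]
    (V : ValuationSubring F) (hK : ∀ a : K, algebraMap K F a ∈ V) : Algebra K ↥V :=
  ((algebraMap K F).codRestrict V.toSubring hK).toAlgebra

theorem s34ld_towerV (K F : Type*) [Field K] [Field F] [Algebra K F]
    (V : ValuationSubring F) (hK : ∀ a : K, algebraMap K F a ∈ V) :
    letI := s34ld_algV K F V hK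
    IsScalarTower K ↥V F :=
  letI := s34ld_algV K F V hK
  IsScalarTower.of_algebraMap_eq (fun _ => rfl)

/-- A uniformizer of a discrete valuation subring with residue field `K` is a parameter. -/
theorem s34ld_isParamV (K F : Type*) [Field K] [Field F] [Algebra K F]
    (V : ValuationSubring F) (hK : ∀ a : K, algebraMap K F a ∈ V)
    (hdvr : IsDiscreteValuationRing ↥V)
    (hdeg : ∀ x ∈ V, ∃ a : K, x - algebraMap K F a ∈ V.nonunits)
    (t : F) (ht : t ∈ V.nonunits)
    (hirr : ∀ x ∈ V.nonunits, ∃ y ∈ V, x = t * y) :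
    letI := s34ld_algV K F V hK
    s34ld_IsParam K (⟨t, V.nonunits_le ht⟩ : ↥V) := by
  letI := s34ld_algV K F V hK
  have hnu : ∀ x : ↥V, ¬ IsUnit x ↔ (x : F) ∈ V.nonunits := by
    intro x
    rw [ValuationSubring.coe_mem_nonunits_iff, IsLocalRing.mem_maximalIdeal, mem_nonunits_iff]
  refine ⟨?_, ?_, ?_, ?_, ?_⟩
  · intro x hx
    obtain ⟨y, hy, e⟩ := hirr x ((hnu x).mp hx)
    exact ⟨⟨y, hy⟩, Subtype.ext e⟩
  · intro x
    obtain ⟨a, ha⟩ := hdeg x x.2
    refine ⟨a, (hnu _).mpr ?_⟩
    exact ha
  · intro x hx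
    have hI : (Ideal.span {(⟨t, V.nonunits_le ht⟩ : ↥V)}) ≠ ⊤ := by
      rw [Ne, Ideal.span_singleton_eq_top]
      exact (hnu _).mpr ht
    have hK := Ideal.iInf_pow_eq_bot_of_isLocalRing _ hI
    have : x ∈ (⨅ i : ℕ, (Ideal.span {(⟨t, V.nonunits_le ht⟩ : ↥V)}) ^ i) := by
      rw [Ideal.mem_iInf]
      intro n
      obtain ⟨y, hy⟩ := hx n
      rw [Ideal.span_singleton_pow, Ideal.mem_span_singleton]
      exact ⟨y, hy⟩
    rw [hK] at this
    exact this
  · intro h0
    apply IsDiscreteValuationRing.not_isField ↥V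
    rw [IsLocalRing.isField_iff_maximalIdeal_eq]
    ext x
    simp only [Ideal.mem_bot]
    constructor
    · intro hx
      rw [← ValuationSubring.coe_mem_nonunits_iff] at hx
      obtain ⟨y, hy, e⟩ := hirr x hx
      have h0' : t = 0 := congrArg Subtype.val h0
      rw [h0', zero_mul] at e
      exact Subtype.ext e
    · rintro rfl
      exact zero_mem _
  · exact (hnu _).mpr ht

section ext

variable {K V F : Type*} [Field K] [CommRing V] [IsDomain V] [Field F] [Algebra K V]
  [Algebra K F] [Algebra V F] [IsScalarTower K V F] [IsFractionRing V F]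

/-- The linear form on `Ω[F⁄K]` extending a derivation of `V`. -/
def s34ld_extLin (D : Derivation K V V) : Ω[F⁄K] →ₗ[V] F :=
  IsLocalizedModule.lift (nonZeroDivisors V) (KaehlerDifferential.map K K V F)
    ((Algebra.linearMap V F).comp D.liftKaehlerDifferential)
    (fun x => IsLocalizedModule.map_units (Algebra.linearMap V F) x)

theorem s34ld_extLin_map (D : Derivation K V V) (ω : Ω[V⁄K]) :
    s34ld_extLin (F := F) D (KaehlerDifferential.map K K V F ω) =
      algebraMap V F (D.liftKaehlerDifferential ω) := by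
  unfold s34ld_extLin
  rw [IsLocalizedModule.lift_apply]
  rfl

/-- Extension of a derivation of a domain to its fraction field. -/
def s34ld_extend (D : Derivation K V V) : Derivation K F F :=
  ((s34ld_extLin (F := F) D).extendScalarsOfIsLocalization
    (nonZeroDivisors V) F).compDer (KaehlerDifferential.D K F)

theorem s34ld_extend_apply (D : Derivation K V V) (y : F) :
    s34ld_extend (F := F) D y = s34ld_extLin (F := F) D (KaehlerDifferential.D K F y) := rfl

theorem s34ld_extend_algebraMap (D : Derivation K V V) (x : V) :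
    s34ld_extend (F := F) D (algebraMap V F x) = algebraMap V F (D x) := by
  rw [s34ld_extend_apply, ← KaehlerDifferential.map_D K K V F, s34ld_extLin_map,
    Derivation.liftKaehlerDifferential_comp_D]

end ext

/-- **[LOC-DER], main export.**  A discrete valuation subring `V` of `F ⊇ K` (char. 0) with
residue field `K` and uniformizer `t`, `F` algebraic over `K(t)`: there is a `K`-derivation `D`
of `F` with `D t = 1` and `D V ⊆ V`. -/
theorem s34ld_main (K F : Type) [Field K] [CharZero K] [Field F] [Algebra K F]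
    (V : ValuationSubring F) (hK : ∀ a : K, algebraMap K F a ∈ V)
    (hdvr : IsDiscreteValuationRing ↥V)
    (hdeg : ∀ x ∈ V, ∃ a : K, x - algebraMap K F a ∈ V.nonunits)
    (t : F) (ht : t ∈ V.nonunits)
    (hirr : ∀ x ∈ V.nonunits, ∃ y ∈ V, x = t * y)
    (halg : ∀ f : F, IsAlgebraic ↥(IntermediateField.adjoin K {t}) f) :
    ∃ D : Derivation K F F, D t = 1 ∧ ∀ x ∈ V, D x ∈ V := by
  letI := s34ld_algV K F V hK
  haveI := s34ld_towerV K F V hK
  have hp := s34ld_isParamV K F V hK hdvr hdeg t ht hirr
  have hcomp : (V.subtype : ↥V →+* F).comp (s34ld_ev K (⟨t, V.nonunits_le ht⟩ : ↥V)) =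
      ((aeval t : K[X] →ₐ[K] F) : K[X] →+* F) := by
    apply Polynomial.ringHom_ext
    · intro a
      simp only [RingHom.coe_comp, Function.comp_apply, s34ld_ev_apply, aeval_C,
        RingHom.coe_coe]
      rfl
    · simp only [RingHom.coe_comp, Function.comp_apply, s34ld_ev_apply, aeval_X,
        RingHom.coe_coe]
      rfl
  have ha : s34ld_IsAlg K (⟨t, V.nonunits_le ht⟩ : ↥V) := by
    apply s34ld_isAlg_of_exists hp
    intro f
    obtain ⟨P, hP0, hP⟩ := s34ld_exists_poly K F t (f : F) (halg f)
    refine ⟨P, hP0, ?_⟩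
    apply Subtype.ext
    have e := Polynomial.hom_eval₂ P (s34ld_ev K (⟨t, V.nonunits_le ht⟩ : ↥V))
      (V.subtype : ↥V →+* F) f
    rw [hcomp] at e
    exact e.trans hP
  refine ⟨s34ld_extend (s34ld_D hp ha), ?_, ?_⟩
  · have e := s34ld_extend_algebraMap (F := F) (s34ld_D hp ha) ⟨t, V.nonunits_le ht⟩
    rw [s34ld_D_t] at e
    exact e
  · intro x hx
    have e := s34ld_extend_algebraMap (F := F) (s34ld_D hp ha) ⟨x, hx⟩
    have e' : s34ld_extend (F := F) (s34ld_D hp ha) x =
        algebraMap ↥V F (s34ld_D hp ha ⟨x, hx⟩) := e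
    rw [e']
    exact (s34ld_D hp ha ⟨x, hx⟩).2

end Fermat.Agent.S34
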