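/-
S34, seam **[K-DER]** (helper10).  Prefix `s34kd_`.

THE CHART-LEVEL DERIVATION AT AN `O`-POINT.  `O ⊆ K ⊆ F`, `F / K` a function field of
characteristic `0` with coordinate `J`, `B ⊆ F` an `O`-subalgebra which is a finite module over
`O[J]` (a chart), `Q` a place of `F / K` of degree one with `B ⊆ O_Q`, centre `q` on `B` and
`O_Q = B_q`.  Then there are an additive map `D : F → F` satisfying the Leibniz rule with
`D O = 0`, `D B ⊆ B`, and `t₀ ∈ q` with `D t₀ ∈ B ∖ q`.

`D = δ • D₀`, where `D₀` is the derivation `d/dt₀` of [LOC-DER] (`s34ld_main`) for a uniformizer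
`t₀ ∈ B` of `Q` and `δ ∈ B ∖ q` is a common denominator of `D₀ J` and of the `D₀ y`, `y` in a
finite set of generators of the `O[J]`-module `B`.  These are VERBATIM the hypotheses
`D, hadd, hmul, hDP, hDB, t₀, ht₀, hDt₀` of `s34lg_node_le`.
-/
import Mathlib
import Fermat.Prelude.Def_AlgebraicCurve_DivisorClassGroup
import Fermat.Agent.S24.PlaceBasic
import Fermat.Agent.S24.CoordDiv
import Fermat.Agent.S34.LocDerVal
import Fermat.Agent.S34.KEv

set_option autoImplicit false

open AlgebraicCurve IntermediateField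

noncomputable section

namespace Fermat.Agent.S34

open Fermat.Agent.S24

/-! ### Transcendence -/

section Transc

variable {K F : Type*} [Field K] [Field F] [Algebra K F]

/-- An element which is algebraic over the constants has order `0` at every place. -/
theorem s34kd_ord_eq_zero_of_isAlgebraic (Q : Place K F) {t : F} (ht : IsAlgebraic K t) :
    Q.ord t = 0 := by
  have hmem : ∀ x : F, IsAlgebraic K x → x ∈ Q.toValuationSubring := by
    intro x hx
    have h1 : IsIntegral K x := hx.isIntegral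
    have h2 : IsIntegral ↥Q.toValuationSubring x := h1.tower_top
    obtain ⟨y, hy⟩ := IsIntegrallyClosed.isIntegral_iff.1 h2
    rw [← hy]
    exact y.2
  have h1 := place_ord_nonneg_of_mem Q (hmem t ht)
  have h2 := place_ord_nonneg_of_mem Q (hmem t⁻¹ ht.inv)
  rw [Q.ord_inv] at h2
  omega

/-- A function with a zero or a pole is transcendental over the constants. -/
theorem s34kd_transcendental (Q : Place K F) {t : F} (ht : Q.ord t ≠ 0) : Transcendental K t :=
  fun h => ht (s34kd_ord_eq_zero_of_isAlgebraic Q h)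

end Transc

/-! ### The field-level derivation -/

section Field

variable (K F : Type) [Field K] [CharZero K] [Field F] [Algebra K F]

/-- **[LOC-DER] at a place of degree one**: for a uniformizer `t` of `Q` there is a
`K`-derivation `D` of `F` with `D t = 1` which preserves the valuation ring of `Q`. -/
theorem s34kd_field (Q : Place K F) (hdeg : Q.deg = 1) {J : F} (htr : Transcendental K J)
    (hfin : FiniteDimensional K⟮J⟯ F) {t : F} (ht : Q.ord t = 1) :
    ∃ D : Derivation K F F, D t = 1 ∧ ∀ x : F, 0 ≤ Q.ord x → 0 ≤ Q.ord (D x) := by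
  have ht0 : t ≠ 0 := by
    rintro rfl
    rw [Q.ord_zero] at ht
    exact zero_ne_one ht
  have httr : Transcendental K t := s34kd_transcendental Q (by rw [ht]; exact one_ne_zero)
  have hcoord : IsCoordinate K t :=
    coord_isCoordinate_of_transcendental ⟨htr, hfin⟩ httr
  have halg : ∀ f : F, IsAlgebraic ↥(IntermediateField.adjoin K {t}) f := by
    have := hcoord.finite
    intro f
    exact Algebra.IsAlgebraic.isAlgebraic f
  have hdeg' : ∀ x ∈ Q.toValuationSubring, ∃ a : K,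
      x - algebraMap K F a ∈ Q.toValuationSubring.nonunits := by
    intro x hx
    refine ⟨s34ev_val Q hdeg ⟨x, hx⟩, ?_⟩
    rw [ValuationSubring.mem_nonunits_iff_exists_mem_maximalIdeal]
    refine ⟨sub_mem hx (Q.algebraMap_mem' _), ?_⟩
    rw [← s34ev_val_eq_zero_iff Q hdeg]
    have e : (⟨x - algebraMap K F (s34ev_val Q hdeg ⟨x, hx⟩),
        sub_mem hx (Q.algebraMap_mem' _)⟩ : ↥Q.toValuationSubring) =
        ⟨x, hx⟩ - algebraMap K ↥Q.toValuationSubring (s34ev_val Q hdeg ⟨x, hx⟩) := rfl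
    rw [e, map_sub, s34ev_val_algebraMap, sub_self]
  have htn : t ∈ Q.toValuationSubring.nonunits := by
    rw [place_mem_nonunits_iff Q ht0, ht]
    exact zero_lt_one
  have hirr : ∀ x ∈ Q.toValuationSubring.nonunits, ∃ y ∈ Q.toValuationSubring, x = t * y := by
    intro x hx
    refine ⟨t⁻¹ * x, ?_, ?_⟩
    · rcases eq_or_ne x 0 with rfl | hx0
      · rw [mul_zero]
        exact zero_mem _
      · rw [place_mem_nonunits_iff Q hx0] at hx
        apply place_mem_of_ord_nonneg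
        rw [Q.ord_mul (inv_ne_zero ht0) hx0, Q.ord_inv, ht]
        omega
    · rw [← mul_assoc, mul_inv_cancel₀ ht0, one_mul]
  obtain ⟨D, hD1, hDV⟩ := s34ld_main K F Q.toValuationSubring Q.algebraMap_mem' inferInstance
    hdeg' t htn hirr halg
  exact ⟨D, hD1, fun x hx =>
    place_ord_nonneg_of_mem Q (hDV x (place_mem_of_ord_nonneg Q hx))⟩

end Field

/-! ### The chart-level derivation -/

section Chart

variable (O K F : Type) [CommRing O] [Field K] [CharZero K] [Algebra O K] [Field F]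
  [Algebra K F] [Algebra O F] [IsScalarTower O K F]

/-- **[K-DER]** the chart-level derivation at a place of degree one. -/
theorem s34kd_main (B : Subalgebra O F) {J : F} (hJ : J ∈ B) (htr : Transcendental K J)
    (hfin : FiniteDimensional K⟮J⟯ F)
    (hfinite : ∃ s : Finset F, (∀ x ∈ s, x ∈ B) ∧
      ∀ x ∈ B, ∃ c : F → ↥(Algebra.adjoin O ({J} : Set F)), x = ∑ y ∈ s, (c y : F) * y)
    (Q : Place K F) (hdeg : Q.deg = 1) (q : Ideal ↥B) [hqp : q.IsPrime]
    (hB : ∀ b : ↥B, 0 ≤ Q.ord (algebraMap ↥B F b))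
    (hq : ∀ b : ↥B, b ∈ q ↔ b = 0 ∨ 0 < Q.ord (algebraMap ↥B F b))
    (hfrac : ∀ x : F, 0 ≤ Q.ord x →
      ∃ y z : ↥B, z ∉ q ∧ x * algebraMap ↥B F z = algebraMap ↥B F y) (ϖ : O) :
    ∃ (D : F → F) (t₀ : ↥B), (∀ a b, D (a + b) = D a + D b) ∧
      (∀ a b, D (a * b) = a * D b + b * D a) ∧
      D (algebraMap ↥B F (algebraMap O ↥B ϖ)) = 0 ∧
      (∀ b : ↥B, ∃ b' : ↥B, D (algebraMap ↥B F b) = algebraMap ↥B F b') ∧
      t₀ ∈ q ∧ t₀ ≠ 0 ∧ ∃ b' : ↥B, D (algebraMap ↥B F t₀) = algebraMap ↥B F b' ∧ b' ∉ q := by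
  classical
  have hcoe : ∀ b : ↥B, algebraMap ↥B F b = (b : F) := fun _ => rfl
  have hord0 : ∀ b : ↥B, b ∉ q → Q.ord (b : F) = 0 := by
    intro b hb
    have h1 := hB b
    have h2 : ¬ 0 < Q.ord (algebraMap ↥B F b) := fun h => hb ((hq b).2 (Or.inr h))
    rw [hcoe] at h1 h2
    omega
  have hne0 : ∀ b : ↥B, b ∉ q → (b : F) ≠ 0 := by
    intro b hb h0
    apply hb
    have : b = 0 := Subtype.ext h0
    rw [this]
    exact q.zero_mem
  -- a uniformizer of `Q` in the chart
  obtain ⟨t₀, ht₀q, ht₀⟩ : ∃ t₀ : ↥B, t₀ ∈ q ∧ Q.ord (t₀ : F) = 1 := by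
    obtain ⟨π, hπ⟩ := place_exists_irreducible Q
    have hπ1 : Q.ord (π : F) = 1 := Q.ord_coe_irreducible hπ
    have hπ0 : (π : F) ≠ 0 := by
      intro h
      rw [h, Q.ord_zero] at hπ1
      exact zero_ne_one hπ1
    obtain ⟨y, z, hz, hyz⟩ := hfrac (π : F) (by rw [hπ1]; exact zero_le_one)
    rw [hcoe, hcoe] at hyz
    have hy1 : Q.ord (y : F) = 1 := by
      rw [← hyz, Q.ord_mul hπ0 (hne0 z hz), hπ1, hord0 z hz, add_zero]
    exact ⟨y, (hq y).2 (Or.inr (by rw [hcoe, hy1]; exact zero_lt_one)), hy1⟩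
  have ht₀0 : t₀ ≠ 0 := by
    rintro rfl
    rw [ZeroMemClass.coe_zero, Q.ord_zero] at ht₀
    exact zero_ne_one ht₀
  obtain ⟨D₀, hD₀t, hD₀V⟩ := s34kd_field K F Q hdeg htr hfin ht₀
  -- the denominators
  obtain ⟨s, hsB, hspan⟩ := hfinite
  have hden : ∀ x : F, ∃ z : ↥B, z ∉ q ∧ (x ∈ B → D₀ x * (z : F) ∈ B) := by
    intro x
    by_cases hx : x ∈ B
    · have h1 : 0 ≤ Q.ord (D₀ x) := hD₀V x (hB ⟨x, hx⟩)
      obtain ⟨y, z, hz, hyz⟩ := hfrac (D₀ x) h1
      refine ⟨z, hz, fun _ => ?_⟩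
      rw [hcoe, hcoe] at hyz
      rw [hyz]
      exact y.2
    · exact ⟨1, fun h => hqp.ne_top ((Ideal.eq_top_iff_one q).2 h), fun h => absurd h hx⟩
  choose z hzq hz using hden
  set T : Finset F := insert J s with hT
  have hTB : ∀ x ∈ T, x ∈ B := by
    intro x hx
    rcases Finset.mem_insert.1 hx with rfl | h
    · exact hJ
    · exact hsB x h
  set δ : ↥B := ∏ x ∈ T, z x with hδ
  have hδq : δ ∉ q := by
    rw [hδ, Ideal.IsPrime.prod_mem_iff]
    rintro ⟨x, -, hx⟩
    exact hzq x hx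
  have hδT : ∀ x ∈ T, (δ : F) * D₀ x ∈ B := by
    intro x hx
    have e : δ = (∏ x' ∈ T.erase x, z x') * z x := by
      rw [hδ, Finset.prod_erase_mul T z hx]
    rw [e, Subalgebra.coe_mul, mul_assoc, mul_comm ((z x : ↥B) : F)]
    exact B.mul_mem (Subtype.mem _) (hz x (hTB x hx))
  -- the subalgebra of the elements of `B` with `δ D₀ x ∈ B`
  let S : Subalgebra O F :=
    { carrier := {x | x ∈ B ∧ (δ : F) * D₀ x ∈ B}
      mul_mem' := by
        rintro a b ⟨ha, ha'⟩ ⟨hb, hb'⟩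
        refine ⟨B.mul_mem ha hb, ?_⟩
        have e : (δ : F) * D₀ (a * b) = a * ((δ : F) * D₀ b) + b * ((δ : F) * D₀ a) := by
          rw [Derivation.leibniz, smul_eq_mul, smul_eq_mul]
          ring
        rw [e]
        exact B.add_mem (B.mul_mem ha hb') (B.mul_mem hb ha')
      add_mem' := by
        rintro a b ⟨ha, ha'⟩ ⟨hb, hb'⟩
        refine ⟨B.add_mem ha hb, ?_⟩
        rw [map_add, mul_add]
        exact B.add_mem ha' hb'
      algebraMap_mem' := by
        intro a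
        refine ⟨B.algebraMap_mem a, ?_⟩
        rw [IsScalarTower.algebraMap_apply O K F, Derivation.map_algebraMap, mul_zero]
        exact B.zero_mem }
  have hSmem : ∀ x : F, x ∈ S ↔ x ∈ B ∧ (δ : F) * D₀ x ∈ B := fun _ => Iff.rfl
  have hTS : ∀ x ∈ T, x ∈ S := fun x hx => (hSmem x).2 ⟨hTB x hx, hδT x hx⟩
  have hadj : Algebra.adjoin O ({J} : Set F) ≤ S := by
    apply Algebra.adjoin_le
    rintro x rfl
    exact hTS _ (Finset.mem_insert_self _ _)
  have hBS : ∀ x ∈ B, x ∈ S := by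
    intro x hx
    obtain ⟨c, rfl⟩ := hspan x hx
    refine Subalgebra.sum_mem _ (fun y hy => ?_)
    exact S.mul_mem (hadj (c y).2) (hTS y (Finset.mem_insert_of_mem hy))
  -- the derivation
  refine ⟨fun f => (δ : F) * D₀ f, t₀, ?_, ?_, ?_, ?_, ht₀q, ht₀0, ?_⟩
  · intro a b
    show (δ : F) * D₀ (a + b) = (δ : F) * D₀ a + (δ : F) * D₀ b
    rw [map_add, mul_add]
  · intro a b
    show (δ : F) * D₀ (a * b) = a * ((δ : F) * D₀ b) + b * ((δ : F) * D₀ a)
    rw [Derivation.leibniz, smul_eq_mul, smul_eq_mul]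
    ring
  · show (δ : F) * D₀ (algebraMap ↥B F (algebraMap O ↥B ϖ)) = 0
    rw [← IsScalarTower.algebraMap_apply O ↥B F, IsScalarTower.algebraMap_apply O K F,
      Derivation.map_algebraMap, mul_zero]
  · intro b
    have h := ((hSmem _).1 (hBS (b : F) b.2)).2
    exact ⟨⟨_, h⟩, rfl⟩
  · refine ⟨δ, ?_, hδq⟩
    show (δ : F) * D₀ (t₀ : F) = (δ : F)
    rw [hD₀t, mul_one]

end Chart

end Fermat.Agent.S34
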