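/-
S34, leaf [LOC-ABS] (owner: helper4).  Prefix `s34la_`.  Mathlib only.

LOCAL GENERATORS OF RATIONAL POINTS ON A MODEL WITH ORDINARY DOUBLE POINTS (pure commutative
algebra).  `O` is a discrete valuation ring with uniformizer `ϖ`, `R` a noetherian local domain
over `O` (the local ring `B_n` of the model at a closed point of the special fibre) and
`ev : R →ₐ[O] O` an `O`-point through it (the place `P` of degree one); `q_P = ker ev`.

* `s34la_ker_eq_pair`, `s34la_ker_eq_single` (**Lemma 1**): if `n = (ϖ, x, y)` then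
  `q_P = (x - ev x, y - ev y)`;
* `s34la_lemma2` (**Lemma 2**): if `x y = ϖ^(k+1) r` and `ev x = u ϖ^j`, `j < k + 1`, then
  `ϖ^j q_P ⊆ (x - ev x)`;
* `s34la_step`: otherwise `x`, `y` can be corrected modulo `ϖ^(k+1)` so that `x y ∈ ϖ^(k+2) R`;
* `s34la_sym_le`, `s34la_sym_sat`: symbolic powers of a branch `(ϖ, x)`;
* `s34la_thick` (**[THICK']**): the correction stops (bound from a derivation of `R` killing `ϖ`:
  a plain function `D : R → R`, additive, with the Leibniz rule and `D ϖ = 0`);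
* `s34la_loc_node`, `s34la_loc_smooth` (**[LOC]**): principality of `q_P` up to a power of `ϖ`.
-/
import Mathlib

set_option autoImplicit false
set_option linter.unusedSectionVars false

namespace Fermat.Agent.S34

open IsLocalRing

section Lemma1

variable {O R : Type*} [CommRing O] [IsDomain O] [IsDiscreteValuationRing O]
  [CommRing R] [Algebra O R] [IsLocalRing R]

/-- An `O`-point of a local `O`-algebra maps the maximal ideal into the maximal ideal. -/
theorem s34la_ev_mem (ev : R →ₐ[O] O) {x : R} (hx : x ∈ maximalIdeal R) :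
    ev x ∈ maximalIdeal O := by
  by_contra h
  rw [IsLocalRing.notMem_maximalIdeal] at h
  have hker : RingHom.ker (ev : R →+* O) ≠ ⊤ := RingHom.ker_ne_top _
  have h1 : x - algebraMap O R (ev x) ∈ RingHom.ker (ev : R →+* O) := by
    rw [RingHom.mem_ker]
    simp
  have h2 : x - algebraMap O R (ev x) ∈ maximalIdeal R := IsLocalRing.le_maximalIdeal hker h1
  have h3 : algebraMap O R (ev x) ∈ maximalIdeal R := by
    have := (maximalIdeal R).sub_mem hx h2
    simpa using this
  exact (IsLocalRing.mem_maximalIdeal _).1 h3 (h.map (algebraMap O R))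

variable [IsNoetherianRing R]

/-- **Lemma 1**, general form: if the maximal ideal of `R` is contained in `I + (ϖ)` for an ideal
`I` inside the kernel of the `O`-point `ev`, then `I` is the kernel. -/
theorem s34la_ker_le (ev : R →ₐ[O] O) {ϖ : O} (hϖ : Irreducible ϖ) (I : Ideal R)
    (hI : I ≤ RingHom.ker (ev : R →+* O))
    (hn : maximalIdeal R ≤ I ⊔ Ideal.span {algebraMap O R ϖ}) :
    RingHom.ker (ev : R →+* O) = I := by
  refine le_antisymm ?_ hI
  have hker : RingHom.ker (ev : R →+* O) ≠ ⊤ := RingHom.ker_ne_top _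
  have hevϖ : ev (algebraMap O R ϖ) = ϖ := by
    rw [AlgHom.commutes]
    rfl
  refine Submodule.le_of_le_smul_of_le_jacobson_bot (I := Ideal.span {algebraMap O R ϖ})
    (IsNoetherian.noetherian _) ?_ ?_
  · rw [IsLocalRing.jacobson_eq_maximalIdeal ⊥ bot_ne_top, Ideal.span_singleton_le_iff_mem]
    rw [IsLocalRing.mem_maximalIdeal]
    intro hu
    have h1 : IsUnit (ev (algebraMap O R ϖ)) := hu.map ev
    rw [hevϖ] at h1
    exact hϖ.not_isUnit h1
  · intro t ht
    have ht' : t ∈ maximalIdeal R := IsLocalRing.le_maximalIdeal hker ht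
    obtain ⟨i, hi, s, hs, rfl⟩ := Submodule.mem_sup.1 (hn ht')
    obtain ⟨c, rfl⟩ := Ideal.mem_span_singleton'.1 hs
    have hc : c ∈ RingHom.ker (ev : R →+* O) := by
      have hi0 : ev i = 0 := RingHom.mem_ker.1 (hI hi)
      have h1 : ev (i + c * algebraMap O R ϖ) = 0 := RingHom.mem_ker.1 ht
      rw [map_add, map_mul, hi0, zero_add, hevϖ] at h1
      exact RingHom.mem_ker.2 ((mul_eq_zero.1 h1).resolve_right hϖ.ne_zero)
    refine Submodule.mem_sup.2 ⟨i, hi, c * algebraMap O R ϖ, ?_, rfl⟩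
    rw [mul_comm]
    exact Submodule.smul_mem_smul (Ideal.mem_span_singleton_self _) hc

/-- **Lemma 1** at a double point: if `n = (ϖ, x, y)` then `q_P = (x - ev x, y - ev y)`. -/
theorem s34la_ker_eq_pair (ev : R →ₐ[O] O) {ϖ : O} (hϖ : Irreducible ϖ) (x y : R)
    (hn : maximalIdeal R = Ideal.span {algebraMap O R ϖ, x, y}) :
    RingHom.ker (ev : R →+* O) =
      Ideal.span {x - algebraMap O R (ev x), y - algebraMap O R (ev y)} := by
  have hmem : ∀ z : R, z ∈ maximalIdeal R →
      algebraMap O R (ev z) ∈ Ideal.span {algebraMap O R ϖ} := by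
    intro z hz
    have h1 := s34la_ev_mem ev hz
    rw [hϖ.maximalIdeal_eq] at h1
    obtain ⟨c, hc⟩ := Ideal.mem_span_singleton'.1 h1
    rw [← hc, map_mul]
    exact Ideal.mul_mem_left _ _ (Ideal.mem_span_singleton_self _)
  have hx : x ∈ maximalIdeal R := by
    rw [hn]; exact Ideal.subset_span (by simp)
  have hy : y ∈ maximalIdeal R := by
    rw [hn]; exact Ideal.subset_span (by simp)
  refine s34la_ker_le ev hϖ _ ?_ ?_
  · rw [Ideal.span_le]
    rintro z (rfl | rfl)
    · rw [SetLike.mem_coe, RingHom.mem_ker]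
      simp
    · rw [SetLike.mem_coe, RingHom.mem_ker]
      simp
  · rw [hn, Ideal.span_le]
    rintro z (rfl | rfl | rfl)
    · exact Ideal.mem_sup_right (Ideal.mem_span_singleton_self _)
    · have : z = (z - algebraMap O R (ev z)) + algebraMap O R (ev z) := by ring
      rw [SetLike.mem_coe, this]
      exact Ideal.add_mem _ (Ideal.mem_sup_left (Ideal.subset_span (by simp)))
        (Ideal.mem_sup_right (hmem z hx))
    · have : z = (z - algebraMap O R (ev z)) + algebraMap O R (ev z) := by ring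
      rw [SetLike.mem_coe, this]
      exact Ideal.add_mem _ (Ideal.mem_sup_left (Ideal.subset_span (by simp)))
        (Ideal.mem_sup_right (hmem z hy))

/-- **Lemma 1** at a point with one local equation: if `n = (ϖ, h)` then `q_P = (h - ev h)`. -/
theorem s34la_ker_eq_single (ev : R →ₐ[O] O) {ϖ : O} (hϖ : Irreducible ϖ) (h : R)
    (hn : maximalIdeal R = Ideal.span {algebraMap O R ϖ, h}) :
    RingHom.ker (ev : R →+* O) = Ideal.span {h - algebraMap O R (ev h)} := by
  have hh : h ∈ maximalIdeal R := by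
    rw [hn]; exact Ideal.subset_span (by simp)
  have hmem : algebraMap O R (ev h) ∈ Ideal.span {algebraMap O R ϖ} := by
    have h1 := s34la_ev_mem ev hh
    rw [hϖ.maximalIdeal_eq] at h1
    obtain ⟨c, hc⟩ := Ideal.mem_span_singleton'.1 h1
    rw [← hc, map_mul]
    exact Ideal.mul_mem_left _ _ (Ideal.mem_span_singleton_self _)
  refine s34la_ker_le ev hϖ _ ?_ ?_
  · rw [Ideal.span_le]
    rintro z rfl
    rw [SetLike.mem_coe, RingHom.mem_ker]
    simp
  · rw [hn, Ideal.span_le]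
    rintro z (rfl | rfl)
    · exact Ideal.mem_sup_right (Ideal.mem_span_singleton_self _)
    · have : z = (z - algebraMap O R (ev z)) + algebraMap O R (ev z) := by ring
      rw [SetLike.mem_coe, this]
      exact Ideal.add_mem _ (Ideal.mem_sup_left (Ideal.subset_span (by simp))) 
        (Ideal.mem_sup_right hmem)

end Lemma1

section Lemma2

variable {O R : Type*} [CommRing O] [IsDomain O] [IsDiscreteValuationRing O]
  [CommRing R] [Algebra O R] [IsLocalRing R] [IsNoetherianRing R]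

/-- `ϖ ^ m ∣ u ϖ ^ n` forces `m ≤ n`. -/
theorem s34la_le_of_pow_dvd {ϖ : O} (hϖ : Irreducible ϖ) {m n : ℕ} (u : Oˣ)
    (hd : ϖ ^ m ∣ (u : O) * ϖ ^ n) : m ≤ n := by
  by_contra hlt
  have hlt' : n < m := not_le.mp hlt
  obtain ⟨c, hc⟩ := hd
  have h0 : ϖ ^ n * ((u : O) - ϖ ^ (m - n) * c) = 0 := by
    have e : ϖ ^ m = ϖ ^ n * ϖ ^ (m - n) := by rw [← pow_add]; congr 1; omega
    rw [e] at hc
    linear_combination hc
  rcases mul_eq_zero.1 h0 with h1 | h1
  · exact pow_ne_zero _ hϖ.ne_zero h1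
  · have h2 : (u : O) = ϖ * (ϖ ^ (m - n - 1) * c) := by
      have e : ϖ ^ (m - n) = ϖ * ϖ ^ (m - n - 1) := by rw [← pow_succ']; congr 1; omega
      rw [e] at h1
      linear_combination h1
    have h3 : IsUnit (ϖ * (ϖ ^ (m - n - 1) * c)) := h2 ▸ u.isUnit
    exact hϖ.not_isUnit (isUnit_of_mul_isUnit_left h3)

/-- The image of the uniformizer lies in the maximal ideal of `R`. -/
theorem s34la_unif_mem (ev : R →ₐ[O] O) {ϖ : O} (hϖ : Irreducible ϖ) :
    algebraMap O R ϖ ∈ maximalIdeal R := by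
  rw [IsLocalRing.mem_maximalIdeal]
  intro hu
  have h1 : IsUnit (ev (algebraMap O R ϖ)) := hu.map ev
  rw [AlgHom.commutes] at h1
  exact hϖ.not_isUnit h1

/-- The image of the uniformizer is not zero. -/
theorem s34la_unif_ne_zero (ev : R →ₐ[O] O) {ϖ : O} (hϖ : Irreducible ϖ) :
    algebraMap O R ϖ ≠ 0 := by
  intro h
  have h1 : ev (algebraMap O R ϖ) = 0 := by rw [h, map_zero]
  rw [AlgHom.commutes] at h1
  exact hϖ.ne_zero h1

/-- The identity behind Lemma 2. -/
theorem s34la_identity {A : Type*} [CommRing A] (x y r a b e s t c : A)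
    (hxy : x * y = c * r) (hab : a * b = c * e) (hr : r - e = s * (x - a) + t * (y - b)) :
    (x - a) * (y - c * s) = (y - b) * (c * t - a) := by
  linear_combination hxy - hab + c * hr

/-- **Lemma 2**: if `x y = ϖ^(k+1) r`, `n = (ϖ, x, y)` and `ev x = u ϖ^j` with `j < k + 1`, then
`ϖ^j q_P ⊆ (x - ev x)`. -/
theorem s34la_lemma2 (ev : R →ₐ[O] O) {ϖ : O} (hϖ : Irreducible ϖ) (x y r : R) (k : ℕ)
    (hn : maximalIdeal R = Ideal.span {algebraMap O R ϖ, x, y})
    (hxy : x * y = algebraMap O R ϖ ^ (k + 1) * r)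
    (j : ℕ) (u : Oˣ) (ha : ev x = (u : O) * ϖ ^ j) (hj : j < k + 1) (t : R) (ht : ev t = 0) :
    ∃ c : R, algebraMap O R ϖ ^ j * t = c * (x - algebraMap O R (ev x)) := by
  have hker := s34la_ker_eq_pair ev hϖ x y hn
  set P : R := algebraMap O R ϖ with hP
  set A : R := algebraMap O R (ev x) with hA
  set B : R := algebraMap O R (ev y) with hB
  set E : R := algebraMap O R (ev r) with hE
  have hevϖ : ev P = ϖ := by
    rw [hP, AlgHom.commutes]
    rfl
  have hev : ev (x * y) = ϖ ^ (k + 1) * ev r := by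
    rw [hxy, map_mul, map_pow, hevϖ]
  have hAB : A * B = P ^ (k + 1) * E := by
    rw [hA, hB, hE, ← map_mul, ← map_mul (ev : R →ₐ[O] O), hev, map_mul, map_pow]
  -- `r - ev r` lies in the kernel
  have hrE : r - E ∈ RingHom.ker (ev : R →+* O) := by
    rw [RingHom.mem_ker]
    show ev (r - algebraMap O R (ev r)) = 0
    simp
  rw [hker, Ideal.mem_span_pair] at hrE
  obtain ⟨s, t', hst⟩ := hrE
  have hid := s34la_identity x y r A B E s t' (P ^ (k + 1)) hxy hAB hst.symm
  -- the unit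
  have hAu : A = algebraMap O R (u : O) * P ^ j := by
    rw [hA, ha, map_mul, map_pow]
  have hw : IsUnit (algebraMap O R (u : O) - P ^ (k + 1 - j) * t') := by
    have h1 : IsUnit (algebraMap O R (u : O)) := u.isUnit.map (algebraMap O R)
    have h2 : P ^ (k + 1 - j) * t' ∈ maximalIdeal R := by
      refine Ideal.mul_mem_right _ _ ?_
      have e : k + 1 - j = (k - j) + 1 := by omega
      rw [e, pow_succ]
      exact Ideal.mul_mem_left _ _ (s34la_unif_mem ev hϖ)
    by_contra h3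
    have h4 : algebraMap O R (u : O) - P ^ (k + 1 - j) * t' ∈ maximalIdeal R :=
      (IsLocalRing.mem_maximalIdeal _).2 h3
    have h5 : algebraMap O R (u : O) ∈ maximalIdeal R := by
      have := (maximalIdeal R).add_mem h4 h2
      simpa using this
    exact (IsLocalRing.mem_maximalIdeal _).1 h5 h1
  obtain ⟨w, hw⟩ := hw
  have hPk : P ^ (k + 1) = P ^ j * P ^ (k + 1 - j) := by
    rw [← pow_add]; congr 1; omega
  -- `ϖ^j (y - B) ∈ (x - A)`
  have hY : P ^ j * (y - B) = (-(y - P ^ (k + 1) * s) * (w⁻¹ : Rˣ)) * (x - A) := by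
    have h1 : (y - B) * (P ^ (k + 1) * t' - A) = -(P ^ j * (y - B)) * (w : R) := by
      rw [hw, hAu, hPk]
      ring
    have h2 : (P ^ j * (y - B)) * (w : R) = -((x - A) * (y - P ^ (k + 1) * s)) := by
      rw [hid, h1]; ring
    have h3 : P ^ j * (y - B) = (P ^ j * (y - B)) * (w : R) * ((w⁻¹ : Rˣ) : R) := by
      rw [mul_assoc, Units.mul_inv, mul_one]
    rw [h3, h2]
    ring
  have htk : t ∈ RingHom.ker (ev : R →+* O) := RingHom.mem_ker.2 ht
  rw [hker, Ideal.mem_span_pair] at htk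
  obtain ⟨α, β, hαβ⟩ := htk
  refine ⟨P ^ j * α + β * (-(y - P ^ (k + 1) * s) * (w⁻¹ : Rˣ)), ?_⟩
  rw [← hαβ]
  have : P ^ j * (α * (x - A) + β * (y - B)) = P ^ j * α * (x - A) + β * (P ^ j * (y - B)) := by
    ring
  rw [this, hY]
  ring

/-- The correction step: if `ϖ^(k+1)` divides both `ev x` and `ev y` then `x`, `y` can be
corrected modulo `ϖ^(k+1)` so that the product lies in `ϖ^(k+2) R`. -/
theorem s34la_step (ev : R →ₐ[O] O) {ϖ : O} (hϖ : Irreducible ϖ) (x y r : R) (k : ℕ)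
    (hn : maximalIdeal R = Ideal.span {algebraMap O R ϖ, x, y})
    (hxy : x * y = algebraMap O R ϖ ^ (k + 1) * r)
    (ha : ϖ ^ (k + 1) ∣ ev x) (hb : ϖ ^ (k + 1) ∣ ev y) :
    ∃ c d r' : R, (x - algebraMap O R ϖ ^ (k + 1) * c) * (y - algebraMap O R ϖ ^ (k + 1) * d) =
      algebraMap O R ϖ ^ (k + 2) * r' := by
  set P : R := algebraMap O R ϖ with hP
  -- `ev r` is divisible by `ϖ`
  have hevϖ : ev P = ϖ := by
    rw [hP, AlgHom.commutes]
    rfl
  have h1 : ev x * ev y = ϖ ^ (k + 1) * ev r := by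
    rw [← map_mul, hxy, map_mul, map_pow, hevϖ]
  obtain ⟨a', ha'⟩ := ha
  obtain ⟨b', hb'⟩ := hb
  have h2 : ev r = ϖ ^ (k + 1) * (a' * b') := by
    have h3 : ϖ ^ (k + 1) * ev r = ϖ ^ (k + 1) * (ϖ ^ (k + 1) * (a' * b')) := by
      rw [← h1, ha', hb']; ring
    exact mul_left_cancel₀ (pow_ne_zero _ hϖ.ne_zero) h3
  have h4 : r ∈ maximalIdeal R := by
    by_contra h5
    rw [IsLocalRing.notMem_maximalIdeal] at h5
    have h6 : IsUnit (ev r) := h5.map ev
    rw [h2, pow_succ', mul_assoc] at h6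
    exact hϖ.not_isUnit (isUnit_of_mul_isUnit_left h6)
  rw [hn] at h4
  obtain ⟨w, z, hz, hr⟩ := Ideal.mem_span_insert.1 h4
  obtain ⟨s', t', hst⟩ := Ideal.mem_span_pair.1 hz
  refine ⟨t', s', w + P ^ k * s' * t', ?_⟩
  have hr' : r = w * P + (s' * x + t' * y) := by rw [hr, hst]
  have e1 : P ^ (k + 2) = P ^ (k + 1) * P := by rw [pow_succ]
  have e2 : P ^ (k + 1) * P ^ (k + 1) = P ^ (k + 1) * P * P ^ k := by
    rw [mul_assoc, ← pow_succ']
  calc (x - P ^ (k + 1) * t') * (y - P ^ (k + 1) * s')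
      = x * y - P ^ (k + 1) * (s' * x + t' * y) + P ^ (k + 1) * P ^ (k + 1) * (s' * t') := by ring
    _ = P ^ (k + 1) * r - P ^ (k + 1) * (r - w * P) + P ^ (k + 1) * P * P ^ k * (s' * t') := by
        rw [hxy, e2]
        congr 2
        rw [hr']; ring
    _ = P ^ (k + 2) * (w + P ^ k * s' * t') := by rw [e1]; ring

end Lemma2


section Sym

variable {R : Type*} [CommRing R] [IsDomain R]

/-- Symbolic powers of a prime `p = (P, x)` with `x` in the `K`-th symbolic power of `p` with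
respect to `P`: every element killed into `P ^ j R` by an element outside `p` lies in
`(P ^ j, x)`, for `j ≤ K`. -/
theorem s34la_sym_le (P x : R) (hP0 : P ≠ 0) (hp : (Ideal.span {P, x}).IsPrime) (K : ℕ)
    (hx : ∃ s, s ∉ Ideal.span {P, x} ∧ ∃ c, s * x = P ^ K * c) :
    ∀ j, j ≤ K → ∀ h : R, (∃ s, s ∉ Ideal.span {P, x} ∧ ∃ c, s * h = P ^ j * c) →
      ∃ a b, h = P ^ j * a + x * b := by
  intro j
  induction j with
  | zero =>
    intro _ h _
    exact ⟨h, 0, by ring⟩
  | succ j ih =>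
    rintro hj h ⟨s, hs, c, hsc⟩
    obtain ⟨a, b, hab⟩ := ih (by omega) h ⟨s, hs, P * c, by rw [hsc]; ring⟩
    obtain ⟨s', hs', c', hsc'⟩ := hx
    have hK : P ^ K = P ^ (j + 1) * P ^ (K - (j + 1)) := by
      rw [← pow_add]; congr 1; omega
    have h0 : s * s' * (P ^ j * a) = s' * (s * h) - s * b * (s' * x) := by
      rw [hab]; ring
    have h1 : P ^ j * (s * s' * a) =
        P ^ j * (P * (s' * c - s * b * P ^ (K - (j + 1)) * c')) := by
      calc P ^ j * (s * s' * a) = s * s' * (P ^ j * a) := by ring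
        _ = s' * (s * h) - s * b * (s' * x) := h0
        _ = s' * (P ^ (j + 1) * c) - s * b * (P ^ (j + 1) * P ^ (K - (j + 1)) * c') := by
            rw [hsc, hsc', hK]
        _ = P ^ j * (P * (s' * c - s * b * P ^ (K - (j + 1)) * c')) := by ring
    have h2 := mul_left_cancel₀ (pow_ne_zero j hP0) h1
    have h3 : s * s' * a ∈ Ideal.span {P, x} := by
      rw [h2]
      exact Ideal.mul_mem_right _ _ (Ideal.subset_span (by simp))
    have h4 : a ∈ Ideal.span {P, x} := by
      rcases hp.mem_or_mem h3 with h5 | h5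
      · rcases hp.mem_or_mem h5 with h6 | h6
        · exact absurd h6 hs
        · exact absurd h6 hs'
      · exact h5
    obtain ⟨a', b', hab'⟩ := Ideal.mem_span_pair.1 h4
    refine ⟨a', P ^ j * b' + b, ?_⟩
    rw [hab, ← hab']
    ring

/-- Saturation of `(P ^ K, x)` with respect to `p = (P, x)` when `y x ∈ P ^ K R`, `y ∉ p`. -/
theorem s34la_sym_sat (P x : R) (hP0 : P ≠ 0) (hp : (Ideal.span {P, x}).IsPrime) (K : ℕ)
    (y r : R) (hy : y ∉ Ideal.span {P, x}) (hxy : y * x = P ^ K * r) (h a b : R)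
    (hh : y * h = P ^ K * a + x * b) : ∃ a' b', h = P ^ K * a' + x * b' := by
  refine s34la_sym_le P x hP0 hp K ⟨y, hy, r, hxy⟩ K le_rfl h ⟨y * y, ?_, y * a + b * r, ?_⟩
  · intro h1
    exact hy ((hp.mem_or_mem h1).elim id id)
  · calc y * y * h = y * (y * h) := by ring
      _ = y * (P ^ K * a) + b * (y * x) := by rw [hh]; ring
      _ = P ^ K * (y * a + b * r) := by rw [hxy]; ring

/-- A derivation killing `P` commutes with multiplication by powers of `P`. -/
theorem s34la_D_pow (D : R → R) (hmul : ∀ a b, D (a * b) = a * D b + b * D a) (P : R)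
    (hDP : D P = 0) (n : ℕ) (ρ : R) : D (P ^ n * ρ) = P ^ n * D ρ := by
  induction n with
  | zero => simp
  | succ n ih =>
    have e : P ^ (n + 1) * ρ = P * (P ^ n * ρ) := by ring
    rw [e, hmul, ih, hDP]
    ring

/-- One half of [THICK']: the derivative of the corrected coordinate `x - P^(k+1) A'` lies in
`(P^(k+1), x)`. -/
theorem s34la_thick_half (P x y r A' B' : R) (k : ℕ) (hP0 : P ≠ 0)
    (hp₂ : (Ideal.span {P, x}).IsPrime) (hy₂ : y ∉ Ideal.span {P, x})
    (hxy : x * y = P ^ (k + 1) * r)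
    (D : R → R) (hmul : ∀ a b, D (a * b) = a * D b + b * D a) (hDP : D P = 0) :
    ∃ a₁ b₁, D (x - P ^ (k + 1) * A') = P ^ (k + 1) * a₁ + x * b₁ := by
  set X : R := x - P ^ (k + 1) * A' with hX
  set Y : R := y - P ^ (k + 1) * B' with hY
  set ρ : R := r - x * B' - A' * y + P ^ (k + 1) * A' * B' with hρ
  have hXY : X * Y = P ^ (k + 1) * ρ := by
    rw [hX, hY, hρ]
    linear_combination hxy
  have hD : X * D Y + Y * D X = P ^ (k + 1) * D ρ := by
    rw [← hmul, hXY, s34la_D_pow D hmul P hDP]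
  refine s34la_sym_sat P x hP0 hp₂ (k + 1) y r hy₂ (by rw [mul_comm]; exact hxy) (D X)
    (D ρ + A' * D Y + B' * D X) (-D Y) ?_
  rw [hX, hY] at hD
  linear_combination hD

end Sym

section Thick

variable {O R : Type*} [CommRing O] [IsDomain O] [IsDiscreteValuationRing O]
  [CommRing R] [IsDomain R] [Algebra O R] [IsLocalRing R] [IsNoetherianRing R]

/-- **[THICK']**: as long as `ϖ^(k+1)` divides both `ev x` and `ev y` (with `x y ∈ ϖ^(k+1) R`),
it divides `ev (D t₀)` for every `t₀ ∈ q_P` and every derivation `D` of `R` killing `ϖ`. -/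
theorem s34la_thick (ev : R →ₐ[O] O) {ϖ : O} (hϖ : Irreducible ϖ) (x y r : R) (k : ℕ)
    (hn : maximalIdeal R = Ideal.span {algebraMap O R ϖ, x, y})
    (hp₁ : (Ideal.span {algebraMap O R ϖ, y}).IsPrime)
    (hp₂ : (Ideal.span {algebraMap O R ϖ, x}).IsPrime)
    (hx₁ : x ∉ Ideal.span {algebraMap O R ϖ, y})
    (hy₂ : y ∉ Ideal.span {algebraMap O R ϖ, x})
    (hxy : x * y = algebraMap O R ϖ ^ (k + 1) * r)
    (ha : ϖ ^ (k + 1) ∣ ev x) (hb : ϖ ^ (k + 1) ∣ ev y)
    (D : R → R) (hadd : ∀ a b, D (a + b) = D a + D b)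
    (hmul : ∀ a b, D (a * b) = a * D b + b * D a) (hDP : D (algebraMap O R ϖ) = 0)
    (t₀ : R) (ht₀ : ev t₀ = 0) : ϖ ^ (k + 1) ∣ ev (D t₀) := by
  have hker := s34la_ker_eq_pair ev hϖ x y hn
  have hP0 := s34la_unif_ne_zero ev hϖ
  set P : R := algebraMap O R ϖ with hP
  have hevϖ : ev P = ϖ := by
    rw [hP, AlgHom.commutes]
    rfl
  obtain ⟨a', ha'⟩ := ha
  obtain ⟨b', hb'⟩ := hb
  have hA : algebraMap O R (ev x) = P ^ (k + 1) * algebraMap O R a' := by
    rw [ha', map_mul, map_pow]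
  have hB : algebraMap O R (ev y) = P ^ (k + 1) * algebraMap O R b' := by
    rw [hb', map_mul, map_pow]
  obtain ⟨a₁, b₁, h1⟩ := s34la_thick_half P x y r (algebraMap O R a') (algebraMap O R b') k hP0
    hp₂ hy₂ hxy D hmul hDP
  obtain ⟨a₂, b₂, h2⟩ := s34la_thick_half P y x r (algebraMap O R b') (algebraMap O R a') k hP0
    hp₁ hx₁ (by rw [mul_comm]; exact hxy) D hmul hDP
  rw [← hA] at h1
  rw [← hB] at h2
  have htk : t₀ ∈ RingHom.ker (ev : R →+* O) := RingHom.mem_ker.2 ht₀
  rw [hker, Ideal.mem_span_pair] at htk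
  obtain ⟨α, β, hαβ⟩ := htk
  have hX0 : ev (x - algebraMap O R (ev x)) = 0 := by simp
  have hY0 : ev (y - algebraMap O R (ev y)) = 0 := by simp
  have hD : D t₀ = (x - algebraMap O R (ev x)) * D α + α * (P ^ (k + 1) * a₁ + x * b₁)
      + ((y - algebraMap O R (ev y)) * D β + β * (P ^ (k + 1) * a₂ + y * b₂)) := by
    rw [← hαβ, hadd, hmul, hmul, h1, h2]
    ring
  rw [hD]
  simp only [map_add, map_mul, map_pow, hX0, hY0, hevϖ, zero_mul, zero_add]
  rw [ha', hb']
  exact ⟨ev α * (ev a₁ + a' * ev b₁) + ev β * (ev a₂ + b' * ev b₂), by ring⟩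

end Thick

section Node

variable {O R : Type*} [CommRing O] [IsDomain O] [IsDiscreteValuationRing O]
  [CommRing R] [Algebra O R] [IsLocalRing R] [IsNoetherianRing R]

/-- Changing a generator modulo `P` does not change `(P, x)`. -/
theorem s34la_span_pair_sub (P x c : R) :
    Ideal.span {P, x - P * c} = Ideal.span {P, x} := by
  refine le_antisymm ?_ ?_
  · rw [Ideal.span_le]
    rintro z (rfl | rfl)
    · exact Ideal.subset_span (by simp)
    · exact Ideal.sub_mem _ (Ideal.subset_span (by simp))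
        (Ideal.mul_mem_right _ _ (Ideal.subset_span (by simp)))
  · rw [Ideal.span_le]
    rintro z (rfl | rfl)
    · exact Ideal.subset_span (by simp)
    · have e : z = (z - P * c) + P * c := by ring
      rw [SetLike.mem_coe, e]
      exact Ideal.add_mem _ (Ideal.subset_span (by simp))
        (Ideal.mul_mem_right _ _ (Ideal.subset_span (by simp)))

/-- Changing two generators modulo `P` does not change `(P, x, y)`. -/
theorem s34la_span_triple_sub (P x y c d : R) :
    Ideal.span {P, x - P * c, y - P * d} = Ideal.span {P, x, y} := by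
  refine le_antisymm ?_ ?_
  · rw [Ideal.span_le]
    rintro z (rfl | rfl | rfl)
    · exact Ideal.subset_span (by simp)
    · exact Ideal.sub_mem _ (Ideal.subset_span (by simp))
        (Ideal.mul_mem_right _ _ (Ideal.subset_span (by simp)))
    · exact Ideal.sub_mem _ (Ideal.subset_span (by simp))
        (Ideal.mul_mem_right _ _ (Ideal.subset_span (by simp)))
  · rw [Ideal.span_le]
    rintro z (rfl | rfl | rfl)
    · exact Ideal.subset_span (by simp)
    · have e : z = (z - P * c) + P * c := by ring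
      rw [SetLike.mem_coe, e]
      exact Ideal.add_mem _ (Ideal.subset_span (by simp))
        (Ideal.mul_mem_right _ _ (Ideal.subset_span (by simp)))
    · have e : z = (z - P * d) + P * d := by ring
      rw [SetLike.mem_coe, e]
      exact Ideal.add_mem _ (Ideal.subset_span (by simp))
        (Ideal.mul_mem_right _ _ (Ideal.subset_span (by simp)))

/-- The terminal case of the iteration: if `ϖ^(k+1)` does not divide `ev x` (and
`x y ∈ ϖ^(k+1) R`) then `x - ev x` generates `q_P` up to a power of `ϖ`. -/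
theorem s34la_loc_then (ev : R →ₐ[O] O) {ϖ : O} (hϖ : Irreducible ϖ) (x y r : R) (k : ℕ)
    (hn : maximalIdeal R = Ideal.span {algebraMap O R ϖ, x, y})
    (hxy : x * y = algebraMap O R ϖ ^ (k + 1) * r) (hnd : ¬ ϖ ^ (k + 1) ∣ ev x) :
    ∃ j : ℕ, j < k + 1 ∧ (∃ u : Oˣ, ev x = (u : O) * ϖ ^ j) ∧
      ∀ t, ev t = 0 → ∃ c, algebraMap O R ϖ ^ j * t = c * (x - algebraMap O R (ev x)) := by
  have hx0 : ev x ≠ 0 := by
    intro h0
    exact hnd (h0 ▸ dvd_zero _)
  obtain ⟨j, u, hu⟩ := IsDiscreteValuationRing.eq_unit_mul_pow_irreducible hx0 hϖ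
  have hj : j < k + 1 := by
    by_contra hge
    have hge' : k + 1 ≤ j := not_lt.mp hge
    refine hnd ?_
    rw [hu]
    exact Dvd.dvd.mul_left (pow_dvd_pow ϖ hge') _
  exact ⟨j, hj, ⟨u, hu⟩, fun t ht => s34la_lemma2 ev hϖ x y r k hn hxy j u hu hj t ht⟩

end Node

section NodeMain

variable {O R : Type*} [CommRing O] [IsDomain O] [IsDiscreteValuationRing O]
  [CommRing R] [IsDomain R] [Algebra O R] [IsLocalRing R] [IsNoetherianRing R]

/-- The iteration behind [LOC] at a double point. -/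
theorem s34la_loc_node_aux (ev : R →ₐ[O] O) {ϖ : O} (hϖ : Irreducible ϖ)
    (D : R → R) (hadd : ∀ a b, D (a + b) = D a + D b)
    (hmul : ∀ a b, D (a * b) = a * D b + b * D a) (hDP : D (algebraMap O R ϖ) = 0)
    (t₀ : R) (ht₀ : ev t₀ = 0) (M : ℕ) (u : Oˣ) (hM : ev (D t₀) = (u : O) * ϖ ^ M) :
    ∀ (d k : ℕ) (x y r : R), M ≤ k + d →
      maximalIdeal R = Ideal.span {algebraMap O R ϖ, x, y} →
      (Ideal.span {algebraMap O R ϖ, y}).IsPrime →
      (Ideal.span {algebraMap O R ϖ, x}).IsPrime →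
      x ∉ Ideal.span {algebraMap O R ϖ, y} →
      y ∉ Ideal.span {algebraMap O R ϖ, x} →
      x * y = algebraMap O R ϖ ^ (k + 1) * r →
      ∃ (z : R) (j : ℕ), (∃ v : Oˣ, ev z = (v : O) * ϖ ^ j) ∧
        ((∃ e, z = x - algebraMap O R ϖ * e) ∨ (∃ e, z = y - algebraMap O R ϖ * e)) ∧
        ∀ t, ev t = 0 → ∃ c, algebraMap O R ϖ ^ j * t = c * (z - algebraMap O R (ev z)) := by
  intro d
  induction d with
  | zero =>
    intro k x y r hMk hn hp₁ hp₂ hx₁ hy₂ hxy
    by_cases hdx : ϖ ^ (k + 1) ∣ ev x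
    · by_cases hdy : ϖ ^ (k + 1) ∣ ev y
      · exfalso
        have h1 := s34la_thick ev hϖ x y r k hn hp₁ hp₂ hx₁ hy₂ hxy hdx hdy D hadd hmul hDP
          t₀ ht₀
        rw [hM] at h1
        have h2 := s34la_le_of_pow_dvd hϖ u h1
        omega
      · have hn' : maximalIdeal R = Ideal.span {algebraMap O R ϖ, y, x} := by
          rw [hn, Set.pair_comm x y]
        obtain ⟨j, _, hv, hj⟩ := s34la_loc_then ev hϖ y x r k hn'
          (by rw [mul_comm]; exact hxy) hdy
        exact ⟨y, j, hv, Or.inr ⟨0, by ring⟩, hj⟩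
    · obtain ⟨j, _, hv, hj⟩ := s34la_loc_then ev hϖ x y r k hn hxy hdx
      exact ⟨x, j, hv, Or.inl ⟨0, by ring⟩, hj⟩
  | succ d ih =>
    intro k x y r hMk hn hp₁ hp₂ hx₁ hy₂ hxy
    by_cases hdx : ϖ ^ (k + 1) ∣ ev x
    · by_cases hdy : ϖ ^ (k + 1) ∣ ev y
      · obtain ⟨c, e, r', hstep⟩ := s34la_step ev hϖ x y r k hn hxy hdx hdy
        have ec : x - algebraMap O R ϖ ^ (k + 1) * c
            = x - algebraMap O R ϖ * (algebraMap O R ϖ ^ k * c) := by ring
        have ee : y - algebraMap O R ϖ ^ (k + 1) * e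
            = y - algebraMap O R ϖ * (algebraMap O R ϖ ^ k * e) := by ring
        rw [ec, ee] at hstep
        have hspx := s34la_span_pair_sub (algebraMap O R ϖ) x (algebraMap O R ϖ ^ k * c)
        have hspy := s34la_span_pair_sub (algebraMap O R ϖ) y (algebraMap O R ϖ ^ k * e)
        have hx₁' : x - algebraMap O R ϖ * (algebraMap O R ϖ ^ k * c) ∉
            Ideal.span {algebraMap O R ϖ, y - algebraMap O R ϖ * (algebraMap O R ϖ ^ k * e)} := by
          rw [hspy]
          intro hmem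
          refine hx₁ ?_
          have e1 : x = (x - algebraMap O R ϖ * (algebraMap O R ϖ ^ k * c))
              + algebraMap O R ϖ * (algebraMap O R ϖ ^ k * c) := by ring
          rw [e1]
          exact Ideal.add_mem _ hmem (Ideal.mul_mem_right _ _ (Ideal.subset_span (by simp)))
        have hy₂' : y - algebraMap O R ϖ * (algebraMap O R ϖ ^ k * e) ∉
            Ideal.span {algebraMap O R ϖ, x - algebraMap O R ϖ * (algebraMap O R ϖ ^ k * c)} := by
          rw [hspx]
          intro hmem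
          refine hy₂ ?_
          have e1 : y = (y - algebraMap O R ϖ * (algebraMap O R ϖ ^ k * e))
              + algebraMap O R ϖ * (algebraMap O R ϖ ^ k * e) := by ring
          rw [e1]
          exact Ideal.add_mem _ hmem (Ideal.mul_mem_right _ _ (Ideal.subset_span (by simp)))
        obtain ⟨z, j, hv, hz, hj⟩ := ih (k + 1)
          (x - algebraMap O R ϖ * (algebraMap O R ϖ ^ k * c))
          (y - algebraMap O R ϖ * (algebraMap O R ϖ ^ k * e)) r' (by omega)
          (by rw [hn, s34la_span_triple_sub]) (by rw [hspy]; exact hp₁)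
          (by rw [hspx]; exact hp₂) hx₁' hy₂' hstep
        refine ⟨z, j, hv, ?_, hj⟩
        rcases hz with ⟨e', he'⟩ | ⟨e', he'⟩
        · exact Or.inl ⟨algebraMap O R ϖ ^ k * c + e', by rw [he']; ring⟩
        · exact Or.inr ⟨algebraMap O R ϖ ^ k * e + e', by rw [he']; ring⟩
      · have hn' : maximalIdeal R = Ideal.span {algebraMap O R ϖ, y, x} := by
          rw [hn, Set.pair_comm x y]
        obtain ⟨j, _, hv, hj⟩ := s34la_loc_then ev hϖ y x r k hn'
          (by rw [mul_comm]; exact hxy) hdy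
        exact ⟨y, j, hv, Or.inr ⟨0, by ring⟩, hj⟩
    · obtain ⟨j, _, hv, hj⟩ := s34la_loc_then ev hϖ x y r k hn hxy hdx
      exact ⟨x, j, hv, Or.inl ⟨0, by ring⟩, hj⟩

/-- **[LOC] at an ordinary double point.**  `R` is a noetherian local domain over the discrete
valuation ring `O`, with maximal ideal `(ϖ, x, y)`, the two branches `(ϖ, y)` and `(ϖ, x)` are
prime, `x` is not in the first, `y` not in the second and `x y ∈ ϖ R`.  If `R` carries a
derivation `D` killing `ϖ` and an element `t₀` of `q_P = ker ev` with `ev (D t₀) ≠ 0`, then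
`q_P` is generated, up to a power of `ϖ`, by one element `z - ev z`, where `z ≡ x` or
`z ≡ y` modulo `ϖ` and `ev z = v ϖ ^ j` with `v` a unit. -/
theorem s34la_loc_node (ev : R →ₐ[O] O) {ϖ : O} (hϖ : Irreducible ϖ) (x y : R)
    (hn : maximalIdeal R = Ideal.span {algebraMap O R ϖ, x, y})
    (hp₁ : (Ideal.span {algebraMap O R ϖ, y}).IsPrime)
    (hp₂ : (Ideal.span {algebraMap O R ϖ, x}).IsPrime)
    (hx₁ : x ∉ Ideal.span {algebraMap O R ϖ, y})
    (hy₂ : y ∉ Ideal.span {algebraMap O R ϖ, x})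
    (hxy : ∃ r, x * y = algebraMap O R ϖ * r)
    (D : R → R) (hadd : ∀ a b, D (a + b) = D a + D b)
    (hmul : ∀ a b, D (a * b) = a * D b + b * D a) (hDP : D (algebraMap O R ϖ) = 0)
    (t₀ : R) (ht₀ : ev t₀ = 0) (hDt₀ : ev (D t₀) ≠ 0) :
    ∃ (z : R) (j : ℕ), (∃ v : Oˣ, ev z = (v : O) * ϖ ^ j) ∧
      ((∃ e, z = x - algebraMap O R ϖ * e) ∨ (∃ e, z = y - algebraMap O R ϖ * e)) ∧
      z - algebraMap O R (ev z) ≠ 0 ∧
      ∀ t, ev t = 0 → ∃ c, algebraMap O R ϖ ^ j * t = c * (z - algebraMap O R (ev z)) := by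
  obtain ⟨M, u, hM⟩ := IsDiscreteValuationRing.eq_unit_mul_pow_irreducible hDt₀ hϖ
  obtain ⟨r, hr⟩ := hxy
  obtain ⟨z, j, hv, hz, hj⟩ := s34la_loc_node_aux ev hϖ D hadd hmul hDP t₀ ht₀ M u hM M 0 x y r
    (by omega) hn hp₁ hp₂ hx₁ hy₂ (by rw [hr]; ring)
  refine ⟨z, j, hv, hz, ?_, hj⟩
  intro h0
  obtain ⟨c, hc⟩ := hj t₀ ht₀
  rw [h0, mul_zero] at hc
  have ht0 : t₀ = 0 :=
    (mul_eq_zero.1 hc).resolve_left (pow_ne_zero _ (s34la_unif_ne_zero ev hϖ))
  have hD0 : D 0 = 0 := by
    have h1 := hadd 0 0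
    rw [add_zero] at h1
    have h2 : D 0 + 0 = D 0 + D 0 := by rw [add_zero]; exact h1
    exact (add_left_cancel h2).symm
  rw [ht0, hD0, map_zero] at hDt₀
  exact hDt₀ rfl

end NodeMain

section Smooth

variable {O R : Type*} [CommRing O] [IsDomain O] [IsDiscreteValuationRing O]
  [CommRing R] [Algebra O R] [IsLocalRing R] [IsNoetherianRing R]

/-- **[LOC] at a point with one local equation**: if `n = (ϖ, h)` then `h - ev h` generates
`q_P`. -/
theorem s34la_loc_smooth (ev : R →ₐ[O] O) {ϖ : O} (hϖ : Irreducible ϖ) (h : R)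
    (hn : maximalIdeal R = Ideal.span {algebraMap O R ϖ, h}) (t : R) (ht : ev t = 0) :
    ∃ c, t = c * (h - algebraMap O R (ev h)) := by
  have htk : t ∈ RingHom.ker (ev : R →+* O) := RingHom.mem_ker.2 ht
  rw [s34la_ker_eq_single ev hϖ h hn] at htk
  obtain ⟨c, hc⟩ := Ideal.mem_span_singleton'.1 htk
  exact ⟨c, hc.symm⟩

/-- Degenerate case: if `n = (ϖ)` then `q_P = 0`. -/
theorem s34la_loc_trivial (ev : R →ₐ[O] O) {ϖ : O} (hϖ : Irreducible ϖ)
    (hn : maximalIdeal R = Ideal.span {algebraMap O R ϖ}) (t : R) (ht : ev t = 0) : t = 0 := by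
  have hn' : maximalIdeal R = Ideal.span {algebraMap O R ϖ, (0 : R)} := by
    rw [hn]
    refine le_antisymm (Ideal.span_mono (by simp)) ?_
    rw [Ideal.span_le]
    rintro z (rfl | rfl)
    · exact Ideal.subset_span (by simp)
    · exact Ideal.zero_mem _
  obtain ⟨c, hc⟩ := s34la_loc_smooth ev hϖ 0 hn' t ht
  rw [hc]
  simp

end Smooth

end Fermat.Agent.S34
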