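/-
S34, leaf [LOC-GLOB] (owner: helper4).  Prefix `s34lg_`.  Mathlib + `S34/LocAbs.lean`.

THE CHART-LEVEL FORM OF [LOC].  `O` a discrete valuation ring with uniformizer `ϖ`, `B` a
noetherian domain over `O` (a chart of the model) with field of fractions `F`, `ev : B →ₐ[O] O`
an `O`-point (a place of degree one with centre on the chart), `n = ev⁻¹ (𝔪_O)` the closed point
of the special fibre through which it passes, `R` a localisation of `B` at `n`.

* `s34lg_ev`: the extension of `ev` to `R`;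
* `s34lg_iota`: the embedding `R → F`;
* `s34lg_der`: the restriction to `R` of a derivation `D` of `F` with `D B ⊆ B`;
* `s34lg_node`: [LOC] at a double point, conclusion in `F`, no localisation in the conclusion;
* `s34lg_smooth`: [LOC] at a point with one local equation.
-/
import Mathlib
import Fermat.Agent.S34.LocAbs

set_option autoImplicit false
set_option linter.unusedSectionVars false
set_option linter.style.haveILetI false

namespace Fermat.Agent.S34

open IsLocalRing

noncomputable section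

section Ext

variable {O : Type*} [CommRing O] [IsDomain O] [IsDiscreteValuationRing O]
  {B : Type*} [CommRing B] [IsDomain B] [Algebra O B]
  {F : Type*} [Field F] [Algebra B F] [IsFractionRing B F]
  (n : Ideal B) [n.IsPrime]
  (R : Type*) [CommRing R] [Algebra B R] [Algebra O R] [IsScalarTower O B R]
  [IsLocalization.AtPrime R n]

/-- The elements outside `n = ev⁻¹ (𝔪_O)` are mapped to units by `ev`. -/
theorem s34lg_isUnit_ev (ev : B →ₐ[O] O) (hn : ∀ b, b ∈ n ↔ ev b ∈ maximalIdeal O)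
    (y : n.primeCompl) : IsUnit (ev (y : B)) := by
  by_contra h
  exact y.2 ((hn _).2 ((IsLocalRing.mem_maximalIdeal _).2 h))

/-- The extension of the `O`-point `ev` to the localisation at its centre. -/
def s34lg_ev (ev : B →ₐ[O] O) (hn : ∀ b, b ∈ n ↔ ev b ∈ maximalIdeal O) : R →ₐ[O] O :=
  IsLocalization.liftAlgHom (M := n.primeCompl) (f := ev) (s34lg_isUnit_ev n ev hn)

theorem s34lg_ev_algebraMap (ev : B →ₐ[O] O) (hn : ∀ b, b ∈ n ↔ ev b ∈ maximalIdeal O)
    (b : B) : s34lg_ev n R ev hn (algebraMap B R b) = ev b := by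
  unfold s34lg_ev
  rw [IsLocalization.liftAlgHom_apply]
  exact IsLocalization.lift_eq _ b

/-- The elements outside `n` are units of `F`. -/
theorem s34lg_isUnit_frac (y : n.primeCompl) : IsUnit (algebraMap B F (y : B)) := by
  refine IsUnit.mk0 _ ?_
  intro h
  have h0 : (y : B) = 0 := IsFractionRing.injective B F (h.trans (map_zero _).symm)
  exact y.2 (h0 ▸ n.zero_mem)

/-- The embedding of the localisation at `n` into the field of fractions. -/
def s34lg_iota : R →+* F :=
  IsLocalization.lift (M := n.primeCompl) (g := algebraMap B F) (s34lg_isUnit_frac n)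

theorem s34lg_iota_algebraMap (b : B) :
    s34lg_iota (F := F) n R (algebraMap B R b) = algebraMap B F b :=
  IsLocalization.lift_eq _ b

theorem s34lg_iota_injective : Function.Injective (s34lg_iota (F := F) n R) := by
  unfold s34lg_iota
  rw [IsLocalization.lift_injective_iff]
  intro x y
  constructor
  · intro h
    rw [IsLocalization.injective R (M := n.primeCompl) n.primeCompl_le_nonZeroDivisors h]
  · intro h
    rw [IsFractionRing.injective B F h]

/-- Every element of `R` is a fraction `b / s` with `s ∉ n`. -/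
theorem s34lg_exists_frac (r : R) :
    ∃ b s : B, s ∉ n ∧ r * algebraMap B R s = algebraMap B R b := by
  obtain ⟨⟨b, s⟩, hbs⟩ := IsLocalization.mk'_surjective n.primeCompl r
  refine ⟨b, s, s.2, ?_⟩
  rw [← hbs]
  exact IsLocalization.mk'_spec R b s

/-- An element of `F` which becomes an element of `R` after multiplication by an element
outside `n` is in the image of `R`. -/
theorem s34lg_mem_of_mul (f : F) (r : R) (s : B) (hs : s ∉ n)
    (h : f * algebraMap B F s = s34lg_iota (F := F) n R r) :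
    ∃ r' : R, s34lg_iota (F := F) n R r' = f := by
  have hu : IsUnit (algebraMap B R s) :=
    IsLocalization.map_units R (⟨s, hs⟩ : n.primeCompl)
  obtain ⟨u, hu'⟩ := hu
  refine ⟨r * ((u⁻¹ : Rˣ) : R), ?_⟩
  have hs0 : algebraMap B F s ≠ 0 := (s34lg_isUnit_frac (F := F) n ⟨s, hs⟩).ne_zero
  have h1 : s34lg_iota (F := F) n R ((u⁻¹ : Rˣ) : R) * algebraMap B F s = 1 := by
    rw [← s34lg_iota_algebraMap n R s, ← map_mul, ← hu', Units.inv_mul, map_one]
  rw [map_mul, ← h]
  calc f * algebraMap B F s * s34lg_iota (F := F) n R ((u⁻¹ : Rˣ) : R)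
      = f * (s34lg_iota (F := F) n R ((u⁻¹ : Rˣ) : R) * algebraMap B F s) := by ring
    _ = f := by rw [h1, mul_one]

variable (D : F → F) (hadd : ∀ a b, D (a + b) = D a + D b)
  (hmul : ∀ a b, D (a * b) = a * D b + b * D a)
  (hDB : ∀ b : B, ∃ b' : B, D (algebraMap B F b) = algebraMap B F b')

include hmul hDB in
/-- A derivation of `F` which maps `B` into `B` maps `R` into `R`. -/
theorem s34lg_der_exists (r : R) :
    ∃ r' : R, s34lg_iota (F := F) n R r' = D (s34lg_iota (F := F) n R r) := by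
  obtain ⟨b, s, hs, hbs⟩ := s34lg_exists_frac n R r
  obtain ⟨b', hb'⟩ := hDB b
  obtain ⟨s', hs'⟩ := hDB s
  have h1 : s34lg_iota (F := F) n R r * algebraMap B F s = algebraMap B F b := by
    rw [← s34lg_iota_algebraMap n R s, ← map_mul, hbs, s34lg_iota_algebraMap]
  have h2 := hmul (s34lg_iota (F := F) n R r) (algebraMap B F s)
  rw [h1, hb', hs'] at h2
  refine s34lg_mem_of_mul n R _ (algebraMap B R b' - r * algebraMap B R s') s hs ?_
  rw [map_sub, map_mul, s34lg_iota_algebraMap, s34lg_iota_algebraMap, h2]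
  ring

/-- The restriction to `R` of a derivation of `F` which maps `B` into `B`. -/
def s34lg_der (r : R) : R := Classical.choose (s34lg_der_exists n R D hmul hDB r)

theorem s34lg_der_spec (r : R) :
    s34lg_iota (F := F) n R (s34lg_der n R D hmul hDB r) = D (s34lg_iota (F := F) n R r) :=
  Classical.choose_spec (s34lg_der_exists n R D hmul hDB r)

include hadd in
theorem s34lg_der_add (a b : R) :
    s34lg_der n R D hmul hDB (a + b) = s34lg_der n R D hmul hDB a + s34lg_der n R D hmul hDB b := by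
  apply s34lg_iota_injective (F := F) n R
  rw [map_add, s34lg_der_spec, s34lg_der_spec, s34lg_der_spec, map_add, hadd]

theorem s34lg_der_mul (a b : R) :
    s34lg_der n R D hmul hDB (a * b) =
      a * s34lg_der n R D hmul hDB b + b * s34lg_der n R D hmul hDB a := by
  apply s34lg_iota_injective (F := F) n R
  rw [map_add, map_mul, map_mul, s34lg_der_spec, s34lg_der_spec, s34lg_der_spec, map_mul, hmul]

theorem s34lg_der_algebraMap (b b' : B) (h : D (algebraMap B F b) = algebraMap B F b') :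
    s34lg_der n R D hmul hDB (algebraMap B R b) = algebraMap B R b' := by
  apply s34lg_iota_injective (F := F) n R
  rw [s34lg_der_spec, s34lg_iota_algebraMap, s34lg_iota_algebraMap, h]

end Ext

section Main

variable {O : Type*} [CommRing O] [IsDomain O] [IsDiscreteValuationRing O]
  {B : Type*} [CommRing B] [IsDomain B] [Algebra O B]
  {F : Type*} [Field F] [Algebra B F] [IsFractionRing B F]

/-- `g ∈ F` is a **local generator** of the `O`-point `ev` at its centre `n`, up to `ϖ ^ j`: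
`g ≠ 0`, `g ∈ q_P B_n` and `ϖ ^ j q_P ⊆ g B_n`, where `q_P = ker ev`. -/
def s34lg_IsGen (n : Ideal B) (ev : B →ₐ[O] O) (ϖ : O) (g : F) (j : ℕ) : Prop :=
  g ≠ 0 ∧ (∃ b s : B, s ∉ n ∧ ev b = 0 ∧ g * algebraMap B F s = algebraMap B F b) ∧
    ∀ t : B, ev t = 0 → ∃ c s : B, s ∉ n ∧
      algebraMap B F (algebraMap O B ϖ) ^ j * algebraMap B F t * algebraMap B F s =
        algebraMap B F c * g

variable [IsNoetherianRing B] (n : Ideal B) [n.IsPrime]
  (R : Type*) [CommRing R] [Algebra B R] [Algebra O R] [IsScalarTower O B R]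
  [IsLocalization.AtPrime R n] [IsLocalRing R]

/-- Transport of a generator of `q_P R` (up to `ϖ ^ j`) to `F`. -/
theorem s34lg_isGen_of (ev : B →ₐ[O] O) (hn : ∀ b, b ∈ n ↔ ev b ∈ maximalIdeal O) (ϖ : O)
    (gR : R) (j : ℕ) (hg0 : gR ≠ 0) (hgev : s34lg_ev n R ev hn gR = 0)
    (hgen : ∀ t : R, s34lg_ev n R ev hn t = 0 →
      ∃ c : R, algebraMap O R ϖ ^ j * t = c * gR) :
    s34lg_IsGen n ev ϖ (s34lg_iota (F := F) n R gR) j := by
  refine ⟨?_, ?_, ?_⟩
  · intro h0
    exact hg0 (s34lg_iota_injective (F := F) n R (h0.trans (map_zero _).symm))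
  · obtain ⟨b, s, hs, hbs⟩ := s34lg_exists_frac n R gR
    refine ⟨b, s, hs, ?_, ?_⟩
    · rw [← s34lg_ev_algebraMap n R ev hn b, ← hbs, map_mul, hgev, zero_mul]
    · rw [← s34lg_iota_algebraMap n R s, ← map_mul, hbs, s34lg_iota_algebraMap]
  · intro t ht
    have htR : s34lg_ev n R ev hn (algebraMap B R t) = 0 := by
      rw [s34lg_ev_algebraMap, ht]
    obtain ⟨c, hc⟩ := hgen _ htR
    obtain ⟨c₀, s, hs, hcs⟩ := s34lg_exists_frac n R c
    refine ⟨c₀, s, hs, ?_⟩
    have h1 : algebraMap B R (algebraMap O B ϖ) ^ j * algebraMap B R t * algebraMap B R s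
        = algebraMap B R c₀ * gR := by
      rw [← IsScalarTower.algebraMap_apply O B R, hc, ← hcs]
      ring
    have h2 := congrArg (s34lg_iota (F := F) n R) h1
    rw [map_mul, map_mul, map_pow, map_mul, s34lg_iota_algebraMap, s34lg_iota_algebraMap,
      s34lg_iota_algebraMap, s34lg_iota_algebraMap] at h2
    exact h2

/-- **[LOC] at an ordinary double point, chart form.**  `B` a noetherian domain over the discrete
valuation ring `O`, `ev : B →ₐ[O] O` an `O`-point, `n = ev⁻¹ 𝔪_O`, `R` a localisation of `B` at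
`n` in which `n R = (ϖ, x, y)`, `(ϖ, y)` and `(ϖ, x)` are prime, `x ∉ (ϖ, y)`, `y ∉ (ϖ, x)`,
`x y ∈ ϖ R`; `D` a derivation of `F = Frac B` with `D ϖ = 0`, `D B ⊆ B` and `ev (D t₀) ≠ 0`
for some `t₀ ∈ q_P`.  Then the `O`-point has a local generator at `n` up to a power of `ϖ`. -/
theorem s34lg_node (ev : B →ₐ[O] O) (hn : ∀ b, b ∈ n ↔ ev b ∈ maximalIdeal O) {ϖ : O}
    (hϖ : Irreducible ϖ) (x y : B)
    (hnR : maximalIdeal R = Ideal.span {algebraMap O R ϖ, algebraMap B R x, algebraMap B R y})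
    (hp₁ : (Ideal.span {algebraMap O R ϖ, algebraMap B R y}).IsPrime)
    (hp₂ : (Ideal.span {algebraMap O R ϖ, algebraMap B R x}).IsPrime)
    (hx₁ : algebraMap B R x ∉ Ideal.span {algebraMap O R ϖ, algebraMap B R y})
    (hy₂ : algebraMap B R y ∉ Ideal.span {algebraMap O R ϖ, algebraMap B R x})
    (hxy : ∃ r : R, algebraMap B R x * algebraMap B R y = algebraMap O R ϖ * r)
    (D : F → F) (hadd : ∀ a b, D (a + b) = D a + D b)
    (hmul : ∀ a b, D (a * b) = a * D b + b * D a)
    (hDP : D (algebraMap B F (algebraMap O B ϖ)) = 0)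
    (hDB : ∀ b : B, ∃ b' : B, D (algebraMap B F b) = algebraMap B F b')
    (t₀ : B) (ht₀ : ev t₀ = 0)
    (hDt₀ : ∃ b' : B, D (algebraMap B F t₀) = algebraMap B F b' ∧ ev b' ≠ 0) :
    ∃ (g : F) (j : ℕ), s34lg_IsGen n ev ϖ g j := by
  haveI : IsNoetherianRing R := IsLocalization.isNoetherianRing n.primeCompl R inferInstance
  haveI : IsDomain R := IsLocalization.isDomain_of_atPrime R n
  have hDPR : s34lg_der n R D hmul hDB (algebraMap O R ϖ) = 0 := by
    rw [IsScalarTower.algebraMap_apply O B R,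
      s34lg_der_algebraMap n R D hmul hDB _ 0 (by rw [hDP, map_zero]), map_zero]
  obtain ⟨b', hb', hevb'⟩ := hDt₀
  have ht₀R : s34lg_ev n R ev hn (algebraMap B R t₀) = 0 := by
    rw [s34lg_ev_algebraMap, ht₀]
  have hDt₀R : s34lg_ev n R ev hn (s34lg_der n R D hmul hDB (algebraMap B R t₀)) ≠ 0 := by
    rw [s34lg_der_algebraMap n R D hmul hDB _ b' hb', s34lg_ev_algebraMap]
    exact hevb'
  obtain ⟨z, j, -, -, hz0, hz⟩ := s34la_loc_node (s34lg_ev n R ev hn) hϖ (algebraMap B R x)
    (algebraMap B R y) hnR hp₁ hp₂ hx₁ hy₂ hxy (s34lg_der n R D hmul hDB)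
    (s34lg_der_add n R D hadd hmul hDB) (s34lg_der_mul n R D hmul hDB) hDPR
    (algebraMap B R t₀) ht₀R hDt₀R
  exact ⟨_, j, s34lg_isGen_of n R ev hn ϖ _ j hz0 (by simp) hz⟩

/-- **[LOC] at a point with one local equation, chart form.** -/
theorem s34lg_smooth (ev : B →ₐ[O] O) (hn : ∀ b, b ∈ n ↔ ev b ∈ maximalIdeal O) {ϖ : O}
    (hϖ : Irreducible ϖ) (h : B)
    (hnR : maximalIdeal R = Ideal.span {algebraMap O R ϖ, algebraMap B R h})
    (t₀ : B) (ht₀ : ev t₀ = 0) (ht₀' : t₀ ≠ 0) :
    ∃ g : F, s34lg_IsGen n ev ϖ g 0 := by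
  haveI : IsNoetherianRing R := IsLocalization.isNoetherianRing n.primeCompl R inferInstance
  have hgen := s34la_loc_smooth (s34lg_ev n R ev hn) hϖ (algebraMap B R h) hnR
  refine ⟨_, s34lg_isGen_of n R ev hn ϖ
    (algebraMap B R h - algebraMap O R (s34lg_ev n R ev hn (algebraMap B R h))) 0 ?_ (by simp)
    ?_⟩
  · intro h0
    have ht₀R : s34lg_ev n R ev hn (algebraMap B R t₀) = 0 := by
      rw [s34lg_ev_algebraMap, ht₀]
    obtain ⟨c, hc⟩ := hgen _ ht₀R
    rw [h0, mul_zero] at hc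
    exact ht₀' (IsLocalization.injective R (M := n.primeCompl) n.primeCompl_le_nonZeroDivisors
      (hc.trans (map_zero _).symm))
  · intro t ht
    obtain ⟨c, hc⟩ := hgen t ht
    exact ⟨c, by rw [pow_zero, one_mul]; exact hc⟩

end Main

section Use

variable {O : Type*} [CommRing O] [IsDomain O] [IsDiscreteValuationRing O]
  {B : Type*} [CommRing B] [IsDomain B] [Algebra O B]
  {F : Type*} [Field F] [Algebra B F] [IsFractionRing B F]

/-- A local generator of the `O`-point `ev` is a unit at every prime `𝔮 ⊆ n` not containing `ϖ`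
and not containing `q_P = ker ev`. -/
theorem s34lg_isGen_unitAt {n : Ideal B} {ev : B →ₐ[O] O} {ϖ : O} {g : F} {j : ℕ}
    (hg : s34lg_IsGen n ev ϖ g j) (𝔮 : Ideal B) [𝔮.IsPrime] (hqn : 𝔮 ≤ n)
    (hP : algebraMap O B ϖ ∉ 𝔮) (t : B) (ht : ev t = 0) (htq : t ∉ 𝔮) :
    ∃ a b : B, a ∉ 𝔮 ∧ b ∉ 𝔮 ∧ g * algebraMap B F b = algebraMap B F a := by
  obtain ⟨-, ⟨b₀, s₀, hs₀, -, hbs⟩, hgen⟩ := hg
  obtain ⟨c, s, hs, hcs⟩ := hgen t ht
  refine ⟨b₀, s₀, ?_, fun h => hs₀ (hqn h), hbs⟩
  intro hb₀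
  have h1 : algebraMap O B ϖ ^ j * t * s * s₀ = c * b₀ := by
    apply IsFractionRing.injective B F
    rw [map_mul, map_mul, map_mul, map_mul, map_pow, hcs, ← hbs]
    ring
  have h2 : algebraMap O B ϖ ^ j * t * s * s₀ ∈ 𝔮 := by
    rw [h1]
    exact Ideal.mul_mem_left _ _ hb₀
  have hq : 𝔮.IsPrime := inferInstance
  rcases hq.mem_or_mem h2 with h3 | h3
  · rcases hq.mem_or_mem h3 with h4 | h4
    · rcases hq.mem_or_mem h4 with h5 | h5
      · exact hP (hq.mem_of_pow_mem _ h5)
      · exact htq h5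
    · exact hs (hqn h4)
  · exact hs₀ (hqn h3)

/-- A local generator of the `O`-point `ev` generates `q_P = ker ev` in the localisation of `B`
at `q_P`. -/
theorem s34lg_isGen_gen {n : Ideal B} {ev : B →ₐ[O] O} {ϖ : O} {g : F} {j : ℕ}
    (hϖ : Irreducible ϖ) (hn : ∀ b, b ∈ n ↔ ev b ∈ maximalIdeal O)
    (hg : s34lg_IsGen n ev ϖ g j) :
    (∃ b s : B, ev s ≠ 0 ∧ ev b = 0 ∧ g * algebraMap B F s = algebraMap B F b) ∧
      ∀ t : B, ev t = 0 → ∃ c s : B, ev s ≠ 0 ∧
        algebraMap B F t * algebraMap B F s = algebraMap B F c * g := by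
  have hne : ∀ s : B, s ∉ n → ev s ≠ 0 := by
    intro s hs h0
    apply hs
    rw [hn, h0]
    exact Ideal.zero_mem _
  obtain ⟨-, ⟨b₀, s₀, hs₀, hb₀, hbs⟩, hgen⟩ := hg
  refine ⟨⟨b₀, s₀, hne s₀ hs₀, hb₀, hbs⟩, ?_⟩
  intro t ht
  obtain ⟨c, s, hs, hcs⟩ := hgen t ht
  refine ⟨c, algebraMap O B ϖ ^ j * s, ?_, ?_⟩
  · rw [map_mul, map_pow, AlgHom.commutes]
    exact mul_ne_zero (pow_ne_zero _ hϖ.ne_zero) (hne s hs)
  · rw [← hcs, map_mul, map_pow]
    ring

end Use

end

end Fermat.Agent.S34
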