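/-
S34, leaf [LOC-GLOB], part 2 (owner: helper4).  Prefix `s34lg_`.
Mathlib + `S34/LocAbs.lean` + `S34/LocGlob.lean`.

[LOC] AT THE CHART LEVEL WITH LOCALISATION-FREE HYPOTHESES.  The node datum is given in the form
delivered by [SS-NODE] (`s34nd_core`): two primes `p₁ ∋ y`, `p₂ ∋ x` of `B` inside `n`, both
containing `ϖ`, with `p₁ ⊆ (ϖ, y)`, `p₂ ⊆ (ϖ, x)`, `n ⊆ (ϖ, x, y)` LOCALLY AT `n`
(`∀ z ∈ p, ∃ s ∉ n, s * z ∈ ...`), `x ∉ p₁`, `y ∉ p₂`, `x y ∈ ϖ B`.

* `s34lg_node_le`: [LOC] at a double point;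
* `s34lg_smooth_le`: [LOC] at a point with one local equation;
both with conclusion `∃ g j, s34lg_IsGen n ev ϖ g j`.
-/
import Mathlib
import Fermat.Agent.S34.LocGlob

set_option autoImplicit false
set_option linter.unusedSectionVars false
set_option linter.style.haveILetI false

namespace Fermat.Agent.S34

open IsLocalRing

section Bridge

variable {B : Type*} [CommRing B] (n : Ideal B) [n.IsPrime]
  (R : Type*) [CommRing R] [Algebra B R] [IsLocalization.AtPrime R n]

/-- If `I ≤ 𝔞` and `𝔞 ⊆ I` locally at `n`, then `𝔞` and `I` have the same extension to the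
localisation at `n`. -/
theorem s34lg_map_eq (𝔞 I : Ideal B) (hI : I ≤ 𝔞)
    (hle : ∀ z ∈ 𝔞, ∃ s : B, s ∉ n ∧ s * z ∈ I) :
    Ideal.map (algebraMap B R) 𝔞 = Ideal.map (algebraMap B R) I := by
  refine le_antisymm ?_ (Ideal.map_mono hI)
  rw [Ideal.map_le_iff_le_comap]
  intro z hz
  obtain ⟨s, hs, hsz⟩ := hle z hz
  rw [Ideal.mem_comap]
  have hu : IsUnit (algebraMap B R s) :=
    IsLocalization.map_units R (⟨s, hs⟩ : n.primeCompl)
  obtain ⟨u, hu'⟩ := hu
  have h1 : algebraMap B R (s * z) ∈ Ideal.map (algebraMap B R) I :=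
    Ideal.mem_map_of_mem _ hsz
  have h2 : algebraMap B R z = ((u⁻¹ : Rˣ) : R) * algebraMap B R (s * z) := by
    rw [map_mul, ← hu', ← mul_assoc, Units.inv_mul, one_mul]
  rw [h2]
  exact Ideal.mul_mem_left _ _ h1

/-- The extension of a prime inside `n` is prime. -/
theorem s34lg_map_isPrime (p : Ideal B) [hp : p.IsPrime] (hpn : p ≤ n) :
    (Ideal.map (algebraMap B R) p).IsPrime := by
  refine IsLocalization.isPrime_of_isPrime_disjoint n.primeCompl R p hp ?_
  rw [Set.disjoint_left]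
  intro a ha hap
  exact ha (hpn hap)

/-- Membership in the extension of a prime inside `n`. -/
theorem s34lg_mem_map_iff (p : Ideal B) [hp : p.IsPrime] (hpn : p ≤ n) (b : B) :
    algebraMap B R b ∈ Ideal.map (algebraMap B R) p ↔ b ∈ p := by
  have hd : Disjoint (n.primeCompl : Set B) (p : Set B) := by
    rw [Set.disjoint_left]
    intro a ha hap
    exact ha (hpn hap)
  have h : Ideal.comap (algebraMap B R) (Ideal.map (algebraMap B R) p) = p :=
    IsLocalization.under_map_of_isPrime_disjoint n.primeCompl R hp hd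
  constructor
  · intro hb
    have h1 : b ∈ Ideal.comap (algebraMap B R) (Ideal.map (algebraMap B R) p) :=
      Ideal.mem_comap.2 hb
    rwa [h] at h1
  · intro hb
    exact Ideal.mem_map_of_mem _ hb

end Bridge

section MainLe

variable {O : Type*} [CommRing O] [IsDomain O] [IsDiscreteValuationRing O]
  {B : Type*} [CommRing B] [IsDomain B] [Algebra O B] [IsNoetherianRing B]
  {F : Type*} [Field F] [Algebra B F] [IsFractionRing B F]
  (n : Ideal B) [n.IsPrime]

/-- **[LOC] at an ordinary double point, chart form, localisation-free hypotheses.** -/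
theorem s34lg_node_le (ev : B →ₐ[O] O) (hn : ∀ b, b ∈ n ↔ ev b ∈ maximalIdeal O) {ϖ : O}
    (hϖ : Irreducible ϖ) (p₁ p₂ : Ideal B) [p₁.IsPrime] [p₂.IsPrime]
    (hp₁n : p₁ ≤ n) (hp₂n : p₂ ≤ n)
    (hPp₁ : algebraMap O B ϖ ∈ p₁) (hPp₂ : algebraMap O B ϖ ∈ p₂)
    (x y : B) (hx : x ∈ p₂) (hy : y ∈ p₁) (hx₁ : x ∉ p₁) (hy₂ : y ∉ p₂)
    (h₁ : ∀ z ∈ p₁, ∃ s : B, s ∉ n ∧ s * z ∈ Ideal.span {algebraMap O B ϖ, y})
    (h₂ : ∀ z ∈ p₂, ∃ s : B, s ∉ n ∧ s * z ∈ Ideal.span {algebraMap O B ϖ, x})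
    (hnn : ∀ z ∈ n, ∃ s : B, s ∉ n ∧ s * z ∈ Ideal.span {algebraMap O B ϖ, x, y})
    (hxy : ∃ r : B, x * y = algebraMap O B ϖ * r)
    (D : F → F) (hadd : ∀ a b, D (a + b) = D a + D b)
    (hmul : ∀ a b, D (a * b) = a * D b + b * D a)
    (hDP : D (algebraMap B F (algebraMap O B ϖ)) = 0)
    (hDB : ∀ b : B, ∃ b' : B, D (algebraMap B F b) = algebraMap B F b')
    (t₀ : B) (ht₀ : ev t₀ = 0)
    (hDt₀ : ∃ b' : B, D (algebraMap B F t₀) = algebraMap B F b' ∧ ev b' ≠ 0) :
    ∃ (g : F) (j : ℕ), s34lg_IsGen n ev ϖ g j := by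
  have hPn : algebraMap O B ϖ ∈ n := hp₁n hPp₁
  have hxn : x ∈ n := hp₂n hx
  have hyn : y ∈ n := hp₁n hy
  have e₁ : Ideal.map (algebraMap B (Localization.AtPrime n)) p₁ =
      Ideal.span {algebraMap O (Localization.AtPrime n) ϖ,
        algebraMap B (Localization.AtPrime n) y} := by
    rw [s34lg_map_eq n (Localization.AtPrime n) p₁ (Ideal.span {algebraMap O B ϖ, y})
      (by
        rw [Ideal.span_le]
        rintro z (rfl | rfl)
        · exact hPp₁
        · exact hy) h₁, Ideal.map_span, Set.image_pair,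
      ← IsScalarTower.algebraMap_apply O B (Localization.AtPrime n)]
  have e₂ : Ideal.map (algebraMap B (Localization.AtPrime n)) p₂ =
      Ideal.span {algebraMap O (Localization.AtPrime n) ϖ,
        algebraMap B (Localization.AtPrime n) x} := by
    rw [s34lg_map_eq n (Localization.AtPrime n) p₂ (Ideal.span {algebraMap O B ϖ, x})
      (by
        rw [Ideal.span_le]
        rintro z (rfl | rfl)
        · exact hPp₂
        · exact hx) h₂, Ideal.map_span, Set.image_pair,
      ← IsScalarTower.algebraMap_apply O B (Localization.AtPrime n)]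
  have e₃ : maximalIdeal (Localization.AtPrime n) =
      Ideal.span {algebraMap O (Localization.AtPrime n) ϖ,
        algebraMap B (Localization.AtPrime n) x, algebraMap B (Localization.AtPrime n) y} := by
    rw [← IsLocalization.AtPrime.map_eq_maximalIdeal n (Localization.AtPrime n),
      s34lg_map_eq n (Localization.AtPrime n) n (Ideal.span {algebraMap O B ϖ, x, y})
      (by
        rw [Ideal.span_le]
        rintro z (rfl | rfl | rfl)
        · exact hPn
        · exact hxn
        · exact hyn) hnn, Ideal.map_span, Set.image_insert_eq, Set.image_pair,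
      ← IsScalarTower.algebraMap_apply O B (Localization.AtPrime n)]
  obtain ⟨r, hr⟩ := hxy
  refine s34lg_node (F := F) n (Localization.AtPrime n) ev hn hϖ x y e₃ ?_ ?_ ?_ ?_
    ⟨algebraMap B (Localization.AtPrime n) r, ?_⟩ D hadd hmul hDP hDB t₀ ht₀ hDt₀
  · rw [← e₁]
    exact s34lg_map_isPrime n (Localization.AtPrime n) p₁ hp₁n
  · rw [← e₂]
    exact s34lg_map_isPrime n (Localization.AtPrime n) p₂ hp₂n
  · rw [← e₁, s34lg_mem_map_iff n (Localization.AtPrime n) p₁ hp₁n]
    exact hx₁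
  · rw [← e₂, s34lg_mem_map_iff n (Localization.AtPrime n) p₂ hp₂n]
    exact hy₂
  · rw [← map_mul, hr, map_mul, ← IsScalarTower.algebraMap_apply O B (Localization.AtPrime n)]

/-- **[LOC] at a point with one local equation, chart form, localisation-free hypotheses.** -/
theorem s34lg_smooth_le (ev : B →ₐ[O] O) (hn : ∀ b, b ∈ n ↔ ev b ∈ maximalIdeal O) {ϖ : O}
    (hϖ : Irreducible ϖ) (h : B) (hh : h ∈ n)
    (hnn : ∀ z ∈ n, ∃ s : B, s ∉ n ∧ s * z ∈ Ideal.span {algebraMap O B ϖ, h})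
    (t₀ : B) (ht₀ : ev t₀ = 0) (ht₀' : t₀ ≠ 0) :
    ∃ g : F, s34lg_IsGen n ev ϖ g 0 := by
  have hPn : algebraMap O B ϖ ∈ n := by
    rw [hn, AlgHom.commutes]
    exact (IsLocalRing.mem_maximalIdeal _).2 hϖ.not_isUnit
  have e₃ : maximalIdeal (Localization.AtPrime n) =
      Ideal.span {algebraMap O (Localization.AtPrime n) ϖ,
        algebraMap B (Localization.AtPrime n) h} := by
    rw [← IsLocalization.AtPrime.map_eq_maximalIdeal n (Localization.AtPrime n),
      s34lg_map_eq n (Localization.AtPrime n) n (Ideal.span {algebraMap O B ϖ, h})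
      (by
        rw [Ideal.span_le]
        rintro z (rfl | rfl)
        · exact hPn
        · exact hh) hnn, Ideal.map_span, Set.image_pair,
      ← IsScalarTower.algebraMap_apply O B (Localization.AtPrime n)]
  exact s34lg_smooth (F := F) n (Localization.AtPrime n) ev hn hϖ h e₃ t₀ ht₀ ht₀'

end MainLe

end Fermat.Agent.S34
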