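/-
S34, leaf [SS-NODE] = (D3) of the cut (owner: helper23).  Prefix `s34nd_`.
ABSTRACT PART, Mathlib only.

  [NODE-FR]   `A` a commutative ring, `ψ : A →+* A`, `n ≥ 2`, `φ x = (ψ x) ^ n` (for the model:
              `φ = Fr²`, `f(T) ↦ f(T^(q²))`, `ψ` = the coefficientwise twist, `n = q²`).  If a
              prime `m` contains all `x - φ x` and `t` generates `m` locally at `m`, then so
              does `t - φ t`.
  [NODE-ABS]  `B` a commutative ring, `π ∈ B`, `p∞ ⊓ p₀ = (π)`, `n` a prime containing both,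
              `x ∈ p₀` a local generator of `n` modulo `p∞`, `y ∈ p∞` a local generator of `n`
              modulo `p₀`: then locally at `n`:  `p₀ = (π, x)`, `p∞ = (π, y)`, `n = (π, x, y)`,
              and `x y ∈ (π)`.
  [SMOOTH]    the points on ONE component: `p₀ ⊄ n`: `n = (π, h)` locally at `n`.

All statements are in the localisation-free form `∃ s ∉ n, s * z ∈ ...`.
-/
import Mathlib

set_option autoImplicit false

namespace Fermat.Agent.S34

/-- `t` GENERATES the ideal `m` LOCALLY AT the prime `n`, in the localisation-free form: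
every `z ∈ m` satisfies `s * z = c * t` with `s ∉ n`. -/
def s34nd_LocGenBy {A : Type*} [CommRing A] (n m : Ideal A) (t : A) : Prop :=
  t ∈ m ∧ ∀ z ∈ m, ∃ s : A, s ∉ n ∧ ∃ c : A, s * z = c * t

/-- `I` contains the ideal `J` LOCALLY AT the prime `n`: every `z ∈ J` has a multiple
`s * z ∈ I`, `s ∉ n`. -/
def s34nd_LocLe {A : Type*} [CommRing A] (n J I : Ideal A) : Prop :=
  ∀ z ∈ J, ∃ s : A, s ∉ n ∧ s * z ∈ I

section Fr

variable {A : Type*} [CommRing A]

/-- If the prime `m` contains `t - (ψ t)^n` and `t`, it contains `ψ t`. -/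
theorem s34nd_fr_mem (ψ : A →+* A) {n : ℕ} (m : Ideal A) [m.IsPrime] {t : A}
    (hm : t - (ψ t) ^ n ∈ m) (ht : t ∈ m) : ψ t ∈ m := by
  have h1 : (ψ t) ^ n ∈ m := by
    have h2 := m.sub_mem ht hm
    simpa using h2
  exact Ideal.IsPrime.mem_of_pow_mem inferInstance n h1

/-- **[NODE-FR]**: if `t` generates the prime `m` locally at `m` and `m` contains
`t - (ψ t)^n`, `n ≥ 2`, then `t - (ψ t)^n` generates `m` locally at `m`. -/
theorem s34nd_fr_locGen (ψ : A →+* A) {n : ℕ} (hn : 2 ≤ n) (m : Ideal A) [hp : m.IsPrime]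
    {t : A} (ht : s34nd_LocGenBy m m t) (hm : t - (ψ t) ^ n ∈ m) :
    s34nd_LocGenBy m m (t - (ψ t) ^ n) := by
  refine ⟨hm, ?_⟩
  have hψ : ψ t ∈ m := s34nd_fr_mem ψ m hm ht.1
  obtain ⟨s, hs, c, hc⟩ := ht.2 (ψ t) hψ
  -- `s^n (t - (ψ t)^n) = t (s^n - c^n t^(n-1))`
  obtain ⟨k, rfl⟩ : ∃ k, n = k + 2 := ⟨n - 2, by omega⟩
  set u : A := s ^ (k + 2) - c ^ (k + 2) * t ^ (k + 1) with hu
  have hunit : u ∉ m := by
    intro h
    have h1 : c ^ (k + 2) * t ^ (k + 1) ∈ m :=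
      m.mul_mem_left _ (m.pow_mem_of_mem ht.1 (k + 1) (by omega))
    have h2 : s ^ (k + 2) ∈ m := by
      have := m.add_mem h h1
      simpa [hu] using this
    exact hs (Ideal.IsPrime.mem_of_pow_mem hp _ h2)
  have hkey : t * u = s ^ (k + 2) * (t - (ψ t) ^ (k + 2)) := by
    have h3 : s ^ (k + 2) * (ψ t) ^ (k + 2) = c ^ (k + 2) * t ^ (k + 2) := by
      rw [← mul_pow, hc, mul_pow]
    rw [hu]
    linear_combination h3
  intro z hz
  obtain ⟨s', hs', c', hc'⟩ := ht.2 z hz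
  refine ⟨s' * u, ?_, c' * s ^ (k + 2), ?_⟩
  · intro h
    rcases hp.mem_or_mem h with h | h
    · exact hs' h
    · exact hunit h
  · calc s' * u * z = (s' * z) * u := by ring
      _ = c' * (t * u) := by rw [hc']; ring
      _ = c' * s ^ (k + 2) * (t - (ψ t) ^ (k + 2)) := by rw [hkey]; ring

/-- In a Dedekind domain every prime ideal is locally principal (localisation-free form, with
a UNIFORM denominator). -/
theorem s34nd_dedekind_locGen [IsDedekindDomain A] (m : Ideal A) [hp : m.IsPrime] :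
    ∃ t : A, t ∈ m ∧ ∃ s : A, s ∉ m ∧ ∀ z ∈ m, ∃ c : A, s * z = c * t := by
  by_cases hm0 : m = ⊥
  · refine ⟨0, m.zero_mem, 1, ?_, ?_⟩
    · exact fun h => hp.ne_top ((Ideal.eq_top_iff_one m).2 h)
    · intro z hz
      rw [hm0, Ideal.mem_bot] at hz
      exact ⟨0, by simp [hz]⟩
  · -- `m ≠ m²`
    have hne : m ^ 2 ≠ m := by
      intro h
      have h1 : m * m = m * 1 := by rw [← pow_two, h, mul_one]
      have h2 : m = 1 := mul_left_cancel₀ hm0 h1
      exact hp.ne_top (by simpa using h2)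
    have hlt : m ^ 2 < m := lt_of_le_of_ne (Ideal.pow_le_self (by norm_num)) hne
    obtain ⟨t, htm, htm2⟩ := Set.exists_of_ssubset hlt
    -- `(t) = m * c`
    have hle : Ideal.span {t} ≤ m := (Ideal.span_singleton_le_iff_mem m).2 htm
    obtain ⟨c, hc⟩ := Ideal.dvd_iff_le.2 hle
    have hcm : ¬ c ≤ m := by
      intro h
      apply htm2
      have : Ideal.span {t} ≤ m ^ 2 := by
        rw [hc, pow_two]
        exact Ideal.mul_mono_right h
      exact this (Ideal.mem_span_singleton_self t)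
    obtain ⟨s, hsc, hsm⟩ := Set.not_subset.1 hcm
    refine ⟨t, htm, s, hsm, ?_⟩
    intro z hz
    have h1 : z * s ∈ Ideal.span {t} := by
      rw [hc]
      exact Ideal.mul_mem_mul hz hsc
    obtain ⟨d, hd⟩ := Ideal.mem_span_singleton'.1 h1
    exact ⟨d, by rw [hd, mul_comm]⟩

/-- **[NODE-FR] for Dedekind domains**: if the prime `m` of the Dedekind domain `A` contains all
`x - (ψ x)^n` (`n ≥ 2`), then some `x - (ψ x)^n` generates `m` locally at `m`. -/
theorem s34nd_fr_dedekind [IsDedekindDomain A] (ψ : A →+* A) {n : ℕ} (hn : 2 ≤ n)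
    (m : Ideal A) [m.IsPrime] (hm : ∀ x : A, x - (ψ x) ^ n ∈ m) :
    ∃ t : A, s34nd_LocGenBy m m (t - (ψ t) ^ n) := by
  obtain ⟨t, htm, s, hs, h⟩ := s34nd_dedekind_locGen m
  exact ⟨t, s34nd_fr_locGen ψ hn m ⟨htm, fun z hz => ⟨s, hs, h z hz⟩⟩ (hm t)⟩

end Fr

section Node

variable {B : Type*} [CommRing B]

/-- Transport of a local generator through a surjection `ρ : B → A`:
if `ρ x` generates `ρ(n)` locally at `ρ(n)`, then `x` generates `n` modulo `ker ρ` locally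
at `n`. -/
theorem s34nd_lift_locGen {A : Type*} [CommRing A] (ρ : B →+* A) (hρ : Function.Surjective ρ)
    (n : Ideal B) {x : B}
    (hx : s34nd_LocGenBy (n.map ρ) (n.map ρ) (ρ x)) :
    ∀ z ∈ n, ∃ s : B, s ∉ n ∧ ∃ c : B, s * z - c * x ∈ RingHom.ker ρ := by
  intro z hz
  obtain ⟨s', hs', c', hc'⟩ := hx.2 (ρ z) (Ideal.mem_map_of_mem ρ hz)
  obtain ⟨s, rfl⟩ := hρ s'
  obtain ⟨c, rfl⟩ := hρ c'
  refine ⟨s, fun h => hs' (Ideal.mem_map_of_mem ρ h), c, ?_⟩
  rw [RingHom.mem_ker, map_sub, map_mul, map_mul, hc', sub_self]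

variable (π : B) (pinf p0 n : Ideal B)

/-- **[NODE-ABS] (a)**: `p₀ = (π, x)` locally at `n`. -/
theorem s34nd_node_p0 (hcap : pinf ⊓ p0 ≤ Ideal.span {π}) {x : B} (hx0 : x ∈ p0)
    (hp0n : p0 ≤ n)
    (hx : ∀ z ∈ n, ∃ s : B, s ∉ n ∧ ∃ c : B, s * z - c * x ∈ pinf) :
    s34nd_LocLe n p0 (Ideal.span {π, x}) := by
  intro z hz
  obtain ⟨s, hs, c, hc⟩ := hx z (hp0n hz)
  refine ⟨s, hs, ?_⟩
  have h1 : s * z - c * x ∈ p0 := p0.sub_mem (p0.mul_mem_left _ hz) (p0.mul_mem_left _ hx0)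
  have h2 : s * z - c * x ∈ Ideal.span {π} := hcap ⟨hc, h1⟩
  have h3 : s * z - c * x ∈ Ideal.span {π, x} :=
    Ideal.span_mono (by simp) h2
  have h4 : c * x ∈ Ideal.span {π, x} :=
    Ideal.mul_mem_left _ _ (Ideal.subset_span (by simp))
  have := Ideal.add_mem _ h3 h4
  simpa using this

/-- **[NODE-ABS] (c)**: `n = (π, x, y)` locally at `n`. -/
theorem s34nd_node_n [hn : n.IsPrime] (hcap : pinf ⊓ p0 ≤ Ideal.span {π}) {x y : B}
    (hy0 : y ∈ pinf) (hpinfn : pinf ≤ n)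
    (hx : ∀ z ∈ n, ∃ s : B, s ∉ n ∧ ∃ c : B, s * z - c * x ∈ pinf)
    (hy : ∀ z ∈ n, ∃ s : B, s ∉ n ∧ ∃ c : B, s * z - c * y ∈ p0) :
    s34nd_LocLe n n (Ideal.span {π, x, y}) := by
  intro z hz
  obtain ⟨s, hs, c, hc⟩ := hx z hz
  have hinf : s34nd_LocLe n pinf (Ideal.span {π, y}) :=
    s34nd_node_p0 π p0 pinf n (by rwa [inf_comm]) hy0 hpinfn hy
  obtain ⟨s', hs', h'⟩ := hinf _ hc
  refine ⟨s' * s, fun h => (hn.mem_or_mem h).elim hs' hs, ?_⟩
  have h1 : s' * (s * z - c * x) ∈ Ideal.span {π, x, y} :=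
    Ideal.span_mono (by
      intro a ha
      simp only [Set.mem_insert_iff, Set.mem_singleton_iff] at ha ⊢
      tauto) h'
  have h2 : s' * c * x ∈ Ideal.span {π, x, y} :=
    Ideal.mul_mem_left _ _ (Ideal.subset_span (by simp))
  have := Ideal.add_mem _ h1 h2
  have h3 : s' * (s * z - c * x) + s' * c * x = s' * s * z := by ring
  rwa [h3] at this

/-- **[NODE-ABS] (d)**: `x y ∈ (π)`. -/
theorem s34nd_node_mul (hcap : pinf ⊓ p0 ≤ Ideal.span {π}) {x y : B}
    (hx0 : x ∈ p0) (hy0 : y ∈ pinf) : ∃ r : B, x * y = π * r := by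
  have h : x * y ∈ Ideal.span {π} :=
    hcap ⟨pinf.mul_mem_left _ hy0, p0.mul_mem_right _ hx0⟩
  obtain ⟨r, hr⟩ := Ideal.mem_span_singleton'.1 h
  exact ⟨r, by rw [← hr, mul_comm]⟩

/-- **[SMOOTH]**: at a point `n ⊉ p₀` (on the component `p∞` only): `n = (π, h)` locally
at `n`. -/
theorem s34nd_smooth [hn : n.IsPrime] (hcap : pinf ⊓ p0 ≤ Ideal.span {π}) {h : B}
    (hp0n : ¬ p0 ≤ n)
    (hx : ∀ z ∈ n, ∃ s : B, s ∉ n ∧ ∃ c : B, s * z - c * h ∈ pinf) :
    s34nd_LocLe n n (Ideal.span {π, h}) := by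
  obtain ⟨e, he0, hen⟩ := Set.not_subset.1 hp0n
  intro z hz
  obtain ⟨s, hs, c, hc⟩ := hx z hz
  refine ⟨e * s, fun h' => (hn.mem_or_mem h').elim hen hs, ?_⟩
  have h1 : e * (s * z - c * h) ∈ Ideal.span {π} :=
    hcap ⟨pinf.mul_mem_left _ hc, p0.mul_mem_right _ he0⟩
  have h2 : e * (s * z - c * h) ∈ Ideal.span {π, h} := Ideal.span_mono (by simp) h1
  have h3 : e * c * h ∈ Ideal.span {π, h} :=
    Ideal.mul_mem_left _ _ (Ideal.subset_span (by simp))
  have := Ideal.add_mem _ h2 h3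
  have h4 : e * (s * z - c * h) + e * c * h = e * s * z := by ring
  rwa [h4] at this

/-- For a finitely generated ideal `J` the denominators in `s34nd_LocLe` can be chosen
uniformly. -/
theorem s34nd_locLe_uniform [hn : n.IsPrime] {J I : Ideal B} (hJ : J.FG)
    (h : s34nd_LocLe n J I) : ∃ s : B, s ∉ n ∧ ∀ z ∈ J, s * z ∈ I := by
  obtain ⟨T, rfl⟩ := hJ
  classical
  induction T using Finset.induction_on with
  | empty =>
    refine ⟨1, fun h1 => hn.ne_top ((Ideal.eq_top_iff_one n).2 h1), ?_⟩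
    intro z hz
    have : z = 0 := by simpa using hz
    simp [this]
  | insert a T _ ih =>
    have hsub : s34nd_LocLe n (Ideal.span (T : Set B)) I := fun z hz =>
      h z (Ideal.span_mono (by simp) hz)
    obtain ⟨s, hs, hsT⟩ := ih hsub
    obtain ⟨s', hs', ha⟩ := h a (Ideal.subset_span (by simp))
    refine ⟨s' * s, fun h1 => (hn.mem_or_mem h1).elim hs' hs, ?_⟩
    intro z hz
    rw [Finset.coe_insert, Ideal.mem_span_insert] at hz
    obtain ⟨c, w, hw, rfl⟩ := hz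
    have h1 : s' * s * (c * a) ∈ I := by
      have := I.mul_mem_left (s * c) ha
      have e : s * c * (s' * a) = s' * s * (c * a) := by ring
      rwa [e] at this
    have h2 : s' * s * w ∈ I := by
      have := I.mul_mem_left s' (hsT w hw)
      rwa [← mul_assoc] at this
    rw [mul_add]
    exact I.add_mem h1 h2

end Node

end Fermat.Agent.S34
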