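/-
S34, leaf [LOC-GLOB], part 3 (owner: helper4).  Prefix `s34lg_`.

THE HYPOTHESIS `hLG` OF `s34l1_place_main` ([SS-LOC1], `S34/Loc1Place.lean`), VERBATIM:
every horizontal prime `q` through `n` at which `f` has a zero or a pole has a local generator.

Inputs:
* `hdeg`: the zeros and poles of `f` are places of degree one ([U-RAT]);
* the O-point of a place of degree one: [K-EV] (`s34ev_of_centre`, `S34/KEv.lean`);
* `hnode`: at `n`, EITHER the node datum of [SS-NODE] in the localisation-free form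
  (`s34nd_LocLe`, `S34/SsNodeAbs.lean`) OR `n = (ϖ, h)` locally at `n`;
* `hder`: at every horizontal prime `q` through `n` whose place has degree one, a derivation
  `D` of `F` with `D ϖ = 0`, `D B ⊆ B` and `D t₀ ∉ q` for some `t₀ ∈ q` ([LOC-DER]);
  it is used at the nodes only.

* `s34lg_isLocGen_of`: `s34lg_IsGen` (`S34/LocGlob.lean`) implies `s34l1_IsLocGen`;
* `s34lg_hLG`: the hypothesis `hLG`.
-/
import Mathlib
import Fermat.Agent.S34.LocGlobLe
import Fermat.Agent.S34.Loc1Place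
import Fermat.Agent.S34.KEv
import Fermat.Agent.S34.SsNodeAbs

set_option autoImplicit false
set_option linter.unusedSectionVars false

open AlgebraicCurve

namespace Fermat.Agent.S34

open IsLocalRing

section Adapt

variable {O B F : Type} [CommRing O] [IsDomain O] [IsDiscreteValuationRing O]
  [CommRing B] [IsDomain B] [Algebra O B] [Field F] [Algebra B F] [IsFractionRing B F]

/-- A local generator in the sense of [LOC-GLOB] is a local generator in the sense of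
[SS-LOC1]. -/
theorem s34lg_isLocGen_of {n : Ideal B} {ev : B →ₐ[O] O} {ϖ : O} {g : F} {j : ℕ}
    (hg : s34lg_IsGen n ev ϖ g j) (q : Ideal B) (hq : ∀ b, ev b = 0 ↔ b ∈ q) :
    s34l1_IsLocGen (algebraMap O B ϖ) n q g := by
  obtain ⟨hg0, ⟨b, s, hs, hb, hbs⟩, hgen⟩ := hg
  refine ⟨hg0, ⟨b, s, (hq b).1 hb, hs, hbs⟩, j, ?_⟩
  intro t ht
  obtain ⟨c, s', hs', hc⟩ := hgen t ((hq t).2 ht)
  refine ⟨c, s', hs', ?_⟩
  rw [map_mul, map_mul, map_pow]
  exact hc

end Adapt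

section HLG

variable {O K F B : Type} [CommRing O] [IsDomain O] [IsDiscreteValuationRing O]
  [Field K] [CharZero K] [Algebra O K] [IsFractionRing O K]
  [Field F] [Algebra K F] [Algebra O F] [IsScalarTower O K F]
  [CommRing B] [IsDomain B] [IsNoetherianRing B] [Algebra O B] [Algebra B F]
  [IsScalarTower O B F] [IsFractionRing B F]

/-- **The node datum at `n`**, localisation-free: two primes `p₁ ∋ y`, `p₂ ∋ x` inside `n`
containing `π`, equal to `(π, y)`, `(π, x)` locally at `n`, with `n = (π, x, y)` locally at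
`n`, `x ∉ p₁`, `y ∉ p₂` and `x y ∈ π B`. -/
def s34lg_IsNode (π : B) (n : Ideal B) : Prop :=
  ∃ (p₁ p₂ : Ideal B) (x y : B), p₁.IsPrime ∧ p₂.IsPrime ∧ p₁ ≤ n ∧ p₂ ≤ n ∧ π ∈ p₁ ∧ π ∈ p₂ ∧
    x ∈ p₂ ∧ y ∈ p₁ ∧ x ∉ p₁ ∧ y ∉ p₂ ∧
    s34nd_LocLe n p₁ (Ideal.span {π, y}) ∧ s34nd_LocLe n p₂ (Ideal.span {π, x}) ∧
    s34nd_LocLe n n (Ideal.span {π, x, y}) ∧ ∃ r : B, x * y = π * r

/-- **The datum at a point with one local equation.** -/
def s34lg_IsSmooth (π : B) (n : Ideal B) : Prop :=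
  ∃ h : B, h ∈ n ∧ s34nd_LocLe n n (Ideal.span {π, h})

/-- **The derivation datum at a horizontal prime `q`** ([LOC-DER]): a derivation `D` of `F`
with `D π = 0`, `D B ⊆ B` and `D t₀ ∉ q` for some `t₀ ∈ q`. -/
def s34lg_HasDer (F : Type) [Field F] [Algebra B F] (π : B) (q : Ideal B) : Prop :=
  ∃ D : F → F, (∀ a b, D (a + b) = D a + D b) ∧ (∀ a b, D (a * b) = a * D b + b * D a) ∧
    D (algebraMap B F π) = 0 ∧ (∀ b : B, ∃ b' : B, D (algebraMap B F b) = algebraMap B F b') ∧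
    ∃ t₀ b' : B, t₀ ∈ q ∧ D (algebraMap B F t₀) = algebraMap B F b' ∧ b' ∉ q

/-- **[LOC] for one place of degree one**: a horizontal prime `q` through `n` whose place has
degree one has a local generator. -/
theorem s34lg_locGen_of_place {ϖ : O} (hϖ : Irreducible ϖ) (n : Ideal B) [hn : n.IsPrime]
    (hπn : algebraMap O B ϖ ∈ n)
    (hnode : s34lg_IsNode (algebraMap O B ϖ) n ∨ s34lg_IsSmooth (algebraMap O B ϖ) n)
    (q : Ideal B) (hq : s34l1_IsHor (algebraMap O B ϖ) n q) (Q : Place K F)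
    (hQ : s34l1_IsPlaceOf q Q) (hdeg : Q.deg = 1)
    (hder : s34lg_IsNode (algebraMap O B ϖ) n → s34lg_HasDer F (algebraMap O B ϖ) q) :
    ∃ g : F, s34l1_IsLocGen (algebraMap O B ϖ) n q g := by
  have hinj : Function.Injective (algebraMap B F) := IsFractionRing.injective B F
  obtain ⟨ev, -, -, hev0, hevn⟩ := s34ev_of_centre hinj Q hdeg hQ.nonneg hϖ n hn.ne_top hπn q
    hQ.mem_iff hq.le
  rcases hnode with hN | hS
  · obtain ⟨D, hadd, hmul, hDP, hDB, t₀, b', ht₀, hb', hb'q⟩ := hder hN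
    obtain ⟨p₁, p₂, x, y, hp₁, hp₂, hp₁n, hp₂n, hPp₁, hPp₂, hx, hy, hx₁, hy₂, h₁, h₂, hnn,
      hxy⟩ := hN
    obtain ⟨g, j, hg⟩ := s34lg_node_le (F := F) n ev hevn hϖ p₁ p₂ hp₁n hp₂n hPp₁ hPp₂ x y hx hy
      hx₁ hy₂ h₁ h₂ hnn hxy D hadd hmul hDP hDB t₀ ((hev0 t₀).2 ht₀)
      ⟨b', hb', fun h => hb'q ((hev0 b').1 h)⟩
    exact ⟨g, s34lg_isLocGen_of hg q hev0⟩
  · obtain ⟨h, hh, hnn⟩ := hS
    obtain ⟨t₀, ht₀, ht₀'⟩ := Submodule.exists_mem_ne_zero_of_ne_bot hq.ne_bot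
    obtain ⟨g, hg⟩ := s34lg_smooth_le (F := F) n ev hevn hϖ h hh hnn t₀ ((hev0 t₀).2 ht₀) ht₀'
    exact ⟨g, s34lg_isLocGen_of hg q hev0⟩

/-- **The hypothesis `hLG` of `s34l1_place_main`.** -/
theorem s34lg_hLG {ϖ : O} (hϖ : Irreducible ϖ) (n : Ideal B) [hn : n.IsPrime]
    (hπn : algebraMap O B ϖ ∈ n)
    (hnode : s34lg_IsNode (algebraMap O B ϖ) n ∨ s34lg_IsSmooth (algebraMap O B ϖ) n)
    (f : F) (hdeg : ∀ P : Place K F, P.ord f ≠ 0 → P.deg = 1)
    (hder : s34lg_IsNode (algebraMap O B ϖ) n → ∀ q : Ideal B,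
      s34l1_IsHor (algebraMap O B ϖ) n q → ∀ Q : Place K F, s34l1_IsPlaceOf q Q → Q.deg = 1 →
        s34lg_HasDer F (algebraMap O B ϖ) q) :
    ∀ q : Ideal B, s34l1_IsHor (algebraMap O B ϖ) n q → ∀ Q : Place K F,
      s34l1_IsPlaceOf q Q → Q.ord f ≠ 0 → ∃ g : F, s34l1_IsLocGen (algebraMap O B ϖ) n q g :=
  fun q hq Q hQ hf =>
    s34lg_locGen_of_place hϖ n hπn hnode q hq Q hQ (hdeg Q hf)
      (fun hN => hder hN q hq Q hQ (hdeg Q hf))

end HLG

end Fermat.Agent.S34
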