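/-
S34, seam **[K-DER]**, the chart instance (helper10).  Prefix `s34kd_`.

For the chart `B = s18_chart O {J}` of a coordinate `J` of `F / K`: the hypothesis `hder` of
`s34lg_hLG` (`S34/LocGlobHLG.lean`), VERBATIM - at every horizontal prime `q` whose place has
degree one there is the derivation datum `s34lg_HasDer F π q`.
-/
import Mathlib
import Fermat.Agent.S18.BasicA
import Fermat.Agent.S34.KDer
import Fermat.Agent.S34.LocGlobHLG

set_option autoImplicit false

open AlgebraicCurve IntermediateField

namespace Fermat.Agent.S34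

open Fermat.Agent.S18

section

variable (O K F : Type) [CommRing O] [IsDomain O] [IsDiscreteValuationRing O] [Field K]
  [CharZero K] [Algebra O K] [IsFractionRing O K] [Field F] [Algebra K F] [Algebra O F]
  [IsScalarTower O K F]

omit [IsDomain O] [IsDiscreteValuationRing O] [Field K] [CharZero K] [Algebra O K]
  [IsFractionRing O K] [Algebra K F] [IsScalarTower O K F] in
/-- The coordinate lies in its chart. -/
theorem s34kd_self_mem (J : F) : J ∈ s18_chart O ({J} : Set F) := by
  rw [s18_mem_chart_iff]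
  have h : IsIntegral ↥(Algebra.adjoin O ({J} : Set F))
      (algebraMap ↥(Algebra.adjoin O ({J} : Set F)) F
        ⟨J, Algebra.subset_adjoin (Set.mem_singleton J)⟩) := isIntegral_algebraMap
  exact h

/-- **[K-DER], chart form**: the derivation datum at a horizontal prime of the chart whose
place has degree one. -/
theorem s34kd_hasDer {J : F} (htr : Transcendental K J) (hfin : FiniteDimensional K⟮J⟯ F)
    (ϖ : O) (q : Ideal ↥(s18_chart O ({J} : Set F))) [q.IsPrime] (Q : Place K F)
    (hQ : s34l1_IsPlaceOf q Q) (hdeg : Q.deg = 1) :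
    s34lg_HasDer F (algebraMap O ↥(s18_chart O ({J} : Set F)) ϖ) q := by
  obtain ⟨D, t₀, hadd, hmul, hDP, hDB, ht₀, -, b', hb', hb'q⟩ :=
    s34kd_main O K F (s18_chart O ({J} : Set F)) (s34kd_self_mem O F J) htr hfin
      (s18b_finite (O := O) htr hfin) Q hdeg q hQ.nonneg hQ.mem_iff hQ.frac ϖ
  exact ⟨D, hadd, hmul, hDP, hDB, t₀, b', ht₀, hb', hb'q⟩

/-- **The hypothesis `hder` of `s34lg_hLG`**, VERBATIM, for the chart of `J`. -/
theorem s34kd_hder {J : F} (htr : Transcendental K J) (hfin : FiniteDimensional K⟮J⟯ F)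
    (ϖ : O) (n : Ideal ↥(s18_chart O ({J} : Set F))) :
    s34lg_IsNode (algebraMap O ↥(s18_chart O ({J} : Set F)) ϖ) n →
      ∀ q : Ideal ↥(s18_chart O ({J} : Set F)),
        s34l1_IsHor (algebraMap O ↥(s18_chart O ({J} : Set F)) ϖ) n q → ∀ Q : Place K F,
          s34l1_IsPlaceOf q Q → Q.deg = 1 →
            s34lg_HasDer F (algebraMap O ↥(s18_chart O ({J} : Set F)) ϖ) q :=
  fun _ q hq Q hQ hdeg =>
    haveI := hq.prime
    s34kd_hasDer O K F htr hfin ϖ q Q hQ hdeg

end

end Fermat.Agent.S34
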