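/-
S34, leaf [LOC-GLOB], part 5 (owner: helper4).  Prefix `s34lg_`.

THE CONJUNCT [LOC] OF `s34l1_ModelStatement` (`S34/Loc1Chart.lean`, `S34/KData.lean`):
`s34l1_LocStatementAt O K J ϖ` for the chart `B = s18_chart O {J}` of ANY coordinate `J`, from
the dichotomy node / one local equation at the closed points of the special fibre
(`s34lg_IsNode π n ∨ s34lg_IsSmooth π n`, [SS-NODE]).

* `s34lg_locStatementAt`: by `s34lg_locGen_of_place` ([LOC-GLOB], with [K-EV] inside) and
  `s34kd_hder` ([K-DER]).
-/
import Mathlib
import Fermat.Agent.S18.BasicA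
import Fermat.Agent.S34.LocGlobHLG
import Fermat.Agent.S34.KDerChart
import Fermat.Agent.S34.Loc1Chart

set_option autoImplicit false
set_option linter.style.haveILetI false

open AlgebraicCurve IntermediateField

namespace Fermat.Agent.S34

open Fermat.Agent.S18

section

variable (O K F : Type) [CommRing O] [IsDomain O] [IsDiscreteValuationRing O] [Field K]
  [CharZero K] [Algebra O K] [IsFractionRing O K] [Field F] [Algebra K F] [Algebra O F]
  [IsScalarTower O K F]

/-- **[LOC] for the chart of `J`**: every horizontal prime through a closed point of the special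
fibre whose place has degree one is principal up to a power of `π`, as soon as every closed
point of the special fibre is a node or has one local equation. -/
theorem s34lg_locStatementAt {J : F} (htr : Transcendental K J)
    (hfin : FiniteDimensional K⟮J⟯ F) {ϖ : O} (hϖ : Irreducible ϖ)
    (hdich : ∀ n : Ideal ↥(s18_chart O ({J} : Set F)), n.IsMaximal →
      algebraMap O ↥(s18_chart O ({J} : Set F)) ϖ ∈ n →
      s34lg_IsNode (algebraMap O ↥(s18_chart O ({J} : Set F)) ϖ) n ∨
        s34lg_IsSmooth (algebraMap O ↥(s18_chart O ({J} : Set F)) ϖ) n) :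
    s34l1_LocStatementAt O K J ϖ := by
  intro n hn hπn q hq Q hQ hdeg
  haveI : IsNoetherianRing ↥(s18_chart O ({J} : Set F)) := s18b_noeth (O := O) htr hfin
  haveI : IsFractionRing ↥(s18_chart O ({J} : Set F)) F := by
    refine IsFractionRing.of_field _ F (fun z => ?_)
    obtain ⟨x, y, hy, hxy⟩ := s18b_frac (O := O) htr hfin z
    refine ⟨x, y, ?_⟩
    have hy' : (y : F) ≠ 0 := fun h => hy (Subtype.ext h)
    exact (eq_div_iff hy').2 hxy
  haveI : n.IsPrime := hn.isPrime
  exact s34lg_locGen_of_place hϖ n hπn (hdich n hn hπn) q hq Q hQ hdeg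
    (fun hN => s34kd_hder O K F htr hfin ϖ n hN q hq Q hQ hdeg)

end

end Fermat.Agent.S34
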