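/-
S34, leaf [K-LOC] (owner: helper4, with helper23 for the dichotomy).  Prefix `s34lg_`.

`s34km_LocStatement` (`S34/KMainDefs.lean`), the conjunct [K-LOC] of the model facts, from

* `s34km_CoordStatement` ([K-COORD]): `J = j · j_q` is a coordinate;
* `s34lg_DichStatement` ([SS-NODE] at the model): every closed point of the special fibre of
  the two charts `chart(J)`, `chart(J⁻¹)` is a node (`s34lg_IsNode`) or has one local equation
  (`s34lg_IsSmooth`).
-/
import Mathlib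
import Fermat.Agent.S34.KMainDefs
import Fermat.Agent.S34.LocGlobStmt

set_option autoImplicit false
set_option linter.style.haveILetI false
set_option linter.unusedVariables false
set_option synthInstance.maxHeartbeats 400000
set_option maxHeartbeats 1000000

open AlgebraicCurve ModularCurve IntermediateField

noncomputable section

namespace Fermat.Agent.S34

open Fermat.Agent.S18

/-- **[K-DICH]** the dichotomy node / one local equation at the closed points of the special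
fibre of both charts of the model. -/
def s34lg_DichStatement : Prop :=
  ∀ (M q : ℕ) [NeZero M] [NeZero q] [NeZero (M * q)], q.Prime → ¬ q ∣ M →
    (4 ∣ M ∨ 9 ∣ M) →
    ∀ (K0 : IntermediateField ℚ (AlgebraicClosure ℚ)), FiniteDimensional ℚ ↥K0 →
    ∀ (O : ValuationSubring ↥K0) [IsDiscreteValuationRing ↥O],
      (q : ↥O) ∈ IsLocalRing.maximalIdeal ↥O → ∀ ϖ : ↥O, Irreducible ϖ →
      letI := s18_algOF ↥O ↥K0 (M * q)
      (∀ n : Ideal ↥(s18_chart ↥O ({s34km_J M q K0} : Set ↥(s18_F ↥K0 (M * q)))),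
        n.IsMaximal →
        algebraMap ↥O ↥(s18_chart ↥O ({s34km_J M q K0} : Set ↥(s18_F ↥K0 (M * q)))) ϖ ∈ n →
        s34lg_IsNode
            (algebraMap ↥O ↥(s18_chart ↥O ({s34km_J M q K0} : Set ↥(s18_F ↥K0 (M * q)))) ϖ) n ∨
          s34lg_IsSmooth
            (algebraMap ↥O ↥(s18_chart ↥O ({s34km_J M q K0} : Set ↥(s18_F ↥K0 (M * q)))) ϖ)
            n) ∧
      (∀ n : Ideal ↥(s18_chart ↥O ({(s34km_J M q K0)⁻¹} : Set ↥(s18_F ↥K0 (M * q)))),
        n.IsMaximal →
        algebraMap ↥O ↥(s18_chart ↥O ({(s34km_J M q K0)⁻¹} : Set ↥(s18_F ↥K0 (M * q)))) ϖ ∈ n →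
        s34lg_IsNode
            (algebraMap ↥O ↥(s18_chart ↥O ({(s34km_J M q K0)⁻¹} : Set ↥(s18_F ↥K0 (M * q)))) ϖ)
            n ∨
          s34lg_IsSmooth
            (algebraMap ↥O ↥(s18_chart ↥O ({(s34km_J M q K0)⁻¹} : Set ↥(s18_F ↥K0 (M * q)))) ϖ)
            n)

/-- **[K-LOC]** from [K-COORD] and the dichotomy. -/
theorem s34lg_kloc_of (hC : s34km_CoordStatement) (hD : s34lg_DichStatement) :
    s34km_LocStatement := by
  intro M q _ _ _ hq hqM h49 K0 hK0 O _ hqO ϖ hϖ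
  letI := s18_algOF ↥O ↥K0 (M * q)
  haveI := s18_towerOF ↥O ↥K0 (M * q)
  obtain ⟨htr, hfin⟩ := hC M q hq hqM K0
  obtain ⟨htr', hfin'⟩ := s34l1_inv_coord (s34km_J M q K0) htr hfin
  obtain ⟨hD1, hD2⟩ := hD M q hq hqM h49 K0 hK0 O hqO ϖ hϖ
  exact ⟨s34lg_locStatementAt ↥O ↥K0 ↥(s18_F ↥K0 (M * q)) htr hfin hϖ hD1,
    s34lg_locStatementAt ↥O ↥K0 ↥(s18_F ↥K0 (M * q)) htr' hfin' hϖ hD2⟩

end Fermat.Agent.S34
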