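/-
S34, THE LAST WIRING (owner: helper29).  Prefix `s34km_`.

    theorem s34km_kdata_of3 :
      s34iw_IntStatement → s34km_VertStatement → s34lg_DichStatement → s34_KDataStatement

The composition of everything which is closed: [K-COORD] (`s34km_coord_main`), [K-ISW] from
[SS-INT] (`s34iw_kmain_of_int`), [K-TAU] from [K-ISW] (`s34kt_main`), [K-LOC] from the dichotomy
(`s34lg_kloc_of`).  Three inputs remain: [SS-INT], [K-VERT], the dichotomy.
-/
import Mathlib
import Fermat.Agent.S34.KMainDefs
import Fermat.Agent.S34.KCoord
import Fermat.Agent.S34.IsWKC1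
import Fermat.Agent.S34.KTau
import Fermat.Agent.S34.LocGlobK

set_option autoImplicit false

noncomputable section

namespace Fermat.Agent.S34

/-- **[K-DATA]** from [SS-INT], [K-VERT] and the dichotomy. -/
theorem s34km_kdata_of3 (hI : s34iw_IntStatement) (hV : s34km_VertStatement)
    (hD : s34lg_DichStatement) : s34_KDataStatement :=
  s34km_kdata_of s34km_coord_main (s34iw_kmain_of_int hI) hV
    (s34lg_kloc_of s34km_coord_main hD) (s34kt_main (s34iw_kmain_of_int hI))

end Fermat.Agent.S34
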