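/-
S34 / [COUNT-ABS], part 1 (leaf of [SS-COUNT] = (D1) of the cut of S34; owner helper22).
Prefix `s34ca_`.  Pure commutative algebra, Mathlib only.

* `s34ca_basis`       : over a discrete valuation ring `(R, π)` with fraction field `E`, a family
                        of `≥ [F : E]` elements of an `R`-submodule `S ⊆ F` which is independent
                        modulo `π S` is an `R`-basis of `S` and an `E`-basis of `F`;
* `s34ca_int_mem`     : a valuation subring over `R` contains the integral closure of `R`;
* `s34ca_centre`      : the centre of a valuation subring on the integral closure;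
* `s34ca_mem_iff`     : a valuation subring over `(R, π)` is the localisation of the integral
                        closure at its centre (`F / E` finite separable);
* `s34ca_Branch`      : the hypothesis on one branch;  `s34ca_lift`, `s34ca_key`.
-/
import Mathlib

set_option autoImplicit false
set_option linter.unusedSectionVars false
set_option linter.style.haveILetI false
set_option linter.unnecessarySimpa false

namespace Fermat.Agent.S34

open Module IsDedekindDomain

section Basis

variable {R E F : Type*} [CommRing R] [IsDomain R] [IsDiscreteValuationRing R]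
  [Field E] [Algebra R E] [IsFractionRing R E]
  [AddCommGroup F] [Module R F] [Module E F] [IsScalarTower R E F]

/-- In a DVR, an element divisible by all powers of a uniformizer is zero. -/
theorem s34ca_eq_zero_of_forall_pow_dvd {π : R} (hπ : Irreducible π) {c : R}
    (h : ∀ n : ℕ, π ^ n ∣ c) : c = 0 := by
  by_contra hc
  obtain ⟨n, hn⟩ := IsDiscreteValuationRing.associated_pow_irreducible hc hπ
  obtain ⟨u, hu⟩ := hn
  obtain ⟨d, hd⟩ := h (n + 1)
  -- c * u = π ^ n, c = π^(n+1) * d
  have h1 : π ^ n * (π * d * u) = π ^ n * 1 := by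
    linear_combination hu - (u : R) * hd
  have h2 : π * d * u = 1 := mul_left_cancel₀ (pow_ne_zero n hπ.ne_zero) h1
  exact hπ.not_isUnit (IsUnit.of_mul_eq_one (d * u) (by rw [← h2]; ring))

omit [IsDomain R] [IsDiscreteValuationRing R] in
include E in
theorem s34ca_smul_eq_zero {π : R} (hπ : Irreducible π) {y : F} (h : π • y = 0) : y = 0 := by
  have h1 : (algebraMap R E π) • y = 0 := by rwa [algebraMap_smul]
  have h2 : algebraMap R E π ≠ 0 := by
    intro h0
    exact hπ.ne_zero ((IsFractionRing.injective R E) (by rw [h0, map_zero]))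
  exact (smul_eq_zero.mp h1).resolve_left h2

variable {ι : Type*} [Fintype ι]

include E in
/-- Independence modulo `π` gives `R`-linear independence. -/
theorem s34ca_linearIndependent {π : R} (hπ : Irreducible π) (S : Submodule R F) (w : ι → F)
    (hind : ∀ c : ι → R, (∃ s ∈ S, ∑ k, c k • w k = π • s) → ∀ k, π ∣ c k) :
    LinearIndependent R w := by
  classical
  have key : ∀ n : ℕ, ∀ c : ι → R, ∑ k, c k • w k = 0 → ∀ k, π ^ n ∣ c k := by
    intro n
    induction n with
    | zero => intro c _ k; simp
    | succ n ih =>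
      intro c hc k
      have h1 : ∀ k, π ∣ c k := hind c ⟨0, S.zero_mem, by rw [hc, smul_zero]⟩
      choose c' hc' using h1
      have h2 : π • ∑ k, c' k • w k = 0 := by
        rw [Finset.smul_sum, ← hc]
        refine Finset.sum_congr rfl fun k _ => ?_
        rw [hc' k, mul_smul]
      have h3 := ih c' (s34ca_smul_eq_zero (E := E) hπ h2) k
      rw [hc' k, pow_succ']
      exact mul_dvd_mul_left π h3
  rw [Fintype.linearIndependent_iff]
  intro c hc k
  exact s34ca_eq_zero_of_forall_pow_dvd hπ fun n => key n c hc k

/-- **The basis lemma.** A family of `≥ dim` elements of a submodule `S` which is independent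
modulo `π S` is an `R`-basis of `S` (and an `E`-basis of `F`). -/
theorem s34ca_basis [FiniteDimensional E F] {π : R} (hπ : Irreducible π) (S : Submodule R F)
    (w : ι → F)
    (hind : ∀ c : ι → R, (∃ s ∈ S, ∑ k, c k • w k = π • s) → ∀ k, π ∣ c k)
    (hcard : finrank E F ≤ Fintype.card ι) :
    finrank E F = Fintype.card ι ∧ ∀ x ∈ S, ∃ c : ι → R, x = ∑ k, c k • w k := by
  classical
  have hli : LinearIndependent E w :=
    (LinearIndependent.iff_fractionRing R E).mp (s34ca_linearIndependent (E := E) hπ S w hind)
  have hle : Fintype.card ι ≤ finrank E F := hli.fintype_card_le_finrank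
  have hcard' : Fintype.card ι = finrank E F := le_antisymm hle hcard
  refine ⟨hcard'.symm, ?_⟩
  have hspan : Submodule.span E (Set.range w) = ⊤ :=
    hli.span_eq_top_of_card_eq_finrank' hcard'
  let b : Basis ι E F := Basis.mk hli (le_of_eq hspan.symm)
  have hb : ∀ k, b k = w k := fun k => by simp [b]
  intro x hx
  -- the coefficients
  set g : ι → E := fun k => b.repr x k with hg
  have hxg : x = ∑ k, g k • w k := by
    conv_lhs => rw [← b.sum_repr x]
    exact Finset.sum_congr rfl fun k _ => by rw [hb]
  -- clearing denominators by a power of π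
  have hden : ∀ e : E, ∃ n : ℕ, ∃ r : R, algebraMap R E π ^ n * e = algebraMap R E r := by
    intro e
    obtain ⟨a, d, hd, rfl⟩ := IsFractionRing.div_surjective (A := R) e
    have hd0 : d ≠ 0 := nonZeroDivisors.ne_zero hd
    obtain ⟨n, u, hu⟩ := IsDiscreteValuationRing.associated_pow_irreducible hd0 hπ
    refine ⟨n, a * u, ?_⟩
    have hdE : algebraMap R E d ≠ 0 := by
      intro h0
      exact hd0 ((IsFractionRing.injective R E) (by rw [h0, map_zero]))
    rw [← map_pow, ← hu, map_mul, map_mul]
    field_simp
  choose nn rr hnr using hden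
  -- a uniform exponent
  have hunif : ∃ m : ℕ, ∀ k, ∃ r : R, algebraMap R E π ^ m * g k = algebraMap R E r := by
    refine ⟨∑ k, nn (g k), fun k => ?_⟩
    have hle : nn (g k) ≤ ∑ k, nn (g k) :=
      Finset.single_le_sum (f := fun k => nn (g k)) (fun _ _ => Nat.zero_le _) (Finset.mem_univ k)
    obtain ⟨t, ht⟩ := Nat.exists_eq_add_of_le hle
    refine ⟨π ^ t * rr (g k), ?_⟩
    rw [ht, pow_add, mul_comm (algebraMap R E π ^ nn (g k)), mul_assoc, hnr, map_mul, map_pow]
  obtain ⟨m, hm⟩ := hunif
  -- descending induction
  have hdesc : ∀ m : ℕ, (∀ k, ∃ r : R, algebraMap R E π ^ m * g k = algebraMap R E r) →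
      ∀ k, ∃ r : R, g k = algebraMap R E r := by
    intro m
    induction m with
    | zero => intro h k; obtain ⟨r, hr⟩ := h k; exact ⟨r, by simpa using hr⟩
    | succ m ih =>
      intro h
      apply ih
      choose r hr using h
      have h1 : ∑ k, r k • w k = π • (π ^ m • x) := by
        rw [← mul_smul, ← pow_succ', hxg, Finset.smul_sum]
        refine Finset.sum_congr rfl fun k _ => ?_
        rw [← algebraMap_smul E (r k), ← hr k, ← algebraMap_smul E (π ^ (m + 1)), smul_smul,
          map_pow]
      have h2 : ∀ k, π ∣ r k := hind r ⟨π ^ m • x, S.smul_mem _ hx, h1⟩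
      intro k
      obtain ⟨r', hr'⟩ := h2 k
      refine ⟨r', ?_⟩
      have h3 := hr k
      rw [hr', map_mul, pow_succ', mul_assoc] at h3
      have hπE : algebraMap R E π ≠ 0 := by
        intro h0
        exact hπ.ne_zero ((IsFractionRing.injective R E) (by rw [h0, map_zero]))
      exact mul_left_cancel₀ hπE h3
  have hfin := hdesc m hm
  choose c hc using hfin
  refine ⟨c, ?_⟩
  rw [hxg]
  refine Finset.sum_congr rfl fun k _ => ?_
  rw [hc k, algebraMap_smul]

end Basis

section NU

variable {F : Type*} [Field F] (V : ValuationSubring F)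

theorem s34ca_nu_add {x y : F} (hx : x ∈ V.nonunits) (hy : y ∈ V.nonunits) :
    x + y ∈ V.nonunits := by
  rw [ValuationSubring.mem_nonunits_iff] at *
  exact lt_of_le_of_lt (V.valuation.map_add x y) (max_lt hx hy)

theorem s34ca_nu_neg {x : F} (hx : x ∈ V.nonunits) : -x ∈ V.nonunits := by
  rw [ValuationSubring.mem_nonunits_iff] at *
  rwa [Valuation.map_neg]

theorem s34ca_nu_sub {x y : F} (hx : x ∈ V.nonunits) (hy : y ∈ V.nonunits) :
    x - y ∈ V.nonunits := by
  rw [sub_eq_add_neg]
  exact s34ca_nu_add V hx (s34ca_nu_neg V hy)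

theorem s34ca_nu_zero : (0 : F) ∈ V.nonunits := by
  rw [ValuationSubring.mem_nonunits_iff, map_zero]
  exact zero_lt_one

theorem s34ca_nu_mul {x y : F} (hx : x ∈ V) (hy : y ∈ V.nonunits) : x * y ∈ V.nonunits := by
  rw [ValuationSubring.mem_nonunits_iff] at *
  rw [map_mul]
  exact mul_lt_one_of_nonneg_of_lt_one_right ((V.valuation_le_one_iff _).mpr hx) zero_le hy

theorem s34ca_nu_mul' {x y : F} (hx : x ∈ V.nonunits) (hy : y ∈ V) : x * y ∈ V.nonunits := by
  rw [mul_comm]; exact s34ca_nu_mul V hy hx

theorem s34ca_nu_sum {ι : Type*} (s : Finset ι) (f : ι → F) (h : ∀ i ∈ s, f i ∈ V.nonunits) :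
    ∑ i ∈ s, f i ∈ V.nonunits := by
  classical
  induction s using Finset.induction_on with
  | empty => simpa using s34ca_nu_zero V
  | insert a s ha ih =>
    rw [Finset.sum_insert ha]
    exact s34ca_nu_add V (h a (Finset.mem_insert_self a s))
      (ih fun i hi => h i (Finset.mem_insert_of_mem hi))

theorem s34ca_nu_mem {x : F} (hx : x ∈ V.nonunits) : x ∈ V := by
  rw [ValuationSubring.mem_nonunits_iff] at hx
  exact (V.valuation_le_one_iff _).mp hx.le

theorem s34ca_one_not_nu : (1 : F) ∉ V.nonunits := by
  rw [ValuationSubring.mem_nonunits_iff, map_one]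
  exact lt_irrefl _

end NU

section Val

variable {R F : Type*} [CommRing R] [Field F] [Algebra R F]

/-- A valuation subring containing the image of `R` contains every element integral over `R`. -/
theorem s34ca_int_mem (V : ValuationSubring F) (hV : ∀ r : R, algebraMap R F r ∈ V) {x : F}
    (hx : IsIntegral R x) : x ∈ V := by
  obtain ⟨p, hp, hpx⟩ := hx
  let φ : R →+* V := (algebraMap R F).codRestrict V.toSubring hV
  have hφ : (algebraMap V F).comp φ = algebraMap R F := by
    ext r; rfl
  have hint : IsIntegral V x := by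
    refine ⟨p.map φ, hp.map φ, ?_⟩
    rw [Polynomial.eval₂_map, hφ]
    exact hpx
  obtain ⟨y, hy⟩ := IsIntegrallyClosed.algebraMap_eq_of_integral hint
  rw [← hy]
  exact y.2

/-- The inclusion of the integral closure into a valuation subring over `R`. -/
def s34ca_incl (V : ValuationSubring F) (hV : ∀ r : R, algebraMap R F r ∈ V) :
    integralClosure R F →+* V :=
  (algebraMap (integralClosure R F) F).codRestrict V.toSubring
    fun s => s34ca_int_mem V hV s.2

@[simp]
theorem s34ca_incl_coe (V : ValuationSubring F) (hV : ∀ r : R, algebraMap R F r ∈ V)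
    (s : integralClosure R F) : ((s34ca_incl V hV s : V) : F) = (s : F) := rfl

/-- The centre of a valuation subring over `R` on the integral closure of `R`. -/
def s34ca_centre (V : ValuationSubring F) (hV : ∀ r : R, algebraMap R F r ∈ V) :
    Ideal (integralClosure R F) :=
  (IsLocalRing.maximalIdeal V).comap (s34ca_incl V hV)

theorem s34ca_mem_centre (V : ValuationSubring F) (hV : ∀ r : R, algebraMap R F r ∈ V)
    (s : integralClosure R F) : s ∈ s34ca_centre V hV ↔ (s : F) ∈ V.nonunits := by
  rw [s34ca_centre, Ideal.mem_comap, ← ValuationSubring.coe_mem_nonunits_iff, s34ca_incl_coe]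

instance s34ca_centre_isPrime (V : ValuationSubring F) (hV : ∀ r : R, algebraMap R F r ∈ V) :
    (s34ca_centre V hV).IsPrime :=
  Ideal.comap_isPrime _ _

theorem s34ca_valuation_eq_one (V : ValuationSubring F) (hV : ∀ r : R, algebraMap R F r ∈ V)
    {d : integralClosure R F} (hd : d ∉ s34ca_centre V hV) : V.valuation (d : F) = 1 := by
  have h1 : V.valuation (d : F) ≤ 1 :=
    (V.valuation_le_one_iff _).mpr (s34ca_int_mem V hV d.2)
  rw [s34ca_mem_centre, ValuationSubring.mem_nonunits_iff] at hd
  exact le_antisymm h1 (not_lt.mp hd)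

theorem s34ca_valuation_lt_one (V : ValuationSubring F) (hV : ∀ r : R, algebraMap R F r ∈ V)
    {d : integralClosure R F} (hd : d ∈ s34ca_centre V hV) : V.valuation (d : F) < 1 := by
  rwa [s34ca_mem_centre, ValuationSubring.mem_nonunits_iff] at hd

end Val

section Dedekind

variable {R : Type*} (E : Type*) {F : Type*} [CommRing R] [IsDomain R] [IsDiscreteValuationRing R]
  [Field E] [Field F] [Algebra R E] [IsFractionRing R E] [Algebra E F] [Algebra R F]
  [IsScalarTower R E F] [FiniteDimensional E F] [Algebra.IsSeparable E F]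

include E in
theorem s34ca_centre_ne_bot {π : R} (hπ : Irreducible π) (V : ValuationSubring F)
    (hV : ∀ r : R, algebraMap R F r ∈ V) (hπV : algebraMap R F π ∈ V.nonunits) :
    s34ca_centre V hV ≠ ⊥ := by
  intro h
  have h1 : algebraMap R (integralClosure R F) π ∈ s34ca_centre V hV := by
    rw [s34ca_mem_centre]; exact hπV
  rw [h, Ideal.mem_bot] at h1
  have h2 : algebraMap R F π = 0 := by
    have := congrArg (fun s : integralClosure R F => (s : F)) h1
    simpa using this
  rw [IsScalarTower.algebraMap_apply R E F, map_eq_zero] at h2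
  exact hπ.ne_zero ((IsFractionRing.injective R E) (by rw [h2, map_zero]))

include E in
/-- **Lemma C**: a valuation subring over `(R, π)` is the localisation of the integral closure at
its centre. -/
theorem s34ca_mem_iff {π : R} (hπ : Irreducible π) (V : ValuationSubring F)
    (hV : ∀ r : R, algebraMap R F r ∈ V) (hπV : algebraMap R F π ∈ V.nonunits) (x : F) :
    x ∈ V ↔ ∃ n d : integralClosure R F, d ∉ s34ca_centre V hV ∧ x * (d : F) = (n : F) := by
  haveI : IsDedekindDomain (integralClosure R F) := integralClosure.isDedekindDomain R E F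
  haveI : IsFractionRing (integralClosure R F) F :=
    integralClosure.isFractionRing_of_finite_extension E F
  constructor
  · intro hx
    let v : HeightOneSpectrum (integralClosure R F) :=
      ⟨s34ca_centre V hV, inferInstance, s34ca_centre_ne_bot E hπ V hV hπV⟩
    obtain ⟨n, d, h | h⟩ := v.exists_primeCompl_mul_eq_or_mul_eq (K := F) x
    · exact ⟨n, d.1, d.2, h⟩
    · refine ⟨d.1, n, ?_, h⟩
      intro hn
      have h1 : V.valuation ((d.1 : integralClosure R F) : F) = 1 :=
        s34ca_valuation_eq_one V hV d.2
      have h2 : V.valuation (n : F) < 1 := s34ca_valuation_lt_one V hV hn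
      have h3 : V.valuation x ≤ 1 := (V.valuation_le_one_iff _).mpr hx
      have h4 : V.valuation x * V.valuation (n : F) = 1 := by
        rw [← map_mul]
        have : x * (n : F) = ((d.1 : integralClosure R F) : F) := h
        rw [this, h1]
      have h5 : V.valuation x * V.valuation (n : F) < 1 :=
        mul_lt_one_of_nonneg_of_lt_one_right h3 zero_le h2
      exact absurd h4 (ne_of_lt h5)
  · rintro ⟨n, d, hd, h⟩
    rw [← V.valuation_le_one_iff]
    have h1 : V.valuation (d : F) = 1 := s34ca_valuation_eq_one V hV hd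
    have h2 : V.valuation (n : F) ≤ 1 := (V.valuation_le_one_iff _).mpr (s34ca_int_mem V hV n.2)
    have h3 : V.valuation x * V.valuation (d : F) = V.valuation (n : F) := by
      rw [← map_mul, h]
    rw [h1, mul_one] at h3
    rw [h3]; exact h2

end Dedekind

section Main

variable {R : Type*} (E : Type*) {F : Type*} [CommRing R] [IsDomain R]
  [IsDiscreteValuationRing R]
  [Field E] [Field F] [Algebra R E] [IsFractionRing R E] [Algebra E F] [Algebra R F]
  [IsScalarTower R E F] [FiniteDimensional E F] [Algebra.IsSeparable E F]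

/-- The hypothesis of [COUNT-ABS] on one branch: `V` is a valuation subring of `F` over `R` in
which `π` is not a unit, and `x` is a family of `a` elements of `V` whose residues are linearly
independent over the residue field of `R` (stated without quotients). -/
structure s34ca_Branch (π : R) (V : ValuationSubring F) (a : ℕ) (x : Fin a → F) : Prop where
  le : ∀ r : R, algebraMap R F r ∈ V
  nonunit : algebraMap R F π ∈ V.nonunits
  mem : ∀ i, x i ∈ V
  indep : ∀ c : Fin a → R, (∑ i, c i • x i) ∈ V.nonunits → ∀ i, π ∣ c i

omit [IsDomain R] [IsDiscreteValuationRing R] in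
theorem s34ca_smul_mem (V : ValuationSubring F) (hV : ∀ r : R, algebraMap R F r ∈ V) (r : R)
    {x : F} (hx : x ∈ V) : r • x ∈ V := by
  rw [Algebra.smul_def]; exact V.mul_mem _ _ (hV r) hx

omit [IsDomain R] [IsDiscreteValuationRing R] in
theorem s34ca_smul_nu (V : ValuationSubring F) (hV : ∀ r : R, algebraMap R F r ∈ V) (r : R)
    {x : F} (hx : x ∈ V.nonunits) : r • x ∈ V.nonunits := by
  rw [Algebra.smul_def]; exact s34ca_nu_mul V (hV r) hx

include E in
theorem s34ca_centre_isMaximal {π : R} (hπ : Irreducible π) (V : ValuationSubring F)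
    (hV : ∀ r : R, algebraMap R F r ∈ V) (hπV : algebraMap R F π ∈ V.nonunits) :
    (s34ca_centre V hV).IsMaximal := by
  haveI : IsDedekindDomain (integralClosure R F) := integralClosure.isDedekindDomain R E F
  exact Ideal.IsPrime.isMaximal inferInstance (s34ca_centre_ne_bot E hπ V hV hπV)

include E in
/-- A valuation subring over `(R, π)` is determined by its centre. -/
theorem s34ca_eq_of_centre_eq {π : R} (hπ : Irreducible π) {V V' : ValuationSubring F}
    (hV : ∀ r : R, algebraMap R F r ∈ V) (hπV : algebraMap R F π ∈ V.nonunits)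
    (hV' : ∀ r : R, algebraMap R F r ∈ V') (hπV' : algebraMap R F π ∈ V'.nonunits)
    (h : s34ca_centre V hV = s34ca_centre V' hV') : V = V' := by
  ext x
  rw [s34ca_mem_iff E hπ V hV hπV, s34ca_mem_iff E hπ V' hV' hπV', h]

include E in
/-- Residues of elements of `V` lift to the integral closure. -/
theorem s34ca_lift {π : R} (hπ : Irreducible π) (V : ValuationSubring F)
    (hV : ∀ r : R, algebraMap R F r ∈ V) (hπV : algebraMap R F π ∈ V.nonunits) {x : F}
    (hx : x ∈ V) : ∃ s : integralClosure R F, x - (s : F) ∈ V.nonunits := by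
  obtain ⟨n, d, hd, hnd⟩ := (s34ca_mem_iff E hπ V hV hπV x).mp hx
  haveI := s34ca_centre_isMaximal E hπ V hV hπV
  obtain ⟨d', i, hi, hdi⟩ := Ideal.IsMaximal.exists_inv (I := s34ca_centre V hV) inferInstance hd
  -- d' * d + i = 1
  refine ⟨n * d', ?_⟩
  have h1 : x - ((n * d' : integralClosure R F) : F) = x * (i : F) := by
    have h2 : ((d' : F) * (d : F) + (i : F)) = 1 := by
      have := congrArg (fun s : integralClosure R F => (s : F)) hdi
      simpa using this
    have h3 : ((n * d' : integralClosure R F) : F) = (n : F) * (d' : F) := rfl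
    rw [h3, ← hnd]
    linear_combination (-x) * h2
  rw [h1]
  exact s34ca_nu_mul V hx ((s34ca_mem_centre V hV i).mp hi)

omit [IsDomain R] [IsDiscreteValuationRing R] in
/-- The key computation on one branch. -/
theorem s34ca_key {π : R} {V : ValuationSubring F} {a : ℕ} {x : Fin a → F}
    (hB : s34ca_Branch π V a x) (y : Fin a → F) (hy : ∀ i, x i - y i ∈ V.nonunits)
    (t : F) (ht : 1 - t ∈ V.nonunits) {ι' : Type*} [Fintype ι'] (z : ι' → F)
    (hz : ∀ j, z j ∈ V.nonunits) (c : Fin a → R) (d : ι' → R)
    (h : (∑ i, c i • (t * y i) + ∑ j, d j • z j) ∈ V.nonunits) : ∀ i, π ∣ c i := by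
  apply hB.indep
  have hyV : ∀ i, y i ∈ V := fun i => by
    have := V.sub_mem (hB.mem i) (s34ca_nu_mem V (hy i))
    simpa using this
  have h1 : ∑ i, c i • x i =
      (∑ i, c i • (t * y i) + ∑ j, d j • z j) - ∑ j, d j • z j +
        ∑ i, c i • ((x i - y i) + (1 - t) * y i) := by
    rw [add_sub_cancel_right, ← Finset.sum_add_distrib]
    refine Finset.sum_congr rfl fun i _ => ?_
    rw [← smul_add]
    congr 1
    ring
  rw [h1]
  refine s34ca_nu_add V (s34ca_nu_sub V h ?_) ?_
  · exact s34ca_nu_sum V _ _ fun j _ => s34ca_smul_nu V hB.le _ (hz j)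
  · refine s34ca_nu_sum V _ _ fun i _ => s34ca_smul_nu V hB.le _ ?_
    exact s34ca_nu_add V (hy i) (s34ca_nu_mul' V ht (hyV i))

end Main

end Fermat.Agent.S34
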