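/-
S34 / [COUNT-ABS], part 2 (leaf of [SS-COUNT] = (D1) of the cut of S34; owner helper22).
Prefix `s34ca_`.  Pure commutative algebra, Mathlib only.

`R` a discrete valuation ring with uniformizer `π` and fraction field `E`, `F / E` finite separable.
Given two DIFFERENT valuation subrings `V₁`, `V₂` of `F` over `R` in which `π` is not a unit, and
families of `a₁`, `a₂` elements of `V₁`, `V₂` with linearly independent residues
(`s34ca_Branch`), `[F : E] ≤ a₁ + a₂`: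

* `s34ca_exists_basis` : the integral closure `S` of `R` in `F` is free on a basis adapted to the
                         two branches; `[F : E] = a₁ + a₂`;
* `s34ca_inter`, `s34ca_span_eq_inf` : `π S = P₁ ∩ P₂` (elementwise / as ideals);
* `s34ca_unique`, `s34ca_prime_cases` : `V₁`, `V₂` are the ONLY valuation subrings of `F` over
                         `(R, π)`; their centres are the only primes of `S` containing `π`;
* `s34ca_unif`         : `e = 1`, i.e. `π` generates the maximal ideal of each branch;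
* `s34ca_span`         : `f_i = a_i`, i.e. the residues of `x_i` span the residue field;
* `s34ca_isIntegral_iff` : `S = V₁ ∩ V₂`;
* `s34ca_main`         : all of it in one statement.
-/
import Mathlib
import Fermat.Agent.S34.CountAbs

set_option autoImplicit false
set_option linter.unusedSectionVars false
set_option linter.style.haveILetI false
set_option linter.unnecessarySimpa false

namespace Fermat.Agent.S34

open Module IsDedekindDomain

section Final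

variable {R : Type*} (E : Type*) {F : Type*} [CommRing R] [IsDomain R]
  [IsDiscreteValuationRing R]
  [Field E] [Field F] [Algebra R E] [IsFractionRing R E] [Algebra E F] [Algebra R F]
  [IsScalarTower R E F] [FiniteDimensional E F] [Algebra.IsSeparable E F]

omit [IsDomain R] [IsDiscreteValuationRing R] in
theorem s34ca_isIntegral_lin {a₁ a₂ : ℕ} (w₁ : Fin a₁ → F) (w₂ : Fin a₂ → F)
    (hw₁ : ∀ i, IsIntegral R (w₁ i)) (hw₂ : ∀ j, IsIntegral R (w₂ j))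
    (c : Fin a₁ → R) (d : Fin a₂ → R) :
    IsIntegral R (∑ i, c i • w₁ i + ∑ j, d j • w₂ j) := by
  have h : ∑ i, c i • w₁ i + ∑ j, d j • w₂ j ∈ integralClosure R F :=
    add_mem (Subalgebra.sum_mem _ fun i _ => Subalgebra.smul_mem _ (hw₁ i) _)
      (Subalgebra.sum_mem _ fun j _ => Subalgebra.smul_mem _ (hw₂ j) _)
  exact h

include E in
/-- **[COUNT-ABS], the adapted basis.** The integral closure of `R` in `F` is free over `R` on a
basis `w₁ ∪ w₂` with `w₁ ≡ x₁` on the first branch, `w₁ ≡ 0` on the second one, and symmetrically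
for `w₂`; in particular `[F : E] = a₁ + a₂`. -/
theorem s34ca_exists_basis {π : R} (hπ : Irreducible π) {V₁ V₂ : ValuationSubring F}
    (hne : V₁ ≠ V₂) {a₁ a₂ : ℕ} {x₁ : Fin a₁ → F} {x₂ : Fin a₂ → F}
    (h₁ : s34ca_Branch π V₁ a₁ x₁) (h₂ : s34ca_Branch π V₂ a₂ x₂)
    (hn : finrank E F ≤ a₁ + a₂) :
    ∃ (w₁ : Fin a₁ → F) (w₂ : Fin a₂ → F),
      (∀ i, IsIntegral R (w₁ i)) ∧ (∀ j, IsIntegral R (w₂ j)) ∧
      (∀ i, x₁ i - w₁ i ∈ V₁.nonunits) ∧ (∀ i, w₁ i ∈ V₂.nonunits) ∧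
      (∀ j, x₂ j - w₂ j ∈ V₂.nonunits) ∧ (∀ j, w₂ j ∈ V₁.nonunits) ∧
      finrank E F = a₁ + a₂ ∧
      (∀ x : F, IsIntegral R x →
        ∃ (c : Fin a₁ → R) (d : Fin a₂ → R), x = ∑ i, c i • w₁ i + ∑ j, d j • w₂ j) ∧
      (∀ (c : Fin a₁ → R) (d : Fin a₂ → R),
        (∑ i, c i • w₁ i + ∑ j, d j • w₂ j) ∈ V₁.nonunits → ∀ i, π ∣ c i) ∧
      (∀ (c : Fin a₁ → R) (d : Fin a₂ → R),
        (∑ i, c i • w₁ i + ∑ j, d j • w₂ j) ∈ V₂.nonunits → ∀ j, π ∣ d j) := by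
  classical
  have hM₁ := s34ca_centre_isMaximal E hπ V₁ h₁.le h₁.nonunit
  have hM₂ := s34ca_centre_isMaximal E hπ V₂ h₂.le h₂.nonunit
  have hPne : s34ca_centre V₁ h₁.le ≠ s34ca_centre V₂ h₂.le := fun h =>
    hne (s34ca_eq_of_centre_eq E hπ h₁.le h₁.nonunit h₂.le h₂.nonunit h)
  have hcop : s34ca_centre V₁ h₁.le ⊔ s34ca_centre V₂ h₂.le = ⊤ :=
    Ideal.IsMaximal.coprime_of_ne hM₁ hM₂ hPne
  obtain ⟨u, hu, t, ht, hut⟩ := Submodule.mem_sup.mp
    (hcop ▸ (Submodule.mem_top : (1 : integralClosure R F) ∈ (⊤ : Ideal _)))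
  have hutF : (u : F) + (t : F) = 1 := by
    have := congrArg (fun s : integralClosure R F => (s : F)) hut
    simpa using this
  have huV₁ : (u : F) ∈ V₁.nonunits := (s34ca_mem_centre V₁ h₁.le u).mp hu
  have htV₂ : (t : F) ∈ V₂.nonunits := (s34ca_mem_centre V₂ h₂.le t).mp ht
  have h1t : (1 : F) - (t : F) ∈ V₁.nonunits := by
    have : (1 : F) - (t : F) = (u : F) := by linear_combination -hutF
    rw [this]; exact huV₁
  have h1u : (1 : F) - (u : F) ∈ V₂.nonunits := by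
    have : (1 : F) - (u : F) = (t : F) := by linear_combination -hutF
    rw [this]; exact htV₂
  choose y₁ hy₁ using fun i => s34ca_lift E hπ V₁ h₁.le h₁.nonunit (h₁.mem i)
  choose y₂ hy₂ using fun j => s34ca_lift E hπ V₂ h₂.le h₂.nonunit (h₂.mem j)
  have hint₁ : ∀ i, IsIntegral R ((t : F) * (y₁ i : F)) := fun i => (t * y₁ i).2
  have hint₂ : ∀ j, IsIntegral R ((u : F) * (y₂ j : F)) := fun j => (u * y₂ j).2
  have hz₁ : ∀ i, (t : F) * (y₁ i : F) ∈ V₂.nonunits := fun i =>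
    s34ca_nu_mul' V₂ htV₂ (s34ca_int_mem V₂ h₂.le (y₁ i).2)
  have hz₂ : ∀ j, (u : F) * (y₂ j : F) ∈ V₁.nonunits := fun j =>
    s34ca_nu_mul' V₁ huV₁ (s34ca_int_mem V₁ h₁.le (y₂ j).2)
  have K₁ : ∀ (c : Fin a₁ → R) (d : Fin a₂ → R),
      (∑ i, c i • ((t : F) * (y₁ i : F)) + ∑ j, d j • ((u : F) * (y₂ j : F))) ∈ V₁.nonunits →
        ∀ i, π ∣ c i := fun c d h =>
    s34ca_key h₁ (fun i => (y₁ i : F)) hy₁ (t : F) h1t (fun j => (u : F) * (y₂ j : F)) hz₂ c d h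
  have K₂ : ∀ (c : Fin a₁ → R) (d : Fin a₂ → R),
      (∑ i, c i • ((t : F) * (y₁ i : F)) + ∑ j, d j • ((u : F) * (y₂ j : F))) ∈ V₂.nonunits →
        ∀ j, π ∣ d j := fun c d h => by
    rw [add_comm] at h
    exact s34ca_key h₂ (fun j => (y₂ j : F)) hy₂ (u : F) h1u
      (fun i => (t : F) * (y₁ i : F)) hz₁ d c h
  -- the basis lemma
  let w : Fin a₁ ⊕ Fin a₂ → F :=
    Sum.elim (fun i => (t : F) * (y₁ i : F)) (fun j => (u : F) * (y₂ j : F))
  have hsum : ∀ c : Fin a₁ ⊕ Fin a₂ → R, ∑ k, c k • w k =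
      ∑ i, c (Sum.inl i) • ((t : F) * (y₁ i : F)) +
        ∑ j, c (Sum.inr j) • ((u : F) * (y₂ j : F)) := fun c => by
    rw [Fintype.sum_sum_type]; rfl
  have hind : ∀ c : Fin a₁ ⊕ Fin a₂ → R,
      (∃ s ∈ Subalgebra.toSubmodule (integralClosure R F), ∑ k, c k • w k = π • s) →
        ∀ k, π ∣ c k := by
    rintro c ⟨s, hs, hcs⟩ k
    have hs' : IsIntegral R s := hs
    rw [hsum] at hcs
    have hnu₁ : π • s ∈ V₁.nonunits := by
      rw [Algebra.smul_def]; exact s34ca_nu_mul' V₁ h₁.nonunit (s34ca_int_mem V₁ h₁.le hs')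
    have hnu₂ : π • s ∈ V₂.nonunits := by
      rw [Algebra.smul_def]; exact s34ca_nu_mul' V₂ h₂.nonunit (s34ca_int_mem V₂ h₂.le hs')
    rcases k with i | j
    · exact K₁ _ _ (hcs ▸ hnu₁) i
    · exact K₂ _ _ (hcs ▸ hnu₂) j
  have hcard : finrank E F ≤ Fintype.card (Fin a₁ ⊕ Fin a₂) := by
    rw [Fintype.card_sum, Fintype.card_fin, Fintype.card_fin]; exact hn
  obtain ⟨hrank, hspan⟩ := s34ca_basis (E := E) hπ
    (Subalgebra.toSubmodule (integralClosure R F)) w hind hcard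
  refine ⟨fun i => (t : F) * (y₁ i : F), fun j => (u : F) * (y₂ j : F), hint₁, hint₂, ?_, hz₁,
    ?_, hz₂, ?_, ?_, K₁, K₂⟩
  · intro i
    have : x₁ i - (t : F) * (y₁ i : F) = (x₁ i - (y₁ i : F)) + (1 - (t : F)) * (y₁ i : F) := by
      ring
    rw [this]
    exact s34ca_nu_add V₁ (hy₁ i) (s34ca_nu_mul' V₁ h1t (s34ca_int_mem V₁ h₁.le (y₁ i).2))
  · intro j
    have : x₂ j - (u : F) * (y₂ j : F) = (x₂ j - (y₂ j : F)) + (1 - (u : F)) * (y₂ j : F) := by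
      ring
    rw [this]
    exact s34ca_nu_add V₂ (hy₂ j) (s34ca_nu_mul' V₂ h1u (s34ca_int_mem V₂ h₂.le (y₂ j).2))
  · rw [hrank, Fintype.card_sum, Fintype.card_fin, Fintype.card_fin]
  · intro x hx
    obtain ⟨c, hc⟩ := hspan x hx
    exact ⟨fun i => c (Sum.inl i), fun j => c (Sum.inr j), by rw [hc, hsum]⟩

end Final

section Main2

variable {R : Type*} (E : Type*) {F : Type*} [CommRing R] [IsDomain R]
  [IsDiscreteValuationRing R]
  [Field E] [Field F] [Algebra R E] [IsFractionRing R E] [Algebra E F] [Algebra R F]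
  [IsScalarTower R E F] [FiniteDimensional E F] [Algebra.IsSeparable E F]

include E in
/-- `π S = P₁ ∩ P₂`, elementwise: an integral element which is a non-unit of both branches is
`π` times an integral element. -/
theorem s34ca_inter {π : R} (hπ : Irreducible π) {V₁ V₂ : ValuationSubring F}
    (hne : V₁ ≠ V₂) {a₁ a₂ : ℕ} {x₁ : Fin a₁ → F} {x₂ : Fin a₂ → F}
    (h₁ : s34ca_Branch π V₁ a₁ x₁) (h₂ : s34ca_Branch π V₂ a₂ x₂)
    (hn : finrank E F ≤ a₁ + a₂) {x : F} (hx : IsIntegral R x) (hx₁ : x ∈ V₁.nonunits)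
    (hx₂ : x ∈ V₂.nonunits) : ∃ y : F, IsIntegral R y ∧ x = π • y := by
  obtain ⟨w₁, w₂, hw₁, hw₂, -, -, -, -, -, hspan, K₁, K₂⟩ :=
    s34ca_exists_basis E hπ hne h₁ h₂ hn
  obtain ⟨c, d, rfl⟩ := hspan x hx
  choose c' hc' using K₁ c d hx₁
  choose d' hd' using K₂ c d hx₂
  refine ⟨∑ i, c' i • w₁ i + ∑ j, d' j • w₂ j, s34ca_isIntegral_lin w₁ w₂ hw₁ hw₂ c' d', ?_⟩
  rw [smul_add, Finset.smul_sum, Finset.smul_sum]
  congr 1
  · exact Finset.sum_congr rfl fun i _ => by rw [hc' i, mul_smul]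
  · exact Finset.sum_congr rfl fun j _ => by rw [hd' j, mul_smul]

include E in
/-- The two branches are the only valuation subrings of `F` over `(R, π)`. -/
theorem s34ca_unique {π : R} (hπ : Irreducible π) {V₁ V₂ : ValuationSubring F}
    (hne : V₁ ≠ V₂) {a₁ a₂ : ℕ} {x₁ : Fin a₁ → F} {x₂ : Fin a₂ → F}
    (h₁ : s34ca_Branch π V₁ a₁ x₁) (h₂ : s34ca_Branch π V₂ a₂ x₂)
    (hn : finrank E F ≤ a₁ + a₂) (V : ValuationSubring F) (hV : ∀ r : R, algebraMap R F r ∈ V)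
    (hπV : algebraMap R F π ∈ V.nonunits) : V = V₁ ∨ V = V₂ := by
  by_contra hcon
  push Not at hcon
  obtain ⟨hc₁, hc₂⟩ := hcon
  have hM₁ := s34ca_centre_isMaximal E hπ V₁ h₁.le h₁.nonunit
  have hM₂ := s34ca_centre_isMaximal E hπ V₂ h₂.le h₂.nonunit
  have hM := s34ca_centre_isMaximal E hπ V hV hπV
  have hP₁ : s34ca_centre V₁ h₁.le ≠ s34ca_centre V hV := fun h =>
    hc₁ (s34ca_eq_of_centre_eq E hπ h₁.le h₁.nonunit hV hπV h).symm
  have hP₂ : s34ca_centre V₂ h₂.le ≠ s34ca_centre V hV := fun h =>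
    hc₂ (s34ca_eq_of_centre_eq E hπ h₂.le h₂.nonunit hV hπV h).symm
  have hnle₁ : ¬ s34ca_centre V₁ h₁.le ≤ s34ca_centre V hV := fun h =>
    hP₁ (hM₁.eq_of_le hM.ne_top h)
  have hnle₂ : ¬ s34ca_centre V₂ h₂.le ≤ s34ca_centre V hV := fun h =>
    hP₂ (hM₂.eq_of_le hM.ne_top h)
  obtain ⟨p₁, hp₁, hp₁'⟩ := SetLike.not_le_iff_exists.mp hnle₁
  obtain ⟨p₂, hp₂, hp₂'⟩ := SetLike.not_le_iff_exists.mp hnle₂
  have hprod₁ : ((p₁ * p₂ : integralClosure R F) : F) ∈ V₁.nonunits :=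
    (s34ca_mem_centre V₁ h₁.le _).mp (Ideal.mul_mem_right _ _ hp₁)
  have hprod₂ : ((p₁ * p₂ : integralClosure R F) : F) ∈ V₂.nonunits :=
    (s34ca_mem_centre V₂ h₂.le _).mp (Ideal.mul_mem_left _ _ hp₂)
  obtain ⟨y, hy, hxy⟩ := s34ca_inter E hπ hne h₁ h₂ hn (p₁ * p₂).2 hprod₁ hprod₂
  have hmem : p₁ * p₂ ∈ s34ca_centre V hV := by
    rw [s34ca_mem_centre, hxy, Algebra.smul_def]
    exact s34ca_nu_mul' V hπV (s34ca_int_mem V hV hy)
  rcases (s34ca_centre_isPrime V hV).mem_or_mem hmem with h | h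
  · exact hp₁' h
  · exact hp₂' h

include E in
/-- `e = 1`: `π` generates the maximal ideal of the first branch. -/
theorem s34ca_unif {π : R} (hπ : Irreducible π) {V₁ V₂ : ValuationSubring F}
    (hne : V₁ ≠ V₂) {a₁ a₂ : ℕ} {x₁ : Fin a₁ → F} {x₂ : Fin a₂ → F}
    (h₁ : s34ca_Branch π V₁ a₁ x₁) (h₂ : s34ca_Branch π V₂ a₂ x₂)
    (hn : finrank E F ≤ a₁ + a₂) {x : F} (hx : x ∈ V₁.nonunits) :
    ∃ y ∈ V₁, x = π • y := by
  have hM₁ := s34ca_centre_isMaximal E hπ V₁ h₁.le h₁.nonunit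
  have hM₂ := s34ca_centre_isMaximal E hπ V₂ h₂.le h₂.nonunit
  have hPne : s34ca_centre V₂ h₂.le ≠ s34ca_centre V₁ h₁.le := fun h =>
    hne (s34ca_eq_of_centre_eq E hπ h₂.le h₂.nonunit h₁.le h₁.nonunit h).symm
  have hnle : ¬ s34ca_centre V₂ h₂.le ≤ s34ca_centre V₁ h₁.le := fun h =>
    hPne (hM₂.eq_of_le hM₁.ne_top h)
  obtain ⟨t, ht, ht'⟩ := SetLike.not_le_iff_exists.mp hnle
  obtain ⟨n, d, hd, hnd⟩ := (s34ca_mem_iff E hπ V₁ h₁.le h₁.nonunit x).mp (s34ca_nu_mem V₁ hx)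
  have hn₁ : (n : F) ∈ V₁.nonunits := by
    rw [← hnd]; exact s34ca_nu_mul' V₁ hx (s34ca_int_mem V₁ h₁.le d.2)
  have hprod₁ : ((n * t : integralClosure R F) : F) ∈ V₁.nonunits :=
    s34ca_nu_mul' V₁ hn₁ (s34ca_int_mem V₁ h₁.le t.2)
  have hprod₂ : ((n * t : integralClosure R F) : F) ∈ V₂.nonunits :=
    (s34ca_mem_centre V₂ h₂.le _).mp (Ideal.mul_mem_left _ _ ht)
  obtain ⟨y, hy, hxy⟩ := s34ca_inter E hπ hne h₁ h₂ hn (n * t).2 hprod₁ hprod₂
  have hdt : d * t ∉ s34ca_centre V₁ h₁.le := fun h =>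
    ((s34ca_centre_isPrime V₁ h₁.le).mem_or_mem h).elim hd ht'
  have hdt0 : ((d * t : integralClosure R F) : F) ≠ 0 := by
    intro h0
    apply hdt
    have : d * t = 0 := Subtype.ext h0
    rw [this]; exact Ideal.zero_mem _
  refine ⟨y / ((d * t : integralClosure R F) : F), ?_, ?_⟩
  · rw [s34ca_mem_iff E hπ V₁ h₁.le h₁.nonunit]
    exact ⟨⟨y, hy⟩, d * t, hdt, div_mul_cancel₀ y hdt0⟩
  · have h3 : x * ((d * t : integralClosure R F) : F) = π • y := by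
      rw [← hxy]
      show x * ((d : F) * (t : F)) = (n : F) * (t : F)
      rw [← hnd]; ring
    rw [Algebra.smul_def] at h3 ⊢
    field_simp
    rw [h3]

include E in
/-- `f₁ = a₁`: the residues of `x₁` span the residue field of the first branch. -/
theorem s34ca_span {π : R} (hπ : Irreducible π) {V₁ V₂ : ValuationSubring F}
    (hne : V₁ ≠ V₂) {a₁ a₂ : ℕ} {x₁ : Fin a₁ → F} {x₂ : Fin a₂ → F}
    (h₁ : s34ca_Branch π V₁ a₁ x₁) (h₂ : s34ca_Branch π V₂ a₂ x₂)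
    (hn : finrank E F ≤ a₁ + a₂) {y : F} (hy : y ∈ V₁) :
    ∃ c : Fin a₁ → R, y - ∑ i, c i • x₁ i ∈ V₁.nonunits := by
  obtain ⟨w₁, w₂, hw₁, hw₂, hxw₁, -, -, hw₂₁, -, hspan, -, -⟩ :=
    s34ca_exists_basis E hπ hne h₁ h₂ hn
  obtain ⟨s, hs⟩ := s34ca_lift E hπ V₁ h₁.le h₁.nonunit hy
  obtain ⟨c, d, hcd⟩ := hspan s s.2
  refine ⟨c, ?_⟩
  have : y - ∑ i, c i • x₁ i =
      (y - (s : F)) + (∑ j, d j • w₂ j - ∑ i, c i • (x₁ i - w₁ i)) := by
    rw [hcd]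
    simp only [smul_sub, Finset.sum_sub_distrib]
    ring
  rw [this]
  refine s34ca_nu_add V₁ hs (s34ca_nu_sub V₁ ?_ ?_)
  · exact s34ca_nu_sum V₁ _ _ fun j _ => s34ca_smul_nu V₁ h₁.le _ (hw₂₁ j)
  · exact s34ca_nu_sum V₁ _ _ fun i _ => s34ca_smul_nu V₁ h₁.le _ (hxw₁ i)

end Main2

section Main3

variable {R : Type*} (E : Type*) {F : Type*} [CommRing R] [IsDomain R]
  [IsDiscreteValuationRing R]
  [Field E] [Field F] [Algebra R E] [IsFractionRing R E] [Algebra E F] [Algebra R F]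
  [IsScalarTower R E F] [FiniteDimensional E F] [Algebra.IsSeparable E F]

include E in
/-- The centres of the two branches are the only primes of the integral closure containing
`π`. -/
theorem s34ca_prime_cases {π : R} (hπ : Irreducible π) {V₁ V₂ : ValuationSubring F}
    (hne : V₁ ≠ V₂) {a₁ a₂ : ℕ} {x₁ : Fin a₁ → F} {x₂ : Fin a₂ → F}
    (h₁ : s34ca_Branch π V₁ a₁ x₁) (h₂ : s34ca_Branch π V₂ a₂ x₂)
    (hn : finrank E F ≤ a₁ + a₂) (Q : Ideal (integralClosure R F)) (hQ : Q.IsPrime)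
    (hπQ : algebraMap R (integralClosure R F) π ∈ Q) :
    Q = s34ca_centre V₁ h₁.le ∨ Q = s34ca_centre V₂ h₂.le := by
  by_contra hcon
  push Not at hcon
  obtain ⟨hc₁, hc₂⟩ := hcon
  have hM₁ := s34ca_centre_isMaximal E hπ V₁ h₁.le h₁.nonunit
  have hM₂ := s34ca_centre_isMaximal E hπ V₂ h₂.le h₂.nonunit
  have hnle₁ : ¬ s34ca_centre V₁ h₁.le ≤ Q := fun h => hc₁ (hM₁.eq_of_le hQ.ne_top h).symm
  have hnle₂ : ¬ s34ca_centre V₂ h₂.le ≤ Q := fun h => hc₂ (hM₂.eq_of_le hQ.ne_top h).symm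
  obtain ⟨p₁, hp₁, hp₁'⟩ := SetLike.not_le_iff_exists.mp hnle₁
  obtain ⟨p₂, hp₂, hp₂'⟩ := SetLike.not_le_iff_exists.mp hnle₂
  have hprod₁ : ((p₁ * p₂ : integralClosure R F) : F) ∈ V₁.nonunits :=
    (s34ca_mem_centre V₁ h₁.le _).mp (Ideal.mul_mem_right _ _ hp₁)
  have hprod₂ : ((p₁ * p₂ : integralClosure R F) : F) ∈ V₂.nonunits :=
    (s34ca_mem_centre V₂ h₂.le _).mp (Ideal.mul_mem_left _ _ hp₂)
  obtain ⟨y, hy, hxy⟩ := s34ca_inter E hπ hne h₁ h₂ hn (p₁ * p₂).2 hprod₁ hprod₂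
  have hmem : p₁ * p₂ ∈ Q := by
    have : p₁ * p₂ = algebraMap R (integralClosure R F) π * ⟨y, hy⟩ := by
      apply Subtype.ext
      rw [hxy, Algebra.smul_def]; rfl
    rw [this]
    exact Ideal.mul_mem_right _ _ hπQ
  rcases hQ.mem_or_mem hmem with h | h
  · exact hp₁' h
  · exact hp₂' h

include E in
/-- `π S = P₁ ∩ P₂` as ideals of the integral closure. -/
theorem s34ca_span_eq_inf {π : R} (hπ : Irreducible π) {V₁ V₂ : ValuationSubring F}
    (hne : V₁ ≠ V₂) {a₁ a₂ : ℕ} {x₁ : Fin a₁ → F} {x₂ : Fin a₂ → F}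
    (h₁ : s34ca_Branch π V₁ a₁ x₁) (h₂ : s34ca_Branch π V₂ a₂ x₂)
    (hn : finrank E F ≤ a₁ + a₂) :
    Ideal.span {algebraMap R (integralClosure R F) π} =
      s34ca_centre V₁ h₁.le ⊓ s34ca_centre V₂ h₂.le := by
  apply le_antisymm
  · rw [Ideal.span_singleton_le_iff_mem, Ideal.mem_inf, s34ca_mem_centre, s34ca_mem_centre]
    exact ⟨h₁.nonunit, h₂.nonunit⟩
  · intro s hs
    rw [Ideal.mem_inf, s34ca_mem_centre, s34ca_mem_centre] at hs
    obtain ⟨y, hy, hxy⟩ := s34ca_inter E hπ hne h₁ h₂ hn s.2 hs.1 hs.2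
    rw [Ideal.mem_span_singleton]
    refine ⟨⟨y, hy⟩, ?_⟩
    apply Subtype.ext
    rw [hxy, Algebra.smul_def]; rfl

include E in
/-- The integral closure of `R` in `F` is `V₁ ∩ V₂`. -/
theorem s34ca_isIntegral_iff {π : R} (hπ : Irreducible π) {V₁ V₂ : ValuationSubring F}
    (hne : V₁ ≠ V₂) {a₁ a₂ : ℕ} {x₁ : Fin a₁ → F} {x₂ : Fin a₂ → F}
    (h₁ : s34ca_Branch π V₁ a₁ x₁) (h₂ : s34ca_Branch π V₂ a₂ x₂)
    (hn : finrank E F ≤ a₁ + a₂) (x : F) : IsIntegral R x ↔ x ∈ V₁ ∧ x ∈ V₂ := by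
  constructor
  · intro hx
    exact ⟨s34ca_int_mem V₁ h₁.le hx, s34ca_int_mem V₂ h₂.le hx⟩
  · rintro ⟨hx₁, hx₂⟩
    obtain ⟨n₁, d₁, hd₁, hnd₁⟩ := (s34ca_mem_iff E hπ V₁ h₁.le h₁.nonunit x).mp hx₁
    obtain ⟨n₂, d₂, hd₂, hnd₂⟩ := (s34ca_mem_iff E hπ V₂ h₂.le h₂.nonunit x).mp hx₂
    let I : Ideal (integralClosure R F) :=
      { carrier := {d | IsIntegral R (x * (d : F))}
        add_mem' := fun {a b} ha hb => by
          show IsIntegral R (x * ((a : F) + (b : F)))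
          rw [mul_add]; exact IsIntegral.add ha hb
        zero_mem' := by
          show IsIntegral R (x * ((0 : integralClosure R F) : F))
          simp only [ZeroMemClass.coe_zero, mul_zero]
          exact isIntegral_zero
        smul_mem' := fun c {a} ha => by
          show IsIntegral R (x * ((c : F) * (a : F)))
          rw [mul_left_comm]; exact IsIntegral.mul c.2 ha }
    by_contra hx
    have hI : I ≠ ⊤ := by
      intro h
      have h1 : (1 : integralClosure R F) ∈ I := h ▸ Submodule.mem_top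
      have h2 : IsIntegral R (x * ((1 : integralClosure R F) : F)) := h1
      simp only [OneMemClass.coe_one, mul_one] at h2
      exact hx h2
    obtain ⟨Q, hQ, hIQ⟩ := Ideal.exists_le_maximal I hI
    have hcomap : (Q.comap (algebraMap R (integralClosure R F))).IsMaximal :=
      Ideal.isMaximal_comap_of_isIntegral_of_isMaximal Q
    have hπQ : algebraMap R (integralClosure R F) π ∈ Q := by
      have h3 : π ∈ Q.comap (algebraMap R (integralClosure R F)) := by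
        rw [IsLocalRing.eq_maximalIdeal hcomap, IsLocalRing.mem_maximalIdeal]
        exact hπ.not_isUnit
      exact h3
    have hd₁I : d₁ ∈ I := by
      show IsIntegral R (x * (d₁ : F))
      rw [hnd₁]; exact n₁.2
    have hd₂I : d₂ ∈ I := by
      show IsIntegral R (x * (d₂ : F))
      rw [hnd₂]; exact n₂.2
    rcases s34ca_prime_cases E hπ hne h₁ h₂ hn Q hQ.isPrime hπQ with h | h
    · exact hd₁ (h ▸ hIQ hd₁I)
    · exact hd₂ (h ▸ hIQ hd₂I)

include E in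
/-- **[COUNT-ABS]**, everything in one statement. -/
theorem s34ca_main {π : R} (hπ : Irreducible π) {V₁ V₂ : ValuationSubring F}
    (hne : V₁ ≠ V₂) {a₁ a₂ : ℕ} {x₁ : Fin a₁ → F} {x₂ : Fin a₂ → F}
    (h₁ : s34ca_Branch π V₁ a₁ x₁) (h₂ : s34ca_Branch π V₂ a₂ x₂)
    (hn : finrank E F ≤ a₁ + a₂) :
    finrank E F = a₁ + a₂ ∧
    (∀ V : ValuationSubring F, (∀ r : R, algebraMap R F r ∈ V) →
      algebraMap R F π ∈ V.nonunits → V = V₁ ∨ V = V₂) ∧
    (∀ x ∈ V₁.nonunits, ∃ y ∈ V₁, x = π • y) ∧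
    (∀ x ∈ V₂.nonunits, ∃ y ∈ V₂, x = π • y) ∧
    (∀ y ∈ V₁, ∃ c : Fin a₁ → R, y - ∑ i, c i • x₁ i ∈ V₁.nonunits) ∧
    (∀ y ∈ V₂, ∃ c : Fin a₂ → R, y - ∑ i, c i • x₂ i ∈ V₂.nonunits) ∧
    (∀ x : F, IsIntegral R x ↔ x ∈ V₁ ∧ x ∈ V₂) ∧
    (∀ x : F, IsIntegral R x → x ∈ V₁.nonunits → x ∈ V₂.nonunits →
      ∃ y : F, IsIntegral R y ∧ x = π • y) := by
  have hn' : finrank E F ≤ a₂ + a₁ := by rw [add_comm]; exact hn
  obtain ⟨-, -, -, -, -, -, -, -, hrank, -⟩ := s34ca_exists_basis E hπ hne h₁ h₂ hn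
  exact ⟨hrank, fun V hV hπV => s34ca_unique E hπ hne h₁ h₂ hn V hV hπV,
    fun x hx => s34ca_unif E hπ hne h₁ h₂ hn hx,
    fun x hx => s34ca_unif E hπ hne.symm h₂ h₁ hn' hx,
    fun y hy => s34ca_span E hπ hne h₁ h₂ hn hy,
    fun y hy => s34ca_span E hπ hne.symm h₂ h₁ hn' hy,
    fun x => s34ca_isIntegral_iff E hπ hne h₁ h₂ hn x,
    fun x hx hx₁ hx₂ => s34ca_inter E hπ hne h₁ h₂ hn hx hx₁ hx₂⟩

end Main3

end Fermat.Agent.S34
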