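/-
S34, leaf [SS-COUNT] (D1), abstract part [BR-ABS].  Owner: helper26.  Prefix `s34co_`.

`s34co_branch`: a valuation subring `V` of `F` over a ring `R` with a reduction homomorphism
`ρ : V → L` killing the non-units, such that `ρ (R)` lies in a subfield `k₀ ⊆ L` and
`ρ r = 0 → π ∣ r` on `R`; a family `x` of elements of `V` whose reductions are linearly independent
over `k₀` satisfies the branch hypothesis `s34ca_Branch π V a x` of [COUNT-ABS].

`s34co_comap_*`: the comap of a valuation subring under a field automorphism.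
-/
import Mathlib
import Fermat.Agent.S34.CountAbs

set_option autoImplicit false
set_option linter.unusedSectionVars false
set_option linter.unusedVariables false

noncomputable section

namespace Fermat.Agent.S34

section Branch

variable {R F L κ : Type*} [CommRing R] [Field F] [Algebra R F] [Field L] [Field κ] [Algebra κ L]

/-- **[BR-ABS]** independent reductions give a branch. -/
theorem s34co_branch (π : R) (V : ValuationSubring F) (ρ : ↥V →+* L)
    (hnu : ∀ y : ↥V, (y : F) ∈ V.nonunits → ρ y = 0)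
    (hle : ∀ r : R, algebraMap R F r ∈ V) (hπ : algebraMap R F π ∈ V.nonunits)
    (k₀ : IntermediateField κ L) (hk₀ : ∀ r : R, ρ ⟨algebraMap R F r, hle r⟩ ∈ k₀)
    (hdvd : ∀ r : R, ρ ⟨algebraMap R F r, hle r⟩ = 0 → π ∣ r)
    (a : ℕ) (x : Fin a → F) (hx : ∀ i, x i ∈ V)
    (hind : LinearIndependent ↥k₀ (fun i => ρ ⟨x i, hx i⟩)) :
    s34ca_Branch π V a x := by
  refine ⟨hle, hπ, hx, ?_⟩
  intro c hc
  have hmem : ∀ i, c i • x i ∈ V := fun i => by
    rw [Algebra.smul_def]
    exact V.mul_mem _ _ (hle (c i)) (hx i)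
  have hs : (∑ i, c i • x i) ∈ V := hc.1 |> fun _ => by
    exact Subring.sum_mem V.toSubring (fun i _ => hmem i)
  have h0 := hnu ⟨_, hs⟩ hc
  have h1 : (⟨∑ i, c i • x i, hs⟩ : ↥V) =
      ∑ i, (⟨algebraMap R F (c i), hle (c i)⟩ : ↥V) * ⟨x i, hx i⟩ := by
    apply Subtype.ext
    have h4 : ((∑ i, (⟨algebraMap R F (c i), hle (c i)⟩ : ↥V) * ⟨x i, hx i⟩ : ↥V) : F) =
        ∑ i, algebraMap R F (c i) * x i := by
      rw [show ((∑ i, (⟨algebraMap R F (c i), hle (c i)⟩ : ↥V) * ⟨x i, hx i⟩ : ↥V) : F) =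
        V.subtype (∑ i, (⟨algebraMap R F (c i), hle (c i)⟩ : ↥V) * ⟨x i, hx i⟩) from rfl,
        map_sum]
      rfl
    rw [h4]
    show (∑ i, c i • x i) = ∑ i, algebraMap R F (c i) * x i
    exact Finset.sum_congr rfl (fun i _ => Algebra.smul_def (c i) (x i))
  rw [h1, map_sum] at h0
  have h2 : ∑ i, (⟨ρ ⟨algebraMap R F (c i), hle (c i)⟩, hk₀ (c i)⟩ : ↥k₀) •
      ρ ⟨x i, hx i⟩ = 0 := by
    rw [← h0]
    refine Finset.sum_congr rfl (fun i _ => ?_)
    rw [map_mul, IntermediateField.smul_def]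
    rfl
  intro i
  have h3 := (Fintype.linearIndependent_iff.mp hind) _ h2 i
  exact hdvd (c i) (congrArg Subtype.val h3)

end Branch

section Comap

variable {E F : Type*} [Field E] [Field F]

/-- The non-units of a valuation subring, for non-zero elements. -/
theorem s34co_nu_iff_inv (A : ValuationSubring F) (z : F) (hz : z ≠ 0) :
    z ∈ A.nonunits ↔ z ∈ A ∧ z⁻¹ ∉ A := by
  constructor
  · intro h
    refine ⟨s34ca_nu_mem A h, fun hinv => ?_⟩
    have h1 : z⁻¹ * z ∈ A.nonunits := s34ca_nu_mul A hinv h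
    rw [inv_mul_cancel₀ hz] at h1
    exact s34ca_one_not_nu A h1
  · rintro ⟨h1, h2⟩
    rw [ValuationSubring.mem_nonunits_iff_exists_mem_maximalIdeal]
    refine ⟨h1, ?_⟩
    rw [IsLocalRing.mem_maximalIdeal, mem_nonunits_iff]
    intro hu
    obtain ⟨u, hu⟩ := hu
    apply h2
    have h4 : z * (((u⁻¹ : (↥A)ˣ) : ↥A) : F) = 1 := by
      have h5 : ((u : ↥A) : F) = z := congrArg Subtype.val hu
      rw [← h5]
      have h6 : (u : ↥A) * ((u⁻¹ : (↥A)ˣ) : ↥A) = 1 := Units.mul_inv u
      exact congrArg Subtype.val h6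
    have h3 : z⁻¹ = (((u⁻¹ : (↥A)ˣ) : ↥A) : F) := inv_eq_of_mul_eq_one_right h4
    rw [h3]
    exact Subtype.mem _

/-- The non-units of the comap under a homomorphism of fields. -/
theorem s34co_nonunits_comap_hom (V : ValuationSubring F) (f : E →+* F) (y : E) :
    y ∈ (V.comap f).nonunits ↔ f y ∈ V.nonunits := by
  by_cases hy : y = 0
  · subst hy
    rw [map_zero]
    exact ⟨fun _ => s34ca_nu_zero V, fun _ => s34ca_nu_zero _⟩
  have hfy : f y ≠ 0 := fun h => hy ((map_eq_zero f).1 h)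
  rw [s34co_nu_iff_inv _ y hy, s34co_nu_iff_inv V (f y) hfy, ValuationSubring.mem_comap,
    ValuationSubring.mem_comap, map_inv₀]

theorem s34co_mem_comap (V : ValuationSubring F) (W : F ≃+* F) (y : F) :
    y ∈ V.comap (W : F →+* F) ↔ W y ∈ V := Iff.rfl

/-- The non-units of the comap under an automorphism. -/
theorem s34co_nonunits_comap (V : ValuationSubring F) (W : F ≃+* F) (y : F) :
    y ∈ (V.comap (W : F →+* F)).nonunits ↔ W y ∈ V.nonunits :=
  s34co_nonunits_comap_hom V (W : F →+* F) y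

end Comap

end Fermat.Agent.S34
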