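/-
S34, leaf [SS-COUNT] (D1), part [CO-RHO].  Owner: helper26.  Prefix `s34co_`.

The reduction `ρ_∞` of helper27's `SsGaussA.lean` on polynomials in the functions `j_d`:

* `s34co_aeval_mem`, `s34co_rho_aeval` : `P(y) ∈ V_∞` and `ρ_∞ (P(y)) = P̄ (ρ_∞ y)` for `y ∈ V_∞`,
  `P ∈ O[X]`;
* `s34co_transc` : `j̄(q^d)` is transcendental over every field;
* `s34co_frob`   : `j̄ ^ q = j̄(q^q)` in characteristic `q`;
* `s34co_nu_iff` : the non-units of `V_∞` are the elements with `ρ_∞ = 0`;
* `s34co_unit_jd`: `P(j_d)` is a unit of `V_∞` when `P̄ ≠ 0` (`V_∞` is a Gauss valuation ring for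
  every coordinate `j_d`, `d ∣ N`).
-/
import Mathlib
import Fermat.Agent.S34.SsGaussA
import Fermat.Agent.S34.CountBranch
import Fermat.Agent.S37.EsCong
import Fermat.Agent.S18.GaussQOfBasic

set_option autoImplicit false
set_option linter.unusedSectionVars false
set_option linter.unusedVariables false
set_option linter.style.haveILetI false
set_option synthInstance.maxHeartbeats 400000

open AlgebraicCurve ModularCurve IntermediateField Polynomial
open Fermat.Agent.S18

noncomputable section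

namespace Fermat.Agent.S34

section Series

variable (k : Type*) [Field k]

theorem s34co_qExpand_aeval (d : ℕ) [NeZero d] (x : LaurentSeries k) (P : k[X]) :
    qExpand k d (aeval x P) = aeval (qExpand k d x) P := by
  rw [aeval_def, hom_eval₂, aeval_def]
  congr 1
  refine RingHom.ext (fun a => ?_)
  show qExpand k d (algebraMap k (LaurentSeries k) a) = algebraMap k (LaurentSeries k) a
  rw [algebraMap_laurentSeries_eq_single, qExpand_single, mul_zero]

/-- `j̄(q^d)` is transcendental over the field of constants. -/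
theorem s34co_transc (d : ℕ) [NeZero d] : Transcendental k (qExpand k d (jqModC k)) := by
  rw [transcendental_iff]
  intro P hP
  rw [← s34co_qExpand_aeval] at hP
  have h1 : aeval (jqModC k) P = 0 := by
    apply qExpand_injective (R := k) d
    rw [hP, map_zero]
  exact (transcendental_iff.mp (s18gq_transc_jq k)) P h1

/-- `j̄ ^ q = j̄(q^q)` in characteristic `q`. -/
theorem s34co_frob (q : ℕ) [NeZero q] [Fact q.Prime] [CharP k q] :
    (jqModC k) ^ q = qExpand k q (jqModC k) := by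
  rw [Fermat.Agent.S37.s37cg_frob q (jqModC k), coeffMap_jqModC]

end Series

section Rho

variable (O K : Type) [CommRing O] [IsDomain O] [IsDiscreteValuationRing O] [Field K]
  [CharZero K] [Algebra O K] [IsFractionRing O K] (N : ℕ) [NeZero N]

/-- The structure map `O → V_∞`. -/
def s34co_iota : O →+* ↥(s34g_V O K N) :=
  letI := s18_algOF O K N
  (algebraMap O ↥(s18_F K N)).codRestrict (s34g_V O K N).toSubring
    (fun a => s34g_algebraMap_mem a)

variable {O K N}

theorem s34co_iota_coe (a : O) :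
    letI := s18_algOF O K N
    ((s34co_iota O K N a : ↥(s34g_V O K N)) : ↥(s18_F K N)) = algebraMap O ↥(s18_F K N) a :=
  rfl

theorem s34co_rho_iota (a : O) :
    s34g_rho O K N (s34co_iota O K N a) = HahnSeries.C (IsLocalRing.residue O a) :=
  s34g_rho_algebraMap a _ rfl

/-- The non-units of `V_∞` are the elements with `ρ_∞ = 0`. -/
theorem s34co_nu_iff (y : ↥(s34g_V O K N)) :
    (y : ↥(s18_F K N)) ∈ (s34g_V O K N).nonunits ↔ s34g_rho O K N y = 0 := by
  rw [ValuationSubring.mem_nonunits_iff_exists_mem_maximalIdeal]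
  constructor
  · rintro ⟨hy, h⟩
    exact (s34g_mem_maximalIdeal_iff _).1 h
  · intro h
    exact ⟨y.2, (s34g_mem_maximalIdeal_iff _).2 h⟩

theorem s34co_nu_iff' (y : ↥(s18_F K N)) :
    y ∈ (s34g_V O K N).nonunits ↔ ∃ hy : y ∈ s34g_V O K N, s34g_rho O K N ⟨y, hy⟩ = 0 := by
  constructor
  · intro h
    have hy : y ∈ s34g_V O K N := s34ca_nu_mem _ h
    exact ⟨hy, (s34co_nu_iff ⟨y, hy⟩).1 h⟩
  · rintro ⟨hy, h⟩
    exact (s34co_nu_iff ⟨y, hy⟩).2 h

theorem s34co_coe_eval₂ (y : ↥(s34g_V O K N)) (P : O[X]) :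
    letI := s18_algOF O K N
    ((eval₂ (s34co_iota O K N) y P : ↥(s34g_V O K N)) : ↥(s18_F K N)) =
      aeval (y : ↥(s18_F K N)) P := by
  letI := s18_algOF O K N
  have h := hom_eval₂ P (s34co_iota O K N) (s34g_V O K N).subtype y
  rw [aeval_def]
  exact h

/-- `P(y) ∈ V_∞` for `y ∈ V_∞`, `P ∈ O[X]`. -/
theorem s34co_aeval_mem (y : ↥(s18_F K N)) (hy : y ∈ s34g_V O K N) (P : O[X]) :
    letI := s18_algOF O K N
    aeval y P ∈ s34g_V O K N := by
  letI := s18_algOF O K N
  rw [← s34co_coe_eval₂ ⟨y, hy⟩ P]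
  exact Subtype.mem _

/-- `ρ_∞ (P(y)) = P̄ (ρ_∞ y)`. -/
theorem s34co_rho_aeval (y : ↥(s18_F K N)) (hy : y ∈ s34g_V O K N) (P : O[X]) :
    s34g_rho O K N ⟨letI := s18_algOF O K N; aeval y P, s34co_aeval_mem y hy P⟩ =
      aeval (s34g_rho O K N ⟨y, hy⟩) (P.map (IsLocalRing.residue O)) := by
  letI := s18_algOF O K N
  have h1 : (⟨aeval y P, s34co_aeval_mem y hy P⟩ : ↥(s34g_V O K N)) =
      eval₂ (s34co_iota O K N) ⟨y, hy⟩ P := Subtype.ext (s34co_coe_eval₂ ⟨y, hy⟩ P).symm
  rw [h1, hom_eval₂, aeval_def, eval₂_map]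
  congr 1
  refine RingHom.ext (fun a => ?_)
  show s34g_rho O K N (s34co_iota O K N a) = algebraMap _ _ (IsLocalRing.residue O a)
  rw [s34co_rho_iota, algebraMap_laurentSeries_eq_single]
  rfl

/-- `P(j_d)` is a unit of `V_∞` when `P̄ ≠ 0`. -/
theorem s34co_unit_jd (d : ℕ) [NeZero d] (hd : d ∣ N) (P : O[X])
    (hP : P.map (IsLocalRing.residue O) ≠ 0) :
    letI := s18_algOF O K N
    aeval (s34g_jd K N d hd) P ∉ (s34g_V O K N).nonunits := by
  letI := s18_algOF O K N
  intro h
  have h1 := (s34co_nu_iff (O := O)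
    ⟨aeval (s34g_jd K N d hd) P, s34co_aeval_mem _ (s34g_jd_mem d hd) P⟩).1 h
  rw [s34co_rho_aeval (O := O) _ (s34g_jd_mem d hd), s34g_rho_jd] at h1
  exact hP ((transcendental_iff.mp (s34co_transc _ d)) _ h1)

theorem s34co_pi_nu {ϖ : O} (hϖ : Irreducible ϖ) :
    letI := s18_algOF O K N
    algebraMap O ↥(s18_F K N) ϖ ∈ (s34g_V O K N).nonunits := by
  letI := s18_algOF O K N
  exact (s34co_nu_iff (O := O) ⟨_, s34g_algebraMap_mem ϖ⟩).2 (s34g_rho_pi hϖ _ rfl)

end Rho

end Fermat.Agent.S34
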