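/-
S34, leaf [SS-COUNT] (D1), part [CO-GAUSS].  Owner: helper26.  Prefix `s34co_`.

The two branches are GAUSS valuation rings for the coordinate `j` (helper22's
`s34cg_IsGauss`), (any level):

* `s34co_gauss_inf` : `s34cg_IsGauss ϖ j V_∞`          (any level `N`);
* `s34co_gauss_zero`: `s34cg_IsGauss ϖ j V_0`, `V_0 = W⁻¹ V_∞`, for every `K`-automorphism `W` of
                      `F_K(N)` with `W j = j_d` for some `d ∣ N`.
-/
import Mathlib
import Fermat.Agent.S34.CountRho
import Fermat.Agent.S34.GaussForm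
import Fermat.Agent.S34.SsGaussV0

set_option autoImplicit false
set_option linter.unusedSectionVars false
set_option linter.unusedVariables false
set_option linter.style.haveILetI false
set_option synthInstance.maxHeartbeats 400000

open AlgebraicCurve ModularCurve IntermediateField Polynomial
open Fermat.Agent.S18

noncomputable section

namespace Fermat.Agent.S34

section Gauss

variable {O K : Type} [CommRing O] [IsDomain O] [IsDiscreteValuationRing O] [Field K]
  [CharZero K] [Algebra O K] [IsFractionRing O K] {N : ℕ} [NeZero N]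

/-- `V_∞` is a Gauss valuation ring for every coordinate `j_d`. -/
theorem s34co_gauss_jd {ϖ : O} (hϖ : Irreducible ϖ) (d : ℕ) [NeZero d] (hd : d ∣ N) :
    letI := s18_algOF O K N
    s34cg_IsGauss ϖ (s34g_jd K N d hd) (s34g_V O K N) := by
  letI := s18_algOF O K N
  exact ⟨fun a => s34g_algebraMap_mem a, s34g_jd_mem d hd, s34co_pi_nu hϖ,
    fun P hP => s34co_unit_jd d hd P hP⟩

/-- **`V_∞` is a Gauss valuation ring for `j`.** -/
theorem s34co_gauss_inf {ϖ : O} (hϖ : Irreducible ϖ) :
    letI := s18_algOF O K N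
    s34cg_IsGauss ϖ (s18_j K N) (s34g_V O K N) := by
  letI := s18_algOF O K N
  rw [s34g_j_eq]
  exact s34co_gauss_jd hϖ 1 (one_dvd N)

variable (W : ↥(s18_F K N) ≃ₐ[K] ↥(s18_F K N))

theorem s34co_W_aeval (y : ↥(s18_F K N)) (P : O[X]) :
    letI := s18_algOF O K N
    W (aeval y P) = aeval (W y) P := by
  letI := s18_algOF O K N
  rw [aeval_def, aeval_def]
  have h := hom_eval₂ P (algebraMap O ↥(s18_F K N)) (W : ↥(s18_F K N) →+* ↥(s18_F K N)) y
  have h2 : ((W : ↥(s18_F K N) →+* ↥(s18_F K N)).comp (algebraMap O ↥(s18_F K N))) =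
      algebraMap O ↥(s18_F K N) := RingHom.ext (fun a => s34g_W_algebraMap (W := W) a)
  rw [h2] at h
  exact h

/-- The non-units of `V_0`. -/
theorem s34co_nu_zero_iff (y : ↥(s18_F K N)) :
    y ∈ (s34g_V0 O W).nonunits ↔ W y ∈ (s34g_V O K N).nonunits :=
  s34co_nonunits_comap (s34g_V O K N) W.toRingEquiv y

/-- **`V_0` is a Gauss valuation ring for `j`** when `W j = j_d`. -/
theorem s34co_gauss_zero {ϖ : O} (hϖ : Irreducible ϖ) (d : ℕ) [NeZero d] (hd : d ∣ N)
    (hWj : W (s18_j K N) = s34g_jd K N d hd) :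
    letI := s18_algOF O K N
    s34cg_IsGauss ϖ (s18_j K N) (s34g_V0 O W) := by
  letI := s18_algOF O K N
  refine ⟨fun a => s34g_algebraMap_mem0 a, ?_, ?_, ?_⟩
  · rw [s34g_mem_V0_iff, hWj]
    exact s34g_jd_mem d hd
  · rw [s34co_nu_zero_iff, s34g_W_algebraMap]
    exact s34co_pi_nu hϖ
  · intro P hP
    rw [s34co_nu_zero_iff, s34co_W_aeval, hWj]
    exact s34co_unit_jd d hd P hP

end Gauss

end Fermat.Agent.S34
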