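/-
S34, leaf [SS-COUNT] (D1), part [CO-BR].  Owner: helper26.  Prefix `s34co_`.

THE TWO BRANCH HYPOTHESES OF [COUNT-ABS] over the Gauss ring `R = K(j) ∩ V_∞` of `K(j)`:

* `s34co_R O K N`      : the Gauss valuation ring of `E = K(j)` (a `ValuationSubring` of `E`),
                         `s34co_algRF` its algebra structure on `F` (USE WITH `letI`),
                         `s34co_pi ϖ` its uniformizer;
* `s34co_branch_inf`   : a family of `V_∞` with `κ(j̄)`-independent reductions is a branch;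
* `s34co_branch_zero`  : a family of `V_0` with `κ(j̄_d)`-independent reductions is a branch
                         (`W j = j_d`).
-/
import Mathlib
import Fermat.Agent.S34.CountGauss

set_option autoImplicit false
set_option linter.unusedSectionVars false
set_option linter.unusedVariables false
set_option linter.style.haveILetI false
set_option synthInstance.maxHeartbeats 400000
set_option maxHeartbeats 400000
set_option warn.classDefReducibility false

open AlgebraicCurve ModularCurve IntermediateField Polynomial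
open Fermat.Agent.S18

noncomputable section

namespace Fermat.Agent.S34

section R

variable (O K : Type) [CommRing O] [IsDomain O] [IsDiscreteValuationRing O] [Field K]
  [CharZero K] [Algebra O K] [IsFractionRing O K] (N : ℕ) [NeZero N]

/-- **The Gauss valuation ring of `K(j)`**: `R = K(j) ∩ V_∞`. -/
abbrev s34co_R : ValuationSubring ↥(K⟮s18_j K N⟯) :=
  (s34g_V O K N).comap (algebraMap ↥(K⟮s18_j K N⟯) ↥(s18_F K N))

/-- The algebra structure of `F` over the Gauss ring (through `K(j)`).  USE WITH `letI`. -/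
def s34co_algRF : Algebra ↥(s34co_R O K N) ↥(s18_F K N) :=
  ((algebraMap ↥(K⟮s18_j K N⟯) ↥(s18_F K N)).comp
    (algebraMap ↥(s34co_R O K N) ↥(K⟮s18_j K N⟯))).toAlgebra

theorem s34co_towerRF :
    letI := s34co_algRF O K N
    IsScalarTower ↥(s34co_R O K N) ↥(K⟮s18_j K N⟯) ↥(s18_F K N) :=
  letI := s34co_algRF O K N
  IsScalarTower.of_algebraMap_eq' rfl

variable {O K N}

theorem s34co_algebraMap_RF (r : ↥(s34co_R O K N)) :
    letI := s34co_algRF O K N
    algebraMap ↥(s34co_R O K N) ↥(s18_F K N) r = ((r : ↥(K⟮s18_j K N⟯)) : ↥(s18_F K N)) := rfl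

theorem s34co_R_le (r : ↥(s34co_R O K N)) :
    letI := s34co_algRF O K N
    algebraMap ↥(s34co_R O K N) ↥(s18_F K N) r ∈ s34g_V O K N := r.2

/-- The uniformizer of the Gauss ring. -/
def s34co_pi {ϖ : O} (hϖ : Irreducible ϖ) : ↥(s34co_R O K N) :=
  letI := s18_algOF O K N
  haveI := s18_towerOF O K N
  ⟨algebraMap O ↥(K⟮s18_j K N⟯) ϖ, s34cg_unif_mem (s34co_gauss_inf hϖ)⟩

theorem s34co_pi_coe {ϖ : O} (hϖ : Irreducible ϖ) :
    letI := s18_algOF O K N
    letI := s34co_algRF O K N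
    algebraMap ↥(s34co_R O K N) ↥(s18_F K N) (s34co_pi hϖ) = algebraMap O ↥(s18_F K N) ϖ := rfl

theorem s34co_pi_irreducible {ϖ : O} (hϖ : Irreducible ϖ) :
    Irreducible (s34co_pi (K := K) (N := N) hϖ) := by
  letI := s18_algOF O K N
  haveI := s18_towerOF O K N
  exact s34cg_irreducible hϖ (s34co_gauss_inf hϖ) _

theorem s34co_R_dvr {ϖ : O} (hϖ : Irreducible ϖ) :
    IsDiscreteValuationRing ↥(s34co_R O K N) := by
  letI := s18_algOF O K N
  haveI := s18_towerOF O K N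
  exact s34cg_dvr hϖ (s34co_gauss_inf hϖ)

end R

section BranchInf

variable {O K : Type} [CommRing O] [IsDomain O] [IsDiscreteValuationRing O] [Field K]
  [CharZero K] [Algebra O K] [IsFractionRing O K] {N : ℕ} [NeZero N]

/-- The reduction of a Gauss fraction: if `r Q(y) = P(y)` with `y, r ∈ V_∞`, `Q̄ (ρ y) ≠ 0`, then
`ρ r = P̄ (ρ y) / Q̄ (ρ y)`. -/
theorem s34co_rho_frac (y r : ↥(s18_F K N)) (hy : y ∈ s34g_V O K N) (hr : r ∈ s34g_V O K N)
    (P Q : O[X])
    (h : letI := s18_algOF O K N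
      r * aeval y Q = aeval y P)
    (hQ : aeval (s34g_rho O K N ⟨y, hy⟩) (Q.map (IsLocalRing.residue O)) ≠ 0) :
    s34g_rho O K N ⟨r, hr⟩ =
      aeval (s34g_rho O K N ⟨y, hy⟩) (P.map (IsLocalRing.residue O)) /
        aeval (s34g_rho O K N ⟨y, hy⟩) (Q.map (IsLocalRing.residue O)) := by
  letI := s18_algOF O K N
  rw [eq_div_iff hQ, ← s34co_rho_aeval y hy Q, ← s34co_rho_aeval y hy P, ← map_mul]
  congr 1
  exact Subtype.ext h

/-- **The branch at `∞`.** -/
theorem s34co_branch_inf {ϖ : O} (hϖ : Irreducible ϖ) (a : ℕ) (x : Fin a → ↥(s18_F K N))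
    (hx : ∀ i, x i ∈ s34g_V O K N)
    (hind : LinearIndependent
      ↥((IsLocalRing.ResidueField O)⟮jqModC (IsLocalRing.ResidueField O)⟯)
      (fun i => s34g_rho O K N ⟨x i, hx i⟩)) :
    letI := s34co_algRF O K N
    s34ca_Branch (s34co_pi (K := K) (N := N) hϖ) (s34g_V O K N) a x := by
  letI := s18_algOF O K N
  haveI := s18_towerOF O K N
  letI := s34co_algRF O K N
  have hG := s34co_gauss_inf (K := K) (N := N) hϖ
  refine s34co_branch (s34co_pi hϖ) (s34g_V O K N) (s34g_rho O K N)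
    (fun y hy => (s34co_nu_iff y).1 hy) (fun r => s34co_R_le r) ?_
    ((IsLocalRing.ResidueField O)⟮jqModC (IsLocalRing.ResidueField O)⟯) ?_ ?_ a x hx hind
  · rw [s34co_pi_coe]
    exact s34co_pi_nu hϖ
  · intro r
    obtain ⟨P, Q, hQ, hPQ⟩ := s34cg_form (K := K) hϖ hG
      ((r : ↥(K⟮s18_j K N⟯)) : ↥(s18_F K N)) (r : ↥(K⟮s18_j K N⟯)).2 r.2
    have hQ' : aeval (s34g_rho O K N ⟨s18_j K N, s34g_j_mem⟩)
        (Q.map (IsLocalRing.residue O)) ≠ 0 := by
      rw [s34g_rho_j]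
      exact fun h0 => hQ ((transcendental_iff.mp (s18gq_transc_jq _)) _ h0)
    have h1 := s34co_rho_frac (O := O) (s18_j K N) _ s34g_j_mem r.2 P Q hPQ hQ'
    rw [s34g_rho_j] at h1
    exact (IntermediateField.mem_adjoin_simple_iff (IsLocalRing.ResidueField O)
      (s34g_rho O K N ⟨algebraMap ↥(s34co_R O K N) ↥(s18_F K N) r, s34co_R_le r⟩)).2
      ⟨_, _, h1⟩
  · intro r hr
    refine s34cg_dvd_of_nu hϖ hG _ r ?_
    exact (s34co_nu_iff (O := O) ⟨_, r.2⟩).2 hr

end BranchInf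

section BranchZero

variable {O K : Type} [CommRing O] [IsDomain O] [IsDiscreteValuationRing O] [Field K]
  [CharZero K] [Algebra O K] [IsFractionRing O K] {N : ℕ} [NeZero N]
  (W : ↥(s18_F K N) ≃ₐ[K] ↥(s18_F K N))

/-- The Gauss ring of `K(j)` lies in `V_0`. -/
theorem s34co_R_le_zero {ϖ : O} (hϖ : Irreducible ϖ) (d : ℕ) [NeZero d] (hd : d ∣ N)
    (hWj : W (s18_j K N) = s34g_jd K N d hd) (r : ↥(s34co_R O K N)) :
    letI := s34co_algRF O K N
    algebraMap ↥(s34co_R O K N) ↥(s18_F K N) r ∈ s34g_V0 O W := by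
  letI := s18_algOF O K N
  haveI := s18_towerOF O K N
  letI := s34co_algRF O K N
  have hc := s34cg_comap_eq (K := K) hϖ (s34co_gauss_inf (K := K) (N := N) hϖ)
    (s34co_gauss_zero W hϖ d hd hWj)
  have h1 : (r : ↥(K⟮s18_j K N⟯)) ∈
      (s34g_V0 O W).comap (algebraMap ↥(K⟮s18_j K N⟯) ↥(s18_F K N)) := hc ▸ r.2
  exact h1

/-- On `K(j)` the two branches have the same non-units. -/
theorem s34co_nu_R_iff {ϖ : O} (hϖ : Irreducible ϖ) (d : ℕ) [NeZero d] (hd : d ∣ N)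
    (hWj : W (s18_j K N) = s34g_jd K N d hd) (r : ↥(K⟮s18_j K N⟯)) :
    (r : ↥(s18_F K N)) ∈ (s34g_V0 O W).nonunits ↔ (r : ↥(s18_F K N)) ∈ (s34g_V O K N).nonunits := by
  letI := s18_algOF O K N
  haveI := s18_towerOF O K N
  have hc := s34cg_comap_eq (K := K) hϖ (s34co_gauss_inf (K := K) (N := N) hϖ)
    (s34co_gauss_zero W hϖ d hd hWj)
  have h0 := s34co_nonunits_comap_hom (s34g_V0 O W)
    (algebraMap ↥(K⟮s18_j K N⟯) ↥(s18_F K N)) r
  have h1 := s34co_nonunits_comap_hom (s34g_V O K N)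
    (algebraMap ↥(K⟮s18_j K N⟯) ↥(s18_F K N)) r
  rw [hc] at h1
  exact h0.symm.trans h1

/-- **The branch at `0`.** -/
theorem s34co_branch_zero {ϖ : O} (hϖ : Irreducible ϖ) (d : ℕ) [NeZero d] (hd : d ∣ N)
    (hWj : W (s18_j K N) = s34g_jd K N d hd)
    (a : ℕ) (x : Fin a → ↥(s18_F K N)) (hx : ∀ i, x i ∈ s34g_V0 O W)
    (hind : LinearIndependent
      ↥((IsLocalRing.ResidueField O)⟮qExpand (IsLocalRing.ResidueField O) d
        (jqModC (IsLocalRing.ResidueField O))⟯)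
      (fun i => s34g_rho0 O W ⟨x i, hx i⟩)) :
    letI := s34co_algRF O K N
    s34ca_Branch (s34co_pi (K := K) (N := N) hϖ) (s34g_V0 O W) a x := by
  letI := s18_algOF O K N
  haveI := s18_towerOF O K N
  letI := s34co_algRF O K N
  have hG := s34co_gauss_inf (K := K) (N := N) hϖ
  have hG0 := s34co_gauss_zero W hϖ d hd hWj
  refine s34co_branch (s34co_pi hϖ) (s34g_V0 O W) (s34g_rho0 O W) ?_
    (fun r => s34co_R_le_zero W hϖ d hd hWj r) ?_
    ((IsLocalRing.ResidueField O)⟮qExpand (IsLocalRing.ResidueField O) d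
      (jqModC (IsLocalRing.ResidueField O))⟯) ?_ ?_ a x hx hind
  · intro y hy
    have hWy : W (y : ↥(s18_F K N)) ∈ s34g_V O K N := (s34g_mem_V0_iff _).1 y.2
    have h1 : W (y : ↥(s18_F K N)) ∈ (s34g_V O K N).nonunits :=
      (s34co_nu_zero_iff W (y : ↥(s18_F K N))).1 hy
    have h2 : s34g_rho O K N ⟨W (y : ↥(s18_F K N)), hWy⟩ = 0 :=
      (s34co_nu_iff (O := O) ⟨W (y : ↥(s18_F K N)), hWy⟩).1 h1
    rw [s34g_rho0_apply]
    exact h2
  · rw [s34co_pi_coe]
    exact hG0.nonunit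
  · intro r
    obtain ⟨P, Q, hQ, hPQ⟩ := s34cg_form (K := K) hϖ hG
      ((r : ↥(K⟮s18_j K N⟯)) : ↥(s18_F K N)) (r : ↥(K⟮s18_j K N⟯)).2 r.2
    have e1 : ∀ T : O[X], aeval (s34g_jd K N d hd) T = W (aeval (s18_j K N) T) := by
      intro T
      have := s34co_W_aeval (O := O) W (s18_j K N) T
      rw [hWj] at this
      exact this.symm
    have hPQ' : W ((r : ↥(K⟮s18_j K N⟯)) : ↥(s18_F K N)) * aeval (s34g_jd K N d hd) Q =
        aeval (s34g_jd K N d hd) P := by
      rw [e1 Q, e1 P]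
      exact (map_mul W _ _).symm.trans (congrArg W hPQ)
    have hQ' : aeval (s34g_rho O K N ⟨s34g_jd K N d hd, s34g_jd_mem d hd⟩)
        (Q.map (IsLocalRing.residue O)) ≠ 0 := by
      rw [s34g_rho_jd]
      exact fun h0 => hQ ((transcendental_iff.mp (s34co_transc _ d)) _ h0)
    have h1 := s34co_rho_frac (O := O) (s34g_jd K N d hd) _ (s34g_jd_mem d hd)
      (s34co_R_le_zero W hϖ d hd hWj r) P Q hPQ' hQ'
    rw [s34g_rho_jd] at h1
    exact (IntermediateField.mem_adjoin_simple_iff (IsLocalRing.ResidueField O)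
      (s34g_rho0 O W ⟨algebraMap ↥(s34co_R O K N) ↥(s18_F K N) r,
        s34co_R_le_zero W hϖ d hd hWj r⟩)).2 ⟨_, _, h1⟩
  · intro r hr
    refine s34cg_dvd_of_nu hϖ hG _ r ?_
    have hWr : W ((r : ↥(K⟮s18_j K N⟯)) : ↥(s18_F K N)) ∈ s34g_V O K N :=
      (s34g_mem_V0_iff _).1 (s34co_R_le_zero W hϖ d hd hWj r)
    have h1 : s34g_rho O K N ⟨W ((r : ↥(K⟮s18_j K N⟯)) : ↥(s18_F K N)), hWr⟩ = 0 := hr
    have h2 : W ((r : ↥(K⟮s18_j K N⟯)) : ↥(s18_F K N)) ∈ (s34g_V O K N).nonunits :=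
      (s34co_nu_iff (O := O) ⟨_, hWr⟩).2 h1
    have h3 : ((r : ↥(K⟮s18_j K N⟯)) : ↥(s18_F K N)) ∈ (s34g_V0 O W).nonunits :=
      (s34co_nu_zero_iff W _).2 h2
    exact (s34co_nu_R_iff W hϖ d hd hWj (r : ↥(K⟮s18_j K N⟯))).1 h3

end BranchZero

end Fermat.Agent.S34
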