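/-
S34, leaf [SS-COUNT] (D1), part [CO-FAM].  Owner: helper26.  Prefix `s34co_`.

THE FAMILY OF THE BRANCH AT `∞`.  Level `M * q`, `q ∤ M`, residue characteristic `q`:
`n = [SL₂(ℤ) : Γ₀(M)]` functions `x₁ i ∈ V_∞ ∩ F_K(M) ⊆ F_K(M q)` (helper27's S18 family
`s18gq_indep_j`) whose reductions `ρ_∞ (x₁ i)` are linearly independent over `κ(j̄)`.
-/
import Mathlib
import Fermat.Agent.S34.CountRho
import Fermat.Agent.S18.GaussQOfIndep
import Fermat.Agent.S28.DegQLin
import Fermat.Prelude.Def_ModularCurve_HeckeOperator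

set_option autoImplicit false
set_option linter.unusedSectionVars false
set_option linter.unusedVariables false
set_option linter.style.haveILetI false
set_option synthInstance.maxHeartbeats 400000

open AlgebraicCurve ModularCurve IntermediateField Polynomial
open Fermat.Agent.S18
open scoped MatrixGroups

noncomputable section

namespace Fermat.Agent.S34

section PolyIndep

variable {k L : Type*} [Field k] [Field L] [Algebra k L]

/-- The `Fintype` form of polynomial independence gives linear independence over `k(u)`. -/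
theorem s34co_linearIndependent_of_poly {n : ℕ} (u : L) (y : Fin n → L)
    (h : ∀ c : Fin n → k[X], (∑ i, aeval u (c i) * y i) = 0 → ∀ i, c i = 0) :
    LinearIndependent ↥(k⟮u⟯) y := by
  classical
  refine Fermat.Agent.S28.degQ_linearIndependent_of_polyIndep u y ?_
  intro t a ha i hi
  have h1 := h (fun i => if i ∈ t then a i else 0) (by
    rw [← ha, ← Finset.sum_subset (Finset.subset_univ t)]
    · refine Finset.sum_congr rfl (fun i hi => ?_)
      rw [if_pos hi]
    · intro i _ hi
      rw [if_neg hi, map_zero, zero_mul]) i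
  rwa [if_pos hi] at h1

end PolyIndep

section Fam

variable (O K : Type) [CommRing O] [IsDomain O] [IsDiscreteValuationRing O] [Field K]
  [CharZero K] [Algebra O K] [IsFractionRing O K] (M q : ℕ) [NeZero M] [NeZero q]

/-- **The family of the branch at `∞`.** -/
theorem s34co_fam [Fact q.Prime] (hqM : ¬ q ∣ M)
    (hqO : (q : O) ∈ IsLocalRing.maximalIdeal O) :
    ∃ x : Fin (Nat.card (SL(2, ℤ) ⧸ CongruenceSubgroup.Gamma0 M)) → ↥(s18_F K (M * q)),
      ∃ hx : ∀ i, x i ∈ s34g_V O K (M * q),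
        LinearIndependent
          ↥((IsLocalRing.ResidueField O)⟮jqModC (IsLocalRing.ResidueField O)⟯)
          (fun i => s34g_rho O K (M * q) ⟨x i, hx i⟩) ∧
        ∀ i, ∃ z : ↥(s18_F K M), ∃ hz : z ∈ s34g_V O K M,
          ((x i : ↥(s18_F K (M * q))) : LaurentSeries K) = (z : LaurentSeries K) ∧
          s34g_rho O K (M * q) ⟨x i, hx i⟩ = s34g_rho O K M ⟨z, hz⟩ := by
  obtain ⟨g, hg, hind⟩ := s18gq_indep_j O K M q hqM hqO
  have hcoe : ∀ i, ((heckeAlphaBar K M q ⟨coeffMap (algebraMap O K) (g i), hg i⟩ :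
      ↥(s18_F K (M * q))) : LaurentSeries K) = coeffMap (algebraMap O K) (g i) :=
    fun i => coe_heckeAlphaBar M q _
  have hx : ∀ i, heckeAlphaBar K M q ⟨coeffMap (algebraMap O K) (g i), hg i⟩ ∈
      s34g_V O K (M * q) := fun i => s34g_mem_of_coe_eq (g i) _ (hcoe i)
  have hρ : ∀ i, s34g_rho O K (M * q) ⟨_, hx i⟩ = coeffMap (IsLocalRing.residue O) (g i) :=
    fun i => s34g_rho_int (g i) _ (hcoe i)
  refine ⟨fun i => heckeAlphaBar K M q ⟨coeffMap (algebraMap O K) (g i), hg i⟩, hx, ?_, ?_⟩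
  · have h1 : (fun i => s34g_rho O K (M * q) ⟨_, hx i⟩) =
        fun i => coeffMap (IsLocalRing.residue O) (g i) := funext hρ
    rw [h1]
    refine s34co_linearIndependent_of_poly _ _ ?_
    intro c hc
    refine hind c ?_
    rw [coeffMap_jqModC]
    exact hc
  · intro i
    have hz : (⟨coeffMap (algebraMap O K) (g i), hg i⟩ : ↥(s18_F K M)) ∈ s34g_V O K M :=
      s34g_mem_of_coe_eq (g i) _ rfl
    refine ⟨⟨coeffMap (algebraMap O K) (g i), hg i⟩, hz, hcoe i, ?_⟩
    rw [hρ i, s34g_rho_int (g i) ⟨_, hz⟩ rfl]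

end Fam

end Fermat.Agent.S34
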