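/-
S34, leaf [DEG-K] of [SS-COUNT] (D1).  Owner: helper26.  Prefix `s34dk_`.

The degree of the modular function field over an ARBITRARY field `K` of characteristic `0`:

  `s34dk_finrank : [F_K(M) : K(j)] = ψ(M)`,   `F_K(M) = s18_F K M ⊆ K((q))`, `j = s18_j K M`.

Route.  A `ℚ(j)`-basis `b` of `F_ℚ(M)` is mapped by the coefficientwise base change
`Ψ_K : F_ℚ(M) → F_K(M)` to a family which
  * spans `F_K(M)` over `K(j)`            (S18 `s18gq_A_le_span`, `s18gq_A_eq_top`), and
  * is linearly independent over `K(j)`   (S28 `degQ_polyIndep_coeffEmb`: linear disjointness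
                                            of `ℚ((q))` and `K` over `ℚ`),
so `[F_K(M) : K(j)] = [F_ℚ(M) : ℚ(j)]` for every `K`; for `K = Q̄` the left side is `ψ(M)` (S24).
-/
import Mathlib
import Fermat.Agent.S18.GaussQOfSpan
import Fermat.Agent.S18.DownDeg
import Fermat.Agent.S28.DegQ

set_option autoImplicit false
set_option linter.unusedSectionVars false
set_option linter.unusedVariables false
set_option linter.style.haveILetI false
set_option maxHeartbeats 400000
set_option synthInstance.maxHeartbeats 400000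

open AlgebraicCurve ModularCurve IntermediateField
open scoped MatrixGroups

noncomputable section

namespace Fermat.Agent.S34

open Fermat.Agent.S18 Fermat.Agent.S28

section DegK

variable (K : Type) [Field K] [CharZero K] (M : ℕ) [NeZero M]

/-- The inclusion `F_K(M) → K((q))` as a `K`-algebra homomorphism. -/
def s34dk_incl : ↥(s18_F K M) →ₐ[K] LaurentSeries K := (s18_F K M).val

theorem s34dk_incl_apply (x : ↥(s18_F K M)) : s34dk_incl K M x = (x : LaurentSeries K) := rfl

theorem s34dk_polyIndep_rat {ι : Type*} (x : ι → ↥(modularFunctionFieldFull M))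
    (hx : LinearIndependent ↥(ℚ⟮IgusaScheme.jFull M⟯) x) :
    degQ_PolyIndep ℚ (IgusaScheme.jFull M) x := by
  have h0 := @degQ_polyIndep_of_linearIndependent ℚ ↥(modularFunctionFieldFull M) _ _ _ ι
      (IgusaScheme.jFull M) (degQ_transcendental M) x
  exact h0 hx

theorem s34dk_polyIndep_ser {ι : Type*} (x : ι → ↥(modularFunctionFieldFull M))
    (h1 : degQ_PolyIndep ℚ (IgusaScheme.jFull M) x) :
    degQ_PolyIndep ℚ jq (fun i => ((x i : ↥(modularFunctionFieldFull M)) :
      LaurentSeries ℚ)) := by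
  have h0 := degQ_polyIndep_comp (degQ_incl M) (degQ_incl_injective M) _ _ h1
  exact h0

theorem s34dk_polyIndep_emb {ι : Type*} (x : ι → ↥(modularFunctionFieldFull M))
    (h2 : degQ_PolyIndep ℚ jq (fun i => ((x i : ↥(modularFunctionFieldFull M)) :
      LaurentSeries ℚ))) :
    degQ_PolyIndep K (coeffEmb K jq)
      (fun i => coeffEmb K ((x i : ↥(modularFunctionFieldFull M)) : LaurentSeries ℚ)) :=
  degQ_polyIndep_coeffEmb K jq _ h2

theorem s34dk_polyIndep_F {ι : Type*} (x : ι → ↥(modularFunctionFieldFull M))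
    (h3 : degQ_PolyIndep K (coeffEmb K jq)
      (fun i => coeffEmb K ((x i : ↥(modularFunctionFieldFull M)) : LaurentSeries ℚ))) :
    degQ_PolyIndep K (s18_j K M) (fun i => s18gq_Psi K M (x i)) := by
  refine degQ_polyIndep_of_comp (s34dk_incl K M) _ _ ?_
  exact h3

theorem s34dk_linearIndependent_of_polyIndep {ι : Type*}
    (x : ι → ↥(modularFunctionFieldFull M))
    (h4 : degQ_PolyIndep K (s18_j K M) (fun i => s18gq_Psi K M (x i))) :
    LinearIndependent ↥(K⟮s18_j K M⟯) (fun i => s18gq_Psi K M (x i)) := by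
  have h0 := @degQ_linearIndependent_of_polyIndep K ↥(s18_F K M) _ _ _ ι (s18_j K M)
    (fun i => s18gq_Psi K M (x i))
  exact h0 h4

/-- **Linear disjointness**: a `ℚ(j)`-linearly independent family of `F_ℚ(M)` stays linearly
independent over `K(j)` in `F_K(M)`. -/
theorem s34dk_linearIndependent {ι : Type*} (x : ι → ↥(modularFunctionFieldFull M))
    (hx : LinearIndependent ↥(ℚ⟮IgusaScheme.jFull M⟯) x) :
    LinearIndependent ↥(K⟮s18_j K M⟯) (fun i => s18gq_Psi K M (x i)) :=
  s34dk_linearIndependent_of_polyIndep K M x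
    (s34dk_polyIndep_F K M x (s34dk_polyIndep_emb K M x
      (s34dk_polyIndep_ser M x (s34dk_polyIndep_rat M x hx))))

/-- The image of a `ℚ(j)`-basis of `F_ℚ(M)` spans `F_K(M)` over `K(j)`. -/
theorem s34dk_span {ι : Type*} [Fintype ι]
    (b : Module.Basis ι ↥(ℚ⟮IgusaScheme.jFull M⟯) ↥(modularFunctionFieldFull M)) :
    Submodule.span ↥(K⟮s18_j K M⟯) (Set.range fun i => s18gq_Psi K M (b i)) = ⊤ := by
  rw [eq_top_iff]
  intro y _
  exact s18gq_A_le_span (K := K) b (s18gq_A_eq_top K M y)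

/-- The image of a `ℚ(j)`-basis of `F_ℚ(M)` under `Ψ_K` is a `K(j)`-basis of `F_K(M)`. -/
def s34dk_basis {ι : Type*} [Fintype ι]
    (b : Module.Basis ι ↥(ℚ⟮IgusaScheme.jFull M⟯) ↥(modularFunctionFieldFull M)) :
    Module.Basis ι ↥(K⟮s18_j K M⟯) ↥(s18_F K M) :=
  Module.Basis.mk (s34dk_linearIndependent K M b b.linearIndependent) (s34dk_span K M b).ge

theorem s34dk_basis_apply {ι : Type*} [Fintype ι]
    (b : Module.Basis ι ↥(ℚ⟮IgusaScheme.jFull M⟯) ↥(modularFunctionFieldFull M)) (i : ι) :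
    s34dk_basis K M b i = s18gq_Psi K M (b i) := by
  unfold s34dk_basis
  rw [Module.Basis.mk_apply]

/-- `[F_K(M) : K(j)] = [F_ℚ(M) : ℚ(j)]` for every field `K` of characteristic `0`. -/
theorem s34dk_finrank_eq_rat :
    Module.finrank ↥(K⟮s18_j K M⟯) ↥(s18_F K M) =
      Module.finrank ↥(ℚ⟮IgusaScheme.jFull M⟯) ↥(modularFunctionFieldFull M) := by
  haveI := (Fermat.Agent.S28.keyOne_degQ M).1
  let b := Module.finBasis ↥(ℚ⟮IgusaScheme.jFull M⟯) ↥(modularFunctionFieldFull M)
  rw [Module.finrank_eq_card_basis (s34dk_basis K M b), Fintype.card_fin]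

end DegK

section Bar

open Fermat.Agent.S24

theorem s34dk_jF_eq (M : ℕ) [NeZero M] : jF M = s18_j QBar M := by
  apply Subtype.ext
  change coeffEmb QBar (qExpand ℚ 1 jq) = coeffEmb QBar jq
  rw [qExpand_one_apply]

/-- `[F̄_M : Q̄(j)] = ψ(M)` in the S18 vocabulary. -/
theorem s34dk_finrank_bar (M : ℕ) [NeZero M] :
    Module.finrank ↥(QBar⟮s18_j QBar M⟯) ↥(s18_F QBar M) = ModularCurve.dedekindPsi M := by
  have h := s18d_finrank M
  rw [s34dk_jF_eq M] at h
  exact h

/-- `[F_ℚ(M) : ℚ(j)] = ψ(M)`. -/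
theorem s34dk_finrank_rat (M : ℕ) [NeZero M] :
    Module.finrank ↥(ℚ⟮IgusaScheme.jFull M⟯) ↥(modularFunctionFieldFull M) =
      ModularCurve.dedekindPsi M := by
  rw [← s34dk_finrank_eq_rat QBar M]
  exact s34dk_finrank_bar M

end Bar

/-- **[DEG-K]** `[F_K(M) : K(j)] = ψ(M)` for every field `K` of characteristic `0`. -/
theorem s34dk_finrank (K : Type) [Field K] [CharZero K] (M : ℕ) [NeZero M] :
    Module.finrank ↥(K⟮s18_j K M⟯) ↥(s18_F K M) = ModularCurve.dedekindPsi M := by
  rw [s34dk_finrank_eq_rat K M]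
  exact s34dk_finrank_rat M

theorem s34dk_finrank_le (K : Type) [Field K] [CharZero K] (M : ℕ) [NeZero M] :
    Module.finrank ↥(K⟮s18_j K M⟯) ↥(s18_F K M) ≤ ModularCurve.dedekindPsi M :=
  (s34dk_finrank K M).le

/-- `ψ(q M') = (q + 1) ψ(M')` for a prime `q ∤ M'`. -/
theorem s34dk_psi_prime_mul (q M' : ℕ) (hq : q.Prime) (hqM : ¬ q ∣ M') :
    ModularCurve.dedekindPsi (q * M') = (q + 1) * ModularCurve.dedekindPsi M' := by
  have h1 : ModularCurve.dedekindPsi q = q + 1 := by
    have := Fermat.Agent.S24.Comb.dedekindPsi_prime_pow hq 0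
    simpa using this
  rw [Fermat.Agent.S24.Comb.dedekindPsi_mul ((Nat.Prime.coprime_iff_not_dvd hq).2 hqM), h1]

/-- **[DEG-K] at the level `N' = q M'`**: `[F_K(q M') : K(j)] = (q + 1) ψ(M')`. -/
theorem s34dk_finrank_prime_mul (K : Type) [Field K] [CharZero K] (q M' : ℕ) [NeZero (q * M')]
    (hq : q.Prime) (hqM : ¬ q ∣ M') :
    Module.finrank ↥(K⟮s18_j K (q * M')⟯) ↥(s18_F K (q * M')) =
      (q + 1) * ModularCurve.dedekindPsi M' := by
  rw [s34dk_finrank K (q * M'), s34dk_psi_prime_mul q M' hq hqM]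

end Fermat.Agent.S34
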