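/-
S34, leaf [FROB-IND] of [COUNT] (helper19, for helper26).  Prefix `s34x19_`.  Mathlib only.

`x` transcendental over `κ`, `y : Fin n → L` linearly independent over `κ(x)`  ⟹  the `n q`
elements `y i * x ^ k`, `k < q`, are linearly independent over `κ(x ^ q)`.

Proof in polynomial form: a relation `∑ a_(i,k)(x ^ q) y_i x ^ k = 0` with polynomials
`a_(i,k) ∈ κ[X]` is the relation `∑_i C_i(x) y_i = 0` with
`C_i = ∑_k (expand q a_(i,k)) X ^ k`; so all `C_i` vanish, and the exponents `q e + k`, `k < q`,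
are pairwise distinct.
-/
import Mathlib

set_option autoImplicit false

open Polynomial IntermediateField

noncomputable section

namespace Fermat.Agent.S34

variable {κ L : Type*} [Field κ] [Field L] [Algebra κ L]

/-- The exponents `q e + k`, `k < q`, are pairwise distinct: a sum
`∑_{k < q} (expand q c_k) X ^ k` vanishes only if all `c_k` vanish. -/
theorem s34x19_expand_sum_eq_zero (q : ℕ) (hq : 0 < q) (c : Fin q → κ[X])
    (h : ∑ k : Fin q, expand κ q (c k) * X ^ (k : ℕ) = 0) : ∀ k, c k = 0 := by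
  intro k₀
  ext e
  have h1 := congrArg (fun f : κ[X] => f.coeff (q * e + (k₀ : ℕ))) h
  simp only [finsetSum_coeff, coeff_zero] at h1
  rw [Finset.sum_eq_single k₀] at h1
  · rw [coeff_mul_X_pow', if_pos (Nat.le_add_left _ _), Nat.add_sub_cancel,
      coeff_expand hq, if_pos (dvd_mul_right q e), Nat.mul_div_cancel_left e hq] at h1
    rw [h1, coeff_zero]
  · intro k _ hk
    rw [coeff_mul_X_pow']
    split_ifs with hle
    · rw [coeff_expand hq, if_neg]
      intro hdvd
      apply hk
      have h2 : (k : ℕ) ≡ q * e + (k₀ : ℕ) [MOD q] := (Nat.modEq_iff_dvd' hle).2 hdvd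
      have h3 : q * e + (k₀ : ℕ) ≡ (k₀ : ℕ) [MOD q] := Nat.mul_add_mod q e k₀
      exact Fin.ext ((h2.trans h3).eq_of_lt_of_lt k.2 k₀.2)
    · rfl
  · intro hk
    exact absurd (Finset.mem_univ k₀) hk

/-- For transcendental `u`, linear independence over `κ(u)` implies independence over the
polynomials in `u`. -/
theorem s34x19_poly_of_linearIndependent {ι : Type*} (u : L) (hu : Transcendental κ u)
    (y : ι → L) (h : LinearIndependent ↥(κ⟮u⟯) y) (t : Finset ι) (a : ι → κ[X])
    (ha : ∑ i ∈ t, aeval u (a i) * y i = 0) : ∀ i ∈ t, a i = 0 := by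
  intro i hi
  have hmem : ∀ j, aeval u (a j) ∈ κ⟮u⟯ := by
    intro j
    have h1 : aeval u (a j) ∈ Algebra.adjoin κ {u} := by
      rw [Algebra.adjoin_singleton_eq_range_aeval]
      exact ⟨a j, rfl⟩
    exact IntermediateField.algebra_adjoin_le_adjoin κ {u} h1
  have h1 : ∑ j ∈ t, (⟨aeval u (a j), hmem j⟩ : ↥(κ⟮u⟯)) • y j = 0 := by
    rw [← ha]
    rfl
  have h2 := (linearIndependent_iff'.mp h) t _ h1 i hi
  have h3 : aeval u (a i) = 0 := congrArg Subtype.val h2
  exact (transcendental_iff.mp hu) (a i) h3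

open scoped IntermediateField.algebraAdjoinAdjoin in
/-- Independence over the polynomials in `u` implies linear independence over `κ(u)`. -/
theorem s34x19_linearIndependent_of_poly {ι : Type*} (u : L) (y : ι → L)
    (h : ∀ (t : Finset ι) (a : ι → κ[X]), ∑ i ∈ t, aeval u (a i) * y i = 0 → ∀ i ∈ t, a i = 0) :
    LinearIndependent ↥(κ⟮u⟯) y := by
  rw [← LinearIndependent.iff_fractionRing (R := Algebra.adjoin κ {u}) (K := ↥(κ⟮u⟯))]
  rw [linearIndependent_iff']
  intro s g hg i hi
  have hex : ∀ j, ∃ a : κ[X], (g j : L) = aeval u a := by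
    intro j
    have hj : (g j : L) ∈ (aeval u : κ[X] →ₐ[κ] L).range :=
      (Algebra.adjoin_singleton_eq_range_aeval κ u) ▸ (g j).2
    obtain ⟨a, ha⟩ := hj
    exact ⟨a, ha.symm⟩
  choose a ha using hex
  have h1 : ∑ j ∈ s, aeval u (a j) * y j = 0 := by
    rw [← hg]
    refine Finset.sum_congr rfl fun j _ => ?_
    rw [← ha j]
    rfl
  have h2 := h s a h1 i hi
  apply Subtype.ext
  rw [ha i, h2, map_zero]
  rfl

/-- **[FROB-IND], polynomial form.** -/
theorem s34x19_frob_poly (x : L) (q n : ℕ) (hq : 0 < q) (y : Fin n → L)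
    (hy : LinearIndependent ↥(κ⟮x⟯) y) (hx : Transcendental κ x)
    (a : Fin n × Fin q → κ[X])
    (ha : ∑ p : Fin n × Fin q, aeval (x ^ q) (a p) * (y p.1 * x ^ (p.2 : ℕ)) = 0) :
    ∀ p, a p = 0 := by
  have h1 : ∑ i : Fin n,
      aeval x (∑ k : Fin q, expand κ q (a (i, k)) * X ^ (k : ℕ)) * y i = 0 := by
    rw [← ha, Fintype.sum_prod_type]
    refine Finset.sum_congr rfl fun i _ => ?_
    rw [map_sum, Finset.sum_mul]
    refine Finset.sum_congr rfl fun k _ => ?_
    rw [map_mul, expand_aeval, map_pow, aeval_X]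
    ring
  have h2 := s34x19_poly_of_linearIndependent x hx y hy Finset.univ _ h1
  rintro ⟨i, k⟩
  exact s34x19_expand_sum_eq_zero q hq (fun k => a (i, k)) (h2 i (Finset.mem_univ i)) k

/-- **[FROB-IND]**: if `x` is transcendental over `κ` and `y` is linearly independent over
`κ(x)`, then the family `y i * x ^ k`, `k < q`, is linearly independent over `κ(x ^ q)`. -/
theorem s34x19_frob_ind (x : L) (q n : ℕ) (hq : 0 < q) (y : Fin n → L)
    (hy : LinearIndependent ↥(κ⟮x⟯) y) (hx : Transcendental κ x) :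
    LinearIndependent ↥(κ⟮x ^ q⟯) (fun p : Fin n × Fin q => y p.1 * x ^ (p.2 : ℕ)) := by
  classical
  refine s34x19_linearIndependent_of_poly (x ^ q) _ fun t a ha p hp => ?_
  have h1 : ∑ p : Fin n × Fin q,
      aeval (x ^ q) (if p ∈ t then a p else 0) * (y p.1 * x ^ (p.2 : ℕ)) = 0 := by
    rw [← ha, ← Finset.sum_filter_add_sum_filter_not Finset.univ (fun p => p ∈ t)]
    have e1 : ∑ p ∈ Finset.univ.filter (fun p => ¬ p ∈ t),
        aeval (x ^ q) (if p ∈ t then a p else 0) * (y p.1 * x ^ (p.2 : ℕ)) = 0 := by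
      refine Finset.sum_eq_zero fun p hp => ?_
      rw [if_neg (Finset.mem_filter.1 hp).2, map_zero, zero_mul]
    have e2 : Finset.univ.filter (fun p => p ∈ t) = t := by
      ext p
      simp
    rw [e1, add_zero, e2]
    refine Finset.sum_congr rfl fun p hp => ?_
    rw [if_pos hp]
  have h2 := s34x19_frob_poly x q n hq y hy hx _ h1 p
  rwa [if_pos hp] at h2

/-- **[FROB-IND]**, indexed by `Fin (n * q)` through `finProdFinEquiv`. -/
theorem s34x19_frob_ind' (x : L) (q n : ℕ) (hq : 0 < q) (y : Fin n → L)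
    (hy : LinearIndependent ↥(κ⟮x⟯) y) (hx : Transcendental κ x) :
    LinearIndependent ↥(κ⟮x ^ q⟯) (fun i : Fin (n * q) =>
      y (finProdFinEquiv.symm i).1 * x ^ ((finProdFinEquiv.symm i).2 : ℕ)) :=
  (s34x19_frob_ind x q n hq y hy hx).comp _ finProdFinEquiv.symm.injective

end Fermat.Agent.S34
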