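/-
S34, leaf [SS-GAUSS] = (D0) of the cut, part (b''): THE TWO BRANCHES ARE DIFFERENT (helper27).
Prefix `s34g_`.

`O` a discrete valuation ring of characteristic zero with residue characteristic `q`,
`K = Frac O`, `N` a level with `q ∣ N`, `W` a `K`-automorphism of `F_K(N)` with `W j = j_q`,
`W j_q = j` (helper8's `s34w_W_j`, `s34w_W_jq`).

  `s34g_rho_jq`     : `ρ_∞ (j_q) = j̄ ^ q`             (Frobenius),
  `s34g_J_mem_W2`   : `J = j · j_q` and `J⁻¹` lie in `V_∞ ∩ V_0`; so do `j, j_q, j⁻¹, j_q⁻¹`,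
  `s34g_ne_witness` : `x = j_q ^ q - j` has `ρ_∞ (W x) = 0` and `ρ_∞ (x) ≠ 0`,
  `s34g_V_ne_V0`    : `V_∞ ≠ V_0`.
-/
import Mathlib
import Fermat.Agent.S37.EsCong
import Fermat.Agent.S34.SsGaussV0

set_option autoImplicit false
set_option linter.unusedSectionVars false
set_option linter.unusedVariables false
set_option linter.style.haveILetI false
set_option maxHeartbeats 400000

open AlgebraicCurve ModularCurve IntermediateField
open Fermat.Agent.S18 Fermat.Agent.S37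

noncomputable section

namespace Fermat.Agent.S34

section Units

variable {O K : Type} [CommRing O] [IsDomain O] [IsDiscreteValuationRing O] [Field K]
  [CharZero K] [Algebra O K] [IsFractionRing O K] {N : ℕ} [NeZero N]

theorem s34g_rho_jd_ne_zero (d : ℕ) [NeZero d] (hd : d ∣ N) :
    s34g_rho O K N ⟨s34g_jd K N d hd, s34g_jd_mem d hd⟩ ≠ 0 := by
  rw [s34g_rho_jd]
  intro h
  have h1 : jqModC (IsLocalRing.ResidueField O) = 0 := by
    apply qExpand_injective (R := IsLocalRing.ResidueField O) (N := d)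
    rw [h, map_zero]
  exact jqModC_ne_zero_of_nontrivial _ h1

/-- `j_d` is a unit of `V_∞`. -/
theorem s34g_jd_inv_mem (d : ℕ) [NeZero d] (hd : d ∣ N) :
    (s34g_jd K N d hd)⁻¹ ∈ s34g_V O K N :=
  s34g_inv_mem ⟨s34g_jd K N d hd, s34g_jd_mem d hd⟩ (s34g_rho_jd_ne_zero d hd)

theorem s34g_j_inv_mem : (s18_j K N)⁻¹ ∈ s34g_V O K N := by
  rw [s34g_j_eq]
  exact s34g_jd_inv_mem 1 (one_dvd N)

end Units

section Ne

variable {O K : Type} [CommRing O] [IsDomain O] [IsDiscreteValuationRing O] [Field K]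
  [CharZero K] [Algebra O K] [IsFractionRing O K] {N : ℕ} [NeZero N]
  (q : ℕ) [NeZero q] [Fact q.Prime] (hqN : q ∣ N)
  (hq : (q : O) ∈ IsLocalRing.maximalIdeal O)

include hq in
/-- **Frobenius**: `j̄ (T ^ q) = j̄ ^ q` in characteristic `q`. -/
theorem s34g_frob_j :
    qExpand (IsLocalRing.ResidueField O) q (jqModC (IsLocalRing.ResidueField O)) =
      jqModC (IsLocalRing.ResidueField O) ^ q := by
  haveI : CharP (IsLocalRing.ResidueField O) q :=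
    (CharP.charP_iff_prime_eq_zero (Fact.out : q.Prime)).2 (by
      have h := (IsLocalRing.residue_eq_zero_iff (q : O)).2 hq
      rwa [map_natCast] at h)
  rw [s37cg_frob q (jqModC (IsLocalRing.ResidueField O)), coeffMap_jqModC]

include hq in
/-- `ρ_∞ (j_q) = j̄ ^ q`. -/
theorem s34g_rho_jq :
    s34g_rho O K N ⟨s34g_jd K N q hqN, s34g_jd_mem q hqN⟩ =
      jqModC (IsLocalRing.ResidueField O) ^ q := by
  rw [s34g_rho_jd, s34g_frob_j q hq]

variable (W : ↥(s18_F K N) ≃ₐ[K] ↥(s18_F K N))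
  (hWj : W (s18_j K N) = s34g_jd K N q hqN)
  (hWjq : W (s34g_jd K N q hqN) = s18_j K N)

include hWj in
theorem s34g_j_mem0 : s18_j K N ∈ s34g_V0 O W := by
  rw [s34g_mem_V0_iff, hWj]
  exact s34g_jd_mem q hqN

include hWj in
theorem s34g_j_inv_mem0 : (s18_j K N)⁻¹ ∈ s34g_V0 O W := by
  rw [s34g_mem_V0_iff, map_inv₀, hWj]
  exact s34g_jd_inv_mem q hqN

include hWjq in
theorem s34g_jq_mem0 : s34g_jd K N q hqN ∈ s34g_V0 O W := by
  rw [s34g_mem_V0_iff, hWjq]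
  exact s34g_j_mem

include hWjq in
theorem s34g_jq_inv_mem0 : (s34g_jd K N q hqN)⁻¹ ∈ s34g_V0 O W := by
  rw [s34g_mem_V0_iff, map_inv₀, hWjq]
  exact s34g_j_inv_mem

include hWj in
theorem s34g_j_mem_W2 : s18_j K N ∈ s34g_W2 O W :=
  ⟨s34g_j_mem, s34g_j_mem0 q hqN W hWj⟩

include hWj in
theorem s34g_j_inv_mem_W2 : (s18_j K N)⁻¹ ∈ s34g_W2 O W :=
  ⟨s34g_j_inv_mem, s34g_j_inv_mem0 q hqN W hWj⟩

include hWjq in
theorem s34g_jq_mem_W2 : s34g_jd K N q hqN ∈ s34g_W2 O W :=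
  ⟨s34g_jd_mem q hqN, s34g_jq_mem0 q hqN W hWjq⟩

include hWjq in
theorem s34g_jq_inv_mem_W2 : (s34g_jd K N q hqN)⁻¹ ∈ s34g_W2 O W :=
  ⟨s34g_jd_inv_mem q hqN, s34g_jq_inv_mem0 q hqN W hWjq⟩

include hWj hWjq in
/-- `J = j · j_q ∈ V_∞ ∩ V_0`. -/
theorem s34g_J_mem_W2 : s18_j K N * s34g_jd K N q hqN ∈ s34g_W2 O W :=
  mul_mem (s34g_j_mem_W2 q hqN W hWj) (s34g_jq_mem_W2 q hqN W hWjq)

include hWj hWjq in
/-- `J⁻¹ ∈ V_∞ ∩ V_0`. -/
theorem s34g_J_inv_mem_W2 : (s18_j K N * s34g_jd K N q hqN)⁻¹ ∈ s34g_W2 O W := by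
  rw [mul_inv]
  exact mul_mem (s34g_j_inv_mem_W2 q hqN W hWj) (s34g_jq_inv_mem_W2 q hqN W hWjq)

include hWj hWjq in
/-- `W J = J`. -/
theorem s34g_W_J :
    W (s18_j K N * s34g_jd K N q hqN) = s18_j K N * s34g_jd K N q hqN := by
  rw [map_mul, hWj, hWjq, mul_comm]

/-! ### The witness -/

theorem s34g_x_mem : s34g_jd K N q hqN ^ q - s18_j K N ∈ s34g_V O K N :=
  sub_mem (pow_mem (s34g_jd_mem q hqN) q) s34g_j_mem

theorem s34g_Wx_mem : s18_j K N ^ q - s34g_jd K N q hqN ∈ s34g_V O K N :=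
  sub_mem (pow_mem s34g_j_mem q) (s34g_jd_mem q hqN)

include hq in
/-- `ρ_∞ (j ^ q - j_q) = 0`. -/
theorem s34g_rho_Wx :
    s34g_rho O K N ⟨s18_j K N ^ q - s34g_jd K N q hqN, s34g_Wx_mem q hqN⟩ = 0 := by
  have e : (⟨s18_j K N ^ q - s34g_jd K N q hqN, s34g_Wx_mem q hqN⟩ : ↥(s34g_V O K N)) =
      ⟨s18_j K N, s34g_j_mem⟩ ^ q - ⟨s34g_jd K N q hqN, s34g_jd_mem q hqN⟩ := rfl
  rw [e, map_sub, map_pow, s34g_rho_j, s34g_rho_jq q hqN hq, sub_self]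

include hq in
/-- `ρ_∞ (j_q ^ q - j) ≠ 0`. -/
theorem s34g_rho_x :
    s34g_rho O K N ⟨s34g_jd K N q hqN ^ q - s18_j K N, s34g_x_mem q hqN⟩ ≠ 0 := by
  have e : (⟨s34g_jd K N q hqN ^ q - s18_j K N, s34g_x_mem q hqN⟩ : ↥(s34g_V O K N)) =
      ⟨s34g_jd K N q hqN, s34g_jd_mem q hqN⟩ ^ q - ⟨s18_j K N, s34g_j_mem⟩ := rfl
  rw [e, map_sub, map_pow, s34g_rho_j, s34g_rho_jq q hqN hq]
  intro h
  have hq1 : 1 < q := (Fact.out : q.Prime).one_lt
  have htr := s18gq_transc_jq (IsLocalRing.ResidueField O)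
  apply htr
  refine ⟨Polynomial.X ^ (q * q) - Polynomial.X, ?_, ?_⟩
  · intro h0
    have h1 := congrArg (fun p : Polynomial (IsLocalRing.ResidueField O) => p.coeff 1) h0
    simp only [Polynomial.coeff_sub, Polynomial.coeff_X_pow, Polynomial.coeff_X_one,
      Polynomial.coeff_zero] at h1
    have hqq : (1 : ℕ) ≠ q * q := by nlinarith
    rw [if_neg hqq] at h1
    simp at h1
  · rw [map_sub, map_pow, Polynomial.aeval_X, pow_mul]
    exact h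

include hq hWj hWjq in
/-- **The witness**: `x = j_q ^ q - j` has `ρ_∞ (W x) = 0` and `ρ_∞ (x) ≠ 0`
(`x ∈ 𝔭_0`, `x ∉ 𝔭_∞`). -/
theorem s34g_ne_witness :
    ∃ (x : ↥(s18_F K N)) (hx : x ∈ s34g_V O K N) (hWx : W x ∈ s34g_V O K N),
      x = s34g_jd K N q hqN ^ q - s18_j K N ∧
      s34g_rho O K N ⟨W x, hWx⟩ = 0 ∧ s34g_rho O K N ⟨x, hx⟩ ≠ 0 := by
  have hW : W (s34g_jd K N q hqN ^ q - s18_j K N) = s18_j K N ^ q - s34g_jd K N q hqN := by
    rw [map_sub, map_pow, hWjq, hWj]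
  refine ⟨_, s34g_x_mem q hqN, ?_, rfl, ?_, s34g_rho_x q hqN hq⟩
  · rw [hW]
    exact s34g_Wx_mem q hqN
  · have e : (⟨W (s34g_jd K N q hqN ^ q - s18_j K N), by rw [hW]; exact s34g_Wx_mem q hqN⟩ :
        ↥(s34g_V O K N)) = ⟨s18_j K N ^ q - s34g_jd K N q hqN, s34g_Wx_mem q hqN⟩ :=
      Subtype.ext hW
    rw [e]
    exact s34g_rho_Wx q hqN hq

include hq hWj hWjq in
/-- **The two Gauss branches are different.** -/
theorem s34g_V_ne_V0 : s34g_V O K N ≠ s34g_V0 O W := by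
  letI := s18_algOF O K N
  intro heq
  obtain ⟨ϖ, hϖ⟩ := IsDiscreteValuationRing.exists_irreducible O
  have h0 : (s18_j K N ^ q - s34g_jd K N q hqN) / algebraMap O ↥(s18_F K N) ϖ ∈
      s34g_V O K N := s34g_rho_eq_zero hϖ
    (⟨s18_j K N ^ q - s34g_jd K N q hqN, s34g_Wx_mem q hqN⟩ : ↥(s34g_V O K N))
    (s34g_rho_Wx q hqN hq)
  have h1 : (s34g_jd K N q hqN ^ q - s18_j K N) / algebraMap O ↥(s18_F K N) ϖ ∈
      s34g_V O K N := by
    have h2 : (s18_j K N ^ q - s34g_jd K N q hqN) / algebraMap O ↥(s18_F K N) ϖ ∈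
        s34g_V0 O W := heq ▸ h0
    rw [s34g_mem_V0_iff, map_div₀, s34g_W_algebraMap, map_sub, map_pow, hWj, hWjq] at h2
    exact h2
  have hπ := s34g_algebraMap_ne_zero (K := K) (N := N) hϖ.ne_zero
  have e : (⟨s34g_jd K N q hqN ^ q - s18_j K N, s34g_x_mem q hqN⟩ : ↥(s34g_V O K N)) =
      ⟨_, s34g_algebraMap_mem (K := K) (N := N) ϖ⟩ * ⟨_, h1⟩ := by
    apply Subtype.ext
    show s34g_jd K N q hqN ^ q - s18_j K N = algebraMap O ↥(s18_F K N) ϖ *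
      ((s34g_jd K N q hqN ^ q - s18_j K N) / algebraMap O ↥(s18_F K N) ϖ)
    field_simp
  apply s34g_rho_x (O := O) (K := K) (N := N) q hqN hq
  rw [e, map_mul, s34g_rho_pi hϖ _ rfl, zero_mul]

end Ne

end Fermat.Agent.S34
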