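/-
S34, leaf [SS-COUNT] = (D1) of the cut.  Owner: helper26.  Prefix `s34co_`.

THE COUNT.  Level `M * q`, `q ∤ M` prime, `O` a discrete valuation ring of residue characteristic
`q` with `K = Frac O` of characteristic `0`, `F = F_K(M q)`, `W` a `K`-automorphism of `F` with
`W ∘ W = 1`, `W j = j_q`; `V_∞ = s34g_V`, `V_0 = s34g_V0 O W`; `R = K(j) ∩ V_∞` the Gauss ring.

  `s34co_count` : the conclusion of helper22's `s34ca_main` for `(R, π, V_∞, V_0)` with
                  `a₁ = ψ(M)`, `a₂ = ψ(M) q` (`e = 1`, `f_∞ = ψ(M)`, `f_0 = q ψ(M)`, two branches);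
  `s34co_unique`: **(C1)** every Gauss valuation ring of `F` for the coordinate `j` is `V_∞` or
                  `V_0`  (in helper22's structure form and in helper28's unfolded form).
-/
import Mathlib
import Fermat.Agent.S34.CountBr
import Fermat.Agent.S34.CountFam
import Fermat.Agent.S34.CountAbsMain
import Fermat.Agent.S34.FrobInd
import Fermat.Agent.S34.SsGaussNe
import Fermat.Agent.S34.DegK

set_option autoImplicit false
set_option linter.unusedSectionVars false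
set_option linter.unusedVariables false
set_option linter.style.haveILetI false
set_option synthInstance.maxHeartbeats 400000
set_option maxHeartbeats 400000

open AlgebraicCurve ModularCurve IntermediateField Polynomial
open Fermat.Agent.S18
open scoped MatrixGroups

noncomputable section

namespace Fermat.Agent.S34

section Fam2

variable {O K : Type} [CommRing O] [IsDomain O] [IsDiscreteValuationRing O] [Field K]
  [CharZero K] [Algebra O K] [IsFractionRing O K] {N : ℕ} [NeZero N]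
  (W : ↥(s18_F K N) ≃ₐ[K] ↥(s18_F K N))

theorem s34co_linearIndependent_congr {k L : Type*} [Field k] [Field L] [Algebra k L]
    {ι : Type*} (u v : L) (h : u = v) (f : ι → L) (hf : LinearIndependent ↥(k⟮u⟯) f) :
    LinearIndependent ↥(k⟮v⟯) f := by
  subst h
  exact hf

/-- **The family of the branch at `0`**: `x₂ (i, k) = W (x₁ i · j ^ k)`, `k < q`. -/
theorem s34co_fam_zero (q : ℕ) [NeZero q] [Fact q.Prime] (hq : q ∣ N)
    (hqO : (q : O) ∈ IsLocalRing.maximalIdeal O) (hWW : ∀ f, W (W f) = f)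
    (n : ℕ) (x : Fin n → ↥(s18_F K N)) (hx : ∀ i, x i ∈ s34g_V O K N)
    (hind : LinearIndependent
      ↥((IsLocalRing.ResidueField O)⟮jqModC (IsLocalRing.ResidueField O)⟯)
      (fun i => s34g_rho O K N ⟨x i, hx i⟩)) :
    ∃ hx' : ∀ p : Fin (n * q), W (x (finProdFinEquiv.symm p).1 *
        s18_j K N ^ ((finProdFinEquiv.symm p).2 : ℕ)) ∈ s34g_V0 O W,
      LinearIndependent
        ↥((IsLocalRing.ResidueField O)⟮qExpand (IsLocalRing.ResidueField O) q
          (jqModC (IsLocalRing.ResidueField O))⟯)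
        (fun p : Fin (n * q) => s34g_rho0 O W ⟨W (x (finProdFinEquiv.symm p).1 *
          s18_j K N ^ ((finProdFinEquiv.symm p).2 : ℕ)), hx' p⟩) := by
  haveI := s18gq_charP O q hqO
  have hmem : ∀ p : Fin (n * q), x (finProdFinEquiv.symm p).1 *
      s18_j K N ^ ((finProdFinEquiv.symm p).2 : ℕ) ∈ s34g_V O K N :=
    fun p => mul_mem (hx _) (pow_mem s34g_j_mem _)
  have hx' : ∀ p : Fin (n * q), W (x (finProdFinEquiv.symm p).1 *
      s18_j K N ^ ((finProdFinEquiv.symm p).2 : ℕ)) ∈ s34g_V0 O W :=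
    fun p => (s34g_W_mem_V0_iff hWW _).2 (hmem p)
  refine ⟨hx', ?_⟩
  have h1 := s34x19_frob_ind' (jqModC (IsLocalRing.ResidueField O)) q n
    (Nat.pos_of_ne_zero (NeZero.ne q)) _ hind (s18gq_transc_jq _)
  have h2 := s34co_linearIndependent_congr _ _ (s34co_frob (IsLocalRing.ResidueField O) q) _ h1
  have h3 : (fun p : Fin (n * q) => s34g_rho0 O W ⟨W (x (finProdFinEquiv.symm p).1 *
      s18_j K N ^ ((finProdFinEquiv.symm p).2 : ℕ)), hx' p⟩) =
      fun p : Fin (n * q) => s34g_rho O K N ⟨x (finProdFinEquiv.symm p).1,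
        hx (finProdFinEquiv.symm p).1⟩ *
        jqModC (IsLocalRing.ResidueField O) ^ ((finProdFinEquiv.symm p).2 : ℕ) := by
    funext p
    have e1 := s34g_rho0_W (O := O) (W := W) hWW ⟨_, hmem p⟩
    have e2 : (⟨x (finProdFinEquiv.symm p).1 *
        s18_j K N ^ ((finProdFinEquiv.symm p).2 : ℕ), hmem p⟩ : ↥(s34g_V O K N)) =
        ⟨x (finProdFinEquiv.symm p).1, hx _⟩ *
          ⟨s18_j K N, s34g_j_mem⟩ ^ ((finProdFinEquiv.symm p).2 : ℕ) := rfl
    rw [e2, map_mul, map_pow, s34g_rho_j] at e1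
    exact e1
  rw [h3]
  exact h2

end Fam2

section Count

variable (O K : Type) [CommRing O] [IsDomain O] [IsDiscreteValuationRing O] [Field K]
  [CharZero K] [Algebra O K] [IsFractionRing O K] (M q : ℕ) [NeZero M] [NeZero q]
  [NeZero (M * q)]

/-- `[F_K(M q) : K(j)] = n + n q` with `n = [SL₂(ℤ) : Γ₀(M)]`. -/
theorem s34co_finrank (hq : q.Prime) (hqM : ¬ q ∣ M) :
    Module.finrank ↥(K⟮s18_j K (M * q)⟯) ↥(s18_F K (M * q)) =
      Nat.card (SL(2, ℤ) ⧸ CongruenceSubgroup.Gamma0 M) +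
        Nat.card (SL(2, ℤ) ⧸ CongruenceSubgroup.Gamma0 M) * q := by
  have h1 : ModularCurve.dedekindPsi q = q + 1 := by
    have := Fermat.Agent.S24.Comb.dedekindPsi_prime_pow hq 0
    simpa using this
  have h2 : Nat.Coprime M q := ((Nat.Prime.coprime_iff_not_dvd hq).2 hqM).symm
  have h3 : Nat.card (SL(2, ℤ) ⧸ CongruenceSubgroup.Gamma0 M) = ModularCurve.dedekindPsi M :=
    Fermat.Agent.S24.Comb.comb_cosetCard M
  rw [s34dk_finrank K (M * q), Fermat.Agent.S24.Comb.dedekindPsi_mul h2, h1, h3]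
  ring

variable {O K M q}
variable (W : ↥(s18_F K (M * q)) ≃ₐ[K] ↥(s18_F K (M * q)))

/-- **[COUNT]** the two branch hypotheses of [COUNT-ABS] hold for `(R, π, V_∞, V_0)` with
`a₁ = ψ(M)`, `a₂ = ψ(M) q`; the family of the branch at `∞` comes from the level `M`. -/
theorem s34co_branches [Fact q.Prime] (hqM : ¬ q ∣ M)
    (hqO : (q : O) ∈ IsLocalRing.maximalIdeal O) {ϖ : O} (hϖ : Irreducible ϖ)
    (hWW : ∀ f, W (W f) = f)
    (hWj : W (s18_j K (M * q)) = s34g_jd K (M * q) q (dvd_mul_left q M)) :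
    letI := s34co_algRF O K (M * q)
    ∃ (x₁ : Fin (Nat.card (SL(2, ℤ) ⧸ CongruenceSubgroup.Gamma0 M)) → ↥(s18_F K (M * q)))
      (x₂ : Fin (Nat.card (SL(2, ℤ) ⧸ CongruenceSubgroup.Gamma0 M) * q) →
        ↥(s18_F K (M * q))),
      s34ca_Branch (s34co_pi (K := K) (N := M * q) hϖ) (s34g_V O K (M * q)) _ x₁ ∧
      s34ca_Branch (s34co_pi (K := K) (N := M * q) hϖ) (s34g_V0 O W) _ x₂ ∧
      ∀ i, ∃ hx : x₁ i ∈ s34g_V O K (M * q), ∃ z : ↥(s18_F K M), ∃ hz : z ∈ s34g_V O K M,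
        ((x₁ i : ↥(s18_F K (M * q))) : LaurentSeries K) = (z : LaurentSeries K) ∧
        s34g_rho O K (M * q) ⟨x₁ i, hx⟩ = s34g_rho O K M ⟨z, hz⟩ := by
  letI := s34co_algRF O K (M * q)
  obtain ⟨x₁, hx₁, hind₁, hlev⟩ := s34co_fam O K M q hqM hqO
  obtain ⟨hx₂, hind₂⟩ := s34co_fam_zero W q (dvd_mul_left q M) hqO hWW _ x₁ hx₁ hind₁
  refine ⟨x₁, _, s34co_branch_inf hϖ _ x₁ hx₁ hind₁,
    s34co_branch_zero W hϖ q (dvd_mul_left q M) hWj _ _ hx₂ hind₂, ?_⟩
  intro i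
  obtain ⟨z, hz, h1, h2⟩ := hlev i
  exact ⟨hx₁ i, z, hz, h1, h2⟩

/-- **(C1)** every Gauss valuation ring of `F_K(M q)` for the coordinate `j` is `V_∞` or `V_0`;
**(C2)** `V_∞ ∩ V_0` is the integral closure of the Gauss ring of `K(j)`;
`e = 1` and `π S = P_∞ ∩ P_0` on the integral closure. -/
theorem s34co_count [Fact q.Prime] (hqM : ¬ q ∣ M)
    (hqO : (q : O) ∈ IsLocalRing.maximalIdeal O) {ϖ : O} (hϖ : Irreducible ϖ)
    (hWW : ∀ f, W (W f) = f)
    (hWj : W (s18_j K (M * q)) = s34g_jd K (M * q) q (dvd_mul_left q M)) :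
    letI := s18_algOF O K (M * q)
    letI := s34co_algRF O K (M * q)
    (∀ V : ValuationSubring ↥(s18_F K (M * q)), s34cg_IsGauss ϖ (s18_j K (M * q)) V →
      V = s34g_V O K (M * q) ∨ V = s34g_V0 O W) ∧
    (∀ x : ↥(s18_F K (M * q)),
      IsIntegral ↥(s34co_R O K (M * q)) x ↔ x ∈ s34g_V O K (M * q) ∧ x ∈ s34g_V0 O W) := by
  letI := s18_algOF O K (M * q)
  haveI := s18_towerOF O K (M * q)
  letI := s34co_algRF O K (M * q)
  haveI := s34co_towerRF O K (M * q)
  haveI := s34co_R_dvr (K := K) (N := M * q) hϖ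
  haveI := s18gq_finite K (M * q)
  have hq : q.Prime := Fact.out
  obtain ⟨x₁, x₂, hB₁, hB₂, -⟩ := s34co_branches W hqM hqO hϖ hWW hWj
  have hWjq : W (s34g_jd K (M * q) q (dvd_mul_left q M)) = s18_j K (M * q) := by
    rw [← hWj, hWW]
  have hne : s34g_V O K (M * q) ≠ s34g_V0 O W :=
    s34g_V_ne_V0 q (dvd_mul_left q M) hqO W hWj hWjq
  have hn := (s34co_finrank K M q hq hqM).le
  haveI hsep : Algebra.IsSeparable ↥(K⟮s18_j K (M * q)⟯) ↥(s18_F K (M * q)) :=
    Algebra.IsAlgebraic.isSeparable_of_perfectField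
  have hirr := s34co_pi_irreducible (K := K) (N := M * q) hϖ
  refine ⟨?_, fun x => s34ca_isIntegral_iff ↥(K⟮s18_j K (M * q)⟯) hirr hne hB₁ hB₂ hn x⟩
  intro V hV
  have hG := s34co_gauss_inf (K := K) (N := M * q) hϖ
  have hc := s34cg_comap_eq (K := K) hϖ hG hV
  refine s34ca_unique ↥(K⟮s18_j K (M * q)⟯) hirr hne hB₁ hB₂ hn V ?_ ?_
  · intro r
    have h1 : (r : ↥(K⟮s18_j K (M * q)⟯)) ∈
        V.comap (algebraMap ↥(K⟮s18_j K (M * q)⟯) ↥(s18_F K (M * q))) := hc ▸ r.2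
    exact h1
  · rw [s34co_pi_coe]
    exact hV.nonunit

/-- **(C1)** in helper22's structure form. -/
theorem s34co_unique [Fact q.Prime] (hqM : ¬ q ∣ M)
    (hqO : (q : O) ∈ IsLocalRing.maximalIdeal O) {ϖ : O} (hϖ : Irreducible ϖ)
    (hWW : ∀ f, W (W f) = f)
    (hWj : W (s18_j K (M * q)) = s34g_jd K (M * q) q (dvd_mul_left q M))
    (V : ValuationSubring ↥(s18_F K (M * q)))
    (hV : letI := s18_algOF O K (M * q)
      s34cg_IsGauss ϖ (s18_j K (M * q)) V) :
    V = s34g_V O K (M * q) ∨ V = s34g_V0 O W :=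
  (s34co_count W hqM hqO hϖ hWW hWj).1 V hV

/-- **(C1)** in the unfolded form (the hypothesis `hC1` of helper28's `s34iw_model`). -/
theorem s34co_unique' [Fact q.Prime] (hqM : ¬ q ∣ M)
    (hqO : (q : O) ∈ IsLocalRing.maximalIdeal O) {ϖ : O} (hϖ : Irreducible ϖ)
    (hWW : ∀ f, W (W f) = f)
    (hWj : W (s18_j K (M * q)) = s34g_jd K (M * q) q (dvd_mul_left q M)) :
    letI := s18_algOF O K (M * q)
    ∀ V : ValuationSubring ↥(s18_F K (M * q)),
      (∀ a : O, algebraMap O ↥(s18_F K (M * q)) a ∈ V) → s18_j K (M * q) ∈ V →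
      algebraMap O ↥(s18_F K (M * q)) ϖ ∈ V.nonunits →
      (∀ P : O[X], P.map (IsLocalRing.residue O) ≠ 0 →
        aeval (s18_j K (M * q)) P ∉ V.nonunits) →
      V = s34g_V O K (M * q) ∨ V = s34g_V0 O W := by
  letI := s18_algOF O K (M * q)
  intro V h1 h2 h3 h4
  exact s34co_unique W hqM hqO hϖ hWW hWj V ⟨h1, h2, h3, h4⟩

/-- **(C2)** `V_∞ ∩ V_0` is integral over the Gauss ring of `K(j)`. -/
theorem s34co_integral [Fact q.Prime] (hqM : ¬ q ∣ M)
    (hqO : (q : O) ∈ IsLocalRing.maximalIdeal O) {ϖ : O} (hϖ : Irreducible ϖ)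
    (hWW : ∀ f, W (W f) = f)
    (hWj : W (s18_j K (M * q)) = s34g_jd K (M * q) q (dvd_mul_left q M))
    (x : ↥(s18_F K (M * q))) (hx : x ∈ s34g_V O K (M * q)) (hx0 : x ∈ s34g_V0 O W) :
    letI := s34co_algRF O K (M * q)
    IsIntegral ↥(s34co_R O K (M * q)) x :=
  letI := s34co_algRF O K (M * q)
  ((s34co_count W hqM hqO hϖ hWW hWj).2 x).2 ⟨hx, hx0⟩

end Count

end Fermat.Agent.S34
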