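/-
S34, [LIFT2], the hypothesis `s34l_IsW` for an intersection of valuation rings (helper28).
Prefix `s34iw_`.

`W` a subring of `F` which is the intersection of a family `𝒱` of valuation subrings of `F`, each
containing `O`, `j` and `j⁻¹`, in each of which `π` is not a unit.  Then `W` satisfies
`chart_le`, `chart_le'`, `root`, `unit` of `s34l_IsW`; the two saturation clauses `sat`, `sat'`
(`B ∩ π W = π B` on both charts) are taken as hypotheses (`s34iw_main`).

  `s34iw_adjoin_le`, `s34iw_chart_le`   `O[t] ⊆ V` and `s18_chart O {t} ⊆ V` for `t ∈ V`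
  `s34iw_root`                          `f^n ∈ V`, `0 < n` ⟹ `f ∈ V`
  `s34iw_unit`                          `π⁻¹ ∉ V`, `w ∈ V` ⟹ `(1 + π w)⁻¹ ∈ V`
  `s34iw_main`, `s34iw_inf`             the structure `s34l_IsW` (general family / two rings)
-/
import Mathlib
import Fermat.Agent.S34.LiftDefs

set_option autoImplicit false

noncomputable section

namespace Fermat.Agent.S34

open Fermat.Agent.S18

section s34iw

variable {O : Type} [CommRing O] {F : Type} [Field F] [Algebra O F]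

/-- `O[t] ⊆ V` for `t ∈ V`. -/
theorem s34iw_adjoin_le (V : ValuationSubring F) (hO : ∀ a : O, algebraMap O F a ∈ V) {t : F}
    (ht : t ∈ V) {z : F} (hz : z ∈ Algebra.adjoin O ({t} : Set F)) : z ∈ V := by
  induction hz using Algebra.adjoin_induction with
  | mem x hx =>
    rw [Set.mem_singleton_iff.mp hx]
    exact ht
  | algebraMap r => exact hO r
  | add x y _ _ hx hy => exact V.add_mem _ _ hx hy
  | mul x y _ _ hx hy => exact V.mul_mem _ _ hx hy

/-- A valuation ring contains the roots of its elements. -/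
theorem s34iw_root (V : ValuationSubring F) {f : F} {n : ℕ} (hn : 0 < n) (hf : f ^ n ∈ V) :
    f ∈ V := by
  rcases V.mem_or_inv_mem f with h | h
  · exact h
  · have e : f = f ^ n * f⁻¹ ^ (n - 1) := by
      by_cases hf0 : f = 0
      · rw [hf0, zero_pow hn.ne', zero_mul]
      · have e1 : f ^ n = f ^ (n - 1) * f := by rw [← pow_succ, Nat.sub_add_cancel hn]
        rw [e1, inv_pow]
        field_simp
    rw [e]
    exact V.mul_mem _ _ hf (pow_mem h _)

/-- The chart of `t ∈ V` lies in `V` (a valuation ring is integrally closed). -/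
theorem s34iw_chart_le (V : ValuationSubring F) (hO : ∀ a : O, algebraMap O F a ∈ V) {t : F}
    (ht : t ∈ V) {x : F} (hx : x ∈ s18_chart O ({t} : Set F)) : x ∈ V := by
  rw [s18_mem_chart_iff] at hx
  obtain ⟨p, hp, hpx⟩ := hx
  have h1 : IsIntegral ↥V x := by
    have hl : p.map (algebraMap ↥(Algebra.adjoin O ({t} : Set F)) F) ∈
        Polynomial.lifts (algebraMap ↥V F) := by
      rw [Polynomial.lifts_iff_coeff_lifts]
      intro i
      rw [Polynomial.coeff_map]
      exact ⟨⟨_, s34iw_adjoin_le V hO ht (p.coeff i).2⟩, rfl⟩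
    obtain ⟨q, hq, -, hqm⟩ := Polynomial.lifts_and_natDegree_eq_and_monic hl (hp.map _)
    refine ⟨q, hqm, ?_⟩
    rw [← Polynomial.eval_map, hq, Polynomial.eval_map]
    exact hpx
  obtain ⟨y, hy⟩ := (IsIntegrallyClosed.isIntegral_iff (R := ↥V) (K := F)).mp h1
  rw [← hy]
  exact y.2

/-- `1 + π w` is a unit of `V` when `π` is not. -/
theorem s34iw_unit (V : ValuationSubring F) {π : F} (hπV : π ∈ V) (hπ : π⁻¹ ∉ V) {w : F}
    (hw : w ∈ V) : (1 + π * w)⁻¹ ∈ V := by
  have hπw : π * w ∈ V := V.mul_mem _ _ hπV hw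
  by_cases hy0 : 1 + π * w = 0
  · rw [hy0, inv_zero]
    exact V.zero_mem
  by_cases hz0 : π * w = 0
  · rw [hz0, add_zero, inv_one]
    exact V.one_mem
  have hπ0 : π ≠ 0 := left_ne_zero_of_mul hz0
  have hw0 : w ≠ 0 := right_ne_zero_of_mul hz0
  rcases V.mem_or_inv_mem (π * w / (1 + π * w)) with h | h
  · have e : (1 + π * w)⁻¹ = 1 - π * w / (1 + π * w) := by
      field_simp
      ring
    rw [e]
    exact sub_mem (one_mem V) h
  · exfalso
    apply hπ
    have e : π⁻¹ = w * ((π * w / (1 + π * w))⁻¹ - 1) := by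
      field_simp
      ring
    rw [e]
    exact V.mul_mem _ _ hw (sub_mem h (one_mem V))

/-- **[IsW-ABS]** an intersection of valuation rings containing `O`, `j`, `j⁻¹` with `π` a
non-unit, saturated in both charts, satisfies `s34l_IsW`. -/
theorem s34iw_main {j : F} {ϖ : O} (𝒱 : Set (ValuationSubring F)) (W : Subring F)
    (hW : ∀ w : F, w ∈ W ↔ ∀ V ∈ 𝒱, w ∈ V)
    (hO : ∀ V ∈ 𝒱, ∀ a : O, algebraMap O F a ∈ V)
    (hj : ∀ V ∈ 𝒱, j ∈ V ∧ j⁻¹ ∈ V)
    (hπ : ∀ V ∈ 𝒱, (algebraMap O F ϖ)⁻¹ ∉ V)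
    (hsat : ∀ w ∈ W, algebraMap O F ϖ * w ∈ s18_chart O ({j} : Set F) →
      w ∈ s18_chart O ({j} : Set F))
    (hsat' : ∀ w ∈ W, algebraMap O F ϖ * w ∈ s18_chart O ({j⁻¹} : Set F) →
      w ∈ s18_chart O ({j⁻¹} : Set F)) :
    s34l_IsW O j ϖ W where
  chart_le := fun x hx => (hW x).mpr (fun V hV => s34iw_chart_le V (hO V hV) (hj V hV).1 hx)
  chart_le' := fun x hx => (hW x).mpr (fun V hV => s34iw_chart_le V (hO V hV) (hj V hV).2 hx)
  sat := hsat
  sat' := hsat'
  root := fun f _ hn hf => (hW f).mpr (fun V hV => s34iw_root V hn ((hW _).mp hf V hV))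
  unit := fun w hw => (hW _).mpr (fun V hV =>
    s34iw_unit V (hO V hV ϖ) (hπ V hV) ((hW w).mp hw V hV))

/-- **[IsW-ABS]** for two valuation rings: `W = V₁ ⊓ V₂`. -/
theorem s34iw_inf {j : F} {ϖ : O} (V₁ V₂ : ValuationSubring F)
    (hO₁ : ∀ a : O, algebraMap O F a ∈ V₁) (hO₂ : ∀ a : O, algebraMap O F a ∈ V₂)
    (hj₁ : j ∈ V₁ ∧ j⁻¹ ∈ V₁) (hj₂ : j ∈ V₂ ∧ j⁻¹ ∈ V₂)
    (hπ₁ : (algebraMap O F ϖ)⁻¹ ∉ V₁) (hπ₂ : (algebraMap O F ϖ)⁻¹ ∉ V₂)
    (hsat : ∀ w : F, w ∈ V₁ → w ∈ V₂ → algebraMap O F ϖ * w ∈ s18_chart O ({j} : Set F) →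
      w ∈ s18_chart O ({j} : Set F))
    (hsat' : ∀ w : F, w ∈ V₁ → w ∈ V₂ → algebraMap O F ϖ * w ∈ s18_chart O ({j⁻¹} : Set F) →
      w ∈ s18_chart O ({j⁻¹} : Set F)) :
    s34l_IsW O j ϖ (V₁.toSubring ⊓ V₂.toSubring) := by
  refine s34iw_main ({V₁, V₂} : Set (ValuationSubring F)) _ ?_ ?_ ?_ ?_ ?_ ?_
  · intro w
    rw [Subring.mem_inf]
    constructor
    · rintro ⟨h1, h2⟩ V hV
      rcases hV with rfl | hV
      · exact h1
      · rw [Set.mem_singleton_iff.mp hV]
        exact h2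
    · intro h
      exact ⟨h V₁ (Set.mem_insert _ _), h V₂ (Set.mem_insert_of_mem _ rfl)⟩
  · intro V hV
    rcases hV with rfl | hV
    · exact hO₁
    · rw [Set.mem_singleton_iff.mp hV]
      exact hO₂
  · intro V hV
    rcases hV with rfl | hV
    · exact hj₁
    · rw [Set.mem_singleton_iff.mp hV]
      exact hj₂
  · intro V hV
    rcases hV with rfl | hV
    · exact hπ₁
    · rw [Set.mem_singleton_iff.mp hV]
      exact hπ₂
  · intro w hw
    rw [Subring.mem_inf] at hw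
    exact hsat w hw.1 hw.2
  · intro w hw
    rw [Subring.mem_inf] at hw
    exact hsat' w hw.1 hw.2

end s34iw

end Fermat.Agent.S34
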