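/-
S34, [K-ISW], part [G-J] (helper28).  Prefix `s34iw_`.

`O` a local ring with residue field `κ`, `F` a field over `O`, `V` a valuation subring of `F`
containing `O` in which the elements of the maximal ideal of `O` are non-units; `k_V` its residue
field, a field over `κ`.

  `s34iw_res_eval`   `P̄ (x̄) = (P(x))‾` for `P ∈ O[X]`, `x ∈ V`
  `s34iw_alg_of_nonunit`   `P(x) ∈ 𝔪_V`, `P̄ ≠ 0` ⟹ `x̄` is algebraic (= integral) over `κ`
  `s34iw_nonunit_of_alg`   `x̄` integral over `κ` ⟹ `Q(x) ∈ 𝔪_V` for some `Q` with `Q̄ ≠ 0`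
  `s34iw_res_chart`  `y` integral over `O[x]`, `x̄` integral over `κ` ⟹ `ȳ` integral over `κ`
  `s34iw_gauss_of_mul`  **[G-J]**: if `V` is Gauss for `J = j * jq` (`Q(J)` is a unit of `V` for
                     every `Q` with `Q̄ ≠ 0`), `j` is integral over `O[J]` and `jq` is integral
                     over `O[j]`, then `V` is Gauss for `j`.
-/
import Mathlib
import Fermat.Agent.S34.IsWAbs

set_option autoImplicit false
set_option linter.style.haveILetI false
set_option linter.unusedSectionVars false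

open Polynomial

noncomputable section

namespace Fermat.Agent.S34

open Fermat.Agent.S18

section s34iw_gj

variable {O : Type} [CommRing O] [IsLocalRing O] {F : Type} [Field F] [Algebra O F]

/-- The inclusion `O → V`. -/
def s34iw_toV (V : ValuationSubring F) (hO : ∀ a : O, algebraMap O F a ∈ V) : O →+* ↥V :=
  (algebraMap O F).codRestrict V.toSubring hO

theorem s34iw_toV_coe (V : ValuationSubring F) (hO : ∀ a : O, algebraMap O F a ∈ V) (a : O) :
    ((s34iw_toV V hO a : ↥V) : F) = algebraMap O F a := rfl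

/-- `O → V → k_V`. -/
def s34iw_g (V : ValuationSubring F) (hO : ∀ a : O, algebraMap O F a ∈ V) :
    O →+* IsLocalRing.ResidueField ↥V :=
  (IsLocalRing.residue ↥V).comp (s34iw_toV V hO)

theorem s34iw_g_isLocalHom (V : ValuationSubring F) (hO : ∀ a : O, algebraMap O F a ∈ V)
    (hm : ∀ a ∈ IsLocalRing.maximalIdeal O, algebraMap O F a ∈ V.nonunits) :
    IsLocalHom (s34iw_g V hO) := by
  refine ⟨fun a ha => ?_⟩
  by_contra hna
  have h1 : a ∈ IsLocalRing.maximalIdeal O := (IsLocalRing.mem_maximalIdeal a).mpr hna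
  have h2 : (s34iw_toV V hO a : ↥V) ∈ IsLocalRing.maximalIdeal ↥V :=
    ValuationSubring.coe_mem_nonunits_iff.mp (hm a h1)
  have h3 : s34iw_g V hO a = 0 := (IsLocalRing.residue_eq_zero_iff _).mpr h2
  rw [h3] at ha
  exact not_isUnit_zero ha

/-- The residue field of `V` as an extension of the residue field of `O`. -/
def s34iw_phi (V : ValuationSubring F) (hO : ∀ a : O, algebraMap O F a ∈ V)
    (hm : ∀ a ∈ IsLocalRing.maximalIdeal O, algebraMap O F a ∈ V.nonunits) :
    IsLocalRing.ResidueField O →+* IsLocalRing.ResidueField ↥V :=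
  haveI := s34iw_g_isLocalHom V hO hm
  IsLocalRing.ResidueField.lift (s34iw_g V hO)

theorem s34iw_phi_residue (V : ValuationSubring F) (hO : ∀ a : O, algebraMap O F a ∈ V)
    (hm : ∀ a ∈ IsLocalRing.maximalIdeal O, algebraMap O F a ∈ V.nonunits) (a : O) :
    s34iw_phi V hO hm (IsLocalRing.residue O a) =
      IsLocalRing.residue ↥V (s34iw_toV V hO a) := by
  haveI := s34iw_g_isLocalHom V hO hm
  exact IsLocalRing.ResidueField.lift_residue_apply (s34iw_g V hO) a

theorem s34iw_phi_comp (V : ValuationSubring F) (hO : ∀ a : O, algebraMap O F a ∈ V)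
    (hm : ∀ a ∈ IsLocalRing.maximalIdeal O, algebraMap O F a ∈ V.nonunits) :
    (s34iw_phi V hO hm).comp (IsLocalRing.residue O) =
      (IsLocalRing.residue ↥V).comp (s34iw_toV V hO) :=
  RingHom.ext (fun a => s34iw_phi_residue V hO hm a)

/-- `(P(x) : F) = aeval x P` for `x ∈ V`. -/
theorem s34iw_eval_coe (V : ValuationSubring F) (hO : ∀ a : O, algebraMap O F a ∈ V)
    (x : ↥V) (P : O[X]) :
    ((Polynomial.eval₂ (s34iw_toV V hO) x P : ↥V) : F) = aeval (x : F) P := by
  have h := Polynomial.hom_eval₂ P (s34iw_toV V hO) V.subtype x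
  rw [Polynomial.aeval_def]
  exact h

/-- `P̄ (x̄) = (P(x))‾`. -/
theorem s34iw_res_eval (V : ValuationSubring F) (hO : ∀ a : O, algebraMap O F a ∈ V)
    (hm : ∀ a ∈ IsLocalRing.maximalIdeal O, algebraMap O F a ∈ V.nonunits)
    (x : ↥V) (P : O[X]) :
    Polynomial.eval₂ (s34iw_phi V hO hm) (IsLocalRing.residue ↥V x)
        (P.map (IsLocalRing.residue O)) =
      IsLocalRing.residue ↥V (Polynomial.eval₂ (s34iw_toV V hO) x P) := by
  rw [Polynomial.eval₂_map, s34iw_phi_comp, Polynomial.hom_eval₂]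

/-- `aeval x P ∈ 𝔪_V ↔ P̄ (x̄) = 0`. -/
theorem s34iw_nonunit_iff (V : ValuationSubring F) (hO : ∀ a : O, algebraMap O F a ∈ V)
    (hm : ∀ a ∈ IsLocalRing.maximalIdeal O, algebraMap O F a ∈ V.nonunits)
    (x : ↥V) (P : O[X]) :
    aeval (x : F) P ∈ V.nonunits ↔
      Polynomial.eval₂ (s34iw_phi V hO hm) (IsLocalRing.residue ↥V x)
        (P.map (IsLocalRing.residue O)) = 0 := by
  rw [s34iw_res_eval, IsLocalRing.residue_eq_zero_iff, ← ValuationSubring.coe_mem_nonunits_iff,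
    s34iw_eval_coe]

/-- If `P(x)` is a non-unit of `V` for some `P` with non-zero reduction then the residue of `x`
is integral over `κ`. -/
theorem s34iw_alg_of_nonunit (V : ValuationSubring F) (hO : ∀ a : O, algebraMap O F a ∈ V)
    (hm : ∀ a ∈ IsLocalRing.maximalIdeal O, algebraMap O F a ∈ V.nonunits)
    (x : ↥V) (P : O[X]) (hP : P.map (IsLocalRing.residue O) ≠ 0)
    (hPx : aeval (x : F) P ∈ V.nonunits) :
    (s34iw_phi V hO hm).IsIntegralElem (IsLocalRing.residue ↥V x) := by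
  letI : Algebra (IsLocalRing.ResidueField O) (IsLocalRing.ResidueField ↥V) :=
    (s34iw_phi V hO hm).toAlgebra
  have h0 : Polynomial.eval₂ (s34iw_phi V hO hm) (IsLocalRing.residue ↥V x)
      (P.map (IsLocalRing.residue O)) = 0 := (s34iw_nonunit_iff V hO hm x P).mp hPx
  have h1 : IsAlgebraic (IsLocalRing.ResidueField O) (IsLocalRing.residue ↥V x) :=
    ⟨P.map (IsLocalRing.residue O), hP, h0⟩
  exact isAlgebraic_iff_isIntegral.mp h1

/-- If the residue of `x ∈ V` is integral over `κ` then `Q(x)` is a non-unit of `V` for some `Q`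
with non-zero reduction. -/
theorem s34iw_nonunit_of_alg (V : ValuationSubring F) (hO : ∀ a : O, algebraMap O F a ∈ V)
    (hm : ∀ a ∈ IsLocalRing.maximalIdeal O, algebraMap O F a ∈ V.nonunits)
    (x : ↥V) (hx : (s34iw_phi V hO hm).IsIntegralElem (IsLocalRing.residue ↥V x)) :
    ∃ Q : O[X], Q.map (IsLocalRing.residue O) ≠ 0 ∧ aeval (x : F) Q ∈ V.nonunits := by
  obtain ⟨Qb, hQm, hQx⟩ := hx
  obtain ⟨Q, hQ⟩ := Polynomial.map_surjective (IsLocalRing.residue O)
    IsLocalRing.residue_surjective Qb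
  refine ⟨Q, ?_, ?_⟩
  · rw [hQ]
    exact hQm.ne_zero
  · rw [s34iw_nonunit_iff V hO hm, hQ]
    exact hQx

/-- The residues of the elements of `O[x]` are integral over `κ` when the residue of `x` is. -/
theorem s34iw_res_adjoin (V : ValuationSubring F) (hO : ∀ a : O, algebraMap O F a ∈ V)
    (hm : ∀ a ∈ IsLocalRing.maximalIdeal O, algebraMap O F a ∈ V.nonunits)
    (x : ↥V) (hx : (s34iw_phi V hO hm).IsIntegralElem (IsLocalRing.residue ↥V x))
    {c : F} (hc : c ∈ Algebra.adjoin O ({(x : F)} : Set F)) :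
    ∃ h : c ∈ V, (s34iw_phi V hO hm).IsIntegralElem (IsLocalRing.residue ↥V ⟨c, h⟩) := by
  letI : Algebra (IsLocalRing.ResidueField O) (IsLocalRing.ResidueField ↥V) :=
    (s34iw_phi V hO hm).toAlgebra
  induction hc using Algebra.adjoin_induction with
  | mem y hy =>
    rw [Set.mem_singleton_iff] at hy
    subst hy
    exact ⟨x.2, hx⟩
  | algebraMap r =>
    refine ⟨hO r, ?_⟩
    have e : IsLocalRing.residue ↥V ⟨algebraMap O F r, hO r⟩ =
        s34iw_phi V hO hm (IsLocalRing.residue O r) := (s34iw_phi_residue V hO hm r).symm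
    rw [e]
    exact (s34iw_phi V hO hm).isIntegralElem_map
  | add y z _ _ hy hz =>
    obtain ⟨hy1, hy2⟩ := hy
    obtain ⟨hz1, hz2⟩ := hz
    refine ⟨V.add_mem _ _ hy1 hz1, ?_⟩
    have e : (⟨y + z, V.add_mem _ _ hy1 hz1⟩ : ↥V) = ⟨y, hy1⟩ + ⟨z, hz1⟩ := rfl
    rw [e, map_add]
    exact RingHom.IsIntegralElem.add _ hy2 hz2
  | mul y z _ _ hy hz =>
    obtain ⟨hy1, hy2⟩ := hy
    obtain ⟨hz1, hz2⟩ := hz
    refine ⟨V.mul_mem _ _ hy1 hz1, ?_⟩
    have e : (⟨y * z, V.mul_mem _ _ hy1 hz1⟩ : ↥V) = ⟨y, hy1⟩ * ⟨z, hz1⟩ := rfl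
    rw [e, map_mul]
    exact RingHom.IsIntegralElem.mul _ hy2 hz2

/-- The residue of an element of the chart of `x` is integral over `κ` when the residue of `x`
is. -/
theorem s34iw_res_chart (V : ValuationSubring F) (hO : ∀ a : O, algebraMap O F a ∈ V)
    (hm : ∀ a ∈ IsLocalRing.maximalIdeal O, algebraMap O F a ∈ V.nonunits)
    (x : ↥V) (hx : (s34iw_phi V hO hm).IsIntegralElem (IsLocalRing.residue ↥V x))
    {y : F} (hy : y ∈ s18_chart O ({(x : F)} : Set F)) :
    ∃ h : y ∈ V, (s34iw_phi V hO hm).IsIntegralElem (IsLocalRing.residue ↥V ⟨y, h⟩) := by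
  letI : Algebra (IsLocalRing.ResidueField O) (IsLocalRing.ResidueField ↥V) :=
    (s34iw_phi V hO hm).toAlgebra
  have hyV : y ∈ V := s34iw_chart_le V hO x.2 hy
  refine ⟨hyV, ?_⟩
  rw [s18_mem_chart_iff] at hy
  obtain ⟨T, hT, hTy⟩ := hy
  let ι : ↥(Algebra.adjoin O ({(x : F)} : Set F)) →+* ↥V :=
    ((Algebra.adjoin O ({(x : F)} : Set F)).val :
      ↥(Algebra.adjoin O ({(x : F)} : Set F)) →+* F).codRestrict V.toSubring
      (fun c => s34iw_adjoin_le V hO x.2 c.2)
  have h2 : Polynomial.eval₂ ι ⟨y, hyV⟩ T = 0 := by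
    apply Subtype.ext
    have h3 := Polynomial.hom_eval₂ T ι V.subtype ⟨y, hyV⟩
    exact h3.trans hTy
  have h1 : Polynomial.eval₂ ((IsLocalRing.residue ↥V).comp ι)
      (IsLocalRing.residue ↥V ⟨y, hyV⟩) T = 0 := by
    rw [← Polynomial.hom_eval₂, h2, map_zero]
  have hcoef : ∀ i, IsIntegral (IsLocalRing.ResidueField O)
      (((IsLocalRing.residue ↥V).comp ι) (T.coeff i)) := fun i => by
    obtain ⟨h, hc⟩ := s34iw_res_adjoin V hO hm x hx (T.coeff i).2
    exact hc
  have h4 : IsIntegral ↥(integralClosure (IsLocalRing.ResidueField O)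
      (IsLocalRing.ResidueField ↥V)) (IsLocalRing.residue ↥V ⟨y, hyV⟩) := by
    have hl : T.map ((IsLocalRing.residue ↥V).comp ι) ∈
        Polynomial.lifts (algebraMap ↥(integralClosure (IsLocalRing.ResidueField O)
          (IsLocalRing.ResidueField ↥V)) (IsLocalRing.ResidueField ↥V)) := by
      rw [Polynomial.lifts_iff_coeff_lifts]
      intro i
      rw [Polynomial.coeff_map]
      exact ⟨⟨_, hcoef i⟩, rfl⟩
    obtain ⟨T', hT', -, hT'm⟩ := Polynomial.lifts_and_natDegree_eq_and_monic hl (hT.map _)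
    refine ⟨T', hT'm, ?_⟩
    rw [← Polynomial.eval_map, hT', Polynomial.eval_map]
    exact h1
  exact isIntegral_trans _ h4

/-- **[G-J]** a valuation ring which is Gauss for `J = j * jq` is Gauss for `j`, when `j` is
integral over `O[J]` and `jq` is integral over `O[j]`. -/
theorem s34iw_gauss_of_mul (V : ValuationSubring F) (hO : ∀ a : O, algebraMap O F a ∈ V)
    (hm : ∀ a ∈ IsLocalRing.maximalIdeal O, algebraMap O F a ∈ V.nonunits) {j jq : F}
    (hJV : j * jq ∈ V)
    (hJ : ∀ Q : O[X], Q.map (IsLocalRing.residue O) ≠ 0 → aeval (j * jq) Q ∉ V.nonunits)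
    (hj : j ∈ s18_chart O ({j * jq} : Set F)) (hjq : jq ∈ s18_chart O ({j} : Set F)) :
    j ∈ V ∧ ∀ P : O[X], P.map (IsLocalRing.residue O) ≠ 0 → aeval j P ∉ V.nonunits := by
  have hjV : j ∈ V := s34iw_chart_le V hO hJV hj
  refine ⟨hjV, fun P hP hPj => ?_⟩
  have h1 : (s34iw_phi V hO hm).IsIntegralElem (IsLocalRing.residue ↥V ⟨j, hjV⟩) :=
    s34iw_alg_of_nonunit V hO hm ⟨j, hjV⟩ P hP hPj
  obtain ⟨hjqV, h2⟩ := s34iw_res_chart V hO hm ⟨j, hjV⟩ h1 hjq
  have h3 : (s34iw_phi V hO hm).IsIntegralElem (IsLocalRing.residue ↥V ⟨j * jq, hJV⟩) := by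
    have e : (⟨j * jq, hJV⟩ : ↥V) = ⟨j, hjV⟩ * ⟨jq, hjqV⟩ := rfl
    rw [e, map_mul]
    exact RingHom.IsIntegralElem.mul _ h1 h2
  obtain ⟨Q, hQ, hQJ⟩ := s34iw_nonunit_of_alg V hO hm ⟨j * jq, hJV⟩ h3
  exact hJ Q hQ hQJ

/-- The elements of the maximal ideal of a discrete valuation ring are non-units of `V` as soon
as a uniformizer is. -/
theorem s34iw_hm_of_irreducible (V : ValuationSubring F) (hO : ∀ a : O, algebraMap O F a ∈ V)
    {ϖ : O} (hϖ : IsLocalRing.maximalIdeal O = Ideal.span {ϖ})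
    (hπ : algebraMap O F ϖ ∈ V.nonunits) :
    ∀ a ∈ IsLocalRing.maximalIdeal O, algebraMap O F a ∈ V.nonunits := by
  intro a ha
  rw [hϖ] at ha
  obtain ⟨b, rfl⟩ := Ideal.mem_span_singleton'.mp ha
  rw [map_mul, ValuationSubring.mem_nonunits_iff, map_mul]
  have h1 : V.valuation (algebraMap O F b) ≤ 1 := (V.valuation_le_one_iff _).mpr (hO b)
  have h2 : V.valuation (algebraMap O F ϖ) < 1 := (V.mem_nonunits_iff).mp hπ
  exact mul_lt_one_of_nonneg_of_lt_one_right h1 zero_le h2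

end s34iw_gj

end Fermat.Agent.S34
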