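/-
S34, [K-ISW], part [VAL] (helper28).  Prefix `s34iw_`.

`O` a discrete valuation ring with uniformizer `ϖ`, `K = Frac O`, `F ⊇ K` a field, `J ∈ F`
transcendental over `K`, `F` algebraic over `K(J)`.

  `s34iw_gaussRing O J`   the subring of `F` of the Gauss fractions `P(J) / Q(J)`, `P, Q ∈ O[X]`,
                          `Q` with non-zero reduction modulo `ϖ`
  `s34iw_K_le`, `s34iw_KJ_le`, `s34iw_top`
                          a valuation subring `V ⊇ s34iw_gaussRing O J` in which `π` is a unit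
                          contains `K`, `K(J)`, and is all of `F`
  `s34iw_integral_of_forall`   **[VAL]**: an element of `F` lying in every valuation subring which
                          is Gauss for `J` is integral over `s34iw_gaussRing O J`
                          (Mathlib: the integral closure of a subring of a field is the
                          intersection of the valuation subrings containing it).
-/
import Mathlib
import Fermat.Agent.S18.GaussAbsCore
import Fermat.Agent.S34.IsWAbs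

set_option autoImplicit false
set_option linter.style.haveILetI false
set_option linter.unusedSectionVars false

open Polynomial IntermediateField

noncomputable section

namespace Fermat.Agent.S34

open Fermat.Agent.S18

section s34iw_ring

variable (O : Type) [CommRing O] [IsLocalRing O] {F : Type} [Field F] [Algebra O F]

/-- The Gauss fractions `P(J) / Q(J)`, `Q` with non-zero reduction. -/
def s34iw_gaussRing (J : F) : Subring F where
  carrier := {r | ∃ P Q : O[X], Q.map (IsLocalRing.residue O) ≠ 0 ∧ r * aeval J Q = aeval J P}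
  mul_mem' := by
    rintro a b ⟨P₁, Q₁, h₁, e₁⟩ ⟨P₂, Q₂, h₂, e₂⟩
    refine ⟨P₁ * P₂, Q₁ * Q₂, ?_, ?_⟩
    · rw [Polynomial.map_mul]
      exact mul_ne_zero h₁ h₂
    · rw [map_mul, map_mul, ← e₁, ← e₂]
      ring
  one_mem' := ⟨1, 1, by rw [Polynomial.map_one]; exact one_ne_zero, by rw [map_one, mul_one]⟩
  add_mem' := by
    rintro a b ⟨P₁, Q₁, h₁, e₁⟩ ⟨P₂, Q₂, h₂, e₂⟩
    refine ⟨P₁ * Q₂ + P₂ * Q₁, Q₁ * Q₂, ?_, ?_⟩
    · rw [Polynomial.map_mul]
      exact mul_ne_zero h₁ h₂
    · rw [map_add, map_mul, map_mul, map_mul, ← e₁, ← e₂]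
      ring
  zero_mem' := ⟨0, 1, by rw [Polynomial.map_one]; exact one_ne_zero, by rw [map_zero, zero_mul]⟩
  neg_mem' := by
    rintro a ⟨P, Q, h, e⟩
    exact ⟨-P, Q, h, by rw [map_neg, ← e]; ring⟩

variable {O}

theorem s34iw_mem_gaussRing {J r : F} :
    r ∈ s34iw_gaussRing O J ↔
      ∃ P Q : O[X], Q.map (IsLocalRing.residue O) ≠ 0 ∧ r * aeval J Q = aeval J P := Iff.rfl

theorem s34iw_algebraMap_mem_gaussRing (J : F) (a : O) :
    algebraMap O F a ∈ s34iw_gaussRing O J :=
  ⟨C a, 1, by rw [Polynomial.map_one]; exact one_ne_zero, by rw [map_one, mul_one, aeval_C]⟩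

theorem s34iw_aeval_mem_gaussRing (J : F) (P : O[X]) : aeval J P ∈ s34iw_gaussRing O J :=
  ⟨P, 1, by rw [Polynomial.map_one]; exact one_ne_zero, by rw [map_one, mul_one]⟩

theorem s34iw_self_mem_gaussRing (J : F) : J ∈ s34iw_gaussRing O J :=
  ⟨X, 1, by rw [Polynomial.map_one]; exact one_ne_zero, by rw [map_one, mul_one, aeval_X]⟩

theorem s34iw_inv_mem_gaussRing (J : F) {Q : O[X]} (hQ : Q.map (IsLocalRing.residue O) ≠ 0)
    (h0 : aeval J Q ≠ 0) : (aeval J Q)⁻¹ ∈ s34iw_gaussRing O J :=
  ⟨1, Q, hQ, by rw [map_one, inv_mul_cancel₀ h0]⟩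

end s34iw_ring

section s34iw_val

variable {O K F : Type} [CommRing O] [IsDomain O] [IsDiscreteValuationRing O] [Field K]
  [Algebra O K] [IsFractionRing O K] [Field F] [Algebra K F] [Algebra O F] [IsScalarTower O K F]

/-- `K ⊆ V` when `O ⊆ V` and `π` is a unit of `V`. -/
theorem s34iw_K_le (V : ValuationSubring F) (hO : ∀ a : O, algebraMap O F a ∈ V) {ϖ : O}
    (hϖ : Irreducible ϖ) (hπ : (algebraMap O F ϖ)⁻¹ ∈ V) (c : K) : algebraMap K F c ∈ V := by
  obtain ⟨a, b, hb, rfl⟩ := IsFractionRing.div_surjective (A := O) c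
  have hb0 : b ≠ 0 := nonZeroDivisors.ne_zero hb
  obtain ⟨k, ε, hε⟩ := IsDiscreteValuationRing.eq_unit_mul_pow_irreducible hb0 hϖ
  have e1 : algebraMap K F (algebraMap O K a / algebraMap O K b) =
      algebraMap O F a * (algebraMap O F ((ε⁻¹ : Oˣ) : O) * (algebraMap O F ϖ)⁻¹ ^ k) := by
    have hbF : algebraMap O F b ≠ 0 := by
      rw [IsScalarTower.algebraMap_apply O K F]
      exact (map_ne_zero_iff _ (algebraMap K F).injective).mpr
        ((map_ne_zero_iff _ (IsFractionRing.injective O K)).mpr hb0)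
    have hπ0 : algebraMap O F ϖ ≠ 0 := by
      intro h
      apply hbF
      rw [hε, map_mul, map_pow, h]
      rcases Nat.eq_zero_or_pos k with hk | hk
      · exfalso
        subst hk
        -- `b` is a unit, fine: then `π = 0` in `F` contradicts injectivity
        have hinj : Function.Injective (algebraMap O F) := by
          rw [IsScalarTower.algebraMap_eq O K F]
          exact (algebraMap K F).injective.comp (IsFractionRing.injective O K)
        exact hϖ.ne_zero (hinj (h.trans (map_zero _).symm))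
      · rw [zero_pow hk.ne', mul_zero]
    have hεF : algebraMap O F ((ε⁻¹ : Oˣ) : O) * algebraMap O F (ε : O) = 1 := by
      rw [← map_mul, Units.inv_mul, map_one]
    rw [map_div₀, ← IsScalarTower.algebraMap_apply O K F, ← IsScalarTower.algebraMap_apply O K F,
      div_eq_iff hbF]
    have e2 : algebraMap O F b = algebraMap O F (ε : O) * algebraMap O F ϖ ^ k := by
      rw [hε, map_mul, map_pow]
    rw [e2, inv_pow]
    have hpk : algebraMap O F ϖ ^ k ≠ 0 := pow_ne_zero _ hπ0
    field_simp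
    linear_combination (-(algebraMap O F a)) * hεF
  rw [e1]
  exact V.mul_mem _ _ (hO a) (V.mul_mem _ _ (hO _) (pow_mem hπ k))

/-- `K(J) ⊆ V` when `V` contains the Gauss fractions and `π⁻¹`. -/
theorem s34iw_KJ_le (V : ValuationSubring F) {J : F}
    (hR : ∀ r ∈ s34iw_gaussRing O J, r ∈ V) {ϖ : O}
    (hϖ : Irreducible ϖ) (hπ : (algebraMap O F ϖ)⁻¹ ∈ V) {z : F} (hz : z ∈ K⟮J⟯) : z ∈ V := by
  have hO : ∀ a : O, algebraMap O F a ∈ V := fun a => hR _ (s34iw_algebraMap_mem_gaussRing J a)
  have hJV : J ∈ V := hR _ (s34iw_self_mem_gaussRing J)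
  have hK : ∀ c : K, algebraMap K F c ∈ V := s34iw_K_le V hO hϖ hπ
  have hpoly : ∀ r : K[X], aeval J r ∈ V := by
    intro r
    rw [Polynomial.aeval_eq_sum_range]
    refine sum_mem (fun i _ => ?_)
    rw [Algebra.smul_def]
    exact V.mul_mem _ _ (hK _) (pow_mem hJV i)
  obtain ⟨r, s, rfl⟩ := (IntermediateField.mem_adjoin_simple_iff K z).mp hz
  rw [div_eq_mul_inv]
  refine V.mul_mem _ _ (hpoly r) ?_
  by_cases hs : s = 0
  · rw [hs, map_zero, inv_zero]
    exact V.zero_mem
  obtain ⟨a, s₁, ha, hs₁, rfl⟩ := s18ga_content (O := O) s hs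
  rw [map_mul, aeval_C, Polynomial.aeval_map_algebraMap, mul_inv, ← map_inv₀]
  refine V.mul_mem _ _ (hK _) ?_
  by_cases h0 : aeval J s₁ = 0
  · rw [h0, inv_zero]
    exact V.zero_mem
  · exact hR _ (s34iw_inv_mem_gaussRing J hs₁ h0)

/-- A valuation subring containing the Gauss fractions and `π⁻¹` is all of `F`. -/
theorem s34iw_top (V : ValuationSubring F) {J : F}
    (halg : Algebra.IsAlgebraic ↥K⟮J⟯ F)
    (hR : ∀ r ∈ s34iw_gaussRing O J, r ∈ V) {ϖ : O}
    (hϖ : Irreducible ϖ) (hπ : (algebraMap O F ϖ)⁻¹ ∈ V) (w : F) : w ∈ V := by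
  have h1 : IsIntegral ↥K⟮J⟯ w := (halg.isAlgebraic w).isIntegral
  have h2 : IsIntegral ↥V w := by
    refine s18ga_isIntegral_of_range_le ?_ h1
    intro a
    exact ⟨⟨(a : F), s34iw_KJ_le V hR hϖ hπ a.2⟩, rfl⟩
  obtain ⟨y, hy⟩ := (IsIntegrallyClosed.isIntegral_iff (R := ↥V) (K := F)).mp h2
  rw [← hy]
  exact y.2

/-- **[VAL]** an element of `F` which lies in every valuation subring that is Gauss for `J` is
integral over the ring of the Gauss fractions in `J`. -/
theorem s34iw_integral_of_forall {J : F} (hJ : Transcendental K J)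
    (halg : Algebra.IsAlgebraic ↥K⟮J⟯ F) {ϖ : O} (hϖ : Irreducible ϖ) (w : F)
    (h : ∀ V : ValuationSubring F, (∀ a : O, algebraMap O F a ∈ V) → J ∈ V →
      algebraMap O F ϖ ∈ V.nonunits →
      (∀ Q : O[X], Q.map (IsLocalRing.residue O) ≠ 0 → aeval J Q ∉ V.nonunits) → w ∈ V) :
    IsIntegral ↥(s34iw_gaussRing O J) w := by
  have hJO : Transcendental O J := hJ.restrictScalars (IsFractionRing.injective O K)
  have hne : ∀ Q : O[X], Q.map (IsLocalRing.residue O) ≠ 0 → aeval J Q ≠ 0 := by
    intro Q hQ h0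
    have hQ0 : Q ≠ 0 := by
      rintro rfl
      exact hQ (Polynomial.map_zero _)
    exact hJO ⟨Q, hQ0, h0⟩
  have hw : w ∈ (⨅ V : {V : ValuationSubring F //
      ((s34iw_gaussRing O J : Subring F) : Set F) ⊆ V.toSubring}, V.1.toSubring) := by
    rw [Subring.mem_iInf]
    rintro ⟨V, hV⟩
    have hR : ∀ r ∈ s34iw_gaussRing O J, r ∈ V := fun r hr => hV hr
    show w ∈ V
    by_cases hπ : algebraMap O F ϖ ∈ V.nonunits
    · refine h V (fun a => hR _ (s34iw_algebraMap_mem_gaussRing J a))
        (hR _ (s34iw_self_mem_gaussRing J)) hπ ?_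
      intro Q hQ hQn
      rw [V.mem_nonunits_iff_or] at hQn
      rcases hQn with h0 | h1
      · exact hne Q hQ h0
      · exact h1 (hR _ (s34iw_inv_mem_gaussRing J hQ (hne Q hQ)))
    · rw [V.mem_nonunits_iff_or, not_or, not_not] at hπ
      exact s34iw_top V halg hR hϖ hπ.2 w
  rw [iInf_valuationSubring_superset] at hw
  have h1 : IsIntegral ↥(Subring.closure ((s34iw_gaussRing O J : Subring F) : Set F)) w := hw
  refine s18ga_isIntegral_of_range_le ?_ h1
  rintro ⟨a, ha⟩
  rw [Subring.closure_eq] at ha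
  exact ⟨⟨a, ha⟩, rfl⟩

end s34iw_val

end Fermat.Agent.S34
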