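/-
S34, [SAT], ABSTRACT PART (helper28).  Prefix `s34sat_`.  Mathlib only.

`A` an integrally closed domain with field of fractions `L`, `F ⊇ L` a field, `π ∈ A` a prime
element, `q ∈ A` with `π ∤ q`.  If `π x` and `q x` are integral over `A` then `x` is integral
over `A` (`s34sat_core`): the coefficients `a_i` of the minimal polynomial of `x` over `L` satisfy
`π^(n-i) a_i ∈ A` and `q^(n-i) a_i ∈ A` (`IsIntegrallyClosed.minpoly_smul`), hence `a_i ∈ A`
(`s34sat_mem_of_two`).

`s34sat_scale`: if `x` is a root of a monic polynomial over `F` whose lower coefficients become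
elements of a subring `A₀` after multiplication by `q ∈ A₀`, then `q x` is a root of a monic
polynomial with coefficients in `A₀`.
-/
import Mathlib

set_option autoImplicit false

open Polynomial

noncomputable section

namespace Fermat.Agent.S34

section s34sat_abs

variable {A L : Type*} [CommRing A] [IsDomain A] [Field L] [Algebra A L] [IsFractionRing A L]

/-- An element `a` of the fraction field with `a π^k ∈ A` and `a q^k ∈ A`, `π` prime, `π ∤ q`,
lies in `A`. -/
theorem s34sat_mem_of_two {π q : A} (hπ : Prime π) (hq : ¬ π ∣ q) (a : L) (k : ℕ)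
    (h1 : a * algebraMap A L π ^ k ∈ Set.range (algebraMap A L))
    (h2 : a * algebraMap A L q ^ k ∈ Set.range (algebraMap A L)) :
    a ∈ Set.range (algebraMap A L) := by
  obtain ⟨α, hα⟩ := h1
  obtain ⟨β, hβ⟩ := h2
  have hinj : Function.Injective (algebraMap A L) := IsFractionRing.injective A L
  have e1 : α * q ^ k = β * π ^ k := by
    apply hinj
    rw [map_mul, map_mul, map_pow, map_pow, hα, hβ]
    ring
  have hq' : ¬ π ∣ q ^ k := fun h => hq (hπ.dvd_of_dvd_pow h)
  have h3 : π ^ k ∣ α := hπ.pow_dvd_of_dvd_mul_right k hq' ⟨β, by rw [e1, mul_comm]⟩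
  obtain ⟨α', hα'⟩ := h3
  refine ⟨α', ?_⟩
  have hπ0 : algebraMap A L π ^ k ≠ 0 := by
    apply pow_ne_zero
    intro h
    exact hπ.ne_zero (hinj (h.trans (map_zero _).symm))
  apply mul_right_cancel₀ hπ0
  rw [← hα, hα', map_mul, map_pow]
  ring

end s34sat_abs

section s34sat_core

/-- **[SAT], abstract core**: `π x` and `q x` integral over `A`, `π` prime, `π ∤ q` ⟹ `x`
integral over `A`. -/
theorem s34sat_core {A : Type*} (L : Type*) [CommRing A] [IsDomain A] [Field L] [Algebra A L]
    [IsFractionRing A L] [IsIntegrallyClosed A] {F : Type*} [Field F] [Algebra A F]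
    [Algebra L F] [IsScalarTower A L F] {π q : A} (hπ : Prime π) (hq : ¬ π ∣ q) (x : F)
    (h1 : IsIntegral A (algebraMap A F π * x)) (h2 : IsIntegral A (algebraMap A F q * x)) :
    IsIntegral A x := by
  have hinj : Function.Injective (algebraMap A L) := IsFractionRing.injective A L
  have hπL : algebraMap A L π ≠ 0 := fun h => hπ.ne_zero (hinj (h.trans (map_zero _).symm))
  have hq0 : q ≠ 0 := fun h => hq (h ▸ dvd_zero π)
  have hqL : algebraMap A L q ≠ 0 := fun h => hq0 (hinj (h.trans (map_zero _).symm))
  have hsmul : ∀ c : A, algebraMap A L c • x = algebraMap A F c * x := by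
    intro c
    rw [Algebra.smul_def, ← IsScalarTower.algebraMap_apply A L F]
  -- `x` is integral over `L`
  have hxL : IsIntegral L x := by
    have h3 : IsIntegral L (algebraMap A F π * x) := h1.tower_top
    have h4 : IsIntegral L ((algebraMap A L π)⁻¹ • (algebraMap A F π * x)) := h3.smul _
    have e : (algebraMap A L π)⁻¹ • (algebraMap A F π * x) = x := by
      rw [← hsmul, smul_smul, inv_mul_cancel₀ hπL, one_smul]
    rwa [e] at h4
  -- the coefficients of the minimal polynomial
  have hcoef : ∀ (c : A), algebraMap A L c ≠ 0 → IsIntegral A (algebraMap A F c * x) → ∀ i,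
      (minpoly L x).coeff i * algebraMap A L c ^ ((minpoly L x).natDegree - i) ∈
        Set.range (algebraMap A L) := by
    intro c hc hcx i
    have e1 : minpoly L (algebraMap A L c • x) = (minpoly L x).scaleRoots (algebraMap A L c) :=
      IsIntegrallyClosed.minpoly_smul hc hxL
    rw [hsmul] at e1
    rw [← coeff_scaleRoots, ← e1, minpoly.isIntegrallyClosed_eq_field_fractions' L hcx,
      coeff_map]
    exact ⟨_, rfl⟩
  have hmem : ∀ i, (minpoly L x).coeff i ∈ Set.range (algebraMap A L) := fun i =>
    s34sat_mem_of_two hπ hq _ _ (hcoef π hπL h1 i) (hcoef q hqL h2 i)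
  have hl : minpoly L x ∈ Polynomial.lifts (algebraMap A L) := by
    rw [Polynomial.lifts_iff_coeff_lifts]
    exact hmem
  obtain ⟨P, hP, -, hPm⟩ := Polynomial.lifts_and_natDegree_eq_and_monic hl (minpoly.monic hxL)
  refine ⟨P, hPm, ?_⟩
  have e2 : Polynomial.eval₂ (algebraMap A F) x P =
      Polynomial.eval₂ (algebraMap L F) x (P.map (algebraMap A L)) := by
    rw [Polynomial.eval₂_map, IsScalarTower.algebraMap_eq A L F]
  rw [e2, hP, ← Polynomial.aeval_def, minpoly.aeval]

end s34sat_core

section s34sat_scale

variable {F : Type*} [Field F]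

/-- Clearing denominators in an integral equation: if `p` is monic over `F` with root `x` and
`q · (coefficient of p)` lies in the subring `A₀ ∋ q` for every lower coefficient, then `q x`
is a root of a monic polynomial with coefficients in `A₀`. -/
theorem s34sat_scale (A₀ : Subring F) {q : F} (hq : q ∈ A₀) (p : F[X]) (hp : p.Monic) {x : F}
    (hpx : p.eval x = 0) (hc : ∀ i, i < p.natDegree → q * p.coeff i ∈ A₀) :
    ∃ P : F[X], P.Monic ∧ (∀ i, P.coeff i ∈ A₀) ∧ P.eval (q * x) = 0 := by
  refine ⟨p.scaleRoots q, (monic_scaleRoots_iff q).mpr hp, ?_, ?_⟩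
  · intro i
    rw [coeff_scaleRoots]
    rcases lt_trichotomy i p.natDegree with h | h | h
    · have e : p.coeff i * q ^ (p.natDegree - i) =
          q * p.coeff i * q ^ (p.natDegree - i - 1) := by
        have e1 : q ^ (p.natDegree - i) = q ^ (p.natDegree - i - 1) * q := by
          rw [← pow_succ, Nat.sub_add_cancel (by omega)]
        rw [e1]
        ring
      rw [e]
      exact A₀.mul_mem (hc i h) (A₀.pow_mem hq _)
    · rw [h, Nat.sub_self, pow_zero, mul_one, hp.coeff_natDegree]
      exact A₀.one_mem
    · rw [coeff_eq_zero_of_natDegree_lt h, zero_mul]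
      exact A₀.zero_mem
  · have h := scaleRoots_eval₂_mul (p := p) (RingHom.id F) x q
    simp only [Polynomial.eval₂_id, RingHom.id_apply] at h
    rw [h, hpx, mul_zero]

end s34sat_scale

end Fermat.Agent.S34
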