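/-
S34, [SAT] for the charts (helper28).  Prefix `s34sat_`.

`O` a discrete valuation ring with uniformizer `ϖ`, `K = Frac O`, `F ⊇ K` a field, `J ∈ F`
transcendental over `K`, `B = s18_chart O {J}` (the integral closure of `O[J]` in `F`),
`π = algebraMap O F ϖ`.

  `s34sat_main`        `π x ∈ B`, `Q(J) x ∈ B` for some `Q ∈ O[X]` with non-zero reduction
                       modulo `ϖ`  ⟹  `x ∈ B`      ("`B` is saturated at the closed points")
  `s34sat_exists_den`  `x` integral over a subring `R ⊆ F` all of whose elements are quotients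
                       `P(J) / Q(J)`, `Q` with non-zero reduction (`R ⊆` the Gauss ring of
                       `K(J)`)  ⟹  `Q(J) x ∈ B` for some such `Q`
  `s34sat_frac_inv`    the condition "quotient `P(J) / Q(J)`, `Q` with non-zero reduction" is
                       symmetric in `J ↔ J⁻¹`
  `s34sat_of_integral`, `s34sat_of_integral_inv`
                       `x` integral over `R` as above, `π x ∈ B` (resp. `B' = s18_chart O {J⁻¹}`)
                       ⟹ `x ∈ B` (resp. `B'`).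
-/
import Mathlib
import Fermat.Agent.S18.Fin
import Fermat.Agent.S34.SatAbs

set_option autoImplicit false
set_option linter.style.haveILetI false

open IntermediateField Polynomial

noncomputable section

namespace Fermat.Agent.S34

open Fermat.Agent.S18

section s34sat_chart

variable {O K F : Type} [CommRing O] [IsDomain O] [IsDiscreteValuationRing O] [Field K]
  [Algebra O K] [IsFractionRing O K] [Field F] [Algebra K F] [Algebra O F] [IsScalarTower O K F]

/-- `O[X] ≃ O[t]` for `t` transcendental. -/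
def s34sat_equiv {t : F} (ht : Transcendental K t) :
    O[X] ≃ₐ[O] ↥(Algebra.adjoin O ({t} : Set F)) :=
  (AlgEquiv.ofInjective (aeval (R := O) t)
    (transcendental_iff_injective.mp (s18fin_transc_O ht))).trans
    (Subalgebra.equivOfEq _ _ (Algebra.adjoin_singleton_eq_range_aeval O t).symm)

/-- `π` is a prime element of `O[t]`. -/
theorem s34sat_prime {t : F} (ht : Transcendental K t) {ϖ : O} (hϖ : Irreducible ϖ) :
    Prime (algebraMap O ↥(Algebra.adjoin O ({t} : Set F)) ϖ) := by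
  have h1 : Prime (C ϖ : O[X]) := Polynomial.prime_C_iff.mpr hϖ.prime
  have h2 : Prime (s34sat_equiv ht (C ϖ)) := (MulEquiv.prime_iff (s34sat_equiv ht)).mpr h1
  have e : s34sat_equiv ht (C ϖ) = algebraMap O ↥(Algebra.adjoin O ({t} : Set F)) ϖ := by
    exact (s34sat_equiv ht).commutes ϖ
  rwa [e] at h2

/-- `π ∤ Q(t)` in `O[t]` when `Q` has non-zero reduction. -/
theorem s34sat_not_dvd {t : F} (ht : Transcendental K t) {ϖ : O} (hϖ : Irreducible ϖ)
    {Q : O[X]} (hQ : Q.map (IsLocalRing.residue O) ≠ 0)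
    (q : ↥(Algebra.adjoin O ({t} : Set F))) (hq : (q : F) = aeval t Q) :
    ¬ (algebraMap O ↥(Algebra.adjoin O ({t} : Set F)) ϖ ∣ q) := by
  rintro ⟨a, ha⟩
  obtain ⟨Q', hQ'⟩ := s18fin_mem_adjoin.mp a.2
  have hinj : Function.Injective (aeval (R := O) t) :=
    transcendental_iff_injective.mp (s18fin_transc_O ht)
  have e : Q = C ϖ * Q' := by
    apply hinj
    rw [map_mul, aeval_C, hQ', ← hq, ha]
    rfl
  apply hQ
  have hres : IsLocalRing.residue O ϖ = 0 :=
    (IsLocalRing.residue_eq_zero_iff ϖ).mpr ((IsLocalRing.mem_maximalIdeal ϖ).mpr hϖ.not_isUnit)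
  rw [e, Polynomial.map_mul, Polynomial.map_C, hres, C_0, zero_mul]

/-- **[SAT]** the chart is saturated: `π x ∈ B` and `Q(J) x ∈ B`, `Q` with non-zero reduction
modulo `ϖ`, imply `x ∈ B`. -/
theorem s34sat_main {J : F} (hJ : Transcendental K J) {ϖ : O} (hϖ : Irreducible ϖ) {x : F}
    (h1 : algebraMap O F ϖ * x ∈ s18_chart O ({J} : Set F))
    (h2 : ∃ Q : O[X], Q.map (IsLocalRing.residue O) ≠ 0 ∧
      aeval J Q * x ∈ s18_chart O ({J} : Set F)) :
    x ∈ s18_chart O ({J} : Set F) := by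
  obtain ⟨Q, hQ, h2⟩ := h2
  have htL : J ∈ K⟮J⟯ := mem_adjoin_simple_self K J
  letI : Algebra ↥(Algebra.adjoin O ({J} : Set F)) ↥K⟮J⟯ := (s18fin_incl K⟮J⟯ htL).toAlgebra
  haveI : IsScalarTower ↥(Algebra.adjoin O ({J} : Set F)) ↥K⟮J⟯ F :=
    IsScalarTower.of_algebraMap_eq (fun x => rfl)
  haveI : FaithfulSMul ↥(Algebra.adjoin O ({J} : Set F)) ↥K⟮J⟯ :=
    (faithfulSMul_iff_algebraMap_injective _ _).mpr (s18fin_incl_injective K⟮J⟯ htL)
  haveI : IsFractionRing ↥(Algebra.adjoin O ({J} : Set F)) ↥K⟮J⟯ := by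
    refine IsFractionRing.of_field _ _ (fun z => ?_)
    obtain ⟨x, y, h⟩ := s18fin_frac (O := O) (t := J) (z := (z : F)) z.2
    refine ⟨x, y, ?_⟩
    apply Subtype.ext
    rw [h]; rfl
  haveI := s18fin_isIntegrallyClosed (O := O) hJ
  rw [s18_mem_chart_iff] at h1 h2 ⊢
  have hqmem : aeval J Q ∈ Algebra.adjoin O ({J} : Set F) := s18fin_mem_adjoin.mpr ⟨Q, rfl⟩
  exact s34sat_core ↥K⟮J⟯ (s34sat_prime hJ hϖ)
    (s34sat_not_dvd hJ hϖ hQ ⟨aeval J Q, hqmem⟩ rfl) x h1 h2

omit [IsDomain O] [IsDiscreteValuationRing O] [Field K] [Algebra O K] [IsFractionRing O K]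
  [Algebra K F] [IsScalarTower O K F] in
/-- Elements integral over a subring of quotients `P(J) / Q(J)`, `Q` with non-zero reduction,
have a multiple `Q(J) x` in the chart. -/
theorem s34sat_exists_den [IsLocalRing O] {J : F} (R : Subring F)
    (hR : ∀ r ∈ R, ∃ P Q : O[X], Q.map (IsLocalRing.residue O) ≠ 0 ∧
      r * aeval J Q = aeval J P)
    {x : F} (hx : IsIntegral R x) :
    ∃ Q : O[X], Q.map (IsLocalRing.residue O) ≠ 0 ∧
      aeval J Q * x ∈ s18_chart O ({J} : Set F) := by
  classical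
  obtain ⟨p, hp, hpx⟩ := hx
  choose! Pf Qf hPQ using hR
  set n := p.natDegree with hn
  let Qi : ℕ → O[X] := fun i => Qf ((p.coeff i : ↥R) : F)
  have hQi : ∀ i, (Qi i).map (IsLocalRing.residue O) ≠ 0 := fun i => (hPQ _ (p.coeff i).2).1
  refine ⟨∏ i ∈ Finset.range n, Qi i, ?_, ?_⟩
  · rw [Polynomial.map_prod]
    exact Finset.prod_ne_zero_iff.mpr (fun i _ => hQi i)
  · have hmon : (p.map (algebraMap ↥R F)).Monic := hp.map _
    have hdeg : (p.map (algebraMap ↥R F)).natDegree = n := hp.natDegree_map _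
    have hroot : (p.map (algebraMap ↥R F)).eval x = 0 := by
      rw [Polynomial.eval_map]
      exact hpx
    have hqmem : aeval J (∏ i ∈ Finset.range n, Qi i) ∈
        (Algebra.adjoin O ({J} : Set F)).toSubring :=
      (Algebra.adjoin_singleton_eq_range_aeval O J ▸ ⟨_, rfl⟩ :
        aeval J (∏ i ∈ Finset.range n, Qi i) ∈ Algebra.adjoin O ({J} : Set F))
    obtain ⟨P, hPm, hPc, hPx⟩ := s34sat_scale (Algebra.adjoin O ({J} : Set F)).toSubring hqmem
      (p.map (algebraMap ↥R F)) hmon hroot (by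
        intro i hi
        rw [hdeg] at hi
        rw [Polynomial.coeff_map]
        have e1 : ∏ j ∈ Finset.range n, Qi j =
            Qi i * ∏ j ∈ (Finset.range n).erase i, Qi j :=
          (Finset.mul_prod_erase _ _ (Finset.mem_range.mpr hi)).symm
        have e2 : aeval J (∏ j ∈ Finset.range n, Qi j) * algebraMap ↥R F (p.coeff i) =
            aeval J (Pf ((p.coeff i : ↥R) : F) * ∏ j ∈ (Finset.range n).erase i, Qi j) := by
          rw [e1, map_mul, map_mul, ← (hPQ _ (p.coeff i).2).2]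
          show aeval J (Qi i) * _ * ((p.coeff i : ↥R) : F) = _
          ring
        rw [e2]
        exact (Algebra.adjoin_singleton_eq_range_aeval O J ▸ ⟨_, rfl⟩ :
          aeval J (Pf ((p.coeff i : ↥R) : F) * ∏ j ∈ (Finset.range n).erase i, Qi j) ∈
            Algebra.adjoin O ({J} : Set F)))
    rw [s18_mem_chart_iff]
    have hl : P ∈ Polynomial.lifts (algebraMap ↥(Algebra.adjoin O ({J} : Set F)) F) := by
      rw [Polynomial.lifts_iff_coeff_lifts]
      intro i
      exact ⟨⟨_, hPc i⟩, rfl⟩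
    obtain ⟨P₀, hP₀, -, hP₀m⟩ := Polynomial.lifts_and_natDegree_eq_and_monic hl hPm
    refine ⟨P₀, hP₀m, ?_⟩
    rw [← Polynomial.eval_map, hP₀]
    exact hPx

omit [IsDomain O] [IsDiscreteValuationRing O] [Field K] [Algebra O K] [IsFractionRing O K]
  [Algebra K F] [IsScalarTower O K F] in
/-- The condition "quotient `P(J) / Q(J)`, `Q` with non-zero reduction" is symmetric in
`J ↔ J⁻¹`. -/
theorem s34sat_frac_inv [IsLocalRing O] {J : F} (hJ0 : J ≠ 0) {r : F}
    (h : ∃ P Q : O[X], Q.map (IsLocalRing.residue O) ≠ 0 ∧ r * aeval J Q = aeval J P) :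
    ∃ P Q : O[X], Q.map (IsLocalRing.residue O) ≠ 0 ∧ r * aeval J⁻¹ Q = aeval J⁻¹ P := by
  obtain ⟨P, Q, hQ, hPQ⟩ := h
  set D := max P.natDegree Q.natDegree with hD
  have key : ∀ f : O[X], f.natDegree ≤ D → aeval J⁻¹ (f.reflect D) * J ^ D = aeval J f := by
    intro f hf
    letI : Invertible J := invertibleOfNonzero hJ0
    have h1 := Polynomial.eval₂_reflect_mul_pow (algebraMap O F) J D f hf
    rw [invOf_eq_inv] at h1
    exact h1
  refine ⟨P.reflect D, Q.reflect D, ?_, ?_⟩
  · rw [← Polynomial.reflect_map]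
    intro h0
    exact hQ ((Polynomial.reflect_eq_zero_iff).mp h0)
  · have hJD : J ^ D ≠ 0 := pow_ne_zero _ hJ0
    apply mul_right_cancel₀ hJD
    rw [mul_assoc, key Q (le_max_right _ _), key P (le_max_left _ _), hPQ]

/-- **[SAT-R]** for the chart of `J`. -/
theorem s34sat_of_integral {J : F} (hJ : Transcendental K J) {ϖ : O} (hϖ : Irreducible ϖ)
    (R : Subring F)
    (hR : ∀ r ∈ R, ∃ P Q : O[X], Q.map (IsLocalRing.residue O) ≠ 0 ∧
      r * aeval J Q = aeval J P)
    {x : F} (hx : IsIntegral R x)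
    (h1 : algebraMap O F ϖ * x ∈ s18_chart O ({J} : Set F)) :
    x ∈ s18_chart O ({J} : Set F) :=
  s34sat_main hJ hϖ h1 (s34sat_exists_den R hR hx)

/-- **[SAT-R]** for the chart of `J⁻¹`, with the SAME hypothesis on `R`. -/
theorem s34sat_of_integral_inv {J : F} (hJ : Transcendental K J) {ϖ : O} (hϖ : Irreducible ϖ)
    (R : Subring F)
    (hR : ∀ r ∈ R, ∃ P Q : O[X], Q.map (IsLocalRing.residue O) ≠ 0 ∧
      r * aeval J Q = aeval J P)
    {x : F} (hx : IsIntegral R x)
    (h1 : algebraMap O F ϖ * x ∈ s18_chart O ({J⁻¹} : Set F)) :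
    x ∈ s18_chart O ({J⁻¹} : Set F) := by
  have hJ0 : J ≠ 0 := by
    rintro rfl
    exact hJ ⟨X, X_ne_zero, by simp⟩
  exact s34sat_main (s18fin_transc_inv hJ) hϖ h1
    (s34sat_exists_den R (fun r hr => s34sat_frac_inv hJ0 (hR r hr)) hx)

end s34sat_chart

end Fermat.Agent.S34
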