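/-
S34, [K-ISW], the assembly (helper28).  Prefix `s34iw_`.

`O` a discrete valuation ring with uniformizer `ϖ`, `K = Frac O`, `F ⊇ K` a field, `j, jq ∈ F`,
`J = j * jq` transcendental over `K`, `F` algebraic over `K(J)`, `j` integral over `O[J]`, `jq`
integral over `O[j]`.  `V₁, V₂` two valuation subrings of `F` containing `O`, `J`, `J⁻¹`, with `π`
a non-unit, such that EVERY valuation subring of `F` which is Gauss for `j` is `V₁` or `V₂`
(`(C1)` of [COUNT]).  Then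

    `s34iw_integral`  every `w ∈ V₁ ∩ V₂` is integral over the ring of the Gauss fractions in `J`
    `s34iw_sat`, `s34iw_sat'`   `w ∈ V₁ ∩ V₂`, `π w ∈ B` (resp. `B'`) ⟹ `w ∈ B` (resp. `B'`)
                      for `B = s18_chart O {J}`, `B' = s18_chart O {J⁻¹}`
    `s34iw_model`     `s34l_IsW O J ϖ (V₁ ⊓ V₂)`.
-/
import Mathlib
import Fermat.Agent.S34.IsWGj
import Fermat.Agent.S34.IsWVal
import Fermat.Agent.S34.Sat

set_option autoImplicit false
set_option linter.style.haveILetI false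
set_option linter.unusedSectionVars false

open Polynomial IntermediateField

noncomputable section

namespace Fermat.Agent.S34

open Fermat.Agent.S18

section s34iw_main

variable {O K F : Type} [CommRing O] [IsDomain O] [IsDiscreteValuationRing O] [Field K]
  [Algebra O K] [IsFractionRing O K] [Field F] [Algebra K F] [Algebra O F] [IsScalarTower O K F]

/-- Every element of `V₁ ∩ V₂` is integral over the ring of the Gauss fractions in `J = j * jq`,
when `V₁, V₂` are the only valuation subrings which are Gauss for `j`. -/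
theorem s34iw_integral {j jq : F} {ϖ : O} (hϖ : Irreducible ϖ)
    (hJ : Transcendental K (j * jq)) (halg : Algebra.IsAlgebraic ↥K⟮j * jq⟯ F)
    (hj : j ∈ s18_chart O ({j * jq} : Set F)) (hjq : jq ∈ s18_chart O ({j} : Set F))
    (V₁ V₂ : ValuationSubring F)
    (hC1 : ∀ V : ValuationSubring F, (∀ a : O, algebraMap O F a ∈ V) → j ∈ V →
      algebraMap O F ϖ ∈ V.nonunits →
      (∀ P : O[X], P.map (IsLocalRing.residue O) ≠ 0 → aeval j P ∉ V.nonunits) →
      V = V₁ ∨ V = V₂)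
    {w : F} (hw₁ : w ∈ V₁) (hw₂ : w ∈ V₂) :
    IsIntegral ↥(s34iw_gaussRing O (j * jq)) w := by
  refine s34iw_integral_of_forall hJ halg hϖ w ?_
  intro V hOV hJV hπV hQV
  obtain ⟨hjV, hPV⟩ := s34iw_gauss_of_mul V hOV
    (s34iw_hm_of_irreducible V hOV hϖ.maximalIdeal_eq hπV) hJV hQV hj hjq
  rcases hC1 V hOV hjV hπV hPV with h | h
  · rw [h]
    exact hw₁
  · rw [h]
    exact hw₂

/-- **sat** for the chart of `J = j * jq`. -/
theorem s34iw_sat {j jq : F} {ϖ : O} (hϖ : Irreducible ϖ)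
    (hJ : Transcendental K (j * jq)) (halg : Algebra.IsAlgebraic ↥K⟮j * jq⟯ F)
    (hj : j ∈ s18_chart O ({j * jq} : Set F)) (hjq : jq ∈ s18_chart O ({j} : Set F))
    (V₁ V₂ : ValuationSubring F)
    (hC1 : ∀ V : ValuationSubring F, (∀ a : O, algebraMap O F a ∈ V) → j ∈ V →
      algebraMap O F ϖ ∈ V.nonunits →
      (∀ P : O[X], P.map (IsLocalRing.residue O) ≠ 0 → aeval j P ∉ V.nonunits) →
      V = V₁ ∨ V = V₂)
    {w : F} (hw₁ : w ∈ V₁) (hw₂ : w ∈ V₂)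
    (h : algebraMap O F ϖ * w ∈ s18_chart O ({j * jq} : Set F)) :
    w ∈ s18_chart O ({j * jq} : Set F) :=
  s34sat_of_integral hJ hϖ (s34iw_gaussRing O (j * jq)) (fun _ hr => hr)
    (s34iw_integral hϖ hJ halg hj hjq V₁ V₂ hC1 hw₁ hw₂) h

/-- **sat'** for the chart of `J⁻¹ = (j * jq)⁻¹`. -/
theorem s34iw_sat' {j jq : F} {ϖ : O} (hϖ : Irreducible ϖ)
    (hJ : Transcendental K (j * jq)) (halg : Algebra.IsAlgebraic ↥K⟮j * jq⟯ F)
    (hj : j ∈ s18_chart O ({j * jq} : Set F)) (hjq : jq ∈ s18_chart O ({j} : Set F))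
    (V₁ V₂ : ValuationSubring F)
    (hC1 : ∀ V : ValuationSubring F, (∀ a : O, algebraMap O F a ∈ V) → j ∈ V →
      algebraMap O F ϖ ∈ V.nonunits →
      (∀ P : O[X], P.map (IsLocalRing.residue O) ≠ 0 → aeval j P ∉ V.nonunits) →
      V = V₁ ∨ V = V₂)
    {w : F} (hw₁ : w ∈ V₁) (hw₂ : w ∈ V₂)
    (h : algebraMap O F ϖ * w ∈ s18_chart O ({(j * jq)⁻¹} : Set F)) :
    w ∈ s18_chart O ({(j * jq)⁻¹} : Set F) :=
  s34sat_of_integral_inv hJ hϖ (s34iw_gaussRing O (j * jq)) (fun _ hr => hr)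
    (s34iw_integral hϖ hJ halg hj hjq V₁ V₂ hC1 hw₁ hw₂) h

/-- **[K-ISW], abstract form**: `W = V₁ ⊓ V₂` satisfies `s34l_IsW` for `J = j * jq`. -/
theorem s34iw_model {j jq : F} {ϖ : O} (hϖ : Irreducible ϖ)
    (hJ : Transcendental K (j * jq)) (halg : Algebra.IsAlgebraic ↥K⟮j * jq⟯ F)
    (hj : j ∈ s18_chart O ({j * jq} : Set F)) (hjq : jq ∈ s18_chart O ({j} : Set F))
    (V₁ V₂ : ValuationSubring F)
    (hO₁ : ∀ a : O, algebraMap O F a ∈ V₁) (hO₂ : ∀ a : O, algebraMap O F a ∈ V₂)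
    (hJ₁ : j * jq ∈ V₁ ∧ (j * jq)⁻¹ ∈ V₁) (hJ₂ : j * jq ∈ V₂ ∧ (j * jq)⁻¹ ∈ V₂)
    (hπ₁ : algebraMap O F ϖ ∈ V₁.nonunits) (hπ₂ : algebraMap O F ϖ ∈ V₂.nonunits)
    (hC1 : ∀ V : ValuationSubring F, (∀ a : O, algebraMap O F a ∈ V) → j ∈ V →
      algebraMap O F ϖ ∈ V.nonunits →
      (∀ P : O[X], P.map (IsLocalRing.residue O) ≠ 0 → aeval j P ∉ V.nonunits) →
      V = V₁ ∨ V = V₂) :
    s34l_IsW O (j * jq) ϖ (V₁.toSubring ⊓ V₂.toSubring) := by
  have hinj : Function.Injective (algebraMap O F) := by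
    rw [IsScalarTower.algebraMap_eq O K F]
    exact (algebraMap K F).injective.comp (IsFractionRing.injective O K)
  have hπ0 : algebraMap O F ϖ ≠ 0 := fun h => hϖ.ne_zero (hinj (h.trans (map_zero _).symm))
  have hn : ∀ V : ValuationSubring F, algebraMap O F ϖ ∈ V.nonunits →
      (algebraMap O F ϖ)⁻¹ ∉ V := by
    intro V hV
    rw [V.mem_nonunits_iff_or] at hV
    exact hV.resolve_left hπ0
  exact s34iw_inf V₁ V₂ hO₁ hO₂ hJ₁ hJ₂ (hn V₁ hπ₁) (hn V₂ hπ₂)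
    (fun w h1 h2 h => s34iw_sat hϖ hJ halg hj hjq V₁ V₂ hC1 h1 h2 h)
    (fun w h1 h2 h => s34iw_sat' hϖ hJ halg hj hjq V₁ V₂ hC1 h1 h2 h)

end s34iw_main

end Fermat.Agent.S34
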