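/-
S34, leaf [SS-INT], abstract part (owner: helper17).  Prefix `s34in_`.  Mathlib + the definition
`s18_chart` of `S18/StarDefs.lean` only.

If `y` is integral over `O[x]` and `x` is integral over `O[y]` (the two halves of the integrality
of the modular equation for `x = j`, `y = j(q^q)`), then for `J = x * y`:

* `x, y ∈ chart(J)` and `J ∈ chart(x)`, hence `chart(J) = chart(x) = chart(y)`;
* `x⁻¹, y⁻¹ ∈ chart(J⁻¹)`.

No shape of the modular polynomial is used: a valuation subring `V ⊇ O[J]` with `x ∉ V` has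
`x⁻¹ ∈ 𝔪_V`, so `y = J x⁻¹ ∈ V`, so `O[y] ⊆ V`, so `x ∈ V` (valuation subrings are integrally
closed); the integral closure of a subset is the intersection of the valuation subrings
containing it (`iInf_valuationSubring_superset`).
-/
import Mathlib
import Fermat.Agent.S18.StarDefs

set_option autoImplicit false

noncomputable section

namespace Fermat.Agent.S34

open Fermat.Agent.S18

section Abs

variable {O : Type*} [CommRing O] {F : Type*} [Field F] [Algebra O F]

/-- Integrality over a subalgebra is inherited by every larger valuation subring: if `x` is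
integral over a subalgebra `A` all of whose elements lie in the valuation subring `V`, then
`x ∈ V`. -/
theorem s34in_mem_valuationSubring (A : Subalgebra O F) (V : ValuationSubring F)
    (hAV : ∀ a ∈ A, a ∈ V) {x : F} (hx : IsIntegral ↥A x) : x ∈ V := by
  obtain ⟨p, hp, hpx⟩ := hx
  let f : ↥A →+* ↥V :=
    { toFun := fun a => ⟨(a : F), hAV a a.2⟩
      map_one' := rfl
      map_mul' := fun _ _ => rfl
      map_zero' := rfl
      map_add' := fun _ _ => rfl }
  have hcomp : (algebraMap ↥V F).comp f = algebraMap ↥A F := rfl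
  have hint : IsIntegral ↥V x := by
    refine ⟨p.map f, hp.map f, ?_⟩
    rw [Polynomial.eval₂_map, hcomp]
    exact hpx
  obtain ⟨v, hv⟩ := IsIntegrallyClosed.isIntegral_iff.mp hint
  rw [← hv]
  exact v.2

/-- A valuation subring containing the image of `O` and a set `S` contains `O[S]`. -/
theorem s34in_adjoin_le (S : Set F) (V : ValuationSubring F)
    (hO : ∀ a : O, algebraMap O F a ∈ V) (hS : ∀ s ∈ S, s ∈ V) :
    ∀ a ∈ Algebra.adjoin O S, a ∈ V := by
  intro a ha
  induction ha using Algebra.adjoin_induction with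
  | mem s hs => exact hS s hs
  | algebraMap r => exact hO r
  | add a b _ _ iha ihb => exact V.add_mem _ _ iha ihb
  | mul a b _ _ iha ihb => exact V.mul_mem _ _ iha ihb

/-- **Valuative criterion for the chart**: `x ∈ chart(S)` as soon as `x` lies in every valuation
subring of `F` containing the image of `O` and `S`. -/
theorem s34in_mem_chart_of_forall (S : Set F) {x : F}
    (h : ∀ V : ValuationSubring F, (∀ a : O, algebraMap O F a ∈ V) → (∀ s ∈ S, s ∈ V) → x ∈ V) :
    x ∈ s18_chart O S := by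
  rw [s18_mem_chart_iff]
  set T : Set F := Set.range (algebraMap O F) ∪ S with hT
  have hmem : x ∈ (⨅ V : {V : ValuationSubring F // T ⊆ V.toSubring}, V.1.toSubring) := by
    rw [Subring.mem_iInf]
    rintro ⟨V, hV⟩
    refine h V (fun a => hV (Or.inl ⟨a, rfl⟩)) (fun s hs => hV (Or.inr hs))
  rw [iInf_valuationSubring_superset] at hmem
  have hx : IsIntegral ↥(Subring.closure T) x := hmem
  obtain ⟨p, hp, hpx⟩ := hx
  have hle : ∀ a ∈ Subring.closure T, a ∈ Algebra.adjoin O S := by
    intro a ha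
    induction ha using Subring.closure_induction with
    | mem t ht =>
      rcases ht with ⟨r, rfl⟩ | ht
      · exact Subalgebra.algebraMap_mem _ r
      · exact Algebra.subset_adjoin ht
    | zero => exact zero_mem _
    | one => exact one_mem _
    | add a b _ _ iha ihb => exact add_mem iha ihb
    | neg a _ iha => exact neg_mem iha
    | mul a b _ _ iha ihb => exact mul_mem iha ihb
  let f : ↥(Subring.closure T) →+* ↥(Algebra.adjoin O S) :=
    { toFun := fun a => ⟨(a : F), hle a a.2⟩
      map_one' := rfl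
      map_mul' := fun _ _ => rfl
      map_zero' := rfl
      map_add' := fun _ _ => rfl }
  have hcomp : (algebraMap ↥(Algebra.adjoin O S) F).comp f =
      algebraMap ↥(Subring.closure T) F := rfl
  refine ⟨p.map f, hp.map f, ?_⟩
  rw [Polynomial.eval₂_map, hcomp]
  exact hpx

/-- Elements of the chart lie in every valuation subring containing `O` and `S`. -/
theorem s34in_mem_of_mem_chart (S : Set F) {x : F} (hx : x ∈ s18_chart O S)
    (V : ValuationSubring F) (hO : ∀ a : O, algebraMap O F a ∈ V) (hS : ∀ s ∈ S, s ∈ V) :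
    x ∈ V :=
  s34in_mem_valuationSubring (Algebra.adjoin O S) V (s34in_adjoin_le S V hO hS)
    ((s18_mem_chart_iff O).1 hx)

/-- Monotonicity of charts: if `S ⊆ chart(S')` then `chart(S) ⊆ chart(S')`. -/
theorem s34in_chart_le (S S' : Set F) (h : ∀ s ∈ S, s ∈ s18_chart O S') :
    s18_chart O S ≤ s18_chart O S' := by
  intro x hx
  refine s34in_mem_chart_of_forall S' (fun V hO hS' => ?_)
  exact s34in_mem_of_mem_chart S hx V hO (fun s hs => s34in_mem_of_mem_chart S' (h s hs) V hO hS')

variable {x y : F}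

/-- `x ∈ chart(x y)` when `x` is integral over `O[y]`. -/
theorem s34in_left_mem (hx : IsIntegral ↥(Algebra.adjoin O ({y} : Set F)) x) :
    x ∈ s18_chart O ({x * y} : Set F) := by
  refine s34in_mem_chart_of_forall _ (fun V hO hS => ?_)
  have hJ : x * y ∈ V := hS _ rfl
  by_contra hxV
  have hx0 : x ≠ 0 := fun h0 => hxV (h0 ▸ V.zero_mem)
  have hinv : x⁻¹ ∈ V := (V.mem_or_inv_mem x).resolve_left hxV
  have hy : y ∈ V := by
    have e : y = x⁻¹ * (x * y) := by field_simp
    rw [e]
    exact V.mul_mem _ _ hinv hJ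
  exact hxV (s34in_mem_valuationSubring _ V
    (s34in_adjoin_le _ V hO (fun s hs => by rw [Set.mem_singleton_iff.1 hs]; exact hy)) hx)

/-- `y ∈ chart(x y)` when `y` is integral over `O[x]`. -/
theorem s34in_right_mem (hy : IsIntegral ↥(Algebra.adjoin O ({x} : Set F)) y) :
    y ∈ s18_chart O ({x * y} : Set F) := by
  have h := s34in_left_mem (O := O) (x := y) (y := x) hy
  rwa [mul_comm] at h

/-- `x y ∈ chart(x)` when `y` is integral over `O[x]`. -/
theorem s34in_mul_mem_left (hy : IsIntegral ↥(Algebra.adjoin O ({x} : Set F)) y) :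
    x * y ∈ s18_chart O ({x} : Set F) := by
  refine s34in_mem_chart_of_forall _ (fun V hO hS => ?_)
  have hxV : x ∈ V := hS _ rfl
  exact V.mul_mem _ _ hxV (s34in_mem_valuationSubring _ V (s34in_adjoin_le _ V hO hS) hy)

/-- **`chart(x y) = chart(x)`** when `y` is integral over `O[x]` and `x` over `O[y]`. -/
theorem s34in_chart_mul_eq (hy : IsIntegral ↥(Algebra.adjoin O ({x} : Set F)) y)
    (hx : IsIntegral ↥(Algebra.adjoin O ({y} : Set F)) x) :
    s18_chart O ({x * y} : Set F) = s18_chart O ({x} : Set F) := by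
  apply le_antisymm
  · refine s34in_chart_le _ _ (fun s hs => ?_)
    rw [Set.mem_singleton_iff.1 hs]
    exact s34in_mul_mem_left hy
  · refine s34in_chart_le _ _ (fun s hs => ?_)
    rw [Set.mem_singleton_iff.1 hs]
    exact s34in_left_mem hx

/-- **`chart(x y) = chart(y)`** under the same hypotheses. -/
theorem s34in_chart_mul_eq' (hy : IsIntegral ↥(Algebra.adjoin O ({x} : Set F)) y)
    (hx : IsIntegral ↥(Algebra.adjoin O ({y} : Set F)) x) :
    s18_chart O ({x * y} : Set F) = s18_chart O ({y} : Set F) := by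
  have h := s34in_chart_mul_eq (O := O) (x := y) (y := x) hx hy
  rwa [mul_comm] at h

/-- `x⁻¹ ∈ chart((x y)⁻¹)` when `y ≠ 0` is integral over `O[x]`. -/
theorem s34in_inv_left_mem (hy0 : y ≠ 0)
    (hy : IsIntegral ↥(Algebra.adjoin O ({x} : Set F)) y) :
    x⁻¹ ∈ s18_chart O ({(x * y)⁻¹} : Set F) := by
  refine s34in_mem_chart_of_forall _ (fun V hO hS => ?_)
  have hJ : (x * y)⁻¹ ∈ V := hS _ rfl
  by_contra hxV
  have hxmem : x ∈ V := by
    have h := (V.mem_or_inv_mem x⁻¹).resolve_left hxV
    rwa [inv_inv] at h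
  have hx0 : x ≠ 0 := fun h0 => hxV (by rw [h0, inv_zero]; exact V.zero_mem)
  have hyV : y ∈ V := s34in_mem_valuationSubring _ V
    (s34in_adjoin_le _ V hO (fun s hs => by rw [Set.mem_singleton_iff.1 hs]; exact hxmem)) hy
  apply hxV
  have e : x⁻¹ = y * (x * y)⁻¹ := by field_simp
  rw [e]
  exact V.mul_mem _ _ hyV hJ

/-- `y⁻¹ ∈ chart((x y)⁻¹)` when `x ≠ 0` is integral over `O[y]`. -/
theorem s34in_inv_right_mem (hx0 : x ≠ 0)
    (hx : IsIntegral ↥(Algebra.adjoin O ({y} : Set F)) x) :
    y⁻¹ ∈ s18_chart O ({(x * y)⁻¹} : Set F) := by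
  have h := s34in_inv_left_mem (O := O) (x := y) (y := x) hx0 hx
  rwa [mul_comm] at h

/-- `(x y)⁻¹ ∈ chart(x⁻¹) ⊔`-free form: `(x y)⁻¹` lies in every valuation subring containing
`O`, `x⁻¹` and `y⁻¹`; so `chart((x y)⁻¹) ≤ chart({x⁻¹, y⁻¹})`. -/
theorem s34in_chart_inv_le :
    s18_chart O ({(x * y)⁻¹} : Set F) ≤ s18_chart O ({x⁻¹, y⁻¹} : Set F) := by
  refine s34in_chart_le _ _ (fun s hs => ?_)
  rw [Set.mem_singleton_iff.1 hs]
  refine s34in_mem_chart_of_forall _ (fun V _ hS => ?_)
  rw [mul_inv]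
  exact V.mul_mem _ _ (hS _ (Or.inl rfl)) (hS _ (Or.inr rfl))

/-- **`chart((x y)⁻¹) = chart({x⁻¹, y⁻¹})`** when `x, y ≠ 0`, `y` is integral over `O[x]` and
`x` over `O[y]`. -/
theorem s34in_chart_inv_eq (hx0 : x ≠ 0) (hy0 : y ≠ 0)
    (hy : IsIntegral ↥(Algebra.adjoin O ({x} : Set F)) y)
    (hx : IsIntegral ↥(Algebra.adjoin O ({y} : Set F)) x) :
    s18_chart O ({(x * y)⁻¹} : Set F) = s18_chart O ({x⁻¹, y⁻¹} : Set F) := by
  apply le_antisymm s34in_chart_inv_le
  refine s34in_chart_le _ _ (fun s hs => ?_)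
  rcases hs with rfl | hs
  · exact s34in_inv_left_mem hy0 hy
  · rw [Set.mem_singleton_iff.1 hs]
    exact s34in_inv_right_mem hx0 hx

end Abs

end Fermat.Agent.S34
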