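/-
S34, [K-ISW] for the model (helper28).  Prefix `s34iw_`.

`O` a discrete valuation ring of characteristic zero, `K = Frac O`, `N` a level, `q ∣ N` a prime,
`F = F_K(N)`, `j = s18_j K N`, `j_q = s34g_jd K N q _`, `J = j * j_q`, `W` a `K`-automorphism of
`F` with `W j = j_q`, `W j_q = j`; `V_∞ = s34g_V O K N`, `V_0 = s34g_V0 O W`,
`s34g_W2 O W = V_∞ ⊓ V_0` (helper27's `SsGaussA / SsGaussV0 / SsGaussNe`).

    theorem s34iw_W2 : … → s34l_IsW O J ϖ (s34g_W2 O W)

from the inputs (all owned elsewhere, taken as hypotheses in the shapes of their owners):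
* [K-COORD]  `Transcendental K J`, `F` algebraic over `K(J)`;
* [SS-INT]   `j_q` integral over `O[j]`, `j` integral over `O[j_q]`;
* [COUNT] (C1)  every valuation subring of `F` which is Gauss for `j` is `V_∞` or `V_0`.
-/
import Mathlib
import Fermat.Agent.S34.IsWMain
import Fermat.Agent.S34.SsIntAbs
import Fermat.Agent.S34.SsGaussNe

set_option autoImplicit false
set_option linter.style.haveILetI false
set_option linter.unusedSectionVars false

open Polynomial IntermediateField AlgebraicCurve ModularCurve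

noncomputable section

namespace Fermat.Agent.S34

open Fermat.Agent.S18

section s34iw_model

variable {O K : Type} [CommRing O] [IsDomain O] [IsDiscreteValuationRing O] [Field K]
  [CharZero K] [Algebra O K] [IsFractionRing O K] {N : ℕ} [NeZero N]

/-- `π` is a non-unit of `V_∞`. -/
theorem s34iw_pi_nonunit {ϖ : O} (hϖ : Irreducible ϖ) :
    letI := s18_algOF O K N
    algebraMap O ↥(s18_F K N) ϖ ∈ (s34g_V O K N).nonunits := by
  letI := s18_algOF O K N
  have h : (⟨algebraMap O ↥(s18_F K N) ϖ, s34g_algebraMap_mem (K := K) (N := N) ϖ⟩ :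
      ↥(s34g_V O K N)) ∈ IsLocalRing.maximalIdeal ↥(s34g_V O K N) := by
    rw [s34g_mem_maximalIdeal_iff]
    exact s34g_rho_pi hϖ _ rfl
  exact ValuationSubring.coe_mem_nonunits_iff.mpr h

/-- `π` is a non-unit of `V_0`. -/
theorem s34iw_pi_nonunit0 (W : ↥(s18_F K N) ≃ₐ[K] ↥(s18_F K N)) {ϖ : O} (hϖ : Irreducible ϖ) :
    letI := s18_algOF O K N
    algebraMap O ↥(s18_F K N) ϖ ∈ (s34g_V0 O W).nonunits := by
  letI := s18_algOF O K N
  have h : (⟨algebraMap O ↥(s18_F K N) ϖ, s34g_algebraMap_mem0 (W := W) ϖ⟩ :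
      ↥(s34g_V0 O W)) ∈ IsLocalRing.maximalIdeal ↥(s34g_V0 O W) := by
    rw [s34g_mem_maximalIdeal_iff0]
    exact s34g_rho0_pi hϖ _ rfl
  exact ValuationSubring.coe_mem_nonunits_iff.mpr h

/-- **[K-ISW]** `V_∞ ⊓ V_0` satisfies `s34l_IsW` for the coordinate `J = j * j_q`. -/
theorem s34iw_W2 (q : ℕ) [NeZero q] [Fact q.Prime] (hqN : q ∣ N)
    (W : ↥(s18_F K N) ≃ₐ[K] ↥(s18_F K N))
    (hWj : W (s18_j K N) = s34g_jd K N q hqN) (hWjq : W (s34g_jd K N q hqN) = s18_j K N)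
    {ϖ : O} (hϖ : Irreducible ϖ)
    (hJ : Transcendental K (s18_j K N * s34g_jd K N q hqN))
    (halg : Algebra.IsAlgebraic ↥K⟮s18_j K N * s34g_jd K N q hqN⟯ ↥(s18_F K N))
    (hint : letI := s18_algOF O K N
      IsIntegral ↥(Algebra.adjoin O ({s18_j K N} : Set ↥(s18_F K N))) (s34g_jd K N q hqN))
    (hint' : letI := s18_algOF O K N
      IsIntegral ↥(Algebra.adjoin O ({s34g_jd K N q hqN} : Set ↥(s18_F K N))) (s18_j K N))
    (hC1 : letI := s18_algOF O K N
      ∀ V : ValuationSubring ↥(s18_F K N),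
        (∀ a : O, algebraMap O ↥(s18_F K N) a ∈ V) → s18_j K N ∈ V →
        algebraMap O ↥(s18_F K N) ϖ ∈ V.nonunits →
        (∀ P : O[X], P.map (IsLocalRing.residue O) ≠ 0 → aeval (s18_j K N) P ∉ V.nonunits) →
        V = s34g_V O K N ∨ V = s34g_V0 O W) :
    letI := s18_algOF O K N
    s34l_IsW O (s18_j K N * s34g_jd K N q hqN) ϖ (s34g_W2 O W) := by
  letI := s18_algOF O K N
  haveI := s18_towerOF O K N
  have hJ2 : s18_j K N * s34g_jd K N q hqN ∈ s34g_W2 O W :=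
    s34g_J_mem_W2 q hqN W hWj hWjq
  have hJ2' : (s18_j K N * s34g_jd K N q hqN)⁻¹ ∈ s34g_W2 O W :=
    s34g_J_inv_mem_W2 q hqN W hWj hWjq
  exact s34iw_model hϖ hJ halg (s34in_left_mem hint') hint
    (s34g_V O K N) (s34g_V0 O W)
    (fun a => s34g_algebraMap_mem a) (fun a => s34g_algebraMap_mem0 a)
    ⟨hJ2.1, hJ2'.1⟩ ⟨hJ2.2, hJ2'.2⟩
    (s34iw_pi_nonunit hϖ) (s34iw_pi_nonunit0 W hϖ) hC1

end s34iw_model

end Fermat.Agent.S34
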