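/-
S34, THE LAST WIRING, statement (2) [K-ISW] (helper28).  Prefix `s34iw_`.

    theorem s34iw_kmain_of : s34iw_IntStatement → s34iw_C1Statement → s34km_IsWStatement

`s34km_IsWStatement` (VERBATIM `S34/KMainDefs.lean`) from the two leaves which are owned
elsewhere, stated at the model data `(M, q, K0, O)`:

* `s34iw_IntStatement` = [SS-INT]: `j_q` is integral over `O[j]` and `j` is integral over
  `O[j_q]`;
* `s34iw_C1Statement` = [COUNT] (C1): a valuation subring of `F` which contains `O` and `j`, in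
  which `π` is a non-unit and in which no `P(j)`, `P` primitive, is a non-unit, is `V_∞` or `V_0`.

Everything else ([K-COORD], the involution `W_q`, the carriers) is on main and filled in here.
-/
import Mathlib
import Fermat.Agent.S34.IsWModel
import Fermat.Agent.S34.KMainDefs
import Fermat.Agent.S34.KCoord

set_option autoImplicit false
set_option linter.style.haveILetI false
set_option linter.unusedSectionVars false
set_option linter.unusedVariables false

open Polynomial IntermediateField AlgebraicCurve ModularCurve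

noncomputable section

namespace Fermat.Agent.S34

open Fermat.Agent.S18

/-- **[SS-INT]** at the model: `j_q` is integral over `O[j]`, `j` is integral over `O[j_q]`. -/
def s34iw_IntStatement : Prop :=
  ∀ (M q : ℕ) [NeZero M] [NeZero q] [NeZero (M * q)] (hq : q.Prime) (hM : ¬ q ∣ M),
    (4 ∣ M ∨ 9 ∣ M) →
    ∀ (K0 : IntermediateField ℚ (AlgebraicClosure ℚ)), FiniteDimensional ℚ ↥K0 →
    ∀ (O : ValuationSubring ↥K0) [IsDiscreteValuationRing ↥O],
      (q : ↥O) ∈ IsLocalRing.maximalIdeal ↥O →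
      letI := s18_algOF ↥O ↥K0 (M * q)
      IsIntegral ↥(Algebra.adjoin ↥O ({s18_j ↥K0 (M * q)} : Set ↥(s18_F ↥K0 (M * q))))
          (s34g_jd ↥K0 (M * q) q (dvd_mul_left q M)) ∧
        IsIntegral ↥(Algebra.adjoin ↥O
            ({s34g_jd ↥K0 (M * q) q (dvd_mul_left q M)} : Set ↥(s18_F ↥K0 (M * q))))
          (s18_j ↥K0 (M * q))

/-- **[COUNT] (C1)** at the model: the Gauss valuation rings of `F` for `j` are `V_∞` and
`V_0`. -/
def s34iw_C1Statement : Prop :=
  ∀ (M q : ℕ) [NeZero M] [NeZero q] [NeZero (M * q)] (hq : q.Prime) (hM : ¬ q ∣ M),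
    (4 ∣ M ∨ 9 ∣ M) →
    ∀ (K0 : IntermediateField ℚ (AlgebraicClosure ℚ)), FiniteDimensional ℚ ↥K0 →
    ∀ (O : ValuationSubring ↥K0) [IsDiscreteValuationRing ↥O],
      (q : ↥O) ∈ IsLocalRing.maximalIdeal ↥O → ∀ ϖ : ↥O, Irreducible ϖ →
      letI := s18_algOF ↥O ↥K0 (M * q)
      ∀ V : ValuationSubring ↥(s18_F ↥K0 (M * q)),
        (∀ a : ↥O, algebraMap ↥O ↥(s18_F ↥K0 (M * q)) a ∈ V) → s18_j ↥K0 (M * q) ∈ V →
        algebraMap ↥O ↥(s18_F ↥K0 (M * q)) ϖ ∈ V.nonunits →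
        (∀ P : (↥O)[X], P.map (IsLocalRing.residue ↥O) ≠ 0 →
          aeval (s18_j ↥K0 (M * q)) P ∉ V.nonunits) →
        V = s34g_V ↥O ↥K0 (M * q) ∨ V = s34g_V0 ↥O (s34w_W M q K0 hq hM)

/-- **[K-ISW]** from [SS-INT] and [COUNT] (C1). -/
theorem s34iw_kmain_of (hI : s34iw_IntStatement) (hC : s34iw_C1Statement) :
    s34km_IsWStatement := by
  intro M q _ _ _ hq hM h49 K0 hK0 O _ hqO ϖ hϖ
  haveI : Fact q.Prime := ⟨hq⟩
  letI := s18_algOF ↥O ↥K0 (M * q)
  obtain ⟨hint, hint'⟩ := hI M q hq hM h49 K0 hK0 O hqO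
  haveI hfin : FiniteDimensional ↥(↥K0)⟮s18_j ↥K0 (M * q) *
      s34g_jd ↥K0 (M * q) q (dvd_mul_left q M)⟯ ↥(s18_F ↥K0 (M * q)) :=
    s34km_finite ↥K0 (M * q) q (dvd_mul_left q M)
  exact s34iw_W2 (O := ↥O) (K := ↥K0) (N := M * q) q (dvd_mul_left q M)
    (s34w_W M q K0 hq hM) (s34w_W_j hq hM) (s34w_W_jq hq hM) hϖ
    (s34km_transc ↥K0 (M * q) q (dvd_mul_left q M))
    (Algebra.IsAlgebraic.of_finite _ _) hint hint'
    (hC M q hq hM h49 K0 hK0 O hqO ϖ hϖ)

end Fermat.Agent.S34
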