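/-
S34, THE LAST WIRING, statement (2) [K-ISW] (helper28).  Prefix `s34iw_`.

    theorem s34iw_c1_main      : s34iw_C1Statement          (= helper26's `s34co_unique'` at the model)
    theorem s34iw_kmain_of_int : s34iw_IntStatement → s34km_IsWStatement

so that the only input left of `s34km_IsWStatement` is [SS-INT] (`j_q` integral over `O[j]`, `j`
integral over `O[j_q]`).
-/
import Mathlib
import Fermat.Agent.S34.IsWKMain
import Fermat.Agent.S34.CountMain

set_option autoImplicit false
set_option linter.style.haveILetI false
set_option linter.unusedSectionVars false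
set_option linter.unusedVariables false
set_option synthInstance.maxHeartbeats 400000

open Polynomial IntermediateField AlgebraicCurve ModularCurve

noncomputable section

namespace Fermat.Agent.S34

open Fermat.Agent.S18

/-- **[COUNT] (C1)** at the model. -/
theorem s34iw_c1_main : s34iw_C1Statement := by
  intro M q _ _ _ hq hM h49 K0 hK0 O _ hqO ϖ hϖ
  haveI : Fact q.Prime := ⟨hq⟩
  exact s34co_unique' (O := ↥O) (K := ↥K0) (s34w_W M q K0 hq hM) hM hqO hϖ
    (s34w_W_W hq hM) (s34w_W_j hq hM)

/-- **[K-ISW]** from [SS-INT] alone. -/
theorem s34iw_kmain_of_int (hI : s34iw_IntStatement) : s34km_IsWStatement :=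
  s34iw_kmain_of hI s34iw_c1_main

end Fermat.Agent.S34
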