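/-
S34, leaf [SS-INT], the series part (owner: helper17).  Prefix `s34in_`.

* `s34in_ev x y : A[X][Y] →+* S`: evaluation of a bivariate polynomial at a pair of elements of
  an `A`-algebra `S`; `s34in_ev_nat`: naturality under ring homomorphisms.
* `s34in_ser_zero`: over a field `κ` of characteristic `q`, a polynomial `R ∈ κ[X][Y]` of
  `Y`-degree `≤ q` with `R(j̄, j̄(Q^q)) = 0 = R(j̄(Q^q), j̄)` is zero
  (`j̄(Q^q) = j̄^q`, `j̄` is transcendental, and `s34in_poly_zero`).
-/
import Mathlib
import Fermat.Agent.S34.SsIntPoly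
import Fermat.Agent.S18.GaussQOfBasic
import Fermat.Agent.S37.EsCong

set_option autoImplicit false

open ModularCurve

noncomputable section

namespace Fermat.Agent.S34

open Polynomial

section Ev

variable {A S : Type*} [CommRing A] [CommRing S] [Algebra A S]

/-- Evaluation of a bivariate polynomial `P(X, Y) ∈ A[X][Y]` at `(x, y) ∈ S × S`. -/
def s34in_ev (x y : S) : A[X][X] →+* S :=
  Polynomial.eval₂RingHom (Polynomial.aeval x : A[X] →ₐ[A] S).toRingHom y

theorem s34in_ev_apply (x y : S) (P : A[X][X]) :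
    s34in_ev x y P = P.eval₂ (Polynomial.aeval x : A[X] →ₐ[A] S).toRingHom y := rfl

@[simp] theorem s34in_ev_C (x y : S) (p : A[X]) : s34in_ev x y (C p) = aeval x p := by
  rw [s34in_ev_apply, eval₂_C]
  rfl

@[simp] theorem s34in_ev_X (x y : S) : s34in_ev (A := A) x y X = y := by
  rw [s34in_ev_apply, eval₂_X]

theorem s34in_ev_C_C (x y : S) (a : A) : s34in_ev x y (C (C a)) = algebraMap A S a := by
  rw [s34in_ev_C, aeval_C]

theorem s34in_ev_C_X (x y : S) : s34in_ev (A := A) x y (C X) = x := by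
  rw [s34in_ev_C, aeval_X]

/-- **Naturality** of the evaluation. -/
theorem s34in_ev_nat {B T : Type*} [CommRing B] [CommRing T] [Algebra B T] (f : A →+* B)
    (φ : S →+* T) (hφ : ∀ a, φ (algebraMap A S a) = algebraMap B T (f a)) (x y : S)
    (P : A[X][X]) :
    φ (s34in_ev x y P) = s34in_ev (φ x) (φ y) (P.map (mapRingHom f)) := by
  have key : φ.comp (s34in_ev x y) =
      (s34in_ev (φ x) (φ y)).comp (mapRingHom (mapRingHom f)) := by
    refine Polynomial.ringHom_ext' ?_ ?_
    · refine Polynomial.ringHom_ext' ?_ ?_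
      · ext a
        simp only [RingHom.comp_apply, coe_mapRingHom, map_C, s34in_ev_C_C]
        exact hφ a
      · simp only [RingHom.comp_apply, coe_mapRingHom, map_C, map_X, s34in_ev_C_X]
    · simp only [RingHom.comp_apply, coe_mapRingHom, map_X, s34in_ev_X]
  exact RingHom.congr_fun key P

/-- Evaluation at a pair of polynomials in `t`. -/
theorem s34in_ev_aeval (t : S) (u v : A[X]) (P : A[X][X]) :
    s34in_ev (aeval t u) (aeval t v) P = aeval t (s34in_ev u v P) := by
  have h := s34in_ev_nat (RingHom.id A) (aeval t : A[X] →ₐ[A] S).toRingHom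
    (fun a => by
      show aeval t (algebraMap A A[X] a) = _
      rw [AlgHom.commutes]
      rfl) u v P
  have h2 : P.map (mapRingHom (RingHom.id A)) = P := by
    rw [mapRingHom_id]
    exact Polynomial.map_id
  rw [h2] at h
  exact h.symm

end Ev

section Ser

variable (κ : Type*) [Field κ]

/-- `j̄(Q^q) = j̄^q` in characteristic `q`. -/
theorem s34in_jq_pow (q : ℕ) [NeZero q] [Fact q.Prime] [CharP κ q] :
    qExpand κ q (jqModC κ) = (jqModC κ) ^ q := by
  rw [Fermat.Agent.S37.s37cg_frob q (jqModC κ), coeffMap_jqModC]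

/-- **The series part of [SS-INT].** -/
theorem s34in_ser_zero (q : ℕ) [NeZero q] [Fact q.Prime] [CharP κ q] (R : κ[X][X])
    (hdeg : R.natDegree ≤ q)
    (h1 : s34in_ev (jqModC κ) (qExpand κ q (jqModC κ)) R = 0)
    (h2 : s34in_ev (qExpand κ q (jqModC κ)) (jqModC κ) R = 0) : R = 0 := by
  have htr : Function.Injective (aeval (jqModC κ) : κ[X] →ₐ[κ] LaurentSeries κ) :=
    transcendental_iff_injective.1 (Fermat.Agent.S18.s18gq_transc_jq κ)
  have hq2 : 2 ≤ q := (Fact.out : q.Prime).two_le
  rw [s34in_jq_pow κ q] at h1 h2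
  have e1 : s34in_ev (jqModC κ) ((jqModC κ) ^ q) R =
      aeval (jqModC κ) (s34in_ev (X : κ[X]) (X ^ q) R) := by
    rw [← s34in_ev_aeval, aeval_X, map_pow, aeval_X]
  have e2 : s34in_ev ((jqModC κ) ^ q) (jqModC κ) R =
      aeval (jqModC κ) (s34in_ev (X ^ q : κ[X]) X R) := by
    rw [← s34in_ev_aeval, aeval_X, map_pow, aeval_X]
  rw [e1] at h1
  rw [e2] at h2
  have h1' : s34in_ev (X : κ[X]) (X ^ q) R = 0 := htr (by rw [h1, map_zero])
  have h2' : s34in_ev (X ^ q : κ[X]) X R = 0 := htr (by rw [h2, map_zero])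
  refine s34in_poly_zero q hq2 R hdeg ?_ ?_
  · rw [← h1', s34in_ev_apply]
    have : (aeval (X : κ[X]) : κ[X] →ₐ[κ] κ[X]).toRingHom = RingHom.id κ[X] := by
      refine Polynomial.ringHom_ext' ?_ ?_
      · ext a
        simp
      · simp
    rw [this]
    rfl
  · rw [← h2', s34in_ev_apply, eval_map]
    have : (aeval (X ^ q : κ[X]) : κ[X] →ₐ[κ] κ[X]).toRingHom =
        (expand κ q : κ[X] →+* κ[X]) := by
      refine Polynomial.ringHom_ext' ?_ ?_
      · ext a
        simp
      · simp
    rw [this]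

end Ser

end Fermat.Agent.S34
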