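/-
S34, leaf [SS-INT], existence of the modular relation (owner: helper17).  Prefix `s34in_`.

`s34in_exists_poly`: for a prime `q` there is a MONIC `P ∈ ℚ[X][Y]` of `Y`-degree `≤ q + 1` with
`P(j, j(Q^q)) = 0 = P(j(Q^q), j)` in `ℚ((Q))`.

* over `Q̄`: the characteristic polynomial of `j(qz)` over `Q̄[j]` (S24 `anD_exists_charPoly_bridge`
  + `anD_descent_poly`, degree `= [SL₂(ℤ) : Γ₀(q)] = q + 1`), at the level `1 * q`;
* the Atkin-Lehner involution (S37 `s37al_Wser`) swaps `j` and `j(qz)`: the second relation;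
* a `ℚ`-linear retraction `Q̄ → ℚ` applied coefficientwise (S18 `s18gq_polyDual`) descends both
  relations to `ℚ`.
-/
import Mathlib
import Fermat.Agent.S34.SsIntSer
import Fermat.Agent.S18.GaussQOfIndep
import Fermat.Agent.S24.RingAInt
import Fermat.Agent.S24.TranslateAN
import Fermat.Agent.S24.Bridge
import Fermat.Agent.S24.CombIndex
import Fermat.Agent.S37.AtkinLehner

set_option autoImplicit false

open ModularCurve UpperHalfPlane

noncomputable section

namespace Fermat.Agent.S34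

open Polynomial Fermat.Agent.S24 Fermat.Agent.S37 Fermat.Agent.S18

/-- Naturality of the evaluation under a homomorphism of `A`-algebras. -/
theorem s34in_ev_id {A S T : Type*} [CommRing A] [CommRing S] [CommRing T] [Algebra A S]
    [Algebra A T] (φ : S →+* T) (hφ : ∀ a, φ (algebraMap A S a) = algebraMap A T a) (x y : S)
    (P : A[X][X]) : φ (s34in_ev x y P) = s34in_ev (φ x) (φ y) P := by
  have h := s34in_ev_nat (RingHom.id A) φ hφ x y P
  have h2 : P.map (mapRingHom (RingHom.id A)) = P := by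
    rw [mapRingHom_id]
    exact Polynomial.map_id
  rw [h2] at h
  exact h

/-! ### The relation over `Q̄` -/

/-- The characteristic polynomial of an element of `ringA N` over `Q̄[j]`, as a bivariate
polynomial. -/
theorem s34in_exists_bar (N : ℕ) [NeZero N] (a : ringA N) :
    ∃ P : QBar[X][X], P.Monic ∧ P.natDegree ≤ Nat.card (XN N) ∧ s34in_ev (jA N) a P = 0 := by
  classical
  let _ : Fintype (XN N) := Fintype.ofFinite (XN N)
  obtain ⟨Θ₀, π, hΘ⟩ := bridge N
  obtain ⟨P, hP0, -, hroot⟩ := anD_exists_charPoly_bridge hΘ anB_growth a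
  set n := Fintype.card (XN N) with hn
  have h1 : ∀ z : ℍ, ∑ k ∈ Finset.range (n + 1),
      (Polynomial.C ((-1 : ℂ) ^ k) * P k).eval (jfun z) * Θ₀ (a ^ (n - k)) z = 0 := by
    intro z
    rw [← hroot z]
    refine Finset.sum_congr rfl fun k _ => ?_
    rw [Polynomial.eval_mul, Polynomial.eval_C, map_pow, Pi.pow_apply]
    ring
  have h2 := anD_descent_poly hΘ (Finset.range (n + 1))
    (fun k => Polynomial.C ((-1 : ℂ) ^ k) * P k) (fun k => a ^ (n - k)) h1
  let qk : ℕ → QBar[X] := fun k => anD_piPoly π (Polynomial.C ((-1 : ℂ) ^ k) * P k)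
  have hq0 : qk 0 = 1 := by
    simp only [qk, pow_zero, map_one, one_mul, hP0]
    exact anD_piPoly_one hΘ
  let p : QBar[X][X] := ∑ k ∈ Finset.range (n + 1), Polynomial.C (qk k) * Polynomial.X ^ (n - k)
  have hdeg : p.natDegree ≤ n := by
    refine Polynomial.natDegree_sum_le_of_forall_le _ _ fun k _ => ?_
    exact (Polynomial.natDegree_C_mul_X_pow_le _ _).trans (Nat.sub_le n k)
  have hcoeff : p.coeff n = 1 := by
    simp only [p, Polynomial.finsetSum_coeff, Polynomial.coeff_C_mul_X_pow]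
    rw [Finset.sum_eq_single 0]
    · simp [hq0]
    · intro k hk hk0
      have hk' : k ≤ n := Nat.lt_succ_iff.mp (Finset.mem_range.mp hk)
      have : n ≠ n - k := by omega
      simp [this]
    · intro h
      exact absurd (Finset.mem_range.mpr (Nat.succ_pos n)) h
  have hmonic : p.Monic := Polynomial.monic_of_natDegree_le_of_coeff_eq_one n hdeg hcoeff
  refine ⟨p, hmonic, ?_, ?_⟩
  · rw [Nat.card_eq_fintype_card]
    exact hdeg
  · have h3 : s34in_ev (jA N) a p =
        ∑ k ∈ Finset.range (n + 1), aeval (jA N) (qk k) * a ^ (n - k) := by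
      simp only [p, map_sum, map_mul, map_pow, s34in_ev_C, s34in_ev_X]
    exact h3.trans h2

theorem s34in_card (q : ℕ) (hq : q.Prime) : Nat.card (XN (1 * q)) = q + 1 := by
  have h1 := Comb.card_X (1 * q) (by simp [hq.ne_zero])
  have h2 := Comb.dedekindPsi_prime_pow hq 0
  rw [one_mul] at h1 ⊢
  rw [zero_add, pow_one, pow_zero] at h2
  rw [← h2]
  exact h1

/-- The two relations over `Q̄`. -/
theorem s34in_exists_bar' (q : ℕ) [NeZero q] (hq : q.Prime) :
    ∃ P : QBar[X][X], P.Monic ∧ P.natDegree ≤ q + 1 ∧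
      s34in_ev (jLaurent 1) (jLaurent q) P = 0 ∧ s34in_ev (jLaurent q) (jLaurent 1) P = 0 := by
  have hne : NeZero (1 * q) := ⟨by simp [NeZero.ne q]⟩
  obtain ⟨P, hmonic, hdeg, hrel⟩ :=
    s34in_exists_bar (1 * q) (jDivA (1 * q) q (dvd_mul_left q 1))
  rw [s34in_card q hq] at hdeg
  refine ⟨P, hmonic, hdeg, ?_, ?_⟩
  · -- the inclusion `ringA → Q̄((q))`
    have h := congrArg (fun z : ringA (1 * q) => ((z : FunField (1 * q)) : LaurentSeries QBar))
      hrel
    have h3 := s34in_ev_id (A := QBar)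
      (((algebraMap (FunField (1 * q)) (LaurentSeries QBar)).comp
        (algebraMap (ringA (1 * q)) (FunField (1 * q)))))
      (fun a => rfl) (jA (1 * q)) (jDivA (1 * q) q (dvd_mul_left q 1)) P
    exact h3.symm.trans h
  · -- the Atkin-Lehner involution
    have hxy : (1 : ℤ) * (q : ℤ) - ((q : ℤ) - 1) * ((1 : ℕ) : ℤ) = 1 := by
      push_cast
      ring
    have h := congrArg (fun z : ringA (1 * q) =>
      s37al_Wser 1 q 1 ((q : ℤ) - 1) hxy (z : FunField (1 * q))) hrel
    have h3 := s34in_ev_id (A := QBar)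
      ((s37al_Wser 1 q 1 ((q : ℤ) - 1) hxy).comp
        (algebraMap (ringA (1 * q)) (FunField (1 * q))))
      (fun a => s37al_Wser_algebraMap 1 q 1 ((q : ℤ) - 1) hxy a)
      (jA (1 * q)) (jDivA (1 * q) q (dvd_mul_left q 1)) P
    have e1 : ((s37al_Wser 1 q 1 ((q : ℤ) - 1) hxy).comp
        (algebraMap (ringA (1 * q)) (FunField (1 * q)))) (jA (1 * q)) = jLaurent q :=
      s37al_Wser_jDiv 1 q 1 ((q : ℤ) - 1) hxy 1 q 1 1 1 q (one_mul 1) (one_mul q)
        (one_mul 1).symm (one_mul q).symm (one_dvd (1 * q))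
    have e2 : ((s37al_Wser 1 q 1 ((q : ℤ) - 1) hxy).comp
        (algebraMap (ringA (1 * q)) (FunField (1 * q))))
        (jDivA (1 * q) q (dvd_mul_left q 1)) = jLaurent 1 :=
      s37al_Wser_jDiv 1 q 1 ((q : ℤ) - 1) hxy q 1 1 1 q 1 (one_mul 1) (mul_one q)
        (one_mul q).symm (one_mul 1).symm (dvd_mul_left q 1)
    rw [e1, e2] at h3
    rw [← h3]
    simpa using h

/-! ### Descent to `ℚ` -/

section Descent

variable (L : Type*) [Field L] [Algebra ℚ L]

theorem s34in_descent (x y : LaurentSeries ℚ) (P : L[X][X]) (hmonic : P.Monic) (n : ℕ)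
    (hdeg : P.natDegree ≤ n)
    (h1 : s34in_ev (coeffEmb L x) (coeffEmb L y) P = 0)
    (h2 : s34in_ev (coeffEmb L y) (coeffEmb L x) P = 0) :
    ∃ P' : ℚ[X][X], P'.Monic ∧ P'.natDegree ≤ n ∧ s34in_ev x y P' = 0 ∧
      s34in_ev y x P' = 0 := by
  classical
  obtain ⟨ρ, hρ⟩ := LinearMap.exists_leftInverse_of_injective (Algebra.linearMap ℚ L)
    (LinearMap.ker_eq_bot.2 (algebraMap ℚ L).injective)
  have hρ1 : ρ 1 = 1 := by
    have := LinearMap.congr_fun hρ 1
    simpa using this
  set m := P.natDegree with hm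
  set P' : ℚ[X][X] := ∑ k ∈ Finset.range (m + 1), C (s18gq_polyDual ρ (P.coeff k)) * X ^ k
    with hP'
  have hdeg' : P'.natDegree ≤ m := by
    refine Polynomial.natDegree_sum_le_of_forall_le _ _ fun k hk => ?_
    exact (Polynomial.natDegree_C_mul_X_pow_le _ _).trans
      (Nat.lt_succ_iff.mp (Finset.mem_range.mp hk))
  have hcoeff : P'.coeff m = 1 := by
    rw [hP', Polynomial.finsetSum_coeff]
    rw [Finset.sum_eq_single m]
    · rw [coeff_C_mul_X_pow, if_pos rfl, hm, hmonic.coeff_natDegree]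
      ext i
      rw [s18gq_polyDual_coeff, coeff_one, coeff_one]
      split_ifs
      · exact hρ1
      · exact map_zero ρ
    · intro k _ hk
      rw [coeff_C_mul_X_pow, if_neg (Ne.symm hk)]
    · intro h
      exact absurd (Finset.mem_range.mpr (Nat.lt_succ_self m)) h
  have hmonic' : P'.Monic := Polynomial.monic_of_natDegree_le_of_coeff_eq_one m hdeg' hcoeff
  have key : ∀ x' y' : LaurentSeries ℚ, ∀ t : ℤ,
      (s34in_ev x' y' P').coeff t = ρ ((s34in_ev (coeffEmb L x') (coeffEmb L y') P).coeff t) := by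
    intro x' y' t
    have e1 : s34in_ev x' y' P' =
        ∑ k ∈ Finset.range (m + 1), aeval x' (s18gq_polyDual ρ (P.coeff k)) * y' ^ k := by
      rw [hP']
      simp only [map_sum, map_mul, map_pow, s34in_ev_C, s34in_ev_X]
    have e2 : s34in_ev (coeffEmb L x') (coeffEmb L y') P =
        ∑ k ∈ Finset.range (m + 1), aeval (coeffEmb L x') (P.coeff k) * (coeffEmb L y') ^ k := by
      rw [s34in_ev_apply, eval₂_eq_sum_range]
      rfl
    rw [e1, e2, HahnSeries.coeff_sum, HahnSeries.coeff_sum, map_sum]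
    refine Finset.sum_congr rfl fun k _ => ?_
    rw [← map_pow]
    exact (s18gq_dual_coeff ρ x' (y' ^ k) (P.coeff k) t).symm
  refine ⟨P', hmonic', hdeg'.trans hdeg, ?_, ?_⟩
  · ext t
    rw [key, h1, HahnSeries.coeff_zero, map_zero, HahnSeries.coeff_zero]
  · ext t
    rw [key, h2, HahnSeries.coeff_zero, map_zero, HahnSeries.coeff_zero]

end Descent

/-- **The modular relation over `ℚ`.** -/
theorem s34in_exists_poly (q : ℕ) [NeZero q] (hq : q.Prime) :
    ∃ P : ℚ[X][X], P.Monic ∧ P.natDegree ≤ q + 1 ∧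
      s34in_ev (jqModC ℚ) (qExpand ℚ q (jqModC ℚ)) P = 0 ∧
      s34in_ev (qExpand ℚ q (jqModC ℚ)) (jqModC ℚ) P = 0 := by
  obtain ⟨P, hmonic, hdeg, h1, h2⟩ := s34in_exists_bar' q hq
  have e1 : jLaurent 1 = coeffEmb QBar (jqModC ℚ) := by
    rw [jLaurent, qExpand_one_apply, jqModC_rat]
  have eq : jLaurent q = coeffEmb QBar (qExpand ℚ q (jqModC ℚ)) := by
    rw [jLaurent, jqModC_rat]
  rw [e1, eq] at h1 h2
  exact s34in_descent QBar _ _ P hmonic (q + 1) hdeg h1 h2

end Fermat.Agent.S34
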