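/-
S34, leaf [SS-INT], the reduction lemma (owner: helper17).  Prefix `s34in_`.

`s34in_red`: `O` a valuation ring with fraction field `K` and residue characteristic `q`;
a MONIC `P ∈ K[X][Y]` of `Y`-degree `≤ q + 1` with `P(j, j(Q^q)) = 0 = P(j(Q^q), j)` in `K((Q))`
has all its coefficients in `O`.

(If not, divide by a coefficient `c₀` of maximal valuation: `P / c₀ ∈ O[X][Y]`, its reduction `R`
is nonzero of `Y`-degree `≤ q` - the leading coefficient `1 / c₀` dies - and satisfies both
relations over the residue field: contradiction with `s34in_ser_zero`.)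
-/
import Mathlib
import Fermat.Agent.S34.SsIntSer

set_option autoImplicit false

open ModularCurve

noncomputable section

namespace Fermat.Agent.S34

open Polynomial

section Lift

variable {A B : Type*} [CommRing A] [CommRing B]

/-- A bivariate polynomial all of whose coefficients lift, lifts. -/
theorem s34in_lift (f : A →+* B) (P : B[X][X])
    (h : ∀ k i, ∃ a : A, f a = (P.coeff k).coeff i) :
    ∃ P' : A[X][X], P'.map (mapRingHom f) = P := by
  have h1 : P ∈ lifts (mapRingHom f) := by
    rw [lifts_iff_coeff_lifts]
    intro k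
    have hk : P.coeff k ∈ lifts f := by
      rw [lifts_iff_coeff_lifts]
      intro i
      obtain ⟨a, ha⟩ := h k i
      exact ⟨a, ha⟩
    obtain ⟨p, hp⟩ := (mem_lifts _).1 hk
    exact ⟨p, hp⟩
  exact (mem_lifts _).1 h1

theorem s34in_coeff_map₂ (f : A →+* B) (P : A[X][X]) (k i : ℕ) :
    ((P.map (mapRingHom f)).coeff k).coeff i = f ((P.coeff k).coeff i) := by
  rw [coeff_map, coe_mapRingHom, coeff_map]

theorem s34in_algebraMap_eq_C (c : A) :
    algebraMap A (LaurentSeries A) c = HahnSeries.C c := by
  have h1 : algebraMap A (PowerSeries A) c = PowerSeries.C c := by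
    simp
  rw [HahnSeries.algebraMap_apply', h1, HahnSeries.ofPowerSeries_C]

/-- Naturality of the evaluation under `coeffMap`. -/
theorem s34in_ev_coeffMap (f : A →+* B) (x y : LaurentSeries A) (P : A[X][X]) :
    coeffMap f (s34in_ev x y P) =
      s34in_ev (coeffMap f x) (coeffMap f y) (P.map (mapRingHom f)) :=
  s34in_ev_nat f (coeffMap f) (fun a => by
    rw [s34in_algebraMap_eq_C, s34in_algebraMap_eq_C]
    exact Fermat.Agent.S18.s18gq_coeffMap_C f a) x y P

end Lift

section Red

variable {O : Type*} (K : Type*) [CommRing O] [IsDomain O] [ValuationRing O] [Field K]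
  [Algebra O K] [IsFractionRing O K]

theorem s34in_mem_max_of_val_lt (a : O)
    (h : ValuationRing.valuation O K (algebraMap O K a) < 1) :
    a ∈ IsLocalRing.maximalIdeal O := by
  rw [IsLocalRing.mem_maximalIdeal, mem_nonunits_iff]
  intro hu
  obtain ⟨b, hb⟩ := hu.exists_right_inv
  have h1 : ValuationRing.valuation O K (algebraMap O K a) *
      ValuationRing.valuation O K (algebraMap O K b) = 1 := by
    rw [← map_mul, ← map_mul, hb, map_one, map_one]
  have h2 : ValuationRing.valuation O K (algebraMap O K b) ≤ 1 :=
    (Valuation.mem_integer_iff _ _).1 ((ValuationRing.mem_integer_iff O K _).2 ⟨b, rfl⟩)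
  have h3 : ValuationRing.valuation O K (algebraMap O K a) *
      ValuationRing.valuation O K (algebraMap O K b) ≤
      ValuationRing.valuation O K (algebraMap O K a) * 1 := mul_le_mul' le_rfl h2
  rw [h1, mul_one] at h3
  exact absurd h (not_lt.2 h3)

variable {K}

/-- **The reduction lemma of [SS-INT].** -/
theorem s34in_red (q : ℕ) [NeZero q] [Fact q.Prime]
    (hq : (q : O) ∈ IsLocalRing.maximalIdeal O)
    (P : K[X][X]) (hmonic : P.Monic) (hdeg : P.natDegree ≤ q + 1)
    (h1 : s34in_ev (jqModC K) (qExpand K q (jqModC K)) P = 0)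
    (h2 : s34in_ev (qExpand K q (jqModC K)) (jqModC K) P = 0) :
    ∃ P' : O[X][X], P'.map (mapRingHom (algebraMap O K)) = P := by
  classical
  set v := ValuationRing.valuation O K with hv
  let c : ℕ × ℕ → K := fun p => (P.coeff p.1).coeff p.2
  set n := P.natDegree with hn
  let D := (Finset.range (n + 1)).sup (fun k => (P.coeff k).natDegree)
  let s := Finset.range (n + 1) ×ˢ Finset.range (D + 1)
  have hs0 : ∀ p, p ∉ s → c p = 0 := by
    rintro ⟨k, i⟩ hp
    simp only [s, Finset.mem_product, Finset.mem_range, not_and_or, not_lt] at hp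
    show (P.coeff k).coeff i = 0
    rcases hp with hk | hi
    · rw [coeff_eq_zero_of_natDegree_lt (show P.natDegree < k by omega), coeff_zero]
    · by_cases hk : k < n + 1
      · apply coeff_eq_zero_of_natDegree_lt
        have : (P.coeff k).natDegree ≤ D :=
          Finset.le_sup (f := fun k => (P.coeff k).natDegree) (Finset.mem_range.2 hk)
        omega
      · rw [coeff_eq_zero_of_natDegree_lt (show P.natDegree < k by omega), coeff_zero]
  have hsne : s.Nonempty := ⟨(n, 0), by simp [s]⟩
  obtain ⟨p₀, hp₀s, hp₀⟩ := Finset.exists_max_image s (fun p => v (c p)) hsne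
  have hcn : c (n, 0) = 1 := by
    show (P.coeff n).coeff 0 = 1
    rw [hn, hmonic.coeff_natDegree, coeff_one_zero]
  have hmax : ∀ p, v (c p) ≤ v (c p₀) := by
    intro p
    by_cases hp : p ∈ s
    · exact hp₀ p hp
    · rw [hs0 p hp, map_zero]
      exact zero_le
  have h1le : 1 ≤ v (c p₀) := by
    have := hmax (n, 0)
    rwa [hcn, map_one] at this
  have hc0 : c p₀ ≠ 0 := by
    intro h
    rw [h, map_zero] at h1le
    exact absurd h1le (not_le.2 zero_lt_one)
  have hvc0 : v (c p₀) ≠ 0 := fun h => hc0 ((map_eq_zero v).1 h)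
  by_cases hle : v (c p₀) ≤ 1
  · -- all coefficients are integral
    apply s34in_lift
    intro k i
    have : v (c (k, i)) ≤ 1 := (hmax (k, i)).trans hle
    exact (ValuationRing.mem_integer_iff O K _).1 ((Valuation.mem_integer_iff _ _).2 this)
  · exfalso
    rw [not_le] at hle
    -- the scaled polynomial
    set P₁ : K[X][X] := C (C (c p₀)⁻¹) * P with hP₁
    have hcoef : ∀ k i, (P₁.coeff k).coeff i = (c p₀)⁻¹ * c (k, i) := by
      intro k i
      rw [hP₁, coeff_C_mul, coeff_C_mul]
    have hint : ∀ k i, v ((P₁.coeff k).coeff i) ≤ 1 := by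
      intro k i
      rw [hcoef, map_mul, map_inv₀, inv_mul_le_iff₀ (zero_lt_iff.2 hvc0), mul_one]
      exact hmax (k, i)
    obtain ⟨P', hP'⟩ := s34in_lift (algebraMap O K) P₁ (fun k i =>
      (ValuationRing.mem_integer_iff O K _).1 ((Valuation.mem_integer_iff _ _).2 (hint k i)))
    have hinj : Function.Injective (algebraMap O K) := IsFractionRing.injective O K
    have hP'coef : ∀ k i, algebraMap O K ((P'.coeff k).coeff i) = (c p₀)⁻¹ * c (k, i) := by
      intro k i
      rw [← hcoef, ← hP', s34in_coeff_map₂]
    -- the reduction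
    set R : (IsLocalRing.ResidueField O)[X][X] :=
      P'.map (mapRingHom (IsLocalRing.residue O)) with hR
    have hRcoef : ∀ k i, (R.coeff k).coeff i = IsLocalRing.residue O ((P'.coeff k).coeff i) := by
      intro k i
      rw [hR, s34in_coeff_map₂]
    have hRne : R ≠ 0 := by
      intro h
      have h3 := hRcoef p₀.1 p₀.2
      rw [h, coeff_zero, coeff_zero] at h3
      have h4 : (P'.coeff p₀.1).coeff p₀.2 = 1 := by
        apply hinj
        rw [hP'coef, map_one]
        exact inv_mul_cancel₀ hc0
      rw [h4, map_one] at h3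
      exact zero_ne_one h3
    have hRdeg : R.natDegree ≤ q := by
      rw [natDegree_le_iff_coeff_eq_zero]
      intro k hk
      ext i
      rw [hRcoef, coeff_zero, IsLocalRing.residue_eq_zero_iff]
      apply s34in_mem_max_of_val_lt K
      rw [hP'coef, map_mul, map_inv₀]
      have hck : v (c (k, i)) ≤ 1 := by
        show v ((P.coeff k).coeff i) ≤ 1
        by_cases hkn : n < k
        · rw [coeff_eq_zero_of_natDegree_lt hkn, coeff_zero, map_zero]
          exact zero_le
        · have hkn' : k = n := by omega
          rw [hkn', hn, hmonic.coeff_natDegree, coeff_one]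
          split_ifs
          · rw [map_one]
          · rw [map_zero]
            exact zero_le
      rw [inv_mul_lt_iff₀ (zero_lt_iff.2 hvc0), mul_one]
      exact lt_of_le_of_lt hck hle
    -- the residue characteristic
    have hchar : CharP (IsLocalRing.ResidueField O) q := by
      rw [CharP.charP_iff_prime_eq_zero Fact.out]
      have := (IsLocalRing.residue_eq_zero_iff (q : O)).2 hq
      rwa [map_natCast] at this
    -- the relations
    have hP₁1 : s34in_ev (jqModC K) (qExpand K q (jqModC K)) P₁ = 0 := by
      rw [hP₁, map_mul, h1, mul_zero]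
    have hP₁2 : s34in_ev (qExpand K q (jqModC K)) (jqModC K) P₁ = 0 := by
      rw [hP₁, map_mul, h2, mul_zero]
    have hO1 : s34in_ev (jqModC O) (qExpand O q (jqModC O)) P' = 0 := by
      apply Fermat.Agent.S18.s18gq_coeffMap_injective (algebraMap O K) hinj
      rw [s34in_ev_coeffMap, hP', coeffMap_qExpand, coeffMap_jqModC, hP₁1, map_zero]
    have hO2 : s34in_ev (qExpand O q (jqModC O)) (jqModC O) P' = 0 := by
      apply Fermat.Agent.S18.s18gq_coeffMap_injective (algebraMap O K) hinj
      rw [s34in_ev_coeffMap, hP', coeffMap_qExpand, coeffMap_jqModC, hP₁2, map_zero]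
    have hR1 : s34in_ev (jqModC (IsLocalRing.ResidueField O))
        (qExpand (IsLocalRing.ResidueField O) q (jqModC (IsLocalRing.ResidueField O))) R = 0 := by
      have := congrArg (coeffMap (IsLocalRing.residue O)) hO1
      rw [s34in_ev_coeffMap, coeffMap_qExpand, coeffMap_jqModC, map_zero] at this
      exact this
    have hR2 : s34in_ev
        (qExpand (IsLocalRing.ResidueField O) q (jqModC (IsLocalRing.ResidueField O)))
        (jqModC (IsLocalRing.ResidueField O)) R = 0 := by
      have := congrArg (coeffMap (IsLocalRing.residue O)) hO2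
      rw [s34in_ev_coeffMap, coeffMap_qExpand, coeffMap_jqModC, map_zero] at this
      exact this
    exact hRne (s34in_ser_zero _ q R hRdeg hR1 hR2)

end Red

end Fermat.Agent.S34
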