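/-
S34, THE LAST WIRING, statement (2) [K-ISW], the input [SS-INT] (helper28, second seat of
helper17).  Prefix `s34iw_`.

    theorem s34iw_int_abs  : `j_q` is integral over `O[j]` and `j` is integral over `O[j_q]`
    theorem s34iw_int_main : s34iw_IntStatement
    theorem s34iw_kmain    : s34km_IsWStatement

from helper17's `s34in_exists_poly` (the modular relation `P ∈ ℚ[X][Y]`, monic of `Y`-degree
`≤ q + 1`, `P(j, j_q) = 0 = P(j_q, j)`) and `s34in_red` (its coefficients are integral at every
valuation ring of residue characteristic `q`).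
-/
import Mathlib
import Fermat.Agent.S34.IsWKC1
import Fermat.Agent.S34.SsIntExist
import Fermat.Agent.S34.SsIntRed

set_option autoImplicit false
set_option linter.style.haveILetI false
set_option linter.unusedSectionVars false
set_option linter.unusedVariables false
set_option synthInstance.maxHeartbeats 400000

open Polynomial IntermediateField AlgebraicCurve ModularCurve

noncomputable section

namespace Fermat.Agent.S34

open Fermat.Agent.S18

/-- A root of a bivariate polynomial `P(x, Y)`, monic in `Y`, is integral over `O[x]`. -/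
theorem s34iw_integral_of_ev {O F : Type*} [CommRing O] [CommRing F] [Algebra O F] (x y : F)
    (P : O[X][X]) (hmonic : P.Monic) (h : s34in_ev x y P = 0) :
    IsIntegral ↥(Algebra.adjoin O ({x} : Set F)) y := by
  let x' : ↥(Algebra.adjoin O ({x} : Set F)) :=
    ⟨x, Algebra.subset_adjoin (Set.mem_singleton x)⟩
  let φ : O[X] →+* ↥(Algebra.adjoin O ({x} : Set F)) :=
    (aeval x' : O[X] →ₐ[O] ↥(Algebra.adjoin O ({x} : Set F))).toRingHom
  refine ⟨P.map φ, hmonic.map φ, ?_⟩
  rw [eval₂_map]
  have hcomp : (algebraMap ↥(Algebra.adjoin O ({x} : Set F)) F).comp φ =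
      (aeval x : O[X] →ₐ[O] F).toRingHom := by
    refine Polynomial.ringHom_ext ?_ ?_
    · intro a
      show algebraMap ↥(Algebra.adjoin O ({x} : Set F)) F (aeval x' (C a)) = aeval x (C a)
      rw [aeval_C, aeval_C]
      rfl
    · show algebraMap ↥(Algebra.adjoin O ({x} : Set F)) F (aeval x' X) = aeval x X
      rw [aeval_X, aeval_X]
      rfl
  rw [hcomp]
  exact h

section s34iw_int

variable {O K : Type} [CommRing O] [IsDomain O] [IsDiscreteValuationRing O] [Field K]
  [CharZero K] [Algebra O K] [IsFractionRing O K] {N : ℕ} [NeZero N]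

/-- The modular relation with coefficients in `O`. -/
theorem s34iw_exists_poly (q : ℕ) [NeZero q] [Fact q.Prime]
    (hqO : (q : O) ∈ IsLocalRing.maximalIdeal O) :
    ∃ P : O[X][X], P.Monic ∧
      s34in_ev (jqModC K) (qExpand K q (jqModC K))
        (P.map (mapRingHom (algebraMap O K))) = 0 ∧
      s34in_ev (qExpand K q (jqModC K)) (jqModC K)
        (P.map (mapRingHom (algebraMap O K))) = 0 := by
  obtain ⟨P₀, hmonic, hdeg, h1, h2⟩ := s34in_exists_poly q (Fact.out : q.Prime)
  have hmonicK : (P₀.map (mapRingHom (algebraMap ℚ K))).Monic := hmonic.map _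
  have hdegK : (P₀.map (mapRingHom (algebraMap ℚ K))).natDegree ≤ q + 1 :=
    (natDegree_map_le).trans hdeg
  have h1K : s34in_ev (jqModC K) (qExpand K q (jqModC K))
      (P₀.map (mapRingHom (algebraMap ℚ K))) = 0 := by
    have h := s34in_ev_coeffMap (algebraMap ℚ K) (jqModC ℚ) (qExpand ℚ q (jqModC ℚ)) P₀
    rw [h1, map_zero, coeffMap_qExpand, coeffMap_jqModC] at h
    exact h.symm
  have h2K : s34in_ev (qExpand K q (jqModC K)) (jqModC K)
      (P₀.map (mapRingHom (algebraMap ℚ K))) = 0 := by
    have h := s34in_ev_coeffMap (algebraMap ℚ K) (qExpand ℚ q (jqModC ℚ)) (jqModC ℚ) P₀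
    rw [h2, map_zero, coeffMap_qExpand, coeffMap_jqModC] at h
    exact h.symm
  obtain ⟨P, hP⟩ := s34in_red (O := O) (K := K) q hqO _ hmonicK hdegK h1K h2K
  have hinj : Function.Injective (mapRingHom (algebraMap O K)) :=
    Polynomial.map_injective _ (IsFractionRing.injective O K)
  refine ⟨P, ?_, ?_, ?_⟩
  · apply Polynomial.monic_of_injective hinj
    rw [hP]
    exact hmonicK
  · rw [hP]
    exact h1K
  · rw [hP]
    exact h2K

/-- The evaluation in `F_K(N)` is the evaluation of the `q`-expansions. -/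
theorem s34iw_ev_coe (x y : ↥(s18_F K N)) (P : O[X][X]) :
    letI := s18_algOF O K N
    ((s34in_ev x y P : ↥(s18_F K N)) : LaurentSeries K) =
      s34in_ev (x : LaurentSeries K) (y : LaurentSeries K)
        (P.map (mapRingHom (algebraMap O K))) := by
  letI := s18_algOF O K N
  exact s34in_ev_nat (algebraMap O K) (algebraMap ↥(s18_F K N) (LaurentSeries K))
    (fun a => rfl) x y P

/-- **[SS-INT]** `j_q` is integral over `O[j]` and `j` is integral over `O[j_q]`. -/
theorem s34iw_int_abs (q : ℕ) [NeZero q] [Fact q.Prime] (hqN : q ∣ N)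
    (hqO : (q : O) ∈ IsLocalRing.maximalIdeal O) :
    letI := s18_algOF O K N
    IsIntegral ↥(Algebra.adjoin O ({s18_j K N} : Set ↥(s18_F K N))) (s34g_jd K N q hqN) ∧
      IsIntegral ↥(Algebra.adjoin O ({s34g_jd K N q hqN} : Set ↥(s18_F K N))) (s18_j K N) := by
  letI := s18_algOF O K N
  obtain ⟨P, hmonic, h1, h2⟩ := s34iw_exists_poly (O := O) (K := K) q hqO
  have hj : ((s18_j K N : ↥(s18_F K N)) : LaurentSeries K) = jqModC K := s18gq_j_coe K N
  have hjq : ((s34g_jd K N q hqN : ↥(s18_F K N)) : LaurentSeries K) =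
      qExpand K q (jqModC K) := s34km_jd_coe K N q hqN
  refine ⟨s34iw_integral_of_ev _ _ P hmonic ?_, s34iw_integral_of_ev _ _ P hmonic ?_⟩
  · apply Subtype.ext
    rw [s34iw_ev_coe, hj, hjq, h1]
    rfl
  · apply Subtype.ext
    rw [s34iw_ev_coe, hj, hjq, h2]
    rfl

end s34iw_int

/-- **[SS-INT]** at the model. -/
theorem s34iw_int_main : s34iw_IntStatement := by
  intro M q _ _ _ hq hM h49 K0 hK0 O _ hqO
  haveI : Fact q.Prime := ⟨hq⟩
  exact s34iw_int_abs (O := ↥O) (K := ↥K0) (N := M * q) q (dvd_mul_left q M) hqO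

/-- **[K-ISW]** `theorem … : s34km_IsWStatement`, VERBATIM `S34/KMainDefs.lean`. -/
theorem s34iw_kmain : s34km_IsWStatement :=
  s34iw_kmain_of_int s34iw_int_main

end Fermat.Agent.S34
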