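/-
S34, seam [K-VERT], the sat-only version (owner: helper7).  Prefix `s34kvs_`.
(`S34/KVert.lean`, prefix `s34kv_`, is helper10's version from `hden`.)

THE VERTICAL PRIMES OF A CHART FROM `sat` ALONE.  `B` a domain with fraction field `F`, `π ∈ B`,
`V₁`, `V₂` two valuation subrings of `F` containing `B` in which `π` is a uniformizer
(every `h ≠ 0` is `π ^ c * unit`), such that

* `sat`:  `w ∈ V₁ ∩ V₂`, `π w ∈ B`  ⟹  `w ∈ B`;
* `ne`:   there are `e₁ ∈ B`, a unit of `V₁` and a non-unit of `V₂`, and `e₂ ∈ B`, a unit of `V₂`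
          and a non-unit of `V₁`.

THEN, with `p_i = B ∩ 𝔪_{V_i}`:

* `s34kvs_inter`  `p₁ ∩ p₂ = π B`;
* `s34kvs_loc`    `V_i` is the localisation of `B` at `p_i` (every `x ∈ V_i` is `a / b`, `b ∉ p_i`);
* `s34kvs_all`    every prime of height one of `B` containing `π` is `p₁` or `p₂`;
* `s34kvs_isVert` the structure `s34l1_IsVert O j ϖ W {V₁, V₂}` of `S34/Loc1Chart.lean` for the
                 chart `B = s18_chart O {j}`.

Pure valuation theory; nothing about the model.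
-/
import Mathlib
import Fermat.Agent.S34.Loc1Chart

set_option autoImplicit false

open IntermediateField

noncomputable section

namespace Fermat.Agent.S34

open Fermat.Agent.S18

section val

variable {F : Type*} [Field F] (V : ValuationSubring F)

theorem s34kvs_mul_mem_nonunits {a b : F} (ha : a ∈ V) (hb : b ∈ V.nonunits) :
    a * b ∈ V.nonunits := by
  rw [V.mem_nonunits_iff] at hb ⊢
  rw [map_mul]
  have hc : V.valuation a ≤ 1 := (V.valuation_le_one_iff _).mpr ha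
  calc V.valuation a * V.valuation b ≤ 1 * V.valuation b := mul_le_mul' hc le_rfl
    _ = V.valuation b := one_mul _
    _ < 1 := hb

theorem s34kvs_mem_of_mem_nonunits {a : F} (ha : a ∈ V.nonunits) : a ∈ V := by
  rw [V.mem_nonunits_iff] at ha
  exact (V.valuation_le_one_iff _).mp ha.le

theorem s34kvs_not_mem_nonunits {a : F} (ha' : a⁻¹ ∈ V) (h0 : a ≠ 0) : a ∉ V.nonunits := by
  intro h
  have h1 := s34kvs_mul_mem_nonunits V ha' h
  rw [inv_mul_cancel₀ h0, V.mem_nonunits_iff, map_one] at h1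
  exact lt_irrefl _ h1

theorem s34kvs_inv_mem {a : F} (ha : a ∈ V) (ha' : a ∉ V.nonunits) : a⁻¹ ∈ V := by
  rcases V.mem_or_inv_mem a⁻¹ with h | h
  · exact h
  · rw [inv_inv] at h
    rw [V.mem_nonunits_iff, not_lt] at ha'
    have h1 : V.valuation a ≤ 1 := (V.valuation_le_one_iff _).mpr ha
    have h2 : V.valuation a = 1 := le_antisymm h1 ha'
    rw [← V.valuation_le_one_iff, map_inv₀, h2, inv_one]

theorem s34kvs_pow_mem {π : F} (hπ : π ∈ V.nonunits) (k : ℕ) : π ^ k ∈ V :=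
  pow_mem (s34kvs_mem_of_mem_nonunits V hπ) k

theorem s34kvs_pow_succ_mem_nonunits {π : F} (hπ : π ∈ V.nonunits) (k : ℕ) :
    π ^ (k + 1) ∈ V.nonunits := by
  rw [pow_succ]
  exact s34kvs_mul_mem_nonunits V (s34kvs_pow_mem V hπ k) hπ

/-- An element of `V` is `π ^ k * unit` with `k` a NATURAL number. -/
theorem s34kvs_exists_pow {π : F} (hπ : π ∈ V.nonunits) (hπ0 : π ≠ 0)
    (hunif : ∀ h : F, h ≠ 0 → ∃ (c : ℤ) (h' : F), h' ∈ V ∧ h'⁻¹ ∈ V ∧ h = π ^ c * h')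
    {y : F} (hy : y ∈ V) (hy0 : y ≠ 0) :
    ∃ (k : ℕ) (h' : F), h' ∈ V ∧ h'⁻¹ ∈ V ∧ h' ≠ 0 ∧ y = π ^ k * h' := by
  obtain ⟨c, h', hh, hh', rfl⟩ := hunif y hy0
  have hh0 : h' ≠ 0 := fun h => hy0 (by rw [h, mul_zero])
  obtain ⟨k, rfl | rfl⟩ := Int.eq_nat_or_neg c
  · exact ⟨k, h', hh, hh', hh0, by rw [zpow_natCast]⟩
  · rcases Nat.eq_zero_or_pos k with hk | hk
    · subst hk
      exact ⟨0, h', hh, hh', hh0, by simp⟩
    · exfalso
      obtain ⟨k', rfl⟩ : ∃ k', k = k' + 1 := ⟨k - 1, by omega⟩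
      have h1 : h' = π ^ (-((k' + 1 : ℕ) : ℤ)) * h' * π ^ (k' + 1) := by
        rw [zpow_neg, zpow_natCast]
        field_simp
      have h2 : h' ∈ V.nonunits := by
        rw [h1]
        exact s34kvs_mul_mem_nonunits V hy (s34kvs_pow_succ_mem_nonunits V hπ k')
      exact s34kvs_not_mem_nonunits V hh' hh0 h2

/-- A non-unit of `V` is divisible by `π` in `V`. -/
theorem s34kvs_div {π : F} (hπ : π ∈ V.nonunits) (hπ0 : π ≠ 0)
    (hunif : ∀ h : F, h ≠ 0 → ∃ (c : ℤ) (h' : F), h' ∈ V ∧ h'⁻¹ ∈ V ∧ h = π ^ c * h')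
    {y : F} (hy : y ∈ V.nonunits) : ∃ z ∈ V, y = π * z := by
  by_cases hy0 : y = 0
  · exact ⟨0, zero_mem _, by rw [hy0, mul_zero]⟩
  obtain ⟨k, h', hh, hh', hh0, rfl⟩ :=
    s34kvs_exists_pow V hπ hπ0 hunif (s34kvs_mem_of_mem_nonunits V hy) hy0
  rcases Nat.eq_zero_or_pos k with hk | hk
  · subst hk
    rw [pow_zero, one_mul] at hy
    exact absurd hy (s34kvs_not_mem_nonunits V hh' hh0)
  · obtain ⟨k', rfl⟩ : ∃ k', k = k' + 1 := ⟨k - 1, by omega⟩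
    exact ⟨π ^ k' * h', mul_mem (s34kvs_pow_mem V hπ k') hh, by rw [pow_succ]; ring⟩

end val

section abs

variable {B F : Type*} [CommRing B] [Field F] [Algebra B F] (π : B) (V₁ V₂ : ValuationSubring F)

/-- **`p₁ ∩ p₂ = π B`** (in `F`). -/
theorem s34kvs_inter_aux (hπ0 : algebraMap B F π ≠ 0)
    (hπ₁ : algebraMap B F π ∈ V₁.nonunits) (hπ₂ : algebraMap B F π ∈ V₂.nonunits)
    (hunif₁ : ∀ h : F, h ≠ 0 → ∃ (c : ℤ) (h' : F), h' ∈ V₁ ∧ h'⁻¹ ∈ V₁ ∧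
      h = algebraMap B F π ^ c * h')
    (hunif₂ : ∀ h : F, h ≠ 0 → ∃ (c : ℤ) (h' : F), h' ∈ V₂ ∧ h'⁻¹ ∈ V₂ ∧
      h = algebraMap B F π ^ c * h')
    (hsat : ∀ w : F, w ∈ V₁ → w ∈ V₂ → (∃ b : B, algebraMap B F π * w = algebraMap B F b) →
      ∃ c : B, w = algebraMap B F c)
    (b : B) (h₁ : algebraMap B F b ∈ V₁.nonunits) (h₂ : algebraMap B F b ∈ V₂.nonunits) :
    ∃ c : B, algebraMap B F b = algebraMap B F (π * c) := by
  obtain ⟨z₁, hz₁, e₁⟩ := s34kvs_div V₁ hπ₁ hπ0 hunif₁ h₁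
  obtain ⟨z₂, hz₂, e₂⟩ := s34kvs_div V₂ hπ₂ hπ0 hunif₂ h₂
  have hz : z₁ = z₂ := mul_left_cancel₀ hπ0 (e₁.symm.trans e₂)
  subst hz
  obtain ⟨c, hc⟩ := hsat z₁ hz₁ hz₂ ⟨b, e₁.symm⟩
  exact ⟨c, by rw [map_mul, ← hc, e₁]⟩

/-- **`V₁` is the localisation of `B` at its centre.** -/
theorem s34kvs_loc (hfrac : ∀ z : F, ∃ x y : B, algebraMap B F y ≠ 0 ∧
      z * algebraMap B F y = algebraMap B F x)
    (hB₁ : ∀ b : B, algebraMap B F b ∈ V₁) (hB₂ : ∀ b : B, algebraMap B F b ∈ V₂)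
    (hπ0 : algebraMap B F π ≠ 0)
    (hπ₁ : algebraMap B F π ∈ V₁.nonunits) (hπ₂ : algebraMap B F π ∈ V₂.nonunits)
    (hunif₁ : ∀ h : F, h ≠ 0 → ∃ (c : ℤ) (h' : F), h' ∈ V₁ ∧ h'⁻¹ ∈ V₁ ∧
      h = algebraMap B F π ^ c * h')
    (hunif₂ : ∀ h : F, h ≠ 0 → ∃ (c : ℤ) (h' : F), h' ∈ V₂ ∧ h'⁻¹ ∈ V₂ ∧
      h = algebraMap B F π ^ c * h')
    (hsat : ∀ w : F, w ∈ V₁ → w ∈ V₂ → (∃ b : B, algebraMap B F π * w = algebraMap B F b) →
      ∃ c : B, w = algebraMap B F c)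
    (hne : ∃ e : B, algebraMap B F e ∈ V₂.nonunits ∧ algebraMap B F e ∉ V₁.nonunits)
    (x : F) (hx : x ∈ V₁) :
    ∃ a b : B, algebraMap B F b ∉ V₁.nonunits ∧ x * algebraMap B F b = algebraMap B F a := by
  obtain ⟨e, he₂, he₁⟩ := hne
  have he₁' : (algebraMap B F e)⁻¹ ∈ V₁ := s34kvs_inv_mem V₁ (hB₁ e) he₁
  have he0 : algebraMap B F e ≠ 0 := by
    intro h
    apply he₁
    rw [h]
    exact V₁.nonunits.zero_mem
  -- the induction
  have key : ∀ k : ℕ, ∀ (a y : B) (h' : F), h' ∈ V₁ → h'⁻¹ ∈ V₁ → h' ≠ 0 →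
      algebraMap B F y = algebraMap B F π ^ k * h' →
      x * algebraMap B F y = algebraMap B F a →
      ∃ a b : B, algebraMap B F b ∉ V₁.nonunits ∧
        x * algebraMap B F b = algebraMap B F a := by
    intro k
    induction k with
    | zero =>
      intro a y h' _ hh' hh0 hy hxy
      refine ⟨a, y, ?_, hxy⟩
      rw [hy, pow_zero, one_mul]
      exact s34kvs_not_mem_nonunits V₁ hh' hh0
    | succ k ih =>
      intro a y h' hh hh' hh0 hy hxy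
      have hy₁ : algebraMap B F y ∈ V₁.nonunits := by
        rw [hy, mul_comm]
        exact s34kvs_mul_mem_nonunits V₁ hh (s34kvs_pow_succ_mem_nonunits V₁ hπ₁ k)
      have ha₁ : algebraMap B F a ∈ V₁.nonunits := by
        rw [← hxy]
        exact s34kvs_mul_mem_nonunits V₁ hx hy₁
      have hey₁ : algebraMap B F (e * y) ∈ V₁.nonunits := by
        rw [map_mul]
        exact s34kvs_mul_mem_nonunits V₁ (hB₁ e) hy₁
      have hey₂ : algebraMap B F (e * y) ∈ V₂.nonunits := by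
        rw [map_mul, mul_comm]
        exact s34kvs_mul_mem_nonunits V₂ (hB₂ y) he₂
      have hea₁ : algebraMap B F (e * a) ∈ V₁.nonunits := by
        rw [map_mul]
        exact s34kvs_mul_mem_nonunits V₁ (hB₁ e) ha₁
      have hea₂ : algebraMap B F (e * a) ∈ V₂.nonunits := by
        rw [map_mul, mul_comm]
        exact s34kvs_mul_mem_nonunits V₂ (hB₂ a) he₂
      obtain ⟨cy, hcy⟩ := s34kvs_inter_aux π V₁ V₂ hπ0 hπ₁ hπ₂ hunif₁ hunif₂ hsat (e * y) hey₁ hey₂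
      obtain ⟨ca, hca⟩ := s34kvs_inter_aux π V₁ V₂ hπ0 hπ₁ hπ₂ hunif₁ hunif₂ hsat (e * a) hea₁ hea₂
      rw [map_mul, map_mul] at hcy hca
      have h1 : algebraMap B F cy = algebraMap B F π ^ k * (algebraMap B F e * h') := by
        apply mul_left_cancel₀ hπ0
        rw [← hcy, hy, pow_succ]
        ring
      have h2 : x * algebraMap B F cy = algebraMap B F ca := by
        apply mul_left_cancel₀ hπ0
        rw [← hca, ← hxy]
        calc algebraMap B F π * (x * algebraMap B F cy)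
            = x * (algebraMap B F π * algebraMap B F cy) := by ring
          _ = x * (algebraMap B F e * algebraMap B F y) := by rw [hcy]
          _ = algebraMap B F e * (x * algebraMap B F y) := by ring
      refine ih ca cy (algebraMap B F e * h') (mul_mem (hB₁ e) hh) ?_ (mul_ne_zero he0 hh0) h1 h2
      rw [mul_inv]
      exact mul_mem he₁' hh'
  obtain ⟨a, y, hy0, hxy⟩ := hfrac x
  obtain ⟨k, h', hh, hh', hh0, hy⟩ := s34kvs_exists_pow V₁ hπ₁ hπ0 hunif₁ (hB₁ y) hy0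
  exact key k a y h' hh hh' hh0 hy hxy

/-- **Every prime of height one containing `π` is the centre of `V₁` or of `V₂`.** -/
theorem s34kvs_all (hinj : Function.Injective (algebraMap B F))
    (hB₁ : ∀ b : B, algebraMap B F b ∈ V₁) (hB₂ : ∀ b : B, algebraMap B F b ∈ V₂)
    (hπ0 : algebraMap B F π ≠ 0)
    (hπ₁ : algebraMap B F π ∈ V₁.nonunits) (hπ₂ : algebraMap B F π ∈ V₂.nonunits)
    (hunif₁ : ∀ h : F, h ≠ 0 → ∃ (c : ℤ) (h' : F), h' ∈ V₁ ∧ h'⁻¹ ∈ V₁ ∧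
      h = algebraMap B F π ^ c * h')
    (hunif₂ : ∀ h : F, h ≠ 0 → ∃ (c : ℤ) (h' : F), h' ∈ V₂ ∧ h'⁻¹ ∈ V₂ ∧
      h = algebraMap B F π ^ c * h')
    (hsat : ∀ w : F, w ∈ V₁ → w ∈ V₂ → (∃ b : B, algebraMap B F π * w = algebraMap B F b) →
      ∃ c : B, w = algebraMap B F c)
    (q : Ideal B) (hq : q.IsPrime) (hπq : π ∈ q)
    (hht : ∀ q' : Ideal B, q'.IsPrime → q' ≤ q → q' = ⊥ ∨ q' = q) :
    (∀ b : B, b ∈ q ↔ algebraMap B F b ∈ V₁.nonunits) ∨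
      (∀ b : B, b ∈ q ↔ algebraMap B F b ∈ V₂.nonunits) := by
  have hle : s34l1_centre V₁ hB₁ ⊓ s34l1_centre V₂ hB₂ ≤ q := by
    intro b hb
    obtain ⟨c, hc⟩ := s34kvs_inter_aux π V₁ V₂ hπ0 hπ₁ hπ₂ hunif₁ hunif₂ hsat b
      ((s34l1_mem_centre V₁ hB₁ b).mp hb.1) ((s34l1_mem_centre V₂ hB₂ b).mp hb.2)
    rw [hinj hc]
    exact q.mul_mem_right c hπq
  have hπB : π ≠ 0 := fun h => hπ0 (by rw [h, map_zero])
  rcases (Ideal.IsPrime.inf_le hq).mp hle with h | h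
  · left
    rcases hht _ (s34l1_centre_isPrime V₁ hB₁) h with h0 | h0
    · exfalso
      have : π ∈ s34l1_centre V₁ hB₁ := (s34l1_mem_centre V₁ hB₁ π).mpr hπ₁
      rw [h0] at this
      exact hπB ((Submodule.mem_bot B).mp this)
    · intro b
      rw [← h0]
      exact s34l1_mem_centre V₁ hB₁ b
  · right
    rcases hht _ (s34l1_centre_isPrime V₂ hB₂) h with h0 | h0
    · exfalso
      have : π ∈ s34l1_centre V₂ hB₂ := (s34l1_mem_centre V₂ hB₂ π).mpr hπ₂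
      rw [h0] at this
      exact hπB ((Submodule.mem_bot B).mp this)
    · intro b
      rw [← h0]
      exact s34l1_mem_centre V₂ hB₂ b

/-- **`p₁ ∩ p₂ = π B`** (in `B`). -/
theorem s34kvs_inter (hinj : Function.Injective (algebraMap B F))
    (hπ0 : algebraMap B F π ≠ 0)
    (hπ₁ : algebraMap B F π ∈ V₁.nonunits) (hπ₂ : algebraMap B F π ∈ V₂.nonunits)
    (hunif₁ : ∀ h : F, h ≠ 0 → ∃ (c : ℤ) (h' : F), h' ∈ V₁ ∧ h'⁻¹ ∈ V₁ ∧
      h = algebraMap B F π ^ c * h')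
    (hunif₂ : ∀ h : F, h ≠ 0 → ∃ (c : ℤ) (h' : F), h' ∈ V₂ ∧ h'⁻¹ ∈ V₂ ∧
      h = algebraMap B F π ^ c * h')
    (hsat : ∀ w : F, w ∈ V₁ → w ∈ V₂ → (∃ b : B, algebraMap B F π * w = algebraMap B F b) →
      ∃ c : B, w = algebraMap B F c)
    (b : B) (h₁ : algebraMap B F b ∈ V₁.nonunits) (h₂ : algebraMap B F b ∈ V₂.nonunits) :
    b ∈ Ideal.span {π} := by
  obtain ⟨c, hc⟩ := s34kvs_inter_aux π V₁ V₂ hπ0 hπ₁ hπ₂ hunif₁ hunif₂ hsat b h₁ h₂
  rw [hinj hc]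
  exact Ideal.mul_mem_right c _ (Ideal.mem_span_singleton_self π)

end abs

/-! ### The chart -/

section chart

variable (O K : Type) {F : Type} [CommRing O] [IsDomain O] [IsDiscreteValuationRing O]
  [Field K] [CharZero K] [Algebra O K] [IsFractionRing O K] [Field F] [Algebra K F]
  [Algebra O F] [IsScalarTower O K F]

/-- **[K-VERT]** the structure `s34l1_IsVert` for the chart of `j` and the pair `{V₁, V₂}`, from
the saturation of the chart in `W ⊇ V₁ ∩ V₂`. -/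
theorem s34kvs_isVert (j : F) (htr : Transcendental K j) (hfin : FiniteDimensional ↥K⟮j⟯ F)
    (ϖ : O) (hϖ : Irreducible ϖ) (W : Subring F) (V₁ V₂ : ValuationSubring F)
    (hinf : ∀ w : F, w ∈ V₁ → w ∈ V₂ → w ∈ W)
    (hsat : ∀ w ∈ W, algebraMap O F ϖ * w ∈ s18_chart O ({j} : Set F) →
      w ∈ s18_chart O ({j} : Set F))
    (hle₁ : ∀ b ∈ s18_chart O ({j} : Set F), b ∈ V₁)
    (hle₂ : ∀ b ∈ s18_chart O ({j} : Set F), b ∈ V₂)
    (hπ₁ : algebraMap O F ϖ ∈ V₁.nonunits) (hπ₂ : algebraMap O F ϖ ∈ V₂.nonunits)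
    (hunif₁ : ∀ h : F, h ≠ 0 → ∃ (c : ℤ) (h' : F), h' ∈ V₁ ∧ h'⁻¹ ∈ V₁ ∧
      h = algebraMap O F ϖ ^ c * h')
    (hunif₂ : ∀ h : F, h ≠ 0 → ∃ (c : ℤ) (h' : F), h' ∈ V₂ ∧ h'⁻¹ ∈ V₂ ∧
      h = algebraMap O F ϖ ^ c * h')
    (hne₁ : ∃ e ∈ s18_chart O ({j} : Set F), e ∈ V₂.nonunits ∧ e ∉ V₁.nonunits)
    (hne₂ : ∃ e ∈ s18_chart O ({j} : Set F), e ∈ V₁.nonunits ∧ e ∉ V₂.nonunits) :
    s34l1_IsVert O j ϖ W ({V₁, V₂} : Set (ValuationSubring F)) := by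
  have hinjOF : Function.Injective (algebraMap O F) := by
    rw [IsScalarTower.algebraMap_eq O K F]
    exact (algebraMap K F).injective.comp (IsFractionRing.injective O K)
  have hπ0 : algebraMap ↥(s18_chart O ({j} : Set F)) F
      (algebraMap O ↥(s18_chart O ({j} : Set F)) ϖ) ≠ 0 := by
    intro h
    have h1 : algebraMap O F ϖ = 0 := h
    exact hϖ.ne_zero (hinjOF (h1.trans (map_zero _).symm))
  have hinj : Function.Injective (algebraMap ↥(s18_chart O ({j} : Set F)) F) :=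
    Subtype.val_injective
  have hfrac : ∀ z : F, ∃ x y : ↥(s18_chart O ({j} : Set F)),
      algebraMap ↥(s18_chart O ({j} : Set F)) F y ≠ 0 ∧
      z * algebraMap ↥(s18_chart O ({j} : Set F)) F y =
        algebraMap ↥(s18_chart O ({j} : Set F)) F x := by
    intro z
    obtain ⟨x, y, hy, hxy⟩ := s18b_frac (O := O) htr hfin z
    exact ⟨x, y, fun h => hy (Subtype.ext h), hxy⟩
  have hB₁ : ∀ b : ↥(s18_chart O ({j} : Set F)),
      algebraMap ↥(s18_chart O ({j} : Set F)) F b ∈ V₁ := fun b => hle₁ b b.2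
  have hB₂ : ∀ b : ↥(s18_chart O ({j} : Set F)),
      algebraMap ↥(s18_chart O ({j} : Set F)) F b ∈ V₂ := fun b => hle₂ b b.2
  have hsat' : ∀ w : F, w ∈ V₁ → w ∈ V₂ →
      (∃ b : ↥(s18_chart O ({j} : Set F)),
        algebraMap ↥(s18_chart O ({j} : Set F)) F
          (algebraMap O ↥(s18_chart O ({j} : Set F)) ϖ) * w =
          algebraMap ↥(s18_chart O ({j} : Set F)) F b) →
      ∃ c : ↥(s18_chart O ({j} : Set F)), w = algebraMap ↥(s18_chart O ({j} : Set F)) F c := by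
    rintro w h1 h2 ⟨b, hb⟩
    have hb' : algebraMap O F ϖ * w = (b : F) := hb
    exact ⟨⟨w, hsat w (hinf w h1 h2) (by rw [hb']; exact b.2)⟩, rfl⟩
  have hne₁' : ∃ e : ↥(s18_chart O ({j} : Set F)),
      algebraMap ↥(s18_chart O ({j} : Set F)) F e ∈ V₂.nonunits ∧
      algebraMap ↥(s18_chart O ({j} : Set F)) F e ∉ V₁.nonunits := by
    obtain ⟨e, he, h1, h2⟩ := hne₁
    exact ⟨⟨e, he⟩, h1, h2⟩
  have hne₂' : ∃ e : ↥(s18_chart O ({j} : Set F)),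
      algebraMap ↥(s18_chart O ({j} : Set F)) F e ∈ V₁.nonunits ∧
      algebraMap ↥(s18_chart O ({j} : Set F)) F e ∉ V₂.nonunits := by
    obtain ⟨e, he, h1, h2⟩ := hne₂
    exact ⟨⟨e, he⟩, h1, h2⟩
  refine ⟨?_, ?_, ?_, ?_, ?_, ?_⟩
  · intro w hw
    exact hinf w (hw V₁ (Set.mem_insert _ _)) (hw V₂ (Set.mem_insert_of_mem _ rfl))
  · rintro V (rfl | rfl)
    · exact hle₁
    · exact hle₂
  · rintro V (rfl | rfl)
    · exact hπ₁
    · exact hπ₂
  · rintro V (rfl | rfl)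
    · exact hunif₁
    · exact hunif₂
  · rintro V (rfl | rfl) x hx
    · exact s34kvs_loc _ V V₂ hfrac hB₁ hB₂ hπ0 hπ₁ hπ₂ hunif₁ hunif₂ hsat' hne₁' x hx
    · refine s34kvs_loc _ V V₁ hfrac hB₂ hB₁ hπ0 hπ₂ hπ₁ hunif₂ hunif₁ ?_ hne₂' x hx
      intro w h1 h2 hb
      exact hsat' w h2 h1 hb
  · intro q hq hπq hht
    rcases s34kvs_all _ V₁ V₂ hinj hB₁ hB₂ hπ0 hπ₁ hπ₂ hunif₁ hunif₂ hsat' q hq hπq hht with h | h
    · exact ⟨V₁, Set.mem_insert _ _, h⟩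
    · exact ⟨V₂, Set.mem_insert_of_mem _ rfl, h⟩

end chart

end Fermat.Agent.S34
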