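/-
S34, seam **[K-VERT]**, THE INSTANCE FOR THE MODEL DATA (helper10).  Prefix `s34kvi_`.

`O` a discrete valuation ring of characteristic zero with residue characteristic `q`,
`K = Frac O`, `N` a level with `q ∣ N`, `W` a `K`-automorphism of `F = F_K(N)` with `W j = j_q`,
`W j_q = j`, `J = j · j_q`, `V_∞ = s34g_V`, `V_0 = s34g_V0 O W`.  INPUTS of `s34kvi_vert`:

* [K-COORD]  `J` is a coordinate;
* (INT)      `j_q` is integral over `O[j]` and `j` is integral over `O[j_q]` (helper17);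
* [K-ISW]    `s34l_IsW O J ϖ (V_∞ ⊓ V_0)` (only `sat`, `sat'` are used).

OUTPUT: `s34l1_IsVert O J ϖ (V_∞ ⊓ V_0) {V_∞, V_0}` and the same for `J⁻¹`, through helper7's
`s34kvs_isVert` (`S34/KVertSat.lean`).  The witnesses are `x = j_q ^ q - j` (a unit of `V_∞`,
a non-unit of `V_0`) and `W x = j ^ q - j_q` for the chart of `J`; `x · J⁻¹ ^ q`,
`W x · J⁻¹ ^ q` for the chart of `J⁻¹`.

    theorem s34kvi_main_of     : s34iw_IntStatement → s34km_CoordStatement →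
                                   s34km_IsWStatement → s34km_VertStatement
    theorem s34kvi_main_of_int : s34iw_IntStatement → s34km_VertStatement

(`s34km_VertStatement` VERBATIM `S34/KMainDefs.lean`; `s34iw_IntStatement` = helper28's
`S34/IsWKMain.lean`.)
-/
import Mathlib
import Fermat.Agent.S34.KVertSat
import Fermat.Agent.S34.KMainDefs
import Fermat.Agent.S34.SsGaussNe
import Fermat.Agent.S34.SsIntAbs
import Fermat.Agent.S34.KCoord
import Fermat.Agent.S34.IsWKC1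

set_option autoImplicit false
set_option linter.unusedSectionVars false
set_option linter.unusedVariables false
set_option linter.style.haveILetI false
set_option maxHeartbeats 400000

open AlgebraicCurve ModularCurve IntermediateField

noncomputable section

namespace Fermat.Agent.S34

open Fermat.Agent.S18

/-! ### Generalities -/

/-- Multiplication by a unit of `V` does not change the property of being a non-unit. -/
theorem s34kvi_mul_unit_mem_nonunits {F : Type*} [Field F] (V : ValuationSubring F) {x u : F}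
    (hu0 : u ≠ 0) (hu : u ∈ V) (hu' : u⁻¹ ∈ V) : x * u ∈ V.nonunits ↔ x ∈ V.nonunits := by
  have h1 : V.valuation u ≤ 1 := (V.valuation_le_one_iff u).2 hu
  have h2 : V.valuation u⁻¹ ≤ 1 := (V.valuation_le_one_iff u⁻¹).2 hu'
  have h0 : V.valuation u ≠ 0 := (Valuation.ne_zero_iff _).2 hu0
  rw [map_inv₀, inv_le_one₀ (zero_lt_iff.2 h0)] at h2
  rw [ValuationSubring.mem_nonunits_iff, ValuationSubring.mem_nonunits_iff, map_mul,
    le_antisymm h1 h2, mul_one]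

/-- `(b ^ q - a) / (a b) ^ q = a⁻¹ ^ q - a⁻¹ ^ (q - 1) b⁻¹ ^ q`. -/
theorem s34kvi_field_id {F : Type*} [Field F] (a b : F) (ha : a ≠ 0) (hb : b ≠ 0) (q : ℕ)
    (hq : 1 ≤ q) :
    (b ^ q - a) * ((a * b)⁻¹) ^ q = a⁻¹ ^ q - a⁻¹ ^ (q - 1) * b⁻¹ ^ q := by
  obtain ⟨k, rfl⟩ : ∃ k, q = k + 1 := ⟨q - 1, by omega⟩
  rw [Nat.add_sub_cancel]
  have h1 : b ^ (k + 1) * b⁻¹ ^ (k + 1) = 1 := by
    rw [← mul_pow, mul_inv_cancel₀ hb, one_pow]
  have h2 : a * a⁻¹ ^ (k + 1) = a⁻¹ ^ k := by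
    rw [pow_succ, mul_comm (a⁻¹ ^ k), ← mul_assoc, mul_inv_cancel₀ ha, one_mul]
  calc (b ^ (k + 1) - a) * ((a * b)⁻¹) ^ (k + 1)
      = a⁻¹ ^ (k + 1) * (b ^ (k + 1) * b⁻¹ ^ (k + 1)) -
          (a * a⁻¹ ^ (k + 1)) * b⁻¹ ^ (k + 1) := by
        rw [mul_inv, mul_pow]
        ring
    _ = a⁻¹ ^ (k + 1) - a⁻¹ ^ k * b⁻¹ ^ (k + 1) := by rw [h1, h2, mul_one]

/-! ### The two Gauss branches: non-units and uniformizer -/

section Gauss

variable {O K : Type} [CommRing O] [IsDomain O] [IsDiscreteValuationRing O] [Field K]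
  [CharZero K] [Algebra O K] [IsFractionRing O K] {N : ℕ} [NeZero N]

theorem s34kvi_mem_nonunits_iff (y : ↥(s18_F K N)) (hy : y ∈ s34g_V O K N) :
    y ∈ (s34g_V O K N).nonunits ↔ s34g_rho O K N ⟨y, hy⟩ = 0 := by
  rw [ValuationSubring.mem_nonunits_iff_exists_mem_maximalIdeal]
  constructor
  · rintro ⟨h, hm⟩
    exact (s34g_mem_maximalIdeal_iff _).1 hm
  · intro h
    exact ⟨hy, (s34g_mem_maximalIdeal_iff _).2 h⟩

theorem s34kvi_comap_nonunits (W : ↥(s18_F K N) ≃ₐ[K] ↥(s18_F K N)) (y : ↥(s18_F K N)) :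
    y ∈ (s34g_V0 O W).nonunits ↔ W y ∈ (s34g_V O K N).nonunits := by
  rw [ValuationSubring.mem_nonunits_iff_or, ValuationSubring.mem_nonunits_iff_or,
    s34g_mem_V0_iff, map_inv₀, map_eq_zero_iff W W.injective]

/-- `π` is a non-unit of `V_∞`. -/
theorem s34kvi_pi_mem {ϖ : O} (hϖ : Irreducible ϖ) :
    letI := s18_algOF O K N
    algebraMap O ↥(s18_F K N) ϖ ∈ (s34g_V O K N).nonunits := by
  letI := s18_algOF O K N
  rw [s34kvi_mem_nonunits_iff _ (s34g_algebraMap_mem ϖ)]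
  exact s34g_rho_pi hϖ _ rfl

/-- `π` is a non-unit of `V_0`. -/
theorem s34kvi_pi_mem0 (W : ↥(s18_F K N) ≃ₐ[K] ↥(s18_F K N)) {ϖ : O} (hϖ : Irreducible ϖ) :
    letI := s18_algOF O K N
    algebraMap O ↥(s18_F K N) ϖ ∈ (s34g_V0 O W).nonunits := by
  letI := s18_algOF O K N
  rw [s34kvi_comap_nonunits, s34g_W_algebraMap]
  exact s34kvi_pi_mem (K := K) (N := N) hϖ

/-- `π` is a uniformizer of `V_∞`. -/
theorem s34kvi_unif {ϖ : O} (hϖ : Irreducible ϖ) :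
    letI := s18_algOF O K N
    ∀ h : ↥(s18_F K N), h ≠ 0 → ∃ (c : ℤ) (h' : ↥(s18_F K N)), h' ∈ s34g_V O K N ∧
      h'⁻¹ ∈ s34g_V O K N ∧ h = algebraMap O ↥(s18_F K N) ϖ ^ c * h' := by
  letI := s18_algOF O K N
  intro h hh
  obtain ⟨e, u, hu, rfl⟩ := s34g_exists_pow (O := O) hϖ h hh
  exact ⟨e, u, u.2, s34g_inv_mem u hu, rfl⟩

/-- `π` is a uniformizer of `V_0`. -/
theorem s34kvi_unif0 (W : ↥(s18_F K N) ≃ₐ[K] ↥(s18_F K N)) {ϖ : O} (hϖ : Irreducible ϖ) :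
    letI := s18_algOF O K N
    ∀ h : ↥(s18_F K N), h ≠ 0 → ∃ (c : ℤ) (h' : ↥(s18_F K N)), h' ∈ s34g_V0 O W ∧
      h'⁻¹ ∈ s34g_V0 O W ∧ h = algebraMap O ↥(s18_F K N) ϖ ^ c * h' := by
  letI := s18_algOF O K N
  intro h hh
  obtain ⟨e, u, hu, rfl⟩ := s34g_exists_pow0 (O := O) (W := W) hϖ h hh
  exact ⟨e, u, u.2, s34g_inv_mem0 u hu, rfl⟩

end Gauss

/-! ### The witnesses -/

section Witness

variable {O K : Type} [CommRing O] [IsDomain O] [IsDiscreteValuationRing O] [Field K]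
  [CharZero K] [Algebra O K] [IsFractionRing O K] {N : ℕ} [NeZero N]
  (q : ℕ) [NeZero q] [Fact q.Prime] (hqN : q ∣ N)
  (hq : (q : O) ∈ IsLocalRing.maximalIdeal O)
  (W : ↥(s18_F K N) ≃ₐ[K] ↥(s18_F K N))
  (hWj : W (s18_j K N) = s34g_jd K N q hqN)
  (hWjq : W (s34g_jd K N q hqN) = s18_j K N)

include hq in
/-- `x = j_q ^ q - j` is a unit of `V_∞`. -/
theorem s34kvi_x_unit :
    s34g_jd K N q hqN ^ q - s18_j K N ∉ (s34g_V O K N).nonunits := by
  rw [s34kvi_mem_nonunits_iff _ (s34g_x_mem q hqN)]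
  exact s34g_rho_x q hqN hq

include hq in
/-- `W x = j ^ q - j_q` is a non-unit of `V_∞`. -/
theorem s34kvi_Wx_nonunit :
    s18_j K N ^ q - s34g_jd K N q hqN ∈ (s34g_V O K N).nonunits := by
  rw [s34kvi_mem_nonunits_iff _ (s34g_Wx_mem q hqN)]
  exact s34g_rho_Wx q hqN hq

include hq hWj hWjq in
/-- `x = j_q ^ q - j` is a non-unit of `V_0`. -/
theorem s34kvi_x_nonunit0 :
    s34g_jd K N q hqN ^ q - s18_j K N ∈ (s34g_V0 O W).nonunits := by
  rw [s34kvi_comap_nonunits, map_sub, map_pow, hWjq, hWj]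
  exact s34kvi_Wx_nonunit q hqN hq

include hq hWj hWjq in
/-- `W x = j ^ q - j_q` is a unit of `V_0`. -/
theorem s34kvi_Wx_unit0 :
    s18_j K N ^ q - s34g_jd K N q hqN ∉ (s34g_V0 O W).nonunits := by
  rw [s34kvi_comap_nonunits, map_sub, map_pow, hWjq, hWj]
  exact s34kvi_x_unit q hqN hq

end Witness

/-! ### The two charts -/

section Vert

variable {O K : Type} [CommRing O] [IsDomain O] [IsDiscreteValuationRing O] [Field K]
  [CharZero K] [Algebra O K] [IsFractionRing O K] {N : ℕ} [NeZero N]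
  (q : ℕ) [NeZero q] [Fact q.Prime] (hqN : q ∣ N)
  (hq : (q : O) ∈ IsLocalRing.maximalIdeal O)
  (W : ↥(s18_F K N) ≃ₐ[K] ↥(s18_F K N))
  (hWj : W (s18_j K N) = s34g_jd K N q hqN)
  (hWjq : W (s34g_jd K N q hqN) = s18_j K N)

include hq hWj hWjq in
/-- **[K-VERT]**, parametric in the level and in `W`. -/
theorem s34kvi_vert {ϖ : O} (hϖ : Irreducible ϖ)
    (htr : Transcendental K (s18_j K N * s34g_jd K N q hqN))
    (hfin : FiniteDimensional ↥K⟮s18_j K N * s34g_jd K N q hqN⟯ ↥(s18_F K N))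
    (hint : letI := s18_algOF O K N
      IsIntegral ↥(Algebra.adjoin O ({s18_j K N} : Set ↥(s18_F K N))) (s34g_jd K N q hqN))
    (hint' : letI := s18_algOF O K N
      IsIntegral ↥(Algebra.adjoin O ({s34g_jd K N q hqN} : Set ↥(s18_F K N))) (s18_j K N))
    (hW : letI := s18_algOF O K N
      s34l_IsW O (s18_j K N * s34g_jd K N q hqN) ϖ (s34g_W2 O W)) :
    letI := s18_algOF O K N
    s34l1_IsVert O (s18_j K N * s34g_jd K N q hqN) ϖ (s34g_W2 O W)
        {s34g_V O K N, s34g_V0 O W} ∧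
      s34l1_IsVert O (s18_j K N * s34g_jd K N q hqN)⁻¹ ϖ (s34g_W2 O W)
        {s34g_V O K N, s34g_V0 O W} := by
  letI := s18_algOF O K N
  haveI := s18_towerOF O K N
  have hJ := s34g_J_mem_W2 (O := O) q hqN W hWj hWjq
  have hJi := s34g_J_inv_mem_W2 (O := O) q hqN W hWj hWjq
  have hJ0 : s18_j K N * s34g_jd K N q hqN ≠ 0 := by
    intro h0
    apply htr
    rw [h0]
    exact isAlgebraic_zero
  have hj0 : s18_j K N ≠ 0 := left_ne_zero_of_mul hJ0
  have hjq0 : s34g_jd K N q hqN ≠ 0 := right_ne_zero_of_mul hJ0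
  -- (INT)
  have hj : s18_j K N ∈ s18_chart O ({s18_j K N * s34g_jd K N q hqN} : Set ↥(s18_F K N)) :=
    s34in_left_mem hint'
  have hjq : s34g_jd K N q hqN ∈
      s18_chart O ({s18_j K N * s34g_jd K N q hqN} : Set ↥(s18_F K N)) :=
    s34in_right_mem hint
  have hji : (s18_j K N)⁻¹ ∈
      s18_chart O ({(s18_j K N * s34g_jd K N q hqN)⁻¹} : Set ↥(s18_F K N)) :=
    s34in_inv_left_mem hjq0 hint
  have hjqi : (s34g_jd K N q hqN)⁻¹ ∈
      s18_chart O ({(s18_j K N * s34g_jd K N q hqN)⁻¹} : Set ↥(s18_F K N)) :=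
    s34in_inv_right_mem hj0 hint'
  obtain ⟨htr', hfin'⟩ := s34l1_inv_coord _ htr hfin
  have hq1 : 1 ≤ q := (Fact.out : q.Prime).one_lt.le
  constructor
  · exact s34kvs_isVert O K _ htr hfin ϖ hϖ (s34g_W2 O W) (s34g_V O K N) (s34g_V0 O W)
      (fun w h1 h2 => ⟨h1, h2⟩) hW.sat
      (fun b hb => s34g_chart_le _ (fun t ht => by
        rw [Set.mem_singleton_iff.1 ht]; exact hJ.1) b hb)
      (fun b hb => s34g_chart_le0 _ (fun t ht => by
        rw [Set.mem_singleton_iff.1 ht]; exact hJ.2) b hb)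
      (s34kvi_pi_mem hϖ) (s34kvi_pi_mem0 W hϖ) (s34kvi_unif hϖ) (s34kvi_unif0 W hϖ)
      ⟨s34g_jd K N q hqN ^ q - s18_j K N, sub_mem (pow_mem hjq q) hj,
        s34kvi_x_nonunit0 q hqN hq W hWj hWjq, s34kvi_x_unit q hqN hq⟩
      ⟨s18_j K N ^ q - s34g_jd K N q hqN, sub_mem (pow_mem hj q) hjq,
        s34kvi_Wx_nonunit q hqN hq, s34kvi_Wx_unit0 q hqN hq W hWj hWjq⟩
  · have hu1 : ((s18_j K N * s34g_jd K N q hqN)⁻¹) ^ q ∈ s34g_V O K N := pow_mem hJi.1 q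
    have hu1' : (((s18_j K N * s34g_jd K N q hqN)⁻¹) ^ q)⁻¹ ∈ s34g_V O K N := by
      rw [← inv_pow, inv_inv]
      exact pow_mem hJ.1 q
    have hu2 : ((s18_j K N * s34g_jd K N q hqN)⁻¹) ^ q ∈ s34g_V0 O W := pow_mem hJi.2 q
    have hu2' : (((s18_j K N * s34g_jd K N q hqN)⁻¹) ^ q)⁻¹ ∈ s34g_V0 O W := by
      rw [← inv_pow, inv_inv]
      exact pow_mem hJ.2 q
    have hu0 : ((s18_j K N * s34g_jd K N q hqN)⁻¹) ^ q ≠ 0 := pow_ne_zero _ (inv_ne_zero hJ0)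
    have ex : (s34g_jd K N q hqN ^ q - s18_j K N) * ((s18_j K N * s34g_jd K N q hqN)⁻¹) ^ q =
        (s18_j K N)⁻¹ ^ q - (s18_j K N)⁻¹ ^ (q - 1) * (s34g_jd K N q hqN)⁻¹ ^ q :=
      s34kvi_field_id _ _ hj0 hjq0 q hq1
    have ey : (s18_j K N ^ q - s34g_jd K N q hqN) * ((s18_j K N * s34g_jd K N q hqN)⁻¹) ^ q =
        (s34g_jd K N q hqN)⁻¹ ^ q - (s18_j K N)⁻¹ ^ q * (s34g_jd K N q hqN)⁻¹ ^ (q - 1) := by
      have h := s34kvi_field_id (s34g_jd K N q hqN) (s18_j K N) hjq0 hj0 q hq1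
      rw [mul_comm (s34g_jd K N q hqN) (s18_j K N)] at h
      rw [h, mul_comm]
    refine s34kvs_isVert O K _ htr' hfin' ϖ hϖ (s34g_W2 O W) (s34g_V O K N) (s34g_V0 O W)
      (fun w h1 h2 => ⟨h1, h2⟩) hW.sat'
      (fun b hb => s34g_chart_le _ (fun t ht => by
        rw [Set.mem_singleton_iff.1 ht]; exact hJi.1) b hb)
      (fun b hb => s34g_chart_le0 _ (fun t ht => by
        rw [Set.mem_singleton_iff.1 ht]; exact hJi.2) b hb)
      (s34kvi_pi_mem hϖ) (s34kvi_pi_mem0 W hϖ) (s34kvi_unif hϖ) (s34kvi_unif0 W hϖ)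
      ⟨(s34g_jd K N q hqN ^ q - s18_j K N) * ((s18_j K N * s34g_jd K N q hqN)⁻¹) ^ q, ?_,
        (s34kvi_mul_unit_mem_nonunits _ hu0 hu2 hu2').2 (s34kvi_x_nonunit0 q hqN hq W hWj hWjq),
        (s34kvi_mul_unit_mem_nonunits _ hu0 hu1 hu1').not.2 (s34kvi_x_unit q hqN hq)⟩
      ⟨(s18_j K N ^ q - s34g_jd K N q hqN) * ((s18_j K N * s34g_jd K N q hqN)⁻¹) ^ q, ?_,
        (s34kvi_mul_unit_mem_nonunits _ hu0 hu1 hu1').2 (s34kvi_Wx_nonunit q hqN hq),
        (s34kvi_mul_unit_mem_nonunits _ hu0 hu2 hu2').not.2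
          (s34kvi_Wx_unit0 q hqN hq W hWj hWjq)⟩
    · rw [ex]
      exact sub_mem (pow_mem hji q) (mul_mem (pow_mem hji _) (pow_mem hjqi q))
    · rw [ey]
      exact sub_mem (pow_mem hjqi q) (mul_mem (pow_mem hji q) (pow_mem hjqi _))

end Vert

/-! ### The model data -/

/-- **[K-VERT]** for the model data, from (INT), [K-COORD] and [K-ISW]. -/
theorem s34kvi_main_of (hI : s34iw_IntStatement) (hC : s34km_CoordStatement)
    (hW : s34km_IsWStatement) : s34km_VertStatement := by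
  intro M q _ _ _ hq hM h49 K0 hK0 O _ hqO ϖ hϖ
  letI := s18_algOF ↥O ↥K0 (M * q)
  haveI : Fact q.Prime := ⟨hq⟩
  obtain ⟨htr, hfin⟩ := hC M q hq hM K0
  obtain ⟨hi, hi'⟩ := hI M q hq hM h49 K0 hK0 O hqO
  exact s34kvi_vert q (dvd_mul_left q M) hqO (s34w_W M q K0 hq hM) (s34w_W_j hq hM)
    (s34w_W_jq hq hM) hϖ htr hfin hi hi' (hW M q hq hM h49 K0 hK0 O hqO ϖ hϖ)

/-- **[K-VERT]** for the model data, from (INT) alone. -/
theorem s34kvi_main_of_int (hI : s34iw_IntStatement) : s34km_VertStatement :=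
  s34kvi_main_of hI s34km_coord_main (s34iw_kmain_of_int hI)

end Fermat.Agent.S34
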