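/-
S34, THE LAST WIRING, statement (3) **[K-VERT]** CLOSED (helper10).  Prefix `s34kvi_`.

    theorem s34kvi_main : s34km_VertStatement          (VERBATIM `S34/KMainDefs.lean`)

from `s34kvi_main_of` (`S34/KVertInst.lean`), helper28's `s34iw_int_main` ([SS-INT]) and
`s34iw_kmain` ([K-ISW]) and helper29's `s34km_coord_main` ([K-COORD]).
-/
import Mathlib
import Fermat.Agent.S34.KVertInst
import Fermat.Agent.S34.IsWKInt

set_option autoImplicit false

namespace Fermat.Agent.S34

/-- **[K-VERT]** for the model data: the vertical primes of both charts. -/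
theorem s34kvi_main : s34km_VertStatement :=
  s34kvi_main_of s34iw_int_main s34km_coord_main s34iw_kmain

end Fermat.Agent.S34
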