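/-
S34, leaf [CECH2] of [LIFT2] (helper7).  Prefix `s34ce_`.

`I[1/J] = I + Jⁿ I'` for `n ≥ n₀`, where `I = s18_root O J u m = {f : f ^ m ∈ u B}`,
`I' = s18_root O J⁻¹ u m`, for the two charts `B = s18_chart O {J}`, `B' = s18_chart O {J⁻¹}`
of ANY normal model - NO hypothesis on the special fibre.

This is `S18/Cech.lean` (`s18ce_main`, helper18) with the facts it really uses as explicit
hypotheses; all auxiliary lemmas `s18ce_*` are imported from there.
-/
import Mathlib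
import Fermat.Agent.S18.Cech

set_option autoImplicit false
set_option linter.style.haveILetI false
set_option linter.unusedSectionVars false

open Polynomial
open Fermat.Agent.S18

noncomputable section

namespace Fermat.Agent.S34

/-- **[CECH2]** `I[1/j] = I + jⁿ I'` for `n ≥ n₀`, without any hypothesis on the special fibre:
the chart is noetherian and finite over `O[j]`, `u` is a fraction of the chart, and
`B ⊆ ⋃ jᵏ B'`. -/
theorem s34ce_main (O : Type) [CommRing O] [IsLocalRing O] {F : Type} [Field F] [Algebra O F]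
    (j : F) (hj : j ≠ 0)
    (hnoeth : IsNoetherianRing ↥(s18_chart O ({j} : Set F)))
    (hfinite : ∃ s : Finset F, (∀ x ∈ s, x ∈ s18_chart O ({j} : Set F)) ∧
      ∀ x ∈ s18_chart O ({j} : Set F), ∃ c : F → ↥(Algebra.adjoin O ({j} : Set F)),
        x = ∑ y ∈ s, (c y : F) * y)
    (hcover : ∀ x ∈ s18_chart O ({j} : Set F),
      ∃ k : ℕ, j⁻¹ ^ k * x ∈ s18_chart O ({j⁻¹} : Set F))
    (m : ℕ) (u : F) (hm : 0 < m) (hu : u ≠ 0)
    (hfrac : ∃ x y : ↥(s18_chart O ({j} : Set F)), y ≠ 0 ∧ u * (y : F) = (x : F)) :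
    s18_Cech O j u m := by
  classical
  -- `I` is finitely generated over `O[j]`
  have hle : Algebra.adjoin O ({j} : Set F) ≤ s18_chart O ({j} : Set F) := s18ce_adjoin_le O _
  letI alg : Algebra ↥(Algebra.adjoin O ({j} : Set F)) ↥(s18_chart O ({j} : Set F)) :=
    (Subalgebra.inclusion hle).toRingHom.toAlgebra
  haveI tower : IsScalarTower ↥(Algebra.adjoin O ({j} : Set F)) ↥(s18_chart O ({j} : Set F)) F :=
    IsScalarTower.of_algebraMap_eq (fun a => rfl)
  haveI fin : Module.Finite ↥(Algebra.adjoin O ({j} : Set F)) ↥(s18_chart O ({j} : Set F)) := by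
    obtain ⟨s, hs, hspan⟩ := hfinite
    refine ⟨⟨s.attach.image (fun e => (⟨e.1, hs e.1 e.2⟩ : ↥(s18_chart O ({j} : Set F)))), ?_⟩⟩
    rw [eq_top_iff]
    intro x _
    obtain ⟨c, hc⟩ := hspan x x.2
    have e : x = ∑ e ∈ s.attach,
        c e.1 • (⟨e.1, hs e.1 e.2⟩ : ↥(s18_chart O ({j} : Set F))) := by
      apply Subtype.ext
      rw [hc, ← Finset.sum_attach]
      rw [AddSubmonoidClass.coe_finsetSum]
      rfl
    rw [e]
    refine sum_mem (fun e he => Submodule.smul_mem _ _ (Submodule.subset_span ?_))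
    exact Finset.mem_coe.2 (Finset.mem_image_of_mem _ he)
  have hfg := Submodule.FG.restrictScalars (R := ↥(Algebra.adjoin O ({j} : Set F)))
    (s18ce_I_fg O j u m hm hu hnoeth hfrac)
  obtain ⟨G, hG⟩ := hfg
  have hGI : ∀ g ∈ G, g ∈ s18_root O j u m := by
    intro g hg
    have h1 : g ∈ Submodule.span ↥(Algebra.adjoin O ({j} : Set F)) (G : Set F) :=
      Submodule.subset_span (Finset.mem_coe.2 hg)
    rw [hG] at h1
    exact h1
  have hIG : ∀ f ∈ s18_root O j u m,
      f ∈ Submodule.span ↥(Algebra.adjoin O ({j} : Set F)) (G : Set F) := by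
    intro f hf
    rw [hG]
    exact hf
  -- the bound
  have hk : ∀ g : F, ∃ k : ℕ, g ∈ s18_root O j u m →
      ∀ n : ℕ, k ≤ n → j⁻¹ ^ n * g ∈ s18_root O j⁻¹ u m := by
    intro g
    by_cases hg : g ∈ s18_root O j u m
    · obtain ⟨k, hk⟩ := s18ce_cover O j u hm hcover hg
      exact ⟨k, fun _ => hk⟩
    · exact ⟨0, fun h => absurd h hg⟩
  choose kk hkk using hk
  refine ⟨G.sup kk, fun n hn f hf => ?_⟩
  obtain ⟨k, hkf⟩ := hf
  -- span induction
  have key : ∀ f' ∈ Submodule.span ↥(Algebra.adjoin O ({j} : Set F)) (G : Set F),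
      ∀ c ∈ Algebra.adjoin O ({j} : Set F), ∃ f₁ f₂ : F, f₁ ∈ s18_root O j u m ∧
        j⁻¹ ^ n * f₂ ∈ s18_root O j⁻¹ u m ∧ j⁻¹ ^ k * (c * f') = f₁ + f₂ := by
    intro f' hf'
    induction hf' using Submodule.span_induction with
    | mem g hg =>
      intro c hc
      have hgG : g ∈ G := Finset.mem_coe.1 hg
      obtain ⟨c₁, hc₁, c₂, hc₂, hc12⟩ := s18ce_split O hj hc k
      refine ⟨c₁ * g, c₂ * g, s18ce_root_mul O j u m (hle hc₁) (hGI g hgG), ?_, ?_⟩
      · have h1 : j⁻¹ ^ n * g ∈ s18_root O j⁻¹ u m :=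
          hkk g (hGI g hgG) n ((Finset.le_sup hgG).trans hn)
        have h2 := s18ce_root_mul O j⁻¹ u m (s18ce_adjoin_le O _ hc₂) h1
        have e : j⁻¹ ^ n * (c₂ * g) = c₂ * (j⁻¹ ^ n * g) := by ring
        rw [e]
        exact h2
      · rw [← mul_assoc, hc12]
        ring
    | zero =>
      intro c _
      refine ⟨0, 0, s18ce_root_zero O j u hm, ?_, ?_⟩
      · rw [mul_zero]
        exact s18ce_root_zero O j⁻¹ u hm
      · rw [mul_zero, mul_zero, add_zero]
    | add x y _ _ hx hy =>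
      intro c hc
      obtain ⟨a₁, a₂, ha₁, ha₂, ha⟩ := hx c hc
      obtain ⟨b₁, b₂, hb₁, hb₂, hb'⟩ := hy c hc
      refine ⟨a₁ + b₁, a₂ + b₂, s18ce_root_add O j u hm hu ha₁ hb₁, ?_, ?_⟩
      · rw [mul_add]
        exact s18ce_root_add O j⁻¹ u hm hu ha₂ hb₂
      · rw [mul_add, mul_add, ha, hb']
        ring
    | smul a x _ hx =>
      intro c hc
      obtain ⟨a₁, a₂, ha₁, ha₂, ha⟩ := hx (c * (a : F)) (mul_mem hc a.2)
      refine ⟨a₁, a₂, ha₁, ha₂, ?_⟩
      rw [← ha]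
      show j⁻¹ ^ k * (c * ((a : F) * x)) = j⁻¹ ^ k * (c * (a : F) * x)
      ring
  obtain ⟨f₁, f₂, h1, h2, h3⟩ := key (j ^ k * f) (hIG _ hkf) 1 (one_mem _)
  refine ⟨f₁, f₂, h1, h2, ?_⟩
  rw [← h3, one_mul, ← mul_assoc, inv_pow, inv_mul_cancel₀ (pow_ne_zero _ hj), one_mul]


/-- **[CECH2]** in the binder shape of `s18_CechStatement`, with the fields of `s18_IsBasic`
that are used (`noeth`, `finite`, `frac`, `cover`) as hypotheses. -/
theorem s34ce_main' (O K F : Type) [CommRing O] [IsDomain O] [IsDiscreteValuationRing O]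
    [Field K] [CharZero K] [Algebra O K] [IsFractionRing O K] [Field F] [Algebra K F]
    [Algebra O F] [IsScalarTower O K F] (j : F) (hj : Transcendental K j)
    (hnoeth : IsNoetherianRing ↥(s18_chart O ({j} : Set F)))
    (hfinite : ∃ s : Finset F, (∀ x ∈ s, x ∈ s18_chart O ({j} : Set F)) ∧
      ∀ x ∈ s18_chart O ({j} : Set F), ∃ c : F → ↥(Algebra.adjoin O ({j} : Set F)),
        x = ∑ y ∈ s, (c y : F) * y)
    (hfrac : ∀ f : F, ∃ x y : ↥(s18_chart O ({j} : Set F)), y ≠ 0 ∧ f * (y : F) = (x : F))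
    (hcover : ∀ x ∈ s18_chart O ({j} : Set F),
      ∃ k : ℕ, j⁻¹ ^ k * x ∈ s18_chart O ({j⁻¹} : Set F))
    (m : ℕ) (u : F) (hm : 0 < m) (hu : u ≠ 0) : s18_Cech O j u m := by
  refine s34ce_main O j ?_ hnoeth hfinite hcover m u hm hu (hfrac u)
  intro h0
  apply hj
  rw [h0]
  exact isAlgebraic_zero

end Fermat.Agent.S34
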