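/-
S34, [LIFT2], package [GLOB2] (helper18), part 1: the calculus of `π^k W = s34l_gauss O ϖ W k`
for an ABSTRACT subring `W` of `F`.  Prefix `s34l_`.

  `s34l_gauss_add / _neg / _sub / _mul / _pow`   `π^k W` is a filtration of the ring `W`
  `s34l_gauss_mono`      `π^l W ⊆ π^k W` for `k ≤ l`
  `s34l_pi_mul / s34l_of_pi_mul`   `f ∈ π^l W ↔ π^k f ∈ π^(k+l) W`
  `s34l_sat`             `B ∩ π^k W = π^k B`  (from `s34l_IsW.sat`)
-/
import Mathlib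
import Fermat.Agent.S34.LiftDefs
import Fermat.Agent.S18.GlobGauss

set_option autoImplicit false
set_option linter.style.haveILetI false
set_option linter.unusedSectionVars false

noncomputable section

namespace Fermat.Agent.S34

open Fermat.Agent.S18

section gauss

variable {O : Type} [CommRing O] [IsLocalRing O] {F : Type} [Field F] [Algebra O F]
  {ϖ : O} {W : Subring F}

theorem s34l_mem_gauss {k : ℕ} {f : F} :
    f ∈ s34l_gauss O ϖ W k ↔ ∃ w ∈ W, f = algebraMap O F ϖ ^ k * w := Iff.rfl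

theorem s34l_mem_gauss_zero {f : F} : f ∈ s34l_gauss O ϖ W 0 ↔ f ∈ W := by
  constructor
  · rintro ⟨w, hw, rfl⟩
    rwa [pow_zero, one_mul]
  · intro h
    exact ⟨f, h, by rw [pow_zero, one_mul]⟩

theorem s34l_gauss_zero (k : ℕ) : (0 : F) ∈ s34l_gauss O ϖ W k :=
  ⟨0, zero_mem _, by rw [mul_zero]⟩

theorem s34l_gauss_add {k : ℕ} {f g : F} (hf : f ∈ s34l_gauss O ϖ W k)
    (hg : g ∈ s34l_gauss O ϖ W k) : f + g ∈ s34l_gauss O ϖ W k := by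
  obtain ⟨w, hw, rfl⟩ := hf
  obtain ⟨w', hw', rfl⟩ := hg
  exact ⟨w + w', add_mem hw hw', by ring⟩

theorem s34l_gauss_neg {k : ℕ} {f : F} (hf : f ∈ s34l_gauss O ϖ W k) :
    -f ∈ s34l_gauss O ϖ W k := by
  obtain ⟨w, hw, rfl⟩ := hf
  exact ⟨-w, neg_mem hw, by ring⟩

theorem s34l_gauss_sub {k : ℕ} {f g : F} (hf : f ∈ s34l_gauss O ϖ W k)
    (hg : g ∈ s34l_gauss O ϖ W k) : f - g ∈ s34l_gauss O ϖ W k := by
  rw [sub_eq_add_neg]
  exact s34l_gauss_add hf (s34l_gauss_neg hg)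

/-- `π^k W · π^l W ⊆ π^(k+l) W`. -/
theorem s34l_gauss_mul {k l : ℕ} {f g : F} (hf : f ∈ s34l_gauss O ϖ W k)
    (hg : g ∈ s34l_gauss O ϖ W l) : f * g ∈ s34l_gauss O ϖ W (k + l) := by
  obtain ⟨w, hw, rfl⟩ := hf
  obtain ⟨w', hw', rfl⟩ := hg
  exact ⟨w * w', mul_mem hw hw', by ring⟩

/-- `π^l W ⊆ π^k W` for `k ≤ l`. -/
theorem s34l_gauss_mono (hO : ∀ a : O, algebraMap O F a ∈ W) {k l : ℕ} (hkl : k ≤ l) {f : F}
    (hf : f ∈ s34l_gauss O ϖ W l) : f ∈ s34l_gauss O ϖ W k := by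
  obtain ⟨w, hw, rfl⟩ := hf
  refine ⟨algebraMap O F ϖ ^ (l - k) * w, mul_mem (pow_mem (hO ϖ) _) hw, ?_⟩
  rw [← mul_assoc, ← pow_add, Nat.add_sub_cancel' hkl]

theorem s34l_gauss_mul_left {k : ℕ} {f g : F} (hf : f ∈ W) (hg : g ∈ s34l_gauss O ϖ W k) :
    f * g ∈ s34l_gauss O ϖ W k := by
  obtain ⟨w, hw, rfl⟩ := hg
  exact ⟨f * w, mul_mem hf hw, by ring⟩

theorem s34l_gauss_mem_W (hO : ∀ a : O, algebraMap O F a ∈ W) {k : ℕ} {f : F}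
    (hf : f ∈ s34l_gauss O ϖ W k) : f ∈ W :=
  s34l_mem_gauss_zero.1 (s34l_gauss_mono hO (Nat.zero_le k) hf)

/-- `π^k ∈ π^k W`. -/
theorem s34l_pi_pow (k : ℕ) : algebraMap O F ϖ ^ k ∈ s34l_gauss O ϖ W k :=
  ⟨1, one_mem _, by rw [mul_one]⟩

/-- `f ∈ π^l W ⟹ π^k f ∈ π^(k+l) W`. -/
theorem s34l_pi_mul (k : ℕ) {l : ℕ} {f : F} (hf : f ∈ s34l_gauss O ϖ W l) :
    algebraMap O F ϖ ^ k * f ∈ s34l_gauss O ϖ W (k + l) :=
  s34l_gauss_mul (s34l_pi_pow k) hf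

/-- `f ∈ W ⟹ π^k f ∈ π^k W`. -/
theorem s34l_pi_mul_W (k : ℕ) {f : F} (hf : f ∈ W) :
    algebraMap O F ϖ ^ k * f ∈ s34l_gauss O ϖ W k :=
  ⟨f, hf, rfl⟩

/-- `π^k f ∈ π^(k+l) W ⟹ f ∈ π^l W`. -/
theorem s34l_of_pi_mul (hπ : algebraMap O F ϖ ≠ 0) (k : ℕ) {l : ℕ} {f : F}
    (hf : algebraMap O F ϖ ^ k * f ∈ s34l_gauss O ϖ W (k + l)) : f ∈ s34l_gauss O ϖ W l := by
  obtain ⟨w, hw, h⟩ := hf
  refine ⟨w, hw, ?_⟩
  have hk : algebraMap O F ϖ ^ k ≠ 0 := pow_ne_zero _ hπ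
  apply mul_left_cancel₀ hk
  rw [h, pow_add, mul_assoc]

/-- `s ≡ 1` modulo `π W` ⟹ `s ∈ W`. -/
theorem s34l_mem_W_of_sub_one (hO : ∀ a : O, algebraMap O F a ∈ W) {s : F}
    (hs : s - 1 ∈ s34l_gauss O ϖ W 1) : s ∈ W := by
  have h1 : s - 1 ∈ W := s34l_gauss_mem_W hO hs
  have h2 := add_mem h1 (one_mem W)
  rwa [sub_add_cancel] at h2

/-- `s ≡ 1` modulo `π W` ⟹ `s ^ i ≡ 1`. -/
theorem s34l_pow_sub_one (hO : ∀ a : O, algebraMap O F a ∈ W) {s : F}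
    (hs : s - 1 ∈ s34l_gauss O ϖ W 1) (i : ℕ) : s ^ i - 1 ∈ s34l_gauss O ϖ W 1 := by
  have hs0 : s ∈ W := s34l_mem_W_of_sub_one hO hs
  induction i with
  | zero =>
    rw [pow_zero, sub_self]
    exact s34l_gauss_zero 1
  | succ i ih =>
    have e : s ^ (i + 1) - 1 = s ^ i * (s - 1) + (s ^ i - 1) := by ring
    rw [e]
    exact s34l_gauss_add (s34l_gauss_mul_left (pow_mem hs0 i) hs) ih

end gauss

section sat

variable {O : Type} [CommRing O] [IsLocalRing O] {F : Type} [Field F] [Algebra O F]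
  {j : F} {ϖ : O} {W : Subring F}

/-- `O ⊆ W`. -/
theorem s34l_O_mem (hW : s34l_IsW O j ϖ W) (a : O) : algebraMap O F a ∈ W :=
  hW.chart_le _ (Subalgebra.algebraMap_mem _ a)

/-- **Saturation**: `B ∩ π^k W = π^k B`. -/
theorem s34l_sat (hW : s34l_IsW O j ϖ W) (k : ℕ) {f : F}
    (hf : f ∈ s18_chart O ({j} : Set F)) (hg : f ∈ s34l_gauss O ϖ W k) :
    ∃ b : ↥(s18_chart O ({j} : Set F)), f = algebraMap O F ϖ ^ k * (b : F) := by
  induction k generalizing f with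
  | zero => exact ⟨⟨f, hf⟩, by rw [pow_zero, one_mul]⟩
  | succ k ih =>
    obtain ⟨w, hw, h⟩ := hg
    have h1 : algebraMap O F ϖ ^ k * w ∈ W := mul_mem (pow_mem (s34l_O_mem hW ϖ) k) hw
    have h2 : algebraMap O F ϖ * (algebraMap O F ϖ ^ k * w) ∈ s18_chart O ({j} : Set F) := by
      have e : algebraMap O F ϖ * (algebraMap O F ϖ ^ k * w) = f := by
        rw [h, pow_succ]
        ring
      rw [e]
      exact hf
    have h3 := hW.sat _ h1 h2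
    obtain ⟨b, hb⟩ := ih h3 ⟨w, hw, rfl⟩
    refine ⟨b, ?_⟩
    rw [h, pow_succ, mul_assoc, mul_comm (algebraMap O F ϖ) w, ← mul_assoc, hb]
    ring

/-- Saturation, for elements of the chart written as `π^k w`. -/
theorem s34l_sat' (hW : s34l_IsW O j ϖ W) (hπ : algebraMap O F ϖ ≠ 0) (k : ℕ) {w : F}
    (hw : w ∈ W) (hf : algebraMap O F ϖ ^ k * w ∈ s18_chart O ({j} : Set F)) :
    w ∈ s18_chart O ({j} : Set F) := by
  obtain ⟨b, hb⟩ := s34l_sat hW k hf ⟨w, hw, rfl⟩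
  have : w = (b : F) := mul_left_cancel₀ (pow_ne_zero k hπ) hb
  rw [this]
  exact b.2

end sat

end Fermat.Agent.S34
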