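/-
S34, [LIFT2], package [GLOB2] (helper18), part 2: the context `s34l_Ctx`, the elementary facts
about `I = s18_root O j u m` relative to an ABSTRACT `W`, and the GLUING lemma.  Prefix `s34l_`.

  `s34l_u_mem / s34l_u_inv_mem`   `u ∈ Wˣ`
  `s34l_j_mem / s34l_jinv_mem`    `j ∈ Wˣ`
  `s34l_root_sub`      `I ⊆ W`
  `s34l_root_sat`      `I ∩ π W = π I`
  `s34l_glue`          `x ∈ B`, `x' ∈ B'`, `x ≡ jⁿ x'` modulo `π W` ⟹ `∃ h ∈ Λ_n, h ≡ x`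
-/
import Mathlib
import Fermat.Agent.S34.LiftDefs
import Fermat.Agent.S34.LiftGauss
import Fermat.Agent.S18.Cech

set_option autoImplicit false
set_option linter.style.haveILetI false
set_option linter.unusedSectionVars false

noncomputable section

namespace Fermat.Agent.S34

open Fermat.Agent.S18

/-- The standing hypotheses of [GLOB2], collected. -/
structure s34l_Ctx (O : Type) [CommRing O] [IsLocalRing O] {F : Type} [Field F] [Algebra O F]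
    (j u : F) (ϖ : O) (W : Subring F) (m : ℕ) : Prop where
  hmax : IsLocalRing.maximalIdeal O = Ideal.span {ϖ}
  hπ : algebraMap O F ϖ ≠ 0
  hW : s34l_IsW O j ϖ W
  hj : j ≠ 0
  hm : 0 < m
  hu : u ≠ 0
  hred : u - 1 ∈ s34l_gauss O ϖ W 1
  hcov : ∀ x ∈ s18_chart O ({j} : Set F), ∃ k : ℕ, j⁻¹ ^ k * x ∈ s18_chart O ({j⁻¹} : Set F)
  hcov' : ∀ x ∈ s18_chart O ({j⁻¹} : Set F), ∃ k : ℕ, j ^ k * x ∈ s18_chart O ({j} : Set F)

section glob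

variable {O : Type} [CommRing O] [IsLocalRing O] {F : Type} [Field F] [Algebra O F]
  {j u : F} {ϖ : O} {W : Subring F} {m : ℕ} (C : s34l_Ctx O j u ϖ W m)

include C

theorem s34l_hO (a : O) : algebraMap O F a ∈ W := s34l_O_mem C.hW a

theorem s34l_j_mem : j ∈ W := C.hW.chart_le _ (s18ce_self_mem O j)

theorem s34l_jinv_mem : j⁻¹ ∈ W := C.hW.chart_le' _ (s18ce_self_mem O j⁻¹)

theorem s34l_u_mem : u ∈ W := s34l_mem_W_of_sub_one (s34l_hO C) C.hred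

theorem s34l_u_inv_mem : u⁻¹ ∈ W := by
  obtain ⟨w, hw, h⟩ := C.hred
  have e : u = 1 + algebraMap O F ϖ * w := by
    rw [pow_one] at h
    rw [← h]
    ring
  rw [e]
  exact C.hW.unit w hw

/-- `I ⊆ W`. -/
theorem s34l_root_sub {f : F} (hf : f ∈ s18_root O j u m) : f ∈ W := by
  obtain ⟨c, hc⟩ := hf
  refine C.hW.root f m C.hm ?_
  rw [hc]
  exact mul_mem (s34l_u_mem C) (C.hW.chart_le _ c.2)

omit C in
theorem s34l_root_neg (j u : F) (m : ℕ) {f : F} (hf : f ∈ s18_root O j u m) :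
    -f ∈ s18_root O j u m := by
  have h := s18ce_root_mul O j u m (neg_mem (one_mem (s18_chart O ({j} : Set F)))) hf
  rwa [neg_one_mul] at h

/-- `I` is closed under subtraction. -/
theorem s34l_root_sub' {f g : F} (hf : f ∈ s18_root O j u m) (hg : g ∈ s18_root O j u m) :
    f - g ∈ s18_root O j u m := by
  rw [sub_eq_add_neg]
  exact s18ce_root_add O j u C.hm C.hu hf (s34l_root_neg j u m hg)

/-- `I ∩ π W = π I`. -/
theorem s34l_root_sat {e : F} (he : e ∈ s18_root O j u m) (he1 : e ∈ s34l_gauss O ϖ W 1) :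
    ∃ e₁ : F, e₁ ∈ s18_root O j u m ∧ e = algebraMap O F ϖ * e₁ := by
  obtain ⟨c, hc⟩ := he
  obtain ⟨w, hw, hew⟩ := he1
  rw [pow_one] at hew
  have hπ := C.hπ
  have hu := C.hu
  -- `c = π^m (u⁻¹ w^m)`
  have h2 : (c : F) ∈ s34l_gauss O ϖ W m := by
    refine ⟨u⁻¹ * w ^ m, mul_mem (s34l_u_inv_mem C) (pow_mem hw m), ?_⟩
    have e1 : (c : F) = u⁻¹ * e ^ m := by
      rw [hc, ← mul_assoc, inv_mul_cancel₀ hu, one_mul]
    rw [e1, hew, mul_pow]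
    ring
  obtain ⟨c₁, hc₁⟩ := s34l_sat C.hW m c.2 h2
  refine ⟨w, ⟨c₁, ?_⟩, hew⟩
  have h3 : algebraMap O F ϖ ^ m * w ^ m = algebraMap O F ϖ ^ m * (u * (c₁ : F)) := by
    rw [← mul_pow, ← hew, hc, hc₁]
    ring
  exact mul_left_cancel₀ (pow_ne_zero m hπ) h3

/-- Elements of `I'` lie in `j⁻ᵏ I` for large `k`. -/
theorem s34l_cover' {g : F} (hg : g ∈ s18_root O j⁻¹ u m) :
    ∃ k : ℕ, ∀ n : ℕ, k ≤ n → j ^ n * g ∈ s18_root O j u m := by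
  have h := s18ce_cover O j⁻¹ u C.hm (by
    intro x hx
    obtain ⟨k, hk⟩ := C.hcov' x hx
    exact ⟨k, by rw [inv_inv]; exact hk⟩) hg
  rw [inv_inv] at h
  exact h

/-- **GLUING.** -/
theorem s34l_glue (hS : s34l_Surj O j ϖ W u m) (hS' : s34l_Surj O j⁻¹ ϖ W u m) (n : ℕ)
    (hCech : ∀ f : F, (∃ k : ℕ, j ^ k * f ∈ s18_root O j u m) →
      ∃ f₁ f₂ : F, f₁ ∈ s18_root O j u m ∧ j⁻¹ ^ n * f₂ ∈ s18_root O j⁻¹ u m ∧ f = f₁ + f₂)
    {x x' : F} (hx : x ∈ s18_chart O ({j} : Set F)) (hx' : x' ∈ s18_chart O ({j⁻¹} : Set F))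
    (hxx : x - j ^ n * x' ∈ s34l_gauss O ϖ W 1) :
    ∃ h : F, h ∈ s18_root O j u m ∧ j⁻¹ ^ n * h ∈ s18_root O j⁻¹ u m ∧
      h - x ∈ s34l_gauss O ϖ W 1 := by
  obtain ⟨s₁, hs₁, hs₁x⟩ := hS ⟨x, hx⟩
  obtain ⟨s₂', hs₂', hs₂x⟩ := hS' ⟨x', hx'⟩
  have hs₁x' : s₁ - x ∈ s34l_gauss O ϖ W 1 := hs₁x
  have hs₂x' : s₂' - x' ∈ s34l_gauss O ϖ W 1 := hs₂x
  have hjn : j ^ n ∈ W := pow_mem (s34l_j_mem C) n
  -- `d = s₁ - jⁿ s₂' ∈ π W`
  have hd : s₁ - j ^ n * s₂' ∈ s34l_gauss O ϖ W 1 := by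
    have e : s₁ - j ^ n * s₂' = (s₁ - x) + (x - j ^ n * x') - j ^ n * (s₂' - x') := by ring
    rw [e]
    exact s34l_gauss_sub (s34l_gauss_add hs₁x' hxx) (s34l_gauss_mul_left hjn hs₂x')
  -- a power of `j` moves `d` into `I`
  obtain ⟨k₁, hk₁⟩ := s34l_cover' C hs₂'
  have hjB : ∀ i : ℕ, j ^ i ∈ s18_chart O ({j} : Set F) := fun i =>
    pow_mem (s18ce_self_mem O j) i
  have hdI : j ^ k₁ * (s₁ - j ^ n * s₂') ∈ s18_root O j u m := by
    have e : j ^ k₁ * (s₁ - j ^ n * s₂') = j ^ k₁ * s₁ - j ^ n * (j ^ k₁ * s₂') := by ring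
    rw [e]
    exact s34l_root_sub' C (s18ce_root_mul O j u m (hjB k₁) hs₁)
      (s18ce_root_mul O j u m (hjB n) (hk₁ k₁ le_rfl))
  have hdW : j ^ k₁ * (s₁ - j ^ n * s₂') ∈ s34l_gauss O ϖ W 1 :=
    s34l_gauss_mul_left (pow_mem (s34l_j_mem C) k₁) hd
  obtain ⟨e₁, he₁, he₁'⟩ := s34l_root_sat C hdI hdW
  -- Čech
  have hπ := C.hπ
  obtain ⟨t₁, t₂, ht₁, ht₂, ht⟩ := hCech ((s₁ - j ^ n * s₂') / algebraMap O F ϖ) ⟨k₁, by
    have e : j ^ k₁ * ((s₁ - j ^ n * s₂') / algebraMap O F ϖ) = e₁ := by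
      rw [← mul_div_assoc, he₁']
      field_simp
    rw [e]
    exact he₁⟩
  have hπB : algebraMap O F ϖ ∈ s18_chart O ({j} : Set F) := Subalgebra.algebraMap_mem _ ϖ
  have hπB' : algebraMap O F ϖ ∈ s18_chart O ({j⁻¹} : Set F) := Subalgebra.algebraMap_mem _ ϖ
  refine ⟨s₁ - algebraMap O F ϖ * t₁, ?_, ?_, ?_⟩
  · exact s34l_root_sub' C hs₁ (s18ce_root_mul O j u m hπB ht₁)
  · have e : j⁻¹ ^ n * (s₁ - algebraMap O F ϖ * t₁) =
        s₂' + algebraMap O F ϖ * (j⁻¹ ^ n * t₂) := by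
      have h1 : algebraMap O F ϖ * t₁ = (s₁ - j ^ n * s₂') - algebraMap O F ϖ * t₂ := by
        have h2 : (s₁ - j ^ n * s₂') = algebraMap O F ϖ * (t₁ + t₂) := by
          rw [← ht]
          field_simp
        rw [h2]
        ring
      have hjj : j⁻¹ ^ n * j ^ n = 1 := by
        rw [inv_pow, inv_mul_cancel₀ (pow_ne_zero _ C.hj)]
      rw [h1]
      have e2 : j⁻¹ ^ n * (s₁ - (s₁ - j ^ n * s₂' - algebraMap O F ϖ * t₂)) =
          (j⁻¹ ^ n * j ^ n) * s₂' + algebraMap O F ϖ * (j⁻¹ ^ n * t₂) := by ring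
      rw [e2, hjj, one_mul]
    rw [e]
    exact s18ce_root_add O j⁻¹ u C.hm C.hu hs₂' (s18ce_root_mul O j⁻¹ u m hπB' ht₂)
  · have e : s₁ - algebraMap O F ϖ * t₁ - x = (s₁ - x) - algebraMap O F ϖ * t₁ := by ring
    rw [e]
    refine s34l_gauss_sub hs₁x' ?_
    have h1 := s34l_pi_mul_W (ϖ := ϖ) 1 (s34l_root_sub C ht₁)
    rwa [pow_one] at h1

end glob

end Fermat.Agent.S34
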