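/-
S34, [LIFT2] (helper18): the wiring of the leaves [FIN2] and [CECH2] (helper7, `S34/Fin2.lean`,
`S34/Cech2.lean`) into the statements `s34l_FinStatement`, `s34l_CechStatement` of
`S34/LiftDefs.lean`, and the composition of [LIFT2] from the two remaining leaves [SURJ2] and
[POLE2].  Prefix `s34l_`.

The basic facts of the charts (`noeth`, `finite`, `frac`, `cover`) come from `S18/BasicA.lean`,
`S18/BasicB.lean`, which have no hypothesis on the special fibre.
-/
import Mathlib
import Fermat.Agent.S34.LiftDefs
import Fermat.Agent.S34.LiftGlob
import Fermat.Agent.S34.Fin2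
import Fermat.Agent.S34.Cech2
import Fermat.Agent.S18.BasicA
import Fermat.Agent.S18.BasicB
import Fermat.Agent.S18.Nsatz

set_option autoImplicit false
set_option linter.style.haveILetI false
set_option linter.unusedSectionVars false

open AlgebraicCurve IntermediateField Polynomial
open scoped TensorProduct
open Fermat.Agent.S18

noncomputable section

namespace Fermat.Agent.S34

/-- A transcendental element is non-zero. -/
theorem s34l_ne_zero_of_transc {K F : Type} [Field K] [Field F] [Algebra K F] {j : F}
    (hj : Transcendental K j) : j ≠ 0 := by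
  intro h0
  apply hj
  rw [h0]
  exact isAlgebraic_zero

/-- **[FIN2]** in the shape of `S34/LiftDefs.lean`. -/
theorem s34l_fin_main : s34l_FinStatement := by
  intro O K F _ _ _ _ _ _ _ _ _ _ _ j htr hfin n
  exact s34fin_main O K F j htr hfin
    (fun x hx => s18b_cover (s34l_ne_zero_of_transc htr) hx) n

/-- **[CECH2]** in the shape of `S34/LiftDefs.lean`. -/
theorem s34l_cech_main : s34l_CechStatement := by
  intro O K F _ _ _ _ _ _ _ _ _ _ _ j htr hfin m u hm hu
  exact s34ce_main' O K F j htr (s18b_noeth (O := O) htr hfin) (s18b_finite (O := O) htr hfin)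
    (fun f => s18b_frac (O := O) htr hfin f)
    (fun x hx => s18b_cover (s34l_ne_zero_of_transc htr) hx) m u hm hu

/-- **[LIFT2]** from its two remaining leaves [SURJ2] and [POLE2]. -/
theorem s34l_lift2_of_leaves (hS : s34l_SurjStatement) (hP : s34l_PoleStatement) :
    s34l_Lift2Statement :=
  s34l_lift2_of hS hP s34l_fin_main s34l_cech_main s34l_glob_main s18ns_main

end Fermat.Agent.S34
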