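/-
S34, leaf [POLE2] of [LIFT2] (helper2), ABSTRACT PART.  Prefix `s34po_`.  Mathlib only.

`R` a domain, `ϖ ≠ 0`, `𝔫 ∋ ϖ` a prime ideal, `m` a positive integer which is not in `𝔫`,
`θ` a NON-ZERO-DIVISOR MODULO `ϖ` (no primality of `ϖ R`, no hypothesis on `R ⧸ ϖ R`).
If `A ^ m = G (θ^(nm) + ϖ^(k+1) X')` with `G ∉ 𝔫` and `A` is NORMALISED, `e₀ A = θⁿ a₀ + ϖ b₀`
with `e₀ ∉ 𝔫`, then `E X' ≡ θ^(n(m-1)) t₀` modulo `ϖ` for some `E ∉ 𝔫` (`s34po_local`): the pole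
order of the first-order term of an approximate `m`-th root is at most `n`.

This is the S18 pole lemma (`S18/PoleOfAbs.lean`) with `Prime ϖ` replaced by `θ` being a
non-zero-divisor modulo `ϖ`, and the base step (which used `R ⧸ ϖ R` integrally closed) replaced
by the normalisation hypothesis.
-/
import Mathlib

set_option autoImplicit false
set_option linter.style.haveILetI false

noncomputable section

namespace Fermat.Agent.S34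

section Abstract

variable {R : Type*} [CommRing R]

/-- A non-zero-divisor modulo `ϖ` stays one after taking powers. -/
theorem s34po_nzd_pow {ϖ θ : R} (hθ : ∀ r : R, ϖ ∣ θ * r → ϖ ∣ r) (N : ℕ) :
    ∀ r : R, ϖ ∣ θ ^ N * r → ϖ ∣ r := by
  induction N with
  | zero =>
    intro r h
    simpa using h
  | succ N ih =>
    intro r h
    apply ih
    apply hθ
    have e : θ * (θ ^ N * r) = θ ^ (N + 1) * r := by ring
    rw [e]
    exact h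

/-- Products of non-zero-divisors modulo `ϖ`. -/
theorem s34po_nzd_mul {ϖ a b : R} (ha : ∀ r : R, ϖ ∣ a * r → ϖ ∣ r)
    (hb : ∀ r : R, ϖ ∣ b * r → ϖ ∣ r) : ∀ r : R, ϖ ∣ (a * b) * r → ϖ ∣ r := by
  intro r h
  apply hb
  apply ha
  have e : a * (b * r) = a * b * r := by ring
  rw [e]
  exact h

variable [IsDomain R]

/-- Cancellation of a non-zero-divisor modulo `ϖ` modulo every power of `ϖ`. -/
theorem s34po_pow_dvd_of_nzd {ϖ θ : R} (hϖ0 : ϖ ≠ 0) (hθ : ∀ r : R, ϖ ∣ θ * r → ϖ ∣ r) :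
    ∀ (i : ℕ) (r : R), ϖ ^ i ∣ θ * r → ϖ ^ i ∣ r := by
  intro i
  induction i with
  | zero =>
    intro r _
    simp
  | succ i ih =>
    intro r h
    obtain ⟨r', hr'⟩ := ih r (Dvd.dvd.trans (pow_dvd_pow ϖ (Nat.le_succ i)) h)
    obtain ⟨w, hw⟩ := h
    have h1 : θ * r' = ϖ * w := by
      apply mul_left_cancel₀ (pow_ne_zero i hϖ0)
      rw [hr'] at hw
      linear_combination hw
    obtain ⟨r'', hr''⟩ := hθ r' ⟨w, h1⟩
    exact ⟨r'', by rw [hr', hr'']; ring⟩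

/-- The binomial expansion of `(e A) ^ m` for `e A = θⁿ a + ϖⁱ b`. -/
theorem s34po_expand {ϖ : R} (hϖ0 : ϖ ≠ 0) {m : ℕ} {θ : R}
    (hθ : ∀ r : R, ϖ ∣ θ * r → ϖ ∣ r)
    (n k i : ℕ) (hik : i ≤ k + 1) {A G X' e a b : R}
    (hA : A ^ m = G * (θ ^ (n * m) + ϖ ^ (k + 1) * X'))
    (he : e * A = θ ^ n * a + ϖ ^ i * b) :
    ∃ η r : R, a ^ m = e ^ m * G + ϖ ^ i * η ∧
      θ ^ (n * m) * η + (m : R) * θ ^ (n * (m - 1)) * a ^ (m - 1) * b + ϖ ^ i * r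
        = ϖ ^ (k + 1 - i) * (e ^ m * G * X') := by
  obtain ⟨r₀, hr₀⟩ := Polynomial.powAddExpansion (θ ^ n * a) (ϖ ^ i * b) m
  have hk : ϖ ^ (k + 1) = ϖ ^ i * ϖ ^ (k + 1 - i) := by
    rw [← pow_add, Nat.add_sub_cancel' hik]
  have h1 : (e * A) ^ m =
      e ^ m * G * θ ^ (n * m) + ϖ ^ i * (ϖ ^ (k + 1 - i) * (e ^ m * G * X')) := by
    rw [mul_pow, hA, hk]
    ring
  rw [he, hr₀] at h1
  have h3 : (θ ^ n * a) ^ m = θ ^ (n * m) * a ^ m := by rw [mul_pow, pow_mul]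
  have h4 : (θ ^ n * a) ^ (m - 1) = θ ^ (n * (m - 1)) * a ^ (m - 1) := by rw [mul_pow, pow_mul]
  rw [h3, h4] at h1
  have h2 : θ ^ (n * m) * (a ^ m - e ^ m * G) =
      ϖ ^ i * (ϖ ^ (k + 1 - i) * (e ^ m * G * X')
        - m * (θ ^ (n * (m - 1)) * a ^ (m - 1)) * b - r₀ * ϖ ^ i * b ^ 2) := by
    linear_combination h1
  have h5 : ϖ ^ i ∣ a ^ m - e ^ m * G :=
    s34po_pow_dvd_of_nzd hϖ0 (s34po_nzd_pow hθ (n * m)) i _ ⟨_, h2⟩
  obtain ⟨η, hη⟩ := h5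
  refine ⟨η, r₀ * b ^ 2, by linear_combination hη, ?_⟩
  have hϖi : ϖ ^ i ≠ 0 := pow_ne_zero i hϖ0
  apply mul_left_cancel₀ hϖi
  rw [hη] at h2
  linear_combination h2

/-- The induction: `e A ∈ θⁿ R + ϖⁱ R` for some `e ∉ 𝔫`, `1 ≤ i ≤ k + 1`, starting from the
normalisation `e₀ A = θⁿ a₀ + ϖ b₀`. -/
theorem s34po_induct {ϖ : R} (hϖ0 : ϖ ≠ 0) (𝔫 : Ideal R) [h𝔫 : 𝔫.IsPrime] (hϖn : ϖ ∈ 𝔫)
    {m : ℕ} (hm : 0 < m) (hmn : (m : R) ∉ 𝔫) {θ : R} (hθ : ∀ r : R, ϖ ∣ θ * r → ϖ ∣ r)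
    (n k : ℕ) {A G X' : R} (hG : G ∉ 𝔫)
    (hA : A ^ m = G * (θ ^ (n * m) + ϖ ^ (k + 1) * X'))
    {e₀ a₀ b₀ : R} (he₀ : e₀ ∉ 𝔫) (hbase : e₀ * A = θ ^ n * a₀ + ϖ * b₀) :
    ∀ i : ℕ, 1 ≤ i → i ≤ k + 1 →
      ∃ e a b : R, e ∉ 𝔫 ∧ e * A = θ ^ n * a + ϖ ^ i * b := by
  intro i hi
  induction i, hi using Nat.le_induction with
  | base =>
    intro _
    exact ⟨e₀, a₀, b₀, he₀, by rw [pow_one]; exact hbase⟩
  | succ i hi ih =>
    intro hik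
    obtain ⟨e, a, b, he, heA⟩ := ih (by omega)
    obtain ⟨η, r, hη, hr⟩ := s34po_expand hϖ0 hθ n k i (by omega) hA heA
    have h1 : ϖ ∣ θ ^ (n * (m - 1)) * (θ ^ n * η + m * a ^ (m - 1) * b) := by
      have hk : ϖ ^ (k + 1 - i) = ϖ * ϖ ^ (k - i) := by
        rw [← pow_succ']
        congr 1
        omega
      have hi' : ϖ ^ i = ϖ * ϖ ^ (i - 1) := by
        rw [← pow_succ']
        congr 1
        omega
      have hnm : θ ^ (n * m) = θ ^ (n * (m - 1)) * θ ^ n := by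
        rw [← pow_add]
        congr 1
        obtain ⟨m', rfl⟩ : ∃ m', m = m' + 1 := ⟨m - 1, by omega⟩
        simp only [Nat.add_sub_cancel]
        ring
      refine ⟨ϖ ^ (k - i) * (e ^ m * G * X') - ϖ ^ (i - 1) * r, ?_⟩
      rw [hk, hnm] at hr
      have hr' : θ ^ (n * (m - 1)) * θ ^ n * η + (m : R) * θ ^ (n * (m - 1)) * a ^ (m - 1) * b
          + ϖ * ϖ ^ (i - 1) * r = ϖ * ϖ ^ (k - i) * (e ^ m * G * X') := by
        rw [← hi']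
        exact hr
      linear_combination hr'
    have h2 : ϖ ∣ θ ^ n * η + m * a ^ (m - 1) * b := s34po_nzd_pow hθ _ _ h1
    obtain ⟨z, hz⟩ := h2
    have ha : a ∉ 𝔫 := by
      intro ha
      have h3 : e ^ m * G ∈ 𝔫 := by
        have h4 : a ^ m ∈ 𝔫 := Ideal.pow_mem_of_mem 𝔫 ha m hm
        have h5 : ϖ ^ i * η ∈ 𝔫 := 𝔫.mul_mem_right _ (Ideal.pow_mem_of_mem 𝔫 hϖn i (by omega))
        have h6 : e ^ m * G = a ^ m - ϖ ^ i * η := by rw [hη]; ring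
        rw [h6]
        exact 𝔫.sub_mem h4 h5
      rcases h𝔫.mem_or_mem h3 with h | h
      · exact he (h𝔫.mem_of_pow_mem m h)
      · exact hG h
    refine ⟨m * a ^ (m - 1) * e, m * a ^ (m - 1) * a - ϖ ^ i * η, z, ?_, ?_⟩
    · intro h
      rcases h𝔫.mem_or_mem h with h | h
      · rcases h𝔫.mem_or_mem h with h | h
        · exact hmn h
        · exact ha (h𝔫.mem_of_pow_mem _ h)
      · exact he h
    · linear_combination (m * a ^ (m - 1)) * heA + ϖ ^ i * hz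

/-- **The local pole lemma** for a normalised approximate root. -/
theorem s34po_local {ϖ : R} (hϖ0 : ϖ ≠ 0) (𝔫 : Ideal R) [h𝔫 : 𝔫.IsPrime] (hϖn : ϖ ∈ 𝔫)
    {m : ℕ} (hm : 0 < m) (hmn : (m : R) ∉ 𝔫) {θ : R} (hθ : ∀ r : R, ϖ ∣ θ * r → ϖ ∣ r)
    (n k : ℕ) {A G X' : R} (hG : G ∉ 𝔫)
    (hA : A ^ m = G * (θ ^ (n * m) + ϖ ^ (k + 1) * X'))
    {e₀ a₀ b₀ : R} (he₀ : e₀ ∉ 𝔫) (hbase : e₀ * A = θ ^ n * a₀ + ϖ * b₀) :
    ∃ E t₀ : R, E ∉ 𝔫 ∧ ϖ ∣ E * X' - θ ^ (n * (m - 1)) * t₀ := by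
  obtain ⟨e, a, b, he, heA⟩ :=
    s34po_induct hϖ0 𝔫 hϖn hm hmn hθ n k hG hA he₀ hbase (k + 1) (by omega) le_rfl
  obtain ⟨η, r, -, hr⟩ := s34po_expand hϖ0 hθ n k (k + 1) le_rfl hA heA
  refine ⟨e ^ m * G, θ ^ n * η + m * a ^ (m - 1) * b, ?_, ?_⟩
  · intro h
    rcases h𝔫.mem_or_mem h with h | h
    · exact he (h𝔫.mem_of_pow_mem m h)
    · exact hG h
  · refine ⟨ϖ ^ k * r, ?_⟩
    have hnm : θ ^ (n * m) = θ ^ (n * (m - 1)) * θ ^ n := by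
      rw [← pow_add]
      congr 1
      obtain ⟨m', rfl⟩ : ∃ m', m = m' + 1 := ⟨m - 1, by omega⟩
      simp only [Nat.add_sub_cancel]
      ring
    rw [Nat.sub_self, pow_zero, one_mul, hnm] at hr
    linear_combination -hr

omit [IsDomain R] in
/-- **Globalisation**: the denominators `E` of `X'` modulo `T R + ϖ R` form an ideal containing
`ϖ`, which is contained in no maximal ideal. -/
theorem s34po_glob (ϖ T X' : R)
    (h : ∀ 𝔫 : Ideal R, 𝔫.IsMaximal → ϖ ∈ 𝔫 → ∃ E t₀ : R, E ∉ 𝔫 ∧ ϖ ∣ E * X' - T * t₀) :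
    ∃ t₀ : R, ϖ ∣ X' - T * t₀ := by
  let D : Ideal R :=
    { carrier := {b | ∃ t₀ : R, ϖ ∣ b * X' - T * t₀}
      add_mem' := by
        rintro a b ⟨t, ht⟩ ⟨t', ht'⟩
        refine ⟨t + t', ?_⟩
        have := dvd_add ht ht'
        convert this using 1
        ring
      zero_mem' := ⟨0, by simp⟩
      smul_mem' := by
        rintro c b ⟨t, ht⟩
        refine ⟨c * t, ?_⟩
        have := Dvd.dvd.mul_left ht c
        convert this using 1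
        simp only [smul_eq_mul]
        ring }
  have hϖD : ϖ ∈ D := ⟨0, by simp⟩
  by_cases hD : D = ⊤
  · have h1 : (1 : R) ∈ D := hD ▸ Submodule.mem_top
    obtain ⟨t₀, ht₀⟩ := h1
    exact ⟨t₀, by simpa using ht₀⟩
  · obtain ⟨𝔫, h𝔫, hD𝔫⟩ := Ideal.exists_le_maximal D hD
    obtain ⟨E, t₀, hE, hEt⟩ := h 𝔫 h𝔫 (hD𝔫 hϖD)
    exact absurd (hD𝔫 ⟨t₀, hEt⟩) hE

end Abstract

end Fermat.Agent.S34
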