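/-
S34, leaf [POLE2] of [LIFT2] (helper2).  Prefix `s34po_`.

    theorem s34po_main : s34l_PoleStatement        (S34/LiftDefs.lean, verbatim)

PROOF (elementwise in `B = s18_chart O {j}`, `θ = j`; no localisation, no hypothesis on the
special fibre).  `j`, `j⁻¹`, `u`, `u⁻¹ ∈ W`.  `(jⁿ s)^m = u c₀`, `c₀ ∈ B`.  From
`s^m - u ∈ π^(k+1) W`: `c₀ - θ^(nm) = π^(k+1) (j^(nm) u⁻¹ w₁)`, so `c₀ = θ^(nm) + π^(k+1) X'`
with `X' ∈ B` (saturation).  `θ` is a non-zero-divisor modulo `π B` (`j⁻¹ ∈ W` + saturation).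
At a maximal ideal `𝔫 ∋ π` with a normalised local generator `g` (`g^m c = u d`, `g ≡ 1`
modulo `π W`): `A := d jⁿ s / g ∈ B` (normality), `A^m = d^(m-1) c c₀`, and
`A - d θⁿ = π (d jⁿ (w_s - w_g) g⁻¹) ∈ π B` because `s ≡ 1` and `g ≡ 1` modulo `π W`
(saturation again); the abstract local lemma `s34po_local` gives `E X' ≡ θ^(n(m-1)) t₀` modulo
`π` with `E ∉ 𝔫`; by `s34po_glob` `X' = θ^(n(m-1)) t₀ + π z`, and `t := π^(k+1) t₀` works:
`jⁿ (s^m - u) - u t = π^(k+2) (u z j^(-n(m-1)))`.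
-/
import Mathlib
import Fermat.Agent.S18.LiftDefs
import Fermat.Agent.S18.PoleOf
import Fermat.Agent.S34.LiftDefs
import Fermat.Agent.S34.Pole2Abs

set_option autoImplicit false
set_option linter.style.haveILetI false
set_option linter.unusedSectionVars false

open AlgebraicCurve IntermediateField

noncomputable section

namespace Fermat.Agent.S34

open Fermat.Agent.S18

section W

variable {O : Type} [CommRing O] [IsLocalRing O] {F : Type} [Field F] [Algebra O F]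
  {j : F} {ϖ : O} {W : Subring F}

/-- `π ∈ W`. -/
theorem s34po_pi_mem (hW : s34l_IsW O j ϖ W) : algebraMap O F ϖ ∈ W :=
  hW.chart_le _ (Subalgebra.algebraMap_mem _ ϖ)

/-- `j ∈ W`. -/
theorem s34po_j_mem (hW : s34l_IsW O j ϖ W) : j ∈ W :=
  hW.chart_le _ (s18p_j_mem O j)

/-- `j⁻¹ ∈ W`. -/
theorem s34po_jinv_mem (hW : s34l_IsW O j ϖ W) : j⁻¹ ∈ W :=
  hW.chart_le' _ (s18p_j_mem O j⁻¹)

/-- Iterated saturation: `B ∩ π^k W = π^k B`. -/
theorem s34po_sat_pow (hW : s34l_IsW O j ϖ W) (k : ℕ) :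
    ∀ w ∈ W, algebraMap O F ϖ ^ k * w ∈ s18_chart O ({j} : Set F) →
      w ∈ s18_chart O ({j} : Set F) := by
  induction k with
  | zero =>
    intro w _ h
    simpa using h
  | succ k ih =>
    intro w hw h
    apply hW.sat w hw
    apply ih _ (W.mul_mem (s34po_pi_mem hW) hw)
    have e : algebraMap O F ϖ ^ k * (algebraMap O F ϖ * w) = algebraMap O F ϖ ^ (k + 1) * w := by
      ring
    rw [e]
    exact h

/-- An element of `1 + π W` and its inverse lie in `W`. -/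
theorem s34po_one_add_mem (hW : s34l_IsW O j ϖ W) {g : F}
    (hg : g - 1 ∈ s34l_gauss O ϖ W 1) : g ∈ W ∧ g⁻¹ ∈ W := by
  obtain ⟨w, hw, hgw⟩ := hg
  have e : g = 1 + algebraMap O F ϖ * w := by
    rw [pow_one] at hgw
    linear_combination hgw
  constructor
  · rw [e]
    exact W.add_mem W.one_mem (W.mul_mem (s34po_pi_mem hW) hw)
  · rw [e]
    exact hW.unit w hw

end W

/-- **[POLE2]** -/
theorem s34po_main : s34l_PoleStatement := by
  intro O K F _ _ _ _ _ _ _ _ _ _ _ j htr _hfin ϖ hϖ W hW m u hm _hu hred hloc n k s hs hs1 hsm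
  have hP : s18_fibreIdeal O ({j} : Set F) =
      Ideal.span {algebraMap O ↥(s18_chart O ({j} : Set F)) ϖ} := by
    rw [s18_fibreIdeal, hϖ.maximalIdeal_eq, Ideal.map_span, Set.image_singleton]
  set P := s18_fibreIdeal O ({j} : Set F) with hPdef
  set ϖB : ↥(s18_chart O ({j} : Set F)) := algebraMap O ↥(s18_chart O ({j} : Set F)) ϖ
    with hϖB
  have hϖF : ((ϖB : ↥(s18_chart O ({j} : Set F))) : F) = algebraMap O F ϖ := rfl
  have hϖF0 : algebraMap O F ϖ ≠ 0 := by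
    intro h0
    exact hϖ.ne_zero (s18p_inj O K F (by rw [h0, map_zero]))
  have hϖB0 : ϖB ≠ 0 := by
    intro h0
    apply hϖF0
    rw [← hϖF, h0]
    rfl
  have hPk : ∀ i : ℕ, P ^ i = Ideal.span {ϖB ^ i} := fun i => by
    rw [hP, Ideal.span_singleton_pow]
  have hm0 : 0 < m := by
    rcases Nat.eq_zero_or_pos m with h | h
    · subst h
      simp at hm
    · exact h
  have hj0 : j ≠ 0 := by
    intro h0
    apply htr
    rw [h0]
    exact isAlgebraic_zero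
  -- the coordinate
  set θ : ↥(s18_chart O ({j} : Set F)) := ⟨j, s18p_j_mem O j⟩ with hθdef
  have hθj : ((θ : ↥(s18_chart O ({j} : Set F))) : F) = j := rfl
  have hjW := s34po_j_mem hW
  have hjiW := s34po_jinv_mem hW
  have hπW := s34po_pi_mem hW
  have hBW : ∀ b : ↥(s18_chart O ({j} : Set F)), (b : F) ∈ W := fun b => hW.chart_le _ b.2
  -- `θ` is a non-zero-divisor modulo `π`
  have hθ : ∀ r : ↥(s18_chart O ({j} : Set F)), ϖB ∣ θ * r → ϖB ∣ r := by
    rintro r ⟨r', hr'⟩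
    have hF : j * (r : F) = algebraMap O F ϖ * (r' : F) := by
      have := congrArg Subtype.val hr'
      push_cast at this
      rw [hθj, hϖF] at this
      exact this
    have hw : j⁻¹ * (r' : F) ∈ W := W.mul_mem hjiW (hBW r')
    have he : algebraMap O F ϖ * (j⁻¹ * (r' : F)) = (r : F) := by
      have : (r : F) = j⁻¹ * (j * (r : F)) := by
        rw [← mul_assoc, inv_mul_cancel₀ hj0, one_mul]
      rw [this, hF]
      ring
    have hmem : j⁻¹ * (r' : F) ∈ s18_chart O ({j} : Set F) := by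
      apply hW.sat _ hw
      rw [he]
      exact r.2
    refine ⟨⟨_, hmem⟩, ?_⟩
    apply Subtype.ext
    push_cast
    rw [hϖF]
    exact he.symm
  have hnm : n * m = n * (m - 1) + n := by
    obtain ⟨m', rfl⟩ : ∃ m', m = m' + 1 := ⟨m - 1, by omega⟩
    simp only [Nat.add_sub_cancel]
    ring
  -- the data
  obtain ⟨c₀, hc₀⟩ := hs
  obtain ⟨huW, huiW⟩ := s34po_one_add_mem hW hred
  have hu0 : u ≠ 0 := _hu
  obtain ⟨ws, hws, hsws⟩ := hs1
  obtain ⟨w₁, hw₁, hsw₁⟩ := hsm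
  rw [pow_one] at hsws
  -- saturation
  have hX'mem : j ^ (n * m) * u⁻¹ * w₁ ∈ s18_chart O ({j} : Set F) := by
    apply s34po_sat_pow hW (k + 1) _
      (W.mul_mem (W.mul_mem (W.pow_mem hjW _) huiW) hw₁)
    have e : algebraMap O F ϖ ^ (k + 1) * (j ^ (n * m) * u⁻¹ * w₁)
        = ((c₀ - θ ^ (n * m) : ↥(s18_chart O ({j} : Set F))) : F) := by
      push_cast
      rw [hθj]
      have h1 : (c₀ : F) = u⁻¹ * (j ^ n * s) ^ m := by
        rw [hc₀, ← mul_assoc, inv_mul_cancel₀ hu0, one_mul]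
      rw [h1, mul_pow, ← pow_mul]
      have h2 : algebraMap O F ϖ ^ (k + 1) * w₁ = s ^ m - u := hsw₁.symm
      have h3 : u⁻¹ * u = 1 := inv_mul_cancel₀ hu0
      linear_combination (j ^ (n * m) * u⁻¹) * h2 - (j ^ (n * m)) * h3
    rw [e]
    exact (c₀ - θ ^ (n * m)).2
  set X' : ↥(s18_chart O ({j} : Set F)) := ⟨_, hX'mem⟩ with hX'def
  have hX'F : (X' : F) = j ^ (n * m) * u⁻¹ * w₁ := rfl
  have hX' : c₀ = θ ^ (n * m) + ϖB ^ (k + 1) * X' := by
    apply Subtype.ext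
    push_cast
    rw [hθj, hϖF, hX'F]
    have h1 : (c₀ : F) = u⁻¹ * (j ^ n * s) ^ m := by
      rw [hc₀, ← mul_assoc, inv_mul_cancel₀ hu0, one_mul]
    rw [h1, mul_pow, ← pow_mul]
    have h2 : algebraMap O F ϖ ^ (k + 1) * w₁ = s ^ m - u := hsw₁.symm
    have h3 : u⁻¹ * u = 1 := inv_mul_cancel₀ hu0
    linear_combination (-(j ^ (n * m) * u⁻¹)) * h2 + (j ^ (n * m)) * h3
  -- the local lemma at the closed points
  have hlocal : ∀ 𝔫 : Ideal ↥(s18_chart O ({j} : Set F)), 𝔫.IsMaximal → ϖB ∈ 𝔫 →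
      ∃ E t₀ : ↥(s18_chart O ({j} : Set F)),
        E ∉ 𝔫 ∧ ϖB ∣ E * X' - θ ^ (n * (m - 1)) * t₀ := by
    intro 𝔫 h𝔫 hϖ𝔫
    have hP𝔫 : P ≤ 𝔫 := by
      rw [hP, Ideal.span_singleton_le_iff_mem]
      exact hϖ𝔫
    obtain ⟨g, hg, hg1, c, d, hc, hd, hgcd⟩ := hloc 𝔫 h𝔫 hP𝔫
    haveI h𝔫p : 𝔫.IsPrime := h𝔫.isPrime
    obtain ⟨-, hgiW⟩ := s34po_one_add_mem hW hg1
    obtain ⟨wg, hwg, hgwg⟩ := hg1
    rw [pow_one] at hgwg
    have hA : ∃ A : ↥(s18_chart O ({j} : Set F)), A ^ m = d ^ (m - 1) * c * c₀ ∧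
        (A : F) = (d : F) * (j ^ n * s) * g⁻¹ := by
      have hAF : ((d : F) * (j ^ n * s) / g) ^ m =
          ((d ^ (m - 1) * c * c₀ : ↥(s18_chart O ({j} : Set F))) : F) := by
        push_cast
        have hgm : g ^ m ≠ 0 := pow_ne_zero m hg
        have hdm : (d : F) ^ m = (d : F) ^ (m - 1) * d := by
          rw [← pow_succ]
          congr 1
          omega
        rw [div_pow, div_eq_iff hgm, mul_pow, hc₀, hdm]
        linear_combination (-(d : F) ^ (m - 1) * c₀) * hgcd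
      exact ⟨⟨_, s18p_mem_of_pow O j hm0 _ hAF⟩, Subtype.ext hAF, div_eq_mul_inv _ _⟩
    obtain ⟨A, hA, hAg⟩ := hA
    have hA' : A ^ m = (d ^ (m - 1) * c) * (θ ^ (n * m) + ϖB ^ (k + 1) * X') := by
      rw [hA, ← hX']
    have hG : d ^ (m - 1) * c ∉ 𝔫 := by
      intro h
      rcases h𝔫p.mem_or_mem h with h | h
      · exact hd (h𝔫p.mem_of_pow_mem _ h)
      · exact hc h
    have hmn : ((m : ℕ) : ↥(s18_chart O ({j} : Set F))) ∉ 𝔫 := by
      intro h
      have hu : IsUnit ((m : ℕ) : ↥(s18_chart O ({j} : Set F))) := by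
        have := hm.map (algebraMap O ↥(s18_chart O ({j} : Set F)))
        simpa using this
      exact h𝔫.ne_top (Ideal.eq_top_of_isUnit_mem _ h hu)
    -- the normalisation
    have hb₀W : (d : F) * j ^ n * (ws - wg) * g⁻¹ ∈ W :=
      W.mul_mem (W.mul_mem (W.mul_mem (hBW d) (W.pow_mem hjW n)) (W.sub_mem hws hwg)) hgiW
    have hb₀e : algebraMap O F ϖ * ((d : F) * j ^ n * (ws - wg) * g⁻¹)
        = ((A - d * θ ^ n : ↥(s18_chart O ({j} : Set F))) : F) := by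
      push_cast
      rw [hθj, hAg]
      have h3 : g * g⁻¹ = 1 := mul_inv_cancel₀ hg
      linear_combination ((d : F) * j ^ n * g⁻¹) * hgwg - ((d : F) * j ^ n * g⁻¹) * hsws
        - ((d : F) * j ^ n) * h3
    have hb₀mem : (d : F) * j ^ n * (ws - wg) * g⁻¹ ∈ s18_chart O ({j} : Set F) := by
      apply hW.sat _ hb₀W
      rw [hb₀e]
      exact (A - d * θ ^ n).2
    have hbase : (1 : ↥(s18_chart O ({j} : Set F))) * A
        = θ ^ n * d + ϖB * ⟨_, hb₀mem⟩ := by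
      apply Subtype.ext
      have := hb₀e
      push_cast at this ⊢
      rw [hϖF]
      linear_combination -this
    exact s34po_local hϖB0 𝔫 hϖ𝔫 hm0 hmn hθ n k hG hA'
      ((Ideal.ne_top_iff_one 𝔫).1 h𝔫p.ne_top) hbase
  -- globalisation
  obtain ⟨t₀, z, hz⟩ := s34po_glob ϖB (θ ^ (n * (m - 1))) X' hlocal
  refine ⟨ϖB ^ (k + 1) * t₀, ?_, ?_⟩
  · rw [hPk]
    exact Ideal.mem_span_singleton.2 (Dvd.intro _ rfl)
  · refine ⟨u * (z : F) * j⁻¹ ^ (n * (m - 1)),
      W.mul_mem (W.mul_mem huW (hBW z)) (W.pow_mem hjiW _), ?_⟩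
    have hzF := congrArg Subtype.val hz
    have hX'F' := congrArg Subtype.val hX'
    push_cast at hzF hX'F' ⊢
    rw [hθj, hϖF] at hzF hX'F'
    rw [hϖF]
    have hjN : j ^ (n * (m - 1)) ≠ 0 := pow_ne_zero _ hj0
    have hjj : j⁻¹ ^ (n * (m - 1)) * j ^ (n * (m - 1)) = 1 := by
      rw [inv_pow, inv_mul_cancel₀ hjN]
    apply mul_right_cancel₀ hjN
    rw [mul_pow, ← pow_mul] at hc₀
    rw [hnm, pow_add] at hc₀ hX'F'
    linear_combination hc₀ + u * hX'F'
      + (u * algebraMap O F ϖ ^ (k + 1)) * hzF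
      - (algebraMap O F ϖ ^ (k + 2) * u * (z : F)) * hjj

end Fermat.Agent.S34
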