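/-
S34, package [SURJ2] of the cut of [LIFT2] in `S34/LiftDefs.lean` (helper28).  Prefix `s34su_`.

    theorem s34su_main : s34l_SurjStatement

`B = s18_chart O {j}`, `P = s18_fibreIdeal O {j} = π B`, `W` an abstract subring of `F` with
`s34l_IsW O j ϖ W`, `π^k W = s34l_gauss O ϖ W k`, `I = s18_root O j u m = {f : f^m ∈ u B}`.

PROOF.  `I` is closed under `+` and under multiplication by `B` (`B` is integrally closed in `F`:
`s18s_root_add`, `s18s_root_smul`), and `π W` is a `B`-module (`B ⊆ W`).  Hence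
`J₀ = {b ∈ B : ∃ f ∈ I, f - b ∈ π W}` is an ideal of `B` containing `P` (`s34su_J`).  If
`J₀ ≠ B` there is a maximal ideal `𝔫 ⊇ J₀`; the normalised local generator `g` at `𝔫`
(`g - 1 ∈ π W`, `g^m c = u d`, `c, d ∉ 𝔫`) gives `f = c g ∈ I` with `f - c = c (g - 1) ∈ π W`,
so `c ∈ J₀ ∖ 𝔫`: contradiction.  (Only `chart_le` of `s34l_IsW` is used.)
-/
import Mathlib
import Fermat.Agent.S18.SurjOf
import Fermat.Agent.S34.LiftDefs

set_option autoImplicit false

open AlgebraicCurve IntermediateField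
open scoped TensorProduct

noncomputable section

namespace Fermat.Agent.S34

open Fermat.Agent.S18

section s34su_tools

variable {O : Type} [CommRing O] [IsLocalRing O] {F : Type} [Field F] [Algebra O F]

omit [IsLocalRing O] in
theorem s34su_gauss_add {ϖ : O} {W : Subring F} {k : ℕ} {f g : F}
    (hf : f ∈ s34l_gauss O ϖ W k) (hg : g ∈ s34l_gauss O ϖ W k) :
    f + g ∈ s34l_gauss O ϖ W k := by
  obtain ⟨w₁, hw₁, rfl⟩ := hf
  obtain ⟨w₂, hw₂, rfl⟩ := hg
  exact ⟨w₁ + w₂, W.add_mem hw₁ hw₂, by ring⟩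

omit [IsLocalRing O] in
theorem s34su_gauss_smul {ϖ : O} {W : Subring F} {k : ℕ} {b f : F} (hb : b ∈ W)
    (hf : f ∈ s34l_gauss O ϖ W k) : b * f ∈ s34l_gauss O ϖ W k := by
  obtain ⟨w, hw, rfl⟩ := hf
  exact ⟨b * w, W.mul_mem hb hw, by ring⟩

/-- `0 - b ∈ π W` for `b` in the ideal of the special fibre. -/
theorem s34su_gauss_of_mem {j : F} {ϖ : O} (hϖ : IsLocalRing.maximalIdeal O = Ideal.span {ϖ})
    {W : Subring F} (hle : ∀ x ∈ s18_chart O ({j} : Set F), x ∈ W)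
    {b : ↥(s18_chart O ({j} : Set F))} (hb : b ∈ s18_fibreIdeal O ({j} : Set F)) :
    (0 : F) - (b : F) ∈ s34l_gauss O ϖ W 1 := by
  have hP : s18_fibreIdeal O ({j} : Set F) =
      Ideal.span {algebraMap O ↥(s18_chart O ({j} : Set F)) ϖ} := by
    unfold s18_fibreIdeal
    rw [hϖ, Ideal.map_span, Set.image_singleton]
  rw [hP] at hb
  obtain ⟨b', hb'⟩ := Ideal.mem_span_singleton'.mp hb
  refine ⟨-(b' : F), W.neg_mem (hle _ b'.2), ?_⟩
  rw [← hb', pow_one]
  push_cast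
  ring

/-- The ideal of all `b ∈ B` which are `≡ f` modulo `π W` for some `f ∈ I`. -/
def s34su_J (j : F) (ϖ : O) (hϖ : IsLocalRing.maximalIdeal O = Ideal.span {ϖ})
    (W : Subring F) (hle : ∀ x ∈ s18_chart O ({j} : Set F), x ∈ W)
    (u : F) (m : ℕ) (hm : 0 < m) (hu : u ≠ 0) : Ideal ↥(s18_chart O ({j} : Set F)) where
  carrier := {b | ∃ f : F, f ∈ s18_root O j u m ∧ f - (b : F) ∈ s34l_gauss O ϖ W 1}
  zero_mem' := ⟨0, s18s_root_zero hm, by
    have := s34su_gauss_of_mem (j := j) hϖ hle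
      (Ideal.zero_mem (s18_fibreIdeal O ({j} : Set F)))
    simpa using this⟩
  add_mem' := by
    rintro a b ⟨f, hf, hfa⟩ ⟨g, hg, hgb⟩
    refine ⟨f + g, s18s_root_add hm hu hf hg, ?_⟩
    have := s34su_gauss_add hfa hgb
    have e : f + g - ((a + b : ↥(s18_chart O ({j} : Set F))) : F) =
        f - (a : F) + (g - (b : F)) := by
      push_cast
      ring
    rw [e]
    exact this
  smul_mem' := by
    rintro c b ⟨f, hf, hfb⟩
    refine ⟨(c : F) * f, s18s_root_smul c hf, ?_⟩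
    have := s34su_gauss_smul (hle _ c.2) hfb
    have e : (c : F) * f - ((c • b : ↥(s18_chart O ({j} : Set F))) : F) =
        (c : F) * (f - (b : F)) := by
      rw [smul_eq_mul]
      push_cast
      ring
    rw [e]
    exact this

theorem s34su_le_J {j : F} {ϖ : O} (hϖ : IsLocalRing.maximalIdeal O = Ideal.span {ϖ})
    {W : Subring F} (hle : ∀ x ∈ s18_chart O ({j} : Set F), x ∈ W)
    {u : F} {m : ℕ} (hm : 0 < m) (hu : u ≠ 0) :
    s18_fibreIdeal O ({j} : Set F) ≤ s34su_J j ϖ hϖ W hle u m hm hu :=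
  fun _ hb => ⟨0, s18s_root_zero hm, s34su_gauss_of_mem hϖ hle hb⟩

/-- **[SURJ2]**, the core: only `B ⊆ W` is used. -/
theorem s34su_surj {j : F} {ϖ : O} (hϖ : IsLocalRing.maximalIdeal O = Ideal.span {ϖ})
    {W : Subring F} (hle : ∀ x ∈ s18_chart O ({j} : Set F), x ∈ W)
    {u : F} {m : ℕ} (hm : 0 < m) (hu : u ≠ 0) (hloc : s34l_LocGen O j ϖ W u m) :
    s34l_Surj O j ϖ W u m := by
  have htop : s34su_J j ϖ hϖ W hle u m hm hu = ⊤ := by
    by_contra hne
    obtain ⟨𝔫, h𝔫, hJ𝔫⟩ := Ideal.exists_le_maximal _ hne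
    have hP𝔫 : s18_fibreIdeal O ({j} : Set F) ≤ 𝔫 := le_trans (s34su_le_J hϖ hle hm hu) hJ𝔫
    obtain ⟨g, -, hg1, c, d, hc, -, hgcd⟩ := hloc 𝔫 h𝔫 hP𝔫
    have hfm : ((c : F) * g) ^ m =
        u * ((c ^ (m - 1) * d : ↥(s18_chart O ({j} : Set F))) : F) := by
      have e : (c : F) ^ m = (c : F) ^ (m - 1) * c := by
        rw [← pow_succ, Nat.sub_add_cancel hm]
      rw [mul_pow, e]
      push_cast
      linear_combination (c : F) ^ (m - 1) * hgcd
    have hfI : (c : F) * g ∈ s18_root O j u m := ⟨c ^ (m - 1) * d, hfm⟩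
    have hfc : (c : F) * g - (c : F) ∈ s34l_gauss O ϖ W 1 := by
      have e : (c : F) * g - (c : F) = (c : F) * (g - 1) := by ring
      rw [e]
      exact s34su_gauss_smul (hle _ c.2) hg1
    exact hc (hJ𝔫 ⟨(c : F) * g, hfI, hfc⟩)
  intro b
  have hbJ : b ∈ s34su_J j ϖ hϖ W hle u m hm hu := by
    rw [htop]
    exact Submodule.mem_top
  exact hbJ

end s34su_tools

/-- **[SURJ2]** -/
theorem s34su_main : s34l_SurjStatement := by
  intro O K F _ _ _ _ _ _ _ _ _ _ _ j _ _ ϖ hϖ W hW m u hm hu _ hloc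
  exact s34su_surj hϖ.maximalIdeal_eq hW.chart_le hm hu hloc

end Fermat.Agent.S34
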