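/-
S34, **[LIFT2] CLOSED** (helper18): `s34l_lift2_main : s34l_Lift2Statement`, hypothesis-free.

The abstract lifting theorem: `O` a discrete valuation ring with fraction field `K` of
characteristic `0` and uniformizer `π`, `F / K(j)` finite, `W ⊆ F` a subring with
`s34l_IsW O j π W`, `m` a unit of `O`, `u ∈ Fˣ` with `u ≡ 1` modulo `π W` and normalised local
generators (`s34l_LocGen`) at all closed points of the special fibre of both charts
⟹ `1 ⊗ u` is an `m`-th power in `C ⊗[K] F` for every algebraically closed field `C ⊇ K`.

Leaves: [SURJ2] `s34su_main` (helper28), [POLE2] `s34po_main` (helper2), [FIN2] + [CECH2]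
`s34fin_main`, `s34ce_main'` (helper7), [GLOB2] `s34l_glob_main` (helper18), and the
Nullstellensatz step `s18ns_main` of S18.
-/
import Mathlib
import Fermat.Agent.S34.LiftWire
import Fermat.Agent.S34.Surj2
import Fermat.Agent.S34.Pole2

set_option autoImplicit false

open Fermat.Agent.S18

noncomputable section

namespace Fermat.Agent.S34

/-- **[LIFT2]**, hypothesis-free. -/
theorem s34l_lift2_main : s34l_Lift2Statement :=
  s34l_lift2_of_leaves s34su_main s34po_main

end Fermat.Agent.S34
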