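/-
S34, leaf [SS-COUNT] = (D1) of the cut, part (C4).  Owner: helper26.  Prefix `s34co_`.

THE RESIDUE FIELDS OF THE TWO BRANCHES ARE THE RESIDUE FIELD OF THE LEVEL `M`.
Level `M * q`, `q ∤ M`, residue characteristic `q`, `W ∘ W = 1`, `W j = j_q`:

  `s34co_res_inf`  : `∀ y ∈ V_∞ (level M q), ∃ z ∈ V_∞ (level M), ρ_∞ y = ρ_M z`;
  `s34co_res_zero` : `∀ y ∈ V_0, ∃ z ∈ V_∞ (level M), ρ_0 y = ρ_M z`.

(`f_∞ = ψ(M)` and `f_0 = q ψ(M)` exactly: the image of `ρ_M` is a field, the residue field of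
the Gauss valuation of `F_K(M)`.)
-/
import Mathlib
import Fermat.Agent.S34.CountMain

set_option autoImplicit false
set_option linter.unusedSectionVars false
set_option linter.unusedVariables false
set_option linter.style.haveILetI false
set_option synthInstance.maxHeartbeats 400000
set_option maxHeartbeats 400000

open AlgebraicCurve ModularCurve IntermediateField Polynomial
open Fermat.Agent.S18
open scoped MatrixGroups

noncomputable section

namespace Fermat.Agent.S34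

section Range

variable {O K : Type} [CommRing O] [IsDomain O] [IsDiscreteValuationRing O] [Field K]
  [CharZero K] [Algebra O K] [IsFractionRing O K] {M : ℕ} [NeZero M]

/-- The image of `ρ_∞` is closed under inverses. -/
theorem s34co_range_inv (t : LaurentSeries (IsLocalRing.ResidueField O))
    (ht : t ∈ (s34g_rho O K M).range) : t⁻¹ ∈ (s34g_rho O K M).range := by
  obtain ⟨v, rfl⟩ := ht
  by_cases h0 : s34g_rho O K M v = 0
  · rw [h0, inv_zero]
    exact Subring.zero_mem _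
  · have hv0 : (v : ↥(s18_F K M)) ≠ 0 := by
      intro h
      apply h0
      have : v = 0 := Subtype.ext h
      rw [this, map_zero]
    refine ⟨⟨(v : ↥(s18_F K M))⁻¹, s34g_inv_mem v h0⟩, ?_⟩
    have h1 : (⟨(v : ↥(s18_F K M))⁻¹, s34g_inv_mem v h0⟩ : ↥(s34g_V O K M)) * v = 1 :=
      Subtype.ext (inv_mul_cancel₀ hv0)
    have h2 := congrArg (s34g_rho O K M) h1
    rw [map_mul, map_one] at h2
    exact eq_inv_of_mul_eq_one_left h2

/-- `P̄ (t)` lies in the image of `ρ_∞` for `t` in the image, `P ∈ O[X]`. -/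
theorem s34co_range_aeval (t : LaurentSeries (IsLocalRing.ResidueField O))
    (ht : t ∈ (s34g_rho O K M).range) (P : O[X]) :
    aeval t (P.map (IsLocalRing.residue O)) ∈ (s34g_rho O K M).range := by
  obtain ⟨v, rfl⟩ := ht
  exact ⟨_, s34co_rho_aeval (O := O) (v : ↥(s18_F K M)) v.2 P⟩

theorem s34co_range_j :
    jqModC (IsLocalRing.ResidueField O) ∈ (s34g_rho O K M).range :=
  ⟨_, s34g_rho_j⟩

end Range

section Abs

variable {R F L : Type*} [CommRing R] [Field F] [Algebra R F] [Field L]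

/-- If the reductions of `R` and of the `x i` lie in a subring `S` of `L`, and `y` is congruent
to an `R`-combination of the `x i` modulo the non-units, then the reduction of `y` lies in `S`. -/
theorem s34co_range_of_span (V : ValuationSubring F) (ρ : ↥V →+* L)
    (hnu : ∀ y : ↥V, (y : F) ∈ V.nonunits → ρ y = 0)
    (hle : ∀ r : R, algebraMap R F r ∈ V) (S : Subring L)
    (hR : ∀ r : R, ρ ⟨algebraMap R F r, hle r⟩ ∈ S)
    (a : ℕ) (x : Fin a → F) (hx : ∀ i, x i ∈ V) (hxS : ∀ i, ρ ⟨x i, hx i⟩ ∈ S)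
    (y : F) (hy : y ∈ V) (c : Fin a → R) (hc : y - ∑ i, c i • x i ∈ V.nonunits) :
    ρ ⟨y, hy⟩ ∈ S := by
  have hmem : ∀ i, c i • x i ∈ V := fun i => by
    rw [Algebra.smul_def]
    exact V.mul_mem _ _ (hle (c i)) (hx i)
  have hs : (∑ i, c i • x i) ∈ V := Subring.sum_mem V.toSubring (fun i _ => hmem i)
  have h0 := hnu ⟨_, s34ca_nu_mem V hc⟩ hc
  have e0 : (⟨y - ∑ i, c i • x i, s34ca_nu_mem V hc⟩ : ↥V) =
      ⟨y, hy⟩ - ⟨∑ i, c i • x i, hs⟩ := rfl
  rw [e0, map_sub, sub_eq_zero] at h0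
  have h1 : (⟨∑ i, c i • x i, hs⟩ : ↥V) =
      ∑ i, (⟨algebraMap R F (c i), hle (c i)⟩ : ↥V) * ⟨x i, hx i⟩ := by
    apply Subtype.ext
    have h4 : ((∑ i, (⟨algebraMap R F (c i), hle (c i)⟩ : ↥V) * ⟨x i, hx i⟩ : ↥V) : F) =
        ∑ i, algebraMap R F (c i) * x i := by
      rw [show ((∑ i, (⟨algebraMap R F (c i), hle (c i)⟩ : ↥V) * ⟨x i, hx i⟩ : ↥V) : F) =
        V.subtype (∑ i, (⟨algebraMap R F (c i), hle (c i)⟩ : ↥V) * ⟨x i, hx i⟩) from rfl,
        map_sum]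
      rfl
    rw [h4]
    show (∑ i, c i • x i) = ∑ i, algebraMap R F (c i) * x i
    exact Finset.sum_congr rfl (fun i _ => Algebra.smul_def (c i) (x i))
  rw [h0, h1, map_sum]
  refine Subring.sum_mem S (fun i _ => ?_)
  rw [map_mul]
  exact S.mul_mem (hR (c i)) (hxS i)

end Abs

section Res

variable {O K : Type} [CommRing O] [IsDomain O] [IsDiscreteValuationRing O] [Field K]
  [CharZero K] [Algebra O K] [IsFractionRing O K] {M q : ℕ} [NeZero M] [NeZero q]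
  [NeZero (M * q)]

/-- The reductions of the Gauss ring of `K(j)` lie in the image of `ρ_M`. -/
theorem s34co_range_R {ϖ : O} (hϖ : Irreducible ϖ) (r : ↥(s34co_R O K (M * q))) :
    s34g_rho O K (M * q) ⟨((r : ↥(K⟮s18_j K (M * q)⟯)) : ↥(s18_F K (M * q))), r.2⟩ ∈
      (s34g_rho O K M).range := by
  letI := s18_algOF O K (M * q)
  haveI := s18_towerOF O K (M * q)
  have hG := s34co_gauss_inf (K := K) (N := M * q) hϖ
  obtain ⟨P, Q, hQ, hPQ⟩ := s34cg_form (K := K) hϖ hG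
    ((r : ↥(K⟮s18_j K (M * q)⟯)) : ↥(s18_F K (M * q))) (r : ↥(K⟮s18_j K (M * q)⟯)).2 r.2
  have hQ' : aeval (s34g_rho O K (M * q) ⟨s18_j K (M * q), s34g_j_mem⟩)
      (Q.map (IsLocalRing.residue O)) ≠ 0 := by
    rw [s34g_rho_j]
    exact fun h0 => hQ ((transcendental_iff.mp (s18gq_transc_jq _)) _ h0)
  have h1 : s34g_rho O K (M * q)
      ⟨((r : ↥(K⟮s18_j K (M * q)⟯)) : ↥(s18_F K (M * q))), r.2⟩ =
      aeval (s34g_rho O K (M * q) ⟨s18_j K (M * q), s34g_j_mem⟩)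
        (P.map (IsLocalRing.residue O)) /
      aeval (s34g_rho O K (M * q) ⟨s18_j K (M * q), s34g_j_mem⟩)
        (Q.map (IsLocalRing.residue O)) :=
    s34co_rho_frac (O := O) (s18_j K (M * q)) _ s34g_j_mem r.2 P Q hPQ hQ'
  rw [s34g_rho_j] at h1
  rw [h1, div_eq_mul_inv]
  exact Subring.mul_mem _ (s34co_range_aeval _ s34co_range_j P)
    (s34co_range_inv _ (s34co_range_aeval _ s34co_range_j Q))

variable (W : ↥(s18_F K (M * q)) ≃ₐ[K] ↥(s18_F K (M * q)))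

/-- The reductions at `0` of the Gauss ring of `K(j)` lie in the image of `ρ_M`. -/
theorem s34co_range_R_zero [Fact q.Prime] (hqO : (q : O) ∈ IsLocalRing.maximalIdeal O)
    {ϖ : O} (hϖ : Irreducible ϖ)
    (hWj : W (s18_j K (M * q)) = s34g_jd K (M * q) q (dvd_mul_left q M))
    (r : ↥(s34co_R O K (M * q))) :
    s34g_rho0 O W ⟨((r : ↥(K⟮s18_j K (M * q)⟯)) : ↥(s18_F K (M * q))),
      s34co_R_le_zero W hϖ q (dvd_mul_left q M) hWj r⟩ ∈ (s34g_rho O K M).range := by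
  letI := s18_algOF O K (M * q)
  haveI := s18_towerOF O K (M * q)
  haveI := s18gq_charP O q hqO
  have hG := s34co_gauss_inf (K := K) (N := M * q) hϖ
  obtain ⟨P, Q, hQ, hPQ⟩ := s34cg_form (K := K) hϖ hG
    ((r : ↥(K⟮s18_j K (M * q)⟯)) : ↥(s18_F K (M * q))) (r : ↥(K⟮s18_j K (M * q)⟯)).2 r.2
  have e1 : ∀ T : O[X], aeval (s34g_jd K (M * q) q (dvd_mul_left q M)) T =
      W (aeval (s18_j K (M * q)) T) := by
    intro T
    have := s34co_W_aeval (O := O) W (s18_j K (M * q)) T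
    rw [hWj] at this
    exact this.symm
  have hPQ' : W ((r : ↥(K⟮s18_j K (M * q)⟯)) : ↥(s18_F K (M * q))) *
      aeval (s34g_jd K (M * q) q (dvd_mul_left q M)) Q =
      aeval (s34g_jd K (M * q) q (dvd_mul_left q M)) P := by
    rw [e1 Q, e1 P]
    exact (map_mul W _ _).symm.trans (congrArg W hPQ)
  have hQ' : aeval (s34g_rho O K (M * q) ⟨s34g_jd K (M * q) q (dvd_mul_left q M),
      s34g_jd_mem q (dvd_mul_left q M)⟩) (Q.map (IsLocalRing.residue O)) ≠ 0 := by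
    rw [s34g_rho_jd]
    exact fun h0 => hQ ((transcendental_iff.mp (s34co_transc _ q)) _ h0)
  have hWr : W ((r : ↥(K⟮s18_j K (M * q)⟯)) : ↥(s18_F K (M * q))) ∈ s34g_V O K (M * q) :=
    (s34g_mem_V0_iff _).1 (s34co_R_le_zero W hϖ q (dvd_mul_left q M) hWj r)
  have h1 := s34co_rho_frac (O := O) (s34g_jd K (M * q) q (dvd_mul_left q M)) _
    (s34g_jd_mem q (dvd_mul_left q M)) hWr P Q hPQ' hQ'
  rw [s34g_rho_jd, ← s34co_frob] at h1
  have hjq : jqModC (IsLocalRing.ResidueField O) ^ q ∈ (s34g_rho O K M).range :=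
    pow_mem s34co_range_j q
  have h2 : s34g_rho0 O W ⟨((r : ↥(K⟮s18_j K (M * q)⟯)) : ↥(s18_F K (M * q))),
      s34co_R_le_zero W hϖ q (dvd_mul_left q M) hWj r⟩ =
      s34g_rho O K (M * q) ⟨W ((r : ↥(K⟮s18_j K (M * q)⟯)) : ↥(s18_F K (M * q))), hWr⟩ := rfl
  rw [h2, h1, div_eq_mul_inv]
  exact Subring.mul_mem _ (s34co_range_aeval _ hjq P)
    (s34co_range_inv _ (s34co_range_aeval _ hjq Q))

/-- **(C4), the branch at `∞`**: every reduction at `∞` at the level `M q` is the reduction of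
a function of the level `M`. -/
theorem s34co_res_inf [Fact q.Prime] (hqM : ¬ q ∣ M)
    (hqO : (q : O) ∈ IsLocalRing.maximalIdeal O) {ϖ : O} (hϖ : Irreducible ϖ)
    (hWW : ∀ f, W (W f) = f)
    (hWj : W (s18_j K (M * q)) = s34g_jd K (M * q) q (dvd_mul_left q M))
    (y : ↥(s34g_V O K (M * q))) :
    ∃ z : ↥(s34g_V O K M), s34g_rho O K (M * q) y = s34g_rho O K M z := by
  letI := s18_algOF O K (M * q)
  haveI := s18_towerOF O K (M * q)
  letI := s34co_algRF O K (M * q)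
  haveI := s34co_towerRF O K (M * q)
  haveI := s34co_R_dvr (K := K) (N := M * q) hϖ
  haveI := s18gq_finite K (M * q)
  have hq : q.Prime := Fact.out
  obtain ⟨x₁, hx₁, hind₁, hlev⟩ := s34co_fam O K M q hqM hqO
  obtain ⟨hx₂, hind₂⟩ := s34co_fam_zero W q (dvd_mul_left q M) hqO hWW _ x₁ hx₁ hind₁
  have hB₁ := s34co_branch_inf hϖ _ x₁ hx₁ hind₁
  have hB₂ := s34co_branch_zero W hϖ q (dvd_mul_left q M) hWj _ _ hx₂ hind₂
  have hWjq : W (s34g_jd K (M * q) q (dvd_mul_left q M)) = s18_j K (M * q) := by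
    rw [← hWj, hWW]
  have hne : s34g_V O K (M * q) ≠ s34g_V0 O W :=
    s34g_V_ne_V0 q (dvd_mul_left q M) hqO W hWj hWjq
  have hn := (s34co_finrank K M q hq hqM).le
  haveI hsep : Algebra.IsSeparable ↥(K⟮s18_j K (M * q)⟯) ↥(s18_F K (M * q)) :=
    Algebra.IsAlgebraic.isSeparable_of_perfectField
  have hirr := s34co_pi_irreducible (K := K) (N := M * q) hϖ
  obtain ⟨c, hc⟩ := s34ca_span ↥(K⟮s18_j K (M * q)⟯) hirr hne hB₁ hB₂ hn y.2
  have hxS : ∀ i, s34g_rho O K (M * q) ⟨x₁ i, hx₁ i⟩ ∈ (s34g_rho O K M).range := by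
    intro i
    obtain ⟨z, hz, -, h⟩ := hlev i
    exact ⟨⟨z, hz⟩, h.symm⟩
  obtain ⟨z, hz⟩ := s34co_range_of_span (s34g_V O K (M * q)) (s34g_rho O K (M * q))
    (fun y hy => (s34co_nu_iff y).1 hy) (fun r => s34co_R_le r) (s34g_rho O K M).range
    (fun r => s34co_range_R hϖ r) _ x₁ hx₁ hxS (y : ↥(s18_F K (M * q))) y.2 c hc
  exact ⟨z, hz.symm⟩

/-- **(C4), the branch at `0`**: every reduction at `0` at the level `M q` is the reduction of
a function of the level `M`. -/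
theorem s34co_res_zero [Fact q.Prime] (hqM : ¬ q ∣ M)
    (hqO : (q : O) ∈ IsLocalRing.maximalIdeal O) {ϖ : O} (hϖ : Irreducible ϖ)
    (hWW : ∀ f, W (W f) = f)
    (hWj : W (s18_j K (M * q)) = s34g_jd K (M * q) q (dvd_mul_left q M))
    (y : ↥(s34g_V0 O W)) :
    ∃ z : ↥(s34g_V O K M), s34g_rho0 O W y = s34g_rho O K M z := by
  letI := s18_algOF O K (M * q)
  haveI := s18_towerOF O K (M * q)
  letI := s34co_algRF O K (M * q)
  haveI := s34co_towerRF O K (M * q)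
  haveI := s34co_R_dvr (K := K) (N := M * q) hϖ
  haveI := s18gq_finite K (M * q)
  have hq : q.Prime := Fact.out
  obtain ⟨x₁, hx₁, hind₁, hlev⟩ := s34co_fam O K M q hqM hqO
  obtain ⟨hx₂, hind₂⟩ := s34co_fam_zero W q (dvd_mul_left q M) hqO hWW _ x₁ hx₁ hind₁
  have hB₁ := s34co_branch_inf hϖ _ x₁ hx₁ hind₁
  have hB₂ := s34co_branch_zero W hϖ q (dvd_mul_left q M) hWj _ _ hx₂ hind₂
  have hWjq : W (s34g_jd K (M * q) q (dvd_mul_left q M)) = s18_j K (M * q) := by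
    rw [← hWj, hWW]
  have hne : s34g_V O K (M * q) ≠ s34g_V0 O W :=
    s34g_V_ne_V0 q (dvd_mul_left q M) hqO W hWj hWjq
  have hn : Module.finrank ↥(K⟮s18_j K (M * q)⟯) ↥(s18_F K (M * q)) ≤
      Nat.card (SL(2, ℤ) ⧸ CongruenceSubgroup.Gamma0 M) * q +
        Nat.card (SL(2, ℤ) ⧸ CongruenceSubgroup.Gamma0 M) := by
    rw [add_comm]
    exact (s34co_finrank K M q hq hqM).le
  haveI hsep : Algebra.IsSeparable ↥(K⟮s18_j K (M * q)⟯) ↥(s18_F K (M * q)) :=
    Algebra.IsAlgebraic.isSeparable_of_perfectField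
  have hirr := s34co_pi_irreducible (K := K) (N := M * q) hϖ
  obtain ⟨c, hc⟩ := s34ca_span ↥(K⟮s18_j K (M * q)⟯) hirr hne.symm hB₂ hB₁ hn y.2
  have hmem : ∀ p : Fin (Nat.card (SL(2, ℤ) ⧸ CongruenceSubgroup.Gamma0 M) * q),
      x₁ (finProdFinEquiv.symm p).1 *
        s18_j K (M * q) ^ ((finProdFinEquiv.symm p).2 : ℕ) ∈ s34g_V O K (M * q) :=
    fun p => mul_mem (hx₁ _) (pow_mem s34g_j_mem _)
  have hxS : ∀ p, s34g_rho0 O W ⟨_, hx₂ p⟩ ∈ (s34g_rho O K M).range := by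
    intro p
    have e1 := s34g_rho0_W (O := O) (W := W) hWW ⟨_, hmem p⟩
    have e2 : (⟨x₁ (finProdFinEquiv.symm p).1 *
        s18_j K (M * q) ^ ((finProdFinEquiv.symm p).2 : ℕ), hmem p⟩ : ↥(s34g_V O K (M * q))) =
        ⟨x₁ (finProdFinEquiv.symm p).1, hx₁ _⟩ *
          ⟨s18_j K (M * q), s34g_j_mem⟩ ^ ((finProdFinEquiv.symm p).2 : ℕ) := rfl
    rw [e2, map_mul, map_pow, s34g_rho_j] at e1
    have e3 : s34g_rho0 O W ⟨_, hx₂ p⟩ = _ := e1
    rw [e3]
    obtain ⟨z, hz, -, h⟩ := hlev (finProdFinEquiv.symm p).1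
    exact Subring.mul_mem _ ⟨⟨z, hz⟩, h.symm⟩ (pow_mem s34co_range_j _)
  have hnu : ∀ t : ↥(s34g_V0 O W), (t : ↥(s18_F K (M * q))) ∈ (s34g_V0 O W).nonunits →
      s34g_rho0 O W t = 0 := by
    intro t ht
    have hWt : W (t : ↥(s18_F K (M * q))) ∈ s34g_V O K (M * q) := (s34g_mem_V0_iff _).1 t.2
    have h1 : W (t : ↥(s18_F K (M * q))) ∈ (s34g_V O K (M * q)).nonunits :=
      (s34co_nu_zero_iff W (t : ↥(s18_F K (M * q)))).1 ht
    have h2 : s34g_rho O K (M * q) ⟨W (t : ↥(s18_F K (M * q))), hWt⟩ = 0 :=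
      (s34co_nu_iff (O := O) ⟨W (t : ↥(s18_F K (M * q))), hWt⟩).1 h1
    rw [s34g_rho0_apply]
    exact h2
  obtain ⟨z, hz⟩ := s34co_range_of_span (s34g_V0 O W) (s34g_rho0 O W) hnu
    (fun r => s34co_R_le_zero W hϖ q (dvd_mul_left q M) hWj r) (s34g_rho O K M).range
    (fun r => s34co_range_R_zero W hqO hϖ hWj r) _ _ hx₂ hxS
    (y : ↥(s18_F K (M * q))) y.2 c hc
  exact ⟨z, hz.symm⟩

end Res

end Fermat.Agent.S34
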