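import Mathlib

/-!
# S34 [SS-BRANCH], the abstract core (pure commutative algebra, Mathlib only).  Prefix `s34sb_`.

`B₀ → L` and `B → L` two ring homomorphisms into a field, the image of the first contained in the
image of the second.  If the image of `B₀` is integrally closed (in its fraction field), the image
of `B` is integral over it and contained in its fraction field, then the two images coincide;
in particular `B / ker` is an integrally closed domain.
-/

set_option autoImplicit false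

namespace Fermat.Agent.S34

/-- An element of a field `L` which is a fraction of elements of an integrally closed subring
and integral over it lies in the subring. -/
theorem s34sb_mem_of_isIntegral {L : Type*} [Field L] (A : Subring L)
    [IsIntegrallyClosed ↥A] {x : L} (hx : IsIntegral ↥A x)
    (hfr : ∃ a b : ↥A, (b : L) ≠ 0 ∧ x * (b : L) = (a : L)) : x ∈ A := by
  obtain ⟨a, b, hb, hab⟩ := hfr
  have hb' : b ≠ 0 := fun h => hb (by simp [h])
  -- the fraction field of `A` inside `L`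
  let E := FractionRing ↥A
  let φ : E →ₐ[↥A] L := IsFractionRing.liftAlgHom (K := E) (g := Algebra.ofId ↥A L)
    (fun x y h => Subtype.ext (by simpa using h))
  have hφinj : Function.Injective φ := φ.toRingHom.injective
  set y : E := algebraMap ↥A E a / algebraMap ↥A E b with hy
  have hbE : algebraMap ↥A E b ≠ 0 := by
    simpa using (IsFractionRing.injective ↥A E).ne hb'
  have hφy : φ y = x := by
    have h1 : φ (algebraMap ↥A E a) = (a : L) := by
      rw [AlgHom.commutes]; rfl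
    have h2 : φ (algebraMap ↥A E b) = (b : L) := by
      rw [AlgHom.commutes]; rfl
    rw [hy, map_div₀, h1, h2, div_eq_iff hb, hab]
  have hyint : IsIntegral ↥A y := by
    rw [← hφy] at hx
    exact (isIntegral_algHom_iff φ hφinj).mp hx
  obtain ⟨c, hc⟩ := IsIntegrallyClosed.isIntegral_iff.mp hyint
  have : x = (c : L) := by
    rw [← hφy, ← hc, AlgHom.commutes]; rfl
  rw [this]; exact c.2

/-- **[SB-ABS]** the two images coincide. -/
theorem s34sb_range_eq {B B₀ L : Type*} [CommRing B] [CommRing B₀] [Field L]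
    (ρ : B →+* L) (ρ₀ : B₀ →+* L) [IsIntegrallyClosed ↥ρ₀.range]
    (hsub : ρ₀.range ≤ ρ.range)
    (hint : ∀ b : B, IsIntegral ↥ρ₀.range (ρ b))
    (hfrac : ∀ b : B, ∃ x y : B₀, ρ₀ y ≠ 0 ∧ ρ b * ρ₀ y = ρ₀ x) :
    ρ.range = ρ₀.range := by
  refine le_antisymm ?_ hsub
  rintro _ ⟨b, rfl⟩
  refine s34sb_mem_of_isIntegral ρ₀.range (hint b) ?_
  obtain ⟨x, y, hy, hxy⟩ := hfrac b
  exact ⟨⟨ρ₀ x, x, rfl⟩, ⟨ρ₀ y, y, rfl⟩, hy, hxy⟩

/-- The image of a ring homomorphism into a field is isomorphic to the quotient by the kernel. -/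
noncomputable def s34sb_quotEquivRange {B L : Type*} [CommRing B] [Field L] (ρ : B →+* L) :
    (B ⧸ RingHom.ker ρ) ≃+* ↥ρ.range :=
  RingHom.quotientKerEquivRange ρ

/-- Integral closedness of the quotient from that of the image. -/
theorem s34sb_isIntegrallyClosed_quot {B L : Type*} [CommRing B] [Field L] (ρ : B →+* L)
    [IsIntegrallyClosed ↥ρ.range] : IsIntegrallyClosed (B ⧸ RingHom.ker ρ) :=
  IsIntegrallyClosed.of_equiv (s34sb_quotEquivRange ρ).symm

/-- Integral closedness of the image from that of a quotient `B₀ / I`, `I = ker ρ₀`. -/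
theorem s34sb_isIntegrallyClosed_range {B₀ L : Type*} [CommRing B₀] [Field L] (ρ₀ : B₀ →+* L)
    (I : Ideal B₀) (hI : ∀ b, ρ₀ b = 0 ↔ b ∈ I) [IsIntegrallyClosed (B₀ ⧸ I)] :
    IsIntegrallyClosed ↥ρ₀.range := by
  have hker : RingHom.ker ρ₀ = I := by
    ext b; rw [RingHom.mem_ker]; exact hI b
  have e : (B₀ ⧸ I) ≃+* ↥ρ₀.range :=
    (Ideal.quotEquivOfEq hker.symm).trans (RingHom.quotientKerEquivRange ρ₀)
  exact IsIntegrallyClosed.of_equiv e

/-- **[SB-ABS]**, the form used in the model: `B / ker ρ` is integrally closed. -/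
theorem s34sb_abs {B B₀ L : Type*} [CommRing B] [CommRing B₀] [Field L]
    (ρ : B →+* L) (ρ₀ : B₀ →+* L) (I : Ideal B₀) (hI : ∀ b, ρ₀ b = 0 ↔ b ∈ I)
    [IsIntegrallyClosed (B₀ ⧸ I)]
    (hsub : ρ₀.range ≤ ρ.range)
    (hint : ∀ b : B, IsIntegral ↥ρ₀.range (ρ b))
    (hfrac : ∀ b : B, ∃ x y : B₀, ρ₀ y ≠ 0 ∧ ρ b * ρ₀ y = ρ₀ x) :
    ρ.range = ρ₀.range ∧ IsIntegrallyClosed (B ⧸ RingHom.ker ρ) := by
  haveI := s34sb_isIntegrallyClosed_range ρ₀ I hI
  have h := s34sb_range_eq ρ ρ₀ hsub hint hfrac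
  refine ⟨h, ?_⟩
  haveI : IsIntegrallyClosed ↥ρ.range := by rw [h]; infer_instance
  exact s34sb_isIntegrallyClosed_quot ρ

/-- **[SB-KER]** the kernel of a reduction map is the ideal of the special fibre: `B₀` integral
over (the image of) `C`, `I` a prime ideal of `B₀` killed by `ρ₀ : B₀ → L`, and `ρ₀` injective
modulo `I` on the image of `C`.  Then the kernel of `ρ₀` is `I` (incomparability). -/
theorem s34sb_ker_le {C B₀ L : Type*} [CommRing C] [CommRing B₀] [CommRing L]
    (g : C →+* B₀) (hg : ∀ b : B₀, g.IsIntegralElem b) (I : Ideal B₀) [I.IsPrime]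
    (ρ₀ : B₀ →+* L) (hI : ∀ b ∈ I, ρ₀ b = 0) (hC : ∀ c : C, ρ₀ (g c) = 0 → g c ∈ I)
    (b : B₀) (hb : ρ₀ b = 0) : b ∈ I := by
  classical
  by_contra hbI
  let ρ' : B₀ ⧸ I →+* L := Ideal.Quotient.lift I ρ₀ hI
  have hr0 : (Ideal.Quotient.mk I b) ≠ 0 := fun h => hbI (Ideal.Quotient.eq_zero_iff_mem.mp h)
  have hrI : Ideal.Quotient.mk I b ∈ RingHom.ker ρ' := by
    rw [RingHom.mem_ker]
    show ρ' (Ideal.Quotient.mk I b) = 0
    rw [Ideal.Quotient.lift_mk]
    exact hb
  obtain ⟨p, hpm, hp⟩ := hg b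
  let f : C →+* B₀ ⧸ I := (Ideal.Quotient.mk I).comp g
  have hp'0 : p.map f ≠ 0 := (hpm.map f).ne_zero
  have heval : (p.map f).eval₂ (RingHom.id (B₀ ⧸ I)) (Ideal.Quotient.mk I b) = 0 := by
    rw [Polynomial.eval₂_map, RingHom.id_comp]
    show Polynomial.eval₂ ((Ideal.Quotient.mk I).comp g) (Ideal.Quotient.mk I b) p = 0
    rw [← Polynomial.hom_eval₂, hp, map_zero]
  obtain ⟨i, hne, hmem⟩ := Ideal.exists_coeff_ne_zero_mem_comap_of_root_mem
    (f := RingHom.id (B₀ ⧸ I)) hr0 hrI hp'0 heval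
  apply hne
  rw [Polynomial.coeff_map] at hmem ⊢
  have h1 : ρ' (f (p.coeff i)) = 0 := hmem
  have h2 : ρ₀ (g (p.coeff i)) = 0 := h1
  exact Ideal.Quotient.eq_zero_iff_mem.mpr (hC _ h2)

end Fermat.Agent.S34
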