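/-
S34, leaf [SS-BRANCH] = (D2) of the cut, part 1 (helper15).  Prefix `s34sb_`.

THE REDUCTION OF A CHART.  For a set `S ⊆ V_∞` of functions of level `N` the chart
`s18_chart O S` lies in `V_∞` (helper27's `s34g_chart_le`); `s34sb_rho O K N S hS` is the
restriction of `ρ_∞` to it.  For `S = {x}` with `ρ_∞ x` transcendental over the residue field
and a special fibre which is a DOMAIN, the kernel of the restriction is the ideal of the special
fibre (`s34sb_rho_eq_zero_iff`), hence the special fibre is isomorphic to the image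
(`s34sb_fibreEquiv`) and `V_∞` is the localisation of the chart at the special fibre
(`s34sb_exists_frac`).
-/
import Mathlib
import Fermat.Agent.S18.BasicA
import Fermat.Agent.S34.SsGaussA
import Fermat.Agent.S34.SsBranchAbs

set_option autoImplicit false
set_option linter.unusedSectionVars false
set_option linter.unusedVariables false
set_option linter.style.haveILetI false

open AlgebraicCurve ModularCurve IntermediateField
open Fermat.Agent.S18

noncomputable section

namespace Fermat.Agent.S34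

section Chart

variable (O K : Type) [CommRing O] [IsDomain O] [IsDiscreteValuationRing O] [Field K]
  [CharZero K] [Algebra O K] [IsFractionRing O K] (N : ℕ) [NeZero N]

/-- The inclusion of a chart of functions of `V_∞` into `V_∞`. -/
def s34sb_incl (S : Set ↥(s18_F K N)) (hS : ∀ t ∈ S, t ∈ s34g_V O K N) :
    letI := s18_algOF O K N
    ↥(s18_chart O S) →+* ↥(s34g_V O K N) :=
  letI := s18_algOF O K N
  { toFun := fun b => ⟨(b : ↥(s18_F K N)), s34g_chart_le S hS b b.2⟩
    map_one' := rfl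
    map_mul' := fun _ _ => rfl
    map_zero' := rfl
    map_add' := fun _ _ => rfl }

/-- **The reduction of a chart**: the restriction of `ρ_∞` to `s18_chart O S`, `S ⊆ V_∞`. -/
def s34sb_rho (S : Set ↥(s18_F K N)) (hS : ∀ t ∈ S, t ∈ s34g_V O K N) :
    letI := s18_algOF O K N
    ↥(s18_chart O S) →+* LaurentSeries (IsLocalRing.ResidueField O) :=
  letI := s18_algOF O K N
  (s34g_rho O K N).comp (s34sb_incl O K N S hS)

variable {O K N}

theorem s34sb_rho_apply (S : Set ↥(s18_F K N)) (hS : ∀ t ∈ S, t ∈ s34g_V O K N)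
    (b : letI := s18_algOF O K N
      ↥(s18_chart O S)) :
    letI := s18_algOF O K N
    s34sb_rho O K N S hS b =
      s34g_rho O K N ⟨(b : ↥(s18_F K N)), s34g_chart_le S hS b b.2⟩ := rfl

/-- `ρ` of a constant. -/
theorem s34sb_rho_algebraMap (S : Set ↥(s18_F K N)) (hS : ∀ t ∈ S, t ∈ s34g_V O K N) (a : O) :
    letI := s18_algOF O K N
    s34sb_rho O K N S hS (algebraMap O ↥(s18_chart O S) a) =
      algebraMap (IsLocalRing.ResidueField O) (LaurentSeries (IsLocalRing.ResidueField O))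
        (IsLocalRing.residue O a) := by
  letI := s18_algOF O K N
  rw [s34sb_rho_apply, s34g_rho_algebraMap a _ rfl, HahnSeries.C_apply,
    ← algebraMap_laurentSeries_eq_single]

theorem s34sb_rho_comp_algebraMap (S : Set ↥(s18_F K N)) (hS : ∀ t ∈ S, t ∈ s34g_V O K N) :
    letI := s18_algOF O K N
    (s34sb_rho O K N S hS).comp (algebraMap O ↥(s18_chart O S)) =
      (algebraMap (IsLocalRing.ResidueField O)
        (LaurentSeries (IsLocalRing.ResidueField O))).comp (IsLocalRing.residue O) := by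
  letI := s18_algOF O K N
  ext a : 1
  exact s34sb_rho_algebraMap S hS a

/-- `ρ` kills the ideal of the special fibre. -/
theorem s34sb_rho_fibreIdeal (S : Set ↥(s18_F K N)) (hS : ∀ t ∈ S, t ∈ s34g_V O K N)
    (b : letI := s18_algOF O K N
      ↥(s18_chart O S))
    (hb : letI := s18_algOF O K N
      b ∈ s18_fibreIdeal O S) :
    s34sb_rho O K N S hS b = 0 := by
  letI := s18_algOF O K N
  have hle : s18_fibreIdeal O S ≤ RingHom.ker (s34sb_rho O K N S hS) := by
    unfold s18_fibreIdeal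
    rw [Ideal.map_le_iff_le_comap]
    intro a ha
    rw [Ideal.mem_comap, RingHom.mem_ker, s34sb_rho_algebraMap S hS a]
    have : IsLocalRing.residue O a = 0 := (IsLocalRing.residue_eq_zero_iff a).mpr ha
    rw [this, map_zero]
  exact hle hb

/-- `ρ` of a polynomial in an element of the chart. -/
theorem s34sb_rho_eval₂ (S : Set ↥(s18_F K N)) (hS : ∀ t ∈ S, t ∈ s34g_V O K N)
    (x : letI := s18_algOF O K N
      ↥(s18_chart O S)) (P : Polynomial O) :
    letI := s18_algOF O K N
    s34sb_rho O K N S hS (Polynomial.eval₂ (algebraMap O ↥(s18_chart O S)) x P) =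
      Polynomial.aeval (s34sb_rho O K N S hS x) (P.map (IsLocalRing.residue O)) := by
  letI := s18_algOF O K N
  rw [Polynomial.hom_eval₂, s34sb_rho_comp_algebraMap, Polynomial.aeval_def,
    Polynomial.eval₂_map]

/-- A polynomial over `O` with zero reduction takes values in the ideal of the special fibre. -/
theorem s34sb_eval₂_mem_fibreIdeal (S : Set ↥(s18_F K N))
    (x : letI := s18_algOF O K N
      ↥(s18_chart O S)) (P : Polynomial O)
    (hP : P.map (IsLocalRing.residue O) = 0) :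
    letI := s18_algOF O K N
    Polynomial.eval₂ (algebraMap O ↥(s18_chart O S)) x P ∈ s18_fibreIdeal O S := by
  letI := s18_algOF O K N
  rw [Polynomial.eval₂_eq_sum_range]
  refine Ideal.sum_mem _ (fun i _ => Ideal.mul_mem_right _ _ ?_)
  refine Ideal.mem_map_of_mem _ ?_
  have h1 : (P.map (IsLocalRing.residue O)).coeff i = 0 := by rw [hP, Polynomial.coeff_zero]
  rw [Polynomial.coeff_map] at h1
  exact (IsLocalRing.residue_eq_zero_iff _).mp h1

end Chart

section Ker

variable {O K : Type} [CommRing O] [IsDomain O] [IsDiscreteValuationRing O] [Field K]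
  [CharZero K] [Algebra O K] [IsFractionRing O K] {N : ℕ} [NeZero N]

theorem s34sb_hS {x : ↥(s18_F K N)} (hx : x ∈ s34g_V O K N) :
    ∀ t ∈ ({x} : Set ↥(s18_F K N)), t ∈ s34g_V O K N := by
  intro t ht
  rw [Set.mem_singleton_iff] at ht
  rw [ht]
  exact hx

/-- The inclusion of `O[x]` into the chart. -/
def s34sb_adjIncl (x : ↥(s18_F K N)) :
    letI := s18_algOF O K N
    ↥(Algebra.adjoin O ({x} : Set ↥(s18_F K N))) →+*
      ↥(s18_chart O ({x} : Set ↥(s18_F K N))) :=
  letI := s18_algOF O K N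
  { toFun := fun c => ⟨(c : ↥(s18_F K N)), (s18_mem_chart_iff O).mpr isIntegral_algebraMap⟩
    map_one' := rfl
    map_mul' := fun _ _ => rfl
    map_zero' := rfl
    map_add' := fun _ _ => rfl }

/-- The generator `x` as an element of its chart. -/
def s34sb_gen (O : Type) {K : Type} [CommRing O] [IsDomain O] [IsDiscreteValuationRing O]
    [Field K] [CharZero K] [Algebra O K] [IsFractionRing O K] {N : ℕ} [NeZero N]
    (x : ↥(s18_F K N)) :
    letI := s18_algOF O K N
    ↥(s18_chart O ({x} : Set ↥(s18_F K N))) :=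
  letI := s18_algOF O K N
  s34sb_adjIncl (O := O) x ⟨x, Algebra.subset_adjoin (Set.mem_singleton x)⟩

theorem s34sb_adjIncl_isIntegral (x : ↥(s18_F K N))
    (b : letI := s18_algOF O K N
      ↥(s18_chart O ({x} : Set ↥(s18_F K N)))) :
    (s34sb_adjIncl (O := O) x).IsIntegralElem b := by
  letI := s18_algOF O K N
  obtain ⟨p, hp, hpb⟩ := (s18_mem_chart_iff O).mp b.2
  refine ⟨p, hp, ?_⟩
  apply Subtype.ext
  have h := Polynomial.hom_eval₂ p (s34sb_adjIncl (O := O) x)
    ((s18_chart O ({x} : Set ↥(s18_F K N))).val : _ →+* ↥(s18_F K N)) b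
  have h' : (((Polynomial.eval₂ (s34sb_adjIncl (O := O) x) b p :
      ↥(s18_chart O ({x} : Set ↥(s18_F K N)))) : ↥(s18_F K N))) =
      Polynomial.eval₂ (algebraMap ↥(Algebra.adjoin O ({x} : Set ↥(s18_F K N))) ↥(s18_F K N))
        (b : ↥(s18_F K N)) p := h
  rw [h', hpb]
  rfl

theorem s34sb_adjIncl_eq (x : ↥(s18_F K N))
    (c : letI := s18_algOF O K N
      ↥(Algebra.adjoin O ({x} : Set ↥(s18_F K N)))) :
    letI := s18_algOF O K N
    ∃ P : Polynomial O, s34sb_adjIncl (O := O) x c =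
      Polynomial.eval₂ (algebraMap O ↥(s18_chart O ({x} : Set ↥(s18_F K N))))
        (s34sb_gen O x) P := by
  letI := s18_algOF O K N
  have hc : (c : ↥(s18_F K N)) ∈ (Polynomial.aeval (R := O) x).range := by
    rw [← Algebra.adjoin_singleton_eq_range_aeval]
    exact c.2
  obtain ⟨P, hP⟩ := hc
  refine ⟨P, Subtype.ext ?_⟩
  have h := Polynomial.hom_eval₂ P (algebraMap O ↥(s18_chart O ({x} : Set ↥(s18_F K N))))
    ((s18_chart O ({x} : Set ↥(s18_F K N))).val : _ →+* ↥(s18_F K N)) (s34sb_gen O x)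
  have h' : (((Polynomial.eval₂ (algebraMap O ↥(s18_chart O ({x} : Set ↥(s18_F K N))))
      (s34sb_gen O x) P : ↥(s18_chart O ({x} : Set ↥(s18_F K N)))) : ↥(s18_F K N))) =
      Polynomial.eval₂ (algebraMap O ↥(s18_F K N)) x P := h
  rw [h']
  show (c : ↥(s18_F K N)) = _
  rw [← hP]
  rfl

/-- **The kernel of the reduction of the chart of `x` is the ideal of the special fibre**, when
the special fibre is a domain and `ρ_∞ x` is transcendental over the residue field. -/
theorem s34sb_rho_eq_zero_iff {x : ↥(s18_F K N)} (hx : x ∈ s34g_V O K N)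
    (htr : Transcendental (IsLocalRing.ResidueField O) (s34g_rho O K N ⟨x, hx⟩))
    (hdom : letI := s18_algOF O K N
      IsDomain (s18_fibre O ({x} : Set ↥(s18_F K N))))
    (b : letI := s18_algOF O K N
      ↥(s18_chart O ({x} : Set ↥(s18_F K N)))) :
    letI := s18_algOF O K N
    s34sb_rho O K N {x} (s34sb_hS hx) b = 0 ↔ b ∈ s18_fibreIdeal O ({x} : Set ↥(s18_F K N)) := by
  letI := s18_algOF O K N
  refine ⟨fun hb => ?_, fun hb => s34sb_rho_fibreIdeal _ _ b hb⟩
  haveI : (s18_fibreIdeal O ({x} : Set ↥(s18_F K N))).IsPrime :=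
    (Ideal.Quotient.isDomain_iff_prime _).mp hdom
  refine s34sb_ker_le (s34sb_adjIncl (O := O) x) (s34sb_adjIncl_isIntegral x)
    (s18_fibreIdeal O ({x} : Set ↥(s18_F K N))) (s34sb_rho O K N {x} (s34sb_hS hx))
    (fun b hb => s34sb_rho_fibreIdeal _ _ b hb) ?_ b hb
  intro c hc
  obtain ⟨P, hP⟩ := s34sb_adjIncl_eq (O := O) x c
  rw [hP] at hc ⊢
  rw [s34sb_rho_eval₂] at hc
  have h0 : P.map (IsLocalRing.residue O) = 0 := by
    have htr' : Transcendental (IsLocalRing.ResidueField O)
        (s34sb_rho O K N {x} (s34sb_hS hx) (s34sb_gen O x)) := htr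
    exact (transcendental_iff.mp htr') _ hc
  exact s34sb_eval₂_mem_fibreIdeal _ _ P h0

end Ker

section Loc

variable {O K : Type} [CommRing O] [IsDomain O] [IsDiscreteValuationRing O] [Field K]
  [CharZero K] [Algebra O K] [IsFractionRing O K] {N : ℕ} [NeZero N]

theorem s34sb_mem_fibreIdeal_iff {ϖ : O} (hϖ : Irreducible ϖ) (S : Set ↥(s18_F K N))
    (b : letI := s18_algOF O K N
      ↥(s18_chart O S)) :
    letI := s18_algOF O K N
    b ∈ s18_fibreIdeal O S ↔ ∃ b₁ : ↥(s18_chart O S), b = algebraMap O ↥(s18_chart O S) ϖ * b₁ := by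
  letI := s18_algOF O K N
  unfold s18_fibreIdeal
  rw [hϖ.maximalIdeal_eq, Ideal.map_span, Set.image_singleton, Ideal.mem_span_singleton']
  constructor
  · rintro ⟨a, rfl⟩
    exact ⟨a, mul_comm _ _⟩
  · rintro ⟨a, rfl⟩
    exact ⟨a, mul_comm _ _⟩

/-- The special fibre of the chart of `x` is isomorphic to the image of the reduction. -/
def s34sb_fibreEquiv {x : ↥(s18_F K N)} (hx : x ∈ s34g_V O K N)
    (htr : Transcendental (IsLocalRing.ResidueField O) (s34g_rho O K N ⟨x, hx⟩))
    (hdom : letI := s18_algOF O K N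
      IsDomain (s18_fibre O ({x} : Set ↥(s18_F K N)))) :
    letI := s18_algOF O K N
    s18_fibre O ({x} : Set ↥(s18_F K N)) ≃+* ↥(s34sb_rho O K N {x} (s34sb_hS hx)).range :=
  letI := s18_algOF O K N
  (Ideal.quotEquivOfEq (by
    ext b
    rw [RingHom.mem_ker]
    exact (s34sb_rho_eq_zero_iff hx htr hdom b).symm)).trans
    (RingHom.quotientKerEquivRange (s34sb_rho O K N {x} (s34sb_hS hx)))

theorem s34sb_fibreEquiv_mk {x : ↥(s18_F K N)} (hx : x ∈ s34g_V O K N)
    (htr : Transcendental (IsLocalRing.ResidueField O) (s34g_rho O K N ⟨x, hx⟩))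
    (hdom : letI := s18_algOF O K N
      IsDomain (s18_fibre O ({x} : Set ↥(s18_F K N))))
    (b : letI := s18_algOF O K N
      ↥(s18_chart O ({x} : Set ↥(s18_F K N)))) :
    letI := s18_algOF O K N
    ((s34sb_fibreEquiv hx htr hdom (Ideal.Quotient.mk _ b) :
      ↥(s34sb_rho O K N {x} (s34sb_hS hx)).range) :
        LaurentSeries (IsLocalRing.ResidueField O)) =
      s34sb_rho O K N {x} (s34sb_hS hx) b := rfl

/-- The image of the reduction of the chart of `x` is integrally closed when the special fibre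
is an integrally closed domain. -/
theorem s34sb_range_isIntegrallyClosed {x : ↥(s18_F K N)} (hx : x ∈ s34g_V O K N)
    (htr : Transcendental (IsLocalRing.ResidueField O) (s34g_rho O K N ⟨x, hx⟩))
    (hdom : letI := s18_algOF O K N
      IsDomain (s18_fibre O ({x} : Set ↥(s18_F K N))))
    (hic : letI := s18_algOF O K N
      IsIntegrallyClosed (s18_fibre O ({x} : Set ↥(s18_F K N)))) :
    letI := s18_algOF O K N
    IsIntegrallyClosed ↥(s34sb_rho O K N {x} (s34sb_hS hx)).range := by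
  letI := s18_algOF O K N
  exact IsIntegrallyClosed.of_equiv (s34sb_fibreEquiv hx htr hdom)

/-- **`V_∞` is the localisation of the chart of `x` at the special fibre**: every `v ∈ V_∞` is a
quotient `a / y` of elements of the chart with `ρ y ≠ 0`. -/
theorem s34sb_exists_frac {x : ↥(s18_F K N)} (hx : x ∈ s34g_V O K N)
    (htr : Transcendental (IsLocalRing.ResidueField O) (s34g_rho O K N ⟨x, hx⟩))
    (hdom : letI := s18_algOF O K N
      IsDomain (s18_fibre O ({x} : Set ↥(s18_F K N))))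
    (hxK : Transcendental K x) (hfin : FiniteDimensional ↥(K⟮x⟯) ↥(s18_F K N))
    (v : ↥(s34g_V O K N)) :
    letI := s18_algOF O K N
    ∃ a y : ↥(s18_chart O ({x} : Set ↥(s18_F K N))),
      s34sb_rho O K N {x} (s34sb_hS hx) y ≠ 0 ∧
        (v : ↥(s18_F K N)) * (y : ↥(s18_F K N)) = (a : ↥(s18_F K N)) := by
  letI := s18_algOF O K N
  haveI := s18_towerOF O K N
  obtain ⟨ϖ, hϖ⟩ := IsDiscreteValuationRing.exists_irreducible O
  have hϖF : algebraMap O ↥(s18_F K N) ϖ ≠ 0 := s34g_algebraMap_ne_zero hϖ.ne_zero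
  have hρϖ : s34g_rho O K N ⟨_, s34g_algebraMap_mem (K := K) (N := N) ϖ⟩ = 0 :=
    s34g_rho_pi hϖ _ rfl
  -- the induction
  have key : ∀ n : ℕ, ∀ a y : ↥(s18_chart O ({x} : Set ↥(s18_F K N))),
      ∀ u : ↥(s34g_V O K N), s34g_rho O K N u ≠ 0 →
      (y : ↥(s18_F K N)) = (algebraMap O ↥(s18_F K N) ϖ) ^ n * (u : ↥(s18_F K N)) →
      (v : ↥(s18_F K N)) * (y : ↥(s18_F K N)) = (a : ↥(s18_F K N)) →
      ∃ a y : ↥(s18_chart O ({x} : Set ↥(s18_F K N))),
        s34sb_rho O K N {x} (s34sb_hS hx) y ≠ 0 ∧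
          (v : ↥(s18_F K N)) * (y : ↥(s18_F K N)) = (a : ↥(s18_F K N)) := by
    intro n
    induction n with
    | zero =>
      intro a y u hu hy hvy
      refine ⟨a, y, ?_, hvy⟩
      rw [pow_zero, one_mul] at hy
      rw [s34sb_rho_apply]
      have : (⟨(y : ↥(s18_F K N)), s34g_chart_le _ (s34sb_hS hx) y y.2⟩ : ↥(s34g_V O K N)) = u :=
        Subtype.ext hy
      rw [this]
      exact hu
    | succ n ih =>
      intro a y u hu hy hvy
      -- `ρ y = 0`
      have hy' : (⟨(y : ↥(s18_F K N)), s34g_chart_le _ (s34sb_hS hx) y y.2⟩ : ↥(s34g_V O K N)) =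
          ⟨_, s34g_algebraMap_mem (K := K) (N := N) ϖ⟩ *
            (⟨_, s34g_algebraMap_mem (K := K) (N := N) ϖ⟩ ^ n * u) := by
        apply Subtype.ext
        show (y : ↥(s18_F K N)) = algebraMap O ↥(s18_F K N) ϖ *
          ((algebraMap O ↥(s18_F K N) ϖ) ^ n * (u : ↥(s18_F K N)))
        rw [hy, pow_succ]
        ring
      have hρy : s34sb_rho O K N {x} (s34sb_hS hx) y = 0 := by
        rw [s34sb_rho_apply, hy', map_mul, hρϖ, zero_mul]
      obtain ⟨y₁, hy₁⟩ := (s34sb_mem_fibreIdeal_iff hϖ _ y).mp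
        ((s34sb_rho_eq_zero_iff hx htr hdom y).mp hρy)
      have hy₁' : (y : ↥(s18_F K N)) = algebraMap O ↥(s18_F K N) ϖ * (y₁ : ↥(s18_F K N)) := by
        rw [hy₁]; rfl
      -- `ρ a = 0`
      have ha' : (⟨(a : ↥(s18_F K N)), s34g_chart_le _ (s34sb_hS hx) a a.2⟩ : ↥(s34g_V O K N)) =
          v * ⟨(y : ↥(s18_F K N)), s34g_chart_le _ (s34sb_hS hx) y y.2⟩ := by
        apply Subtype.ext
        show (a : ↥(s18_F K N)) = (v : ↥(s18_F K N)) * (y : ↥(s18_F K N))
        rw [hvy]
      have hρa : s34sb_rho O K N {x} (s34sb_hS hx) a = 0 := by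
        rw [s34sb_rho_apply, ha', map_mul]
        have : s34g_rho O K N ⟨(y : ↥(s18_F K N)), s34g_chart_le _ (s34sb_hS hx) y y.2⟩ = 0 :=
          hρy
        rw [this, mul_zero]
      obtain ⟨a₁, ha₁⟩ := (s34sb_mem_fibreIdeal_iff hϖ _ a).mp
        ((s34sb_rho_eq_zero_iff hx htr hdom a).mp hρa)
      have ha₁' : (a : ↥(s18_F K N)) = algebraMap O ↥(s18_F K N) ϖ * (a₁ : ↥(s18_F K N)) := by
        rw [ha₁]; rfl
      refine ih a₁ y₁ u hu ?_ ?_
      · apply mul_left_cancel₀ hϖF
        rw [← hy₁', hy, pow_succ]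
        ring
      · apply mul_left_cancel₀ hϖF
        rw [← ha₁', ← hvy, hy₁']
        ring
  obtain ⟨a, y, hy0, hay⟩ := s18b_frac (O := O) hxK hfin (v : ↥(s18_F K N))
  have hyF : (y : ↥(s18_F K N)) ≠ 0 := fun h => hy0 (Subtype.ext h)
  obtain ⟨e, u, hu, hyu⟩ := s34g_exists_pow hϖ (y : ↥(s18_F K N)) hyF
  rcases le_or_gt 0 e with he | he
  · obtain ⟨n, rfl⟩ := Int.eq_ofNat_of_zero_le he
    rw [zpow_natCast] at hyu
    exact key n a y u hu hyu hay
  · exfalso
    obtain ⟨n, hn⟩ := Int.eq_ofNat_of_zero_le (by omega : 0 ≤ -e)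
    have he' : e = -(n : ℤ) := by omega
    have hn0 : n ≠ 0 := by
      rintro rfl
      simp at he'
      omega
    rw [he', zpow_neg, zpow_natCast] at hyu
    have h1 : (u : ↥(s18_F K N)) = (algebraMap O ↥(s18_F K N) ϖ) ^ n * (y : ↥(s18_F K N)) := by
      rw [hyu, ← mul_assoc, mul_inv_cancel₀ (pow_ne_zero n hϖF), one_mul]
    have h2 : u = ⟨_, s34g_algebraMap_mem (K := K) (N := N) ϖ⟩ ^ n *
        ⟨(y : ↥(s18_F K N)), s34g_chart_le _ (s34sb_hS hx) y y.2⟩ := by
      apply Subtype.ext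
      rw [h1]
      rfl
    apply hu
    rw [h2, map_mul, map_pow, hρϖ, zero_pow hn0, zero_mul]

end Loc

end Fermat.Agent.S34
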