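/-
S34, leaf [SS-BRANCH] = (D2) of the cut, part 2 (helper15).  Prefix `s34sb_`.

(SUB): THE BRANCH AT `∞` OF A CHART OF LEVEL `N` LIES IN THE SPECIAL FIBRE OF THE CHART OF
LEVEL `M`.

`x₀ ∈ V_∞(M)` (in the application `x₀ = j` or `x₀ = j⁻¹`) with a special fibre
`s18_fibre O {x₀}` which is an integrally closed domain (S18 [MODEL-Q] at level `M`), `S ⊆ V_∞(N)`
a set of functions of level `N` (`S = {J}` or `{J⁻¹}`, `J = j · j_q`) whose reductions lie in the
reduction of the chart of `x₀`.  If every residue of `V_∞(N)` is a residue of `V_∞(M)` (`hres`,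
(C4) of [SS-COUNT]: `f_∞ = ψ(M)`), then

  `ρ_∞ (s18_chart O S) ⊆ ρ_∞ (s18_chart O {x₀})`   inside `κ((q))`.
-/
import Mathlib
import Fermat.Agent.S34.SsBranchChart

set_option autoImplicit false
set_option linter.unusedSectionVars false
set_option linter.unusedVariables false
set_option linter.style.haveILetI false

open AlgebraicCurve ModularCurve IntermediateField
open Fermat.Agent.S18

noncomputable section

namespace Fermat.Agent.S34

section Sub

variable {O K : Type} [CommRing O] [IsDomain O] [IsDiscreteValuationRing O] [Field K]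
  [CharZero K] [Algebra O K] [IsFractionRing O K] {M N : ℕ} [NeZero M] [NeZero N]

/-- The reduction of `O[S]` lies in every subring of `κ((q))` containing the reductions of the
constants and of the elements of `S`. -/
theorem s34sb_rho_adjoin_mem (S : Set ↥(s18_F K N)) (hS : ∀ t ∈ S, t ∈ s34g_V O K N)
    (A : Subring (LaurentSeries (IsLocalRing.ResidueField O)))
    (hA : ∀ a : O, algebraMap (IsLocalRing.ResidueField O)
      (LaurentSeries (IsLocalRing.ResidueField O)) (IsLocalRing.residue O a) ∈ A)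
    (hSA : ∀ t (ht : t ∈ S), s34g_rho O K N ⟨t, hS t ht⟩ ∈ A)
    (c : ↥(s18_F K N))
    (hc : letI := s18_algOF O K N
      c ∈ Algebra.adjoin O S) :
    ∀ hcV : c ∈ s34g_V O K N, s34g_rho O K N ⟨c, hcV⟩ ∈ A := by
  letI := s18_algOF O K N
  induction hc using Algebra.adjoin_induction with
  | mem x hx => exact fun _ => hSA x hx
  | algebraMap r =>
    intro hcV
    rw [s34g_rho_algebraMap r _ rfl, HahnSeries.C_apply, ← algebraMap_laurentSeries_eq_single]
    exact hA r
  | add x y hx hy ihx ihy =>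
    intro hcV
    have hxV := s34g_adjoin_le S hS x hx
    have hyV := s34g_adjoin_le S hS y hy
    have : (⟨x + y, hcV⟩ : ↥(s34g_V O K N)) = ⟨x, hxV⟩ + ⟨y, hyV⟩ := rfl
    rw [this, map_add]
    exact A.add_mem (ihx hxV) (ihy hyV)
  | mul x y hx hy ihx ihy =>
    intro hcV
    have hxV := s34g_adjoin_le S hS x hx
    have hyV := s34g_adjoin_le S hS y hy
    have : (⟨x * y, hcV⟩ : ↥(s34g_V O K N)) = ⟨x, hxV⟩ * ⟨y, hyV⟩ := rfl
    rw [this, map_mul]
    exact A.mul_mem (ihx hxV) (ihy hyV)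

/-- The reduction of an element of the chart of `S` is integral over every subring of `κ((q))`
containing the reductions of the constants and of the elements of `S`. -/
theorem s34sb_rho_isIntegral (S : Set ↥(s18_F K N)) (hS : ∀ t ∈ S, t ∈ s34g_V O K N)
    (A : Subring (LaurentSeries (IsLocalRing.ResidueField O)))
    (hA : ∀ a : O, algebraMap (IsLocalRing.ResidueField O)
      (LaurentSeries (IsLocalRing.ResidueField O)) (IsLocalRing.residue O a) ∈ A)
    (hSA : ∀ t (ht : t ∈ S), s34g_rho O K N ⟨t, hS t ht⟩ ∈ A)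
    (b : letI := s18_algOF O K N
      ↥(s18_chart O S)) :
    IsIntegral ↥A (s34sb_rho O K N S hS b) := by
  letI := s18_algOF O K N
  obtain ⟨p, hp, hpb⟩ := (s18_mem_chart_iff O).mp b.2
  let g : ↥(Algebra.adjoin O S) →+* ↥(s34g_V O K N) :=
    { toFun := fun c => ⟨(c : ↥(s18_F K N)), s34g_adjoin_le S hS _ c.2⟩
      map_one' := rfl
      map_mul' := fun _ _ => rfl
      map_zero' := rfl
      map_add' := fun _ _ => rfl }
  let f : ↥(Algebra.adjoin O S) →+* ↥A :=
    { toFun := fun c => ⟨s34g_rho O K N (g c), s34sb_rho_adjoin_mem S hS A hA hSA _ c.2 _⟩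
      map_one' := Subtype.ext (by simp)
      map_mul' := fun _ _ => Subtype.ext (by simp)
      map_zero' := Subtype.ext (by simp)
      map_add' := fun _ _ => Subtype.ext (by simp) }
  have hcomp : (algebraMap ↥A (LaurentSeries (IsLocalRing.ResidueField O))).comp f =
      (s34g_rho O K N).comp g := rfl
  have hval : (algebraMap ↥(s34g_V O K N) ↥(s18_F K N)).comp g =
      algebraMap ↥(Algebra.adjoin O S) ↥(s18_F K N) := rfl
  -- the polynomial identity inside `V`
  have hV : Polynomial.eval₂ g (s34sb_incl O K N S hS b) p = 0 := by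
    apply Subtype.ext
    have h := Polynomial.hom_eval₂ p g (algebraMap ↥(s34g_V O K N) ↥(s18_F K N))
      (s34sb_incl O K N S hS b)
    have h' : ((Polynomial.eval₂ g (s34sb_incl O K N S hS b) p : ↥(s34g_V O K N)) :
        ↥(s18_F K N)) = Polynomial.eval₂ ((algebraMap ↥(s34g_V O K N) ↥(s18_F K N)).comp g)
          (b : ↥(s18_F K N)) p := h
    rw [h', hval, hpb]
    rfl
  refine ⟨p.map f, hp.map f, ?_⟩
  rw [Polynomial.eval₂_map, hcomp]
  have h2 := Polynomial.hom_eval₂ p g (s34g_rho O K N) (s34sb_incl O K N S hS b)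
  rw [hV, map_zero] at h2
  exact h2.symm

/-- **(SUB)**, generic in the coordinates: `ρ_∞ (chart_N S) ⊆ ρ_∞ (chart_M {x₀})`. -/
theorem s34sb_sub {x₀ : ↥(s18_F K M)} (hx₀ : x₀ ∈ s34g_V O K M)
    (htr : Transcendental (IsLocalRing.ResidueField O) (s34g_rho O K M ⟨x₀, hx₀⟩))
    (hdom : letI := s18_algOF O K M
      IsDomain (s18_fibre O ({x₀} : Set ↥(s18_F K M))))
    (hic : letI := s18_algOF O K M
      IsIntegrallyClosed (s18_fibre O ({x₀} : Set ↥(s18_F K M))))
    (hxK : Transcendental K x₀) (hfin : FiniteDimensional ↥(K⟮x₀⟯) ↥(s18_F K M))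
    (S : Set ↥(s18_F K N)) (hS : ∀ t ∈ S, t ∈ s34g_V O K N)
    (hSx : ∀ t (ht : t ∈ S), s34g_rho O K N ⟨t, hS t ht⟩ ∈
      (s34sb_rho O K M {x₀} (s34sb_hS hx₀)).range)
    (hres : ∀ y : ↥(s34g_V O K N), ∃ z : ↥(s34g_V O K M),
      s34g_rho O K N y = s34g_rho O K M z)
    (b : letI := s18_algOF O K N
      ↥(s18_chart O S)) :
    letI := s18_algOF O K M
    ∃ b₀ : ↥(s18_chart O ({x₀} : Set ↥(s18_F K M))),
      s34sb_rho O K N S hS b = s34sb_rho O K M {x₀} (s34sb_hS hx₀) b₀ := by
  letI a1 := s18_algOF O K M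
  letI a2 := s18_algOF O K N
  haveI := s34sb_range_isIntegrallyClosed hx₀ htr hdom hic
  have hA : ∀ a : O, algebraMap (IsLocalRing.ResidueField O)
      (LaurentSeries (IsLocalRing.ResidueField O)) (IsLocalRing.residue O a) ∈
      (s34sb_rho O K M {x₀} (s34sb_hS hx₀)).range := fun a =>
    ⟨algebraMap O _ a, s34sb_rho_algebraMap _ _ a⟩
  have hint := s34sb_rho_isIntegral S hS _ hA hSx b
  have hfr : ∃ a y : ↥(s34sb_rho O K M {x₀} (s34sb_hS hx₀)).range,
      (y : LaurentSeries (IsLocalRing.ResidueField O)) ≠ 0 ∧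
        s34sb_rho O K N S hS b * (y : LaurentSeries (IsLocalRing.ResidueField O)) =
          (a : LaurentSeries (IsLocalRing.ResidueField O)) := by
    obtain ⟨z, hz⟩ := hres (s34sb_incl O K N S hS b)
    obtain ⟨a, y, hy, hay⟩ := s34sb_exists_frac hx₀ htr hdom hxK hfin z
    refine ⟨⟨_, a, rfl⟩, ⟨_, y, rfl⟩, hy, ?_⟩
    show s34g_rho O K N (s34sb_incl O K N S hS b) * s34sb_rho O K M {x₀} (s34sb_hS hx₀) y =
      s34sb_rho O K M {x₀} (s34sb_hS hx₀) a
    rw [hz, s34sb_rho_apply, s34sb_rho_apply, ← map_mul]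
    congr 1
    exact Subtype.ext hay
  obtain ⟨b₀, hb₀⟩ := s34sb_mem_of_isIntegral _ hint hfr
  exact ⟨b₀, hb₀.symm⟩

end Sub

end Fermat.Agent.S34
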