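/-
S34, leaf [SS-BRANCH] = (D2) of the cut, part 3 (helper15).  Prefix `s34sb_`.

(SUB) FOR THE TWO CHARTS OF THE MODEL AT LEVEL `M q`, `J = j · j_q`:

  `s34sb_sub_J`     : `ρ_∞ (s18_chart O {J})   ⊆ ρ_M (s18_chart O {j})`,
  `s34sb_sub_Jinv`  : `ρ_∞ (s18_chart O {J⁻¹}) ⊆ ρ_M (s18_chart O {j⁻¹})`,

parametric in the Atkin-Lehner involution `W` (binders of helper26's (C4) `s34co_res_inf`) and in
the good model at level `M` (the fibres of the two charts of level `M` are integrally closed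
domains: S18 `s18_modelQ_main`).
-/
import Mathlib
import Fermat.Agent.S34.SsBranch
import Fermat.Agent.S34.CountRes

set_option autoImplicit false
set_option linter.unusedSectionVars false
set_option linter.unusedVariables false
set_option linter.style.haveILetI false

open AlgebraicCurve ModularCurve IntermediateField
open Fermat.Agent.S18

noncomputable section

namespace Fermat.Agent.S34

section Red

variable {O K : Type} [CommRing O] [IsDomain O] [IsDiscreteValuationRing O] [Field K]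
  [CharZero K] [Algebra O K] [IsFractionRing O K] {N : ℕ} [NeZero N]

/-- `ρ_∞ (j⁻¹) = j̄⁻¹`. -/
theorem s34sb_rho_j_inv :
    s34g_rho O K N ⟨(s18_j K N)⁻¹, s34g_j_inv_mem⟩ = (jqModC (IsLocalRing.ResidueField O))⁻¹ := by
  have h1 : (⟨s18_j K N, s34g_j_mem⟩ : ↥(s34g_V O K N)) * ⟨(s18_j K N)⁻¹, s34g_j_inv_mem⟩ = 1 := by
    apply Subtype.ext
    show s18_j K N * (s18_j K N)⁻¹ = 1
    exact mul_inv_cancel₀ (s18gq_j_ne_zero K N)
  have h2 := congrArg (s34g_rho O K N) h1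
  rw [map_mul, map_one, s34g_rho_j] at h2
  exact eq_inv_of_mul_eq_one_right h2

theorem s34sb_transc_inv : Transcendental K (s18_j K N)⁻¹ :=
  s18fin_transc_inv (s18gq_transc_j K N)

theorem s34sb_finite_inv : FiniteDimensional ↥(K⟮(s18_j K N)⁻¹⟯) ↥(s18_F K N) := by
  rw [← s18fin_adjoin_inv]
  exact s18gq_finite K N

end Red

section Inst

variable {O K : Type} [CommRing O] [IsDomain O] [IsDiscreteValuationRing O] [Field K]
  [CharZero K] [Algebra O K] [IsFractionRing O K] {M q : ℕ} [NeZero M] [NeZero q]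
  [NeZero (M * q)]

theorem s34sb_J_mem :
    s18_j K (M * q) * s34g_jd K (M * q) q (dvd_mul_left q M) ∈ s34g_V O K (M * q) :=
  (s34g_V O K (M * q)).mul_mem _ _ s34g_j_mem (s34g_jd_mem q (dvd_mul_left q M))

theorem s34sb_J_inv_mem :
    (s18_j K (M * q) * s34g_jd K (M * q) q (dvd_mul_left q M))⁻¹ ∈ s34g_V O K (M * q) := by
  rw [mul_inv]
  exact (s34g_V O K (M * q)).mul_mem _ _ s34g_j_inv_mem (s34g_jd_inv_mem q (dvd_mul_left q M))

/-- `ρ_∞ J = j̄ ^ (q + 1)`. -/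
theorem s34sb_rho_J [Fact q.Prime] (hqO : (q : O) ∈ IsLocalRing.maximalIdeal O) :
    s34g_rho O K (M * q)
        ⟨s18_j K (M * q) * s34g_jd K (M * q) q (dvd_mul_left q M), s34sb_J_mem⟩ =
      jqModC (IsLocalRing.ResidueField O) ^ (q + 1) := by
  have h : (⟨s18_j K (M * q) * s34g_jd K (M * q) q (dvd_mul_left q M), s34sb_J_mem⟩ :
      ↥(s34g_V O K (M * q))) = ⟨s18_j K (M * q), s34g_j_mem⟩ *
        ⟨s34g_jd K (M * q) q (dvd_mul_left q M), s34g_jd_mem q (dvd_mul_left q M)⟩ := rfl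
  rw [h, map_mul, s34g_rho_j, s34g_rho_jq q (dvd_mul_left q M) hqO, pow_succ, mul_comm]

/-- `ρ_∞ J⁻¹ = (j̄⁻¹) ^ (q + 1)`. -/
theorem s34sb_rho_J_inv [Fact q.Prime] (hqO : (q : O) ∈ IsLocalRing.maximalIdeal O) :
    s34g_rho O K (M * q)
        ⟨(s18_j K (M * q) * s34g_jd K (M * q) q (dvd_mul_left q M))⁻¹, s34sb_J_inv_mem⟩ =
      (jqModC (IsLocalRing.ResidueField O))⁻¹ ^ (q + 1) := by
  have h1 : (⟨s18_j K (M * q) * s34g_jd K (M * q) q (dvd_mul_left q M), s34sb_J_mem⟩ :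
      ↥(s34g_V O K (M * q))) *
      ⟨(s18_j K (M * q) * s34g_jd K (M * q) q (dvd_mul_left q M))⁻¹, s34sb_J_inv_mem⟩ = 1 := by
    apply Subtype.ext
    show s18_j K (M * q) * s34g_jd K (M * q) q (dvd_mul_left q M) *
      (s18_j K (M * q) * s34g_jd K (M * q) q (dvd_mul_left q M))⁻¹ = 1
    refine mul_inv_cancel₀ (mul_ne_zero (s18gq_j_ne_zero K (M * q)) ?_)
    intro h0
    have := s34g_rho_jd_ne_zero (O := O) (K := K) (N := M * q) q (dvd_mul_left q M)
    apply this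
    have e : (⟨s34g_jd K (M * q) q (dvd_mul_left q M), s34g_jd_mem q (dvd_mul_left q M)⟩ :
        ↥(s34g_V O K (M * q))) = 0 := Subtype.ext h0
    rw [e, map_zero]
  have h2 := congrArg (s34g_rho O K (M * q)) h1
  rw [map_mul, map_one, s34sb_rho_J hqO] at h2
  rw [inv_pow]
  exact eq_inv_of_mul_eq_one_right h2

variable (W : ↥(s18_F K (M * q)) ≃ₐ[K] ↥(s18_F K (M * q)))

/-- **(SUB) for the finite chart** `chart(J)`, `J = j · j_q`, at level `M q`. -/
theorem s34sb_sub_J [Fact q.Prime] (hqM : ¬ q ∣ M)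
    (hqO : (q : O) ∈ IsLocalRing.maximalIdeal O)
    (hWW : ∀ f, W (W f) = f)
    (hWj : W (s18_j K (M * q)) = s34g_jd K (M * q) q (dvd_mul_left q M))
    (hdom : letI := s18_algOF O K M
      IsDomain (s18_fibre O ({s18_j K M} : Set ↥(s18_F K M))))
    (hic : letI := s18_algOF O K M
      IsIntegrallyClosed (s18_fibre O ({s18_j K M} : Set ↥(s18_F K M))))
    (b : letI := s18_algOF O K (M * q)
      ↥(s18_chart O ({s18_j K (M * q) * s34g_jd K (M * q) q (dvd_mul_left q M)} :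
        Set ↥(s18_F K (M * q))))) :
    letI := s18_algOF O K M
    ∃ b₀ : ↥(s18_chart O ({s18_j K M} : Set ↥(s18_F K M))),
      s34sb_rho O K (M * q) _ (s34sb_hS s34sb_J_mem) b =
        s34sb_rho O K M _ (s34sb_hS s34g_j_mem) b₀ := by
  letI a1 := s18_algOF O K M
  letI a2 := s18_algOF O K (M * q)
  obtain ⟨ϖ, hϖ⟩ := IsDiscreteValuationRing.exists_irreducible O
  have htr : Transcendental (IsLocalRing.ResidueField O)
      (s34g_rho O K M ⟨s18_j K M, s34g_j_mem⟩) := by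
    rw [s34g_rho_j]
    exact s18gq_transc_jq _
  refine s34sb_sub s34g_j_mem htr hdom hic (s18gq_transc_j K M) (s18gq_finite K M) _
    (s34sb_hS s34sb_J_mem) ?_ (fun y => s34co_res_inf W hqM hqO hϖ hWW hWj y) b
  intro t ht
  refine ⟨(s34sb_gen O (s18_j K M)) ^ (q + 1), ?_⟩
  have e : (⟨t, s34sb_hS s34sb_J_mem t ht⟩ : ↥(s34g_V O K (M * q))) =
      ⟨s18_j K (M * q) * s34g_jd K (M * q) q (dvd_mul_left q M), s34sb_J_mem⟩ :=
    Subtype.ext (Set.mem_singleton_iff.mp ht)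
  rw [e, s34sb_rho_J hqO, map_pow]
  congr 1
  exact s34g_rho_j

/-- **(SUB) for the chart at infinity** `chart(J⁻¹)`, `J = j · j_q`, at level `M q`. -/
theorem s34sb_sub_Jinv [Fact q.Prime] (hqM : ¬ q ∣ M)
    (hqO : (q : O) ∈ IsLocalRing.maximalIdeal O)
    (hWW : ∀ f, W (W f) = f)
    (hWj : W (s18_j K (M * q)) = s34g_jd K (M * q) q (dvd_mul_left q M))
    (hdom : letI := s18_algOF O K M
      IsDomain (s18_fibre O ({(s18_j K M)⁻¹} : Set ↥(s18_F K M))))
    (hic : letI := s18_algOF O K M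
      IsIntegrallyClosed (s18_fibre O ({(s18_j K M)⁻¹} : Set ↥(s18_F K M))))
    (b : letI := s18_algOF O K (M * q)
      ↥(s18_chart O ({(s18_j K (M * q) * s34g_jd K (M * q) q (dvd_mul_left q M))⁻¹} :
        Set ↥(s18_F K (M * q))))) :
    letI := s18_algOF O K M
    ∃ b₀ : ↥(s18_chart O ({(s18_j K M)⁻¹} : Set ↥(s18_F K M))),
      s34sb_rho O K (M * q) _ (s34sb_hS s34sb_J_inv_mem) b =
        s34sb_rho O K M _ (s34sb_hS s34g_j_inv_mem) b₀ := by
  letI a1 := s18_algOF O K M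
  letI a2 := s18_algOF O K (M * q)
  obtain ⟨ϖ, hϖ⟩ := IsDiscreteValuationRing.exists_irreducible O
  have htr : Transcendental (IsLocalRing.ResidueField O)
      (s34g_rho O K M ⟨(s18_j K M)⁻¹, s34g_j_inv_mem⟩) := by
    rw [s34sb_rho_j_inv]
    exact s18gq_transc_jq_inv _
  refine s34sb_sub s34g_j_inv_mem htr hdom hic s34sb_transc_inv s34sb_finite_inv _
    (s34sb_hS s34sb_J_inv_mem) ?_ (fun y => s34co_res_inf W hqM hqO hϖ hWW hWj y) b
  intro t ht
  refine ⟨(s34sb_gen O (s18_j K M)⁻¹) ^ (q + 1), ?_⟩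
  have e : (⟨t, s34sb_hS s34sb_J_inv_mem t ht⟩ : ↥(s34g_V O K (M * q))) =
      ⟨(s18_j K (M * q) * s34g_jd K (M * q) q (dvd_mul_left q M))⁻¹, s34sb_J_inv_mem⟩ :=
    Subtype.ext (Set.mem_singleton_iff.mp ht)
  rw [e, s34sb_rho_J_inv hqO, map_pow]
  congr 1
  exact s34sb_rho_j_inv

end Inst

end Fermat.Agent.S34
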