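/-
S34, leaf [SS-BRANCH] = (D2) of the cut, part 4 (helper15).  Prefix `s34sb_`.

(SUB) FOR THE TWO CHARTS OF THE MODEL AT LEVEL `M q` OVER `(K0, O)`, HYPOTHESIS-FREE:
`K0 ⊆ Q̄` a number field, `O` a discrete valuation ring of `K0` over `q`, `q ∤ M`, `4 ∣ M` or
`9 ∣ M`, `W = s34w_W M q K0` the Atkin-Lehner involution over `K0`, the good model at level `M`
from S18 `s18_modelQ_main`.
-/
import Mathlib
import Fermat.Agent.S18.ModelMain
import Fermat.Agent.S34.SsNodeRes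
import Fermat.Agent.S34.SsWMain
import Fermat.Agent.S34.SsBranchJ

set_option autoImplicit false
set_option linter.unusedSectionVars false
set_option linter.unusedVariables false
set_option linter.style.haveILetI false
set_option synthInstance.maxHeartbeats 400000
set_option maxHeartbeats 1000000

open AlgebraicCurve ModularCurve IntermediateField
open Fermat.Agent.S18

noncomputable section

namespace Fermat.Agent.S34

section K0

variable (M q : ℕ) [NeZero M] [NeZero q] [NeZero (M * q)]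
  (K0 : IntermediateField ℚ (AlgebraicClosure ℚ)) (hK0 : FiniteDimensional ℚ ↥K0)
  (O : ValuationSubring ↥K0) [IsDiscreteValuationRing ↥O]

include hK0 in
/-- The good model at level `M` over `(K0, O)` (S18 [MODEL-Q]). -/
theorem s34sb_model (hq : q.Prime) (hM : ¬ q ∣ M) (h49 : 4 ∣ M ∨ 9 ∣ M)
    (hqO : (q : ↥O) ∈ IsLocalRing.maximalIdeal ↥O) :
    letI := s18_algOF ↥O ↥K0 M
    haveI := s18_towerOF ↥O ↥K0 M
    s18_IsGoodModel ↥O ↥K0 ↥(s18_F ↥K0 M) (s18_j ↥K0 M) := by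
  haveI : Fact q.Prime := ⟨hq⟩
  haveI : Finite (IsLocalRing.ResidueField ↥O) := s34nd_residue_finite (K := ↥K0) O q hqO
  have hperf : PerfectField (IsLocalRing.ResidueField ↥O) := by
    haveI : Fintype (IsLocalRing.ResidueField ↥O) := Fintype.ofFinite _
    infer_instance
  exact (s18_modelQ_main M hM h49 K0 hK0 O hqO hperf).1

include hK0 in
/-- **(SUB) for `chart(J)` over `(K0, O)`**, hypothesis-free. -/
theorem s34sb_sub_J_K0 (hq : q.Prime) (hM : ¬ q ∣ M) (h49 : 4 ∣ M ∨ 9 ∣ M)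
    (hqO : (q : ↥O) ∈ IsLocalRing.maximalIdeal ↥O)
    (b : letI := s18_algOF ↥O ↥K0 (M * q)
      ↥(s18_chart ↥O ({s18_j ↥K0 (M * q) * s34g_jd ↥K0 (M * q) q (dvd_mul_left q M)} :
        Set ↥(s18_F ↥K0 (M * q))))) :
    letI := s18_algOF ↥O ↥K0 M
    ∃ b₀ : ↥(s18_chart ↥O ({s18_j ↥K0 M} : Set ↥(s18_F ↥K0 M))),
      s34sb_rho ↥O ↥K0 (M * q) _ (s34sb_hS s34sb_J_mem) b =
        s34sb_rho ↥O ↥K0 M _ (s34sb_hS s34g_j_mem) b₀ := by
  haveI : Fact q.Prime := ⟨hq⟩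
  have hm := s34sb_model M q K0 hK0 O hq hM h49 hqO
  letI := s18_algOF ↥O ↥K0 M
  haveI := s18_towerOF ↥O ↥K0 M
  exact s34sb_sub_J (s34w_W M q K0 hq hM) hM hqO (s34w_W_W hq hM) (s34w_W_j hq hM)
    hm.isDomain_fin hm.isIntegrallyClosed_fin b

include hK0 in
/-- **(SUB) for `chart(J⁻¹)` over `(K0, O)`**, hypothesis-free. -/
theorem s34sb_sub_Jinv_K0 (hq : q.Prime) (hM : ¬ q ∣ M) (h49 : 4 ∣ M ∨ 9 ∣ M)
    (hqO : (q : ↥O) ∈ IsLocalRing.maximalIdeal ↥O)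
    (b : letI := s18_algOF ↥O ↥K0 (M * q)
      ↥(s18_chart ↥O ({(s18_j ↥K0 (M * q) * s34g_jd ↥K0 (M * q) q (dvd_mul_left q M))⁻¹} :
        Set ↥(s18_F ↥K0 (M * q))))) :
    letI := s18_algOF ↥O ↥K0 M
    ∃ b₀ : ↥(s18_chart ↥O ({(s18_j ↥K0 M)⁻¹} : Set ↥(s18_F ↥K0 M))),
      s34sb_rho ↥O ↥K0 (M * q) _ (s34sb_hS s34sb_J_inv_mem) b =
        s34sb_rho ↥O ↥K0 M _ (s34sb_hS s34g_j_inv_mem) b₀ := by
  haveI : Fact q.Prime := ⟨hq⟩
  have hm := s34sb_model M q K0 hK0 O hq hM h49 hqO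
  letI := s18_algOF ↥O ↥K0 M
  haveI := s18_towerOF ↥O ↥K0 M
  exact s34sb_sub_Jinv (s34w_W M q K0 hq hM) hM hqO (s34w_W_W hq hM) (s34w_W_j hq hM)
    hm.isDomain_inf hm.isIntegrallyClosed_inf b

end K0

end Fermat.Agent.S34
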