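/-
S34, leaf [SS-NODE] = (D3) of the cut (owner: helper23).  Prefix `s34nd_`.
THE ABSTRACT CORE, Mathlib only.

SETTING.  `B` a commutative ring (the chart), `π ∈ B`, `ρ : B → A` a surjection onto a Dedekind
domain (`ρ = ρ∞`, `A` = the special fibre of the chart of level `M'`), `W` an involution of `B`
(Atkin-Lehner), `p∞ = ker ρ`, `p₀ = ker (ρ ∘ W)`, `p∞ ⊓ p₀ ≤ (π)`.  `Φ : A → A` a ring
endomorphism (`T ↦ T^q`) such that every `a ∈ A` has a lift `b ∈ B` with `ρ (W b) = Φ a`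
(`b = α b₀`, `W α = β`) and such that some iterate `(Φ ∘ Φ)^[k]` is the `N`-th power map,
`N ≥ 2` (`κ` is finite).

THEN at every prime `n ⊇ p∞ + p₀` of `B` the two branches are transversal: there are `x ∈ p₀`,
`y ∈ p∞` with `p₀ = (π, x)`, `p∞ = (π, y)`, `n = (π, x, y)` locally at `n`, and `x y ∈ (π)`.
-/
import Mathlib
import Fermat.Agent.S34.SsNodeAbs

set_option autoImplicit false

namespace Fermat.Agent.S34

section Core

variable {B A : Type*} [CommRing B] [CommRing A]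
  (ρ : B →+* A) (W : B ≃+* B) (Φ : A →+* A)

/-- Telescoping: if every `a - Φ (Φ a)` is the image of an element of `p₀`, so is every
`a - (Φ ∘ Φ)^[k] a`. -/
theorem s34nd_telescope
    (hfr : ∀ a : A, ∃ x : B, ρ (W x) = 0 ∧ ρ x = a - Φ (Φ a)) (k : ℕ) (a : A) :
    ∃ x : B, ρ (W x) = 0 ∧ ρ x = a - (fun c => Φ (Φ c))^[k] a := by
  induction k with
  | zero => exact ⟨0, by simp, by simp⟩
  | succ k ih =>
    obtain ⟨x, hx0, hx⟩ := ih
    obtain ⟨x', hx0', hx'⟩ := hfr ((fun c => Φ (Φ c))^[k] a)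
    refine ⟨x + x', by rw [map_add, map_add, hx0, hx0', add_zero], ?_⟩
    rw [map_add, hx, hx', Function.iterate_succ_apply']
    ring

/-- The lifting property gives the elements `x ∈ p₀` with `ρ x = a - Φ (Φ a)`. -/
theorem s34nd_fr_of_lift (hWW : ∀ b, W (W b) = b)
    (hlift : ∀ a : A, ∃ b : B, ρ b = a ∧ ρ (W b) = Φ a) (a : A) :
    ∃ x : B, ρ (W x) = 0 ∧ ρ x = a - Φ (Φ a) := by
  obtain ⟨b, hb, hWb⟩ := hlift a
  obtain ⟨b', hb', hWb'⟩ := hlift (Φ a)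
  refine ⟨b - W b', ?_, ?_⟩
  · rw [map_sub, map_sub, hWW, hWb, hb', sub_self]
  · rw [map_sub, hb, hWb']

variable (π : B)

/-- **The `x`-half of the core**: at a prime `n ⊇ p∞ + p₀` there is `x ∈ p₀` generating `n`
modulo `p∞` locally at `n`. -/
theorem s34nd_core_x [IsDedekindDomain A] (hρ : Function.Surjective ρ)
    {N : ℕ} (hN : 2 ≤ N)
    (hfrN : ∀ a : A, ∃ x : B, ρ (W x) = 0 ∧ ρ x = a - a ^ N)
    (n : Ideal B) [hn : n.IsPrime] (h1 : RingHom.ker ρ ≤ n)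
    (h0 : ∀ b : B, ρ (W b) = 0 → b ∈ n) :
    ∃ x : B, ρ (W x) = 0 ∧ s34nd_LocGenBy (n.map ρ) (n.map ρ) (ρ x) ∧
      ∀ z ∈ n, ∃ s : B, s ∉ n ∧ ∃ c : B, ρ (s * z - c * x) = 0 := by
  have hm : (n.map ρ).IsPrime := Ideal.map_isPrime_of_surjective hρ h1
  have hmem : ∀ a : A, a - (RingHom.id A a) ^ N ∈ n.map ρ := by
    intro a
    obtain ⟨x, hx0, hx⟩ := hfrN a
    rw [RingHom.id_apply, ← hx]
    exact Ideal.mem_map_of_mem ρ (h0 x hx0)
  obtain ⟨t, ht⟩ := s34nd_fr_dedekind (RingHom.id A) hN (n.map ρ) hmem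
  rw [RingHom.id_apply] at ht
  obtain ⟨x, hx0, hx⟩ := hfrN t
  rw [← hx] at ht
  refine ⟨x, hx0, ht, ?_⟩
  intro z hz
  obtain ⟨s, hs, c, hc⟩ := s34nd_lift_locGen ρ hρ n ht z hz
  exact ⟨s, hs, c, hc⟩

/-- **[NODE-CORE]** the two branches are transversal at every common point. -/
theorem s34nd_core [IsDedekindDomain A] (hρ : Function.Surjective ρ)
    (hWW : ∀ b, W (W b) = b)
    (hcap : ∀ b : B, ρ b = 0 → ρ (W b) = 0 → b ∈ Ideal.span {π})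
    {N : ℕ} (hN : 2 ≤ N)
    (hfrN : ∀ a : A, ∃ x : B, ρ (W x) = 0 ∧ ρ x = a - a ^ N)
    (n : Ideal B) [hn : n.IsPrime] (h1 : ∀ b : B, ρ b = 0 → b ∈ n)
    (h0 : ∀ b : B, ρ (W b) = 0 → b ∈ n) :
    ∃ x y : B, ρ (W x) = 0 ∧ ρ y = 0 ∧
      s34nd_LocGenBy (n.map ρ) (n.map ρ) (ρ x) ∧
      (∀ z : B, ρ (W z) = 0 → ∃ s : B, s ∉ n ∧ s * z ∈ Ideal.span {π, x}) ∧
      (∀ z : B, ρ z = 0 → ∃ s : B, s ∉ n ∧ s * z ∈ Ideal.span {π, y}) ∧
      s34nd_LocLe n n (Ideal.span {π, x, y}) ∧ ∃ r : B, x * y = π * r := by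
  set pinf : Ideal B := RingHom.ker ρ with hpinf
  set p0 : Ideal B := RingHom.ker (ρ.comp (W : B →+* B)) with hp0
  have hmem0 : ∀ b : B, b ∈ p0 ↔ ρ (W b) = 0 := fun b => by
    rw [hp0, RingHom.mem_ker]; rfl
  have hmem1 : ∀ b : B, b ∈ pinf ↔ ρ b = 0 := fun b => by
    rw [hpinf, RingHom.mem_ker]
  have hcap' : pinf ⊓ p0 ≤ Ideal.span {π} := fun b hb =>
    hcap b ((hmem1 b).1 hb.1) ((hmem0 b).1 hb.2)
  have hcap'' : p0 ⊓ pinf ≤ Ideal.span {π} := by rwa [inf_comm]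
  have h1' : pinf ≤ n := fun b hb => h1 b ((hmem1 b).1 hb)
  have h0' : p0 ≤ n := fun b hb => h0 b ((hmem0 b).1 hb)
  -- the `x`-half at `n`
  obtain ⟨x, hx0, hxg, hx⟩ := s34nd_core_x ρ W hρ hN hfrN n h1' h0
  -- the `x`-half at `W n`
  let n' : Ideal B := n.comap (W : B →+* B)
  have hn' : n'.IsPrime := Ideal.comap_isPrime _ _
  have hn'mem : ∀ b : B, b ∈ n' ↔ W b ∈ n := fun b => Ideal.mem_comap
  have h1n' : RingHom.ker ρ ≤ n' := fun b hb => by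
    rw [hn'mem]
    apply h0
    rw [hWW]
    exact (RingHom.mem_ker).1 hb
  have h0n' : ∀ b : B, ρ (W b) = 0 → b ∈ n' := fun b hb => by
    rw [hn'mem]
    exact h1 _ hb
  obtain ⟨x', hx0', -, hx'⟩ := s34nd_core_x ρ W hρ hN hfrN n' h1n' h0n'
  have hy : ∀ z ∈ n, ∃ s : B, s ∉ n ∧ ∃ c : B, s * z - c * W x' ∈ p0 := by
    intro z hz
    have hz' : W z ∈ n' := by rw [hn'mem, hWW]; exact hz
    obtain ⟨s, hs, c, hc⟩ := hx' (W z) hz'
    refine ⟨W s, fun h => hs ((hn'mem s).2 h), W c, ?_⟩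
    rw [hmem0]
    have e : W (W s * z - W c * W x') = s * W z - c * x' := by
      rw [map_sub, map_mul, map_mul, hWW, hWW, hWW]
    rw [e]
    exact hc
  have hxp : ∀ z ∈ n, ∃ s : B, s ∉ n ∧ ∃ c : B, s * z - c * x ∈ pinf := by
    intro z hz
    obtain ⟨s, hs, c, hc⟩ := hx z hz
    exact ⟨s, hs, c, (hmem1 _).2 hc⟩
  have hxmem : x ∈ p0 := (hmem0 x).2 hx0
  have hymem : W x' ∈ pinf := by
    rw [hmem1]
    exact hx0'
  refine ⟨x, W x', hx0, hx0', hxg, ?_, ?_, ?_, ?_⟩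
  · intro z hz
    exact s34nd_node_p0 π pinf p0 n hcap' hxmem h0' hxp z ((hmem0 z).2 hz)
  · intro z hz
    exact s34nd_node_p0 π p0 pinf n hcap'' hymem h1' hy z ((hmem1 z).2 hz)
  · exact s34nd_node_n π pinf p0 n hcap' hymem h1' hxp hy
  · exact s34nd_node_mul π pinf p0 hcap' hxmem hymem

/-- **[SMOOTH-CORE]** at a prime `n ⊇ p∞`, `n ⊉ p₀` (a point of the component `p∞` only):
`n = (π, h)` locally at `n`. -/
theorem s34nd_core_smooth [IsDedekindDomain A] (hρ : Function.Surjective ρ)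
    (hcap : ∀ b : B, ρ b = 0 → ρ (W b) = 0 → b ∈ Ideal.span {π})
    (n : Ideal B) [hn : n.IsPrime] (h1 : ∀ b : B, ρ b = 0 → b ∈ n)
    (h0 : ∃ b : B, ρ (W b) = 0 ∧ b ∉ n) :
    ∃ h : B, h ∈ n ∧ s34nd_LocLe n n (Ideal.span {π, h}) := by
  set pinf : Ideal B := RingHom.ker ρ with hpinf
  set p0 : Ideal B := RingHom.ker (ρ.comp (W : B →+* B)) with hp0
  have hmem0 : ∀ b : B, b ∈ p0 ↔ ρ (W b) = 0 := fun b => by
    rw [hp0, RingHom.mem_ker]; rfl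
  have hmem1 : ∀ b : B, b ∈ pinf ↔ ρ b = 0 := fun b => by
    rw [hpinf, RingHom.mem_ker]
  have hcap' : pinf ⊓ p0 ≤ Ideal.span {π} := fun b hb =>
    hcap b ((hmem1 b).1 hb.1) ((hmem0 b).1 hb.2)
  have h1' : pinf ≤ n := fun b hb => h1 b ((hmem1 b).1 hb)
  have hm : (n.map ρ).IsPrime := Ideal.map_isPrime_of_surjective hρ h1'
  obtain ⟨t, htm, s, hs, hgen⟩ := s34nd_dedekind_locGen (n.map ρ)
  obtain ⟨h, hhn, rfl⟩ := (Ideal.mem_map_iff_of_surjective ρ hρ).1 htm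
  have hg : s34nd_LocGenBy (n.map ρ) (n.map ρ) (ρ h) :=
    ⟨htm, fun z hz => ⟨s, hs, hgen z hz⟩⟩
  refine ⟨h, hhn, ?_⟩
  have hp0n : ¬ p0 ≤ n := by
    obtain ⟨b, hb0, hbn⟩ := h0
    exact fun hle => hbn (hle ((hmem0 b).2 hb0))
  refine s34nd_smooth π pinf p0 n hcap' hp0n ?_
  intro z hz
  obtain ⟨s', hs', c, hc⟩ := s34nd_lift_locGen ρ hρ n hg z hz
  exact ⟨s', hs', c, hc⟩

end Core

end Fermat.Agent.S34
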