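/-
S34, leaf [SS-NODE] = (D3) (owner: helper23).  Prefix `s34nd_`.
THE NODE DATUM AND ITS LOCALISED FORM.  Mathlib only.

`s34nd_IsNode π p∞ p₀ n x y`:  `p∞, p₀ ≤ n`, `x ∈ p₀ ∖ p∞`, `y ∈ p∞ ∖ p₀`, and locally at `n`:
`p₀ = (π, x)`, `p∞ = (π, y)`, `n = (π, x, y)`; `x y ∈ (π)`.
`s34nd_IsSmooth π n h`:  `h ∈ n` and `n = (π, h)` locally at `n`.

In `R = B_n` (any `IsLocalization.AtPrime R n`) these become the hypotheses of helper4's
`s34la_loc_node` / `s34la_loc_smooth`:  `maximalIdeal R = span {π, x, y}`, `span {π, y}` and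
`span {π, x}` prime, `x ∉ span {π, y}`, `y ∉ span {π, x}`, `x y = π r`;  resp.
`maximalIdeal R = span {π, h}`.
-/
import Mathlib
import Fermat.Agent.S34.SsNodeAbs

set_option autoImplicit false

namespace Fermat.Agent.S34

section Loc

variable {B : Type*} [CommRing B]

/-- **The node datum** at the prime `n`. -/
structure s34nd_IsNode (π : B) (pinf p0 n : Ideal B) (x y : B) : Prop where
  pinf_le_n : pinf ≤ n
  p0_le_n : p0 ≤ n
  x_mem : x ∈ p0
  x_not_mem : x ∉ pinf
  y_mem : y ∈ pinf
  y_not_mem : y ∉ p0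
  p0_le : s34nd_LocLe n p0 (Ideal.span {π, x})
  pinf_le : s34nd_LocLe n pinf (Ideal.span {π, y})
  n_le : s34nd_LocLe n n (Ideal.span {π, x, y})
  mul : ∃ r : B, x * y = π * r

/-- **A point with one local equation** `h` of the special fibre. -/
structure s34nd_IsSmooth (π : B) (n : Ideal B) (h : B) : Prop where
  mem : h ∈ n
  n_le : s34nd_LocLe n n (Ideal.span {π, h})

variable (n : Ideal B) [hn : n.IsPrime] (R : Type*) [CommRing R] [Algebra B R]
  [hloc : IsLocalization.AtPrime R n]

/-- `J = I` locally at `n` gives the equality of the extended ideals in `B_n`. -/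
theorem s34nd_map_eq {J I : Ideal B} (h : s34nd_LocLe n J I) (hIJ : I ≤ J) :
    J.map (algebraMap B R) = I.map (algebraMap B R) := by
  apply le_antisymm
  · rw [Ideal.map_le_iff_le_comap]
    intro z hz
    obtain ⟨s, hs, hsz⟩ := h z hz
    rw [Ideal.mem_comap]
    have hu : IsUnit (algebraMap B R s) :=
      IsLocalization.map_units R (⟨s, hs⟩ : n.primeCompl)
    have h1 : algebraMap B R (s * z) ∈ I.map (algebraMap B R) := Ideal.mem_map_of_mem _ hsz
    rw [map_mul] at h1
    exact (Ideal.unit_mul_mem_iff_mem _ hu).1 h1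
  · exact Ideal.map_mono hIJ

/-- Membership in an extended prime ideal `p B_n`, `p ≤ n`, can be tested in `B`. -/
theorem s34nd_mem_of_map_mem {p : Ideal B} [hp : p.IsPrime] (hpn : p ≤ n) {b : B}
    (hb : algebraMap B R b ∈ p.map (algebraMap B R)) : b ∈ p := by
  rw [IsLocalization.mem_map_algebraMap_iff n.primeCompl R] at hb
  obtain ⟨⟨a, s⟩, hs⟩ := hb
  rw [← map_mul] at hs
  obtain ⟨c, hc⟩ := (IsLocalization.eq_iff_exists n.primeCompl R).1 hs
  have h1 : (c : B) * (b * (s : B)) ∈ p := by
    rw [hc]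
    exact p.mul_mem_left _ a.2
  rcases hp.mem_or_mem h1 with h2 | h2
  · exact absurd (hpn h2) c.2
  · rcases hp.mem_or_mem h2 with h3 | h3
    · exact h3
    · exact absurd (hpn h3) s.2

theorem s34nd_map_isPrime {p : Ideal B} [hp : p.IsPrime] (hpn : p ≤ n) :
    (p.map (algebraMap B R)).IsPrime := by
  refine IsLocalization.isPrime_of_isPrime_disjoint n.primeCompl R p hp ?_
  rw [Set.disjoint_left]
  intro s hs hsp
  exact hs (hpn hsp)

variable {n}

/-- **The node datum in `B_n`** - the hypotheses of `s34la_loc_node`. -/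
theorem s34nd_node_loc {π : B} {pinf p0 : Ideal B} [hpinf : pinf.IsPrime] [hp0 : p0.IsPrime]
    (hπinf : π ∈ pinf) (hπ0 : π ∈ p0) {x y : B}
    (h : s34nd_IsNode π pinf p0 n x y) :
    haveI := IsLocalization.AtPrime.isLocalRing R n
    IsLocalRing.maximalIdeal R =
        Ideal.span {algebraMap B R π, algebraMap B R x, algebraMap B R y} ∧
      (Ideal.span {algebraMap B R π, algebraMap B R y}).IsPrime ∧
      (Ideal.span {algebraMap B R π, algebraMap B R x}).IsPrime ∧
      algebraMap B R x ∉ Ideal.span {algebraMap B R π, algebraMap B R y} ∧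
      algebraMap B R y ∉ Ideal.span {algebraMap B R π, algebraMap B R x} ∧
      ∃ r : R, algebraMap B R x * algebraMap B R y = algebraMap B R π * r := by
  have := IsLocalization.AtPrime.isLocalRing R n
  have hinf : pinf ≤ n := h.pinf_le_n
  have h0 : p0 ≤ n := h.p0_le_n
  have hπn : π ∈ n := hinf hπinf
  have hxn : x ∈ n := h0 h.x_mem
  have hyn : y ∈ n := hinf h.y_mem
  have e3 : Ideal.span {π, x, y} ≤ n := by
    rw [Ideal.span_le]
    intro a ha
    simp only [Set.mem_insert_iff, Set.mem_singleton_iff] at ha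
    rcases ha with rfl | rfl | rfl
    · exact hπn
    · exact hxn
    · exact hyn
  have e2 : Ideal.span {π, x} ≤ p0 := by
    rw [Ideal.span_le]
    intro a ha
    simp only [Set.mem_insert_iff, Set.mem_singleton_iff] at ha
    rcases ha with rfl | rfl
    · exact hπ0
    · exact h.x_mem
  have e1 : Ideal.span {π, y} ≤ pinf := by
    rw [Ideal.span_le]
    intro a ha
    simp only [Set.mem_insert_iff, Set.mem_singleton_iff] at ha
    rcases ha with rfl | rfl
    · exact hπinf
    · exact h.y_mem
  have m3 := s34nd_map_eq n R h.n_le e3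
  have m2 := s34nd_map_eq n R h.p0_le e2
  have m1 := s34nd_map_eq n R h.pinf_le e1
  rw [Ideal.map_span] at m1 m2 m3
  have i3 : (algebraMap B R) '' {π, x, y} =
      {algebraMap B R π, algebraMap B R x, algebraMap B R y} := by
    simp [Set.image_insert_eq]
  have i2 : (algebraMap B R) '' {π, x} = {algebraMap B R π, algebraMap B R x} := by
    simp [Set.image_insert_eq]
  have i1 : (algebraMap B R) '' {π, y} = {algebraMap B R π, algebraMap B R y} := by
    simp [Set.image_insert_eq]
  rw [i3] at m3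
  rw [i2] at m2
  rw [i1] at m1
  refine ⟨?_, ?_, ?_, ?_, ?_, ?_⟩
  · rw [← m3, IsLocalization.AtPrime.map_eq_maximalIdeal]
  · rw [← m1]
    exact s34nd_map_isPrime n R hinf
  · rw [← m2]
    exact s34nd_map_isPrime n R h0
  · rw [← m1]
    exact fun hx => h.x_not_mem (s34nd_mem_of_map_mem n R hinf hx)
  · rw [← m2]
    exact fun hy => h.y_not_mem (s34nd_mem_of_map_mem n R h0 hy)
  · obtain ⟨r, hr⟩ := h.mul
    exact ⟨algebraMap B R r, by rw [← map_mul, ← map_mul, hr]⟩

/-- **A point with one local equation, in `B_n`** - the hypothesis of `s34la_loc_smooth`. -/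
theorem s34nd_smooth_loc {π : B} (hπn : π ∈ n) {h : B} (hs : s34nd_IsSmooth π n h) :
    haveI := IsLocalization.AtPrime.isLocalRing R n
    IsLocalRing.maximalIdeal R = Ideal.span {algebraMap B R π, algebraMap B R h} := by
  have := IsLocalization.AtPrime.isLocalRing R n
  have e : Ideal.span {π, h} ≤ n := by
    rw [Ideal.span_le]
    intro a ha
    simp only [Set.mem_insert_iff, Set.mem_singleton_iff] at ha
    rcases ha with rfl | rfl
    · exact hπn
    · exact hs.mem
  have m := s34nd_map_eq n R hs.n_le e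
  rw [Ideal.map_span] at m
  have i : (algebraMap B R) '' {π, h} = {algebraMap B R π, algebraMap B R h} := by
    simp [Set.image_insert_eq]
  rw [i] at m
  rw [← m, IsLocalization.AtPrime.map_eq_maximalIdeal]

end Loc

end Fermat.Agent.S34
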