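/-
S34, leaf [SS-NODE] = (D3) (owner: helper23).  Prefix `s34nd_`.
THE SERIES FORM: the abstract core with `Φ = qExpand κ q` on `κ((T))`, `κ` finite.

SETTING.  `B` a commutative ring (the chart `chart(J)` or `chart(1/J)` at level `M q`), `π ∈ B`,
`ρ : B → κ((T))` (the reduction `ρ∞` at the cusp `∞`), `W` an involution of `B` with `W π = π`
(Atkin-Lehner), `p∞ = ker ρ`, `p₀ = ker (ρ ∘ W)`, and
  * (D1)  `p∞ ⊓ p₀ ≤ (π)`,  `p₀ ⊄ p∞`;
  * (D2)  `r : B → A` onto a Dedekind domain with `ker r = ker ρ` (`A` = the special fibre of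
          the chart of level `M`), and every `b ∈ B` has a companion `b'` with `ρ b' = ρ b`,
          `ρ (W b') = (ρ b)(T^q)`   (`b' = α b₀`, `W α = β`).
THEN every prime `n ∋ π` of `B` is a NODE (`n ⊇ p∞ + p₀`: `p₀ = (π, x)`, `p∞ = (π, y)`,
`n = (π, x, y)` locally at `n`, `x y ∈ (π)`) or a point with ONE local equation
(`n = (π, h)` locally at `n`).
-/
import Mathlib
import Fermat.Agent.S34.SsNodeCore
import Fermat.Agent.S34.SsNodeLoc
import Fermat.Agent.S34.SsNodeFrob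

set_option autoImplicit false

open ModularCurve

noncomputable section

namespace Fermat.Agent.S34

section Series

variable {B A κ : Type*} [CommRing B] [CommRing A] [IsDedekindDomain A] [Field κ] [Finite κ]
  (q : ℕ) [NeZero q] [Fact q.Prime] [CharP κ q]
  (π : B) (ρ : B →+* LaurentSeries κ) (r : B →+* A) (W : B ≃+* B)

omit [IsDedekindDomain A] in
include q in
/-- The elements `x ∈ p₀` with `r x = a - a ^ N`, `N = q ^ (2 f)`. -/
theorem s34nd_series_fr (hr : Function.Surjective r) (hrρ : ∀ b, r b = 0 ↔ ρ b = 0)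
    (hWW : ∀ b, W (W b) = b)
    (hlift : ∀ b : B, ∃ b' : B, ρ b' = ρ b ∧ ρ (W b') = qExpand κ q (ρ b)) :
    ∃ N : ℕ, 2 ≤ N ∧ ∀ a : A, ∃ x : B, r (W x) = 0 ∧ r x = a - a ^ N := by
  obtain ⟨f, hf, hcard⟩ := s34nd_card_eq (κ := κ) q
  have hq2 : 2 ≤ q := (Fact.out : q.Prime).two_le
  refine ⟨q ^ (2 * f), ?_, ?_⟩
  · calc 2 ≤ q := hq2
      _ = q ^ 1 := (pow_one q).symm
      _ ≤ q ^ (2 * f) := Nat.pow_le_pow_right (by omega) (by omega)
  · intro a
    obtain ⟨b, rfl⟩ := hr a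
    -- work in the range of `ρ`
    have hfr : ∀ c : ρ.range, ∃ x : B, ρ.rangeRestrict (W x) = 0 ∧
        (ρ.rangeRestrict x : LaurentSeries κ) = (c : LaurentSeries κ) -
          qExpand κ q (qExpand κ q (c : LaurentSeries κ)) := by
      rintro ⟨c, b0, rfl⟩
      obtain ⟨b1, hb1, hWb1⟩ := hlift b0
      obtain ⟨b2, hb2, hWb2⟩ := hlift (W b1)
      refine ⟨b1 - W b2, Subtype.ext ?_, ?_⟩
      · show ρ (W (b1 - W b2)) = 0
        rw [map_sub, map_sub, hWW, hWb1, hb2, hWb1, sub_self]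
      · show ρ (b1 - W b2) = ρ b0 - _
        rw [map_sub, hb1, hWb2, hWb1]
    -- telescope
    have htel : ∀ (k : ℕ) (c : LaurentSeries κ), c ∈ ρ.range → ∃ x : B, ρ (W x) = 0 ∧
        ρ x = c - (fun d => qExpand κ q (qExpand κ q d))^[k] c := by
      intro k
      induction k with
      | zero => intro c _; exact ⟨0, by simp, by simp⟩
      | succ k ih =>
        intro c hc
        obtain ⟨x, hx0, hx⟩ := ih c hc
        have hmem : (fun d => qExpand κ q (qExpand κ q d))^[k] c ∈ ρ.range := by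
          have : (fun d => qExpand κ q (qExpand κ q d))^[k] c = c - ρ x := by
            rw [hx]; ring
          rw [this]
          exact sub_mem hc ⟨x, rfl⟩
        obtain ⟨x', hx0', hx'⟩ := hfr ⟨_, hmem⟩
        refine ⟨x + x', ?_, ?_⟩
        · have h1 : ρ (W x') = 0 := congrArg Subtype.val hx0'
          rw [map_add, map_add, hx0, h1, add_zero]
        · have h2 : ρ x' = (fun d => qExpand κ q (qExpand κ q d))^[k] c -
              qExpand κ q (qExpand κ q ((fun d => qExpand κ q (qExpand κ q d))^[k] c)) := hx'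
          rw [map_add, hx, h2, Function.iterate_succ_apply']
          ring
    obtain ⟨x, hx0, hx⟩ := htel f (ρ b) ⟨b, rfl⟩
    rw [s34nd_qExpand_iter2 q hcard] at hx
    refine ⟨x, (hrρ _).2 hx0, ?_⟩
    have h3 : r (x - (b - b ^ (q ^ (2 * f)))) = 0 := by
      rw [hrρ, map_sub, hx, map_sub, map_pow, sub_self]
    rw [map_sub, sub_eq_zero] at h3
    rw [h3, map_sub, map_pow]

/-- **[NODE-CORE] with the non-vanishing clauses**: `x ∈ p₀ ∖ p∞`, `y ∈ p∞ ∖ p₀`. -/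
theorem s34nd_core_nz (hr : Function.Surjective r) (hWW : ∀ b, W (W b) = b)
    (hcap : ∀ b : B, r b = 0 → r (W b) = 0 → b ∈ Ideal.span {π})
    {N : ℕ} (hN : 2 ≤ N)
    (hfrN : ∀ a : A, ∃ x : B, r (W x) = 0 ∧ r x = a - a ^ N)
    (hne : ∃ b : B, r (W b) = 0 ∧ r b ≠ 0)
    (n : Ideal B) [hn : n.IsPrime] (h1 : ∀ b : B, r b = 0 → b ∈ n)
    (h0 : ∀ b : B, r (W b) = 0 → b ∈ n) :
    ∃ x y : B, r (W x) = 0 ∧ r x ≠ 0 ∧ r y = 0 ∧ r (W y) ≠ 0 ∧
      (∀ z : B, r (W z) = 0 → ∃ s : B, s ∉ n ∧ s * z ∈ Ideal.span {π, x}) ∧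
      (∀ z : B, r z = 0 → ∃ s : B, s ∉ n ∧ s * z ∈ Ideal.span {π, y}) ∧
      s34nd_LocLe n n (Ideal.span {π, x, y}) ∧ ∃ c : B, x * y = π * c := by
  set pinf : Ideal B := RingHom.ker r with hpinf
  set p0 : Ideal B := RingHom.ker (r.comp (W : B →+* B)) with hp0
  have hmem0 : ∀ b : B, b ∈ p0 ↔ r (W b) = 0 := fun b => by
    rw [hp0, RingHom.mem_ker]; rfl
  have hmem1 : ∀ b : B, b ∈ pinf ↔ r b = 0 := fun b => by
    rw [hpinf, RingHom.mem_ker]
  have hcap' : pinf ⊓ p0 ≤ Ideal.span {π} := fun b hb =>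
    hcap b ((hmem1 b).1 hb.1) ((hmem0 b).1 hb.2)
  have hcap'' : p0 ⊓ pinf ≤ Ideal.span {π} := by rwa [inf_comm]
  have h1' : pinf ≤ n := fun b hb => h1 b ((hmem1 b).1 hb)
  have h0' : p0 ≤ n := fun b hb => h0 b ((hmem0 b).1 hb)
  obtain ⟨b0, hb0, hb0'⟩ := hne
  -- non-vanishing of a local generator
  have hnz : ∀ (n' : Ideal B), (∀ b : B, r (W b) = 0 → b ∈ n') → ∀ x' : B,
      s34nd_LocGenBy (n'.map r) (n'.map r) (r x') → r x' ≠ 0 := by
    intro n' h0n x' hg hx'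
    obtain ⟨s, hs, c, hc⟩ := hg.2 (r b0) (Ideal.mem_map_of_mem r (h0n b0 hb0))
    rw [hx', mul_zero] at hc
    rcases mul_eq_zero.1 hc with h | h
    · exact hs (h ▸ Ideal.zero_mem _)
    · exact hb0' h
  -- the `x`-half at `n`
  obtain ⟨x, hx0, hxg, hx⟩ := s34nd_core_x r W hr hN hfrN n h1' h0
  -- the `x`-half at `W n`
  let n' : Ideal B := n.comap (W : B →+* B)
  have hn' : n'.IsPrime := Ideal.comap_isPrime _ _
  have hn'mem : ∀ b : B, b ∈ n' ↔ W b ∈ n := fun b => Ideal.mem_comap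
  have h1n' : RingHom.ker r ≤ n' := fun b hb => by
    rw [hn'mem]
    apply h0
    rw [hWW]
    exact (RingHom.mem_ker).1 hb
  have h0n' : ∀ b : B, r (W b) = 0 → b ∈ n' := fun b hb => by
    rw [hn'mem]
    exact h1 _ hb
  obtain ⟨x', hx0', hxg', hx'⟩ := s34nd_core_x r W hr hN hfrN n' h1n' h0n'
  have hy : ∀ z ∈ n, ∃ s : B, s ∉ n ∧ ∃ c : B, s * z - c * W x' ∈ p0 := by
    intro z hz
    have hz' : W z ∈ n' := by rw [hn'mem, hWW]; exact hz
    obtain ⟨s, hs, c, hc⟩ := hx' (W z) hz'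
    refine ⟨W s, fun h => hs ((hn'mem s).2 h), W c, ?_⟩
    rw [hmem0]
    have e : W (W s * z - W c * W x') = s * W z - c * x' := by
      rw [map_sub, map_mul, map_mul, hWW, hWW, hWW]
    rw [e]
    exact hc
  have hxp : ∀ z ∈ n, ∃ s : B, s ∉ n ∧ ∃ c : B, s * z - c * x ∈ pinf := by
    intro z hz
    obtain ⟨s, hs, c, hc⟩ := hx z hz
    exact ⟨s, hs, c, (hmem1 _).2 hc⟩
  have hxmem : x ∈ p0 := (hmem0 x).2 hx0
  have hymem : W x' ∈ pinf := by
    rw [hmem1]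
    exact hx0'
  refine ⟨x, W x', hx0, hnz n h0 x hxg, hx0', ?_, ?_, ?_, ?_, ?_⟩
  · rw [hWW]
    exact hnz n' h0n' x' hxg'
  · intro z hz
    exact s34nd_node_p0 π pinf p0 n hcap' hxmem h0' hxp z ((hmem0 z).2 hz)
  · intro z hz
    exact s34nd_node_p0 π p0 pinf n hcap'' hymem h1' hy z ((hmem1 z).2 hz)
  · exact s34nd_node_n π pinf p0 n hcap' hymem h1' hxp hy
  · exact s34nd_node_mul π pinf p0 hcap' hxmem hymem

include q in
/-- **[SS-NODE], series form.**  Every prime `n ∋ π` of the chart is a node or a point with one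
local equation. -/
theorem s34nd_series (hr : Function.Surjective r) (hrρ : ∀ b, r b = 0 ↔ ρ b = 0)
    (hWW : ∀ b, W (W b) = b) (hWπ : W π = π)
    (hcap : ∀ b : B, ρ b = 0 → ρ (W b) = 0 → b ∈ Ideal.span {π})
    (hne : ∃ b : B, ρ (W b) = 0 ∧ ρ b ≠ 0)
    (hlift : ∀ b : B, ∃ b' : B, ρ b' = ρ b ∧ ρ (W b') = qExpand κ q (ρ b))
    (n : Ideal B) [hn : n.IsPrime] (hπn : π ∈ n) :
    (∃ x y : B, s34nd_IsNode π (RingHom.ker ρ) (RingHom.ker (ρ.comp (W : B →+* B))) n x y) ∨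
      (∃ h : B, s34nd_IsSmooth π n h) := by
  obtain ⟨N, hN, hfrN⟩ := s34nd_series_fr q ρ r W hr hrρ hWW hlift
  set pinf : Ideal B := RingHom.ker ρ with hpinf
  set p0 : Ideal B := RingHom.ker (ρ.comp (W : B →+* B)) with hp0
  have hmem0 : ∀ b : B, b ∈ p0 ↔ ρ (W b) = 0 := fun b => by
    rw [hp0, RingHom.mem_ker]; rfl
  have hmem1 : ∀ b : B, b ∈ pinf ↔ ρ b = 0 := fun b => by
    rw [hpinf, RingHom.mem_ker]
  have hcapr : ∀ b : B, r b = 0 → r (W b) = 0 → b ∈ Ideal.span {π} := fun b h1 h2 =>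
    hcap b ((hrρ b).1 h1) ((hrρ _).1 h2)
  -- `n` contains `p∞` or `p₀`
  have hor : pinf ≤ n ∨ p0 ≤ n := by
    by_contra hcon
    push Not at hcon
    obtain ⟨h1, h2⟩ := hcon
    obtain ⟨a, ha, han⟩ := Set.not_subset.1 h1
    obtain ⟨b, hb, hbn⟩ := Set.not_subset.1 h2
    have hab : a * b ∈ Ideal.span {π} := by
      apply hcap
      · rw [map_mul, (hmem1 a).1 ha, zero_mul]
      · rw [map_mul, map_mul, (hmem0 b).1 hb, mul_zero]
    have habn : a * b ∈ n := (Ideal.span_singleton_le_iff_mem n).2 hπn hab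
    rcases hn.mem_or_mem habn with h | h
    · exact han h
    · exact hbn h
  -- the smooth case on the branch `p∞`, for an arbitrary prime
  have hsmooth : ∀ (n' : Ideal B) [n'.IsPrime], pinf ≤ n' → ¬ p0 ≤ n' →
      ∃ h : B, s34nd_IsSmooth π n' h := by
    intro n' _ h1 h0
    obtain ⟨e, he0, hen⟩ := Set.not_subset.1 h0
    obtain ⟨h, hh, hle⟩ := s34nd_core_smooth r W π hr hcapr n'
      (fun b hb => h1 ((hmem1 b).2 ((hrρ b).1 hb)))
      ⟨e, (hrρ _).2 ((hmem0 e).1 he0), hen⟩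
    exact ⟨h, hh, hle⟩
  by_cases h1 : pinf ≤ n
  · by_cases h0 : p0 ≤ n
    · -- the node
      left
      have h1r : ∀ b : B, r b = 0 → b ∈ n := fun b hb => h1 ((hmem1 b).2 ((hrρ b).1 hb))
      have h0r : ∀ b : B, r (W b) = 0 → b ∈ n := fun b hb =>
        h0 ((hmem0 b).2 ((hrρ _).1 hb))
      obtain ⟨b0, hb0, hb0'⟩ := hne
      obtain ⟨x, y, hx0, hxnz, hy0, hynz, hp0le, hpinfle, hnle, hmul⟩ :=
        s34nd_core_nz π r W hr hWW hcapr hN hfrN
          ⟨b0, (hrρ _).2 hb0, fun h => hb0' ((hrρ b0).1 h)⟩ n h1r h0r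
      exact ⟨x, y, ⟨h1, h0,
        (hmem0 x).2 ((hrρ _).1 hx0), fun h => hxnz ((hrρ x).2 ((hmem1 x).1 h)),
        (hmem1 y).2 ((hrρ y).1 hy0), fun h => hynz ((hrρ _).2 ((hmem0 y).1 h)),
        fun z hz => hp0le z ((hrρ _).2 ((hmem0 z).1 hz)),
        fun z hz => hpinfle z ((hrρ z).2 ((hmem1 z).1 hz)), hnle, hmul⟩⟩
    · right
      exact hsmooth n h1 h0
  · -- `p₀ ≤ n`, `p∞ ⊄ n`: transport by `W`
    right
    have h0 : p0 ≤ n := hor.resolve_left h1
    let n' : Ideal B := n.comap (W : B →+* B)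
    have hn' : n'.IsPrime := Ideal.comap_isPrime _ _
    have hn'mem : ∀ b : B, b ∈ n' ↔ W b ∈ n := fun b => Ideal.mem_comap
    have h1' : pinf ≤ n' := fun b hb => by
      rw [hn'mem]
      apply h0
      rw [hmem0, hWW]
      exact (hmem1 b).1 hb
    have h0' : ¬ p0 ≤ n' := by
      intro hle
      apply h1
      intro b hb
      have : W b ∈ n' := hle (by rw [hmem0, hWW]; exact (hmem1 b).1 hb)
      rw [hn'mem, hWW] at this
      exact this
    obtain ⟨h, hh⟩ := hsmooth n' h1' h0'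
    refine ⟨W h, (hn'mem h).1 hh.mem, ?_⟩
    intro z hz
    obtain ⟨s, hs, hsz⟩ := hh.n_le (W z) (by rw [hn'mem, hWW]; exact hz)
    refine ⟨W s, fun hc => hs ((hn'mem s).2 hc), ?_⟩
    have himg : (Ideal.span {π, h}).map (W : B →+* B) = Ideal.span {π, W h} := by
      rw [Ideal.map_span]
      congr 1
      simp [Set.image_insert_eq, hWπ]
    have : (W : B →+* B) (s * W z) ∈ (Ideal.span {π, h}).map (W : B →+* B) :=
      Ideal.mem_map_of_mem _ hsz
    rw [himg] at this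
    simpa [hWW] using this

end Series

end Fermat.Agent.S34
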