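/-
S34, leaf [SS-NODE] = (D3) (owner: helper23).  Prefix `s34nd_`.
THE DEDEKIND INPUT.

* `s34nd_fibre_dedekind`: both special fibres of a good model (S18 `s18_IsGoodModel`) are
  Dedekind domains (integrally closed domains by definition, noetherian by `s18b_noeth`, of
  dimension `≤ 1` by `s18loc_dim`).
* `s34nd_series_of_range`: the series form of [SS-NODE] with (D2) in the form
  `ρ(B) = e(A)`, `e : A → κ((T))` injective, `A` a Dedekind domain
  (`A` = the fibre of the chart of level `M`, `e` = its reduction map).
-/
import Mathlib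
import Fermat.Agent.S18.BasicA
import Fermat.Agent.S18.LocDim
import Fermat.Agent.S34.SsNodeSeries

set_option autoImplicit false

open ModularCurve IntermediateField
open Fermat.Agent.S18

noncomputable section

namespace Fermat.Agent.S34

section Fibre

variable (O K F : Type) [CommRing O] [IsDomain O] [IsDiscreteValuationRing O] [Field K]
  [CharZero K] [Algebra O K] [IsFractionRing O K] [Field F] [Algebra K F] [Algebra O F]
  [IsScalarTower O K F]

/-- The fibre of a chart with coordinate `t` is a Dedekind domain as soon as it is an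
integrally closed domain. -/
theorem s34nd_fibre_dedekind_of {t : F} (ht : Transcendental K t)
    (hfin : FiniteDimensional ↥K⟮t⟯ F) (hdom : IsDomain (s18_fibre O ({t} : Set F)))
    (hic : IsIntegrallyClosed (s18_fibre O ({t} : Set F))) :
    IsDedekindDomain (s18_fibre O ({t} : Set F)) := by
  have hnoeth : IsNoetherianRing ↥(s18_chart O ({t} : Set F)) :=
    s18b_noeth (O := O) (K := K) ht hfin
  have hnoeth' : IsNoetherianRing (s18_fibre O ({t} : Set F)) := inferInstance
  have hdim : Ring.DimensionLEOne (s18_fibre O ({t} : Set F)) := s18loc_dim O t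
  have : IsDedekindRing (s18_fibre O ({t} : Set F)) := { hic with }
  exact { }

/-- **The fibre of the finite chart of a good model is a Dedekind domain.** -/
theorem s34nd_fibre_dedekind {j : F} (h : s18_IsGoodModel O K F j) :
    IsDedekindDomain (s18_fibre O ({j} : Set F)) :=
  s34nd_fibre_dedekind_of O K F h.transcendental h.finite h.isDomain_fin
    h.isIntegrallyClosed_fin

end Fibre

section Range

variable {B A κ : Type*} [CommRing B] [CommRing A] [IsDedekindDomain A] [Field κ] [Finite κ]
  (q : ℕ) [NeZero q] [Fact q.Prime] [CharP κ q]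
  (π : B) (ρ : B →+* LaurentSeries κ) (e : A →+* LaurentSeries κ) (W : B ≃+* B)

include q in
/-- **[SS-NODE], series form, with (D2) as an equality of images** `ρ(B) = e(A)`. -/
theorem s34nd_series_of_range (he : Function.Injective e)
    (hsub : ∀ b : B, ∃ a : A, e a = ρ b) (hsup : ∀ a : A, ∃ b : B, ρ b = e a)
    (hWW : ∀ b, W (W b) = b) (hWπ : W π = π)
    (hcap : ∀ b : B, ρ b = 0 → ρ (W b) = 0 → b ∈ Ideal.span {π})
    (hne : ∃ b : B, ρ (W b) = 0 ∧ ρ b ≠ 0)
    (hlift : ∀ b : B, ∃ b' : B, ρ b' = ρ b ∧ ρ (W b') = qExpand κ q (ρ b))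
    (n : Ideal B) [hn : n.IsPrime] (hπn : π ∈ n) :
    (∃ x y : B, s34nd_IsNode π (RingHom.ker ρ) (RingHom.ker (ρ.comp (W : B →+* B))) n x y) ∨
      (∃ h : B, s34nd_IsSmooth π n h) := by
  classical
  choose f hf using hsub
  have hf_unique : ∀ (b : B) (a : A), e a = ρ b → a = f b := fun b a ha =>
    he (ha.trans (hf b).symm)
  let r : B →+* A :=
    { toFun := f
      map_one' := (hf_unique 1 1 (by rw [map_one, map_one])).symm
      map_mul' := fun x y => (hf_unique (x * y) (f x * f y)
        (by rw [map_mul, map_mul, hf, hf])).symm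
      map_zero' := (hf_unique 0 0 (by rw [map_zero, map_zero])).symm
      map_add' := fun x y => (hf_unique (x + y) (f x + f y)
        (by rw [map_add, map_add, hf, hf])).symm }
  have hr : Function.Surjective r := by
    intro a
    obtain ⟨b, hb⟩ := hsup a
    exact ⟨b, (hf_unique b a hb.symm).symm⟩
  have hrρ : ∀ b, r b = 0 ↔ ρ b = 0 := by
    intro b
    show f b = 0 ↔ ρ b = 0
    rw [← hf b]
    exact ⟨fun h => by rw [h, map_zero], fun h => he (h.trans (map_zero e).symm)⟩
  exact s34nd_series q π ρ r W hr hrρ hWW hWπ hcap hne hlift n hπn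

end Range

end Fermat.Agent.S34
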