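/-
S34, leaf [SS-BRANCH] = (N3), the chart part (helper8).  Prefix `s34wc_`.

THE DEGENERACY MAPS PRESERVE THE CHARTS.  `O` a discrete valuation ring, `K = Frac O` of
characteristic zero, levels `M` and `M * q`, `α = heckeAlphaBar K M q` (the inclusion
`F_K(M) ⊆ F_K(M q)`), `β = heckeBetaBar K M q` (`T ↦ T ^ q`), `j_q = s34g_jd K (M q) q`,
`J = j * j_q` (the coordinate of the model, helper29's `s34km_J`).

  `s34wc_map_mem_chart`  : a ring hom over `O` maps `chart(S)` into `chart(S')` if it maps `S`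
                           into `S'` (abstract);
  `s34wc_alpha_mem_j`    : `α (chart_M(j)) ⊆ chart(j)`,       `s34wc_beta_mem_jq` :
                           `β (chart_M(j)) ⊆ chart(j_q)`;
  `s34wc_alpha_mem_jinv` : `α (chart_M(j⁻¹)) ⊆ chart(j⁻¹)`,   `s34wc_beta_mem_jqinv` :
                           `β (chart_M(j⁻¹)) ⊆ chart(j_q⁻¹)`;

and, with the two halves of [SS-INT] as hypotheses (`hjq : j_q` integral over `O[j]`,
`hj : j` integral over `O[j_q]`; helper17's leaf, in the shape of helper28's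
`s34iw_IntStatement`):

  `s34wc_alpha_mem`, `s34wc_beta_mem`         : `α b₀, β b₀ ∈ chart(J)` for `b₀ ∈ chart_M(j)`;
  `s34wc_alpha_inv_mem`, `s34wc_beta_inv_mem` : `α b₀, β b₀ ∈ chart(J⁻¹)` for `b₀ ∈ chart_M(j⁻¹)`;
  `s34wc_chart_J_eq`, `s34wc_chart_J_eq'`     : `chart(J) = chart(j) = chart(j_q)`;
  `s34wc_W_mem`                               : an involution `W` over `K` with `W j = j_q`,
                                                `W j_q = j` preserves `chart(J)` and
                                                `chart(J⁻¹)`.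
-/
import Mathlib
import Fermat.Prelude.Def_ModularCurve_HeckeOperator
import Fermat.Agent.S34.SsIntAbs
import Fermat.Agent.S34.SsGaussNe
import Fermat.Agent.S34.SsW

set_option autoImplicit false
set_option linter.unusedSectionVars false
set_option linter.unusedVariables false
set_option linter.style.haveILetI false
set_option maxHeartbeats 400000

open AlgebraicCurve ModularCurve IntermediateField
open Fermat.Agent.S18

noncomputable section

namespace Fermat.Agent.S34

/-! ### Abstract: ring homomorphisms over `O` and charts -/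

section Abs

variable {O : Type*} [CommRing O] {F F' : Type*} [Field F] [Field F'] [Algebra O F]
  [Algebra O F']

/-- A ring homomorphism over `O` which maps `S` into `S'` maps `O[S]` into `O[S']`. -/
theorem s34wc_map_mem_adjoin (φ : F →+* F')
    (hφ : ∀ a : O, φ (algebraMap O F a) = algebraMap O F' a) (S : Set F) (S' : Set F')
    (hS : ∀ s ∈ S, φ s ∈ S') {a : F} (ha : a ∈ Algebra.adjoin O S) :
    φ a ∈ Algebra.adjoin O S' := by
  induction ha using Algebra.adjoin_induction with
  | mem s hs => exact Algebra.subset_adjoin (hS s hs)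
  | algebraMap r => rw [hφ]; exact Subalgebra.algebraMap_mem _ r
  | add a b _ _ iha ihb => rw [map_add]; exact add_mem iha ihb
  | mul a b _ _ iha ihb => rw [map_mul]; exact mul_mem iha ihb

/-- A ring homomorphism over `O` which maps `S` into `S'` maps `chart(S)` into `chart(S')`. -/
theorem s34wc_map_mem_chart (φ : F →+* F')
    (hφ : ∀ a : O, φ (algebraMap O F a) = algebraMap O F' a) (S : Set F) (S' : Set F')
    (hS : ∀ s ∈ S, φ s ∈ S') {x : F} (hx : x ∈ s18_chart O S) :
    φ x ∈ s18_chart O S' := by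
  rw [s18_mem_chart_iff] at hx ⊢
  let f : ↥(Algebra.adjoin O S) →+* ↥(Algebra.adjoin O S') :=
    { toFun := fun a => ⟨φ (a : F), s34wc_map_mem_adjoin φ hφ S S' hS a.2⟩
      map_one' := Subtype.ext (map_one φ)
      map_mul' := fun a b => Subtype.ext (map_mul φ (a : F) (b : F))
      map_zero' := Subtype.ext (map_zero φ)
      map_add' := fun a b => Subtype.ext (map_add φ (a : F) (b : F)) }
  exact IsIntegral.map_of_comp_eq f φ (RingHom.ext fun a => rfl) hx

/-- The singleton form. -/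
theorem s34wc_map_mem_chart_singleton (φ : F →+* F')
    (hφ : ∀ a : O, φ (algebraMap O F a) = algebraMap O F' a) {s : F} {s' : F'}
    (hs : φ s = s') {x : F} (hx : x ∈ s18_chart O ({s} : Set F)) :
    φ x ∈ s18_chart O ({s'} : Set F') :=
  s34wc_map_mem_chart φ hφ _ _ (fun t ht => by
    rw [Set.mem_singleton_iff.1 ht, hs]
    exact Set.mem_singleton _) hx

end Abs

/-! ### `j_d ≠ 0` -/

section Ne

variable (K : Type) [Field K] [CharZero K]

/-- `j_d ≠ 0`. -/
theorem s34wc_jd_ne_zero (N : ℕ) [NeZero N] (d : ℕ) [NeZero d] (hd : d ∣ N) :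
    s34g_jd K N d hd ≠ 0 := by
  intro h
  have h1 : coeffEmb K (qExpand ℚ d jq) = 0 := congrArg Subtype.val h
  have h2 : qExpand ℚ d jq = 0 := (coeffEmb K).injective (by rw [h1, map_zero])
  exact jq_ne_zero (qExpand_injective (R := ℚ) (N := d) (by rw [h2, map_zero]))

/-- `j ≠ 0`. -/
theorem s34wc_j_ne_zero (N : ℕ) [NeZero N] : s18_j K N ≠ 0 := by
  rw [s34g_j_eq]
  exact s34wc_jd_ne_zero K N 1 (one_dvd N)

end Ne

/-! ### The degeneracy maps -/

section AB

variable (O : Type) {K : Type} [CommRing O] [IsDomain O] [IsDiscreteValuationRing O] [Field K]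
  [CharZero K] [Algebra O K] [IsFractionRing O K] (M q : ℕ) [NeZero M] [NeZero q]
  [NeZero (M * q)]

theorem s34wc_alpha_algebraMap (a : O) :
    letI := s18_algOF O K M
    letI := s18_algOF O K (M * q)
    heckeAlphaBar K M q (algebraMap O ↥(s18_F K M) a) = algebraMap O ↥(s18_F K (M * q)) a :=
  (heckeAlphaBar K M q).commutes (algebraMap O K a)

theorem s34wc_beta_algebraMap (a : O) :
    letI := s18_algOF O K M
    letI := s18_algOF O K (M * q)
    heckeBetaBar K M q (algebraMap O ↥(s18_F K M) a) = algebraMap O ↥(s18_F K (M * q)) a :=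
  (heckeBetaBar K M q).commutes (algebraMap O K a)

/-- `α j = j`. -/
theorem s34wc_alpha_j : heckeAlphaBar K M q (s18_j K M) = s18_j K (M * q) := by
  apply Subtype.ext
  rw [coe_heckeAlphaBar]
  rfl

/-- `β j = j_q`. -/
theorem s34wc_beta_j :
    heckeBetaBar K M q (s18_j K M) = s34g_jd K (M * q) q (dvd_mul_left q M) := by
  rw [s34g_j_eq, s34w_beta_jd K q 1 (one_dvd M)]
  exact s34w_jd_congr K (M * q) (one_mul q) _ _

/-- `α (chart_M(j)) ⊆ chart(j)`. -/
theorem s34wc_alpha_mem_j (b : ↥(s18_F K M)) :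
    letI := s18_algOF O K M
    letI := s18_algOF O K (M * q)
    b ∈ s18_chart O ({s18_j K M} : Set ↥(s18_F K M)) →
      heckeAlphaBar K M q b ∈ s18_chart O ({s18_j K (M * q)} : Set ↥(s18_F K (M * q))) := by
  letI := s18_algOF O K M
  letI := s18_algOF O K (M * q)
  intro hb
  exact s34wc_map_mem_chart_singleton (heckeAlphaBar K M q : ↥(s18_F K M) →+* ↥(s18_F K (M * q)))
    (s34wc_alpha_algebraMap O M q) (s34wc_alpha_j M q) hb

/-- `β (chart_M(j)) ⊆ chart(j_q)`. -/
theorem s34wc_beta_mem_jq (b : ↥(s18_F K M)) :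
    letI := s18_algOF O K M
    letI := s18_algOF O K (M * q)
    b ∈ s18_chart O ({s18_j K M} : Set ↥(s18_F K M)) →
      heckeBetaBar K M q b ∈
        s18_chart O ({s34g_jd K (M * q) q (dvd_mul_left q M)} : Set ↥(s18_F K (M * q))) := by
  letI := s18_algOF O K M
  letI := s18_algOF O K (M * q)
  intro hb
  exact s34wc_map_mem_chart_singleton (heckeBetaBar K M q : ↥(s18_F K M) →+* ↥(s18_F K (M * q)))
    (s34wc_beta_algebraMap O M q) (s34wc_beta_j M q) hb

/-- `α (chart_M(j⁻¹)) ⊆ chart(j⁻¹)`. -/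
theorem s34wc_alpha_mem_jinv (b : ↥(s18_F K M)) :
    letI := s18_algOF O K M
    letI := s18_algOF O K (M * q)
    b ∈ s18_chart O ({(s18_j K M)⁻¹} : Set ↥(s18_F K M)) →
      heckeAlphaBar K M q b ∈ s18_chart O ({(s18_j K (M * q))⁻¹} : Set ↥(s18_F K (M * q))) := by
  letI := s18_algOF O K M
  letI := s18_algOF O K (M * q)
  intro hb
  exact s34wc_map_mem_chart_singleton (heckeAlphaBar K M q : ↥(s18_F K M) →+* ↥(s18_F K (M * q)))
    (s34wc_alpha_algebraMap O M q) (by rw [RingHom.coe_coe, map_inv₀, s34wc_alpha_j]) hb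

/-- `β (chart_M(j⁻¹)) ⊆ chart(j_q⁻¹)`. -/
theorem s34wc_beta_mem_jqinv (b : ↥(s18_F K M)) :
    letI := s18_algOF O K M
    letI := s18_algOF O K (M * q)
    b ∈ s18_chart O ({(s18_j K M)⁻¹} : Set ↥(s18_F K M)) →
      heckeBetaBar K M q b ∈
        s18_chart O ({(s34g_jd K (M * q) q (dvd_mul_left q M))⁻¹} :
          Set ↥(s18_F K (M * q))) := by
  letI := s18_algOF O K M
  letI := s18_algOF O K (M * q)
  intro hb
  exact s34wc_map_mem_chart_singleton (heckeBetaBar K M q : ↥(s18_F K M) →+* ↥(s18_F K (M * q)))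
    (s34wc_beta_algebraMap O M q) (by rw [RingHom.coe_coe, map_inv₀, s34wc_beta_j]) hb

end AB

/-! ### The charts of the coordinate `J = j * j_q` -/

section J

variable (O : Type) {K : Type} [CommRing O] [IsDomain O] [IsDiscreteValuationRing O] [Field K]
  [CharZero K] [Algebra O K] [IsFractionRing O K] (M q : ℕ) [NeZero M] [NeZero q]
  [NeZero (M * q)]

/-- `chart(j) ≤ chart(J)`. -/
theorem s34wc_chart_j_le :
    letI := s18_algOF O K (M * q)
    IsIntegral ↥(Algebra.adjoin O
        ({s34g_jd K (M * q) q (dvd_mul_left q M)} : Set ↥(s18_F K (M * q))))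
      (s18_j K (M * q)) →
    s18_chart O ({s18_j K (M * q)} : Set ↥(s18_F K (M * q))) ≤
      s18_chart O ({s18_j K (M * q) * s34g_jd K (M * q) q (dvd_mul_left q M)} :
        Set ↥(s18_F K (M * q))) := by
  letI := s18_algOF O K (M * q)
  intro hj
  refine s34in_chart_le _ _ fun s hs => ?_
  rw [Set.mem_singleton_iff.1 hs]
  exact s34in_left_mem hj

/-- `chart(j_q) ≤ chart(J)`. -/
theorem s34wc_chart_jq_le :
    letI := s18_algOF O K (M * q)
    IsIntegral ↥(Algebra.adjoin O ({s18_j K (M * q)} : Set ↥(s18_F K (M * q))))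
      (s34g_jd K (M * q) q (dvd_mul_left q M)) →
    s18_chart O ({s34g_jd K (M * q) q (dvd_mul_left q M)} : Set ↥(s18_F K (M * q))) ≤
      s18_chart O ({s18_j K (M * q) * s34g_jd K (M * q) q (dvd_mul_left q M)} :
        Set ↥(s18_F K (M * q))) := by
  letI := s18_algOF O K (M * q)
  intro hjq
  refine s34in_chart_le _ _ fun s hs => ?_
  rw [Set.mem_singleton_iff.1 hs]
  exact s34in_right_mem hjq

/-- `chart(j⁻¹) ≤ chart(J⁻¹)`. -/
theorem s34wc_chart_jinv_le :
    letI := s18_algOF O K (M * q)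
    IsIntegral ↥(Algebra.adjoin O ({s18_j K (M * q)} : Set ↥(s18_F K (M * q))))
      (s34g_jd K (M * q) q (dvd_mul_left q M)) →
    s18_chart O ({(s18_j K (M * q))⁻¹} : Set ↥(s18_F K (M * q))) ≤
      s18_chart O ({(s18_j K (M * q) * s34g_jd K (M * q) q (dvd_mul_left q M))⁻¹} :
        Set ↥(s18_F K (M * q))) := by
  letI := s18_algOF O K (M * q)
  intro hjq
  refine s34in_chart_le _ _ fun s hs => ?_
  rw [Set.mem_singleton_iff.1 hs]
  exact s34in_inv_left_mem (s34wc_jd_ne_zero K (M * q) q (dvd_mul_left q M)) hjq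

/-- `chart(j_q⁻¹) ≤ chart(J⁻¹)`. -/
theorem s34wc_chart_jqinv_le :
    letI := s18_algOF O K (M * q)
    IsIntegral ↥(Algebra.adjoin O
        ({s34g_jd K (M * q) q (dvd_mul_left q M)} : Set ↥(s18_F K (M * q))))
      (s18_j K (M * q)) →
    s18_chart O ({(s34g_jd K (M * q) q (dvd_mul_left q M))⁻¹} : Set ↥(s18_F K (M * q))) ≤
      s18_chart O ({(s18_j K (M * q) * s34g_jd K (M * q) q (dvd_mul_left q M))⁻¹} :
        Set ↥(s18_F K (M * q))) := by
  letI := s18_algOF O K (M * q)
  intro hj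
  refine s34in_chart_le _ _ fun s hs => ?_
  rw [Set.mem_singleton_iff.1 hs]
  exact s34in_inv_right_mem (s34wc_j_ne_zero K (M * q)) hj

/-- **`α b₀ ∈ chart(J)`** for `b₀ ∈ chart_M(j)`. -/
theorem s34wc_alpha_mem (b : ↥(s18_F K M)) :
    letI := s18_algOF O K M
    letI := s18_algOF O K (M * q)
    IsIntegral ↥(Algebra.adjoin O
        ({s34g_jd K (M * q) q (dvd_mul_left q M)} : Set ↥(s18_F K (M * q))))
      (s18_j K (M * q)) →
    b ∈ s18_chart O ({s18_j K M} : Set ↥(s18_F K M)) →
      heckeAlphaBar K M q b ∈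
        s18_chart O ({s18_j K (M * q) * s34g_jd K (M * q) q (dvd_mul_left q M)} :
          Set ↥(s18_F K (M * q))) := by
  letI := s18_algOF O K M
  letI := s18_algOF O K (M * q)
  intro hj hb
  exact s34wc_chart_j_le O M q hj (s34wc_alpha_mem_j O M q b hb)

/-- **`β b₀ ∈ chart(J)`** for `b₀ ∈ chart_M(j)`. -/
theorem s34wc_beta_mem (b : ↥(s18_F K M)) :
    letI := s18_algOF O K M
    letI := s18_algOF O K (M * q)
    IsIntegral ↥(Algebra.adjoin O ({s18_j K (M * q)} : Set ↥(s18_F K (M * q))))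
      (s34g_jd K (M * q) q (dvd_mul_left q M)) →
    b ∈ s18_chart O ({s18_j K M} : Set ↥(s18_F K M)) →
      heckeBetaBar K M q b ∈
        s18_chart O ({s18_j K (M * q) * s34g_jd K (M * q) q (dvd_mul_left q M)} :
          Set ↥(s18_F K (M * q))) := by
  letI := s18_algOF O K M
  letI := s18_algOF O K (M * q)
  intro hjq hb
  exact s34wc_chart_jq_le O M q hjq (s34wc_beta_mem_jq O M q b hb)

/-- **`α b₀ ∈ chart(J⁻¹)`** for `b₀ ∈ chart_M(j⁻¹)`. -/
theorem s34wc_alpha_inv_mem (b : ↥(s18_F K M)) :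
    letI := s18_algOF O K M
    letI := s18_algOF O K (M * q)
    IsIntegral ↥(Algebra.adjoin O ({s18_j K (M * q)} : Set ↥(s18_F K (M * q))))
      (s34g_jd K (M * q) q (dvd_mul_left q M)) →
    b ∈ s18_chart O ({(s18_j K M)⁻¹} : Set ↥(s18_F K M)) →
      heckeAlphaBar K M q b ∈
        s18_chart O ({(s18_j K (M * q) * s34g_jd K (M * q) q (dvd_mul_left q M))⁻¹} :
          Set ↥(s18_F K (M * q))) := by
  letI := s18_algOF O K M
  letI := s18_algOF O K (M * q)
  intro hjq hb
  exact s34wc_chart_jinv_le O M q hjq (s34wc_alpha_mem_jinv O M q b hb)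

/-- **`β b₀ ∈ chart(J⁻¹)`** for `b₀ ∈ chart_M(j⁻¹)`. -/
theorem s34wc_beta_inv_mem (b : ↥(s18_F K M)) :
    letI := s18_algOF O K M
    letI := s18_algOF O K (M * q)
    IsIntegral ↥(Algebra.adjoin O
        ({s34g_jd K (M * q) q (dvd_mul_left q M)} : Set ↥(s18_F K (M * q))))
      (s18_j K (M * q)) →
    b ∈ s18_chart O ({(s18_j K M)⁻¹} : Set ↥(s18_F K M)) →
      heckeBetaBar K M q b ∈
        s18_chart O ({(s18_j K (M * q) * s34g_jd K (M * q) q (dvd_mul_left q M))⁻¹} :
          Set ↥(s18_F K (M * q))) := by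
  letI := s18_algOF O K M
  letI := s18_algOF O K (M * q)
  intro hj hb
  exact s34wc_chart_jqinv_le O M q hj (s34wc_beta_mem_jqinv O M q b hb)

/-- `chart(J) = chart(j)`. -/
theorem s34wc_chart_J_eq :
    letI := s18_algOF O K (M * q)
    IsIntegral ↥(Algebra.adjoin O ({s18_j K (M * q)} : Set ↥(s18_F K (M * q))))
      (s34g_jd K (M * q) q (dvd_mul_left q M)) →
    IsIntegral ↥(Algebra.adjoin O
        ({s34g_jd K (M * q) q (dvd_mul_left q M)} : Set ↥(s18_F K (M * q))))
      (s18_j K (M * q)) →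
    s18_chart O ({s18_j K (M * q) * s34g_jd K (M * q) q (dvd_mul_left q M)} :
        Set ↥(s18_F K (M * q))) =
      s18_chart O ({s18_j K (M * q)} : Set ↥(s18_F K (M * q))) := by
  letI := s18_algOF O K (M * q)
  intro hjq hj
  exact s34in_chart_mul_eq hjq hj

/-- `chart(J) = chart(j_q)`. -/
theorem s34wc_chart_J_eq' :
    letI := s18_algOF O K (M * q)
    IsIntegral ↥(Algebra.adjoin O ({s18_j K (M * q)} : Set ↥(s18_F K (M * q))))
      (s34g_jd K (M * q) q (dvd_mul_left q M)) →
    IsIntegral ↥(Algebra.adjoin O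
        ({s34g_jd K (M * q) q (dvd_mul_left q M)} : Set ↥(s18_F K (M * q))))
      (s18_j K (M * q)) →
    s18_chart O ({s18_j K (M * q) * s34g_jd K (M * q) q (dvd_mul_left q M)} :
        Set ↥(s18_F K (M * q))) =
      s18_chart O ({s34g_jd K (M * q) q (dvd_mul_left q M)} : Set ↥(s18_F K (M * q))) := by
  letI := s18_algOF O K (M * q)
  intro hjq hj
  exact s34in_chart_mul_eq' hjq hj

end J

/-! ### An involution swapping `j` and `j_q` preserves both charts of `J` -/

section W

variable (O : Type) {K : Type} [CommRing O] [IsDomain O] [IsDiscreteValuationRing O] [Field K]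
  [CharZero K] [Algebra O K] [IsFractionRing O K] (M q : ℕ) [NeZero M] [NeZero q]
  [NeZero (M * q)]
  (W : ↥(s18_F K (M * q)) ≃ₐ[K] ↥(s18_F K (M * q)))
  (hWj : W (s18_j K (M * q)) = s34g_jd K (M * q) q (dvd_mul_left q M))
  (hWjq : W (s34g_jd K (M * q) q (dvd_mul_left q M)) = s18_j K (M * q))

theorem s34wc_W_algebraMap (a : O) :
    letI := s18_algOF O K (M * q)
    W (algebraMap O ↥(s18_F K (M * q)) a) = algebraMap O ↥(s18_F K (M * q)) a :=
  W.commutes (algebraMap O K a)

include hWj hWjq in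
/-- `W J = J`. -/
theorem s34wc_W_J :
    W (s18_j K (M * q) * s34g_jd K (M * q) q (dvd_mul_left q M)) =
      s18_j K (M * q) * s34g_jd K (M * q) q (dvd_mul_left q M) := by
  rw [map_mul, hWj, hWjq]
  exact mul_comm _ _

include hWj hWjq in
/-- `W` preserves `chart(J)`. -/
theorem s34wc_W_mem (b : ↥(s18_F K (M * q))) :
    letI := s18_algOF O K (M * q)
    b ∈ s18_chart O ({s18_j K (M * q) * s34g_jd K (M * q) q (dvd_mul_left q M)} :
        Set ↥(s18_F K (M * q))) →
      W b ∈ s18_chart O ({s18_j K (M * q) * s34g_jd K (M * q) q (dvd_mul_left q M)} :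
        Set ↥(s18_F K (M * q))) := by
  letI := s18_algOF O K (M * q)
  intro hb
  exact s34wc_map_mem_chart_singleton (W : ↥(s18_F K (M * q)) →+* ↥(s18_F K (M * q)))
    (s34wc_W_algebraMap O M q W) (s34wc_W_J M q W hWj hWjq) hb

include hWj hWjq in
/-- `W` preserves `chart(J⁻¹)`. -/
theorem s34wc_W_inv_mem (b : ↥(s18_F K (M * q))) :
    letI := s18_algOF O K (M * q)
    b ∈ s18_chart O ({(s18_j K (M * q) * s34g_jd K (M * q) q (dvd_mul_left q M))⁻¹} :
        Set ↥(s18_F K (M * q))) →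
      W b ∈ s18_chart O ({(s18_j K (M * q) * s34g_jd K (M * q) q (dvd_mul_left q M))⁻¹} :
        Set ↥(s18_F K (M * q))) := by
  letI := s18_algOF O K (M * q)
  intro hb
  exact s34wc_map_mem_chart_singleton (W : ↥(s18_F K (M * q)) →+* ↥(s18_F K (M * q)))
    (s34wc_W_algebraMap O M q W)
    (by rw [RingHom.coe_coe, map_inv₀, s34wc_W_J M q W hWj hWjq]) hb

end W

end Fermat.Agent.S34
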