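/-
S34, leaf [SS-NODE] = (D3) (owner: helper23).  Prefix `s34nd_`.
THE DICHOTOMY AT THE MODEL: `theorem s34nd_dich_main : s34lg_DichStatement`
(VERBATIM `S34/LocGlobK.lean`), hypothesis-free.

At the level `M q` over the discrete valuation ring `O` of the number field `K0 ⊆ Q̄`
(`q ∤ M`, `4 ∣ M` or `9 ∣ M`, `O` over `q`), every closed point of the special fibre of
`chart(J)` and of `chart(J⁻¹)`, `J = j · j_q`, is a node or has one local equation.

Inputs (all on main): the generic dichotomy `s34nd_dich_fin` / `s34nd_dich_inf`, [K-ISW]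
`s34iw_kmain` (`sat`, `sat'`), (INT) `s34iw_int_main`, the good model of level `M`
`s34sb_model` (S18 [MODEL-Q]), the Atkin-Lehner involution `s34w_W`.
-/
import Mathlib
import Fermat.Agent.S18.Basic
import Fermat.Agent.S34.SsNodeGen
import Fermat.Agent.S34.SsNodeDed
import Fermat.Agent.S34.SsBranchK
import Fermat.Agent.S34.IsWKInt
import Fermat.Agent.S34.LocGlobK

set_option autoImplicit false
set_option linter.unusedSectionVars false
set_option linter.unusedVariables false
set_option linter.style.haveILetI false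
set_option warn.classDefReducibility false
set_option synthInstance.maxHeartbeats 400000
set_option maxHeartbeats 1000000

open AlgebraicCurve ModularCurve IntermediateField
open Fermat.Agent.S18

noncomputable section

namespace Fermat.Agent.S34

/-- **[K-DICH]** the dichotomy node / one local equation at the closed points of the special
fibre of both charts of the model. -/
theorem s34nd_dich_main : s34lg_DichStatement := by
  intro M q _ _ _ hq hqM h49 K0 hK0 O _ hqO ϖ hϖ
  haveI : Fact q.Prime := ⟨hq⟩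
  haveI : Finite (IsLocalRing.ResidueField ↥O) := s34nd_residue_finite (K := ↥K0) O q hqO
  letI := s18_algOF ↥O ↥K0 M
  haveI := s18_towerOF ↥O ↥K0 M
  letI := s18_algOF ↥O ↥K0 (M * q)
  have hgood := s34sb_model M q K0 hK0 O hq hqM h49 hqO
  have hDed := s34nd_fibre_dedekind ↥O ↥K0 ↥(s18_F ↥K0 M) hgood
  have hDed' := s34nd_fibre_dedekind ↥O ↥K0 ↥(s18_F ↥K0 M) (s18b_symm hgood)
  obtain ⟨hint, hint'⟩ := s34iw_int_main M q hq hqM h49 K0 hK0 O hqO
  have hW := s34iw_kmain M q hq hqM h49 K0 hK0 O hqO ϖ hϖ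
  refine ⟨fun n hn hπn => ?_, fun n hn hπn => ?_⟩
  · exact s34nd_dich_fin M q hqM hqO (s34w_W M q K0 hq hqM) (s34w_W_W hq hqM)
      (s34w_W_alpha hq hqM) (s34w_W_j hq hqM) (s34w_W_jq hq hqM) hϖ hint hint' hDed hW.sat
      n hn.isPrime hπn
  · exact s34nd_dich_inf M q hqM hqO (s34w_W M q K0 hq hqM) (s34w_W_W hq hqM)
      (s34w_W_alpha hq hqM) (s34w_W_j hq hqM) (s34w_W_jq hq hqM) hϖ hint hint' hDed' hW.sat'
      n hn.isPrime hπn

end Fermat.Agent.S34
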