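/-
S34, leaves **[S34-DET]** and **[S34-CHP]** (helper10).  Prefix `s34td_`.

For a Hecke-Galois datum `H` over the local ring `T` and an element `τ` of an inertia group at a
prime `q ≠ p`:

* `s34td_det` : `det ρ(τ) = 1` (from Frobenius' density theorem [FD]: `τ` is, at every finite
  level, a power of a Frobenius element `σ` at some `ℓ ∉ S`, `det ρ(σ) = ℓ`, and
  `ℓ ^ m ≡ 1` modulo `p ^ k` because `τ` fixes the `p ^ k`-th roots of unity);
* `s34td_charpoly` : an endomorphism of a free module of rank 2 with trace `2` and determinant `1`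
  has characteristic polynomial `(X - 1) ^ 2`;
* `s34td_unip_of_trace` : so `H.ρ.IsUnipotentOnInertiaAt q` follows from `tr ρ(τ) = 2` on the
  inertia groups at `q`.
-/
import Mathlib
import Fermat.Prelude.Def_CuspForm_HeckeGaloisRepDatum
import Fermat.Prelude.Def_GaloisRep_LocalConditions
import Fermat.Agent.S29.Defs
import Fermat.Agent.S31.Cyc
import Fermat.Agent.S31.FrobCont

set_option autoImplicit false

open Polynomial

namespace Fermat.Agent.S34

open Fermat.Agent.S29 Fermat.Agent.S30 Fermat.Agent.S31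

/-! ### Linear algebra over a commutative ring -/

section LinAlg

variable {A : Type*} [CommRing A] {V : Type*} [AddCommGroup V] [Module A V]
  [Module.Free A V] [Module.Finite A V]

/-- The determinant of an endomorphism congruent to the identity modulo `I` is congruent to `1`
modulo `I`. -/
theorem s34td_det_sub_one_mem (I : Ideal A) (f : Module.End A V)
    (hf : ∀ v, f v - v ∈ I • (⊤ : Submodule A V)) : LinearMap.det f - 1 ∈ I := by
  classical
  set b := Module.Free.chooseBasis A V with hb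
  have hdet : LinearMap.det f = (LinearMap.toMatrix b b f).det := (LinearMap.det_toMatrix b f).symm
  have hmap : (LinearMap.toMatrix b b f).map (Ideal.Quotient.mk I) = 1 := by
    ext i j
    rw [Matrix.map_apply, LinearMap.toMatrix_apply]
    have h1 : f (b j) = b j + (f (b j) - b j) := by abel
    rw [h1, map_add, Finsupp.add_apply, map_add,
      Ideal.Quotient.eq_zero_iff_mem.2 (s31fj_repr_mem b I (hf (b j)) i), add_zero,
      Module.Basis.repr_self, Finsupp.single_apply, Matrix.one_apply]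
    by_cases hij : j = i
    · rw [if_pos hij, if_pos hij.symm, map_one]
    · rw [if_neg hij, if_neg (Ne.symm hij), map_zero]
  have h2 : Ideal.Quotient.mk I (LinearMap.det f) = 1 := by
    rw [hdet, RingHom.map_det, RingHom.mapMatrix_apply, hmap, Matrix.det_one]
  rw [← Ideal.Quotient.eq_zero_iff_mem, map_sub, h2, map_one, sub_self]

/-- **[S34-CHP]** trace `2` and determinant `1` in rank 2 give the characteristic polynomial
`(X - 1) ^ 2`. -/
theorem s34td_charpoly [Nontrivial A] (f : Module.End A V) (hrank : Module.finrank A V = 2)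
    (htr : LinearMap.trace A V f = 2) (hdet : LinearMap.det f = 1) :
    LinearMap.charpoly f = (X - 1) ^ 2 := by
  classical
  set b : Module.Basis (Fin 2) A V := Module.finBasisOfFinrankEq A V hrank with hb
  have h1 : LinearMap.charpoly f = (LinearMap.toMatrix b b f).charpoly :=
    (LinearMap.charpoly_toMatrix f b).symm
  have h2 : (LinearMap.toMatrix b b f).trace = 2 := by
    rw [← LinearMap.trace_eq_matrix_trace A b f, htr]
  have h3 : (LinearMap.toMatrix b b f).det = 1 := by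
    rw [LinearMap.det_toMatrix b f, hdet]
  rw [h1, Matrix.charpoly_fin_two, h2, h3]
  simp only [map_ofNat, map_one]
  ring

/-- The determinant read off the characteristic polynomial in rank 2. -/
theorem s34td_det_of_charpoly [Nontrivial A] (f : Module.End A V)
    (hrank : Module.finrank A V = 2) (t d : A)
    (h : LinearMap.charpoly f = X ^ 2 - C t * X + C d) : LinearMap.det f = d := by
  rw [LinearMap.det_eq_sign_charpoly_coeff, hrank, h]
  simp [coeff_X, coeff_C]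

end LinAlg

/-! ### The determinant on inertia -/

section Det

variable {𝒪 : Type} [CommRing 𝒪] [IsDomain 𝒪] [IsDiscreteValuationRing 𝒪]
  [IsAdicComplete (IsLocalRing.maximalIdeal 𝒪) 𝒪]
  {p : ℕ} {N : ℕ} [NeZero N] {S : Finset ℕ}
  {θ : CuspForm.heckeAlgebra N 2 (↑S : Set ℕ) →+* IsLocalRing.ResidueField 𝒪}
  {T : Type} [CommRing T] [IsLocalRing T] [IsNoetherianRing T]
  [IsAdicComplete (IsLocalRing.maximalIdeal T) T] [Algebra 𝒪 T] [IsLocalHom (algebraMap 𝒪 T)]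
  [Module.Finite 𝒪 T] [Module.Free 𝒪 T]

omit [IsAdicComplete (IsLocalRing.maximalIdeal 𝒪) 𝒪] [IsNoetherianRing T]
  [IsAdicComplete (IsLocalRing.maximalIdeal T) T] [Module.Finite 𝒪 T] [Module.Free 𝒪 T] in
/-- `p` lies in the maximal ideal of `T`. -/
theorem s34td_p_mem (hp𝒪 : (p : 𝒪) ∈ IsLocalRing.maximalIdeal 𝒪) :
    (p : T) ∈ IsLocalRing.maximalIdeal T := by
  have h1 := map_nonunit (algebraMap 𝒪 T) (p : 𝒪) hp𝒪
  simpa using h1

/-- **[S34-DET]** modulo `𝔪 ^ n`. -/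
theorem s34td_det_congr (hFD : s29_FDStatement) (hp : p.Prime)
    (hp𝒪 : (p : 𝒪) ∈ IsLocalRing.maximalIdeal 𝒪) (hpS : p ∈ S)
    (hNS : ∀ q : ℕ, q.Prime → q ∣ N → q ∈ S)
    (H : CuspForm.HeckeGaloisRepDatum N (↑S : Set ℕ) 𝒪 θ T)
    (q : ℕ) (hq : q.Prime) (hqp : q ≠ p)
    (P : ValuationSubring (AlgebraicClosure ℚ)) (hP : P.LiesOverPrime q)
    (τ : AlgebraicClosure ℚ ≃ₐ[ℚ] AlgebraicClosure ℚ) (hτ : τ ∈ P.inertiaSubgroupIn ℚ) (n : ℕ) :
    LinearMap.det (H.ρ.ρ τ) - 1 ∈ IsLocalRing.maximalIdeal T ^ n := by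
  have hpT : (p : T) ∈ IsLocalRing.maximalIdeal T := s34td_p_mem hp𝒪
  -- the levels
  obtain ⟨L₁, hL₁, hcont⟩ := H.ρ.isAdicContinuous n
  obtain ⟨L₂, hL₂, hroots⟩ := s31cy_level (m := p ^ n) (pow_pos hp.pos n)
  have hL : FiniteDimensional ℚ ↥(L₁ ⊔ L₂) := IntermediateField.finiteDimensional_sup L₁ L₂
  obtain ⟨ℓ, hℓ, hℓS, A, hA, σ, hσ, -, m', -, hm'⟩ := hFD (L₁ ⊔ L₂) hL τ S
  have hℓN : ¬ ℓ ∣ N := fun h => hℓS (hNS ℓ hℓ h)
  have hℓS' : ℓ ∉ (↑S : Set ℕ) := fun h => hℓS (Finset.mem_coe.1 h)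
  have hℓp : ℓ ≠ p := fun h => hℓS (h ▸ hpS)
  have hnd : ∀ r : ℕ, r.Prime → r ≠ p → ¬ r ∣ p ^ n := fun r hr hne hdvd =>
    hne ((Nat.prime_dvd_prime_iff_eq hr hp).1 (hr.dvd_of_dvd_pow hdvd))
  -- `ℓ ^ m' ≡ 1` modulo `p ^ n`
  have hmod : ℓ ^ m' ≡ 1 [MOD p ^ n] := by
    refine s31cy_modEq_of_pow_eq (pow_pos hp.pos n) (fun t ht => ?_)
    rw [← s31cy_frob_pow hℓ (hnd ℓ hℓ hℓp) A hA σ hσ m' t ht,
      hm' t ((le_sup_right : L₂ ≤ L₁ ⊔ L₂) (hroots t ht)),
      s31cy_inertia hq (hnd q hq hqp) P hP τ hτ t ht, pow_one]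
  have hmodT : ((ℓ ^ m' : ℕ) : T) - ((1 : ℕ) : T) ∈ IsLocalRing.maximalIdeal T ^ n :=
    s30cy_cast_sub_mem hpT hmod
  -- `δ := τ⁻¹ σ ^ m'` is trivial on the level of `ρ` modulo `𝔪 ^ n`
  have hδ : ∀ x ∈ L₁, (τ⁻¹ * σ ^ m') x = x := by
    intro x hx
    rw [AlgEquiv.mul_apply, hm' x ((le_sup_left : L₁ ≤ L₁ ⊔ L₂) hx)]
    exact τ.symm_apply_apply x
  have hδdet : LinearMap.det (H.ρ.ρ (τ⁻¹ * σ ^ m')) - 1 ∈ IsLocalRing.maximalIdeal T ^ n :=
    s34td_det_sub_one_mem _ _ (hcont _ hδ)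
  -- determinants
  have hσdet : LinearMap.det (H.ρ.ρ σ) = (ℓ : T) :=
    s34td_det_of_charpoly _ H.ρ.finrank_eq _ _ (H.charpoly_frob ℓ hℓ hℓN hℓS' A hA σ hσ)
  have hprod : LinearMap.det (H.ρ.ρ τ) * LinearMap.det (H.ρ.ρ (τ⁻¹ * σ ^ m')) = (ℓ : T) ^ m' := by
    rw [← map_mul, ← map_mul, mul_inv_cancel_left, map_pow, map_pow, hσdet]
  have hfinal : LinearMap.det (H.ρ.ρ τ) - 1 =
      ((ℓ ^ m' : ℕ) : T) - ((1 : ℕ) : T) -
        LinearMap.det (H.ρ.ρ τ) * (LinearMap.det (H.ρ.ρ (τ⁻¹ * σ ^ m')) - 1) := by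
    rw [mul_sub, hprod]
    push_cast
    ring
  rw [hfinal]
  exact sub_mem hmodT (Ideal.mul_mem_left _ _ hδdet)

/-- **[S34-DET]** the determinant of `ρ` is trivial on the inertia groups at `q ≠ p`. -/
theorem s34td_det (hFD : s29_FDStatement) (hp : p.Prime)
    (hp𝒪 : (p : 𝒪) ∈ IsLocalRing.maximalIdeal 𝒪) (hpS : p ∈ S)
    (hNS : ∀ q : ℕ, q.Prime → q ∣ N → q ∈ S)
    (H : CuspForm.HeckeGaloisRepDatum N (↑S : Set ℕ) 𝒪 θ T)
    (q : ℕ) (hq : q.Prime) (hqp : q ≠ p)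
    (P : ValuationSubring (AlgebraicClosure ℚ)) (hP : P.LiesOverPrime q)
    (τ : AlgebraicClosure ℚ ≃ₐ[ℚ] AlgebraicClosure ℚ) (hτ : τ ∈ P.inertiaSubgroupIn ℚ) :
    LinearMap.det (H.ρ.ρ τ) = 1 := by
  rw [← sub_eq_zero]
  exact s30cy_eq_zero_of_mem _
    (fun n => s34td_det_congr hFD hp hp𝒪 hpS hNS H q hq hqp P hP τ hτ n)

/-- `H.ρ` is unipotent on the inertia groups at `q ≠ p` as soon as `tr ρ(τ) = 2` there. -/
theorem s34td_unip_of_trace (hFD : s29_FDStatement) (hp : p.Prime)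
    (hp𝒪 : (p : 𝒪) ∈ IsLocalRing.maximalIdeal 𝒪) (hpS : p ∈ S)
    (hNS : ∀ q : ℕ, q.Prime → q ∣ N → q ∈ S)
    (H : CuspForm.HeckeGaloisRepDatum N (↑S : Set ℕ) 𝒪 θ T)
    (q : ℕ) (hq : q.Prime) (hqp : q ≠ p)
    (htr : ∀ P : ValuationSubring (AlgebraicClosure ℚ), P.LiesOverPrime q →
      ∀ τ ∈ P.inertiaSubgroupIn ℚ, LinearMap.trace T H.ρ.V (H.ρ.ρ τ) = 2) :
    H.ρ.IsUnipotentOnInertiaAt q := by
  intro P hP τ hτ
  exact s34td_charpoly _ H.ρ.finrank_eq (htr P hP τ hτ)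
    (s34td_det hFD hp hp𝒪 hpS hNS H q hq hqp P hP τ hτ)

end Det

end Fermat.Agent.S34
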