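/-
S34, the TRACE half of [S34-TR] (helper7).  Prefix `s34tt_`.

In a Hecke–Galois datum `H` of level `N` away from `S`, let `τ` be ANY element of the Galois group
which fixes the `p`-power roots of unity (in the form `χ τ = 1` for the cyclotomic characters of
[CYC-k]; e.g. `τ` in an inertia group at a prime `q ≠ p`) and which acts on the `p`-power torsion
of `J₀(N)(Q̄)` with `(τ - 1)² = 0`, in the inverse-free form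

    `τ • τ • x + x = 2 • τ • x`     for all `x` with `p ^ k • x = 0`, all `k`      ([UNIP-J]).

Then `tr ρ(τ) = 2`.

PROOF (the S31 trick, `S31/TraceOf.lean`, with `h := 1` and `P₂ := C 2`).  Fix `n`; `e`, `X` from
[FAITH] at `k := n + e`; `L` a finite level for `X ∪ τ⁻¹ • X`, for the trace of `ρ` modulo `𝔪ⁿ` and
for the cyclotomic character modulo `p ^ k`.  [FD]: a Frobenius lift `σ` at `ℓ ∉ S` with
`σ ^ m = τ` on `L`.  For `x ∈ X`, `y := τ⁻¹ • x`: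
`V_m(T_ℓ) x = V_m(T_ℓ) (σ ^ m • y) = σ ^ (2 m) • y + ℓ ^ m • y = τ • x + y = 2 • x`, so [FAITH]
gives `V_m(T_ℓ) - 2 ∈ pⁿ 𝕋` and `tr ρ(τ) ≡ tr ρ(σ ^ m) = π V_m(T_ℓ) ≡ 2` modulo `𝔪ⁿ`.  Krull.
-/
import Mathlib
import Fermat.Agent.S31.Wire
import Fermat.Agent.S34.Defs

set_option autoImplicit false

open Polynomial ModularCurve CuspForm
open Fermat.Agent.S31

noncomputable section

namespace Fermat.Agent.S34

/-- **The trace congruence**: `tr ρ(τ) ≡ 2` modulo `𝔪_T ^ n`. -/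
theorem s34tt_trace_mem (V : ℤ → ℕ → ℤ[X]) (hLJ : s31c_LucasJStatement V)
    (hTF : s31c_TraceFrobStatement V) (hCont : s31c_ContStatement)
    (hFaith : s31_FaithStatement) (hFD : Fermat.Agent.S29.s29_FDStatement)
    (hCyc : s31c_CycStatement)
    (p N : ℕ) [NeZero N] (S : Finset ℕ)
    (𝒪 : Type) [CommRing 𝒪] [IsDomain 𝒪] [IsDiscreteValuationRing 𝒪]
    [IsAdicComplete (IsLocalRing.maximalIdeal 𝒪) 𝒪]
    (θ : CuspForm.heckeAlgebra N 2 (↑S : Set ℕ) →+* IsLocalRing.ResidueField 𝒪)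
    (T : Type) [CommRing T] [IsLocalRing T] [IsNoetherianRing T]
    [IsAdicComplete (IsLocalRing.maximalIdeal T) T] [Algebra 𝒪 T] [IsLocalHom (algebraMap 𝒪 T)]
    [Module.Finite 𝒪 T] [Module.Free 𝒪 T]
    (hp : p.Prime) (hp𝒪 : (p : 𝒪) ∈ IsLocalRing.maximalIdeal 𝒪) (hpS : p ∈ S)
    (hNS : ∀ q : ℕ, q.Prime → q ∣ N → q ∈ S)
    (H : CuspForm.HeckeGaloisRepDatum N (↑S : Set ℕ) 𝒪 θ T)
    (q : ℕ) (hq : q.Prime) (hqp : q ≠ p)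
    (P : ValuationSubring (AlgebraicClosure ℚ)) (hP : P.LiesOverPrime q)
    (τ : AlgebraicClosure ℚ ≃ₐ[ℚ] AlgebraicClosure ℚ) (hτ : τ ∈ P.inertiaSubgroupIn ℚ)
    (hUnip : ∀ (k : ℕ) (x : JZero N), p ^ k • x = 0 → τ • τ • x + x = 2 • τ • x) (n : ℕ) :
    LinearMap.trace T H.ρ.V (H.ρ.ρ τ) - 2 ∈ IsLocalRing.maximalIdeal T ^ n := by
  classical
  obtain ⟨e, he⟩ := hFaith N S p hp hpS hNS
  obtain ⟨X, hXtors, hX⟩ := he (n + e)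
  -- the levels
  obtain ⟨L₁, hL₁fin, hL₁⟩ :=
    Fermat.Agent.S29.s29fl_smul_eq_of_eq_on N (X ∪ X.image (fun x => τ⁻¹ • x))
  obtain ⟨L₂, hL₂fin, hL₂⟩ := hCont T H.ρ n
  obtain ⟨χ, ⟨L₃, hL₃fin, hL₃⟩, hχI, hχF⟩ := hCyc p hp (n + e)
  have := hL₁fin
  have := hL₂fin
  have := hL₃fin
  have hLfin : FiniteDimensional ℚ ↥(L₁ ⊔ L₂ ⊔ L₃) := by
    have : FiniteDimensional ℚ ↥(L₁ ⊔ L₂) := IntermediateField.finiteDimensional_sup L₁ L₂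
    exact IntermediateField.finiteDimensional_sup (L₁ ⊔ L₂) L₃
  have hle₁ : L₁ ≤ L₁ ⊔ L₂ ⊔ L₃ := le_sup_left.trans le_sup_left
  have hle₂ : L₂ ≤ L₁ ⊔ L₂ ⊔ L₃ := le_sup_right.trans le_sup_left
  have hle₃ : L₃ ≤ L₁ ⊔ L₂ ⊔ L₃ := le_sup_right
  -- the Frobenius lift
  obtain ⟨ℓ₁, hℓ₁, hℓ₁S, A₁, hA₁, σ₁, hσ₁, -, m₁, -, hm₁⟩ := hFD _ hLfin τ S
  have hℓ₁N : ¬ ℓ₁ ∣ N := fun hd => hℓ₁S (hNS ℓ₁ hℓ₁ hd)
  have hℓ₁p : ℓ₁ ≠ p := fun hd => hℓ₁S (hd ▸ hpS)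
  have hndvd : ∀ r : ℕ, r.Prime → r ≠ p → ¬ r ∣ p ^ (n + e) := fun r hr hrp hd =>
    hrp ((Nat.prime_dvd_prime_iff_eq hr hp).1 (hr.dvd_of_dvd_pow hd))
  -- the cyclotomic character
  have hχ₁ : ((ℓ₁ ^ m₁ : ℕ) : ZMod (p ^ (n + e))) = ((1 : ℕ) : ZMod (p ^ (n + e))) := by
    have h1 : χ (σ₁ ^ m₁) = χ τ :=
      s31c_chi_congr χ L₃ hL₃ _ _ fun x hx => hm₁ x (hle₃ hx)
    rw [map_pow, hχF ℓ₁ hℓ₁ hℓ₁p A₁ hA₁ σ₁ hσ₁, hχI q hq hqp P hP τ hτ] at h1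
    rw [Nat.cast_pow, h1, Nat.cast_one]
  -- the relation on `X`
  have hrel : ∀ x ∈ X,
      Polynomial.aeval (heckeOperatorBar N ⟨ℓ₁, hℓ₁⟩) (V (ℓ₁ : ℤ) m₁) x =
        Polynomial.aeval (heckeOperatorBar N ⟨ℓ₁, hℓ₁⟩) (C (2 : ℤ)) x := by
    intro x hx
    have hxt : p ^ (n + e) • x = 0 := hXtors x hx
    have hyt : p ^ (n + e) • (τ⁻¹ • x) = 0 := Fermat.Agent.S29.s29q_smul_torsion N τ⁻¹ hxt
    have hxX : x ∈ X ∪ X.image (fun x => τ⁻¹ • x) := Finset.mem_union_left _ hx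
    have hyX : τ⁻¹ • x ∈ X ∪ X.image (fun x => τ⁻¹ • x) :=
      Finset.mem_union_right _ (Finset.mem_image_of_mem _ hx)
    have hhy : τ • τ⁻¹ • x = x := smul_inv_smul τ x
    have e1 : σ₁ ^ m₁ • (τ⁻¹ • x) = x := by
      rw [hL₁ (σ₁ ^ m₁) τ (fun a ha => hm₁ a (hle₁ ha)) _ hyX, hhy]
    have e2 : σ₁ ^ m₁ • x = τ • x := by
      rw [hL₁ (σ₁ ^ m₁) τ (fun a ha => hm₁ a (hle₁ ha)) _ hxX]
    have e3 : σ₁ ^ (2 * m₁) • (τ⁻¹ • x) = τ • x := by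
      rw [two_mul, pow_add, mul_smul, e1, e2]
    have r1 := hLJ N ℓ₁ hℓ₁ hℓ₁N A₁ hA₁ (p ^ (n + e)) (hndvd ℓ₁ hℓ₁ hℓ₁p) σ₁ hσ₁ (τ⁻¹ • x) hyt m₁
    rw [e1, e3] at r1
    have r2 := hUnip (n + e) (τ⁻¹ • x) hyt
    rw [hhy] at r2
    rw [r1, s31c_smul_congr hχ₁ _ hyt, one_smul, r2, Polynomial.aeval_C,
      Module.algebraMap_end_apply]
    rw [← natCast_zsmul]
    rfl
  obtain ⟨t, ht⟩ := hX ℓ₁ ℓ₁ hℓ₁ hℓ₁ hℓ₁N hℓ₁N hℓ₁S hℓ₁S (V (ℓ₁ : ℤ) m₁) (C (2 : ℤ)) hrel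
  rw [Nat.add_sub_cancel] at ht
  -- the traces
  have t1 := hL₂ τ (σ₁ ^ m₁) fun x hx => (hm₁ x (hle₂ hx)).symm
  have t3 := hTF N (↑S : Set ℕ) 𝒪 θ T H ℓ₁ hℓ₁ hℓ₁N hℓ₁S A₁ hA₁ σ₁ hσ₁ m₁
  have t4 : H.π (Polynomial.aeval
      (CuspForm.heckeAlgebra.T (k := 2) (S := (↑S : Set ℕ)) hℓ₁ hℓ₁N hℓ₁S) (C (2 : ℤ))) = 2 := by
    rw [Polynomial.aeval_C]
    have h2 : algebraMap ℤ ↥(CuspForm.heckeAlgebra N 2 (↑S : Set ℕ)) 2 = 2 := by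
      rw [eq_intCast]
      norm_cast
    rw [h2]
    exact map_ofNat H.π 2
  have t5 : LinearMap.trace T H.ρ.V (H.ρ.ρ (σ₁ ^ m₁)) - 2 ∈ IsLocalRing.maximalIdeal T ^ n := by
    rw [t3, ← t4, ← map_sub, ht, map_zsmul, zsmul_eq_mul]
    refine Ideal.mul_mem_right _ _ ?_
    have h1 : (((p : ℤ) ^ n : ℤ) : T) = (p : T) ^ n := by push_cast; rfl
    rw [h1]
    exact Ideal.pow_mem_pow (s31c_p_mem hp𝒪) n
  have key : LinearMap.trace T H.ρ.V (H.ρ.ρ τ) - 2 =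
      (LinearMap.trace T H.ρ.V (H.ρ.ρ τ) - LinearMap.trace T H.ρ.V (H.ρ.ρ (σ₁ ^ m₁))) +
      (LinearMap.trace T H.ρ.V (H.ρ.ρ (σ₁ ^ m₁)) - 2) := by
    ring
  rw [key]
  exact Ideal.add_mem _ t1 t5

/-- **The trace half of [S34-TR]**: `tr ρ(τ) = 2` (Krull's intersection theorem). -/
theorem s34tt_trace_of (V : ℤ → ℕ → ℤ[X]) (hLJ : s31c_LucasJStatement V)
    (hTF : s31c_TraceFrobStatement V) (hCont : s31c_ContStatement)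
    (hFaith : s31_FaithStatement) (hFD : Fermat.Agent.S29.s29_FDStatement)
    (hCyc : s31c_CycStatement)
    (p N : ℕ) [NeZero N] (S : Finset ℕ)
    (𝒪 : Type) [CommRing 𝒪] [IsDomain 𝒪] [IsDiscreteValuationRing 𝒪]
    [IsAdicComplete (IsLocalRing.maximalIdeal 𝒪) 𝒪]
    (θ : CuspForm.heckeAlgebra N 2 (↑S : Set ℕ) →+* IsLocalRing.ResidueField 𝒪)
    (T : Type) [CommRing T] [IsLocalRing T] [IsNoetherianRing T]
    [IsAdicComplete (IsLocalRing.maximalIdeal T) T] [Algebra 𝒪 T] [IsLocalHom (algebraMap 𝒪 T)]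
    [Module.Finite 𝒪 T] [Module.Free 𝒪 T]
    (hp : p.Prime) (hp𝒪 : (p : 𝒪) ∈ IsLocalRing.maximalIdeal 𝒪) (hpS : p ∈ S)
    (hNS : ∀ q : ℕ, q.Prime → q ∣ N → q ∈ S)
    (H : CuspForm.HeckeGaloisRepDatum N (↑S : Set ℕ) 𝒪 θ T)
    (q : ℕ) (hq : q.Prime) (hqp : q ≠ p)
    (P : ValuationSubring (AlgebraicClosure ℚ)) (hP : P.LiesOverPrime q)
    (τ : AlgebraicClosure ℚ ≃ₐ[ℚ] AlgebraicClosure ℚ) (hτ : τ ∈ P.inertiaSubgroupIn ℚ)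
    (hUnip : ∀ (k : ℕ) (x : JZero N), p ^ k • x = 0 → τ • τ • x + x = 2 • τ • x) :
    LinearMap.trace T H.ρ.V (H.ρ.ρ τ) = 2 := by
  have hmem : ∀ n : ℕ, LinearMap.trace T H.ρ.V (H.ρ.ρ τ) - 2 ∈ IsLocalRing.maximalIdeal T ^ n :=
    fun n => s34tt_trace_mem V hLJ hTF hCont hFaith hFD hCyc p N S 𝒪 θ T hp hp𝒪 hpS hNS H q hq hqp
      P hP τ hτ hUnip n
  have hbot : (⨅ n : ℕ, IsLocalRing.maximalIdeal T ^ n) = ⊥ :=
    Ideal.iInf_pow_eq_bot_of_isLocalRing _ (IsLocalRing.maximalIdeal.isMaximal T).ne_top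
  have h0 : LinearMap.trace T H.ρ.V (H.ρ.ρ τ) - 2 ∈ (⊥ : Ideal T) := by
    rw [← hbot]
    exact (Ideal.mem_iInf).2 hmem
  exact sub_eq_zero.mp ((Ideal.mem_bot).1 h0)

/-- **The trace half of [S34-TR]**, with the leaves [JD], [TRACE-FROB], [CONT] of S31 plugged:
`tr ρ(τ) = 2` from [FAITH], [FD], [RHO], [CYC-k] and [UNIP-J] for `τ`. -/
theorem s34tt_trace (hFaith : s31_FaithStatement) (hFD : Fermat.Agent.S29.s29_FDStatement)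
    (hRho : Fermat.Agent.S37.s37_RhoStatement) (hCyc : s31c_CycStatement)
    {p N : ℕ} [NeZero N] {S : Finset ℕ}
    {𝒪 : Type} [CommRing 𝒪] [IsDomain 𝒪] [IsDiscreteValuationRing 𝒪]
    [IsAdicComplete (IsLocalRing.maximalIdeal 𝒪) 𝒪]
    {θ : CuspForm.heckeAlgebra N 2 (↑S : Set ℕ) →+* IsLocalRing.ResidueField 𝒪}
    {T : Type} [CommRing T] [IsLocalRing T] [IsNoetherianRing T]
    [IsAdicComplete (IsLocalRing.maximalIdeal T) T] [Algebra 𝒪 T] [IsLocalHom (algebraMap 𝒪 T)]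
    [Module.Finite 𝒪 T] [Module.Free 𝒪 T]
    (hp : p.Prime) (hp𝒪 : (p : 𝒪) ∈ IsLocalRing.maximalIdeal 𝒪) (hpS : p ∈ S)
    (hNS : ∀ q : ℕ, q.Prime → q ∣ N → q ∈ S)
    (H : CuspForm.HeckeGaloisRepDatum N (↑S : Set ℕ) 𝒪 θ T)
    (q : ℕ) (hq : q.Prime) (hqp : q ≠ p)
    (P : ValuationSubring (AlgebraicClosure ℚ)) (hP : P.LiesOverPrime q)
    (τ : AlgebraicClosure ℚ ≃ₐ[ℚ] AlgebraicClosure ℚ) (hτ : τ ∈ P.inertiaSubgroupIn ℚ)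
    (hUnip : ∀ (k : ℕ) (x : JZero N), p ^ k • x = 0 → τ • τ • x + x = 2 • τ • x) :
    LinearMap.trace T H.ρ.V (H.ρ.ρ τ) = 2 :=
  s34tt_trace_of s31luc_V (s31c_lucasJ_main hRho) s31c_traceFrob_main s31c_cont_main hFaith hFD
    hCyc p N S 𝒪 θ T hp hp𝒪 hpS hNS H q hq hqp P hP τ hτ hUnip

/-- **The trace half of [S34-TR]**, against helper13's `s34_UnipJStatement` (`S34/Defs.lean`):
in a Hecke–Galois datum of level `N` away from `S`, `tr ρ(τ) = 2` for every `τ` in an inertia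
group at a prime `q ≠ p` with `q ∥ N`. -/
theorem s34tt_trace_main (hU : s34_UnipJStatement) (hFaith : s31_FaithStatement)
    (hFD : Fermat.Agent.S29.s29_FDStatement) (hRho : Fermat.Agent.S37.s37_RhoStatement)
    (hCyc : s31c_CycStatement)
    {p N : ℕ} [NeZero N] {S : Finset ℕ}
    {𝒪 : Type} [CommRing 𝒪] [IsDomain 𝒪] [IsDiscreteValuationRing 𝒪]
    [IsAdicComplete (IsLocalRing.maximalIdeal 𝒪) 𝒪]
    {θ : CuspForm.heckeAlgebra N 2 (↑S : Set ℕ) →+* IsLocalRing.ResidueField 𝒪}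
    {T : Type} [CommRing T] [IsLocalRing T] [IsNoetherianRing T]
    [IsAdicComplete (IsLocalRing.maximalIdeal T) T] [Algebra 𝒪 T] [IsLocalHom (algebraMap 𝒪 T)]
    [Module.Finite 𝒪 T] [Module.Free 𝒪 T]
    (hp : p.Prime) (hp𝒪 : (p : 𝒪) ∈ IsLocalRing.maximalIdeal 𝒪) (hpS : p ∈ S)
    (hNS : ∀ q : ℕ, q.Prime → q ∣ N → q ∈ S)
    (H : CuspForm.HeckeGaloisRepDatum N (↑S : Set ℕ) 𝒪 θ T)
    (q : ℕ) (hq : q.Prime) (hqp : q ≠ p) (hqN : q ∣ N) (hq2 : ¬ q ^ 2 ∣ N)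
    (P : ValuationSubring (AlgebraicClosure ℚ)) (hP : P.LiesOverPrime q)
    (τ : AlgebraicClosure ℚ ≃ₐ[ℚ] AlgebraicClosure ℚ) (hτ : τ ∈ P.inertiaSubgroupIn ℚ) :
    LinearMap.trace T H.ρ.V (H.ρ.ρ τ) = 2 := by
  refine s34tt_trace hFaith hFD hRho hCyc hp hp𝒪 hpS hNS H q hq hqp P hP τ hτ fun k x hx => ?_
  refine hU N q hq hqN hq2 P hP (p ^ k) ?_ τ hτ x hx
  intro hd
  exact hqp ((Nat.prime_dvd_prime_iff_eq hq hp).1 (hq.dvd_of_dvd_pow hd))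

end Fermat.Agent.S34
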