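/-
S34, **[S34-TR]** closed (helper7).  Prefix `s34tt_`.

  `s34tt_tr_of   : [FAITH] → [FD] → [RHO] → [CYC-k] → s34_TrStatement`
  `s34tt_tr_main : s34_TrStatement`          (= `s34_UnipJStatement → s34_Goal`, `S34/Defs.lean`)

The trace clause is `s34tt_trace_main` (`S34/TrTrace.lean`), the determinant and the
characteristic polynomial are helper10's `s34td_unip_of_trace` (`S34/TrDet.lean`); the four global
inputs [FAITH] (`s31fa_main s29k_main`), [FD] (`s29fd_main`), [RHO] (`s37_rho_main`) and [CYC-k]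
(`s31cy_main`) are those of `Fermat/Agent/S31.lean`.
-/
import Mathlib
import Fermat.Agent.S34.TrTrace
import Fermat.Agent.S34.TrDet
import Fermat.Agent.S31.Faith
import Fermat.Agent.S31.CycK
import Fermat.Agent.S29.FdMain
import Fermat.Agent.S29.KumFinal
import Fermat.Agent.S37

set_option autoImplicit false

open Polynomial ModularCurve CuspForm
open Fermat.Agent.S31

noncomputable section

namespace Fermat.Agent.S34

/-- **[S34-TR]** from [FAITH], [FD], [RHO] and [CYC-k]. -/
theorem s34tt_tr_of (hFaith : s31_FaithStatement) (hFD : Fermat.Agent.S29.s29_FDStatement)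
    (hRho : Fermat.Agent.S37.s37_RhoStatement) (hCyc : s31c_CycStatement) :
    s34_TrStatement := by
  intro hU 𝒪 _ _ _ _ _ _ p hp hp𝒪 N _ S hpS hNS θ T _ _ _ _ _ _ _ _ H q hq hqp hqN hq2
  exact s34td_unip_of_trace hFD hp hp𝒪 hpS hNS H q hq hqp fun P hP τ hτ =>
    s34tt_trace_main hU hFaith hFD hRho hCyc hp hp𝒪 hpS hNS H q hq hqp hqN hq2 P hP τ hτ

/-- **[S34-TR]**, hypothesis-free: [UNIP-J] implies S34. -/
theorem s34tt_tr_main : s34_TrStatement :=
  s34tt_tr_of (s31fa_main Fermat.Agent.S29.s29k_main) Fermat.Agent.S29.s29fd_main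
    Fermat.Agent.S37.s37_rho_main s31cy_main

end Fermat.Agent.S34
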