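/-
S34, leaf [U-RAT] of `S34/Defs.lean`, VERBATIM (owner: helper25).  Prefix `s34ur_`.

    theorem s34ur_main : s34_RatStatement        (= s34_UStarKStatement → s34_UStarMStatement)

ROUTE.  `f ∈ F̄_{Mq}ˣ` with `m ∣ ord_P f` at all places, `τ` in the inertia group of `A`.
 (U1) the support `S` of `div f` is finite (`S37.s37fin_hasPD`); by `S37.s37rl_main_finset` there
      is a number field `K0` such that for EVERY `K1 ⊇ K0` the function `f` comes from
      `f1 ∈ F_{K1}(Mq)` and every `P ∈ S` restricts to a `K1`-rational place of `F_{K1}(Mq)`.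
 (U2) `K1 :=` the normal closure of `K0` in `Q̄`: finite and NORMAL over `ℚ`, so `τ` restricts to
      `τ0 := τ.restrictNormal K1`; `O := A ∩ K1` is a discrete valuation ring over `q`
      ([DISCRETE]) and `τ0 x - x ∈ 𝔪_O` for `x ∈ O`.
 (U3) [CFE]: every place `Q` of `F_{K1}(Mq) / K1` is the restriction of a place `Q'` of `F̄` with
      the same orders; so `m ∣ ord_Q f1`, and `ord_Q f1 ≠ 0` forces `Q' ∈ S`, hence `Q` is the
      `K1`-rational restriction of `Q'`: `deg Q = 1`.
 (U4) (USTAR-K) with `C = Q̄`, pushed forward along `Q̄ ⊗_{K1} F_{K1}(Mq) → F̄_{Mq}`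
      (`S18.s18rq_push`); the coefficientwise embedding commutes with the second difference.
-/
import Mathlib
import Fermat.Agent.S34.Defs
import Fermat.Agent.S37.RatlQ
import Fermat.Agent.S37.EsFin
import Fermat.Agent.S18.RatQ
import Fermat.Agent.S18.RatQRing
import Fermat.Agent.S18.Cfe
import Fermat.Agent.S18.Discrete
import Fermat.Agent.S05.Inertia

set_option autoImplicit false
set_option synthInstance.maxHeartbeats 400000
set_option maxHeartbeats 1000000
set_option linter.style.haveILetI false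

open AlgebraicCurve ModularCurve IntermediateField
open scoped TensorProduct

noncomputable section

namespace Fermat.Agent.S34

open Fermat.Agent.S18 Fermat.Agent.S24

/-! ### Places -/

section Places

variable {K F : Type*} [Field K] [Field F] [Algebra K F]

/-- A place all of whose regular functions are congruent to constants has degree `1`. -/
theorem s34ur_deg_eq_one (v : Place K F)
    (h : ∀ f ∈ v.toValuationSubring, ∃ c : K,
      f - algebraMap K F c ∈ v.toValuationSubring.nonunits) : v.deg = 1 := by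
  have hbij : Function.Bijective (algebraMap K v.ResidueField) := by
    refine ⟨(algebraMap K v.ResidueField).injective, fun r => ?_⟩
    obtain ⟨f, rfl⟩ := IsLocalRing.residue_surjective r
    obtain ⟨c, hc⟩ := h (f : F) f.2
    refine ⟨c, ?_⟩
    have hc' : f - algebraMap K v.toValuationSubring c ∈
        IsLocalRing.maximalIdeal v.toValuationSubring := by
      rw [← ValuationSubring.coe_mem_nonunits_iff]
      exact hc
    have h0 : IsLocalRing.residue v.toValuationSubring
        (f - algebraMap K v.toValuationSubring c) = 0 :=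
      (IsLocalRing.residue_eq_zero_iff _).mpr hc'
    rw [map_sub, sub_eq_zero] at h0
    rw [h0]
    rfl
  have e : K ≃ₗ[K] v.ResidueField :=
    LinearEquiv.ofBijective (Algebra.linearMap K v.ResidueField) hbij
  rw [Place.deg, ← e.finrank_eq, Module.finrank_self]

/-- Two places with the same orders are equal. -/
theorem s34ur_place_ext {v w : Place K F} (h : ∀ f, v.ord f = w.ord f) : v = w := by
  apply Place.ext
  ext f
  rw [place_mem_iff, place_mem_iff, h f]

end Places

/-! ### The restriction of `τ` to a normal number field -/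

section Restr

variable (N : ℕ) (K1 : IntermediateField ℚ (AlgebraicClosure ℚ)) [Normal ℚ ↥K1]

/-- The coefficientwise embedding `F_{K1}(N) → F̄_N` intertwines the actions of
`τ.restrictNormal K1` and `τ`. -/
theorem s34ur_iota_smul (τ : AlgebraicClosure ℚ ≃ₐ[ℚ] AlgebraicClosure ℚ)
    (g : ↥(s18_F ↥K1 N)) :
    S37.s37rl_iota N K1 (arithmeticGalois (modularFunctionFieldFull N) (τ.restrictNormal ↥K1) • g)
      = arithmeticGalois (modularFunctionFieldFull N) τ • S37.s37rl_iota N K1 g := by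
  apply Subtype.ext
  rw [coe_arithmeticGalois_smul]
  show coeffMap (algebraMap ↥K1 (AlgebraicClosure ℚ))
      ((arithmeticGalois (modularFunctionFieldFull N) (τ.restrictNormal ↥K1) • g :
        ↥(s18_F ↥K1 N)) : LaurentSeries ↥K1) =
    coeffMap (τ : AlgebraicClosure ℚ →+* AlgebraicClosure ℚ)
      (coeffMap (algebraMap ↥K1 (AlgebraicClosure ℚ)) (g : LaurentSeries ↥K1))
  rw [coe_arithmeticGalois_smul, coeffMap_coeffMap, coeffMap_coeffMap]
  exact coeffMap_congr (RingHom.ext fun a => AlgEquiv.restrictNormal_commutes τ ↥K1 a) _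

/-- The coefficientwise embedding commutes with the second difference. -/
theorem s34ur_iota_sd (τ : AlgebraicClosure ℚ ≃ₐ[ℚ] AlgebraicClosure ℚ)
    (g : ↥(s18_F ↥K1 N)) :
    S37.s37rl_iota N K1 (s34_sd N (τ.restrictNormal ↥K1) g) =
      s34_sd N τ (S37.s37rl_iota N K1 g) := by
  unfold s34_sd
  rw [map_div₀, map_mul, map_pow, s34ur_iota_smul, s34ur_iota_smul]

/-- The restriction of an element of the inertia group of `A` moves the elements of `A ∩ K1` by
elements of the maximal ideal. -/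
theorem s34ur_inertia (A : ValuationSubring (AlgebraicClosure ℚ))
    (τ : AlgebraicClosure ℚ ≃ₐ[ℚ] AlgebraicClosure ℚ) (hτ : τ ∈ A.inertiaSubgroupIn ℚ)
    (x : ↥(A.comap (algebraMap ↥K1 (AlgebraicClosure ℚ)))) :
    ∃ y : ↥(A.comap (algebraMap ↥K1 (AlgebraicClosure ℚ))),
      y ∈ IsLocalRing.maximalIdeal ↥(A.comap (algebraMap ↥K1 (AlgebraicClosure ℚ))) ∧
      (y : ↥K1) = (τ.restrictNormal ↥K1) (x : ↥K1) - x := by
  have hxA : algebraMap ↥K1 (AlgebraicClosure ℚ) (x : ↥K1) ∈ A := x.2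
  have h1 : A.valuation (τ (algebraMap ↥K1 (AlgebraicClosure ℚ) (x : ↥K1)) -
      algebraMap ↥K1 (AlgebraicClosure ℚ) (x : ↥K1)) < 1 :=
    S05.inertia_sub_lt_one A τ hτ _ ((A.valuation_le_one_iff _).2 hxA)
  have h2 : algebraMap ↥K1 (AlgebraicClosure ℚ) ((τ.restrictNormal ↥K1) (x : ↥K1) - x) ∈
      A.nonunits := by
    rw [map_sub, AlgEquiv.restrictNormal_commutes]
    exact (ValuationSubring.mem_nonunits_iff A).2 h1
  have h3 : (τ.restrictNormal ↥K1) (x : ↥K1) - x ∈
      (A.comap (algebraMap ↥K1 (AlgebraicClosure ℚ))).nonunits :=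
    s18rq_nonunits_comap _ A h2
  have h4 : (τ.restrictNormal ↥K1) (x : ↥K1) - x ∈
      A.comap (algebraMap ↥K1 (AlgebraicClosure ℚ)) :=
    ValuationSubring.nonunits_subset h3
  refine ⟨⟨_, h4⟩, ?_, rfl⟩
  rw [← ValuationSubring.coe_mem_nonunits_iff]
  exact h3

end Restr

/-! ### [U-RAT] -/

/-- **[U-RAT]** -/
theorem s34ur_main : s34_RatStatement := by
  intro hK M q _ hq hqM h49 A hA m hm τ hτ f hf hord
  classical
  haveI : NeZero (M * q) := ⟨Nat.mul_ne_zero (NeZero.ne M) hq.ne_zero⟩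
  haveI : Fact q.Prime := ⟨hq⟩
  -- (U1) the support of `div f` and the field `K0`
  obtain ⟨D, hD, -⟩ := (S37.s37fin_hasPD (M * q)).exists_divisor f hf
  obtain ⟨K0, hK0, h0⟩ := S37.s37rl_main_finset (M * q) D.support {f}
  -- (U2) the normal closure `K1`, the ring `O`
  haveI := hK0
  haveI hclos : IsAlgClosure ℚ (AlgebraicClosure ℚ) := AlgebraicClosure.instIsAlgClosure ℚ
  haveI : Normal ℚ (AlgebraicClosure ℚ) := IsAlgClosure.normal ℚ (AlgebraicClosure ℚ)
  obtain ⟨K1, hK01, hK1, hnorm⟩ : ∃ K1 : IntermediateField ℚ (AlgebraicClosure ℚ),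
      K0 ≤ K1 ∧ FiniteDimensional ℚ ↥K1 ∧ Normal ℚ ↥K1 :=
    ⟨IntermediateField.normalClosure ℚ ↥K0 (AlgebraicClosure ℚ),
      IntermediateField.le_normalClosure K0,
      normalClosure.is_finiteDimensional ℚ ↥K0 _, normalClosure.normal ℚ ↥K0 _⟩
  haveI := hnorm
  obtain ⟨h1, h2⟩ := h0 K1 hK01
  obtain ⟨f1, hf1⟩ := h1 f (Finset.mem_singleton_self f)
  have hf10 : f1 ≠ 0 := by
    rintro rfl
    apply hf
    rw [← hf1, map_zero]
  have hqO : (q : ↥K1) ∈ (A.comap (algebraMap ↥K1 (AlgebraicClosure ℚ))).nonunits := by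
    apply s18rq_nonunits_comap
    rw [map_natCast]
    exact hA
  have hqmax := s18rq_natCast_mem_maximalIdeal _ q hqO
  have hdvr : IsDiscreteValuationRing ↥(A.comap (algebraMap ↥K1 (AlgebraicClosure ℚ))) := by
    apply s18disc_main ℚ ↥K1
    apply s18rq_dvrQ _ q
    apply s18rq_nonunits_comap
    rw [map_natCast]
    exact hqO
  -- (U3) [CFE]
  have hcfe : ∀ Q : Place ↥K1 ↥(s18_F ↥K1 (M * q)),
      ∃ Q' : Place (AlgebraicClosure ℚ) ↥(modularFunctionFieldBar (M * q)),
        ∀ g : ↥(s18_F ↥K1 (M * q)), Q'.ord (S37.s37rl_iota (M * q) K1 g) = Q.ord g := by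
    intro Q
    obtain ⟨Q', hQ'⟩ := s18cfe_main (M * q) K1 hK1 Q
    exact ⟨Q', fun g => hQ' g _ rfl⟩
  have hord1 : ∀ Q : Place ↥K1 ↥(s18_F ↥K1 (M * q)), (m : ℤ) ∣ Q.ord f1 := by
    intro Q
    obtain ⟨Q', hQ'⟩ := hcfe Q
    rw [← hQ' f1, hf1]
    exact hord Q'
  have hdeg1 : ∀ Q : Place ↥K1 ↥(s18_F ↥K1 (M * q)), Q.ord f1 ≠ 0 → Q.deg = 1 := by
    intro Q hQ
    obtain ⟨Q', hQ'⟩ := hcfe Q
    have hmem : Q' ∈ D.support := by
      rw [Finsupp.mem_support_iff, hD Q', ← hf1, hQ' f1]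
      exact hQ
    obtain ⟨P0, hP0⟩ := h2 Q' hmem
    have hPQ : P0 = Q := s34ur_place_ext fun g => by rw [← hP0.1 g, hQ' g]
    rw [← hPQ]
    exact s34ur_deg_eq_one P0 hP0.2.2.2
  -- (U4) (USTAR-K) and the push-forward
  obtain ⟨y, hy⟩ := @hK M q _ hq hqM h49 K1 hK1 (A.comap (algebraMap ↥K1 (AlgebraicClosure ℚ)))
    hdvr hqmax (τ.restrictNormal ↥K1) (s34ur_inertia K1 A τ hτ) m hm f1 hf10 hord1 hdeg1
    (AlgebraicClosure ℚ) _ _ _
  obtain ⟨Φ, hΦ1, hΦmem⟩ := s18rq_push (M * q) K1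
  refine ⟨⟨Φ y, hΦmem y⟩, ?_⟩
  apply Subtype.ext
  show (Φ y) ^ m = _
  rw [← map_pow, hy, hΦ1, ← hf1, ← s34ur_iota_sd]
  rfl

end Fermat.Agent.S34
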