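/-
S34, leaf [U-WIRE], ABSTRACT PART (helper9).  Prefix `s34uw_`.  Mathlib + Prelude only.

For a semilinear automorphism `g` of a function field `F / K` and an exponent `m ≠ 0`:
if for every `f ≠ 0` all of whose orders are divisible by `m` the SECOND DIFFERENCE
`g²f · f / (g f)²` is an `m`-th power in `F`, then `(g - 1)² = 0` on the `m`-torsion of `Pic⁰`.
-/
import Mathlib
import Fermat.Prelude.Def_AlgebraicCurve_BaseChangeGalois

set_option autoImplicit false

open AlgebraicCurve

noncomputable section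

namespace Fermat.Agent.S34

variable {K F : Type*} [Field K] [Field F] [Algebra K F]

/-- The Kummer form of `(g - 1)² = 0` on `m`-torsion: the second difference of every Kummer
generator is an `m`-th power. -/
def s34uw_UStarAbs (g : SemilinearAut K F) (m : ℕ) : Prop :=
  ∀ f : F, f ≠ 0 → (∀ P : Place K F, (m : ℤ) ∣ P.ord f) →
    ∃ v : F, v ^ m * (g • f) ^ 2 = (g • (g • f)) * f

theorem s34uw_ord_smul_eq (g : SemilinearAut K F) (f : F) (w : Place K F) :
    w.ord (g • f) = (g⁻¹ • w).ord f := by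
  have h := SemilinearAut.ord_smul g (g⁻¹ • w) f
  rwa [smul_inv_smul] at h

theorem s34uw_smul_ne_zero (g : SemilinearAut K F) {f : F} (hf : f ≠ 0) : g • f ≠ 0 := by
  rwa [Ne, smul_eq_zero_iff_eq]

/-- **[U-WIRE], abstract form.** -/
theorem s34uw_abs (g : SemilinearAut K F) (m : ℕ) (hm : m ≠ 0) (hU : s34uw_UStarAbs g m)
    (x : Pic0 K F) (hx : m • x = 0) : g • (g • x) + x = 2 • (g • x) := by
  obtain ⟨D, rfl⟩ := Pic0.mk_surjective x
  -- `m D` is principal
  have hmD : ((m • D : Divisor.degZero (K := K) (F := F)) : Divisor K F) ∈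
      Divisor.principal (K := K) (F := F) := by
    have h1 : Pic0.mk (m • D) = 0 := by
      rw [← hx]; rfl
    have h2 := (QuotientAddGroup.eq_zero_iff (m • D)).1 h1
    exact AddSubgroup.mem_addSubgroupOf.1 h2
  obtain ⟨f, hf, hfD⟩ := hmD
  have hfD' : ∀ v : Place K F, (m : ℤ) * (D : Divisor K F) v = v.ord f := by
    intro v
    rw [← hfD v]
    simp [Finsupp.smul_apply]
  obtain ⟨v, hv⟩ := hU f hf (fun P => ⟨_, (hfD' P).symm⟩)
  have hgf : g • f ≠ 0 := s34uw_smul_ne_zero g hf
  have hggf : g • (g • f) ≠ 0 := s34uw_smul_ne_zero g hgf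
  have hv0 : v ≠ 0 := by
    rintro rfl
    rw [zero_pow hm, zero_mul] at hv
    exact mul_ne_zero hggf hf hv.symm
  -- the divisor of `v`
  have hord : ∀ w : Place K F,
      w.ord v = (g • (g • (D : Divisor K F))) w + (D : Divisor K F) w
        - 2 * (g • (D : Divisor K F)) w := by
    intro w
    have h1 : w.ord (v ^ m * (g • f) ^ 2) = w.ord ((g • (g • f)) * f) := by rw [hv]
    rw [w.ord_mul (pow_ne_zero _ hv0) (pow_ne_zero _ hgf), w.ord_mul hggf hf,
      ← zpow_natCast v m, w.ord_zpow, ← zpow_natCast (g • f) 2, w.ord_zpow,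
      s34uw_ord_smul_eq g (g • f) w, s34uw_ord_smul_eq g f (g⁻¹ • w), s34uw_ord_smul_eq g f w,
      ← hfD' (g⁻¹ • g⁻¹ • w), ← hfD' w, ← hfD' (g⁻¹ • w)] at h1
    rw [SemilinearAut.divisor_smul_apply, SemilinearAut.divisor_smul_apply,
      SemilinearAut.divisor_smul_apply]
    have hm' : (m : ℤ) ≠ 0 := by exact_mod_cast hm
    apply mul_left_cancel₀ hm'
    push_cast at h1 ⊢
    linear_combination h1
  -- conclusion
  rw [SemilinearAut.pic0_smul_mk, SemilinearAut.pic0_smul_mk, ← Pic0.mk_add]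
  have h2 : (2 : ℕ) • Pic0.mk (SemilinearAut.degZeroSMulHom g D) =
      Pic0.mk ((2 : ℕ) • SemilinearAut.degZeroSMulHom g D) := rfl
  rw [h2]
  refine (QuotientAddGroup.eq_iff_sub_mem).2 ?_
  rw [AddSubgroup.mem_addSubgroupOf]
  refine ⟨v, hv0, fun w => ?_⟩
  rw [hord w]
  simp only [AddSubgroup.coe_sub, AddSubgroup.coe_add, AddSubgroup.coe_nsmul,
    SemilinearAut.coe_degZeroSMulHom, Finsupp.sub_apply, Finsupp.add_apply, Finsupp.smul_apply]
  ring

end Fermat.Agent.S34

end
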