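/-
S34, leaf [U-WIRE] (helper9).  Prefix `s34uw_`.

`s34uw_main : s34_WireStatement` (VERBATIM `S34/Defs.lean`): the Kummer dictionary -
(USTAR) at level `N` (the second difference of every Kummer generator is an `m`-th power)
implies [UNIP-J] at level `N` (`τ • τ • x + x = 2 • τ • x` on the `m`-torsion).
The abstract form is `s34uw_abs` (`S34/UWireAbs.lean`, Mathlib + Prelude only).
-/
import Mathlib
import Fermat.Agent.S34.Defs
import Fermat.Agent.S34.UWireAbs

set_option autoImplicit false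

open AlgebraicCurve ModularCurve

noncomputable section

namespace Fermat.Agent.S34

/-- (USTAR) in the shape of `S34/Defs.lean` gives the abstract shape of `UWireAbs.lean`. -/
theorem s34uw_abs_of_uStar (N m : ℕ) (τ : AlgebraicClosure ℚ ≃ₐ[ℚ] AlgebraicClosure ℚ)
    (h : s34_UStar N m τ) :
    s34uw_UStarAbs (K := AlgebraicClosure ℚ) (F := ↥(modularFunctionFieldBar N))
      (arithmeticGalois (modularFunctionFieldFull N) τ) m := by
  intro f hf hP
  obtain ⟨v, hv⟩ := h f hf hP
  refine ⟨v, ?_⟩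
  have hgf : arithmeticGalois (modularFunctionFieldFull N) τ • f ≠ 0 :=
    s34uw_smul_ne_zero _ hf
  rw [hv, s34_sd, div_mul_cancel₀ _ (pow_ne_zero 2 hgf)]

/-- (USTAR) at level `N` for `m ≠ 0` and `τ` gives `(τ - 1)² = 0` on the `m`-torsion. -/
theorem s34uw_unip_of_uStar (N m : ℕ) (hm : m ≠ 0)
    (τ : AlgebraicClosure ℚ ≃ₐ[ℚ] AlgebraicClosure ℚ) (h : s34_UStar N m τ)
    (x : JZero N) (hx : m • x = 0) : τ • τ • x + x = 2 • τ • x :=
  s34uw_abs (arithmeticGalois (modularFunctionFieldFull N) τ) m hm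
    (s34uw_abs_of_uStar N m τ h) x hx

/-- **[U-WIRE]** the Kummer dictionary. -/
theorem s34uw_main : s34_WireStatement := by
  intro N q _ _ h A hA m hm τ hτ x hx
  have hm0 : m ≠ 0 := by
    rintro rfl
    exact hm (dvd_zero q)
  exact s34uw_unip_of_uStar N m hm0 τ (h A hA m hm τ hτ) x hx

end Fermat.Agent.S34

end
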