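/-
S34, [SS-BRANCH] = (D2), abstract core [BR-ABS] (helper8).  Prefix `s34br_`.  Mathlib only.

`A` an integrally closed domain (the special fibre of the chart of level `M`), `L` a field
(`κ((T))`), `e : A →+* L` injective (the reduction map).

  `s34br_IsFrac e z`   : `z` is a quotient of two elements of `e(A)`;
  `s34br_mem_range`    : `z` a quotient of elements of `e(A)` and integral over `e(A)` ⟹
                         `z ∈ e(A)`;
  `s34br_isFrac_sum`   : quotients are stable under finite sums and products, so an element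
                         `Σ c_i e(y_i)` with `c_i` quotients is a quotient;
  `s34br_integral_map` : the image of an integral element under a ring homomorphism `ρ` is
                         integral over `e(A)` as soon as `ρ` maps the base into `e(A)`.
-/
import Mathlib

set_option autoImplicit false

namespace Fermat.Agent.S34

section BrAbs

variable {A L : Type*} [CommRing A] [Field L] (e : A →+* L)

/-- `z` is a quotient of two elements of `e(A)`. -/
def s34br_IsFrac (z : L) : Prop := ∃ a d : A, e d ≠ 0 ∧ e d * z = e a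

theorem s34br_isFrac_map (a : A) : s34br_IsFrac e (e a) :=
  ⟨a, 1, by rw [map_one]; exact one_ne_zero, by rw [map_one, one_mul]⟩

theorem s34br_isFrac_zero : s34br_IsFrac e 0 := by
  have h := s34br_isFrac_map e 0
  rwa [map_zero] at h

theorem s34br_isFrac_one : s34br_IsFrac e 1 := by
  have h := s34br_isFrac_map e 1
  rwa [map_one] at h

variable {e}

theorem s34br_isFrac_add {z w : L} (hz : s34br_IsFrac e z) (hw : s34br_IsFrac e w) :
    s34br_IsFrac e (z + w) := by
  obtain ⟨a, d, hd, h⟩ := hz
  obtain ⟨a', d', hd', h'⟩ := hw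
  refine ⟨a * d' + a' * d, d * d', by rw [map_mul]; exact mul_ne_zero hd hd', ?_⟩
  rw [map_mul, map_add, map_mul, map_mul, ← h, ← h']
  ring

theorem s34br_isFrac_mul {z w : L} (hz : s34br_IsFrac e z) (hw : s34br_IsFrac e w) :
    s34br_IsFrac e (z * w) := by
  obtain ⟨a, d, hd, h⟩ := hz
  obtain ⟨a', d', hd', h'⟩ := hw
  refine ⟨a * a', d * d', by rw [map_mul]; exact mul_ne_zero hd hd', ?_⟩
  rw [map_mul, map_mul, ← h, ← h']
  ring

theorem s34br_isFrac_neg {z : L} (hz : s34br_IsFrac e z) : s34br_IsFrac e (-z) := by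
  obtain ⟨a, d, hd, h⟩ := hz
  exact ⟨-a, d, hd, by rw [map_neg, ← h]; ring⟩

theorem s34br_isFrac_inv {z : L} (hz : s34br_IsFrac e z) : s34br_IsFrac e z⁻¹ := by
  obtain ⟨a, d, hd, h⟩ := hz
  by_cases hz0 : z = 0
  · rw [hz0, inv_zero]
    exact s34br_isFrac_zero e
  · have ha : e a ≠ 0 := by
      rw [← h]
      exact mul_ne_zero hd hz0
    refine ⟨d, a, ha, ?_⟩
    rw [← h]
    field_simp

theorem s34br_isFrac_div {z w : L} (hz : s34br_IsFrac e z) (hw : s34br_IsFrac e w) :
    s34br_IsFrac e (z / w) := by
  rw [div_eq_mul_inv]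
  exact s34br_isFrac_mul hz (s34br_isFrac_inv hw)

theorem s34br_isFrac_sum {ι : Type*} (s : Finset ι) (f : ι → L)
    (h : ∀ i ∈ s, s34br_IsFrac e (f i)) : s34br_IsFrac e (∑ i ∈ s, f i) := by
  classical
  induction s using Finset.induction_on with
  | empty => rw [Finset.sum_empty]; exact s34br_isFrac_zero e
  | insert i s hi ih =>
    rw [Finset.sum_insert hi]
    exact s34br_isFrac_add (h i (Finset.mem_insert_self i s))
      (ih fun j hj => h j (Finset.mem_insert_of_mem hj))

/-- A quotient `z` with `e d * z = e a` for some `e d ≠ 0`. -/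
theorem s34br_isFrac_of_mul {z : L} {a d : A} (hd : e d ≠ 0) (h : e d * z = e a) :
    s34br_IsFrac e z := ⟨a, d, hd, h⟩

/-- The span form: `Σ c_i e(y_i)` with quotients `c_i` is a quotient. -/
theorem s34br_isFrac_span {ι : Type*} (s : Finset ι) (c : ι → L) (y : ι → A)
    (hc : ∀ i ∈ s, s34br_IsFrac e (c i)) : s34br_IsFrac e (∑ i ∈ s, c i * e (y i)) :=
  s34br_isFrac_sum s _ fun i hi => s34br_isFrac_mul (hc i hi) (s34br_isFrac_map e (y i))

/-- **[BR-ABS]**: an element of `L` which is a quotient of elements of `e(A)` and integral over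
`e(A)` lies in `e(A)`, for an integrally closed domain `A` and an injective `e`. -/
theorem s34br_mem_range [IsDomain A] [IsIntegrallyClosed A] (he : Function.Injective e) {z : L}
    (hfrac : s34br_IsFrac e z)
    (hint : ∃ p : Polynomial A, p.Monic ∧ Polynomial.eval₂ e z p = 0) :
    ∃ a : A, e a = z := by
  obtain ⟨a, d, hd, hz⟩ := hfrac
  obtain ⟨p, hp, hpz⟩ := hint
  have hφ : ∀ x : A, IsFractionRing.lift (K := FractionRing A) he
      (algebraMap A (FractionRing A) x) = e x := fun x => IsFractionRing.lift_algebraMap he x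
  have hφw : IsFractionRing.lift (K := FractionRing A) he
      (algebraMap A (FractionRing A) a / algebraMap A (FractionRing A) d) = z := by
    rw [map_div₀, hφ, hφ, ← hz, mul_div_cancel_left₀ z hd]
  have hw : IsIntegral A (algebraMap A (FractionRing A) a / algebraMap A (FractionRing A) d) := by
    refine ⟨p, hp, ?_⟩
    apply (IsFractionRing.lift (K := FractionRing A) he).injective
    rw [Polynomial.hom_eval₂, hφw, map_zero, ← hpz]
    congr 1
    exact RingHom.ext hφ
  obtain ⟨a', ha'⟩ := IsIntegrallyClosed.isIntegral_iff.mp hw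
  exact ⟨a', by rw [← hφ, ha', hφw]⟩

/-- Integrality is transported by a ring homomorphism: if `b` is integral over a subring `R₀`
of `B` and `ρ : B →+* L` maps `R₀` into `e(A)`, then `ρ b` is a root of a monic polynomial with
coefficients in `A`. -/
theorem s34br_integral_map {B : Type*} [CommRing B] (R₀ : Subring B) (ρ : B →+* L)
    (hρ : ∀ r ∈ R₀, ∃ a : A, e a = ρ r) {b : B} (hb : IsIntegral R₀ b) :
    ∃ p : Polynomial A, p.Monic ∧ Polynomial.eval₂ e (ρ b) p = 0 := by
  classical
  obtain ⟨P, hP, hPb⟩ := hb
  choose f hf using fun r : R₀ => hρ r r.2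
  -- the polynomial with coefficients `f (P.coeff i)`, made monic by hand
  let p : Polynomial A := Polynomial.X ^ P.natDegree +
    ∑ i ∈ Finset.range P.natDegree, Polynomial.C (f (P.coeff i)) * Polynomial.X ^ i
  have hdeg : (∑ i ∈ Finset.range P.natDegree,
      Polynomial.C (f (P.coeff i)) * Polynomial.X ^ i).degree < (P.natDegree : WithBot ℕ) := by
    refine lt_of_le_of_lt (Polynomial.degree_sum_le _ _) ?_
    rw [Finset.sup_lt_iff (WithBot.bot_lt_coe _)]
    intro i hi
    refine lt_of_le_of_lt (Polynomial.degree_C_mul_X_pow_le i _) ?_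
    exact WithBot.coe_lt_coe.mpr (Finset.mem_range.mp hi)
  have hA : Nontrivial A ∨ ¬ Nontrivial A := Classical.em _
  refine ⟨p, ?_, ?_⟩
  · rcases hA with hA | hA
    · exact Polynomial.monic_X_pow_add hdeg
    · have : Subsingleton A := not_nontrivial_iff_subsingleton.mp hA
      exact Polynomial.monic_of_subsingleton p
  · have h1 : Polynomial.eval₂ e (ρ b) p = ρ b ^ P.natDegree +
        ∑ i ∈ Finset.range P.natDegree, ρ (P.coeff i : B) * ρ b ^ i := by
      simp only [p, Polynomial.eval₂_add, Polynomial.eval₂_pow, Polynomial.eval₂_X,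
        Polynomial.eval₂_finsetSum, Polynomial.eval₂_mul, Polynomial.eval₂_C, hf]
    have h2 : Polynomial.eval₂ (algebraMap R₀ B) b P = b ^ P.natDegree +
        ∑ i ∈ Finset.range P.natDegree, (P.coeff i : B) * b ^ i := by
      rw [Polynomial.eval₂_eq_sum_range, Finset.sum_range_succ, hP.coeff_natDegree, map_one,
        one_mul, add_comm]
      rfl
    rw [h1, ← map_pow, ← map_zero ρ, ← hPb, h2, map_add, map_sum]
    congr 1
    refine Finset.sum_congr rfl fun i _ => ?_
    rw [map_mul, map_pow]

end BrAbs

end Fermat.Agent.S34
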