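/-
S34, leaf [LOC-UNIT], adapter (owner: helper5).  Prefix `s34lu_`.  Mathlib + `S34/LocUnit` only.

`s34lu_hU`: the hypothesis `hU` of `s34l1_place_main` (`S34/Loc1Place.lean`), VERBATIM, for a
non-zero prime `n` of a noetherian integrally closed domain `B`: there the element `e` is not
assumed to be non-zero, which is harmless because a non-zero prime contains a prime of height one
(`s34lu_Q_nonempty`).
-/
import Mathlib
import Fermat.Agent.S34.LocUnit

set_option autoImplicit false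

namespace Fermat.Agent.S34

variable {B F : Type*} [CommRing B] [Field F] [Algebra B F] [IsDomain B] [IsFractionRing B F]
  [IsNoetherianRing B] [IsIntegrallyClosed B]

/-- A non-zero prime of a noetherian integrally closed domain contains a prime of height one. -/
theorem s34lu_Q_nonempty (F : Type*) [Field F] [Algebra B F] [IsFractionRing B F]
    (n : Ideal B) [hn : n.IsPrime] (hn0 : n ≠ ⊥) : ∃ q : Ideal B, q ∈ s34lu_Q n := by
  obtain ⟨π, hπ, hπ0⟩ := Submodule.exists_mem_ne_zero_of_ne_bot hn0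
  have hπF : algebraMap B F π ≠ 0 := fun h =>
    hπ0 (IsFractionRing.injective B F (h.trans (map_zero _).symm))
  have hden : s34lu_den B (algebraMap B F π)⁻¹ ≤ n := by
    rintro r ⟨y, hy⟩
    have h1 : r = π * y := by
      apply IsFractionRing.injective B F
      rw [map_mul, ← hy]
      field_simp
    rw [h1]
    exact n.mul_mem_right y hπ
  obtain ⟨p, hp, hpn, -⟩ := s34lu_exists_htOne n (algebraMap B F π)⁻¹ hden
  exact ⟨p, hp, hpn⟩

/-- **[LOC-UNIT] in the shape of `hU` of `s34l1_place_main`** (no hypothesis `e ≠ 0`). -/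
theorem s34lu_hU (n : Ideal B) [hn : n.IsPrime] (hn0 : n ≠ ⊥) (e : F)
    (h : ∀ 𝔮 : Ideal B, 𝔮.IsPrime → 𝔮 ≤ n → 𝔮 ≠ ⊥ →
      (∀ 𝔮' : Ideal B, 𝔮'.IsPrime → 𝔮' ≤ 𝔮 → 𝔮' = ⊥ ∨ 𝔮' = 𝔮) →
      ∃ y z : B, y ∉ 𝔮 ∧ z ∉ 𝔮 ∧ e * algebraMap B F z = algebraMap B F y) :
    ∃ y z : B, y ∉ n ∧ z ∉ n ∧ e * algebraMap B F z = algebraMap B F y := by
  have he : e ≠ 0 := by
    rintro rfl
    obtain ⟨q, hq⟩ := s34lu_Q_nonempty F n hn0
    obtain ⟨y, z, hy, -, hyz⟩ := h q hq.1.1 hq.2 hq.1.2.1 hq.1.2.2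
    rw [zero_mul] at hyz
    apply hy
    rw [IsFractionRing.injective B F (hyz.symm.trans (map_zero _).symm)]
    exact q.zero_mem
  exact s34lu_unit n e he (fun q hq => h q hq.1.1 hq.2 hq.1.2.1 hq.1.2.2)

end Fermat.Agent.S34
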