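/-
S34, leaf [LOC-UNIT], export (B) (owner: helper5).  Prefix `s34lu_`.

The dictionary between the HORIZONTAL primes of height one of `B` and the places of `F / K`:

`B` a noetherian integrally closed domain with field of fractions `F`, `K ⊆ F` a field of
characteristic `0`, `t ∈ B` transcendental over `K` with `F / K(t)` finite, `π ∈ B` with
`K ⊆ B[1/π]`.

* `s34lu_place_of_hor`: a non-zero prime `q` of `B` with `π ∉ q` is the centre of a place `Q` of
  `F / K` with `B_q = O_Q` (S18 `s18lpp_main`); an element of order `0` at `Q` is a unit at `q`;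
* `s34lu_hhor`: the hypothesis `hhor` of `s34l1_abs` from orders: if `Q.ord x = 0` for every
  place `Q` of `F / K` with `B ⊆ O_Q` whose centre on `B` lies in `n`, then `x` is a unit at every
  horizontal prime of height one inside `n`;
* `s34lu_unit_of_ord`: [LOC-UNIT] with the horizontal primes replaced by places;
* `s34lu_centre`: conversely the centre of a place `Q` with `B ⊆ O_Q` is a prime of height one
  of `B` which does not contain `π`, and `Q` is the only place with this centre.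
-/
import Mathlib
import Fermat.Agent.S18.LocPP
import Fermat.Agent.S34.LocUnit

set_option autoImplicit false
set_option linter.unusedSectionVars false

namespace Fermat.Agent.S34

open AlgebraicCurve IntermediateField Fermat.Agent.S18

section ord

variable {K F : Type*} [Field K] [Field F] [Algebra K F] (Q : Place K F)

theorem s34lu_ord_const (c : K) : Q.ord (algebraMap K F c) = 0 := by
  have h1 : 0 ≤ Q.ord (algebraMap K F c) := s18lpp_ord_nonneg Q (Q.algebraMap_mem' c)
  have h2 : 0 ≤ Q.ord (algebraMap K F c⁻¹) := s18lpp_ord_nonneg Q (Q.algebraMap_mem' c⁻¹)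
  rw [map_inv₀, Place.ord_inv] at h2
  omega

theorem s34lu_ord_div {x y : F} (hx : x ≠ 0) (hy : y ≠ 0) :
    Q.ord (x / y) = Q.ord x - Q.ord y := by
  rw [div_eq_mul_inv, Q.ord_mul hx (inv_ne_zero hy), Place.ord_inv]
  ring

theorem s34lu_ord_pow (x : F) (k : ℕ) : Q.ord (x ^ k) = k * Q.ord x := by
  have := Q.ord_zpow x (k : ℤ)
  rwa [zpow_natCast] at this

/-- A valuation ring of a place is maximal among the proper subrings of `F`: if `O_Q ⊆ O_Q'`
then `Q = Q'`. -/
theorem s34lu_place_eq_of_le (Q Q' : Place K F)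
    (h : ∀ x : F, 0 ≤ Q.ord x → 0 ≤ Q'.ord x) : Q = Q' := by
  have key : ∀ x : F, 0 ≤ Q'.ord x → 0 ≤ Q.ord x := by
    intro x hx
    by_contra hneg
    rw [not_le] at hneg
    have hx0 : x ≠ 0 := by
      rintro rfl
      rw [Place.ord_zero] at hneg
      exact lt_irrefl _ hneg
    -- every `y` lies in `O_Q'`
    apply Q'.ne_top'
    refine SetLike.ext fun y => ⟨fun _ => ValuationSubring.mem_top y, fun _ => ?_⟩
    rcases eq_or_ne y 0 with rfl | hy0
    · exact zero_mem _
    obtain ⟨N, hN⟩ : ∃ N : ℕ, -Q.ord y ≤ N := ⟨(-Q.ord y).toNat, Int.self_le_toNat _⟩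
    have hxN : x ^ N ≠ 0 := pow_ne_zero N hx0
    have h1 : 0 ≤ Q.ord (y / x ^ N) := by
      rw [s34lu_ord_div Q hy0 hxN, s34lu_ord_pow]
      have h3 : (N : ℤ) * Q.ord x ≤ (N : ℤ) * (-1) :=
        mul_le_mul_of_nonneg_left (by omega) (Int.natCast_nonneg N)
      omega
    have h2 : 0 ≤ Q'.ord (y / x ^ N) := h _ h1
    have h3 : 0 ≤ Q'.ord (x ^ N) := by
      rw [s34lu_ord_pow]
      exact mul_nonneg (Int.natCast_nonneg N) hx
    have e : y = y / x ^ N * x ^ N := by field_simp
    rw [e]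
    exact Q'.toValuationSubring.mul_mem _ _ (s18lpp_mem_of_ord_nonneg Q' h2)
      (s18lpp_mem_of_ord_nonneg Q' h3)
  apply Place.ext
  refine SetLike.ext fun x => ⟨fun hx => ?_, fun hx => ?_⟩
  · exact s18lpp_mem_of_ord_nonneg Q' (h x (s18lpp_ord_nonneg Q hx))
  · exact s18lpp_mem_of_ord_nonneg Q (key x (s18lpp_ord_nonneg Q' hx))

end ord

section main

variable (K F B : Type) [Field K] [CharZero K] [Field F] [Algebra K F] [CommRing B]
  [IsDomain B] [Algebra B F] [IsFractionRing B F] [IsNoetherianRing B] [IsIntegrallyClosed B]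
  (t : B) (ht : Transcendental K (algebraMap B F t))
  (hfin : FiniteDimensional K⟮algebraMap B F t⟯ F)
  (π : B)
  (hKπ : ∀ c : K, ∃ (k : ℕ) (y : B),
    algebraMap K F c * algebraMap B F (π ^ k) = algebraMap B F y)

include ht hfin hKπ

/-- The place of a horizontal prime. -/
theorem s34lu_place_of_prime (q : Ideal B) [hq : q.IsPrime] (hq0 : q ≠ ⊥) (hπq : π ∉ q) :
    ∃ Q : Place K F, (∀ b : B, 0 ≤ Q.ord (algebraMap B F b)) ∧
      (∀ b : B, b ∈ q ↔ b = 0 ∨ 0 < Q.ord (algebraMap B F b)) ∧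
      (∀ x : F, 0 ≤ Q.ord x → ∃ y z : B, z ∉ q ∧ x * algebraMap B F z = algebraMap B F y) ∧
      (∀ x : F, x ≠ 0 → Q.ord x = 0 →
        ∃ y z : B, y ∉ q ∧ z ∉ q ∧ x * algebraMap B F z = algebraMap B F y) := by
  have hinj : Function.Injective (algebraMap B F) := IsFractionRing.injective B F
  have hic : ∀ x : F, IsIntegral B x → ∃ b, algebraMap B F b = x :=
    fun x hx => IsIntegrallyClosed.isIntegral_iff.mp hx
  have hK : ∀ c : K, ∃ y z : B, z ∉ q ∧
      algebraMap K F c * algebraMap B F z = algebraMap B F y := by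
    intro c
    obtain ⟨k, y, hy⟩ := hKπ c
    exact ⟨y, π ^ k, fun h => hπq (hq.mem_of_pow_mem k h), hy⟩
  obtain ⟨Q, h1, h2, h3⟩ := s18lpp_main K F B hinj hic t ht hfin q hq0 hK
  refine ⟨Q, h1, h2, h3, ?_⟩
  intro x hx0 hx
  obtain ⟨y, z, hz, hyz⟩ := h3 x hx.ge
  refine ⟨y, z, ?_, hz, hyz⟩
  intro hy
  have hz0 : algebraMap B F z ≠ 0 := by
    intro h
    apply hz
    rw [hinj (h.trans (map_zero _).symm)]
    exact q.zero_mem
  have hzord : Q.ord (algebraMap B F z) = 0 := by
    have h4 : ¬ 0 < Q.ord (algebraMap B F z) := fun h => hz ((h2 z).mpr (Or.inr h))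
    have h5 := h1 z
    omega
  rcases (h2 y).mp hy with h | h
  · rw [h, map_zero] at hyz
    rcases mul_eq_zero.mp hyz with h' | h'
    · exact hx0 h'
    · exact hz0 h'
  · rw [← hyz, Q.ord_mul hx0 hz0, hx, hzord] at h
    exact lt_irrefl _ h

/-- The place of a horizontal prime of height one inside `n`. -/
theorem s34lu_place_of_hor (n q : Ideal B) (hq : q ∈ s34lu_Q n) (hπq : π ∉ q) :
    ∃ Q : Place K F, (∀ b : B, 0 ≤ Q.ord (algebraMap B F b)) ∧
      (∀ b : B, b ∈ q ↔ b = 0 ∨ 0 < Q.ord (algebraMap B F b)) ∧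
      (∀ b : B, 0 < Q.ord (algebraMap B F b) → b ∈ n) ∧
      (∀ x : F, 0 ≤ Q.ord x → ∃ y z : B, z ∉ q ∧ x * algebraMap B F z = algebraMap B F y) ∧
      (∀ x : F, x ≠ 0 → Q.ord x = 0 →
        ∃ y z : B, y ∉ q ∧ z ∉ q ∧ x * algebraMap B F z = algebraMap B F y) := by
  have := hq.1.1
  obtain ⟨Q, h1, h2, h3, h4⟩ := s34lu_place_of_prime K F B t ht hfin π hKπ q hq.1.2.1 hπq
  exact ⟨Q, h1, h2, fun b hb => hq.2 ((h2 b).mpr (Or.inr hb)), h3, h4⟩

/-- **`hhor` from orders.**  If `x ≠ 0` has order `0` at every place of `F / K` which is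
non-negative on `B` and whose centre on `B` lies in `n`, then `x` is a unit at every horizontal
prime of height one inside `n`. -/
theorem s34lu_hhor (n : Ideal B) (x : F) (hx : x ≠ 0)
    (h : ∀ Q : Place K F, (∀ b : B, 0 ≤ Q.ord (algebraMap B F b)) →
      (∀ b : B, 0 < Q.ord (algebraMap B F b) → b ∈ n) → Q.ord x = 0) :
    ∀ q ∈ s34lu_Q n, π ∉ q →
      ∃ y z : B, y ∉ q ∧ z ∉ q ∧ x * algebraMap B F z = algebraMap B F y := by
  intro q hq hπq
  obtain ⟨Q, h1, -, h3, -, h5⟩ := s34lu_place_of_hor K F B t ht hfin π hKπ n q hq hπq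
  exact h5 x hx (h Q h1 h3)

/-- **[LOC-UNIT] with places.**  A non-zero element of `F` which is a unit at the minimal
primes of `π B` inside `n` and of order `0` at every place of `F / K` centred inside `n` is a
unit of `B_n`. -/
theorem s34lu_unit_of_ord (hπ0 : π ≠ 0) (n : Ideal B) [hn : n.IsPrime] (x : F) (hx : x ≠ 0)
    (hver : ∀ q ∈ (Ideal.span {π}).minimalPrimes, q ≤ n →
      ∃ y z : B, y ∉ q ∧ z ∉ q ∧ x * algebraMap B F z = algebraMap B F y)
    (hhor : ∀ Q : Place K F, (∀ b : B, 0 ≤ Q.ord (algebraMap B F b)) →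
      (∀ b : B, 0 < Q.ord (algebraMap B F b) → b ∈ n) → Q.ord x = 0) :
    ∃ y z : B, y ∉ n ∧ z ∉ n ∧ x * algebraMap B F z = algebraMap B F y :=
  s34lu_unit_split π hπ0 n x hx hver (s34lu_hhor K F B t ht hfin π hKπ n x hx hhor)


/-- **The centre of a place.**  A place `Q` of `F / K` which is non-negative on `B` is the place
of a prime `q` of height one of `B` with `π ∉ q` (`π` a non-zero constant). -/
theorem s34lu_centre (ϖ : K) (hϖ0 : ϖ ≠ 0) (hπϖ : algebraMap B F π = algebraMap K F ϖ)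
    (Q : Place K F) (hQ : ∀ b : B, 0 ≤ Q.ord (algebraMap B F b)) :
    ∃ q : Ideal B, s34lu_HtOne q ∧ π ∉ q ∧
      (∀ b : B, b ∈ q ↔ b = 0 ∨ 0 < Q.ord (algebraMap B F b)) ∧
      (∀ x : F, 0 ≤ Q.ord x → ∃ y z : B, z ∉ q ∧ x * algebraMap B F z = algebraMap B F y) ∧
      (∀ x : F, x ≠ 0 → Q.ord x = 0 →
        ∃ y z : B, y ∉ q ∧ z ∉ q ∧ x * algebraMap B F z = algebraMap B F y) := by
  have hinj : Function.Injective (algebraMap B F) := IsFractionRing.injective B F
  -- the centre
  have hmemQ : ∀ b : B, algebraMap B F b ∈ Q.toValuationSubring.toSubring :=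
    fun b => s18lpp_mem_of_ord_nonneg Q (hQ b)
  have hqmem : ∀ b : B, b ∈ Ideal.comap ((algebraMap B F).codRestrict
      Q.toValuationSubring.toSubring hmemQ) (IsLocalRing.maximalIdeal Q.toValuationSubring) ↔
      b = 0 ∨ 0 < Q.ord (algebraMap B F b) := by
    intro b
    rw [Ideal.mem_comap]
    by_cases hb : b = 0
    · subst hb
      simp
    · have hbF : algebraMap B F b ≠ 0 := fun h => hb (hinj (h.trans (map_zero _).symm))
      rw [s18lpp_ord_pos_iff Q hbF (hmemQ b)]
      constructor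
      · intro h
        exact Or.inr h
      · rintro (h | h)
        · exact absurd h hb
        · exact h
  have hqprime : (Ideal.comap ((algebraMap B F).codRestrict
      Q.toValuationSubring.toSubring hmemQ)
      (IsLocalRing.maximalIdeal Q.toValuationSubring)).IsPrime :=
    Ideal.comap_isPrime _ _
  generalize Ideal.comap ((algebraMap B F).codRestrict
      Q.toValuationSubring.toSubring hmemQ)
      (IsLocalRing.maximalIdeal Q.toValuationSubring) = q at hqmem hqprime
  have hordπ : Q.ord (algebraMap B F π) = 0 := by rw [hπϖ]; exact s34lu_ord_const Q ϖ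
  have hπ0 : π ≠ 0 := by
    rintro rfl
    rw [map_zero] at hπϖ
    exact hϖ0 ((algebraMap K F).injective (hπϖ.symm.trans (map_zero _).symm))
  have hπq : π ∉ q := by
    intro h
    rcases (hqmem π).mp h with h | h
    · exact hπ0 h
    · rw [hordπ] at h
      exact lt_irrefl _ h
  have hord0 : ∀ z : B, z ∉ q → Q.ord (algebraMap B F z) = 0 := by
    intro z hz
    have h4 : ¬ 0 < Q.ord (algebraMap B F z) := fun h => hz ((hqmem z).mpr (Or.inr h))
    have h5 := hQ z
    omega
  have hne0 : ∀ z : B, z ∉ q → algebraMap B F z ≠ 0 := by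
    intro z hz h
    apply hz
    rw [hinj (h.trans (map_zero _).symm)]
    exact q.zero_mem
  have hq0 : q ≠ ⊥ := by
    intro h0
    apply Q.ne_top'
    refine SetLike.ext fun x => ⟨fun _ => ValuationSubring.mem_top x, fun _ => ?_⟩
    obtain ⟨a, b, hb, hab⟩ := IsFractionRing.div_surjective (A := B) x
    have hb0 : b ≠ 0 := nonZeroDivisors.ne_zero hb
    have hbq : b ∉ q := by rw [h0, Ideal.mem_bot]; exact hb0
    rcases eq_or_ne a 0 with rfl | ha0
    · rw [← hab, map_zero, zero_div]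
      exact zero_mem _
    have haq : a ∉ q := by rw [h0, Ideal.mem_bot]; exact ha0
    apply s18lpp_mem_of_ord_nonneg Q
    rw [← hab, s34lu_ord_div Q (hne0 a haq) (hne0 b hbq), hord0 a haq, hord0 b hbq, sub_zero]
  -- `B_q₁ ⊆ O_P` for a place `P ≥ 0` on `B` with centre inside `q₁`
  have hloc : ∀ (q₁ : Ideal B) (P : Place K F), (∀ b : B, 0 ≤ P.ord (algebraMap B F b)) →
      (∀ b : B, 0 < P.ord (algebraMap B F b) → b ∈ q₁) → ∀ x : F,
      (∃ y z : B, z ∉ q₁ ∧ x * algebraMap B F z = algebraMap B F y) → 0 ≤ P.ord x := by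
    rintro q₁ P hP hPq x ⟨y, z, hz, hyz⟩
    rcases eq_or_ne x 0 with rfl | hx0
    · rw [Place.ord_zero]
    have hz0 : algebraMap B F z ≠ 0 := by
      intro h
      apply hz
      rw [hinj (h.trans (map_zero _).symm)]
      exact q₁.zero_mem
    have hzord : P.ord (algebraMap B F z) = 0 := by
      have h4 : ¬ 0 < P.ord (algebraMap B F z) := fun h => hz (hPq z h)
      have h5 := hP z
      omega
    have h1 := P.ord_mul hx0 hz0
    rw [hyz, hzord, add_zero] at h1
    rw [← h1]
    exact hP y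
  obtain ⟨Q', h1, h2, h3, h4⟩ := s34lu_place_of_prime K F B t ht hfin π hKπ q hq0 hπq
  obtain rfl : Q' = Q := s34lu_place_eq_of_le Q' Q (fun x hx =>
    hloc q Q hQ (fun b hb => (hqmem b).mpr (Or.inr hb)) x (h3 x hx))
  refine ⟨q, ⟨hqprime, hq0, ?_⟩, hπq, hqmem, h3, h4⟩
  intro q' hq' hle
  by_cases hq'0 : q' = ⊥
  · exact Or.inl hq'0
  right
  obtain ⟨Q'', g1, g2, g3, -⟩ := s34lu_place_of_prime K F B t ht hfin π hKπ q' hq'0
    (fun h => hπq (hle h))
  obtain rfl : Q' = Q'' := s34lu_place_eq_of_le Q' Q'' (fun x hx => by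
    obtain ⟨y, z, hz, hyz⟩ := h3 x hx
    exact hloc q' Q'' g1 (fun b hb => (g2 b).mpr (Or.inr hb)) x
      ⟨y, z, fun h => hz (hle h), hyz⟩)
  ext b
  rw [g2 b, hqmem b]

/-- Two places which are non-negative on `B` and have the same centre on `B` are equal. -/
theorem s34lu_place_unique (ϖ : K) (hϖ0 : ϖ ≠ 0) (hπϖ : algebraMap B F π = algebraMap K F ϖ)
    (Q Q' : Place K F) (hQ : ∀ b : B, 0 ≤ Q.ord (algebraMap B F b))
    (hQ' : ∀ b : B, 0 ≤ Q'.ord (algebraMap B F b))
    (h : ∀ b : B, 0 < Q.ord (algebraMap B F b) → 0 < Q'.ord (algebraMap B F b)) : Q = Q' := by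
  have hinj : Function.Injective (algebraMap B F) := IsFractionRing.injective B F
  obtain ⟨q, hq, -, h2, h3, -⟩ := s34lu_centre K F B t ht hfin π hKπ ϖ hϖ0 hπϖ Q hQ
  obtain ⟨q', hq', -, h2', -, -⟩ := s34lu_centre K F B t ht hfin π hKπ ϖ hϖ0 hπϖ Q' hQ'
  have hle : q ≤ q' := by
    intro b hb
    rcases (h2 b).mp hb with h0 | h0
    · exact (h2' b).mpr (Or.inl h0)
    · exact (h2' b).mpr (Or.inr (h b h0))
  have hqq : q = q' := (hq'.2.2 q hq.1 hle).resolve_left hq.2.1
  subst hqq
  refine s34lu_place_eq_of_le Q Q' (fun x hx => ?_)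
  obtain ⟨y, z, hz, hyz⟩ := h3 x hx
  rcases eq_or_ne x 0 with rfl | hx0
  · rw [Place.ord_zero]
  have hz0 : algebraMap B F z ≠ 0 := by
    intro h0
    apply hz
    rw [hinj (h0.trans (map_zero _).symm)]
    exact q.zero_mem
  have hzord : Q'.ord (algebraMap B F z) = 0 := by
    have h4 : ¬ 0 < Q'.ord (algebraMap B F z) := fun h => hz ((h2' z).mpr (Or.inr h))
    have h5 := hQ' z
    omega
  have h1 := Q'.ord_mul hx0 hz0
  rw [hyz, hzord, add_zero] at h1
  rw [← h1]
  exact hQ' y

end main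

section model

/-- The hypothesis `hKπ` in the model: `B` an algebra over a discrete valuation ring `O` with
field of fractions `K` and uniformizer `ϖ`, `π` the image of `ϖ`: then `K ⊆ B[1/π]`. -/
theorem s34lu_hK {O K F B : Type*} [CommRing O] [IsDomain O] [IsDiscreteValuationRing O]
    [Field K] [Algebra O K] [IsFractionRing O K] [Field F] [Algebra K F] [Algebra O F]
    [IsScalarTower O K F] [CommRing B] [Algebra O B] [Algebra B F] [IsScalarTower O B F]
    (ϖ : O) (hϖ : Irreducible ϖ) (c : K) :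
    ∃ (k : ℕ) (y : B),
      algebraMap K F c * algebraMap B F (algebraMap O B ϖ ^ k) = algebraMap B F y := by
  obtain ⟨a, b, hb, hab⟩ := IsFractionRing.div_surjective (A := O) c
  have hb0 : b ≠ 0 := nonZeroDivisors.ne_zero hb
  obtain ⟨k, u, hu⟩ := IsDiscreteValuationRing.eq_unit_mul_pow_irreducible hb0 hϖ
  have hbK : algebraMap O K b ≠ 0 := fun h =>
    hb0 (IsFractionRing.injective O K (h.trans (map_zero _).symm))
  refine ⟨k, algebraMap O B (a * ((u⁻¹ : Oˣ) : O)), ?_⟩
  rw [← map_pow, ← IsScalarTower.algebraMap_apply O B F, ← IsScalarTower.algebraMap_apply O B F,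
    IsScalarTower.algebraMap_apply O K F, IsScalarTower.algebraMap_apply O K F (a * _),
    ← map_mul]
  congr 1
  have h1 : algebraMap O K b = algebraMap O K (u : O) * algebraMap O K (ϖ ^ k) := by
    rw [← map_mul, ← hu]
  have h2 : algebraMap O K (u : O) * algebraMap O K ((u⁻¹ : Oˣ) : O) = 1 := by
    rw [← map_mul, Units.mul_inv, map_one]
  have h3 : algebraMap O K (u : O) ≠ 0 := left_ne_zero_of_mul_eq_one h2
  have h4 : algebraMap O K (ϖ ^ k) ≠ 0 := by
    intro h
    rw [h, mul_zero] at h1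
    exact hbK h1
  rw [← hab, h1, map_mul, eq_inv_of_mul_eq_one_right h2]
  field_simp

end model

end Fermat.Agent.S34
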