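/-
S34, leaf [K-INST] (owner: helper5).  Prefix `s34ci_`.

The instance package of a chart `B = s18_chart O {t}` (the integral closure of `O[t]` in `F`),
in the typeclass form which the abstract leaves of [SS-LOC1] consume:

* `s34ci_hic`, `s34ci_isIntegrallyClosed`: `B` is integrally closed in `F`;
* `s34ci_isFractionRing`: `F` is the field of fractions of `B`;
* `s34ci_isNoetherianRing` (= S18 `s18b_noeth`);
* `s34ci_finiteType`: `B` is an `O`-algebra of finite type;
* `s34ci_fibreIdeal_eq`: the ideal of the special fibre is `π B`; `s34ci_pi_mem`,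
  `s34ci_pi_ne_zero`;
* `s34ci_hK`: `K ⊆ B[1/π]` in the shape of the hypothesis `hK` of `s34l1_place_main`;
* `s34ci_hU`: the hypothesis `hU` of `s34l1_place_main` for the chart.
-/
import Mathlib
import Fermat.Agent.S18.BasicA
import Fermat.Agent.S34.LocUnitPlace
import Fermat.Agent.S34.LocUnitHU

set_option autoImplicit false
set_option linter.unusedSectionVars false
set_option linter.style.haveILetI false

open IntermediateField

namespace Fermat.Agent.S34

open Fermat.Agent.S18

section general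

variable {O F : Type*} [CommRing O] [Field F] [Algebra O F]

/-- A chart is integrally closed in `F`. -/
theorem s34ci_hic (S : Set F) (x : F) (hx : IsIntegral ↥(s18_chart O S) x) :
    ∃ b : ↥(s18_chart O S), algebraMap ↥(s18_chart O S) F b = x := by
  have hle : Algebra.adjoin O S ≤ s18_chart O S := fun y hy =>
    (s18_mem_chart_iff O).mpr (isIntegral_algebraMap (R := ↥(Algebra.adjoin O S)) (x := ⟨y, hy⟩))
  letI : Algebra ↥(Algebra.adjoin O S) ↥(s18_chart O S) :=
    (Subalgebra.inclusion hle).toRingHom.toAlgebra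
  haveI : IsScalarTower ↥(Algebra.adjoin O S) ↥(s18_chart O S) F :=
    IsScalarTower.of_algebraMap_eq (fun _ => rfl)
  haveI : Algebra.IsIntegral ↥(Algebra.adjoin O S) ↥(s18_chart O S) := by
    refine ⟨fun b => ?_⟩
    have hb : IsIntegral ↥(Algebra.adjoin O S) (b : F) := b.2
    exact (isIntegral_algebraMap_iff (B := F)
      (Subtype.val_injective : Function.Injective (algebraMap ↥(s18_chart O S) F))).mp hb
  have h1 : IsIntegral ↥(Algebra.adjoin O S) x := isIntegral_trans x hx
  exact ⟨⟨x, h1⟩, rfl⟩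

theorem s34ci_injective (S : Set F) :
    Function.Injective (algebraMap ↥(s18_chart O S) F) := Subtype.val_injective

/-- The ideal of the special fibre is generated by a uniformizer. -/
theorem s34ci_fibreIdeal_eq [IsDomain O] [IsDiscreteValuationRing O] (S : Set F) {ϖ : O}
    (hϖ : Irreducible ϖ) :
    s18_fibreIdeal O S = Ideal.span {algebraMap O ↥(s18_chart O S) ϖ} := by
  unfold s18_fibreIdeal
  rw [hϖ.maximalIdeal_eq, Ideal.map_span, Set.image_singleton]

theorem s34ci_pi_mem [IsDomain O] [IsDiscreteValuationRing O] (S : Set F) {ϖ : O}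
    (hϖ : Irreducible ϖ) (n : Ideal ↥(s18_chart O S)) (hn : s18_fibreIdeal O S ≤ n) :
    algebraMap O ↥(s18_chart O S) ϖ ∈ n := by
  apply hn
  rw [s34ci_fibreIdeal_eq S hϖ]
  exact Ideal.mem_span_singleton_self _

theorem s34ci_le_of_pi_mem [IsDomain O] [IsDiscreteValuationRing O] (S : Set F) {ϖ : O}
    (hϖ : Irreducible ϖ) (n : Ideal ↥(s18_chart O S))
    (hn : algebraMap O ↥(s18_chart O S) ϖ ∈ n) : s18_fibreIdeal O S ≤ n := by
  rw [s34ci_fibreIdeal_eq S hϖ, Ideal.span_singleton_le_iff_mem]
  exact hn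

end general

section chart

variable {O K F : Type} [CommRing O] [IsDomain O] [Field K] [Algebra O K] [IsFractionRing O K]
  [Field F] [Algebra K F] [Algebra O F] [IsScalarTower O K F]

theorem s34ci_pi_ne_zero (K : Type) [Field K] [Algebra O K] [IsFractionRing O K]
    [Algebra K F] [IsScalarTower O K F] (S : Set F) {ϖ : O} (hϖ : ϖ ≠ 0) :
    algebraMap O ↥(s18_chart O S) ϖ ≠ 0 := by
  intro h
  have h1 : algebraMap O F ϖ = 0 := congrArg Subtype.val h
  rw [IsScalarTower.algebraMap_apply O K F] at h1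
  have h2 : algebraMap O K ϖ = 0 := (algebraMap K F).injective (h1.trans (map_zero _).symm)
  exact hϖ (IsFractionRing.injective O K (h2.trans (map_zero _).symm))

variable [CharZero K] [IsNoetherianRing O] [UniqueFactorizationMonoid O] {t : F}
  (ht : Transcendental K t) (hfin : FiniteDimensional ↥K⟮t⟯ F)

include ht hfin

/-- `F` is the field of fractions of the chart. -/
theorem s34ci_isFractionRing : IsFractionRing ↥(s18_chart O ({t} : Set F)) F := by
  refine IsFractionRing.of_field _ F (fun z => ?_)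
  obtain ⟨x, y, hy, hxy⟩ := s18b_frac (O := O) ht hfin z
  refine ⟨x, y, ?_⟩
  have hy' : (y : F) ≠ 0 := fun h => hy (Subtype.ext h)
  exact (eq_div_iff hy').2 hxy

/-- The chart is an integrally closed domain. -/
theorem s34ci_isIntegrallyClosed : IsIntegrallyClosed ↥(s18_chart O ({t} : Set F)) := by
  haveI := s34ci_isFractionRing (O := O) ht hfin
  exact (isIntegrallyClosed_iff F).mpr (fun {x} hx => s34ci_hic _ x hx)

/-- The chart is noetherian (S18 `s18b_noeth`). -/
theorem s34ci_isNoetherianRing : IsNoetherianRing ↥(s18_chart O ({t} : Set F)) :=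
  s18b_noeth (O := O) ht hfin

/-- The chart is an `O`-algebra of finite type. -/
theorem s34ci_finiteType : Algebra.FiniteType O ↥(s18_chart O ({t} : Set F)) := by
  classical
  obtain ⟨s, hs, hspan⟩ := s18b_finite (O := O) ht hfin
  have htB : t ∈ s18_chart O ({t} : Set F) :=
    (s18_mem_chart_iff O).mpr (isIntegral_algebraMap (R := ↥(Algebra.adjoin O ({t} : Set F)))
      (x := ⟨t, Algebra.subset_adjoin (Set.mem_singleton t)⟩))
  -- the subalgebra of `F` generated by `s ∪ {t}` is the chart
  have hgen : Algebra.adjoin O ((s : Set F) ∪ {t}) = s18_chart O ({t} : Set F) := by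
    apply le_antisymm
    · refine Algebra.adjoin_le ?_
      rintro x (hx | hx)
      · exact hs x hx
      · rw [Set.mem_singleton_iff] at hx
        rw [hx]
        exact htB
    · intro x hx
      obtain ⟨c, hc⟩ := hspan x hx
      rw [hc]
      refine Subalgebra.sum_mem _ (fun y hy => Subalgebra.mul_mem _ ?_ ?_)
      · have h1 : Algebra.adjoin O ({t} : Set F) ≤ Algebra.adjoin O ((s : Set F) ∪ {t}) :=
          Algebra.adjoin_mono Set.subset_union_right
        exact h1 (c y).2
      · exact Algebra.subset_adjoin (Or.inl hy)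
  have hfg : (s18_chart O ({t} : Set F)).FG := by
    rw [← hgen]
    refine ⟨s ∪ {t}, ?_⟩
    rw [Finset.coe_union, Finset.coe_singleton]
  exact (Subalgebra.fg_iff_finiteType _).mp hfg

/-- The hypothesis `hU` of `s34l1_place_main` ([LOC-UNIT]) for the chart. -/
theorem s34ci_hU (n : Ideal ↥(s18_chart O ({t} : Set F))) [hn : n.IsPrime] (hn0 : n ≠ ⊥)
    (e : F)
    (h : ∀ 𝔮 : Ideal ↥(s18_chart O ({t} : Set F)), 𝔮.IsPrime → 𝔮 ≤ n → 𝔮 ≠ ⊥ →
      (∀ 𝔮' : Ideal ↥(s18_chart O ({t} : Set F)), 𝔮'.IsPrime → 𝔮' ≤ 𝔮 → 𝔮' = ⊥ ∨ 𝔮' = 𝔮) →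
      ∃ y z : ↥(s18_chart O ({t} : Set F)), y ∉ 𝔮 ∧ z ∉ 𝔮 ∧
        e * algebraMap ↥(s18_chart O ({t} : Set F)) F z =
          algebraMap ↥(s18_chart O ({t} : Set F)) F y) :
    ∃ y z : ↥(s18_chart O ({t} : Set F)), y ∉ n ∧ z ∉ n ∧
      e * algebraMap ↥(s18_chart O ({t} : Set F)) F z =
        algebraMap ↥(s18_chart O ({t} : Set F)) F y := by
  haveI := s34ci_isFractionRing (O := O) ht hfin
  haveI := s34ci_isIntegrallyClosed (O := O) ht hfin
  haveI := s34ci_isNoetherianRing (O := O) ht hfin
  exact s34lu_hU n hn0 e h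

end chart

section hK

/-- `K ⊆ B[1/π]`, in the shape of the hypothesis `hK` of `s34l1_place_main`. -/
theorem s34ci_hK {O K F B : Type*} [CommRing O] [IsDomain O] [IsDiscreteValuationRing O]
    [Field K] [Algebra O K] [IsFractionRing O K] [Field F] [Algebra K F] [Algebra O F]
    [IsScalarTower O K F] [CommRing B] [Algebra O B] [Algebra B F] [IsScalarTower O B F]
    (ϖ : O) (hϖ : Irreducible ϖ) (c : K) :
    ∃ (x y : B) (k : ℕ), y ∣ algebraMap O B ϖ ^ k ∧
      algebraMap K F c * algebraMap B F y = algebraMap B F x := by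
  obtain ⟨k, y, hy⟩ := s34lu_hK (F := F) (B := B) ϖ hϖ c
  exact ⟨y, algebraMap O B ϖ ^ k, k, dvd_rfl, hy⟩

end hK

end Fermat.Agent.S34
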