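/-
S34, leaf [FIN2] of [LIFT2] (helper7).  Prefix `s34fin_`.

`H⁰(n) = {f ∈ B : J⁻ⁿ f ∈ B'}` is a finitely generated `O`-module, for the two charts
`B = s18_chart O {J}`, `B' = s18_chart O {J⁻¹}` of the normalisation of `P¹_O` in ANY finite
extension `F` of `K(J)` - NO hypothesis on the special fibre.

This is `S18/Fin.lean` (`s18fin_main`) with the three facts it really uses as explicit
hypotheses: `J` is transcendental over `K`, `F / K(J)` is finite, and `B ⊆ ⋃ Jᵏ B'`.
-/
import Mathlib
import Fermat.Agent.S18.Fin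

set_option autoImplicit false
set_option linter.unusedSectionVars false
set_option linter.style.haveILetI false

open AlgebraicCurve IntermediateField Polynomial
open scoped TensorProduct
open Fermat.Agent.S18

noncomputable section

namespace Fermat.Agent.S34

/-- **[FIN2]** `H⁰(n)` is finitely generated over `O`, without any hypothesis on the special
fibre of the model. -/
theorem s34fin_main (O K F : Type) [CommRing O] [IsDomain O] [IsDiscreteValuationRing O]
    [Field K] [CharZero K] [Algebra O K] [IsFractionRing O K] [Field F] [Algebra K F]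
    [Algebra O F] [IsScalarTower O K F] (j : F) (hj : Transcendental K j)
    (hfin : FiniteDimensional ↥K⟮j⟯ F)
    (hcover : ∀ x ∈ s18_chart O ({j} : Set F),
      ∃ k : ℕ, j⁻¹ ^ k * x ∈ s18_chart O ({j⁻¹} : Set F))
    (n : ℕ) : (s18_H0 O j n).FG := by
  classical
  have hj' : Transcendental K j⁻¹ := s18fin_transc_inv hj
  haveI : FiniteDimensional ↥K⟮j⟯ F := hfin
  obtain ⟨s, b, hbint⟩ := s18fin_basis (O := O) (t := j) K⟮j⟯ rfl
  -- the dual basis
  set b' := (Algebra.traceForm ↥K⟮j⟯ F).dualBasis (traceForm_nondegenerate ↥K⟮j⟯ F) b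
    with hb'
  -- pole orders of the basis
  have hcov : ∀ i : ↥s, ∃ k : ℕ, j⁻¹ ^ k * b i ∈ s18_chart O ({j⁻¹} : Set F) :=
    fun i => hcover (b i) (hbint i)
  choose N hN using hcov
  -- the finite set of generators
  let S : Finset F := (Finset.univ : Finset ↥s).biUnion
    (fun i => (Finset.range (n + N i + 1)).image (fun k => j ^ k * b' i))
  refine Submodule.FG.of_le (Submodule.fg_span (Finset.finite_toSet S)) ?_
  intro f hf
  obtain ⟨hf1, hf2⟩ := s18_mem_H0 (O := O).mp hf
  -- the traces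
  have hT : ∀ i : ↥s, ∃ p : O[X], p.natDegree ≤ n + N i ∧
      aeval j p = ((Algebra.trace ↥K⟮j⟯ F (f * b i) : ↥K⟮j⟯) : F) := by
    intro i
    apply s18fin_deg hj
    · exact s18fin_trace_mem hj K⟮j⟯ rfl (IsIntegral.mul hf1 (hbint i))
    · have hc : j⁻¹ ^ (n + N i) ∈ K⟮j⟯ :=
        pow_mem (inv_mem (mem_adjoin_simple_self K j)) _
      have h1 : (j⁻¹ ^ n * f) * (j⁻¹ ^ N i * b i) =
          (⟨j⁻¹ ^ (n + N i), hc⟩ : ↥K⟮j⟯) • (f * b i) := by
        rw [Algebra.smul_def]
        show _ = j⁻¹ ^ (n + N i) * (f * b i)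
        rw [pow_add]; ring
      have h2 := s18fin_trace_mem (O := O) hj' K⟮j⟯ (s18fin_adjoin_inv j)
        (IsIntegral.mul hf2 (hN i))
      rw [h1, map_smul] at h2
      exact h2
  choose p hpdeg hp using hT
  have hsum : f = ∑ i, (Algebra.trace ↥K⟮j⟯ F (f * b i)) • b' i := by
    conv_lhs => rw [← b'.sum_repr f]
    refine Finset.sum_congr rfl (fun i _ => ?_)
    rw [hb', LinearMap.BilinForm.dualBasis_repr_apply, Algebra.traceForm_apply]
  rw [hsum]
  refine Submodule.sum_mem _ (fun i _ => ?_)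
  rw [Algebra.smul_def]
  show ((Algebra.trace ↥K⟮j⟯ F (f * b i) : ↥K⟮j⟯) : F) * b' i ∈ _
  rw [← hp i, Polynomial.aeval_eq_sum_range' (Nat.lt_succ_of_le (hpdeg i)), Finset.sum_mul]
  refine Submodule.sum_mem _ (fun k hk => ?_)
  rw [smul_mul_assoc]
  refine Submodule.smul_mem _ _ (Submodule.subset_span ?_)
  rw [Finset.mem_coe, Finset.mem_biUnion]
  exact ⟨i, Finset.mem_univ _, Finset.mem_image.mpr ⟨k, hk, rfl⟩⟩

end Fermat.Agent.S34
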