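/-
S34 / [GAUSS-FORM] (leaf of [SS-COUNT] = (D1) of the cut of S34; asked by helper26, written by
helper22).  Prefix `s34cg_`.  Pure commutative algebra, Mathlib only (+ S34/CountAbs, Mathlib only).

Setting: `O` a discrete valuation ring with uniformizer `ϖ` and fraction field `K`, `F / K` a field
extension, `j : F`, `V` a valuation subring of `F`.

* `s34cg_IsGauss ϖ j V` : `O ⊆ V`, `j ∈ V`, `ϖ` is a non-unit of `V` and `P(j)` is a unit of `V`
                          for every `P : O[X]` with nonzero reduction (the residue of `j` is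
                          transcendental over the residue field);
* `s34cg_form`, `s34cg_form_nu` : elements of `K(j) ∩ V` (resp. of `K(j) ∩ 𝔪_V`) are
                          `P(j) / Q(j)` (resp. `ϖ P(j) / Q(j)`) with `Q` of nonzero reduction;
* `s34cg_transcendental`: `j` is transcendental over `K`;
* `s34cg_comap_eq`      : two Gauss valuation rings have the same trace on `K(j)`;
* `s34cg_dvr`, `s34cg_irreducible`, `s34cg_dvd_of_nu` : the Gauss ring `K(j) ∩ V` is a discrete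
                          valuation ring with uniformizer `ϖ`.
-/
import Mathlib
import Fermat.Agent.S34.CountAbs

set_option autoImplicit false
set_option linter.unusedSectionVars false
set_option linter.style.haveILetI false
set_option linter.unnecessarySimpa false

namespace Fermat.Agent.S34

open Polynomial IntermediateField

section GaussForm

variable {O K F : Type*} [CommRing O] [IsDomain O] [IsDiscreteValuationRing O] [Field K]
  [Algebra O K] [IsFractionRing O K] [Field F] [Algebra K F] [Algebra O F] [IsScalarTower O K F]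

/-- `V` is a "Gauss valuation ring" for `(O, ϖ, j)`. -/
structure s34cg_IsGauss (ϖ : O) (j : F) (V : ValuationSubring F) : Prop where
  le : ∀ a : O, algebraMap O F a ∈ V
  mem : j ∈ V
  nonunit : algebraMap O F ϖ ∈ V.nonunits
  unit : ∀ P : Polynomial O, P.map (IsLocalRing.residue O) ≠ 0 →
    Polynomial.aeval j P ∉ V.nonunits

variable {ϖ : O} {j : F} {V V' : ValuationSubring F}

/-- The reduction of a polynomial vanishes iff the uniformizer divides it. -/
theorem s34cg_map_residue_eq_zero_iff (hϖ : Irreducible ϖ) (P : O[X]) :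
    P.map (IsLocalRing.residue O) = 0 ↔ C ϖ ∣ P := by
  rw [Polynomial.C_dvd_iff_dvd_coeff, Polynomial.ext_iff]
  refine forall_congr' fun n => ?_
  rw [Polynomial.coeff_map, Polynomial.coeff_zero, IsLocalRing.residue_eq_zero_iff,
    hϖ.maximalIdeal_eq, Ideal.mem_span_singleton]

/-- Taking out the content. -/
theorem s34cg_exists_prim (hϖ : Irreducible ϖ) {P : O[X]} (hP : P ≠ 0) :
    ∃ (e : ℕ) (P₁ : O[X]), P₁.map (IsLocalRing.residue O) ≠ 0 ∧ P = C ϖ ^ e * P₁ := by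
  have hnu : ¬ IsUnit (C ϖ : O[X]) := by
    rw [Polynomial.isUnit_C]; exact hϖ.not_isUnit
  obtain ⟨n, a, ha, hPa⟩ := WfDvdMonoid.max_power_factor' hP hnu
  exact ⟨n, a, fun h0 => ha ((s34cg_map_residue_eq_zero_iff hϖ a).mp h0), hPa⟩

theorem s34cg_aeval_mem (h : s34cg_IsGauss ϖ j V) (P : Polynomial O) :
    Polynomial.aeval j P ∈ V := by
  rw [Polynomial.aeval_eq_sum_range]
  refine sum_mem fun i _ => ?_
  rw [Algebra.smul_def]
  exact mul_mem (h.le _) (pow_mem h.mem i)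

theorem s34cg_aeval_valuation (h : s34cg_IsGauss ϖ j V) {P : Polynomial O}
    (hP : P.map (IsLocalRing.residue O) ≠ 0) : V.valuation (Polynomial.aeval j P) = 1 := by
  have h1 : V.valuation (Polynomial.aeval j P) ≤ 1 :=
    (V.valuation_le_one_iff _).mpr (s34cg_aeval_mem h P)
  have h2 := h.unit P hP
  rw [ValuationSubring.mem_nonunits_iff] at h2
  exact le_antisymm h1 (not_lt.mp h2)

theorem s34cg_aeval_ne_zero (h : s34cg_IsGauss ϖ j V) {P : Polynomial O}
    (hP : P.map (IsLocalRing.residue O) ≠ 0) : Polynomial.aeval j P ≠ 0 := by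
  intro h0
  have := s34cg_aeval_valuation h hP
  rw [h0, map_zero] at this
  exact zero_ne_one this

/-- `r / P(j)` stays in `V` when `P` is primitive. -/
theorem s34cg_div_mem (h : s34cg_IsGauss ϖ j V) {P : Polynomial O}
    (hP : P.map (IsLocalRing.residue O) ≠ 0) {r : F} (hr : r ∈ V) :
    r / Polynomial.aeval j P ∈ V := by
  rw [← V.valuation_le_one_iff, map_div₀, s34cg_aeval_valuation h hP, div_one]
  exact (V.valuation_le_one_iff _).mpr hr

theorem s34cg_div_nu (h : s34cg_IsGauss ϖ j V) {P : Polynomial O}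
    (hP : P.map (IsLocalRing.residue O) ≠ 0) {r : F} (hr : r ∈ V.nonunits) :
    r / Polynomial.aeval j P ∈ V.nonunits := by
  rw [ValuationSubring.mem_nonunits_iff] at hr ⊢
  rwa [map_div₀, s34cg_aeval_valuation h hP, div_one]

include K in
theorem s34cg_algebraMap_ne_zero {a : O} (ha : a ≠ 0) : algebraMap O F a ≠ 0 := by
  rw [IsScalarTower.algebraMap_apply O K F]
  intro h0
  have h1 : algebraMap O K a = 0 := (algebraMap K F).injective (by rw [h0, map_zero])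
  exact ha ((IsFractionRing.injective O K) (by rw [h1, map_zero]))

include K in
/-- Clearing denominators: an element of `K(j)` is a quotient of polynomials over `O`. -/
theorem s34cg_exists_frac (j : F) (r : F) (hr : r ∈ K⟮j⟯) :
    ∃ P Q : O[X], aeval j Q ≠ 0 ∧ r * aeval j Q = aeval j P := by
  obtain ⟨A, B, hAB⟩ := (IntermediateField.mem_adjoin_simple_iff K r).mp hr
  by_cases hB : aeval j B = 0
  · refine ⟨0, 1, by simp, ?_⟩
    rw [hAB, hB, div_zero]; simp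
  · obtain ⟨a, ha0', ha⟩ := IsLocalization.integerNormalization_spec (nonZeroDivisors O) A
    obtain ⟨b, hb0', hb⟩ := IsLocalization.integerNormalization_spec (nonZeroDivisors O) B
    have key : ∀ (c : O) (A : K[X]) (A'' : O[X]), A''.map (algebraMap O K) = c • A →
        aeval j A'' = algebraMap O F c * aeval j A := by
      intro c A A'' hA
      have h1 := congrArg (aeval j) hA
      rw [aeval_map_algebraMap] at h1
      rw [h1, ← algebraMap_smul K c A, map_smul, Algebra.smul_def,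
        ← IsScalarTower.algebraMap_apply]
    have hA := key _ _ _ ha
    have hB' := key _ _ _ hb
    have ha0 : algebraMap O F (a : O) ≠ 0 :=
      s34cg_algebraMap_ne_zero (K := K) (nonZeroDivisors.ne_zero ha0')
    have hb0 : algebraMap O F (b : O) ≠ 0 :=
      s34cg_algebraMap_ne_zero (K := K) (nonZeroDivisors.ne_zero hb0')
    refine ⟨C (b : O) * IsLocalization.integerNormalization (nonZeroDivisors O) A,
      C (a : O) * IsLocalization.integerNormalization (nonZeroDivisors O) B, ?_, ?_⟩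
    · rw [map_mul, aeval_C, hB']
      exact mul_ne_zero ha0 (mul_ne_zero hb0 hB)
    · rw [map_mul, map_mul, aeval_C, aeval_C, hA, hB', hAB]
      field_simp

include K in
/-- Normal form of a nonzero element of `K(j)`. -/
theorem s34cg_normal (hϖ : Irreducible ϖ) (j : F) (r : F) (hr : r ∈ K⟮j⟯) (hr0 : r ≠ 0) :
    ∃ (e d : ℕ) (P Q : O[X]), P.map (IsLocalRing.residue O) ≠ 0 ∧
      Q.map (IsLocalRing.residue O) ≠ 0 ∧
      r * (algebraMap O F ϖ ^ e * aeval j Q) = algebraMap O F ϖ ^ d * aeval j P := by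
  obtain ⟨P₀, Q₀, hQ₀, hPQ⟩ := s34cg_exists_frac (O := O) (K := K) j r hr
  have hQ0 : Q₀ ≠ 0 := by
    rintro rfl
    simp at hQ₀
  have hP0 : P₀ ≠ 0 := by
    rintro rfl
    rw [map_zero] at hPQ
    exact (mul_ne_zero hr0 hQ₀) hPQ
  obtain ⟨e, Q, hQ, rfl⟩ := s34cg_exists_prim hϖ hQ0
  obtain ⟨d, P, hP, rfl⟩ := s34cg_exists_prim hϖ hP0
  refine ⟨e, d, P, Q, hP, hQ, ?_⟩
  simpa using hPQ

theorem s34cg_pow_nu (h : s34cg_IsGauss ϖ j V) {k : ℕ} (hk : 0 < k) :
    algebraMap O F ϖ ^ k ∈ V.nonunits := by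
  obtain ⟨m, rfl⟩ : ∃ m, k = m + 1 := ⟨k - 1, by omega⟩
  rw [pow_succ]
  exact s34ca_nu_mul V (pow_mem (s34ca_nu_mem V h.nonunit) m) h.nonunit

include K in
/-- A nonzero element of `K(j) ∩ V` is `ϖ ^ n` times a quotient of primitive polynomials. -/
theorem s34cg_normal_mem (hϖ : Irreducible ϖ) (h : s34cg_IsGauss ϖ j V) (r : F)
    (hr : r ∈ K⟮j⟯) (hr0 : r ≠ 0) (hrV : r ∈ V) :
    ∃ (n : ℕ) (P Q : O[X]), P.map (IsLocalRing.residue O) ≠ 0 ∧
      Q.map (IsLocalRing.residue O) ≠ 0 ∧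
      r * aeval j Q = algebraMap O F ϖ ^ n * aeval j P := by
  obtain ⟨e, d, P, Q, hP, hQ, hPQ⟩ := s34cg_normal (K := K) hϖ j r hr hr0
  have hπ0 : algebraMap O F ϖ ≠ 0 := s34cg_algebraMap_ne_zero (K := K) hϖ.ne_zero
  rcases le_or_gt e d with hed | hde
  · refine ⟨d - e, P, Q, hP, hQ, ?_⟩
    have h1 : algebraMap O F ϖ ^ e * (r * aeval j Q) =
        algebraMap O F ϖ ^ e * (algebraMap O F ϖ ^ (d - e) * aeval j P) := by
      rw [← mul_assoc _ _ (aeval j P), ← pow_add, Nat.add_sub_cancel' hed, ← hPQ]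
      ring
    exact mul_left_cancel₀ (pow_ne_zero e hπ0) h1
  · exfalso
    have h1 : algebraMap O F ϖ ^ d * (r * (algebraMap O F ϖ ^ (e - d) * aeval j Q)) =
        algebraMap O F ϖ ^ d * aeval j P := by
      rw [← hPQ]
      have h2 : e = d + (e - d) := by omega
      conv_rhs => rw [h2, pow_add]
      ring
    have h2 := mul_left_cancel₀ (pow_ne_zero d hπ0) h1
    have h3 : r * (algebraMap O F ϖ ^ (e - d) * aeval j Q) ∈ V.nonunits :=
      s34ca_nu_mul V hrV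
        (s34ca_nu_mul' V (s34cg_pow_nu h (by omega)) (s34cg_aeval_mem h Q))
    rw [h2] at h3
    exact h.unit P hP h3

theorem s34cg_map_one_ne_zero : (1 : O[X]).map (IsLocalRing.residue O) ≠ 0 := by
  rw [Polynomial.map_one]
  exact one_ne_zero

theorem s34cg_map_mul_ne_zero {P Q : O[X]} (hP : P.map (IsLocalRing.residue O) ≠ 0)
    (hQ : Q.map (IsLocalRing.residue O) ≠ 0) : (P * Q).map (IsLocalRing.residue O) ≠ 0 := by
  rw [Polynomial.map_mul]
  exact mul_ne_zero hP hQ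

include K in
/-- **(a)** of [GAUSS-FORM]. -/
theorem s34cg_form (hϖ : Irreducible ϖ) (h : s34cg_IsGauss ϖ j V) (r : F) (hr : r ∈ K⟮j⟯)
    (hrV : r ∈ V) :
    ∃ P Q : Polynomial O, Q.map (IsLocalRing.residue O) ≠ 0 ∧
      r * Polynomial.aeval j Q = Polynomial.aeval j P := by
  by_cases hr0 : r = 0
  · exact ⟨0, 1, s34cg_map_one_ne_zero, by rw [hr0, zero_mul, map_zero]⟩
  · obtain ⟨n, P, Q, _, hQ, hPQ⟩ := s34cg_normal_mem (K := K) hϖ h r hr hr0 hrV
    exact ⟨C ϖ ^ n * P, Q, hQ, by rw [hPQ, map_mul, map_pow, aeval_C]⟩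

include K in
/-- **(a')** of [GAUSS-FORM]. -/
theorem s34cg_form_nu (hϖ : Irreducible ϖ) (h : s34cg_IsGauss ϖ j V) (r : F) (hr : r ∈ K⟮j⟯)
    (hrV : r ∈ V.nonunits) :
    ∃ P Q : Polynomial O, Q.map (IsLocalRing.residue O) ≠ 0 ∧
      r * Polynomial.aeval j Q = algebraMap O F ϖ * Polynomial.aeval j P := by
  by_cases hr0 : r = 0
  · exact ⟨0, 1, s34cg_map_one_ne_zero, by rw [hr0, zero_mul, map_zero, mul_zero]⟩
  · obtain ⟨n, P, Q, hP, hQ, hPQ⟩ :=
      s34cg_normal_mem (K := K) hϖ h r hr hr0 (s34ca_nu_mem V hrV)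
    rcases Nat.eq_zero_or_pos n with hn | hn
    · exfalso
      rw [hn, pow_zero, one_mul] at hPQ
      have h1 : r * aeval j Q ∈ V.nonunits := s34ca_nu_mul' V hrV (s34cg_aeval_mem h Q)
      rw [hPQ] at h1
      exact h.unit P hP h1
    · obtain ⟨m, rfl⟩ : ∃ m, n = m + 1 := ⟨n - 1, by omega⟩
      exact ⟨C ϖ ^ m * P, Q, hQ, by rw [hPQ, map_mul, map_pow, aeval_C]; ring⟩

include K in
theorem s34cg_transcendental (hϖ : Irreducible ϖ) (h : s34cg_IsGauss ϖ j V) :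
    Transcendental K j := by
  have hπ0 : algebraMap O F ϖ ≠ 0 := s34cg_algebraMap_ne_zero (K := K) hϖ.ne_zero
  rw [Transcendental, ← IsFractionRing.isAlgebraic_iff O K F]
  rintro ⟨A, hA0, hA⟩
  obtain ⟨e, A₁, hA₁, rfl⟩ := s34cg_exists_prim hϖ hA0
  rw [map_mul, map_pow, aeval_C] at hA
  rcases mul_eq_zero.mp hA with h1 | h1
  · exact pow_ne_zero e hπ0 h1
  · exact s34cg_aeval_ne_zero h hA₁ h1

theorem s34cg_comap_le (hϖ : Irreducible ϖ) (h : s34cg_IsGauss ϖ j V)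
    (h' : s34cg_IsGauss ϖ j V') :
    V.comap (algebraMap ↥K⟮j⟯ F) ≤ V'.comap (algebraMap ↥K⟮j⟯ F) := by
  intro r hr
  rw [ValuationSubring.mem_comap] at hr ⊢
  obtain ⟨P, Q, hQ, hPQ⟩ := s34cg_form (K := K) hϖ h _ r.2 hr
  have h1 : algebraMap ↥K⟮j⟯ F r = aeval j P / aeval j Q := by
    rw [eq_div_iff (s34cg_aeval_ne_zero h' hQ)]
    exact hPQ
  rw [h1]
  exact s34cg_div_mem h' hQ (s34cg_aeval_mem h' P)

/-- **(b)** of [GAUSS-FORM]: a Gauss valuation ring is determined on `K(j)`. -/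
theorem s34cg_comap_eq (hϖ : Irreducible ϖ) (h : s34cg_IsGauss ϖ j V)
    (h' : s34cg_IsGauss ϖ j V') :
    V.comap (algebraMap ↥K⟮j⟯ F) = V'.comap (algebraMap ↥K⟮j⟯ F) :=
  le_antisymm (s34cg_comap_le hϖ h h') (s34cg_comap_le hϖ h' h)

/-! ### The Gauss ring `K(j) ∩ V` is a discrete valuation ring -/

theorem s34cg_aeval_mem_adjoin (j : F) (P : O[X]) : aeval j P ∈ K⟮j⟯ := by
  rw [Polynomial.aeval_eq_sum_range]
  refine sum_mem fun i _ => ?_
  rw [Algebra.smul_def, IsScalarTower.algebraMap_apply O K F]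
  exact mul_mem (K⟮j⟯.algebraMap_mem _) (pow_mem (IntermediateField.mem_adjoin_simple_self K j) i)

/-- The inclusion of the Gauss ring into `F`. -/
def s34cg_iota (K : Type*) [Field K] [Algebra K F] (j : F) (V : ValuationSubring F) :
    ↥(V.comap (algebraMap ↥K⟮j⟯ F)) →+* F :=
  (algebraMap ↥K⟮j⟯ F).comp (V.comap (algebraMap ↥K⟮j⟯ F)).subtype

theorem s34cg_iota_apply (x : ↥(V.comap (algebraMap ↥K⟮j⟯ F))) :
    s34cg_iota K j V x = algebraMap ↥K⟮j⟯ F (x : ↥K⟮j⟯) := rfl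

theorem s34cg_iota_injective : Function.Injective (s34cg_iota K j V) := by
  intro x y hxy
  exact Subtype.ext ((algebraMap ↥K⟮j⟯ F).injective hxy)

theorem s34cg_iota_mem (x : ↥(V.comap (algebraMap ↥K⟮j⟯ F))) : s34cg_iota K j V x ∈ V := x.2

theorem s34cg_iota_mem_adjoin (x : ↥(V.comap (algebraMap ↥K⟮j⟯ F))) :
    s34cg_iota K j V x ∈ K⟮j⟯ := (x : ↥K⟮j⟯).2

/-- Elements of `K(j) ∩ V` as elements of the Gauss ring. -/
def s34cg_mk (K : Type*) [Field K] [Algebra K F] (j : F) (V : ValuationSubring F) (r : F)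
    (hr : r ∈ K⟮j⟯) (hrV : r ∈ V) : ↥(V.comap (algebraMap ↥K⟮j⟯ F)) :=
  ⟨⟨r, hr⟩, hrV⟩

theorem s34cg_iota_mk (r : F) (hr : r ∈ K⟮j⟯) (hrV : r ∈ V) :
    s34cg_iota K j V (s34cg_mk K j V r hr hrV) = r := rfl

theorem s34cg_unif_mem (h : s34cg_IsGauss ϖ j V) :
    algebraMap O ↥K⟮j⟯ ϖ ∈ V.comap (algebraMap ↥K⟮j⟯ F) := by
  rw [ValuationSubring.mem_comap]
  exact h.le ϖ

theorem s34cg_iota_unif (hm : algebraMap O ↥K⟮j⟯ ϖ ∈ V.comap (algebraMap ↥K⟮j⟯ F)) :
    s34cg_iota K j V ⟨algebraMap O ↥K⟮j⟯ ϖ, hm⟩ = algebraMap O F ϖ := rfl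

theorem s34cg_isUnit_of_not_nu (x : ↥(V.comap (algebraMap ↥K⟮j⟯ F)))
    (hx : s34cg_iota K j V x ∉ V.nonunits) : IsUnit x := by
  have h1 : V.valuation (s34cg_iota K j V x) = 1 := by
    rw [ValuationSubring.mem_nonunits_iff] at hx
    exact le_antisymm ((V.valuation_le_one_iff _).mpr (s34cg_iota_mem x)) (not_lt.mp hx)
  have h0 : s34cg_iota K j V x ≠ 0 := by
    intro h0
    rw [h0, map_zero] at h1
    exact zero_ne_one h1
  have h2 : (s34cg_iota K j V x)⁻¹ ∈ V := by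
    rw [← V.valuation_le_one_iff, map_inv₀, h1, inv_one]
  refine isUnit_iff_exists_inv.mpr
    ⟨s34cg_mk K j V _ (inv_mem (s34cg_iota_mem_adjoin x)) h2, ?_⟩
  apply s34cg_iota_injective
  rw [map_mul, s34cg_iota_mk, map_one]
  exact mul_inv_cancel₀ h0

theorem s34cg_dvd_of_nu (hϖ : Irreducible ϖ) (h : s34cg_IsGauss ϖ j V)
    (hm : algebraMap O ↥K⟮j⟯ ϖ ∈ V.comap (algebraMap ↥K⟮j⟯ F))
    (r : ↥(V.comap (algebraMap ↥K⟮j⟯ F)))
    (hr : algebraMap ↥K⟮j⟯ F (r : ↥K⟮j⟯) ∈ V.nonunits) :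
    (⟨algebraMap O ↥K⟮j⟯ ϖ, hm⟩ : ↥(V.comap (algebraMap ↥K⟮j⟯ F))) ∣ r := by
  obtain ⟨P, Q, hQ, hPQ⟩ :=
    s34cg_form_nu (K := K) hϖ h (s34cg_iota K j V r) (s34cg_iota_mem_adjoin r) hr
  refine ⟨s34cg_mk K j V (aeval j P / aeval j Q)
    (div_mem (s34cg_aeval_mem_adjoin j P) (s34cg_aeval_mem_adjoin j Q))
    (s34cg_div_mem h hQ (s34cg_aeval_mem h P)), ?_⟩
  apply s34cg_iota_injective
  rw [map_mul, s34cg_iota_mk, s34cg_iota_unif, mul_div_assoc', ← hPQ,
    mul_div_assoc, div_self (s34cg_aeval_ne_zero h hQ), mul_one]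

theorem s34cg_unif_not_isUnit (h : s34cg_IsGauss ϖ j V)
    (hm : algebraMap O ↥K⟮j⟯ ϖ ∈ V.comap (algebraMap ↥K⟮j⟯ F)) :
    ¬ IsUnit (⟨algebraMap O ↥K⟮j⟯ ϖ, hm⟩ : ↥(V.comap (algebraMap ↥K⟮j⟯ F))) := by
  intro hu
  obtain ⟨z, hz⟩ := isUnit_iff_exists_inv.mp hu
  have h1 := congrArg (s34cg_iota K j V) hz
  rw [map_mul, s34cg_iota_unif, map_one] at h1
  have h2 : algebraMap O F ϖ * s34cg_iota K j V z ∈ V.nonunits :=
    s34ca_nu_mul' V h.nonunit (s34cg_iota_mem z)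
  rw [h1] at h2
  exact s34ca_one_not_nu V h2

theorem s34cg_irreducible (hϖ : Irreducible ϖ) (h : s34cg_IsGauss ϖ j V)
    (hm : algebraMap O ↥K⟮j⟯ ϖ ∈ V.comap (algebraMap ↥K⟮j⟯ F)) :
    Irreducible (⟨algebraMap O ↥K⟮j⟯ ϖ, hm⟩ : ↥(V.comap (algebraMap ↥K⟮j⟯ F))) := by
  have hnu := s34cg_unif_not_isUnit (K := K) h hm
  have hπ0 : (⟨algebraMap O ↥K⟮j⟯ ϖ, hm⟩ : ↥(V.comap (algebraMap ↥K⟮j⟯ F))) ≠ 0 := by
    intro h0
    have h1 := congrArg (s34cg_iota K j V) h0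
    rw [s34cg_iota_unif, map_zero] at h1
    exact s34cg_algebraMap_ne_zero (K := K) hϖ.ne_zero h1
  rw [irreducible_iff]
  refine ⟨hnu, fun a b hab => ?_⟩
  by_contra hcon
  rw [not_or] at hcon
  have ha : s34cg_iota K j V a ∈ V.nonunits := by
    by_contra hna
    exact hcon.1 (s34cg_isUnit_of_not_nu a hna)
  have hb : s34cg_iota K j V b ∈ V.nonunits := by
    by_contra hnb
    exact hcon.2 (s34cg_isUnit_of_not_nu b hnb)
  obtain ⟨a', ha'⟩ := s34cg_dvd_of_nu hϖ h hm a ha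
  obtain ⟨b', hb'⟩ := s34cg_dvd_of_nu hϖ h hm b hb
  have h1 : (⟨algebraMap O ↥K⟮j⟯ ϖ, hm⟩ : ↥(V.comap (algebraMap ↥K⟮j⟯ F))) *
      (⟨algebraMap O ↥K⟮j⟯ ϖ, hm⟩ * (a' * b')) =
      (⟨algebraMap O ↥K⟮j⟯ ϖ, hm⟩ : ↥(V.comap (algebraMap ↥K⟮j⟯ F))) * 1 := by
    rw [mul_one]
    conv_rhs => rw [hab, ha', hb']
    ring
  exact hnu (IsUnit.of_mul_eq_one _ (mul_left_cancel₀ hπ0 h1))

/-- **(c)** of [GAUSS-FORM]: the Gauss ring is a discrete valuation ring. -/
theorem s34cg_dvr (hϖ : Irreducible ϖ) (h : s34cg_IsGauss ϖ j V) :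
    IsDiscreteValuationRing ↥(V.comap (algebraMap ↥K⟮j⟯ F)) := by
  refine IsDiscreteValuationRing.ofHasUnitMulPowIrreducibleFactorization
    ⟨⟨algebraMap O ↥K⟮j⟯ ϖ, s34cg_unif_mem h⟩, s34cg_irreducible hϖ h _, ?_⟩
  intro x hx
  have hx0 : s34cg_iota K j V x ≠ 0 := by
    intro h0
    exact hx (s34cg_iota_injective (by rw [h0, map_zero]))
  obtain ⟨n, P, Q, hP, hQ, hPQ⟩ :=
    s34cg_normal_mem (K := K) hϖ h _ (s34cg_iota_mem_adjoin x) hx0 (s34cg_iota_mem x)
  refine ⟨n, ?_⟩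
  have hP0 := s34cg_aeval_ne_zero h hP
  have hQ0 := s34cg_aeval_ne_zero h hQ
  have hu : IsUnit (s34cg_mk K j V (aeval j P / aeval j Q)
      (div_mem (s34cg_aeval_mem_adjoin j P) (s34cg_aeval_mem_adjoin j Q))
      (s34cg_div_mem h hQ (s34cg_aeval_mem h P))) := by
    refine isUnit_iff_exists_inv.mpr ⟨s34cg_mk K j V (aeval j Q / aeval j P)
      (div_mem (s34cg_aeval_mem_adjoin j Q) (s34cg_aeval_mem_adjoin j P))
      (s34cg_div_mem h hP (s34cg_aeval_mem h Q)), ?_⟩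
    apply s34cg_iota_injective
    rw [map_mul, s34cg_iota_mk, s34cg_iota_mk, map_one]
    field_simp
  refine ⟨hu.unit, ?_⟩
  apply s34cg_iota_injective
  rw [map_mul, map_pow, s34cg_iota_unif, IsUnit.unit_spec, s34cg_iota_mk, mul_div_assoc',
    ← hPQ, mul_div_assoc, div_self hQ0, mul_one]

end GaussForm

end Fermat.Agent.S34
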