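/-
S34 / [GAUSS-FORM] (d) = [S-LOC] (leaf of [SS-COUNT]; asked by helper26, written by helper22).
Prefix `s34cg_`.  Mathlib only (+ S34/GaussForm).

* `s34cg_common_denom` : finitely many elements of `K(j) ∩ V` have a common denominator `t(j)`,
                         `t : O[X]` of nonzero reduction;
* `s34cg_sloc`         : an element `x` integral over the Gauss ring `K(j) ∩ V` has a multiple
                         `t(j) x`, `t` of nonzero reduction, integral over `O[j]`.
-/
import Mathlib
import Fermat.Agent.S34.GaussForm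

set_option autoImplicit false
set_option linter.unusedSectionVars false
set_option linter.style.haveILetI false
set_option linter.unnecessarySimpa false

namespace Fermat.Agent.S34

open Polynomial IntermediateField

section GaussFormInt

variable {O K F : Type*} [CommRing O] [IsDomain O] [IsDiscreteValuationRing O] [Field K]
  [Algebra O K] [IsFractionRing O K] [Field F] [Algebra K F] [Algebra O F] [IsScalarTower O K F]

variable {ϖ : O} {j : F} {V V' : ValuationSubring F}

include K in
/-- A common denominator for finitely many elements of `K(j) ∩ V`. -/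
theorem s34cg_common_denom (hϖ : Irreducible ϖ) (h : s34cg_IsGauss ϖ j V) {ι : Type*}
    (s : Finset ι) (f : ι → F) (hf : ∀ i ∈ s, f i ∈ K⟮j⟯ ∧ f i ∈ V) :
    ∃ t : O[X], t.map (IsLocalRing.residue O) ≠ 0 ∧
      ∀ i ∈ s, ∃ c : O[X], aeval j t * f i = aeval j c := by
  classical
  induction s using Finset.induction_on with
  | empty => exact ⟨1, s34cg_map_one_ne_zero, fun i hi => absurd hi (Finset.notMem_empty i)⟩
  | insert a s ha ih =>
    obtain ⟨t₀, ht₀, hc₀⟩ := ih fun i hi => hf i (Finset.mem_insert_of_mem hi)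
    obtain ⟨P, Q, hQ, hPQ⟩ := s34cg_form (K := K) hϖ h (f a)
      (hf a (Finset.mem_insert_self a s)).1 (hf a (Finset.mem_insert_self a s)).2
    refine ⟨Q * t₀, s34cg_map_mul_ne_zero hQ ht₀, fun i hi => ?_⟩
    rcases Finset.mem_insert.mp hi with rfl | hi
    · refine ⟨t₀ * P, ?_⟩
      rw [map_mul, map_mul, ← hPQ]
      ring
    · obtain ⟨c, hc⟩ := hc₀ i hi
      refine ⟨Q * c, ?_⟩
      rw [map_mul, map_mul, ← hc]
      ring

/-- A monic polynomial over `F` with coefficients in a subalgebra and a root `y` shows that `y`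
is integral over the subalgebra. -/
theorem s34cg_isIntegral_of_coeff_mem (A : Subalgebra O F) (q : F[X]) (hq : q.Monic)
    (hc : ∀ i, q.coeff i ∈ A) {y : F} (hy : q.eval y = 0) : IsIntegral ↥A y := by
  have hl : q ∈ Polynomial.lifts (algebraMap ↥A F) := by
    rw [Polynomial.lifts_iff_coeff_lifts]
    intro i
    exact ⟨⟨q.coeff i, hc i⟩, rfl⟩
  obtain ⟨q₀, hq₀, -, hmon⟩ := Polynomial.lifts_and_degree_eq_and_monic hl hq
  refine ⟨q₀, hmon, ?_⟩
  rw [← Polynomial.eval_map, hq₀]
  exact hy

include K in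
/-- **(d)** of [GAUSS-FORM] = [S-LOC]: the integral closure of the Gauss ring is the localisation
of the integral closure of `O[j]` at the polynomials of nonzero reduction. -/
theorem s34cg_sloc (hϖ : Irreducible ϖ) (h : s34cg_IsGauss ϖ j V)
    [Algebra ↥(V.comap (algebraMap ↥K⟮j⟯ F)) F]
    [IsScalarTower ↥(V.comap (algebraMap ↥K⟮j⟯ F)) ↥K⟮j⟯ F]
    (x : F) (hx : IsIntegral ↥(V.comap (algebraMap ↥K⟮j⟯ F)) x) :
    ∃ t : Polynomial O, t.map (IsLocalRing.residue O) ≠ 0 ∧
      IsIntegral ↥(Algebra.adjoin O {j}) (Polynomial.aeval j t * x) := by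
  obtain ⟨p, hp, hpx⟩ := hx
  have halg : ∀ r : ↥(V.comap (algebraMap ↥K⟮j⟯ F)),
      algebraMap ↥(V.comap (algebraMap ↥K⟮j⟯ F)) F r = s34cg_iota K j V r := by
    intro r
    rw [IsScalarTower.algebraMap_apply ↥(V.comap (algebraMap ↥K⟮j⟯ F)) ↥K⟮j⟯ F]
    rfl
  -- the polynomial over `F`
  set pF : F[X] := p.map (algebraMap ↥(V.comap (algebraMap ↥K⟮j⟯ F)) F) with hpF
  have hpFm : pF.Monic := hp.map _
  have hpFx : pF.eval x = 0 := by
    rw [hpF, Polynomial.eval_map]
    exact hpx
  -- a common denominator of the coefficients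
  obtain ⟨t, ht, hc⟩ := s34cg_common_denom (K := K) hϖ h (Finset.range pF.natDegree)
    (fun i => pF.coeff i) (fun i _ => by
      rw [hpF, Polynomial.coeff_map, halg]
      exact ⟨s34cg_iota_mem_adjoin _, s34cg_iota_mem _⟩)
  refine ⟨t, ht, ?_⟩
  refine s34cg_isIntegral_of_coeff_mem (Algebra.adjoin O {j}) (scaleRoots pF (aeval j t))
    ((monic_scaleRoots_iff _).mpr hpFm) ?_ ?_
  · intro i
    rw [coeff_scaleRoots]
    rcases lt_or_ge i pF.natDegree with hi | hi
    · obtain ⟨c, hc⟩ := hc i (Finset.mem_range.mpr hi)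
      obtain ⟨m, hm⟩ : ∃ m, pF.natDegree - i = m + 1 := ⟨pF.natDegree - i - 1, by omega⟩
      have h1 : pF.coeff i * aeval j t ^ (pF.natDegree - i) = aeval j c * aeval j t ^ m := by
        rw [hm, pow_succ, ← hc]
        ring
      rw [h1]
      exact mul_mem (Polynomial.aeval_mem_adjoin_singleton O j)
        (pow_mem (Polynomial.aeval_mem_adjoin_singleton O j) m)
    · rw [Nat.sub_eq_zero_of_le hi, pow_zero, mul_one]
      rcases eq_or_lt_of_le hi with hi | hi
      · rw [← hi, hpFm.coeff_natDegree]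
        exact one_mem _
      · rw [Polynomial.coeff_eq_zero_of_natDegree_lt hi]
        exact zero_mem _
  · have h1 := scaleRoots_aeval_eq_zero (p := pF) (a := x) (r := aeval j t)
      (by rw [Polynomial.coe_aeval_eq_eval]; exact hpFx)
    rw [Polynomial.coe_aeval_eq_eval] at h1
    exact h1

end GaussFormInt

end Fermat.Agent.S34
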