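/-
S34, sub-leaf **[K-EV-ORD]** of [K-PLACES] (helper10).  Prefix `s34ev_`.

THE SEAM BETWEEN [LOC-GLOB] (`s34lg_IsGen`, helper4) AND THE PRODUCT OF THE LOCAL GENERATORS
(`s34l1_prod`, helper29).  `B` a chart, `Q` a place of `F / K` with `B ⊆ O_Q` and centre `q` on
`B` (`b ∈ q ↔ b = 0 ∨ 0 < ord_Q b`), every unit of `O_Q` a quotient of two elements of `B ∖ q`
(the dictionary [LOC-UNIT] (B) / S18 [PP]); `ev : B → O` an `O`-point with kernel `q` and
`n = ev⁻¹ 𝔪_O`; `g` a local generator of `ev` at `n` (`s34lg_IsGen n ev ϖ g j`).  Then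

* `s34ev_ord_gen`       : `ord_Q g = 1`;
* `s34ev_ord_gen_other` : `ord_Q' g = 0` for every place `Q' ≠ Q` with `B ⊆ O_Q'` and centre
  inside `n`.
-/
import Mathlib
import Fermat.Prelude.Def_AlgebraicCurve_DivisorClassGroup
import Fermat.Agent.S24.PlaceBasic
import Fermat.Agent.S34.LocGlob
import Fermat.Agent.S34.KEv

set_option autoImplicit false

open AlgebraicCurve

namespace Fermat.Agent.S34

open Fermat.Agent.S24

/-! ### Orders on a chart -/

section Chart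

variable {K F B : Type*} [Field K] [Field F] [Algebra K F] [CommRing B] [Algebra B F]
  (Q : Place K F) (q : Ideal B)

/-- The elements of the chart outside the centre of `Q` have order `0`. -/
theorem s34ev_ord_eq_zero_of_not_mem (hB : ∀ b : B, 0 ≤ Q.ord (algebraMap B F b))
    (hq : ∀ b : B, b ∈ q ↔ b = 0 ∨ 0 < Q.ord (algebraMap B F b)) {b : B} (hb : b ∉ q) :
    Q.ord (algebraMap B F b) = 0 := by
  have h1 := hB b
  have h2 : ¬ 0 < Q.ord (algebraMap B F b) := fun h => hb ((hq b).2 (Or.inr h))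
  omega

/-- The non-zero elements of the centre of `Q` have positive order. -/
theorem s34ev_ord_pos_of_mem
    (hq : ∀ b : B, b ∈ q ↔ b = 0 ∨ 0 < Q.ord (algebraMap B F b)) {b : B} (hb : b ∈ q)
    (hb0 : b ≠ 0) : 0 < Q.ord (algebraMap B F b) :=
  ((hq b).1 hb).resolve_left hb0

/-- An element of `F` which is a quotient of two elements of the chart outside the centre of `Q`
has order `0`. -/
theorem s34ev_ord_eq_zero_of_frac (hinj : Function.Injective (algebraMap B F))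
    (hB : ∀ b : B, 0 ≤ Q.ord (algebraMap B F b))
    (hq : ∀ b : B, b ∈ q ↔ b = 0 ∨ 0 < Q.ord (algebraMap B F b)) {x : F} {y z : B}
    (hy : y ∉ q) (hz : z ∉ q) (h : x * algebraMap B F z = algebraMap B F y) : Q.ord x = 0 := by
  have hz0 : algebraMap B F z ≠ 0 := fun h0 =>
    hz (by rw [hinj (h0.trans (map_zero _).symm)]; exact q.zero_mem)
  have hy0 : algebraMap B F y ≠ 0 := fun h0 =>
    hy (by rw [hinj (h0.trans (map_zero _).symm)]; exact q.zero_mem)
  have hx0 : x ≠ 0 := by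
    rintro rfl
    rw [zero_mul] at h
    exact hy0 h.symm
  have h1 := congrArg Q.ord h
  rw [Q.ord_mul hx0 hz0, s34ev_ord_eq_zero_of_not_mem Q q hB hq hz,
    s34ev_ord_eq_zero_of_not_mem Q q hB hq hy] at h1
  omega

/-- The chart contains a uniformizer of `Q`. -/
theorem s34ev_exists_uniformizer (hinj : Function.Injective (algebraMap B F))
    (hB : ∀ b : B, 0 ≤ Q.ord (algebraMap B F b))
    (hq : ∀ b : B, b ∈ q ↔ b = 0 ∨ 0 < Q.ord (algebraMap B F b))
    (hunit : ∀ x : F, x ≠ 0 → Q.ord x = 0 →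
      ∃ y z : B, y ∉ q ∧ z ∉ q ∧ x * algebraMap B F z = algebraMap B F y) :
    ∃ t : B, t ∈ q ∧ Q.ord (algebraMap B F t) = 1 := by
  obtain ⟨π, hπ⟩ := place_exists_irreducible Q
  have hπ1 : Q.ord (π : F) = 1 := Q.ord_coe_irreducible hπ
  have hπ0 : (π : F) ≠ 0 := by
    intro h
    rw [h, Q.ord_zero] at hπ1
    exact zero_ne_one hπ1
  have h1 : Q.ord ((1 : F) + (π : F)) = 0 := by
    rw [place_ord_add_eq_of_lt Q one_ne_zero hπ0 (by rw [Q.ord_one, hπ1]; exact zero_lt_one),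
      Q.ord_one]
  have h10 : (1 : F) + (π : F) ≠ 0 := by
    intro h
    have h2 : (π : F) = -1 := by rw [← add_eq_zero_iff_eq_neg']; exact h
    rw [h2, place_ord_neg, Q.ord_one] at hπ1
    exact zero_ne_one hπ1
  obtain ⟨y, z, hy, hz, hyz⟩ := hunit _ h10 h1
  have hz0 : algebraMap B F z ≠ 0 := fun h0 =>
    hz (by rw [hinj (h0.trans (map_zero _).symm)]; exact q.zero_mem)
  have e : algebraMap B F (y - z) = (π : F) * algebraMap B F z := by
    rw [map_sub, ← hyz]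
    ring
  have hord : Q.ord (algebraMap B F (y - z)) = 1 := by
    rw [e, Q.ord_mul hπ0 hz0, hπ1, s34ev_ord_eq_zero_of_not_mem Q q hB hq hz, add_zero]
  exact ⟨y - z, (hq _).2 (Or.inr (by rw [hord]; exact zero_lt_one)), hord⟩

end Chart

/-! ### The orders of a local generator -/

section Gen

variable {O K F B : Type*} [CommRing O] [IsDomain O] [IsDiscreteValuationRing O] [Field K]
  [Algebra O K] [Field F] [Algebra K F] [Algebra O F] [IsScalarTower O K F]
  [CommRing B] [IsDomain B] [Algebra O B] [Algebra B F] [IsFractionRing B F]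
  [IsScalarTower O B F]

omit [IsDomain O] [IsDiscreteValuationRing O] [IsDomain B] [IsFractionRing B F] in
/-- The uniformizer of `O` has order `0` at every place of `F / K`. -/
theorem s34ev_ord_pi (Q : Place K F) (ϖ : O) :
    Q.ord (algebraMap B F (algebraMap O B ϖ)) = 0 := by
  rw [← IsScalarTower.algebraMap_apply O B F, IsScalarTower.algebraMap_apply O K F]
  exact place_ord_algebraMap Q _

/-- **[K-EV-ORD] (a)**: a local generator of the `O`-point of `Q` has order `1` at `Q`. -/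
theorem s34ev_ord_gen (Q : Place K F) (q : Ideal B)
    (hB : ∀ b : B, 0 ≤ Q.ord (algebraMap B F b))
    (hq : ∀ b : B, b ∈ q ↔ b = 0 ∨ 0 < Q.ord (algebraMap B F b))
    (hunit : ∀ x : F, x ≠ 0 → Q.ord x = 0 →
      ∃ y z : B, y ∉ q ∧ z ∉ q ∧ x * algebraMap B F z = algebraMap B F y)
    (n : Ideal B) (ev : B →ₐ[O] O) (hker : ∀ b, ev b = 0 ↔ b ∈ q)
    (hn : ∀ b, b ∈ n ↔ ev b ∈ IsLocalRing.maximalIdeal O)
    {ϖ : O} (hϖ : ϖ ≠ 0) {g : F} {j : ℕ} (hg : s34lg_IsGen n ev ϖ g j) : Q.ord g = 1 := by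
  have hinj : Function.Injective (algebraMap B F) := IsFractionRing.injective B F
  have hqn : ∀ b : B, b ∉ n → b ∉ q := by
    intro b hb hbq
    apply hb
    rw [hn, (hker b).2 hbq]
    exact Ideal.zero_mem _
  have hmap0 : ∀ b : B, b ≠ 0 → algebraMap B F b ≠ 0 := fun b hb h0 =>
    hb (hinj (h0.trans (map_zero _).symm))
  have hne0 : ∀ b : B, b ∉ q → b ≠ 0 := by
    rintro b hb rfl
    exact hb q.zero_mem
  obtain ⟨hg0, ⟨b₀, s₀, hs₀, hb₀, hbs⟩, hgen⟩ := hg
  -- `ord g ≥ 1`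
  have hs₀q : s₀ ∉ q := hqn s₀ hs₀
  have hs₀0 : algebraMap B F s₀ ≠ 0 := hmap0 s₀ (hne0 s₀ hs₀q)
  have hb₀0 : b₀ ≠ 0 := by
    rintro rfl
    rw [map_zero] at hbs
    exact (mul_ne_zero hg0 hs₀0) hbs
  have h1 : Q.ord g = Q.ord (algebraMap B F b₀) := by
    have h := congrArg Q.ord hbs
    rw [Q.ord_mul hg0 hs₀0, s34ev_ord_eq_zero_of_not_mem Q q hB hq hs₀q, add_zero] at h
    exact h
  have h2 : 0 < Q.ord g := by
    rw [h1]
    exact s34ev_ord_pos_of_mem Q q hq ((hker b₀).1 hb₀) hb₀0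
  -- `ord g ≤ 1`
  obtain ⟨t, htq, ht1⟩ := s34ev_exists_uniformizer Q q hinj hB hq hunit
  have ht0 : algebraMap B F t ≠ 0 := by
    intro h
    rw [h, Q.ord_zero] at ht1
    exact zero_ne_one ht1
  obtain ⟨c, s, hs, hcs⟩ := hgen t ((hker t).2 htq)
  have hsq : s ∉ q := hqn s hs
  have hs0 : algebraMap B F s ≠ 0 := hmap0 s (hne0 s hsq)
  have hϖ0 : algebraMap B F (algebraMap O B ϖ) ≠ 0 := by
    apply hmap0
    intro h
    have h3 : ev (algebraMap O B ϖ) = 0 := by rw [h, map_zero]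
    rw [AlgHom.commutes, Algebra.algebraMap_self, RingHom.id_apply] at h3
    exact hϖ h3
  have hc0 : algebraMap B F c ≠ 0 := by
    intro h
    rw [h, zero_mul] at hcs
    exact (mul_ne_zero (mul_ne_zero (pow_ne_zero j hϖ0) ht0) hs0) hcs
  have h3 := congrArg Q.ord hcs
  rw [Q.ord_mul (mul_ne_zero (pow_ne_zero j hϖ0) ht0) hs0,
    Q.ord_mul (pow_ne_zero j hϖ0) ht0, place_ord_pow, s34ev_ord_pi Q ϖ, mul_zero, zero_add, ht1,
    s34ev_ord_eq_zero_of_not_mem Q q hB hq hsq, Q.ord_mul hc0 hg0] at h3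
  have h4 := hB c
  omega

/-- **[K-EV-ORD] (b)**: a local generator of the `O`-point of `Q` has order `0` at every other
place `Q'` with `B ⊆ O_Q'` and centre inside `n`. -/
theorem s34ev_ord_gen_other (Q : Place K F) (q : Ideal B)
    (hB : ∀ b : B, 0 ≤ Q.ord (algebraMap B F b))
    (hq : ∀ b : B, b ∈ q ↔ b = 0 ∨ 0 < Q.ord (algebraMap B F b))
    (n : Ideal B) (ev : B →ₐ[O] O) (hker : ∀ b, ev b = 0 ↔ b ∈ q)
    {ϖ : O} (hϖ : ϖ ≠ 0) {g : F} {j : ℕ} (hg : s34lg_IsGen n ev ϖ g j)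
    (Q' : Place K F) (hne : Q' ≠ Q) (q' : Ideal B)
    (hB' : ∀ b : B, 0 ≤ Q'.ord (algebraMap B F b))
    (hq' : ∀ b : B, b ∈ q' ↔ b = 0 ∨ 0 < Q'.ord (algebraMap B F b))
    (hunit' : ∀ x : F, x ≠ 0 → Q'.ord x = 0 →
      ∃ y z : B, y ∉ q' ∧ z ∉ q' ∧ x * algebraMap B F z = algebraMap B F y)
    (hq'n : q' ≤ n) : Q'.ord g = 0 := by
  have hinj : Function.Injective (algebraMap B F) := IsFractionRing.injective B F
  have hmap0 : ∀ b : B, b ≠ 0 → algebraMap B F b ≠ 0 := fun b hb h0 =>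
    hb (hinj (h0.trans (map_zero _).symm))
  have hne0 : ∀ b : B, b ∉ q' → b ≠ 0 := by
    rintro b hb rfl
    exact hb q'.zero_mem
  -- the centre of `Q` is not contained in the centre of `Q'`
  have hnle : ¬ q ≤ q' := by
    intro hle
    apply hne
    apply place_eq_of_le
    intro x hx
    have hx' : 0 ≤ Q'.ord x := place_ord_nonneg_of_mem Q' hx
    apply place_mem_of_ord_nonneg
    -- units of `O_Q'` lie in `O_Q`
    have hU : ∀ x : F, x ≠ 0 → Q'.ord x = 0 → 0 ≤ Q.ord x := by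
      intro x hx0 hx1
      obtain ⟨y, z, hy, hz, hyz⟩ := hunit' x hx0 hx1
      have hzq : z ∉ q := fun h => hz (hle h)
      have hz0 : algebraMap B F z ≠ 0 := hmap0 z (hne0 z hz)
      have h := congrArg Q.ord hyz
      rw [Q.ord_mul hx0 hz0, s34ev_ord_eq_zero_of_not_mem Q q hB hq hzq, add_zero] at h
      rw [h]
      exact hB y
    rcases eq_or_ne x 0 with rfl | hx0
    · rw [Q.ord_zero]
    rcases eq_or_lt_of_le hx' with h0 | hpos
    · exact hU x hx0 h0.symm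
    · -- `1 + x` is a unit of `O_Q'`
      have h1 : Q'.ord ((1 : F) + x) = 0 := by
        rw [place_ord_add_eq_of_lt Q' one_ne_zero hx0 (by rw [Q'.ord_one]; exact hpos),
          Q'.ord_one]
      have h10 : (1 : F) + x ≠ 0 := by
        intro h
        have h2 : x = -1 := by rw [← add_eq_zero_iff_eq_neg']; exact h
        rw [h2, place_ord_neg, Q'.ord_one] at hpos
        exact lt_irrefl _ hpos
      have h2 : (1 : F) + x ∈ Q.toValuationSubring :=
        place_mem_of_ord_nonneg Q (hU _ h10 h1)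
      have h3 : x = (1 + x) - 1 := by ring
      rw [h3]
      exact place_ord_nonneg_of_mem Q (sub_mem h2 (one_mem _))
  obtain ⟨t, htq, htq'⟩ := Set.not_subset.1 hnle
  obtain ⟨hg0, ⟨b₀, s₀, hs₀, -, hbs⟩, hgen⟩ := hg
  have hs₀q : s₀ ∉ q' := fun h => hs₀ (hq'n h)
  have hs₀0 : algebraMap B F s₀ ≠ 0 := hmap0 s₀ (hne0 s₀ hs₀q)
  have h1 : 0 ≤ Q'.ord g := by
    have h := congrArg Q'.ord hbs
    rw [Q'.ord_mul hg0 hs₀0, s34ev_ord_eq_zero_of_not_mem Q' q' hB' hq' hs₀q, add_zero] at h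
    rw [h]
    exact hB' b₀
  obtain ⟨c, s, hs, hcs⟩ := hgen t ((hker t).2 htq)
  have hsq : s ∉ q' := fun h => hs (hq'n h)
  have hs0 : algebraMap B F s ≠ 0 := hmap0 s (hne0 s hsq)
  have ht0 : algebraMap B F t ≠ 0 := hmap0 t (hne0 t htq')
  have hϖ0 : algebraMap B F (algebraMap O B ϖ) ≠ 0 := by
    apply hmap0
    intro h
    have h3 : ev (algebraMap O B ϖ) = 0 := by rw [h, map_zero]
    rw [AlgHom.commutes, Algebra.algebraMap_self, RingHom.id_apply] at h3
    exact hϖ h3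
  have hlhs : algebraMap B F (algebraMap O B ϖ) ^ j * algebraMap B F t * algebraMap B F s ≠ 0 :=
    mul_ne_zero (mul_ne_zero (pow_ne_zero j hϖ0) ht0) hs0
  have hc0 : algebraMap B F c ≠ 0 := by
    intro h
    rw [h, zero_mul] at hcs
    exact hlhs hcs
  have h3 := congrArg Q'.ord hcs
  rw [Q'.ord_mul (mul_ne_zero (pow_ne_zero j hϖ0) ht0) hs0,
    Q'.ord_mul (pow_ne_zero j hϖ0) ht0, place_ord_pow, s34ev_ord_pi Q' ϖ, mul_zero, zero_add,
    s34ev_ord_eq_zero_of_not_mem Q' q' hB' hq' htq',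
    s34ev_ord_eq_zero_of_not_mem Q' q' hB' hq' hsq, Q'.ord_mul hc0 hg0] at h3
  have h4 := hB' c
  omega

end Gen

end Fermat.Agent.S34
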