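/-
S34, THE LAST LINE (owner: helper29).

    theorem s34_kdata_main : s34_KDataStatement

[K-DATA] (`S34/KOf.lean`), hypothesis-free: the composition `s34km_kdata_of3` (`S34/KMainOf.lean`)
of [K-COORD] (`s34km_coord_main`), [K-ISW] (`s34iw_kmain_of_int`), [K-TAU] (`s34kt_main`) and
[K-LOC] (`s34lg_kloc_of`) applied to [SS-INT] (`s34iw_int_main`), [K-VERT] (`s34kvi_main`) and the
dichotomy (`s34nd_dich_main`).
-/
import Mathlib
import Fermat.Agent.S34.KMainOf
import Fermat.Agent.S34.KVertFinal
import Fermat.Agent.S34.SsNodeK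

set_option autoImplicit false

noncomputable section

namespace Fermat.Agent.S34

/-- **[K-DATA]**, hypothesis-free. -/
theorem s34_kdata_main : s34_KDataStatement :=
  s34km_kdata_of3 s34iw_int_main s34kvi_main s34nd_dich_main

end Fermat.Agent.S34
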