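/-
S34, seam **[K-VERT]** (helper10).  Prefix `s34kv_`.

THE VERTICAL PRIMES OF THE CHART.  `B` a domain with field of fractions `F`, `π ∈ B`,
`V₁ ≠ V₂` two valuation subrings of `F` containing `B` (the two branches `V_∞`, `V_0`), in both
of which `π` is a uniformizer (`hpow`), such that

* `hden`: every `x ∈ V₁ ∩ V₂` has a denominator `t ∈ B` which is a unit of `V₁` and of `V₂`
  ([COUNT] (C2));
* `hsat`: `w ∈ V₁ ∩ V₂`, `π w ∈ B` imply `w ∈ B` ([COUNT] (C3), `sat` of `s34l_IsW`).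

Then, with `p_i = B ∩ 𝔪_{V_i}` (`s34kv_p`):

* `s34kv_frac`  : `V_i` is the localisation of `B` at `p_i`;
* `s34kv_hDVR`  : the hypothesis `hDVR` of `s34l1_place_main`, VERBATIM, for `𝒱 = {p₁, p₂}`;
* `s34kv_inf_le`: `p₁ ⊓ p₂ ≤ (π)`  (`hcap` of `s34nd_core`);
* `s34kv_hV`    : the hypothesis `hV` of `s34l1_place_main`: a prime of height one containing
  `π` is `p₁` or `p₂`;
* `s34kv_hW`    : an element which is a fraction with denominator outside `p_i` for `i = 1, 2`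
  lies in `V₁ ∩ V₂`.
-/
import Mathlib
import Fermat.Agent.S34.Loc1Abs
import Fermat.Agent.S34.Loc1Place

set_option autoImplicit false
set_option linter.unusedSectionVars false

namespace Fermat.Agent.S34

section Centre

variable {F B : Type} [Field F] [CommRing B] [Algebra B F]

/-- The centre on `B` of a valuation subring of `F` containing `B`. -/
def s34kv_p (V : ValuationSubring F) (hB : ∀ b : B, algebraMap B F b ∈ V) : Ideal B :=
  Ideal.comap ((algebraMap B F).codRestrict V.toSubring hB) (IsLocalRing.maximalIdeal ↥V)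

theorem s34kv_mem_p (V : ValuationSubring F) (hB : ∀ b : B, algebraMap B F b ∈ V) (b : B) :
    b ∈ s34kv_p V hB ↔ V.valuation (algebraMap B F b) < 1 := by
  rw [s34kv_p, Ideal.mem_comap, ValuationSubring.valuation_lt_one_iff]
  rfl

theorem s34kv_mem_p' (V : ValuationSubring F) (hB : ∀ b : B, algebraMap B F b ∈ V) (b : B) :
    b ∈ s34kv_p V hB ↔ algebraMap B F b ∈ V.nonunits := by
  rw [s34kv_mem_p, ValuationSubring.mem_nonunits_iff]

theorem s34kv_not_mem_p (V : ValuationSubring F) (hB : ∀ b : B, algebraMap B F b ∈ V) (b : B) :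
    b ∉ s34kv_p V hB ↔ V.valuation (algebraMap B F b) = 1 := by
  rw [s34kv_mem_p]
  have h := (V.valuation_le_one_iff (algebraMap B F b)).2 (hB b)
  constructor
  · intro h1
    exact le_antisymm h (not_lt.1 h1)
  · intro h1
    rw [h1]
    exact lt_irrefl _

instance s34kv_p_isPrime (V : ValuationSubring F) (hB : ∀ b : B, algebraMap B F b ∈ V) :
    (s34kv_p V hB).IsPrime :=
  Ideal.comap_isPrime _ _

end Centre

section Unif

variable {F : Type} [Field F] (V : ValuationSubring F) (ϖ : F)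

/-- `ϖ` is a uniformizer of `V`: every non-zero element is `ϖ ^ c * u` with `u` a unit. -/
def s34kv_IsUnif : Prop :=
  ϖ ∈ V.nonunits ∧ ∀ h : F, h ≠ 0 → ∃ (c : ℤ) (u : F), u ∈ V ∧ u⁻¹ ∈ V ∧ h = ϖ ^ c * u

variable {V ϖ}

theorem s34kv_val_unit {u : F} (hu0 : u ≠ 0) (hu : u ∈ V) (hu' : u⁻¹ ∈ V) :
    V.valuation u = 1 := by
  have h1 := (V.valuation_le_one_iff u).2 hu
  have h2 := (V.valuation_le_one_iff u⁻¹).2 hu'
  rw [map_inv₀] at h2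
  have h0 : V.valuation u ≠ 0 := (Valuation.ne_zero_iff _).2 hu0
  rw [inv_le_one₀ (zero_lt_iff.2 h0)] at h2
  exact le_antisymm h1 h2

theorem s34kv_unif_mem (hV : s34kv_IsUnif V ϖ) : ϖ ∈ V :=
  (V.valuation_le_one_iff ϖ).1 (le_of_lt ((ValuationSubring.mem_nonunits_iff V).1 hV.1))

theorem s34kv_unif_ne_zero (hV : s34kv_IsUnif V ϖ) (hne : V ≠ ⊤) : ϖ ≠ 0 := by
  rintro rfl
  apply hne
  refine SetLike.ext fun x => ⟨fun _ => ValuationSubring.mem_top x, fun _ => ?_⟩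
  rcases eq_or_ne x 0 with rfl | hx
  · exact zero_mem _
  obtain ⟨c, u, hu, -, rfl⟩ := hV.2 x hx
  rcases eq_or_ne c 0 with rfl | hc
  · rw [zpow_zero, one_mul]
    exact hu
  · rw [zero_zpow c hc, zero_mul]
    exact zero_mem _

/-- A power of `ϖ` with negative exponent has valuation `> 1`. -/
theorem s34kv_nonneg_of_le (hV : s34kv_IsUnif V ϖ) (hϖ : ϖ ≠ 0) {c : ℤ}
    (h1 : V.valuation ϖ ^ c ≤ 1) : 0 ≤ c := by
  have hπ : V.valuation ϖ < 1 := (ValuationSubring.mem_nonunits_iff V).1 hV.1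
  have hπ0 : V.valuation ϖ ≠ 0 := (Valuation.ne_zero_iff _).2 hϖ
  by_contra hneg
  rw [not_le] at hneg
  obtain ⟨k, hk⟩ : ∃ k : ℕ, c = -((k : ℤ) + 1) := ⟨(-c - 1).toNat, by omega⟩
  rw [hk, zpow_neg, inv_le_one₀ (zero_lt_iff.2 (zpow_ne_zero _ hπ0))] at h1
  have h2 : V.valuation ϖ ^ ((k : ℤ) + 1) < 1 := by
    have e : V.valuation ϖ ^ ((k : ℤ) + 1) = V.valuation ϖ ^ (k + 1) := by
      rw [← zpow_natCast]
      push_cast
      rfl
    rw [e]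
    exact pow_lt_one₀ zero_le hπ (Nat.succ_ne_zero k)
  exact absurd h1 (not_le.2 h2)

/-- An element of `V` is `ϖ ^ c * u` with `c ≥ 0`. -/
theorem s34kv_exists_nat (hV : s34kv_IsUnif V ϖ) (hϖ : ϖ ≠ 0) {x : F} (hx : x ≠ 0)
    (hxV : x ∈ V) : ∃ (c : ℕ) (u : F), u ≠ 0 ∧ u ∈ V ∧ u⁻¹ ∈ V ∧ x = ϖ ^ c * u := by
  obtain ⟨c, u, hu, hu', rfl⟩ := hV.2 x hx
  have hu0 : u ≠ 0 := right_ne_zero_of_mul hx
  have h1 : V.valuation ϖ ^ c ≤ 1 := by
    have := (V.valuation_le_one_iff _).2 hxV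
    rwa [map_mul, map_zpow₀, s34kv_val_unit hu0 hu hu', mul_one] at this
  obtain ⟨k, rfl⟩ := Int.eq_ofNat_of_zero_le (s34kv_nonneg_of_le hV hϖ h1)
  exact ⟨k, u, hu0, hu, hu', by rw [zpow_natCast]⟩

/-- A non-unit of `V` is divisible by `ϖ`. -/
theorem s34kv_exists_mul (hV : s34kv_IsUnif V ϖ) (hϖ : ϖ ≠ 0) {x : F}
    (hx : x ∈ V.nonunits) : ∃ y ∈ V, x = ϖ * y := by
  rcases eq_or_ne x 0 with rfl | hx0
  · exact ⟨0, zero_mem _, by rw [mul_zero]⟩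
  have hx1 : V.valuation x < 1 := (ValuationSubring.mem_nonunits_iff V).1 hx
  have hxV : x ∈ V := (V.valuation_le_one_iff x).1 (le_of_lt hx1)
  obtain ⟨c, u, hu0, hu, hu', rfl⟩ := s34kv_exists_nat hV hϖ hx0 hxV
  rcases Nat.eq_zero_or_pos c with rfl | hc
  · exfalso
    rw [pow_zero, one_mul, s34kv_val_unit hu0 hu hu'] at hx1
    exact lt_irrefl _ hx1
  · obtain ⟨k, rfl⟩ : ∃ k, c = k + 1 := ⟨c - 1, by omega⟩
    refine ⟨ϖ ^ k * u, V.mul_mem _ _ (pow_mem (s34kv_unif_mem hV) k) hu, ?_⟩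
    rw [pow_succ]
    ring

/-- Two distinct valuation subrings with the same uniformizer are not comparable. -/
theorem s34kv_not_le_of_ne {V₁ V₂ : ValuationSubring F} (h₁ : s34kv_IsUnif V₁ ϖ)
    (h₂ : s34kv_IsUnif V₂ ϖ) (hϖ : ϖ ≠ 0) (hne : V₁ ≠ V₂) : ¬ V₁ ≤ V₂ := by
  intro hle
  apply hne
  apply le_antisymm hle
  intro x hx
  rcases eq_or_ne x 0 with rfl | hx0
  · exact zero_mem _
  obtain ⟨c, u, hu, hu', rfl⟩ := h₁.2 x hx0
  have hu0 : u ≠ 0 := right_ne_zero_of_mul hx0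
  have hu2 : V₂.valuation u = 1 := s34kv_val_unit hu0 (hle hu) (hle hu')
  have h1 : V₂.valuation ϖ ^ c ≤ 1 := by
    have := (V₂.valuation_le_one_iff _).2 hx
    rwa [map_mul, map_zpow₀, hu2, mul_one] at this
  obtain ⟨k, rfl⟩ := Int.eq_ofNat_of_zero_le (s34kv_nonneg_of_le h₂ hϖ h1)
  rw [zpow_natCast]
  exact V₁.mul_mem _ _ (pow_mem (s34kv_unif_mem h₁) k) hu

end Unif

section Main

variable {F B : Type} [Field F] [CommRing B] [IsDomain B] [Algebra B F] [IsFractionRing B F]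

/-- `hden`: every element of `V₁ ∩ V₂` has a denominator in `B` which is a unit of `V₁` and
of `V₂`. -/
def s34kv_HasDen (B : Type) [CommRing B] [Algebra B F] (V₁ V₂ : ValuationSubring F) : Prop :=
  ∀ x : F, x ∈ V₁ → x ∈ V₂ → ∃ t b : B, algebraMap B F t ∉ V₁.nonunits ∧
    algebraMap B F t ∉ V₂.nonunits ∧ algebraMap B F t * x = algebraMap B F b

omit [IsDomain B] [IsFractionRing B F] in
theorem s34kv_HasDen.symm {V₁ V₂ : ValuationSubring F} (h : s34kv_HasDen B V₁ V₂) :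
    s34kv_HasDen B V₂ V₁ := fun x h2 h1 => by
  obtain ⟨t, b, ht1, ht2, hb⟩ := h x h1 h2
  exact ⟨t, b, ht2, ht1, hb⟩

variable (π : B) {V₁ V₂ : ValuationSubring F}
  (hB₁ : ∀ b : B, algebraMap B F b ∈ V₁) (hB₂ : ∀ b : B, algebraMap B F b ∈ V₂)

omit [IsDomain B] [IsFractionRing B F] in
theorem s34kv_val_eq_one (V : ValuationSubring F) (hB : ∀ b : B, algebraMap B F b ∈ V) {t : B}
    (ht : algebraMap B F t ∉ V.nonunits) : V.valuation (algebraMap B F t) = 1 := by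
  rw [ValuationSubring.mem_nonunits_iff] at ht
  exact le_antisymm ((V.valuation_le_one_iff _).2 (hB t)) (not_lt.1 ht)

include hB₁ hB₂ in
/-- The centre of `V₂` is not contained in the centre of `V₁`. -/
theorem s34kv_exists_not_mem (hπ0 : π ≠ 0) (h₁ : s34kv_IsUnif V₁ (algebraMap B F π))
    (h₂ : s34kv_IsUnif V₂ (algebraMap B F π)) (hne : V₁ ≠ V₂) (hden : s34kv_HasDen B V₁ V₂) :
    ∃ e : B, e ∈ s34kv_p V₂ hB₂ ∧ e ∉ s34kv_p V₁ hB₁ := by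
  have hϖ : algebraMap B F π ≠ 0 := fun h =>
    hπ0 (IsFractionRing.injective B F (h.trans (map_zero _).symm))
  obtain ⟨x, hx1, hx2⟩ := SetLike.not_le_iff_exists.1 (s34kv_not_le_of_ne h₁ h₂ hϖ hne)
  have hx0 : x ≠ 0 := by
    rintro rfl
    exact hx2 (zero_mem _)
  obtain ⟨c, u, hu0, hu, hu', rfl⟩ := s34kv_exists_nat h₁ hϖ hx0 hx1
  have hu2 : u ∉ V₂ := fun h => hx2 (V₂.mul_mem _ _ (pow_mem (s34kv_unif_mem h₂) c) h)
  have hui2 : u⁻¹ ∈ V₂ := (V₂.mem_or_inv_mem u).resolve_left hu2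
  have hv2 : V₂.valuation u⁻¹ < 1 := by
    have h1 : ¬ V₂.valuation u ≤ 1 := fun h => hu2 ((V₂.valuation_le_one_iff u).1 h)
    rw [not_le] at h1
    rw [map_inv₀]
    exact inv_lt_one_of_one_lt₀ h1
  obtain ⟨t, b, ht1, ht2, hb⟩ := hden u⁻¹ hu' hui2
  refine ⟨b, ?_, ?_⟩
  · rw [s34kv_mem_p, ← hb, map_mul, s34kv_val_eq_one V₂ hB₂ ht2, one_mul]
    exact hv2
  · rw [s34kv_not_mem_p, ← hb, map_mul, s34kv_val_eq_one V₁ hB₁ ht1, one_mul]
    exact s34kv_val_unit (inv_ne_zero hu0) hu' (by rwa [inv_inv])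

include hB₂ in
/-- **`V₁` is the localisation of `B` at `p₁`.** -/
theorem s34kv_frac (hπ0 : π ≠ 0) (h₁ : s34kv_IsUnif V₁ (algebraMap B F π))
    (h₂ : s34kv_IsUnif V₂ (algebraMap B F π)) (hne : V₁ ≠ V₂) (hden : s34kv_HasDen B V₁ V₂)
    {x : F} (hx : x ∈ V₁) :
    ∃ a b : B, b ∉ s34kv_p V₁ hB₁ ∧ x * algebraMap B F b = algebraMap B F a := by
  have hϖ : algebraMap B F π ≠ 0 := fun h =>
    hπ0 (IsFractionRing.injective B F (h.trans (map_zero _).symm))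
  rcases eq_or_ne x 0 with rfl | hx0
  · refine ⟨0, 1, ?_, by rw [zero_mul, map_zero]⟩
    rw [s34kv_not_mem_p, map_one, map_one]
  obtain ⟨e, he2, he1⟩ := s34kv_exists_not_mem π hB₁ hB₂ hπ0 h₁ h₂ hne hden
  obtain ⟨y, hy, hey⟩ := s34kv_exists_mul h₂ hϖ ((s34kv_mem_p' V₂ hB₂ e).1 he2)
  obtain ⟨c, u, hu, -, hxu⟩ := h₂.2 x hx0
  -- `e ^ k * x ∈ V₁ ∩ V₂` for `k = (-c).toNat`
  set k : ℕ := (-c).toNat with hk
  have hkc : 0 ≤ (k : ℤ) + c := by omega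
  obtain ⟨l, hl⟩ := Int.eq_ofNat_of_zero_le hkc
  have hz2 : algebraMap B F e ^ k * x ∈ V₂ := by
    have e1 : algebraMap B F e ^ k * x = algebraMap B F π ^ l * (y ^ k * u) := by
      rw [hey, hxu, mul_pow, ← zpow_natCast (algebraMap B F π) l, ← hl, zpow_add₀ hϖ,
        zpow_natCast]
      ring
    rw [e1]
    exact V₂.mul_mem _ _ (pow_mem (s34kv_unif_mem h₂) l) (V₂.mul_mem _ _ (pow_mem hy k) hu)
  have hz1 : algebraMap B F e ^ k * x ∈ V₁ := V₁.mul_mem _ _ (pow_mem (hB₁ e) k) hx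
  obtain ⟨t, b, ht1, -, hb⟩ := hden _ hz1 hz2
  refine ⟨b, t * e ^ k, ?_, ?_⟩
  · rw [s34kv_not_mem_p, map_mul, map_pow, map_mul, map_pow, s34kv_val_eq_one V₁ hB₁ ht1,
      (s34kv_not_mem_p V₁ hB₁ e).1 he1, one_pow, one_mul]
  · rw [← hb, map_mul, map_pow]
    ring

include hB₂ in
/-- The units of `V₁` are units at `p₁`. -/
theorem s34kv_isUnitAt (hπ0 : π ≠ 0) (h₁ : s34kv_IsUnif V₁ (algebraMap B F π))
    (h₂ : s34kv_IsUnif V₂ (algebraMap B F π)) (hne : V₁ ≠ V₂) (hden : s34kv_HasDen B V₁ V₂)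
    {u : F} (hu0 : u ≠ 0) (hu : u ∈ V₁) (hu' : u⁻¹ ∈ V₁) :
    s34l1_IsUnitAt (s34kv_p V₁ hB₁) u := by
  obtain ⟨a, b, hb, hab⟩ := s34kv_frac π hB₁ hB₂ hπ0 h₁ h₂ hne hden hu
  refine ⟨a, b, ?_, hb, hab⟩
  rw [s34kv_not_mem_p, ← hab, map_mul, s34kv_val_unit hu0 hu hu',
    (s34kv_not_mem_p V₁ hB₁ b).1 hb, one_mul]

include hB₂ in
/-- **`hDVR` at `p₁`.** -/
theorem s34kv_hDVR_one (hπ0 : π ≠ 0) (h₁ : s34kv_IsUnif V₁ (algebraMap B F π))
    (h₂ : s34kv_IsUnif V₂ (algebraMap B F π)) (hne : V₁ ≠ V₂) (hden : s34kv_HasDen B V₁ V₂)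
    (h : F) (hh : h ≠ 0) :
    ∃ (c : ℤ) (h' : F), s34l1_IsUnitAt (s34kv_p V₁ hB₁) h' ∧ h = algebraMap B F π ^ c * h' := by
  obtain ⟨c, u, hu, hu', rfl⟩ := h₁.2 h hh
  exact ⟨c, u, s34kv_isUnitAt π hB₁ hB₂ hπ0 h₁ h₂ hne hden (right_ne_zero_of_mul hh) hu hu',
    rfl⟩

/-- **The hypothesis `hDVR` of `s34l1_place_main`**, VERBATIM, for `𝒱 = {p₁, p₂}`. -/
theorem s34kv_hDVR (hπ0 : π ≠ 0) (h₁ : s34kv_IsUnif V₁ (algebraMap B F π))
    (h₂ : s34kv_IsUnif V₂ (algebraMap B F π)) (hne : V₁ ≠ V₂) (hden : s34kv_HasDen B V₁ V₂) :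
    ∀ q ∈ ({s34kv_p V₁ hB₁, s34kv_p V₂ hB₂} : Set (Ideal B)), ∀ h : F, h ≠ 0 →
      ∃ (c : ℤ) (h' : F), s34l1_IsUnitAt q h' ∧ h = algebraMap B F π ^ c * h' := by
  rintro q (rfl | rfl) h hh
  · exact s34kv_hDVR_one π hB₁ hB₂ hπ0 h₁ h₂ hne hden h hh
  · exact s34kv_hDVR_one π hB₂ hB₁ hπ0 h₂ h₁ (Ne.symm hne) hden.symm h hh

omit [IsDomain B] [IsFractionRing B F] in
/-- `π` lies in the centres. -/
theorem s34kv_pi_mem (V : ValuationSubring F) (hB : ∀ b : B, algebraMap B F b ∈ V)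
    (h : s34kv_IsUnif V (algebraMap B F π)) : π ∈ s34kv_p V hB :=
  (s34kv_mem_p' V hB π).2 h.1

/-- **`p₁ ⊓ p₂ ≤ (π)`** (`hcap` of `s34nd_core`). -/
theorem s34kv_inf_le (hπ0 : π ≠ 0) (h₁ : s34kv_IsUnif V₁ (algebraMap B F π))
    (h₂ : s34kv_IsUnif V₂ (algebraMap B F π))
    (hsat : ∀ w : F, w ∈ V₁ → w ∈ V₂ → (∃ b : B, algebraMap B F π * w = algebraMap B F b) →
      ∃ b' : B, w = algebraMap B F b') :
    s34kv_p V₁ hB₁ ⊓ s34kv_p V₂ hB₂ ≤ Ideal.span {π} := by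
  have hϖ : algebraMap B F π ≠ 0 := fun h =>
    hπ0 (IsFractionRing.injective B F (h.trans (map_zero _).symm))
  rintro b ⟨hb1, hb2⟩
  obtain ⟨y₁, hy₁, e₁⟩ := s34kv_exists_mul h₁ hϖ ((s34kv_mem_p' V₁ hB₁ b).1 hb1)
  obtain ⟨y₂, hy₂, e₂⟩ := s34kv_exists_mul h₂ hϖ ((s34kv_mem_p' V₂ hB₂ b).1 hb2)
  have hy : y₁ = y₂ := mul_left_cancel₀ hϖ (e₁.symm.trans e₂)
  obtain ⟨b', hb'⟩ := hsat y₁ hy₁ (hy ▸ hy₂) ⟨b, e₁.symm⟩
  rw [Ideal.mem_span_singleton]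
  refine ⟨b', IsFractionRing.injective B F ?_⟩
  rw [e₁, hb', map_mul]

/-- **The hypothesis `hV` of `s34l1_place_main`**: a prime of height one containing `π` is
`p₁` or `p₂`. -/
theorem s34kv_hV (hπ0 : π ≠ 0) (h₁ : s34kv_IsUnif V₁ (algebraMap B F π))
    (h₂ : s34kv_IsUnif V₂ (algebraMap B F π))
    (hsat : ∀ w : F, w ∈ V₁ → w ∈ V₂ → (∃ b : B, algebraMap B F π * w = algebraMap B F b) →
      ∃ b' : B, w = algebraMap B F b')
    (q : Ideal B) (hq : q.IsPrime) (hπq : π ∈ q) (hht : s34l1_IsHt1 q) :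
    q ∈ ({s34kv_p V₁ hB₁, s34kv_p V₂ hB₂} : Set (Ideal B)) := by
  have hle : s34kv_p V₁ hB₁ * s34kv_p V₂ hB₂ ≤ q :=
    (Ideal.mul_le_inf.trans (s34kv_inf_le π hB₁ hB₂ hπ0 h₁ h₂ hsat)).trans
      ((Ideal.span_singleton_le_iff_mem q).2 hπq)
  have hne : ∀ (V : ValuationSubring F) (hB : ∀ b : B, algebraMap B F b ∈ V),
      s34kv_IsUnif V (algebraMap B F π) → s34kv_p V hB ≠ ⊥ := by
    intro V hB h hbot
    have := s34kv_pi_mem π V hB h
    rw [hbot, Ideal.mem_bot] at this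
    exact hπ0 this
  rcases (Ideal.IsPrime.mul_le hq).1 hle with h | h
  · rcases hht _ (s34kv_p_isPrime V₁ hB₁) h with h0 | h0
    · exact absurd h0 (hne V₁ hB₁ h₁)
    · exact Or.inl h0.symm
  · rcases hht _ (s34kv_p_isPrime V₂ hB₂) h with h0 | h0
    · exact absurd h0 (hne V₂ hB₂ h₂)
    · exact Or.inr h0.symm

omit [IsDomain B] [IsFractionRing B F] in
/-- **`hW𝒱`**: a fraction with denominators outside `p₁` and outside `p₂` lies in `V₁ ∩ V₂`. -/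
theorem s34kv_hW (x : F)
    (h : ∀ q ∈ ({s34kv_p V₁ hB₁, s34kv_p V₂ hB₂} : Set (Ideal B)),
      ∃ c d : B, d ∉ q ∧ x * algebraMap B F d = algebraMap B F c) : x ∈ V₁ ∧ x ∈ V₂ := by
  have key : ∀ (V : ValuationSubring F) (hB : ∀ b : B, algebraMap B F b ∈ V),
      (∃ c d : B, d ∉ s34kv_p V hB ∧ x * algebraMap B F d = algebraMap B F c) → x ∈ V := by
    rintro V hB ⟨c, d, hd, hcd⟩
    rw [← V.valuation_le_one_iff]
    have h1 := (V.valuation_le_one_iff _).2 (hB c)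
    rwa [← hcd, map_mul, (s34kv_not_mem_p V hB d).1 hd, mul_one] at h1
  exact ⟨key V₁ hB₁ (h _ (Set.mem_insert _ _)),
    key V₂ hB₂ (h _ (Set.mem_insert_of_mem _ (Set.mem_singleton _)))⟩

end Main

end Fermat.Agent.S34
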