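/-
S34, seam [K-LOCGEN] (helper18).  Prefix `s34l_`.

The translation from the OUTPUT of [SS-LOC1] (`s34l1_place_main`, `s34l1_asm_red` of helper29, in
the vocabulary `s34l1_OneMod` of `S34/Loc1Abs.lean`) to the HYPOTHESES of [LIFT2]
(`s34l_LocGen`, `u - 1 ∈ s34l_gauss O ϖ W 1` of `S34/LiftDefs.lean`).

`B = s18_chart O {J}`, `π = algebraMap O B ϖ`, `𝒱` a set of prime ideals of `B` (the vertical
primes), `W` a subring of `F` with `⋂_{q ∈ 𝒱} B_q ⊆ W`:

* `s34l_gauss_of_oneMod`:   `x ∈ 1 + π B_q` for all `q ∈ 𝒱`  ⟹  `x - 1 ∈ π W`;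
* `s34l_locGen_of_oneMod`:  the output of `s34l1_place_main` at every maximal `n ∋ π`
                            ⟹ `s34l_LocGen O J ϖ W u m`;
* `s34l_hW_of_val`, `s34l_hW_of_pair`: the hypothesis `⋂ B_q ⊆ W` for `W = ⋂ V_i`, `V_i`
  valuation rings containing `B` in which the elements of `B` outside `p_i` are units.
-/
import Mathlib
import Fermat.Agent.S34.LiftDefs
import Fermat.Agent.S34.Loc1Abs

set_option autoImplicit false
set_option linter.unusedSectionVars false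

noncomputable section

namespace Fermat.Agent.S34

open Fermat.Agent.S18

section locgen

variable {O : Type} [CommRing O] [IsLocalRing O] {F : Type} [Field F] [Algebra O F]
  {J : F} {ϖ : O} {W : Subring F}

/-- `x ∈ 1 + π B_q` for all `q ∈ 𝒱` and `⋂_{q ∈ 𝒱} B_q ⊆ W` ⟹ `x - 1 ∈ π W`. -/
theorem s34l_gauss_of_oneMod (hπ : algebraMap O F ϖ ≠ 0)
    (𝒱 : Set (Ideal ↥(s18_chart O ({J} : Set F))))
    (hW : ∀ x : F, (∀ q ∈ 𝒱, ∃ c d : ↥(s18_chart O ({J} : Set F)), d ∉ q ∧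
      x * algebraMap ↥(s18_chart O ({J} : Set F)) F d =
        algebraMap ↥(s18_chart O ({J} : Set F)) F c) → x ∈ W)
    {x : F}
    (h : ∀ q ∈ 𝒱, s34l1_OneMod (algebraMap O ↥(s18_chart O ({J} : Set F)) ϖ) q x) :
    x - 1 ∈ s34l_gauss O ϖ W 1 := by
  refine ⟨(x - 1) / algebraMap O F ϖ, hW _ (fun q hq => ?_), ?_⟩
  · obtain ⟨c, d, hd, hcd⟩ := h q hq
    refine ⟨c, d, hd, ?_⟩
    have e1 : algebraMap ↥(s18_chart O ({J} : Set F)) F
        (algebraMap O ↥(s18_chart O ({J} : Set F)) ϖ * c) =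
        algebraMap O F ϖ * algebraMap ↥(s18_chart O ({J} : Set F)) F c := by
      rw [map_mul]
      rfl
    rw [e1] at hcd
    rw [div_mul_eq_mul_div, hcd, mul_div_assoc, mul_comm, div_mul_cancel₀ _ hπ]
  · rw [pow_one, mul_div_cancel₀ _ hπ]

/-- **[K-LOCGEN]** the output of `s34l1_place_main` at every maximal ideal `n ∋ π` of the chart
gives the normalised local generators of [LIFT2]. -/
theorem s34l_locGen_of_oneMod (hπ : algebraMap O F ϖ ≠ 0)
    (hϖ : ϖ ∈ IsLocalRing.maximalIdeal O)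
    (𝒱 : Set (Ideal ↥(s18_chart O ({J} : Set F))))
    (hW : ∀ x : F, (∀ q ∈ 𝒱, ∃ c d : ↥(s18_chart O ({J} : Set F)), d ∉ q ∧
      x * algebraMap ↥(s18_chart O ({J} : Set F)) F d =
        algebraMap ↥(s18_chart O ({J} : Set F)) F c) → x ∈ W)
    {u : F} {m : ℕ}
    (h : ∀ n : Ideal ↥(s18_chart O ({J} : Set F)), n.IsMaximal →
      algebraMap O ↥(s18_chart O ({J} : Set F)) ϖ ∈ n →
      ∃ g : F, g ≠ 0 ∧
        (∀ q ∈ 𝒱, s34l1_OneMod (algebraMap O ↥(s18_chart O ({J} : Set F)) ϖ) q g) ∧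
        ∃ c d : ↥(s18_chart O ({J} : Set F)), c ∉ n ∧ d ∉ n ∧
          (∃ e, d - c = algebraMap O ↥(s18_chart O ({J} : Set F)) ϖ * e) ∧
          g ^ m * algebraMap ↥(s18_chart O ({J} : Set F)) F c =
            u * algebraMap ↥(s18_chart O ({J} : Set F)) F d) :
    s34l_LocGen O J ϖ W u m := by
  intro n hn hle
  have hπn : algebraMap O ↥(s18_chart O ({J} : Set F)) ϖ ∈ n :=
    hle (Ideal.mem_map_of_mem _ hϖ)
  obtain ⟨g, hg0, hg1, c, d, hc, hd, -, hcd⟩ := h n hn hπn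
  exact ⟨g, hg0, s34l_gauss_of_oneMod hπ 𝒱 hW hg1, c, d, hc, hd, hcd⟩

/-- The hypothesis `⋂_{q ∈ 𝒱} B_q ⊆ W` when `W ⊇ ⋂ V_i` for valuation rings `V_i ⊇ B` in which
the elements of `B` outside `p_i` are units, `𝒱 = {p_i}`. -/
theorem s34l_hW_of_val {ι : Type*} (V : ι → ValuationSubring F)
    (p : ι → Ideal ↥(s18_chart O ({J} : Set F)))
    (hB : ∀ i, ∀ b : ↥(s18_chart O ({J} : Set F)), (b : F) ∈ V i)
    (hp : ∀ i, ∀ b : ↥(s18_chart O ({J} : Set F)), b ∉ p i → (b : F)⁻¹ ∈ V i)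
    (hW : ∀ x : F, (∀ i, x ∈ V i) → x ∈ W) :
    ∀ x : F, (∀ q ∈ Set.range p, ∃ c d : ↥(s18_chart O ({J} : Set F)), d ∉ q ∧
      x * algebraMap ↥(s18_chart O ({J} : Set F)) F d =
        algebraMap ↥(s18_chart O ({J} : Set F)) F c) → x ∈ W := by
  intro x hx
  refine hW x (fun i => ?_)
  obtain ⟨c, d, hd, hcd⟩ := hx (p i) ⟨i, rfl⟩
  have hd0 : (d : F) ≠ 0 := by
    intro h0
    apply hd
    have : d = 0 := Subtype.ext h0
    rw [this]
    exact (p i).zero_mem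
  have e : x = (c : F) * (d : F)⁻¹ := by
    have hcd' : x * (d : F) = (c : F) := hcd
    rw [← hcd', mul_assoc, mul_inv_cancel₀ hd0, mul_one]
  rw [e]
  exact (V i).mul_mem _ _ (hB i c) (hp i d hd)

/-- The same with `p_i = B ∩ 𝔪_{V_i}`. -/
theorem s34l_hW_of_val' {ι : Type*} (V : ι → ValuationSubring F)
    (p : ι → Ideal ↥(s18_chart O ({J} : Set F)))
    (hB : ∀ i, ∀ b : ↥(s18_chart O ({J} : Set F)), (b : F) ∈ V i)
    (hp : ∀ i, ∀ b : ↥(s18_chart O ({J} : Set F)), (b : F) ∈ (V i).nonunits → b ∈ p i)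
    (hW : ∀ x : F, (∀ i, x ∈ V i) → x ∈ W) :
    ∀ x : F, (∀ q ∈ Set.range p, ∃ c d : ↥(s18_chart O ({J} : Set F)), d ∉ q ∧
      x * algebraMap ↥(s18_chart O ({J} : Set F)) F d =
        algebraMap ↥(s18_chart O ({J} : Set F)) F c) → x ∈ W := by
  refine s34l_hW_of_val V p hB (fun i b hb => ?_) hW
  have h1 : (b : F) ∉ (V i).nonunits := fun h => hb (hp i b h)
  rw [ValuationSubring.mem_nonunits_iff, not_lt] at h1
  have h2 : (V i).valuation (b : F) ≤ 1 := ((V i).valuation_le_one_iff _).2 (hB i b)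
  have h3 : (V i).valuation (b : F) = 1 := le_antisymm h2 h1
  rw [← (V i).valuation_le_one_iff, map_inv₀, h3, inv_one]

/-- The model case: two valuation rings `V₁`, `V₂`, `W = V₁ ⊓ V₂`, `𝒱 = {p₁, p₂}`. -/
theorem s34l_hW_of_pair (V₁ V₂ : ValuationSubring F)
    (p₁ p₂ : Ideal ↥(s18_chart O ({J} : Set F)))
    (hB₁ : ∀ b : ↥(s18_chart O ({J} : Set F)), (b : F) ∈ V₁)
    (hB₂ : ∀ b : ↥(s18_chart O ({J} : Set F)), (b : F) ∈ V₂)
    (hp₁ : ∀ b : ↥(s18_chart O ({J} : Set F)), (b : F) ∈ V₁.nonunits → b ∈ p₁)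
    (hp₂ : ∀ b : ↥(s18_chart O ({J} : Set F)), (b : F) ∈ V₂.nonunits → b ∈ p₂)
    (hW : ∀ x : F, x ∈ V₁ → x ∈ V₂ → x ∈ W) :
    ∀ x : F, (∀ q ∈ ({p₁, p₂} : Set (Ideal ↥(s18_chart O ({J} : Set F)))),
      ∃ c d : ↥(s18_chart O ({J} : Set F)), d ∉ q ∧
      x * algebraMap ↥(s18_chart O ({J} : Set F)) F d =
        algebraMap ↥(s18_chart O ({J} : Set F)) F c) → x ∈ W := by
  intro x hx
  have key := s34l_hW_of_val' (O := O) (J := J) (W := W) (ι := Bool)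
    (fun b => if b then V₁ else V₂) (fun b => if b then p₁ else p₂)
    (fun i b => by cases i <;> simp [hB₁, hB₂])
    (fun i b hb => by
      cases i
      · exact hp₂ b (by simpa using hb)
      · exact hp₁ b (by simpa using hb))
    (fun y hy => hW y (by simpa using hy true) (by simpa using hy false))
  refine key x (fun q hq => ?_)
  obtain ⟨i, rfl⟩ := hq
  cases i
  · exact hx p₂ (by simp)
  · exact hx p₁ (by simp)

end locgen

section dvr

variable {O F : Type} [CommRing O] [IsDomain O] [IsDiscreteValuationRing O]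
  [Field F] [Algebra O F] {J : F} {ϖ : O} {W : Subring F}

/-- A uniformizer is non-zero in `F`. -/
theorem s34l_pi_ne_zero (K : Type) [Field K] [Algebra O K] [IsFractionRing O K] [Algebra K F]
    [IsScalarTower O K F] (hϖ : Irreducible ϖ) : algebraMap O F ϖ ≠ 0 := by
  intro h
  rw [IsScalarTower.algebraMap_apply O K F, map_eq_zero] at h
  exact hϖ.ne_zero ((IsFractionRing.injective O K) (h.trans (map_zero _).symm))

/-- A uniformizer lies in the maximal ideal. -/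
theorem s34l_pi_mem_max (hϖ : Irreducible ϖ) : ϖ ∈ IsLocalRing.maximalIdeal O :=
  (IsLocalRing.mem_maximalIdeal _).2 hϖ.not_isUnit

/-- `s34l_gauss_of_oneMod` in the setting of [LIFT2]. -/
theorem s34l_gauss_of_oneMod' (K : Type) [Field K] [Algebra O K] [IsFractionRing O K]
    [Algebra K F] [IsScalarTower O K F] (hϖ : Irreducible ϖ)
    (𝒱 : Set (Ideal ↥(s18_chart O ({J} : Set F))))
    (hW : ∀ x : F, (∀ q ∈ 𝒱, ∃ c d : ↥(s18_chart O ({J} : Set F)), d ∉ q ∧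
      x * algebraMap ↥(s18_chart O ({J} : Set F)) F d =
        algebraMap ↥(s18_chart O ({J} : Set F)) F c) → x ∈ W)
    {x : F}
    (h : ∀ q ∈ 𝒱, s34l1_OneMod (algebraMap O ↥(s18_chart O ({J} : Set F)) ϖ) q x) :
    x - 1 ∈ s34l_gauss O ϖ W 1 :=
  s34l_gauss_of_oneMod (s34l_pi_ne_zero K hϖ) 𝒱 hW h

/-- `s34l_locGen_of_oneMod` in the setting of [LIFT2]. -/
theorem s34l_locGen_of_oneMod' (K : Type) [Field K] [Algebra O K] [IsFractionRing O K]
    [Algebra K F] [IsScalarTower O K F] (hϖ : Irreducible ϖ)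
    (𝒱 : Set (Ideal ↥(s18_chart O ({J} : Set F))))
    (hW : ∀ x : F, (∀ q ∈ 𝒱, ∃ c d : ↥(s18_chart O ({J} : Set F)), d ∉ q ∧
      x * algebraMap ↥(s18_chart O ({J} : Set F)) F d =
        algebraMap ↥(s18_chart O ({J} : Set F)) F c) → x ∈ W)
    {u : F} {m : ℕ}
    (h : ∀ n : Ideal ↥(s18_chart O ({J} : Set F)), n.IsMaximal →
      algebraMap O ↥(s18_chart O ({J} : Set F)) ϖ ∈ n →
      ∃ g : F, g ≠ 0 ∧
        (∀ q ∈ 𝒱, s34l1_OneMod (algebraMap O ↥(s18_chart O ({J} : Set F)) ϖ) q g) ∧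
        ∃ c d : ↥(s18_chart O ({J} : Set F)), c ∉ n ∧ d ∉ n ∧
          (∃ e, d - c = algebraMap O ↥(s18_chart O ({J} : Set F)) ϖ * e) ∧
          g ^ m * algebraMap ↥(s18_chart O ({J} : Set F)) F c =
            u * algebraMap ↥(s18_chart O ({J} : Set F)) F d) :
    s34l_LocGen O J ϖ W u m :=
  s34l_locGen_of_oneMod (s34l_pi_ne_zero K hϖ) (s34l_pi_mem_max hϖ) 𝒱 hW h

end dvr

end Fermat.Agent.S34
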