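/-
S34, seam [K-LOCGEN] (helper18), the one-shot form.  Prefix `s34l_`.

`s34l_locGen_of_place`: ALL the inputs of helper29's `s34l1_place_main` (`S34/Loc1Place.lean`),
uniformly in the prime `n ∋ π` of `B = s18_chart O {J}`, together with `⋂_{q ∈ 𝒱} B_q ⊆ W`
give the two hypotheses of [LIFT2] (`s34l_lift2_main`, `S34/LiftMain.lean`) on the chart of `J`
for the second difference `u = τ (τ f) * f / τ f ^ 2`:

  `u - 1 ∈ s34l_gauss O ϖ W 1`   and   `s34l_LocGen O J ϖ W u m`.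
-/
import Mathlib
import Fermat.Agent.S34.LiftLoc
import Fermat.Agent.S34.Loc1Place
import Fermat.Agent.S34.Loc1Asm

set_option autoImplicit false

noncomputable section

namespace Fermat.Agent.S34

open Fermat.Agent.S18 IntermediateField

/-- **[K-LOCGEN]**, one-shot form. -/
theorem s34l_locGen_of_place {O K F : Type} [CommRing O] [IsDomain O] [IsDiscreteValuationRing O]
    [Field K] [CharZero K] [Algebra O K] [IsFractionRing O K] [Field F] [Algebra K F]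
    [Algebra O F] [IsScalarTower O K F] (J : F) (ϖ : O) (hϖ : Irreducible ϖ) (W : Subring F)
    [IsNoetherianRing ↥(s18_chart O ({J} : Set F))]
    [IsIntegrallyClosed ↥(s18_chart O ({J} : Set F))]
    [IsFractionRing ↥(s18_chart O ({J} : Set F)) F]
    (t : ↥(s18_chart O ({J} : Set F)))
    (ht : Transcendental K (algebraMap ↥(s18_chart O ({J} : Set F)) F t))
    (hfin : FiniteDimensional K⟮algebraMap ↥(s18_chart O ({J} : Set F)) F t⟯ F)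
    (hπ0 : algebraMap O ↥(s18_chart O ({J} : Set F)) ϖ ≠ 0)
    (hK : ∀ c : K, ∃ x y : ↥(s18_chart O ({J} : Set F)), ∃ k : ℕ,
      y ∣ (algebraMap O ↥(s18_chart O ({J} : Set F)) ϖ) ^ k ∧
      algebraMap K F c * algebraMap ↥(s18_chart O ({J} : Set F)) F y =
        algebraMap ↥(s18_chart O ({J} : Set F)) F x)
    (τ : F ≃+* F) (σ : ↥(s18_chart O ({J} : Set F)) ≃+* ↥(s18_chart O ({J} : Set F)))
    (η : ↥(s18_chart O ({J} : Set F)))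
    (hστ : ∀ b, τ (algebraMap ↥(s18_chart O ({J} : Set F)) F b) =
      algebraMap ↥(s18_chart O ({J} : Set F)) F (σ b))
    (hσ : ∀ b, ∃ c, σ b - b = algebraMap O ↥(s18_chart O ({J} : Set F)) ϖ * c)
    (hη : IsUnit η) (hσπ : σ (algebraMap O ↥(s18_chart O ({J} : Set F)) ϖ) =
      η * algebraMap O ↥(s18_chart O ({J} : Set F)) ϖ)
    (𝒱 : Set (Ideal ↥(s18_chart O ({J} : Set F))))
    (h𝒱prime : ∀ q ∈ 𝒱, q.IsPrime)
    (h𝒱π : ∀ q ∈ 𝒱, algebraMap O ↥(s18_chart O ({J} : Set F)) ϖ ∈ q)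
    (hDVR : ∀ q ∈ 𝒱, ∀ h : F, h ≠ 0 → ∃ (c : ℤ) (h' : F), s34l1_IsUnitAt q h' ∧
      h = algebraMap ↥(s18_chart O ({J} : Set F)) F
        (algebraMap O ↥(s18_chart O ({J} : Set F)) ϖ) ^ c * h')
    (hV : ∀ n : Ideal ↥(s18_chart O ({J} : Set F)), n.IsPrime →
      ∀ q : Ideal ↥(s18_chart O ({J} : Set F)), q.IsPrime → q ≤ n →
      algebraMap O ↥(s18_chart O ({J} : Set F)) ϖ ∈ q → s34l1_IsHt1 q → q ∈ 𝒱)
    (hU : ∀ n : Ideal ↥(s18_chart O ({J} : Set F)), n.IsPrime →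
      ∀ e : F, (∀ 𝔮 : Ideal ↥(s18_chart O ({J} : Set F)), 𝔮.IsPrime → 𝔮 ≤ n → 𝔮 ≠ ⊥ →
        (∀ 𝔮' : Ideal ↥(s18_chart O ({J} : Set F)), 𝔮'.IsPrime → 𝔮' ≤ 𝔮 → 𝔮' = ⊥ ∨ 𝔮' = 𝔮) →
        ∃ y z : ↥(s18_chart O ({J} : Set F)), y ∉ 𝔮 ∧ z ∉ 𝔮 ∧
          e * algebraMap ↥(s18_chart O ({J} : Set F)) F z =
            algebraMap ↥(s18_chart O ({J} : Set F)) F y) →
      ∃ y z : ↥(s18_chart O ({J} : Set F)), y ∉ n ∧ z ∉ n ∧
        e * algebraMap ↥(s18_chart O ({J} : Set F)) F z =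
          algebraMap ↥(s18_chart O ({J} : Set F)) F y)
    (m : ℕ) (f : F) (hf : f ≠ 0) (hdiv : ∀ P : AlgebraicCurve.Place K F, (m : ℤ) ∣ P.ord f)
    (hLG : ∀ n : Ideal ↥(s18_chart O ({J} : Set F)), n.IsPrime →
      ∀ q : Ideal ↥(s18_chart O ({J} : Set F)),
      s34l1_IsHor (algebraMap O ↥(s18_chart O ({J} : Set F)) ϖ) n q →
      ∀ Q : AlgebraicCurve.Place K F, s34l1_IsPlaceOf q Q →
      Q.ord f ≠ 0 → ∃ g : F, s34l1_IsLocGen (algebraMap O ↥(s18_chart O ({J} : Set F)) ϖ) n q g)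
    (hW : ∀ x : F, (∀ q ∈ 𝒱, ∃ c d : ↥(s18_chart O ({J} : Set F)), d ∉ q ∧
      x * algebraMap ↥(s18_chart O ({J} : Set F)) F d =
        algebraMap ↥(s18_chart O ({J} : Set F)) F c) → x ∈ W) :
    (τ (τ f) * f / τ f ^ 2) - 1 ∈ s34l_gauss O ϖ W 1 ∧
    s34l_LocGen O J ϖ W (τ (τ f) * f / τ f ^ 2) m := by
  refine ⟨s34l_gauss_of_oneMod' K hϖ 𝒱 hW
    (s34l1_asm_red _ τ σ η hστ hσ hη hσπ hπ0 𝒱 h𝒱prime h𝒱π hDVR f hf), ?_⟩
  refine s34l_locGen_of_oneMod' K hϖ 𝒱 hW (fun n hn hπn => ?_)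
  have := hn.isPrime
  exact s34l1_place_main t ht hfin _ hπ0 hK τ σ η hστ hσ hη hσπ n hπn 𝒱 h𝒱prime h𝒱π hDVR
    (hV n hn.isPrime) (hU n hn.isPrime) m f hf hdiv (hLG n hn.isPrime)

end Fermat.Agent.S34
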