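/-
S34, leaf [LOC-GLOB], part 4 (owner: helper4).  Prefix `s34lg_`.

ADAPTER between [SS-NODE] (`s34nd_IsNode`, `s34nd_IsSmooth`, `S34/SsNodeLoc.lean`, the
conclusion of `s34nd_series`) and the input `s34lg_IsNode π n ∨ s34lg_IsSmooth π n` of
`s34lg_hLG` (`S34/LocGlobHLG.lean`).
-/
import Mathlib
import Fermat.Agent.S34.LocGlobHLG
import Fermat.Agent.S34.SsNodeLoc

set_option autoImplicit false

namespace Fermat.Agent.S34

section Nd

variable {B : Type} [CommRing B]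

/-- The node datum of [SS-NODE] is the node datum of [LOC-GLOB]. -/
theorem s34lg_isNode_of_nd {π : B} {pinf p0 n : Ideal B} (hp1 : pinf.IsPrime)
    (hp0 : p0.IsPrime) (hπ1 : π ∈ pinf) (hπ0 : π ∈ p0) {x y : B}
    (h : s34nd_IsNode π pinf p0 n x y) : s34lg_IsNode π n :=
  ⟨pinf, p0, x, y, hp1, hp0, h.pinf_le_n, h.p0_le_n, hπ1, hπ0, h.x_mem, h.y_mem, h.x_not_mem,
    h.y_not_mem, h.pinf_le, h.p0_le, h.n_le, h.mul⟩

/-- The datum of [SS-NODE] at a point with one local equation is the one of [LOC-GLOB]. -/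
theorem s34lg_isSmooth_of_nd {π : B} {n : Ideal B} {h : B} (hs : s34nd_IsSmooth π n h) :
    s34lg_IsSmooth π n :=
  ⟨h, hs.mem, hs.n_le⟩

/-- The conclusion of `s34nd_series` is the input `hnode` of `s34lg_hLG`. -/
theorem s34lg_dichotomy {L : Type*} [CommRing L] [IsDomain L] (π : B) (ρ : B →+* L)
    (W : B ≃+* B) (hρπ : ρ π = 0) (hWπ : W π = π) (n : Ideal B)
    (h : (∃ x y : B, s34nd_IsNode π (RingHom.ker ρ) (RingHom.ker (ρ.comp (W : B →+* B))) n x y)
      ∨ ∃ h : B, s34nd_IsSmooth π n h) :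
    s34lg_IsNode π n ∨ s34lg_IsSmooth π n := by
  rcases h with ⟨x, y, hxy⟩ | ⟨h, hh⟩
  · left
    refine s34lg_isNode_of_nd (RingHom.ker_isPrime ρ)
      (RingHom.ker_isPrime (ρ.comp (W : B →+* B))) ?_ ?_ hxy
    · exact RingHom.mem_ker.2 hρπ
    · rw [RingHom.mem_ker, RingHom.comp_apply]
      show ρ (W π) = 0
      rw [hWπ, hρπ]
  · right
    exact s34lg_isSmooth_of_nd hh

end Nd

end Fermat.Agent.S34
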