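/-
S34, leaf [SS-INT], route without [COUNT] (owner: helper24).  Prefix `s34pz_`.
Part 1: Laurent series with coefficients in a subring, and the lemma

  `s34pz_poly` : a polynomial `p ∈ Q̄[X]` such that `p(j)` has all its `q`-expansion coefficients
                 in a subring `Z ⊆ Q̄` has all its coefficients in `Z`.
-/
import Mathlib
import Fermat.Prelude.Def_ModularCurve_JqCoeff
import Fermat.Prelude.Thm_ModularCurve_coeffMap_qExpand
import Fermat.Agent.S24.CoordAlg
import Fermat.Agent.S37.EsTwist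

set_option autoImplicit false

open ModularCurve

noncomputable section

namespace Fermat.Agent.S34

open Fermat.Agent.S24 Fermat.Agent.S37

section Int

variable {Q : Type*} [CommRing Q]

/-- The Laurent series all of whose coefficients lie in the subring `Z`. -/
def s34pz_int (Z : Subring Q) : Subring (LaurentSeries Q) where
  carrier := {x | ∀ n, x.coeff n ∈ Z}
  mul_mem' := by
    intro x y hx hy n
    rw [HahnSeries.coeff_mul]
    exact Subring.sum_mem _ fun ij _ => Z.mul_mem (hx _) (hy _)
  one_mem' := by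
    intro n
    rw [HahnSeries.coeff_one]
    split_ifs
    · exact Z.one_mem
    · exact Z.zero_mem
  add_mem' := by
    intro x y hx hy n
    rw [HahnSeries.coeff_add]
    exact Z.add_mem (hx n) (hy n)
  zero_mem' := by
    intro n
    rw [HahnSeries.coeff_zero]
    exact Z.zero_mem
  neg_mem' := by
    intro x hx n
    rw [HahnSeries.coeff_neg]
    exact Z.neg_mem (hx n)

theorem s34pz_mem_int_iff (Z : Subring Q) (x : LaurentSeries Q) :
    x ∈ s34pz_int Z ↔ ∀ n, x.coeff n ∈ Z := Iff.rfl

theorem s34pz_coeffMap_mem {R : Type*} [CommRing R] (f : R →+* Q) (Z : Subring Q)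
    (hf : ∀ r, f r ∈ Z) (x : LaurentSeries R) : coeffMap f x ∈ s34pz_int Z := by
  intro n
  rw [coeffMap_coeff]
  exact hf _

theorem s34pz_qExpand_mem (Z : Subring Q) (N : ℕ) [NeZero N] {x : LaurentSeries Q}
    (hx : x ∈ s34pz_int Z) : qExpand Q N x ∈ s34pz_int Z := by
  intro n
  by_cases hn : (N : ℤ) ∣ n
  · obtain ⟨k, rfl⟩ := hn
    rw [qExpand_coeff_mul]
    exact hx k
  · rw [qExpand_coeff_of_not_dvd N x hn]
    exact Z.zero_mem

theorem s34pz_of_qExpand_mem (Z : Subring Q) (N : ℕ) [NeZero N] {x : LaurentSeries Q}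
    (hx : qExpand Q N x ∈ s34pz_int Z) : x ∈ s34pz_int Z := by
  intro n
  have h := hx ((N : ℤ) * n)
  rwa [qExpand_coeff_mul] at h

theorem s34pz_zpow_mem (Z : Subring Q) (c : Qˣ) (hc : (c : Q) ∈ Z)
    (hc' : ((c⁻¹ : Qˣ) : Q) ∈ Z) (n : ℤ) : ((c ^ n : Qˣ) : Q) ∈ Z := by
  rcases Int.eq_nat_or_neg n with ⟨k, rfl | rfl⟩
  · rw [zpow_natCast, Units.val_pow_eq_pow_val]
    exact Z.pow_mem hc k
  · rw [zpow_neg, zpow_natCast, ← inv_pow, Units.val_pow_eq_pow_val]
    exact Z.pow_mem hc' k

theorem s34pz_tw_mem (Z : Subring Q) (c : Qˣ) (hc : (c : Q) ∈ Z)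
    (hc' : ((c⁻¹ : Qˣ) : Q) ∈ Z) {x : LaurentSeries Q} (hx : x ∈ s34pz_int Z) :
    s37es_tw c x ∈ s34pz_int Z := by
  intro n
  rw [s37es_tw_coeff]
  exact Z.mul_mem (s34pz_zpow_mem Z c hc hc' n) (hx n)

theorem s34pz_algebraMap_mem {L : Type*} [Field L] (Z : Subring L) {c : L} (hc : c ∈ Z) :
    algebraMap L (LaurentSeries L) c ∈ s34pz_int Z := by
  intro n
  rw [algebraMap_laurentSeries_eq_single, HahnSeries.coeff_single]
  split_ifs
  · exact hc
  · exact Z.zero_mem

end Int

/-! ### The expansions of `j(q^d)` are integral -/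

theorem s34pz_jq_eq : (jq : LaurentSeries ℚ) = coeffMap (Int.castRingHom ℚ) (jqModC ℤ) := by
  rw [← jqModC_rat]
  exact (map_jqModC (Int.castRingHom ℚ)).symm

theorem s34pz_jLaurent_eq (d : ℕ) [NeZero d] :
    jLaurent d = coeffMap (Int.castRingHom QBar) (qExpand ℤ d (jqModC ℤ)) := by
  rw [jLaurent, coeffEmb, s34pz_jq_eq, ← ModularCurve.coeffMap_qExpand, coeffMap_coeffMap]
  exact coeffMap_congr (RingHom.ext_int _ _) _

theorem s34pz_jLaurent_mem (Z : Subring QBar) (d : ℕ) [NeZero d] :
    jLaurent d ∈ s34pz_int Z := by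
  rw [s34pz_jLaurent_eq]
  refine s34pz_coeffMap_mem _ Z (fun r => ?_) _
  rw [eq_intCast]
  exact intCast_mem Z r

/-! ### Polynomials in `j` with integral expansion -/

/-- **A polynomial in `j` with `Z`-integral `q`-expansion has coefficients in `Z`.** -/
theorem s34pz_poly (Z : Subring QBar) (p : Polynomial QBar)
    (h : Polynomial.aeval (jLaurent 1) p ∈ s34pz_int Z) : ∀ i, p.coeff i ∈ Z := by
  induction hn : p.natDegree using Nat.strong_induction_on generalizing p with
  | _ n ih =>
    have hlead : p.leadingCoeff ∈ Z := by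
      rw [← coord_coeff_aeval_jLaurent p]
      exact h _
    have hmono : Polynomial.aeval (jLaurent 1) (Polynomial.monomial p.natDegree p.leadingCoeff) ∈
        s34pz_int Z := by
      rw [Polynomial.aeval_monomial]
      exact (s34pz_int Z).mul_mem (s34pz_algebraMap_mem Z hlead)
        ((s34pz_int Z).pow_mem (s34pz_jLaurent_mem Z 1) _)
    have herase : Polynomial.aeval (jLaurent 1) p.eraseLead ∈ s34pz_int Z := by
      have h1 : p.eraseLead = p - Polynomial.monomial p.natDegree p.leadingCoeff := by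
        rw [eq_sub_iff_add_eq]
        exact Polynomial.eraseLead_add_monomial_natDegree_leadingCoeff p
      rw [h1, map_sub]
      exact (s34pz_int Z).sub_mem h hmono
    intro i
    by_cases hi : i = p.natDegree
    · rw [hi]
      exact hlead
    · rw [← Polynomial.eraseLead_coeff_of_ne i hi]
      rcases Polynomial.eraseLead_natDegree_lt_or_eraseLead_eq_zero p with hlt | h0
      · exact ih _ (hn ▸ hlt) p.eraseLead herase rfl i
      · rw [h0, Polynomial.coeff_zero]
        exact Z.zero_mem

end Fermat.Agent.S34
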