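/-
S34, leaf [SS-INT], route without [COUNT] (owner: helper24).  Prefix `s34pz_`.
Part 2: the minimal polynomial of `j(q^q)` over `Q̄(j)` (for `PhiZMain.lean`).

  `s34pz_main` : for a prime `q` there is `Φ ∈ ℤ[X][Y]`, monic in `Y`, with
                 `Φ(j, j(q^q)) = 0` and `Φ(j(q^q), j) = 0`   (in `ℚ((q))`).

ROUTE.  `F = F̄_1 = Q̄(j)`, `F' = F̄_{1·q}`, `x = β j = j(q^q)`.
* the `q + 1` ring homomorphisms `s37es_nm_sigma 1 q W ζ : F' → Q̄((t))` (S37 [ES-NORM]) extend
  `ι : y ↦ y(t^q)` and take `q + 1` distinct values at `x`; the minimal polynomial `P` of `x`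
  over `F` has degree `≤ q + 1`, so `ι P = ∏ (Y - σ x)`, a polynomial with coefficients in
  `ℤ̄((t))`;
* `x` is integral over `Q̄[j]` (S24), so `P` has coefficients in `Q̄[j]`;
* a polynomial in `j` with `ℤ̄`-integral expansion has coefficients in `ℤ̄` (`s34pz_poly`).
So `x` is integral over `ℤ̄[j]`, hence over `ℤ[j]`; the Atkin-Lehner involution gives the swapped
relation.
-/
import Mathlib
import Fermat.Agent.S24.RingAInt
import Fermat.Agent.S24.TranslateAN
import Fermat.Agent.S24.Bridge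
import Fermat.Agent.S37.EsNorm
import Fermat.Agent.S37.AtkinLehner
import Fermat.Agent.S34.PhiZInt

set_option autoImplicit false
set_option linter.style.haveILetI false
set_option linter.unusedSectionVars false

open ModularCurve AlgebraicCurve

noncomputable section

namespace Fermat.Agent.S34

open Fermat.Agent.S24 Fermat.Agent.S37

/-! ### Abstract lemmas -/

/-- Integrality over the range of an algebra homomorphism is integrality along it. -/
theorem s34pz_isIntegralElem_of_range {R A B : Type*} [CommRing R] [CommRing A] [CommRing B]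
    [Algebra R A] [Algebra R B] (f : A →ₐ[R] B) {x : B} (h : IsIntegral ↥f.range x) :
    f.toRingHom.IsIntegralElem x := by
  obtain ⟨p, hp, hpx⟩ := h
  have hsurj : Function.Surjective f.rangeRestrict := f.rangeRestrict_surjective
  obtain ⟨r, hr, -, hrm⟩ := Polynomial.lifts_and_natDegree_eq_and_monic
    (f := f.rangeRestrict.toRingHom)
    ((Polynomial.mem_lifts p).2 (Polynomial.map_surjective _ hsurj p)) hp
  refine ⟨r, hrm, ?_⟩
  rw [← hr, Polynomial.eval₂_map] at hpx
  exact hpx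

/-- Integrality over `R[u]` is integrality along `aeval u`. -/
theorem s34pz_isIntegralElem_of_adjoin {R B : Type*} [CommRing R] [CommRing B] [Algebra R B]
    {u x : B} (h : IsIntegral ↥(Algebra.adjoin R ({u} : Set B)) x) :
    (Polynomial.aeval (R := R) u).toRingHom.IsIntegralElem x := by
  have h' : IsIntegral ↥(Polynomial.aeval (R := R) u).range x := by
    rw [← Algebra.adjoin_singleton_eq_range_aeval]
    exact h
  exact s34pz_isIntegralElem_of_range _ h'

/-! ### The setting at level `1 * q` -/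

section Level

variable (q : ℕ) [NeZero q]

/-- `x = β j = j(q^q)` as an element of `F̄_{1·q}`. -/
def s34pz_x : FunField (1 * q) := heckeBetaBar QBar 1 q (jF 1)

theorem s34pz_coe_x : ((s34pz_x q : FunField (1 * q)) : LaurentSeries QBar) = jLaurent (1 * q) := by
  rw [s34pz_x, coe_heckeBetaBar]
  exact s37al_qExpand_jLaurent 1 q

theorem s34pz_x_eq : s34pz_x q = jDiv (1 * q) (1 * q) dvd_rfl :=
  Subtype.ext (s34pz_coe_x q)

theorem s34pz_coe_jF (N : ℕ) : ((jF N : FunField N) : LaurentSeries QBar) = jLaurent 1 := rfl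

/-- **S24**: `x` is integral over `Q̄[j]`, in explicit form. -/
theorem s34pz_x_integral :
    (Polynomial.aeval (R := QBar) (jF (1 * q))).toRingHom.IsIntegralElem (s34pz_x q) := by
  obtain ⟨Θ₀, π, hΘ⟩ := bridge (1 * q)
  have h := anD_ringAIntegral anB_growth (1 * q) Θ₀ π hΘ
    ⟨jDiv (1 * q) (1 * q) dvd_rfl, jDiv_mem_ringA (1 * q) (1 * q) dvd_rfl⟩
  rw [s34pz_x_eq]
  exact s34pz_isIntegralElem_of_adjoin h

/-! ### `Q̄[j]` is integrally closed -/

theorem s34pz_jDivSet_one : jDivSet 1 = {jF 1} := by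
  ext x
  constructor
  · rintro ⟨d, hne, hd, rfl⟩
    have hd1 : d = 1 := Nat.dvd_one.mp hd
    subst hd1
    rfl
  · rintro rfl
    exact ⟨1, inferInstance, one_dvd 1, rfl⟩

theorem s34pz_ringA_one : ringA 1 = (Polynomial.aeval (R := QBar) (jF 1)).range := by
  rw [ringA, s34pz_jDivSet_one, Algebra.adjoin_singleton_eq_range_aeval]

theorem s34pz_isIntegrallyClosed : IsIntegrallyClosed ↥(ringA 1) := by
  have htr : Transcendental QBar (jF 1) := coord_jTranscendental 1
  let e₁ : Polynomial QBar ≃ₐ[QBar] ↥(Polynomial.aeval (R := QBar) (jF 1)).range :=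
    AlgEquiv.ofInjective _ (transcendental_iff_injective.mp htr)
  let e₂ : ↥(Polynomial.aeval (R := QBar) (jF 1)).range ≃ₐ[QBar] ↥(ringA 1) :=
    Subalgebra.equivOfEq _ _ s34pz_ringA_one.symm
  exact IsIntegrallyClosed.of_equiv (e₁.trans e₂).toRingEquiv

/-- `α j = j`. -/
theorem s34pz_alpha_jF : heckeAlphaBar QBar 1 q (jF 1) = jF (1 * q) := Subtype.ext rfl

/-- `α` commutes with `aeval j`. -/
theorem s34pz_alpha_aeval (p : Polynomial QBar) :
    heckeAlphaBar QBar 1 q (Polynomial.aeval (jF 1) p) = Polynomial.aeval (jF (1 * q)) p := by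
  rw [← Polynomial.aeval_algHom_apply, s34pz_alpha_jF]

/-- **The minimal polynomial of `x` over `F̄_1` has coefficients in `Q̄[j]`.** -/
theorem s34pz_minpoly_coeff (k : ℕ) :
    letI := algebraAlong (heckeAlphaBar QBar 1 q)
    ∃ p : Polynomial QBar,
      (minpoly (FunField 1) (s34pz_x q)).coeff k = Polynomial.aeval (jF 1) p := by
  letI : Algebra (FunField 1) (FunField (1 * q)) := algebraAlong (heckeAlphaBar QBar 1 q)
  haveI := s37al_isFractionRing 1
  haveI := s34pz_isIntegrallyClosed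
  have hs : IsIntegral ↥(ringA 1) (s34pz_x q) := by
    obtain ⟨P₀, hP₀, hP₀x⟩ := s34pz_x_integral q
    have hmem : ∀ p : Polynomial QBar, Polynomial.aeval (jF 1) p ∈ ringA 1 := by
      intro p
      rw [s34pz_ringA_one]
      exact ⟨p, rfl⟩
    let ψ : Polynomial QBar →+* ↥(ringA 1) :=
      ((Polynomial.aeval (R := QBar) (jF 1)).codRestrict (ringA 1) hmem).toRingHom
    refine ⟨P₀.map ψ, hP₀.map ψ, ?_⟩
    rw [Polynomial.eval₂_map]
    have hcomp : (algebraMap ↥(ringA 1) (FunField (1 * q))).comp ψ =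
        (Polynomial.aeval (R := QBar) (jF (1 * q))).toRingHom := by
      refine RingHom.ext fun p => ?_
      show heckeAlphaBar QBar 1 q (Polynomial.aeval (jF 1) p) =
        Polynomial.aeval (jF (1 * q)) p
      exact s34pz_alpha_aeval q p
    rw [hcomp]
    exact hP₀x
  have h := minpoly.isIntegrallyClosed_eq_field_fractions' (FunField 1) hs
  rw [h, Polynomial.coeff_map]
  have h1 : ((minpoly ↥(ringA 1) (s34pz_x q)).coeff k : FunField 1) ∈
      (Polynomial.aeval (R := QBar) (jF 1)).range := by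
    rw [← s34pz_ringA_one]
    exact Subtype.property _
  obtain ⟨p, hp⟩ := h1
  exact ⟨p, hp.symm⟩

end Level

/-! ### Products of linear factors over a subring -/

theorem s34pz_prod_coeff_mem {R ι : Type*} [CommRing R] (T : Subring R) (s : Finset ι)
    (f : ι → R) (hf : ∀ o ∈ s, f o ∈ T) (k : ℕ) :
    (∏ o ∈ s, (Polynomial.X - Polynomial.C (f o))).coeff k ∈ T := by
  have h : (∏ o ∈ s, (Polynomial.X - Polynomial.C (f o))) ∈ Polynomial.lifts T.subtype := by
    refine Subsemiring.prod_mem _ fun o ho => ?_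
    rw [Polynomial.mem_lifts]
    refine ⟨Polynomial.X - Polynomial.C ⟨f o, hf o ho⟩, ?_⟩
    rw [Polynomial.map_sub, Polynomial.map_X, Polynomial.map_C]
    rfl
  rw [Polynomial.lifts_iff_coeff_lifts] at h
  obtain ⟨t, ht⟩ := h k
  rw [← ht]
  exact t.2

/-- The integral closure of `ℤ` in `Q̄`, as a subring. -/
def s34pz_Z : Subring QBar := (integralClosure ℤ QBar).toSubring

theorem s34pz_mem_Z_iff (z : QBar) : z ∈ s34pz_Z ↔ IsIntegral ℤ z := Iff.rfl

theorem s34pz_unit_mem_Z (n : ℕ) (hn : 0 < n) (u : QBarˣ) (hu : u ^ n = 1) :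
    (u : QBar) ∈ s34pz_Z := by
  rw [s34pz_mem_Z_iff]
  refine IsIntegral.of_pow hn ?_
  rw [← Units.val_pow_eq_pow_val, hu, Units.val_one]
  exact isIntegral_one

/-! ### The embeddings -/

section Emb

variable (q : ℕ) [NeZero q]
  (W : FunField (1 * q) →ₐ[QBar] FunField (1 * q)) (ζ : QBarˣ)

theorem s34pz_sigma_none :
    s37es_nm_sigma 1 q W ζ none (s34pz_x q) = qExpand QBar q (jLaurent (1 * q)) := by
  rw [s37es_nm_sigma_none, s34pz_coe_x]

theorem s34pz_sigma_some
    (hWβ : ∀ f : FunField 1, W (heckeBetaBar QBar 1 q f) = heckeAlphaBar QBar 1 q f)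
    (i : Fin q) :
    s37es_nm_sigma 1 q W ζ (some i) (s34pz_x q) = s37es_tw (ζ ^ (i : ℕ)) (jLaurent 1) := by
  rw [s37es_nm_sigma_some, s34pz_x, hWβ, coe_heckeAlphaBar]
  rfl

theorem s34pz_sigma_mem_int
    (hWβ : ∀ f : FunField 1, W (heckeBetaBar QBar 1 q f) = heckeAlphaBar QBar 1 q f)
    (hζ : ζ ^ q = 1) (o : Option (Fin q)) :
    s37es_nm_sigma 1 q W ζ o (s34pz_x q) ∈ s34pz_int s34pz_Z := by
  have hq0 : 0 < q := Nat.pos_of_ne_zero (NeZero.ne q)
  cases o with
  | none =>
    rw [s34pz_sigma_none]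
    exact s34pz_qExpand_mem _ q (s34pz_jLaurent_mem _ _)
  | some i =>
    rw [s34pz_sigma_some q W ζ hWβ]
    refine s34pz_tw_mem _ _ ?_ ?_ (s34pz_jLaurent_mem _ 1)
    · refine s34pz_unit_mem_Z q hq0 _ ?_
      rw [← pow_mul, mul_comm, pow_mul, hζ, one_pow]
    · refine s34pz_unit_mem_Z q hq0 _ ?_
      rw [inv_pow, ← pow_mul, mul_comm, pow_mul, hζ, one_pow, inv_one]

theorem s34pz_sigma_x_injective (hq : q.Prime)
    (hWβ : ∀ f : FunField 1, W (heckeBetaBar QBar 1 q f) = heckeAlphaBar QBar 1 q f)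
    (hζ : IsPrimitiveRoot ζ q) :
    Function.Injective fun o => s37es_nm_sigma 1 q W ζ o (s34pz_x q) := by
  have hnone : (s37es_nm_sigma 1 q W ζ none (s34pz_x q)).coeff (-1) = 0 := by
    rw [s37es_nm_sigma_none]
    refine qExpand_coeff_of_not_dvd q _ ?_
    intro h
    have h1 : ((q : ℤ)) ∣ 1 := (dvd_neg.1 h)
    have h2 : (q : ℤ) = 1 := Int.eq_one_of_dvd_one (by positivity) h1
    have h3 : q = 1 := by exact_mod_cast h2
    exact hq.one_lt.ne' h3
  have hsome : ∀ i : Fin q,
      (s37es_nm_sigma 1 q W ζ (some i) (s34pz_x q)).coeff (-1) =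
        (((ζ ^ (i : ℕ)) ^ (-1 : ℤ) : QBarˣ) : QBar) := by
    intro i
    rw [s34pz_sigma_some q W ζ hWβ, s37es_tw_coeff, s37es_nm_coeff_j, mul_one]
  intro o o' h
  have hc : (s37es_nm_sigma 1 q W ζ o (s34pz_x q)).coeff (-1) =
      (s37es_nm_sigma 1 q W ζ o' (s34pz_x q)).coeff (-1) := by
    have h' : s37es_nm_sigma 1 q W ζ o (s34pz_x q) = s37es_nm_sigma 1 q W ζ o' (s34pz_x q) := h
    rw [h']
  cases o with
  | none =>
    cases o' with
    | none => rfl
    | some k =>
      rw [hnone, hsome] at hc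
      exact absurd hc.symm (Units.ne_zero _)
  | some i =>
    cases o' with
    | none =>
      rw [hnone, hsome] at hc
      exact absurd hc (Units.ne_zero _)
    | some k =>
      rw [hsome, hsome] at hc
      have h1 : (ζ ^ (i : ℕ)) ^ (-1 : ℤ) = (ζ ^ (k : ℕ)) ^ (-1 : ℤ) := Units.ext hc
      rw [zpow_neg_one, zpow_neg_one, inv_inj] at h1
      have h2 := hζ.pow_inj i.2 k.2 h1
      exact congrArg some (Fin.ext h2)

/-- **`ι(minpoly) = ∏ (Y - σ x)`.** -/
theorem s34pz_map_minpoly (hq : q.Prime)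
    (hWα : ∀ f : FunField 1, W (heckeAlphaBar QBar 1 q f) = heckeBetaBar QBar 1 q f)
    (hWβ : ∀ f : FunField 1, W (heckeBetaBar QBar 1 q f) = heckeAlphaBar QBar 1 q f)
    (hζ : IsPrimitiveRoot ζ q) :
    letI := algebraAlong (heckeAlphaBar QBar 1 q)
    (minpoly (FunField 1) (s34pz_x q)).map (s37es_nm_iota 1 q) =
      ∏ o : Option (Fin q),
        (Polynomial.X - Polynomial.C (s37es_nm_sigma 1 q W ζ o (s34pz_x q))) := by
  letI : Algebra (FunField 1) (FunField (1 * q)) := algebraAlong (heckeAlphaBar QBar 1 q)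
  have hq1 : ¬ q ∣ 1 := fun h => hq.one_lt.ne' (Nat.dvd_one.mp h)
  have hfr : Module.finrank (FunField 1) (FunField (1 * q)) = q + 1 :=
    s37es_nm_finrank 1 q hq hq1
  haveI : FiniteDimensional (FunField 1) (FunField (1 * q)) :=
    Module.finite_of_finrank_pos (by rw [hfr]; omega)
  have hint : IsIntegral (FunField 1) (s34pz_x q) := Algebra.IsIntegral.isIntegral _
  have hcomp : ∀ o, (s37es_nm_sigma 1 q W ζ o).comp (algebraMap (FunField 1) (FunField (1 * q))) =
      s37es_nm_iota 1 q := by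
    intro o
    refine RingHom.ext fun y => ?_
    exact s37es_nm_sigma_commutes 1 q W hWα ζ hζ.pow_eq_one o y
  have hroot : ∀ o, ((minpoly (FunField 1) (s34pz_x q)).map (s37es_nm_iota 1 q)).IsRoot
      (s37es_nm_sigma 1 q W ζ o (s34pz_x q)) := by
    intro o
    have h0 : Polynomial.aeval (s34pz_x q) (minpoly (FunField 1) (s34pz_x q)) = 0 :=
      minpoly.aeval _ _
    have h1 := congrArg (s37es_nm_sigma 1 q W ζ o) h0
    rw [Polynomial.aeval_def, Polynomial.hom_eval₂, map_zero, hcomp] at h1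
    rw [Polynomial.IsRoot.def, Polynomial.eval_map]
    exact h1
  have hdvd : (∏ o : Option (Fin q),
      (Polynomial.X - Polynomial.C (s37es_nm_sigma 1 q W ζ o (s34pz_x q)))) ∣
      (minpoly (FunField 1) (s34pz_x q)).map (s37es_nm_iota 1 q) := by
    refine Finset.prod_dvd_of_coprime ?_ fun o _ => Polynomial.dvd_iff_isRoot.2 (hroot o)
    intro o _ o' _ hoo'
    refine Polynomial.isCoprime_X_sub_C_of_isUnit_sub ?_
    rw [isUnit_iff_ne_zero, sub_ne_zero]
    exact fun h => hoo' (s34pz_sigma_x_injective q W ζ hq hWβ hζ h)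
  have hmonic : ((minpoly (FunField 1) (s34pz_x q)).map (s37es_nm_iota 1 q)).Monic :=
    (minpoly.monic hint).map _
  have hdeg : ((minpoly (FunField 1) (s34pz_x q)).map (s37es_nm_iota 1 q)).natDegree ≤
      (∏ o : Option (Fin q),
        (Polynomial.X - Polynomial.C (s37es_nm_sigma 1 q W ζ o (s34pz_x q)))).natDegree := by
    rw [Polynomial.natDegree_finsetProd_X_sub_C_eq_card, Finset.card_univ, Fintype.card_option,
      Fintype.card_fin, (minpoly.monic hint).natDegree_map, ← hfr]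
    exact minpoly.natDegree_le _
  exact Polynomial.eq_of_monic_of_dvd_of_natDegree_le (Polynomial.monic_prod_X_sub_C _ _) hmonic
    hdvd hdeg

/-- **The coefficients of the minimal polynomial have `ℤ̄`-integral expansions.** -/
theorem s34pz_coeff_int (hq : q.Prime)
    (hWα : ∀ f : FunField 1, W (heckeAlphaBar QBar 1 q f) = heckeBetaBar QBar 1 q f)
    (hWβ : ∀ f : FunField 1, W (heckeBetaBar QBar 1 q f) = heckeAlphaBar QBar 1 q f)
    (hζ : IsPrimitiveRoot ζ q) (k : ℕ) :
    letI := algebraAlong (heckeAlphaBar QBar 1 q)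
    (((minpoly (FunField 1) (s34pz_x q)).coeff k : FunField 1) : LaurentSeries QBar) ∈
      s34pz_int s34pz_Z := by
  letI : Algebra (FunField 1) (FunField (1 * q)) := algebraAlong (heckeAlphaBar QBar 1 q)
  refine s34pz_of_qExpand_mem _ q ?_
  rw [← s37es_nm_iota_apply, ← Polynomial.coeff_map, s34pz_map_minpoly q W ζ hq hWα hWβ hζ]
  exact s34pz_prod_coeff_mem _ _ _
    (fun o _ => s34pz_sigma_mem_int q W ζ hWβ hζ.pow_eq_one o) k

end Emb


end Fermat.Agent.S34
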