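/-
S34, leaf [SS-INT], route without [COUNT] (owner: helper24).  Prefix `s34pz_`.
Part 3: THE INTEGRAL MODULAR EQUATION.

  `s34pz_main` : for a prime `q` there is `Φ ∈ ℤ[X][Y]`, monic in `Y`, with
                 `Φ(j, j(q^q)) = 0` and `Φ(j(q^q), j) = 0`   (in `ℚ((q))`).
-/
import Mathlib
import Fermat.Agent.S34.PhiZ

set_option autoImplicit false
set_option linter.style.haveILetI false
set_option linter.unusedSectionVars false

open ModularCurve AlgebraicCurve

noncomputable section

namespace Fermat.Agent.S34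

open Fermat.Agent.S24 Fermat.Agent.S37

/-! ### Integrality over `ℤ[j]` -/

section Final

/-- Evaluation of integral polynomials at `u` (no `Algebra` instance involved). -/
def s34pz_ev {L : Type*} [CommRing L] (u : L) : Polynomial ℤ →+* L :=
  Polynomial.eval₂RingHom (Int.castRingHom L) u

theorem s34pz_ev_X {L : Type*} [CommRing L] (u : L) : s34pz_ev u Polynomial.X = u := by
  simp [s34pz_ev]

theorem s34pz_ev_C {L : Type*} [CommRing L] (u : L) (n : ℤ) :
    s34pz_ev u (Polynomial.C n) = (n : L) := by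
  simp [s34pz_ev]

theorem s34pz_map_ev {L L' : Type*} [CommRing L] [CommRing L'] (g : L →+* L') (u : L) :
    g.comp (s34pz_ev u) = s34pz_ev (g u) := by
  refine Polynomial.ringHom_ext' (RingHom.ext_int _ _) ?_
  rw [RingHom.comp_apply, s34pz_ev_X, s34pz_ev_X]

/-- Transport of an integral relation along a ring homomorphism. -/
theorem s34pz_map_eval₂ {L L' : Type*} [CommRing L] [CommRing L'] (g : L →+* L') (u x : L)
    (Φ : Polynomial (Polynomial ℤ)) :
    g (Φ.eval₂ (s34pz_ev u) x) = Φ.eval₂ (s34pz_ev (g u)) (g x) := by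
  rw [Polynomial.hom_eval₂, s34pz_map_ev]

/-- `p(u)` is integral over `ℤ[u]` when `p` has coefficients integral over `ℤ`. -/
theorem s34pz_aeval_integral {L : Type*} [CommRing L] (g : QBar →+* L) (u : L)
    (p : Polynomial QBar) (hp : ∀ i, p.coeff i ∈ s34pz_Z) :
    (s34pz_ev u).IsIntegralElem (p.eval₂ g u) := by
  letI : Algebra (Polynomial ℤ) L := (s34pz_ev u).toAlgebra
  show IsIntegral (Polynomial ℤ) (p.eval₂ g u)
  rw [Polynomial.eval₂_eq_sum_range]
  refine IsIntegral.sum _ fun i _ => ?_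
  refine IsIntegral.mul ?_ (IsIntegral.pow ?_ _)
  · have h1 : IsIntegral ℤ (g (p.coeff i)) :=
      ((s34pz_mem_Z_iff _).1 (hp i)).map g.toIntAlgHom
    exact h1.tower_top
  · have h2 : IsIntegral (Polynomial ℤ) (algebraMap (Polynomial ℤ) L Polynomial.X) :=
      isIntegral_algebraMap
    have h3 : algebraMap (Polynomial ℤ) L Polynomial.X = u := s34pz_ev_X u
    rwa [h3] at h2

/-- A root of a monic polynomial whose coefficients are integral along `f` is integral
along `f`. -/
theorem s34pz_integral_of_root {R L : Type*} [CommRing R] [CommRing L] (f : R →+* L)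
    (P : Polynomial L) (hP : P.Monic) (hc : ∀ k, f.IsIntegralElem (P.coeff k)) {x : L}
    (hx : P.eval x = 0) : f.IsIntegralElem x := by
  letI : Algebra R L := f.toAlgebra
  have hc' : ∀ k, IsIntegral R (P.coeff k) := hc
  have hl : P ∈ Polynomial.lifts (algebraMap ↥(integralClosure R L) L) := by
    rw [Polynomial.lifts_iff_coeff_lifts]
    intro k
    exact ⟨⟨P.coeff k, hc' k⟩, rfl⟩
  obtain ⟨P', hP', -, hP'm⟩ := Polynomial.lifts_and_natDegree_eq_and_monic hl hP
  have h1 : IsIntegral ↥(integralClosure R L) x := by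
    refine ⟨P', hP'm, ?_⟩
    rw [← Polynomial.eval_map, hP']
    exact hx
  exact isIntegral_trans x h1

variable (q : ℕ) [NeZero q]

theorem s34pz_coe_aeval (N : ℕ) (p : Polynomial QBar) :
    ((Polynomial.aeval (jF N) p : FunField N) : LaurentSeries QBar) =
      p.eval₂ (algebraMap QBar (LaurentSeries QBar)) (jLaurent 1) := by
  have h := Polynomial.aeval_algHom_apply
    (IntermediateField.val (modularFunctionFieldBar N)) (jF N) p
  rw [← Polynomial.aeval_def]
  exact h.symm

/-- The inclusion `F̄_N → Q̄((q))` as a ring homomorphism. -/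
def s34pz_val (N : ℕ) : FunField N →+* LaurentSeries QBar :=
  (IntermediateField.val (modularFunctionFieldBar N)).toRingHom

theorem s34pz_val_apply (N : ℕ) (z : FunField N) :
    s34pz_val N z = (z : LaurentSeries QBar) := rfl

theorem s34pz_val_injective (N : ℕ) : Function.Injective (s34pz_val N) :=
  (s34pz_val N).injective

theorem s34pz_alg_apply (y : FunField 1) :
    letI := algebraAlong (heckeAlphaBar QBar 1 q)
    algebraMap (FunField 1) (FunField (1 * q)) y = heckeAlphaBar QBar 1 q y := rfl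

theorem s34pz_val_comp :
    letI := algebraAlong (heckeAlphaBar QBar 1 q)
    (s34pz_val (1 * q)).comp (algebraMap (FunField 1) (FunField (1 * q))) = s34pz_val 1 := by
  letI : Algebra (FunField 1) (FunField (1 * q)) := algebraAlong (heckeAlphaBar QBar 1 q)
  refine RingHom.ext fun y => ?_
  rw [RingHom.comp_apply, s34pz_alg_apply, s34pz_val_apply, s34pz_val_apply]
  exact coe_heckeAlphaBar 1 q y

/-- The minimal polynomial of `x` over `F̄_1`, with coefficients pushed to `Q̄((q))`. -/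
def s34pz_P : Polynomial (LaurentSeries QBar) :=
  letI := algebraAlong (heckeAlphaBar QBar 1 q)
  (minpoly (FunField 1) (s34pz_x q)).map (s34pz_val 1)

theorem s34pz_P_coeff (k : ℕ) :
    letI := algebraAlong (heckeAlphaBar QBar 1 q)
    (s34pz_P q).coeff k =
      (((minpoly (FunField 1) (s34pz_x q)).coeff k : FunField 1) : LaurentSeries QBar) := by
  letI : Algebra (FunField 1) (FunField (1 * q)) := algebraAlong (heckeAlphaBar QBar 1 q)
  rw [s34pz_P, Polynomial.coeff_map, s34pz_val_apply]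

theorem s34pz_finite (hq : q.Prime) :
    letI := algebraAlong (heckeAlphaBar QBar 1 q)
    FiniteDimensional (FunField 1) (FunField (1 * q)) := by
  letI : Algebra (FunField 1) (FunField (1 * q)) := algebraAlong (heckeAlphaBar QBar 1 q)
  have hq1 : ¬ q ∣ 1 := fun h => hq.one_lt.ne' (Nat.dvd_one.mp h)
  have hfr : Module.finrank (FunField 1) (FunField (1 * q)) = q + 1 :=
    s37es_nm_finrank 1 q hq hq1
  exact Module.finite_of_finrank_pos (by rw [hfr]; omega)

theorem s34pz_P_monic (hq : q.Prime) : (s34pz_P q).Monic := by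
  letI : Algebra (FunField 1) (FunField (1 * q)) := algebraAlong (heckeAlphaBar QBar 1 q)
  haveI := s34pz_finite q hq
  have hint : IsIntegral (FunField 1) (s34pz_x q) := Algebra.IsIntegral.isIntegral _
  exact (minpoly.monic hint).map _

theorem s34pz_exists_zeta : ∃ ζ : QBarˣ, IsPrimitiveRoot ζ q := by
  obtain ⟨z, hz⟩ := HasEnoughRootsOfUnity.exists_primitiveRoot QBar q
  refine ⟨(hz.isUnit (NeZero.ne q)).unit, ?_⟩
  rw [← IsPrimitiveRoot.coe_units_iff]
  exact hz

theorem s34pz_P_coeff_integral (hq : q.Prime) (k : ℕ) :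
    (s34pz_ev (jLaurent 1)).IsIntegralElem ((s34pz_P q).coeff k) := by
  obtain ⟨W, hWα, hWβ⟩ := s37al_W 1 q (Nat.coprime_one_left q)
  obtain ⟨ζ, hζ⟩ := s34pz_exists_zeta q
  obtain ⟨p, hp⟩ := s34pz_minpoly_coeff q k
  have hk := s34pz_coeff_int q W ζ hq hWα hWβ hζ k
  rw [s34pz_P_coeff]
  rw [hp] at hk ⊢
  rw [s34pz_coe_aeval] at hk ⊢
  refine s34pz_aeval_integral (algebraMap QBar (LaurentSeries QBar)) (jLaurent 1) p
    (s34pz_poly s34pz_Z p ?_)
  rw [Polynomial.aeval_def]
  exact hk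

theorem s34pz_P_root : (s34pz_P q).eval (jLaurent (1 * q)) = 0 := by
  letI : Algebra (FunField 1) (FunField (1 * q)) := algebraAlong (heckeAlphaBar QBar 1 q)
  have h0 : Polynomial.aeval (s34pz_x q) (minpoly (FunField 1) (s34pz_x q)) = 0 :=
    minpoly.aeval _ _
  have h1 := congrArg (s34pz_val (1 * q)) h0
  rw [Polynomial.aeval_def, Polynomial.hom_eval₂, map_zero, s34pz_val_comp, s34pz_val_apply,
    s34pz_coe_x] at h1
  rw [s34pz_P, Polynomial.eval_map]
  exact h1

/-- **`j(q^q)` is integral over `ℤ[j]`, in `Q̄((q))`.** -/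
theorem s34pz_bar_integral (hq : q.Prime) :
    (s34pz_ev (jLaurent 1)).IsIntegralElem (jLaurent (1 * q)) :=
  s34pz_integral_of_root (s34pz_ev (jLaurent 1)) (s34pz_P q) (s34pz_P_monic q hq)
    (s34pz_P_coeff_integral q hq) (s34pz_P_root q)

/-! ### The relation over `ℚ`, and the swapped relation -/

theorem s34pz_jLaurent_one : jLaurent 1 = coeffEmb QBar jq := by
  rw [jLaurent, qExpand_one_apply]

theorem s34pz_jLaurent_q : jLaurent (1 * q) = coeffEmb QBar (qExpand ℚ q jq) := by
  rw [jLaurent, qExpand_congr (one_mul q)]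

theorem s34pz_W_jF (W : FunField (1 * q) →ₐ[QBar] FunField (1 * q))
    (hWα : ∀ f : FunField 1, W (heckeAlphaBar QBar 1 q f) = heckeBetaBar QBar 1 q f) :
    W (jF (1 * q)) = s34pz_x q := by
  rw [← s34pz_alpha_jF q, hWα]
  rfl

theorem s34pz_W_x (W : FunField (1 * q) →ₐ[QBar] FunField (1 * q))
    (hWβ : ∀ f : FunField 1, W (heckeBetaBar QBar 1 q f) = heckeAlphaBar QBar 1 q f) :
    W (s34pz_x q) = jF (1 * q) := by
  rw [s34pz_x, hWβ, s34pz_alpha_jF q]

/-- **THE INTEGRAL MODULAR EQUATION**: for a prime `q` there is `Φ ∈ ℤ[X][Y]`, monic in `Y`,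
with `Φ(j, j(q^q)) = 0` and `Φ(j(q^q), j) = 0` in `ℚ((q))`. -/
theorem s34pz_main (hq : q.Prime) :
    ∃ Φ : Polynomial (Polynomial ℤ), Φ.Monic ∧
      Φ.eval₂ (s34pz_ev jq) (qExpand ℚ q jq) = 0 ∧
      Φ.eval₂ (s34pz_ev (qExpand ℚ q jq)) jq = 0 := by
  obtain ⟨Φ, hΦ, h⟩ := s34pz_bar_integral q hq
  obtain ⟨W, hWα, hWβ⟩ := s37al_W 1 q (Nat.coprime_one_left q)
  have hinj : Function.Injective (coeffEmb QBar) := (coeffEmb QBar).injective
  refine ⟨Φ, hΦ, ?_, ?_⟩
  · apply hinj
    rw [s34pz_map_eval₂, map_zero, ← s34pz_jLaurent_one, ← s34pz_jLaurent_q]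
    exact h
  · -- pull back to `F̄_{1·q}`, apply `W`, push forward again
    have h1 : Φ.eval₂ (s34pz_ev (jF (1 * q))) (s34pz_x q) = 0 := by
      apply s34pz_val_injective (1 * q)
      rw [s34pz_map_eval₂, map_zero, s34pz_val_apply, s34pz_val_apply, s34pz_coe_x,
        s34pz_coe_jF]
      exact h
    have h2 := congrArg W.toRingHom h1
    rw [s34pz_map_eval₂, map_zero] at h2
    have h3 : W.toRingHom (jF (1 * q)) = s34pz_x q := s34pz_W_jF q W hWα
    have h4 : W.toRingHom (s34pz_x q) = jF (1 * q) := s34pz_W_x q W hWβ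
    rw [h3, h4] at h2
    have h5 := congrArg (s34pz_val (1 * q)) h2
    rw [s34pz_map_eval₂, map_zero, s34pz_val_apply, s34pz_val_apply, s34pz_coe_x,
      s34pz_coe_jF, s34pz_jLaurent_one, s34pz_jLaurent_q] at h5
    apply hinj
    rw [s34pz_map_eval₂, map_zero]
    exact h5

/-- A relation `Φ(u, x) = 0`, `Φ ∈ ℤ[X][Y]` monic in `Y`, makes `x` integral over `O[u]`. -/
theorem s34pz_isIntegral_adjoin {O F : Type*} [CommRing O] [CommRing F] [Algebra O F] (u x : F)
    (Φ : Polynomial (Polynomial ℤ)) (hΦ : Φ.Monic) (h : Φ.eval₂ (s34pz_ev u) x = 0) :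
    IsIntegral ↥(Algebra.adjoin O ({u} : Set F)) x := by
  let u' : ↥(Algebra.adjoin O ({u} : Set F)) := ⟨u, Algebra.subset_adjoin rfl⟩
  have hu' : algebraMap ↥(Algebra.adjoin O ({u} : Set F)) F u' = u := rfl
  refine ⟨Φ.map (s34pz_ev u'), hΦ.map _, ?_⟩
  rw [Polynomial.eval₂_map, s34pz_map_ev, hu']
  exact h

end Final

end Fermat.Agent.S34
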