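/-
S34, leaf [SS-INT], route without [COUNT] (owner: helper24).  Prefix `s34pz_`.
Part 4: (INT) in the carriers of the model.  For EVERY commutative ring `O`, every field `K` of
characteristic `0` with an `O`-algebra structure, every level `N` and every prime `q ∣ N`
(no hypothesis relating `O`, `q` and `N`):

  `s34pz_int_jq` : `j(q^q)` is integral over `O[j]`      in `F_K(N)`;
  `s34pz_int_j`  : `j` is integral over `O[j(q^q)]`      in `F_K(N)`.

Both come from the integral modular equation `s34pz_main` (`PhiZMain.lean`).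
-/
import Mathlib
import Fermat.Agent.S34.PhiZMain
import Fermat.Agent.S34.SsGaussA

set_option autoImplicit false
set_option linter.style.haveILetI false
set_option linter.unusedSectionVars false

open ModularCurve AlgebraicCurve

noncomputable section

namespace Fermat.Agent.S34

open Fermat.Agent.S18

section K

variable (O K : Type) [CommRing O] [Field K] [CharZero K] [Algebra O K] (N : ℕ) [NeZero N]

/-- The inclusion `F_K(N) → K((q))` as a ring homomorphism. -/
def s34pz_valK : ↥(s18_F K N) →+* LaurentSeries K :=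
  (IntermediateField.val (s18_F K N)).toRingHom

theorem s34pz_valK_apply (z : ↥(s18_F K N)) : s34pz_valK K N z = (z : LaurentSeries K) := rfl

theorem s34pz_valK_injective : Function.Injective (s34pz_valK K N) :=
  (s34pz_valK K N).injective

theorem s34pz_coe_s18_j : ((s18_j K N : ↥(s18_F K N)) : LaurentSeries K) = coeffEmb K jq := rfl

theorem s34pz_coe_jd (d : ℕ) [NeZero d] (hd : d ∣ N) :
    ((s34g_jd K N d hd : ↥(s18_F K N)) : LaurentSeries K) = coeffEmb K (qExpand ℚ d jq) := rfl

/-- The two relations of the integral modular equation, in `F_K(N)`. -/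
theorem s34pz_relK (q : ℕ) [NeZero q] (hq : q.Prime) (hqN : q ∣ N) :
    ∃ Φ : Polynomial (Polynomial ℤ), Φ.Monic ∧
      Φ.eval₂ (s34pz_ev (s18_j K N)) (s34g_jd K N q hqN) = 0 ∧
      Φ.eval₂ (s34pz_ev (s34g_jd K N q hqN)) (s18_j K N) = 0 := by
  obtain ⟨Φ, hΦ, h1, h2⟩ := s34pz_main q hq
  refine ⟨Φ, hΦ, ?_, ?_⟩
  · apply s34pz_valK_injective K N
    rw [s34pz_map_eval₂, map_zero, s34pz_valK_apply, s34pz_valK_apply, s34pz_coe_s18_j,
      s34pz_coe_jd, ← s34pz_map_eval₂, h1, map_zero]
  · apply s34pz_valK_injective K N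
    rw [s34pz_map_eval₂, map_zero, s34pz_valK_apply, s34pz_valK_apply, s34pz_coe_s18_j,
      s34pz_coe_jd, ← s34pz_map_eval₂, h2, map_zero]

/-- **(INT)**: `j(q^q)` is integral over `O[j]` in `F_K(N)`. -/
theorem s34pz_int_jq (q : ℕ) [NeZero q] (hq : q.Prime) (hqN : q ∣ N) :
    letI := s18_algOF O K N
    IsIntegral ↥(Algebra.adjoin O ({s18_j K N} : Set ↥(s18_F K N))) (s34g_jd K N q hqN) := by
  letI := s18_algOF O K N
  obtain ⟨Φ, hΦ, h1, -⟩ := s34pz_relK K N q hq hqN
  exact s34pz_isIntegral_adjoin _ _ Φ hΦ h1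

/-- **(INT')**: `j` is integral over `O[j(q^q)]` in `F_K(N)`. -/
theorem s34pz_int_j (q : ℕ) [NeZero q] (hq : q.Prime) (hqN : q ∣ N) :
    letI := s18_algOF O K N
    IsIntegral ↥(Algebra.adjoin O ({s34g_jd K N q hqN} : Set ↥(s18_F K N))) (s18_j K N) := by
  letI := s18_algOF O K N
  obtain ⟨Φ, hΦ, -, h2⟩ := s34pz_relK K N q hq hqN
  exact s34pz_isIntegral_adjoin _ _ Φ hΦ h2

end K

end Fermat.Agent.S34
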