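/-
S34, leaf [SS-BRANCH] = (D2) of the cut, part 5 (helper15).  Prefix `s34sb_`.

THE FIBRES OF THE TWO CHARTS OF LEVEL `M` OVER `(K0, O)` ARE DEDEKIND DOMAINS (S18 [MODEL-Q] +
helper23's `s34nd_fibre_dedekind_of`), hypothesis-free.
-/
import Mathlib
import Fermat.Agent.S34.SsNodeDed
import Fermat.Agent.S34.SsBranchK

set_option autoImplicit false
set_option linter.unusedSectionVars false
set_option linter.unusedVariables false
set_option linter.style.haveILetI false
set_option synthInstance.maxHeartbeats 400000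
set_option maxHeartbeats 1000000

open AlgebraicCurve ModularCurve IntermediateField
open Fermat.Agent.S18

noncomputable section

namespace Fermat.Agent.S34

section K0

variable (M q : ℕ) [NeZero M] [NeZero q] [NeZero (M * q)]
  (K0 : IntermediateField ℚ (AlgebraicClosure ℚ)) (hK0 : FiniteDimensional ℚ ↥K0)
  (O : ValuationSubring ↥K0) [IsDiscreteValuationRing ↥O]

include hK0 in
/-- The fibre of the finite chart of level `M` is a Dedekind domain. -/
theorem s34sb_dedekind_fin (hq : q.Prime) (hM : ¬ q ∣ M) (h49 : 4 ∣ M ∨ 9 ∣ M)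
    (hqO : (q : ↥O) ∈ IsLocalRing.maximalIdeal ↥O) :
    letI := s18_algOF ↥O ↥K0 M
    IsDedekindDomain (s18_fibre ↥O ({s18_j ↥K0 M} : Set ↥(s18_F ↥K0 M))) := by
  letI := s18_algOF ↥O ↥K0 M
  haveI := s18_towerOF ↥O ↥K0 M
  have hm := s34sb_model M q K0 hK0 O hq hM h49 hqO
  exact s34nd_fibre_dedekind_of ↥O ↥K0 ↥(s18_F ↥K0 M) hm.transcendental hm.finite
    hm.isDomain_fin hm.isIntegrallyClosed_fin

include hK0 in
/-- The fibre of the chart at infinity of level `M` is a Dedekind domain. -/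
theorem s34sb_dedekind_inf (hq : q.Prime) (hM : ¬ q ∣ M) (h49 : 4 ∣ M ∨ 9 ∣ M)
    (hqO : (q : ↥O) ∈ IsLocalRing.maximalIdeal ↥O) :
    letI := s18_algOF ↥O ↥K0 M
    IsDedekindDomain (s18_fibre ↥O ({(s18_j ↥K0 M)⁻¹} : Set ↥(s18_F ↥K0 M))) := by
  letI := s18_algOF ↥O ↥K0 M
  haveI := s18_towerOF ↥O ↥K0 M
  have hm := s34sb_model M q K0 hK0 O hq hM h49 hqO
  exact s34nd_fibre_dedekind_of ↥O ↥K0 ↥(s18_F ↥K0 M) s34sb_transc_inv s34sb_finite_inv
    hm.isDomain_inf hm.isIntegrallyClosed_inf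

end K0

end Fermat.Agent.S34
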