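/-
S34, leaf [SS-GAUSS] = (D0) of the cut, part (e): THE DEGENERACY MAPS AND THE GAUSS BRANCHES
(helper27).  Prefix `s34g_`.

`O` a discrete valuation ring of characteristic zero, `K = Frac O`, levels `M` and `M * q`,
`α = heckeAlphaBar K M q` (the inclusion `F_K(M) ⊆ F_K(M q)`), `β = heckeBetaBar K M q`
(`T ↦ T ^ q`).  With `V_∞(M) = s34g_V O K M`, `V_∞ = s34g_V O K (M * q)`:

  `s34g_alpha_mem_iff` : `α b ∈ V_∞ ↔ b ∈ V_∞(M)`,      `s34g_rho_alpha` : `ρ_∞ (α b) = ρ_M b`,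
  `s34g_beta_mem_iff`  : `β b ∈ V_∞ ↔ b ∈ V_∞(M)`,      `s34g_rho_beta`  : `ρ_∞ (β b) = (ρ_M b)(T ^ q)`,

and for a `K`-automorphism `W` of `F_K(M q)` with `W α = β`, `W β = α`:

  `α b ∈ V_0 ↔ b ∈ V_∞(M)`, `ρ_0 (α b) = (ρ_M b)(T ^ q)`, `β b ∈ V_0 ↔ b ∈ V_∞(M)`,
  `ρ_0 (β b) = ρ_M b`.
-/
import Mathlib
import Fermat.Prelude.Def_ModularCurve_HeckeOperator
import Fermat.Prelude.Thm_ModularCurve_coeffMap_qExpand
import Fermat.Agent.S34.SsGaussV0

set_option autoImplicit false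
set_option linter.unusedSectionVars false
set_option linter.unusedVariables false
set_option linter.style.haveILetI false
set_option maxHeartbeats 400000

open AlgebraicCurve ModularCurve IntermediateField
open Fermat.Agent.S18

noncomputable section

namespace Fermat.Agent.S34

section R

variable {O K : Type} [CommRing O] [IsDomain O] [IsDiscreteValuationRing O] [Field K]
  [Algebra O K] [IsFractionRing O K] (q : ℕ) [NeZero q]

/-- `T ↦ T ^ q` preserves `R`. -/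
theorem s34g_R_qExpand (x : LaurentSeries K) (hx : x ∈ s18ga_R O K) :
    qExpand K q x ∈ s18ga_R O K := by
  obtain ⟨a, s, hs, h⟩ := hx
  refine ⟨qExpand O q a, qExpand O q s, ?_, ?_⟩
  · rw [coeffMap_qExpand]
    intro h0
    apply hs
    apply qExpand_injective (R := IsLocalRing.ResidueField O) (N := q)
    rw [h0, map_zero]
  · rw [coeffMap_qExpand, coeffMap_qExpand, ← map_mul, h]

/-- `ρ₀ (x (T ^ q)) = (ρ₀ x)(T ^ q)`. -/
theorem s34g_rho_R_qExpand (x : ↥(s18ga_R O K)) :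
    s18ga_rho O K ⟨qExpand K q (x : LaurentSeries K), s34g_R_qExpand q _ x.2⟩ =
      qExpand (IsLocalRing.ResidueField O) q (s18ga_rho O K x) := by
  obtain ⟨a, s, hs, h⟩ := x.2
  have hs' : coeffMap (IsLocalRing.residue O) (qExpand O q s) ≠ 0 := by
    rw [coeffMap_qExpand]
    intro h0
    apply hs
    apply qExpand_injective (R := IsLocalRing.ResidueField O) (N := q)
    rw [h0, map_zero]
  rw [s18ga_rho_eq x a s hs h,
    s18ga_rho_eq ⟨qExpand K q (x : LaurentSeries K), s34g_R_qExpand q _ x.2⟩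
      (qExpand O q a) (qExpand O q s) hs'
      (by
        show qExpand K q (x : LaurentSeries K) * _ = _
        rw [coeffMap_qExpand, coeffMap_qExpand, ← map_mul, h]),
    coeffMap_qExpand, coeffMap_qExpand, map_div₀]

end R

section AB

variable {O K : Type} [CommRing O] [IsDomain O] [IsDiscreteValuationRing O] [Field K]
  [CharZero K] [Algebra O K] [IsFractionRing O K] (M q : ℕ) [NeZero M] [NeZero q]
  [NeZero (M * q)]

/-- `α b ∈ V_∞ ↔ b ∈ V_∞(M)`. -/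
theorem s34g_alpha_mem_iff (b : ↥(s18_F K M)) :
    heckeAlphaBar K M q b ∈ s34g_V O K (M * q) ↔ b ∈ s34g_V O K M := by
  rw [s34g_mem_V_iff', s34g_mem_V_iff', coe_heckeAlphaBar]

/-- `ρ_∞ (α b) = ρ_M b`. -/
theorem s34g_rho_alpha (b : ↥(s34g_V O K M)) :
    s34g_rho O K (M * q) ⟨heckeAlphaBar K M q (b : ↥(s18_F K M)),
      (s34g_alpha_mem_iff M q _).2 b.2⟩ = s34g_rho O K M b := by
  have hmem : ((heckeAlphaBar K M q (b : ↥(s18_F K M)) : ↥(s18_F K (M * q))) :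
      LaurentSeries K) ∈ s18ga_R O K :=
    (s34g_mem_V_iff' (O := O) (heckeAlphaBar K M q (b : ↥(s18_F K M)))).1
      ((s34g_alpha_mem_iff M q _).2 b.2)
  have hb : ((b : ↥(s18_F K M)) : LaurentSeries K) ∈ s18ga_R O K :=
    (s34g_mem_V_iff' (O := O) (b : ↥(s18_F K M))).1 b.2
  have e : (⟨_, hmem⟩ : ↥(s18ga_R O K)) = ⟨((b : ↥(s18_F K M)) : LaurentSeries K), hb⟩ :=
    Subtype.ext (coe_heckeAlphaBar M q (b : ↥(s18_F K M)))
  exact congrArg (s18ga_rho O K) e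

theorem s34g_beta_mem (b : ↥(s18_F K M)) (hb : b ∈ s34g_V O K M) :
    heckeBetaBar K M q b ∈ s34g_V O K (M * q) := by
  rw [s34g_mem_V_iff', coe_heckeBetaBar]
  exact s34g_R_qExpand q _ hb

/-- `ρ_∞ (β b) = (ρ_M b)(T ^ q)`. -/
theorem s34g_rho_beta (b : ↥(s34g_V O K M)) :
    s34g_rho O K (M * q) ⟨heckeBetaBar K M q (b : ↥(s18_F K M)),
      s34g_beta_mem M q _ b.2⟩ =
      qExpand (IsLocalRing.ResidueField O) q (s34g_rho O K M b) := by
  have h := s34g_rho_R_qExpand (O := O) (K := K) q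
    ⟨((b : ↥(s18_F K M)) : LaurentSeries K), b.2⟩
  rw [← show s18ga_rho O K ⟨((b : ↥(s18_F K M)) : LaurentSeries K), b.2⟩ =
    s34g_rho O K M b from rfl, ← h]
  show s18ga_rho O K ⟨_, _⟩ = s18ga_rho O K ⟨_, _⟩
  congr 1

/-- `β b ∈ V_∞ ↔ b ∈ V_∞(M)`. -/
theorem s34g_beta_mem_iff (b : ↥(s18_F K M)) :
    heckeBetaBar K M q b ∈ s34g_V O K (M * q) ↔ b ∈ s34g_V O K M := by
  refine ⟨fun h => ?_, s34g_beta_mem M q b⟩
  by_contra hb
  have hinv : b⁻¹ ∈ s34g_V O K M := ((s34g_V O K M).mem_or_inv_mem b).resolve_left hb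
  have hb0 : b ≠ 0 := by
    rintro rfl
    exact hb (zero_mem _)
  have hnu : s34g_rho O K M ⟨b⁻¹, hinv⟩ = 0 := by
    by_contra h0
    have := s34g_inv_mem ⟨b⁻¹, hinv⟩ h0
    rw [inv_inv] at this
    exact hb this
  have h1 := s34g_rho_beta (O := O) M q ⟨b⁻¹, hinv⟩
  rw [hnu, map_zero] at h1
  have h2 : (⟨heckeBetaBar K M q b, h⟩ : ↥(s34g_V O K (M * q))) *
      ⟨heckeBetaBar K M q b⁻¹, s34g_beta_mem M q _ hinv⟩ = 1 := by
    apply Subtype.ext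
    show heckeBetaBar K M q b * heckeBetaBar K M q b⁻¹ = 1
    rw [← map_mul, mul_inv_cancel₀ hb0, map_one]
  have h3 := congrArg (s34g_rho O K (M * q)) h2
  rw [map_mul, h1, mul_zero, map_one] at h3
  exact zero_ne_one h3

/-! ### The second branch -/

variable (W : ↥(s18_F K (M * q)) ≃ₐ[K] ↥(s18_F K (M * q)))
  (hWα : ∀ f : ↥(s18_F K M), W (heckeAlphaBar K M q f) = heckeBetaBar K M q f)
  (hWβ : ∀ f : ↥(s18_F K M), W (heckeBetaBar K M q f) = heckeAlphaBar K M q f)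

include hWα in
/-- `α b ∈ V_0 ↔ b ∈ V_∞(M)`. -/
theorem s34g_alpha_mem_iff0 (b : ↥(s18_F K M)) :
    heckeAlphaBar K M q b ∈ s34g_V0 O W ↔ b ∈ s34g_V O K M := by
  rw [s34g_mem_V0_iff, hWα]
  exact s34g_beta_mem_iff M q b

include hWβ in
/-- `β b ∈ V_0 ↔ b ∈ V_∞(M)`. -/
theorem s34g_beta_mem_iff0 (b : ↥(s18_F K M)) :
    heckeBetaBar K M q b ∈ s34g_V0 O W ↔ b ∈ s34g_V O K M := by
  rw [s34g_mem_V0_iff, hWβ]
  exact s34g_alpha_mem_iff M q b

/-- `ρ_0 (α b) = (ρ_M b)(T ^ q)`. -/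
theorem s34g_rho0_alpha (b : ↥(s34g_V O K M)) :
    s34g_rho0 O W ⟨heckeAlphaBar K M q (b : ↥(s18_F K M)),
      (s34g_alpha_mem_iff0 M q W hWα _).2 b.2⟩ =
      qExpand (IsLocalRing.ResidueField O) q (s34g_rho O K M b) := by
  rw [s34g_rho0_apply, ← s34g_rho_beta (O := O) M q b]
  congr 1
  exact Subtype.ext (hWα _)

/-- `ρ_0 (β b) = ρ_M b`. -/
theorem s34g_rho0_beta (b : ↥(s34g_V O K M)) :
    s34g_rho0 O W ⟨heckeBetaBar K M q (b : ↥(s18_F K M)),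
      (s34g_beta_mem_iff0 M q W hWβ _).2 b.2⟩ = s34g_rho O K M b := by
  rw [s34g_rho0_apply, ← s34g_rho_alpha (O := O) M q b]
  congr 1
  exact Subtype.ext (hWβ _)

include hWα in
/-- `α V_∞(M) ⊆ V_∞ ∩ V_0`. -/
theorem s34g_alpha_mem_W2 (b : ↥(s18_F K M)) (hb : b ∈ s34g_V O K M) :
    heckeAlphaBar K M q b ∈ s34g_W2 O W :=
  ⟨(s34g_alpha_mem_iff M q b).2 hb, (s34g_alpha_mem_iff0 M q W hWα b).2 hb⟩

include hWβ in
/-- `β V_∞(M) ⊆ V_∞ ∩ V_0`. -/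
theorem s34g_beta_mem_W2 (b : ↥(s18_F K M)) (hb : b ∈ s34g_V O K M) :
    heckeBetaBar K M q b ∈ s34g_W2 O W :=
  ⟨(s34g_beta_mem_iff M q b).2 hb, (s34g_beta_mem_iff0 M q W hWβ b).2 hb⟩

end AB

end Fermat.Agent.S34
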