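/-
S34, leaf [SS-GAUSS], part (f): THE REDUCTION `ρ_M` ON THE CHARTS OF THE GOOD LEVEL `M`
(helper27).  Prefix `s34g_`.

`O` a discrete valuation ring of characteristic zero and residue characteristic `ℓ ∤ M`.
The reduction `s34g_rho O K M` restricted to the charts `s18_chart O {j}`, `s18_chart O {j⁻¹}`
of level `M` has kernel `π · chart`: it is a reduction datum in the sense of S18's `s18_HasRed`,
but for THE map `s34g_rho` (S18 only states the existence of some map).

  `s34g_ker_abs`        : the abstract statement (first half of S18 `s18ga_main`),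
  `s34g_chart_ker`      : `b ∈ chart(j)`, `ρ_M b = 0` ⟹ `b / π ∈ chart(j)`,
  `s34g_chart_ker_inv`  : the same for `chart(j⁻¹)`,
  `s34g_chart_ker_iff`, `s34g_chart_ker_inv_iff` : `ρ_M b = 0 ↔ b ∈ π · chart`.
-/
import Mathlib
import Fermat.Agent.S18.GaussQOf
import Fermat.Agent.S34.SsGaussNe

set_option autoImplicit false
set_option linter.unusedSectionVars false
set_option linter.unusedVariables false
set_option linter.style.haveILetI false
set_option warn.classDefReducibility false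
set_option maxHeartbeats 1000000
set_option synthInstance.maxHeartbeats 400000

open AlgebraicCurve ModularCurve IntermediateField Polynomial
open scoped MatrixGroups
open Fermat.Agent.S18

noncomputable section

namespace Fermat.Agent.S34

section Abs

variable {O K : Type} [CommRing O] [IsDomain O] [IsDiscreteValuationRing O] [Field K]
  [Algebra O K] [IsFractionRing O K] {F : IntermediateField K (LaurentSeries K)}

/-- **The kernel of the reduction on a chart**, abstract form: under the hypotheses of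
[GAUSS-ABS], an element of the chart of `x` with zero reduction is divisible by `π` in the
chart. -/
theorem s34g_ker_abs (x : ↥F) (ax : LaurentSeries O) (n : ℕ)
    (hx : ((x : ↥F) : LaurentSeries K) = coeffMap (algebraMap O K) ax)
    (htr : Transcendental (IsLocalRing.ResidueField O) (coeffMap (IsLocalRing.residue O) ax))
    (hfrac : ∀ y ∈ F, ∃ a b : LaurentSeries O, b ≠ 0 ∧
      y * coeffMap (algebraMap O K) b = coeffMap (algebraMap O K) a)
    (hspan : ∃ e : Fin n → ↥F, ∀ y : ↥F, ∃ c : Fin n → ↥(K⟮x⟯), y = ∑ i, c i • e i)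
    (hind : ∃ g : Fin n → LaurentSeries O, (∀ i, coeffMap (algebraMap O K) (g i) ∈ F) ∧
      ∀ c : Fin n → Polynomial (IsLocalRing.ResidueField O),
        (∑ i, Polynomial.aeval (coeffMap (IsLocalRing.residue O) ax) (c i) *
          coeffMap (IsLocalRing.residue O) (g i)) = 0 → ∀ i, c i = 0)
    {ϖ : O} (hϖ : Irreducible ϖ) (b : ↥F)
    (hb : letI := s18_algOFF O K F
      b ∈ s18_chart O ({x} : Set ↥F))
    (hbV : b ∈ s18ga_V F hfrac) (h0 : s18ga_rhoV hfrac ⟨b, hbV⟩ = 0) :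
    letI := s18_algOFF O K F
    b / algebraMap O ↥F ϖ ∈ s18_chart O ({x} : Set ↥F) := by
  obtain ⟨g, hgF, hgind⟩ := hind
  obtain ⟨hfin, hrank⟩ := s18ga_finrank_le x n hspan
  letI : Algebra O ↥F := s18_algOFF O K F
  haveI : IsScalarTower O K ↥F := IsScalarTower.of_algebraMap_eq (fun _ => rfl)
  have hO : ∀ a : O, algebraMap O ↥F a ∈ s18ga_V F hfrac := fun a => s18ga_hOV hfrac a
  have hρ : ∀ a : O, s18ga_rhoV hfrac (s18ga_iotaV hO a) =
      algebraMap (IsLocalRing.ResidueField O) (LaurentSeries (IsLocalRing.ResidueField O))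
        (IsLocalRing.residue O a) := by
    intro a
    rw [s18ga_rhoV_int hfrac (HahnSeries.C a) _ (s18ga_coe_algebraMap a), s18ga_coeffMap_C,
      HahnSeries.C_apply, ← algebraMap_laurentSeries_eq_single]
  have hunit : ∀ y : ↥(s18ga_V F hfrac), s18ga_rhoV hfrac y ≠ 0 →
      ((y : ↥F))⁻¹ ∈ s18ga_V F hfrac := s18ga_hunitV hfrac
  have hker : ∀ y : ↥(s18ga_V F hfrac), s18ga_rhoV hfrac y = 0 →
      (y : ↥F) / algebraMap O ↥F ϖ ∈ s18ga_V F hfrac := by
    intro y hy
    have h1 := s18ga_rho_eq_zero hϖ ⟨_, y.2⟩ hy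
    rw [s18ga_mem_V_iff, IntermediateField.coe_div, s18ga_coe_algebraMap, s18ga_coeffMap_C]
    exact h1
  have hxV : x ∈ s18ga_V F hfrac := by
    rw [s18ga_mem_V_iff, hx]
    exact s18ga_int_mem _
  have hρt : s18ga_rhoV hfrac ⟨x, hxV⟩ = coeffMap (IsLocalRing.residue O) ax :=
    s18ga_rhoV_int hfrac ax _ hx
  have hguV : ∀ i, (⟨_, hgF i⟩ : ↥F) ∈ s18ga_V F hfrac := fun i => by
    rw [s18ga_mem_V_iff]
    exact s18ga_int_mem _
  have hρu : ∀ i, s18ga_rhoV hfrac ⟨⟨_, hgF i⟩, hguV i⟩ =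
      coeffMap (IsLocalRing.residue O) (g i) := fun i =>
    s18ga_rhoV_int hfrac (g i) _ rfl
  have htr' : Transcendental (IsLocalRing.ResidueField O) (s18ga_rhoV hfrac ⟨x, hxV⟩) := by
    rw [hρt]; exact htr
  have hpoly : ∀ c : Fin n → (IsLocalRing.ResidueField O)[X],
      ∑ i, aeval (s18ga_rhoV hfrac ⟨x, hxV⟩) (c i) *
        s18ga_rhoV hfrac ⟨⟨_, hgF i⟩, hguV i⟩ = 0 → ∀ i, c i = 0 := by
    intro c hc
    apply hgind c
    rw [← hc]
    refine Finset.sum_congr rfl fun i _ => ?_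
    rw [hρt, hρu]
  exact s18ga_core (K := K) hunit hO hρ ϖ hker ⟨x, hxV⟩ htr' K⟮x⟯ rfl n hrank
    (fun i => ⟨⟨_, hgF i⟩, hguV i⟩) hpoly ⟨b, hbV⟩ hb h0

end Abs

section Level

variable {O K : Type} [CommRing O] [IsDomain O] [IsDiscreteValuationRing O] [Field K]
  [CharZero K] [Algebra O K] [IsFractionRing O K] (M : ℕ) [NeZero M] (ℓ : ℕ) [Fact ℓ.Prime]
  (hℓM : ¬ ℓ ∣ M) (hℓ : (ℓ : O) ∈ IsLocalRing.maximalIdeal O)

theorem s34g_chart_j_le (b : ↥(s18_F K M))
    (hb : letI := s18_algOF O K M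
      b ∈ s18_chart O ({s18_j K M} : Set ↥(s18_F K M))) : b ∈ s34g_V O K M :=
  s34g_chart_le _ (fun t ht => by rw [Set.mem_singleton_iff.mp ht]; exact s34g_j_mem) b hb

theorem s34g_chart_jinv_le (b : ↥(s18_F K M))
    (hb : letI := s18_algOF O K M
      b ∈ s18_chart O ({(s18_j K M)⁻¹} : Set ↥(s18_F K M))) : b ∈ s34g_V O K M :=
  s34g_chart_le _ (fun t ht => by rw [Set.mem_singleton_iff.mp ht]; exact s34g_j_inv_mem) b hb

include hℓM hℓ in
/-- **The kernel of `ρ_M` on the finite chart of level `M` is `π · chart`.** -/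
theorem s34g_chart_ker {ϖ : O} (hϖ : Irreducible ϖ) (b : ↥(s18_F K M))
    (hb : letI := s18_algOF O K M
      b ∈ s18_chart O ({s18_j K M} : Set ↥(s18_F K M)))
    (h0 : s34g_rho O K M ⟨b, s34g_chart_j_le M b hb⟩ = 0) :
    letI := s18_algOF O K M
    b / algebraMap O ↥(s18_F K M) ϖ ∈ s18_chart O ({s18_j K M} : Set ↥(s18_F K M)) := by
  have htr : Transcendental (IsLocalRing.ResidueField O)
      (coeffMap (IsLocalRing.residue O) (jqModC O)) := by
    rw [coeffMap_jqModC]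
    exact s18gq_transc_jq _
  exact s34g_ker_abs (s18_j K M) (jqModC O)
    (Nat.card (SL(2, ℤ) ⧸ CongruenceSubgroup.Gamma0 M)) (s18gq_j_coe' O K M) htr
    (s34g_hfrac O K M) (s18gq_span K M) (s18gq_indep_j O K M ℓ hℓM hℓ) hϖ b hb
    (s34g_chart_j_le M b hb) h0

include hℓM hℓ in
/-- **The kernel of `ρ_M` on the chart at infinity of level `M` is `π · chart`.** -/
theorem s34g_chart_ker_inv {ϖ : O} (hϖ : Irreducible ϖ) (b : ↥(s18_F K M))
    (hb : letI := s18_algOF O K M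
      b ∈ s18_chart O ({(s18_j K M)⁻¹} : Set ↥(s18_F K M)))
    (h0 : s34g_rho O K M ⟨b, s34g_chart_jinv_le M b hb⟩ = 0) :
    letI := s18_algOF O K M
    b / algebraMap O ↥(s18_F K M) ϖ ∈ s18_chart O ({(s18_j K M)⁻¹} : Set ↥(s18_F K M)) := by
  have htr' : Transcendental (IsLocalRing.ResidueField O)
      (coeffMap (IsLocalRing.residue O) (s18gq_jinv O)) := by
    rw [s18gq_coeffMap_jinv, s18gq_jinv_eq_inv]
    exact s18gq_transc_jq_inv _
  exact s34g_ker_abs (s18_j K M)⁻¹ (s18gq_jinv O)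
    (Nat.card (SL(2, ℤ) ⧸ CongruenceSubgroup.Gamma0 M)) (s18gq_jinv_coe O K M) htr'
    (s34g_hfrac O K M) (s18gq_span_inv K M) (s18gq_indep_jinv O K M ℓ hℓM hℓ) hϖ b hb
    (s34g_chart_jinv_le M b hb) h0

/-! ### The fibre ideal -/

/-- Elements of the fibre ideal of a chart inside `V_∞` have zero reduction (any level, any
chart). -/
theorem s34g_rho_of_mem_fibreIdeal (S : Set ↥(s18_F K M)) (hS : ∀ t ∈ S, t ∈ s34g_V O K M)
    (b : letI := s18_algOF O K M
      ↥(s18_chart O S))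
    (hb : letI := s18_algOF O K M
      b ∈ s18_fibreIdeal O S) :
    letI := s18_algOF O K M
    s34g_rho O K M ⟨(b : ↥(s18_F K M)), s34g_chart_le S hS _ b.2⟩ = 0 := by
  letI := s18_algOF O K M
  obtain ⟨ϖ, hϖ⟩ := IsDiscreteValuationRing.exists_irreducible O
  have h1 : s18_fibreIdeal O S =
      Ideal.span {algebraMap O ↥(s18_chart O S) ϖ} := by
    unfold s18_fibreIdeal
    rw [hϖ.maximalIdeal_eq, Ideal.map_span, Set.image_singleton]
  rw [h1, Ideal.mem_span_singleton'] at hb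
  obtain ⟨c, hc⟩ := hb
  have e : (⟨(b : ↥(s18_F K M)), s34g_chart_le S hS _ b.2⟩ : ↥(s34g_V O K M)) =
      ⟨(c : ↥(s18_F K M)), s34g_chart_le S hS _ c.2⟩ *
        ⟨_, s34g_algebraMap_mem (K := K) (N := M) ϖ⟩ := by
    apply Subtype.ext
    show (b : ↥(s18_F K M)) = (c : ↥(s18_F K M)) * algebraMap O ↥(s18_F K M) ϖ
    rw [← hc]
    rfl
  rw [e, map_mul, s34g_rho_pi hϖ ⟨_, s34g_algebraMap_mem (K := K) (N := M) ϖ⟩ rfl, mul_zero]

theorem s34g_mem_fibreIdeal_of_div (S : Set ↥(s18_F K M)) {ϖ : O} (hϖ : Irreducible ϖ)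
    (b : letI := s18_algOF O K M
      ↥(s18_chart O S))
    (hdiv : letI := s18_algOF O K M
      (b : ↥(s18_F K M)) / algebraMap O ↥(s18_F K M) ϖ ∈ s18_chart O S) :
    letI := s18_algOF O K M
    b ∈ s18_fibreIdeal O S := by
  letI := s18_algOF O K M
  have hπ := s34g_algebraMap_ne_zero (K := K) (N := M) hϖ.ne_zero
  have heq : b = algebraMap O ↥(s18_chart O S) ϖ *
      ⟨(b : ↥(s18_F K M)) / algebraMap O ↥(s18_F K M) ϖ, hdiv⟩ := by
    apply Subtype.ext
    show (b : ↥(s18_F K M)) = algebraMap O ↥(s18_F K M) ϖ *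
      ((b : ↥(s18_F K M)) / algebraMap O ↥(s18_F K M) ϖ)
    field_simp
  rw [heq]
  refine Ideal.mul_mem_right _ _ (Ideal.mem_map_of_mem _ ?_)
  rw [hϖ.maximalIdeal_eq]
  exact Ideal.mem_span_singleton_self ϖ

include hℓM hℓ in
/-- **`ker (ρ_M | chart(j)) = π · chart(j)`** at the good level `M`. -/
theorem s34g_mem_fibreIdeal_iff
    (b : letI := s18_algOF O K M
      ↥(s18_chart O ({s18_j K M} : Set ↥(s18_F K M)))) :
    letI := s18_algOF O K M
    b ∈ s18_fibreIdeal O ({s18_j K M} : Set ↥(s18_F K M)) ↔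
      s34g_rho O K M ⟨(b : ↥(s18_F K M)), s34g_chart_j_le M _ b.2⟩ = 0 := by
  letI := s18_algOF O K M
  constructor
  · intro hb
    exact s34g_rho_of_mem_fibreIdeal M _
      (fun t ht => by rw [Set.mem_singleton_iff.mp ht]; exact s34g_j_mem) b hb
  · intro h0
    obtain ⟨ϖ, hϖ⟩ := IsDiscreteValuationRing.exists_irreducible O
    exact s34g_mem_fibreIdeal_of_div M _ hϖ b (s34g_chart_ker M ℓ hℓM hℓ hϖ _ b.2 h0)

include hℓM hℓ in
/-- **`ker (ρ_M | chart(j⁻¹)) = π · chart(j⁻¹)`** at the good level `M`. -/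
theorem s34g_mem_fibreIdeal_inv_iff
    (b : letI := s18_algOF O K M
      ↥(s18_chart O ({(s18_j K M)⁻¹} : Set ↥(s18_F K M)))) :
    letI := s18_algOF O K M
    b ∈ s18_fibreIdeal O ({(s18_j K M)⁻¹} : Set ↥(s18_F K M)) ↔
      s34g_rho O K M ⟨(b : ↥(s18_F K M)), s34g_chart_jinv_le M _ b.2⟩ = 0 := by
  letI := s18_algOF O K M
  constructor
  · intro hb
    exact s34g_rho_of_mem_fibreIdeal M _
      (fun t ht => by rw [Set.mem_singleton_iff.mp ht]; exact s34g_j_inv_mem) b hb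
  · intro h0
    obtain ⟨ϖ, hϖ⟩ := IsDiscreteValuationRing.exists_irreducible O
    exact s34g_mem_fibreIdeal_of_div M _ hϖ b (s34g_chart_ker_inv M ℓ hℓM hℓ hϖ _ b.2 h0)

end Level

end Fermat.Agent.S34
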