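/-
S34, leaf [SS-GAUSS], part (g): THE FIBRES OF THE CHARTS OF THE GOOD LEVEL `M` INSIDE `κ((T))`
(helper27).  Prefix `s34g_`.

`O` a discrete valuation ring of characteristic zero and residue characteristic `ℓ ∤ M`.  The
reduction `ρ_M = s34g_rho O K M` induces INJECTIVE ring homomorphisms

  `e  : s18_fibre O {j}   → κ((T))`,      `e (b mod π) = ρ_M b`,
  `e' : s18_fibre O {j⁻¹} → κ((T))`,      `e' (b mod π) = ρ_M b`

(the `e : A → κ((T))` of helper23's `s34nd_chart` / `s34nd_series_of_range`, `A` the fibre of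
the chart of level `M`).
-/
import Mathlib
import Fermat.Agent.S34.SsGaussKer

set_option autoImplicit false
set_option linter.unusedSectionVars false
set_option linter.unusedVariables false
set_option linter.style.haveILetI false
set_option warn.classDefReducibility false
set_option maxHeartbeats 1000000
set_option synthInstance.maxHeartbeats 400000

open AlgebraicCurve ModularCurve IntermediateField Polynomial
open Fermat.Agent.S18

noncomputable section

namespace Fermat.Agent.S34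

section Fib

variable {O K : Type} [CommRing O] [IsDomain O] [IsDiscreteValuationRing O] [Field K]
  [CharZero K] [Algebra O K] [IsFractionRing O K] (M : ℕ) [NeZero M]

/-- The restriction of `ρ_M` to a chart of functions of `V_∞(M)`. -/
def s34g_rhoChart (S : Set ↥(s18_F K M)) (hS : ∀ t ∈ S, t ∈ s34g_V O K M) :
    ↥(@s18_chart O _ ↥(s18_F K M) _ (s18_algOF O K M) S) →+*
      LaurentSeries (IsLocalRing.ResidueField O) :=
  letI := s18_algOF O K M
  (s34g_rho O K M).comp
    { toFun := fun b => (⟨(b : ↥(s18_F K M)), s34g_chart_le S hS _ b.2⟩ : ↥(s34g_V O K M))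
      map_one' := rfl
      map_mul' := fun _ _ => rfl
      map_zero' := rfl
      map_add' := fun _ _ => rfl }

theorem s34g_rhoChart_apply (S : Set ↥(s18_F K M)) (hS : ∀ t ∈ S, t ∈ s34g_V O K M)
    (b : ↥(@s18_chart O _ ↥(s18_F K M) _ (s18_algOF O K M) S)) :
    s34g_rhoChart M S hS b =
      s34g_rho O K M ⟨(b : ↥(s18_F K M)), s34g_chart_le S hS _ b.2⟩ := rfl

theorem s34g_rhoChart_eq (S : Set ↥(s18_F K M)) (hS : ∀ t ∈ S, t ∈ s34g_V O K M)
    (b : ↥(@s18_chart O _ ↥(s18_F K M) _ (s18_algOF O K M) S)) (v : ↥(s34g_V O K M))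
    (h : (v : ↥(s18_F K M)) = (b : ↥(s18_F K M))) :
    s34g_rhoChart M S hS b = s34g_rho O K M v := by
  rw [s34g_rhoChart_apply]
  congr 1
  exact Subtype.ext h.symm

/-- The fibre ideal lies in the kernel of the reduction (any level, any chart in `V_∞`). -/
theorem s34g_fibreIdeal_le_ker (S : Set ↥(s18_F K M)) (hS : ∀ t ∈ S, t ∈ s34g_V O K M) :
    @s18_fibreIdeal O _ ↥(s18_F K M) _ (s18_algOF O K M) _ S ≤
      RingHom.ker (s34g_rhoChart (O := O) M S hS) := by
  intro b hb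
  rw [RingHom.mem_ker, s34g_rhoChart_apply]
  exact s34g_rho_of_mem_fibreIdeal M S hS b hb

/-- The map induced by `ρ_M` on the fibre of a chart of functions of `V_∞(M)`. -/
def s34g_fibreMap (S : Set ↥(s18_F K M)) (hS : ∀ t ∈ S, t ∈ s34g_V O K M) :
    @s18_fibre O _ ↥(s18_F K M) _ (s18_algOF O K M) _ S →+*
      LaurentSeries (IsLocalRing.ResidueField O) :=
  Ideal.Quotient.lift _ (s34g_rhoChart (O := O) M S hS)
    (fun b hb => s34g_fibreIdeal_le_ker M S hS hb)

theorem s34g_fibreMap_mk (S : Set ↥(s18_F K M)) (hS : ∀ t ∈ S, t ∈ s34g_V O K M)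
    (b : ↥(@s18_chart O _ ↥(s18_F K M) _ (s18_algOF O K M) S)) :
    s34g_fibreMap (O := O) M S hS (Ideal.Quotient.mk _ b) = s34g_rhoChart M S hS b := rfl

theorem s34g_fibreMap_surj_mk (S : Set ↥(s18_F K M)) (hS : ∀ t ∈ S, t ∈ s34g_V O K M)
    (a : @s18_fibre O _ ↥(s18_F K M) _ (s18_algOF O K M) _ S) :
    ∃ b : ↥(@s18_chart O _ ↥(s18_F K M) _ (s18_algOF O K M) S),
      s34g_fibreMap (O := O) M S hS a = s34g_rhoChart M S hS b := by
  obtain ⟨b, rfl⟩ := Ideal.Quotient.mk_surjective a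
  exact ⟨b, rfl⟩

variable (ℓ : ℕ) [Fact ℓ.Prime] (hℓM : ¬ ℓ ∣ M) (hℓ : (ℓ : O) ∈ IsLocalRing.maximalIdeal O)

theorem s34g_hS_j : ∀ t ∈ ({s18_j K M} : Set ↥(s18_F K M)), t ∈ s34g_V O K M :=
  fun t ht => by rw [Set.mem_singleton_iff.mp ht]; exact s34g_j_mem

theorem s34g_hS_jinv : ∀ t ∈ ({(s18_j K M)⁻¹} : Set ↥(s18_F K M)), t ∈ s34g_V O K M :=
  fun t ht => by rw [Set.mem_singleton_iff.mp ht]; exact s34g_j_inv_mem

include hℓM hℓ in
/-- **`e : s18_fibre O {j} → κ((T))` is injective** at the good level `M`. -/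
theorem s34g_fibreMap_j_injective :
    Function.Injective (s34g_fibreMap (O := O) M ({s18_j K M} : Set ↥(s18_F K M))
      (s34g_hS_j M)) := by
  letI := s18_algOF O K M
  rw [injective_iff_map_eq_zero]
  intro a ha
  obtain ⟨b, rfl⟩ := Ideal.Quotient.mk_surjective a
  rw [s34g_fibreMap_mk, s34g_rhoChart_apply] at ha
  exact Ideal.Quotient.eq_zero_iff_mem.2 ((s34g_mem_fibreIdeal_iff M ℓ hℓM hℓ b).2 ha)

include hℓM hℓ in
/-- **`e' : s18_fibre O {j⁻¹} → κ((T))` is injective** at the good level `M`. -/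
theorem s34g_fibreMap_jinv_injective :
    Function.Injective (s34g_fibreMap (O := O) M ({(s18_j K M)⁻¹} : Set ↥(s18_F K M))
      (s34g_hS_jinv M)) := by
  letI := s18_algOF O K M
  rw [injective_iff_map_eq_zero]
  intro a ha
  obtain ⟨b, rfl⟩ := Ideal.Quotient.mk_surjective a
  rw [s34g_fibreMap_mk, s34g_rhoChart_apply] at ha
  exact Ideal.Quotient.eq_zero_iff_mem.2 ((s34g_mem_fibreIdeal_inv_iff M ℓ hℓM hℓ b).2 ha)

end Fib

end Fermat.Agent.S34
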