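/-
S34, leaf [SS-INT], THE MAIN THEOREM (owner: helper17).  Prefix `s34in_`.

`O` a valuation ring of characteristic 0 with fraction field `K` and residue characteristic `q`,
`q ∣ N`, `F = F_K(N)`, `j_q = j(Q^q)`:

* `s34in_main`  : `j_q` is integral over `O[j]`  and  `j` is integral over `O[j_q]`;
* `s34in_chart_J`, `s34in_chart_J'` : `chart(j j_q) = chart(j) = chart(j_q)`;
* `s34in_j_inv_mem`, `s34in_jq_inv_mem` : `j⁻¹, j_q⁻¹ ∈ chart((j j_q)⁻¹)`;
* `s34in_j_mem`, `s34in_jq_mem` : `j, j_q ∈ chart(j j_q)`.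

Proof: the modular relation `P ∈ ℚ[X][Y]` (`s34in_exists_poly`), mapped to `K`, has its
coefficients in `O` by the reduction lemma `s34in_red`.
-/
import Mathlib
import Fermat.Agent.S34.SsIntAbs
import Fermat.Agent.S34.SsIntRed
import Fermat.Agent.S34.SsIntExist
import Fermat.Agent.S34.SsGaussA

set_option autoImplicit false
set_option linter.style.haveILetI false
set_option linter.unusedSectionVars false
set_option linter.unusedVariables false

open ModularCurve

noncomputable section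

namespace Fermat.Agent.S34

open Polynomial Fermat.Agent.S18

/-- A monic bivariate relation `P(x, y) = 0` makes `y` integral over `O[x]`. -/
theorem s34in_isIntegral_of_ev {O F : Type*} [CommRing O] [CommRing F] [Algebra O F] (x y : F)
    (P : O[X][X]) (hP : P.Monic) (h : s34in_ev x y P = 0) :
    IsIntegral ↥(Algebra.adjoin O ({x} : Set F)) y := by
  let x' : ↥(Algebra.adjoin O ({x} : Set F)) := ⟨x, Algebra.subset_adjoin rfl⟩
  refine ⟨P.map (aeval x' : O[X] →ₐ[O] ↥(Algebra.adjoin O ({x} : Set F))).toRingHom,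
    hP.map _, ?_⟩
  rw [eval₂_map]
  have e : (algebraMap ↥(Algebra.adjoin O ({x} : Set F)) F).comp
      (aeval x' : O[X] →ₐ[O] ↥(Algebra.adjoin O ({x} : Set F))).toRingHom =
      (aeval x : O[X] →ₐ[O] F).toRingHom := by
    refine Polynomial.ringHom_ext' ?_ ?_
    · ext a
      simp only [RingHom.comp_apply, AlgHom.toRingHom_eq_coe, RingHom.coe_coe, aeval_C]
      rfl
    · simp only [RingHom.comp_apply, AlgHom.toRingHom_eq_coe, RingHom.coe_coe, aeval_X]
      rfl
  rw [e]
  exact h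

section Main

variable (O K : Type) [CommRing O] [IsDomain O] [ValuationRing O] [Field K] [CharZero K]
  [Algebra O K] [IsFractionRing O K]

/-- The modular relation with coefficients in `O`. -/
theorem s34in_exists_poly_O (q : ℕ) [NeZero q] (hq : q.Prime)
    (hqO : (q : O) ∈ IsLocalRing.maximalIdeal O) :
    ∃ P : O[X][X], P.Monic ∧
      s34in_ev (jqModC K) (qExpand K q (jqModC K)) (P.map (mapRingHom (algebraMap O K))) = 0 ∧
      s34in_ev (qExpand K q (jqModC K)) (jqModC K) (P.map (mapRingHom (algebraMap O K))) = 0 := by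
  haveI : Fact q.Prime := ⟨hq⟩
  obtain ⟨P, hmonic, hdeg, h1, h2⟩ := s34in_exists_poly q hq
  have h1K : s34in_ev (jqModC K) (qExpand K q (jqModC K))
      (P.map (mapRingHom (algebraMap ℚ K))) = 0 := by
    have := congrArg (coeffMap (algebraMap ℚ K)) h1
    rw [s34in_ev_coeffMap, coeffMap_qExpand, coeffMap_jqModC, map_zero] at this
    exact this
  have h2K : s34in_ev (qExpand K q (jqModC K)) (jqModC K)
      (P.map (mapRingHom (algebraMap ℚ K))) = 0 := by
    have := congrArg (coeffMap (algebraMap ℚ K)) h2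
    rw [s34in_ev_coeffMap, coeffMap_qExpand, coeffMap_jqModC, map_zero] at this
    exact this
  have hmonicK : (P.map (mapRingHom (algebraMap ℚ K))).Monic := hmonic.map _
  have hdegK : (P.map (mapRingHom (algebraMap ℚ K))).natDegree ≤ q + 1 :=
    natDegree_map_le.trans hdeg
  obtain ⟨P', hP'⟩ := s34in_red (O := O) q hqO _ hmonicK hdegK h1K h2K
  have hinj : Function.Injective (mapRingHom (algebraMap O K)) :=
    Polynomial.map_injective _ (IsFractionRing.injective O K)
  refine ⟨P', monic_of_injective hinj (by rw [hP']; exact hmonicK), ?_, ?_⟩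
  · rw [hP']
    exact h1K
  · rw [hP']
    exact h2K

variable (N : ℕ) [NeZero N]

theorem s34in_coe_j : ((s18_j K N : ↥(s18_F K N)) : LaurentSeries K) = jqModC K := by
  show coeffEmb K jq = _
  rw [← jqModC_rat]
  exact coeffMap_jqModC (algebraMap ℚ K)

theorem s34in_coe_jd (d : ℕ) [NeZero d] (hd : d ∣ N) :
    ((s34g_jd K N d hd : ↥(s18_F K N)) : LaurentSeries K) = qExpand K d (jqModC K) := by
  show coeffEmb K (qExpand ℚ d jq) = _
  rw [← jqModC_rat]
  show coeffMap (algebraMap ℚ K) (qExpand ℚ d (jqModC ℚ)) = _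
  rw [coeffMap_qExpand, coeffMap_jqModC]

/-- **[SS-INT]**: `j_q` is integral over `O[j]` and `j` is integral over `O[j_q]`. -/
theorem s34in_main (q : ℕ) [NeZero q] (hq : q.Prime) (hqN : q ∣ N)
    (hqO : (q : O) ∈ IsLocalRing.maximalIdeal O) :
    letI := s18_algOF O K N
    IsIntegral ↥(Algebra.adjoin O ({s18_j K N} : Set ↥(s18_F K N))) (s34g_jd K N q hqN) ∧
      IsIntegral ↥(Algebra.adjoin O ({s34g_jd K N q hqN} : Set ↥(s18_F K N))) (s18_j K N) := by
  letI := s18_algOF O K N
  obtain ⟨P, hmonic, h1, h2⟩ := s34in_exists_poly_O O K q hq hqO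
  have hnat : ∀ x y : ↥(s18_F K N),
      ((s34in_ev x y P : ↥(s18_F K N)) : LaurentSeries K) =
        s34in_ev (x : LaurentSeries K) (y : LaurentSeries K)
          (P.map (mapRingHom (algebraMap O K))) := fun x y =>
    s34in_ev_nat (algebraMap O K) (algebraMap ↥(s18_F K N) (LaurentSeries K))
      (fun a => rfl) x y P
  constructor
  · refine s34in_isIntegral_of_ev _ _ P hmonic (Subtype.ext ?_)
    rw [hnat, s34in_coe_j, s34in_coe_jd, h1]
    rfl
  · refine s34in_isIntegral_of_ev _ _ P hmonic (Subtype.ext ?_)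
    rw [hnat, s34in_coe_j, s34in_coe_jd, h2]
    rfl

/-! ### The corollaries for the charts -/

section Charts

variable (q : ℕ) [NeZero q] (hq : q.Prime) (hqN : q ∣ N)
  (hqO : (q : O) ∈ IsLocalRing.maximalIdeal O)

include hq hqO

/-- `chart(j j_q) = chart(j)`. -/
theorem s34in_chart_J :
    letI := s18_algOF O K N
    s18_chart O ({s18_j K N * s34g_jd K N q hqN} : Set ↥(s18_F K N)) =
      s18_chart O ({s18_j K N} : Set ↥(s18_F K N)) := by
  letI := s18_algOF O K N
  obtain ⟨h1, h2⟩ := s34in_main O K N q hq hqN hqO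
  exact s34in_chart_mul_eq h1 h2

/-- `chart(j j_q) = chart(j_q)`. -/
theorem s34in_chart_J' :
    letI := s18_algOF O K N
    s18_chart O ({s18_j K N * s34g_jd K N q hqN} : Set ↥(s18_F K N)) =
      s18_chart O ({s34g_jd K N q hqN} : Set ↥(s18_F K N)) := by
  letI := s18_algOF O K N
  obtain ⟨h1, h2⟩ := s34in_main O K N q hq hqN hqO
  exact s34in_chart_mul_eq' h1 h2

/-- `j ∈ chart(j j_q)`. -/
theorem s34in_j_mem :
    letI := s18_algOF O K N
    s18_j K N ∈ s18_chart O ({s18_j K N * s34g_jd K N q hqN} : Set ↥(s18_F K N)) := by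
  letI := s18_algOF O K N
  obtain ⟨h1, h2⟩ := s34in_main O K N q hq hqN hqO
  exact s34in_left_mem h2

/-- `j_q ∈ chart(j j_q)`. -/
theorem s34in_jq_mem :
    letI := s18_algOF O K N
    s34g_jd K N q hqN ∈ s18_chart O ({s18_j K N * s34g_jd K N q hqN} : Set ↥(s18_F K N)) := by
  letI := s18_algOF O K N
  obtain ⟨h1, h2⟩ := s34in_main O K N q hq hqN hqO
  exact s34in_right_mem h1

omit hq hqO in
theorem s34in_j_ne_zero : s18_j K N ≠ 0 := by
  intro h
  have h1 := congrArg (fun z : ↥(s18_F K N) => (z : LaurentSeries K)) h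
  simp only [s34in_coe_j] at h1
  exact jqModC_ne_zero_of_nontrivial K h1

omit hq hqO in
theorem s34in_jd_ne_zero (d : ℕ) [NeZero d] (hd : d ∣ N) : s34g_jd K N d hd ≠ 0 := by
  intro h
  have h1 := congrArg (fun z : ↥(s18_F K N) => (z : LaurentSeries K)) h
  simp only [s34in_coe_jd] at h1
  have h2 : qExpand K d (jqModC K) = qExpand K d 0 := by
    rw [map_zero]
    exact h1
  exact jqModC_ne_zero_of_nontrivial K (qExpand_injective (R := K) d h2)

/-- `j⁻¹ ∈ chart((j j_q)⁻¹)`. -/
theorem s34in_j_inv_mem :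
    letI := s18_algOF O K N
    (s18_j K N)⁻¹ ∈
      s18_chart O ({(s18_j K N * s34g_jd K N q hqN)⁻¹} : Set ↥(s18_F K N)) := by
  letI := s18_algOF O K N
  obtain ⟨h1, h2⟩ := s34in_main O K N q hq hqN hqO
  exact s34in_inv_left_mem (s34in_jd_ne_zero K N q hqN) h1

/-- `j_q⁻¹ ∈ chart((j j_q)⁻¹)`. -/
theorem s34in_jq_inv_mem :
    letI := s18_algOF O K N
    (s34g_jd K N q hqN)⁻¹ ∈
      s18_chart O ({(s18_j K N * s34g_jd K N q hqN)⁻¹} : Set ↥(s18_F K N)) := by
  letI := s18_algOF O K N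
  obtain ⟨h1, h2⟩ := s34in_main O K N q hq hqN hqO
  exact s34in_inv_right_mem (s34in_j_ne_zero K N) h2

/-- `chart((j j_q)⁻¹) = chart({j⁻¹, j_q⁻¹})`. -/
theorem s34in_chart_J_inv :
    letI := s18_algOF O K N
    s18_chart O ({(s18_j K N * s34g_jd K N q hqN)⁻¹} : Set ↥(s18_F K N)) =
      s18_chart O ({(s18_j K N)⁻¹, (s34g_jd K N q hqN)⁻¹} : Set ↥(s18_F K N)) := by
  letI := s18_algOF O K N
  obtain ⟨h1, h2⟩ := s34in_main O K N q hq hqN hqO
  exact s34in_chart_inv_eq (s34in_j_ne_zero K N) (s34in_jd_ne_zero K N q hqN) h1 h2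

end Charts

end Main

end Fermat.Agent.S34
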