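/-
S34, leaf [SS-INT] at the model (owner: helper17).  Prefix `s34in_`.

`s34in_int_main : s34iw_IntStatement` (VERBATIM `S34/IsWKMain.lean`): at the model data
`(M, q, K0, O)`, `j_q` is integral over `O[j]` and `j` is integral over `O[j_q]`.
-/
import Mathlib
import Fermat.Agent.S34.SsInt
import Fermat.Agent.S34.IsWKMain

set_option autoImplicit false

noncomputable section

namespace Fermat.Agent.S34

open Fermat.Agent.S18

/-- **[SS-INT]** at the model. -/
theorem s34in_int_main : s34iw_IntStatement := by
  intro M q _ _ _ hq hM h49 K0 hK0 O _ hqO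
  exact s34in_main ↥O ↥K0 (M * q) q hq (dvd_mul_left q M) hqO

end Fermat.Agent.S34
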