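/-
S34, leaf [SS-INT], the polynomial core (owner: helper17).  Prefix `s34in_`.  Mathlib only.

`s34in_poly_zero`: a polynomial `R ∈ κ[X][Y]` of `Y`-degree `≤ q` (`q ≥ 2`) with
`R(X, X^q) = 0` and `R(X^q, X) = 0` is zero.

(Write `R = Σ_{i ≤ q} r_i(X) Y^i`.  `R(X^q, X) = Σ r_i(X^q) X^i = 0`: the exponents of
`r_i(X^q) X^i` are `≡ i` modulo `q`, so `r_i = 0` for `0 < i < q` and `r_0 + X r_q = 0`.  Then
`R(X, X^q) = r_0 + r_q X^(q²) = (X^(q²) - X) r_q = 0`, so `r_q = 0 = r_0`.)
-/
import Mathlib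

set_option autoImplicit false

noncomputable section

namespace Fermat.Agent.S34

open Polynomial

section Poly

variable {κ : Type*} [Field κ]

/-- The coefficient of `X^(q a + b)` in `Σ_{i < q} s_i(X^q) X^i` is the coefficient of `X^a` in
`s_b` (`b < q`). -/
theorem s34in_coeff_sum_expand (q : ℕ) (hq : 0 < q) (s : ℕ → κ[X]) (a b : ℕ) (hb : b < q) :
    (∑ i ∈ Finset.range q, expand κ q (s i) * X ^ i).coeff (q * a + b) = (s b).coeff a := by
  rw [finsetSum_coeff]
  rw [Finset.sum_eq_single b]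
  · rw [coeff_mul_X_pow', if_pos (Nat.le_add_left b (q * a)), Nat.add_sub_cancel,
      coeff_expand_mul' hq]
  · intro i hi hib
    have hiq : i < q := Finset.mem_range.1 hi
    rw [coeff_mul_X_pow']
    split_ifs with hle
    · rw [coeff_expand hq, if_neg]
      intro hdvd
      apply hib
      -- `q ∣ q a + b - i`, `i, b < q`, `i ≤ q a + b`  ⟹  `i = b`
      have h1 : (q * a + b - i) % q = 0 := Nat.mod_eq_zero_of_dvd hdvd
      have h2 : (q * a + b) % q = b := by
        rw [Nat.mul_add_mod, Nat.mod_eq_of_lt hb]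
      have h3 : (q * a + b) % q = i % q := by
        have h4 : q * a + b = (q * a + b - i) + i := (Nat.sub_add_cancel hle).symm
        conv_lhs => rw [h4]
        rw [Nat.add_mod, h1, zero_add, Nat.mod_mod]
      rw [h2, Nat.mod_eq_of_lt hiq] at h3
      exact h3.symm
    · rfl
  · intro hb'
    exact absurd (Finset.mem_range.2 hb) hb'

/-- **Uniqueness of the base-`q` decomposition**: if `Σ_{i < q} s_i(X^q) X^i = 0` then all
`s_i` vanish. -/
theorem s34in_expand_indep (q : ℕ) (hq : 0 < q) (s : ℕ → κ[X])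
    (h : ∑ i ∈ Finset.range q, expand κ q (s i) * X ^ i = 0) :
    ∀ b, b < q → s b = 0 := by
  intro b hb
  ext a
  rw [← s34in_coeff_sum_expand q hq s a b hb, h, coeff_zero, coeff_zero]

/-- **The polynomial core of [SS-INT].** -/
theorem s34in_poly_zero (q : ℕ) (hq : 2 ≤ q) (R : κ[X][X]) (hdeg : R.natDegree ≤ q)
    (h1 : R.eval (X ^ q) = 0)
    (h2 : (R.map (expand κ q : κ[X] →+* κ[X])).eval X = 0) : R = 0 := by
  have hq0 : 0 < q := by omega
  -- the second identity in the basis `X^i`, `i < q`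
  let s : ℕ → κ[X] := fun i => if i = 0 then R.coeff 0 + X * R.coeff q else R.coeff i
  have hlt : (R.map (expand κ q : κ[X] →+* κ[X])).natDegree < q + 1 :=
    lt_of_le_of_lt (natDegree_map_le) (Nat.lt_succ_of_le hdeg)
  have h2' : ∑ i ∈ Finset.range q, expand κ q (s i) * X ^ i = 0 := by
    rw [eval_eq_sum_range' hlt, Finset.sum_range_succ] at h2
    rw [← h2]
    rw [Finset.range_eq_Ico, Finset.sum_eq_sum_Ico_succ_bot hq0,
      Finset.sum_eq_sum_Ico_succ_bot hq0]
    have e0 : expand κ q (s 0) * X ^ 0 =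
        (R.map (expand κ q : κ[X] →+* κ[X])).coeff 0 * X ^ 0 +
          (R.map (expand κ q : κ[X] →+* κ[X])).coeff q * X ^ q := by
      simp only [s, if_true, coeff_map, map_add, map_mul, expand_X, pow_zero, mul_one]
      rw [RingHom.coe_coe]
      ring
    rw [e0]
    have e1 : ∑ i ∈ Finset.Ico (0 + 1) q, expand κ q (s i) * X ^ i =
        ∑ i ∈ Finset.Ico (0 + 1) q,
          (R.map (expand κ q : κ[X] →+* κ[X])).coeff i * X ^ i := by
      refine Finset.sum_congr rfl fun i hi => ?_
      have hi0 : i ≠ 0 := by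
        have := (Finset.mem_Ico.1 hi).1
        omega
      simp only [s, if_neg hi0, coeff_map]
      rfl
    rw [e1]
    ring
  have hs := s34in_expand_indep q hq0 s h2'
  -- `r_i = 0` for `0 < i < q`
  have hmid : ∀ i, 0 < i → i < q → R.coeff i = 0 := by
    intro i hi0 hiq
    have := hs i hiq
    simpa only [s, if_neg (Nat.pos_iff_ne_zero.1 hi0)] using this
  have h0 : R.coeff 0 + X * R.coeff q = 0 := by
    have := hs 0 hq0
    simpa only [s, if_true] using this
  -- the first identity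
  have hlt' : R.natDegree < q + 1 := Nat.lt_succ_of_le hdeg
  have h1' : R.coeff 0 + R.coeff q * (X ^ q) ^ q = 0 := by
    rw [eval_eq_sum_range' hlt', Finset.sum_range_succ, Finset.range_eq_Ico,
      Finset.sum_eq_sum_Ico_succ_bot hq0] at h1
    have e1 : ∑ i ∈ Finset.Ico (0 + 1) q, R.coeff i * (X ^ q) ^ i = 0 := by
      refine Finset.sum_eq_zero fun i hi => ?_
      have hi' := Finset.mem_Ico.1 hi
      rw [hmid i (by omega) hi'.2, zero_mul]
    rw [e1, add_zero, pow_zero, mul_one] at h1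
    exact h1
  have hq' : R.coeff q * ((X ^ q) ^ q - X) = 0 := by
    have : R.coeff q * ((X ^ q) ^ q - X) =
        (R.coeff 0 + R.coeff q * (X ^ q) ^ q) - (R.coeff 0 + X * R.coeff q) := by ring
    rw [this, h1', h0, sub_zero]
  have hne : ((X : κ[X]) ^ q) ^ q - X ≠ 0 := by
    intro h
    have h3 : ((X : κ[X]) ^ q) ^ q = X := sub_eq_zero.1 h
    have h4 := congrArg natDegree h3
    rw [← pow_mul, natDegree_X_pow, natDegree_X] at h4
    nlinarith
  have hrq : R.coeff q = 0 := by
    rcases mul_eq_zero.1 hq' with h | h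
    · exact h
    · exact absurd h hne
  have hr0 : R.coeff 0 = 0 := by
    rw [hrq, mul_zero, add_zero] at h0
    exact h0
  ext1 i
  rw [coeff_zero]
  rcases Nat.lt_trichotomy i q with hi | hi | hi
  · rcases Nat.eq_zero_or_pos i with h | h
    · rw [h]; exact hr0
    · exact hmid i h hi
  · rw [hi]; exact hrq
  · exact coeff_eq_zero_of_natDegree_lt (lt_of_le_of_lt hdeg hi)

end Poly

end Fermat.Agent.S34
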