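/-
S34, leaf [SS-NODE] = (D3) (owner: helper23).  Prefix `s34nd_`.
THE CHART FORM.  `O` a ring, `F` a field over `O`, `V` a valuation subring of `F` containing `O`
(`V = V_∞`), `ρ : V → κ((T))` (`ρ = ρ_∞`), `W` an automorphism of `F` over `O` with `W W = 1`,
`S ⊆ V` a `W`-stable set (`S = {J}` or `{J⁻¹}`, `W J = J`), `B = s18_chart O S`.

* `s34nd_rhoB` : the restriction `B → κ((T))` of `ρ`;
* `s34nd_WB`   : the restriction `B ≃+* B` of `W`;
* `s34nd_chart`: [SS-NODE] for the chart `B`: every prime `n ∋ π` of `B` is a node or has one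
  local equation, from (D1) `𝔭_∞ ∩ 𝔭_0 ⊆ π B` and (D2) `ρ(B) = e(A)`, `A` a Dedekind domain,
  and the lifting property `ρ (W b') = (ρ b)(T^q)`.
-/
import Mathlib
import Fermat.Agent.S18.StarDefs
import Fermat.Agent.S34.SsNodeDed

set_option autoImplicit false

open ModularCurve
open Fermat.Agent.S18

noncomputable section

namespace Fermat.Agent.S34

section Chart

variable {O : Type*} [CommRing O] {F : Type*} [Field F] [Algebra O F]
  (V : ValuationSubring F) (hO : ∀ a : O, algebraMap O F a ∈ V)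
  (W : F ≃+* F) (hWO : ∀ a : O, W (algebraMap O F a) = algebraMap O F a)
  (S : Set F) (hSV : ∀ t ∈ S, t ∈ V) (hWS : ∀ t ∈ S, W t ∈ S)

include hO hSV in
/-- The chart of a subset of `V` lies in `V`. -/
theorem s34nd_chart_le (b : F) (hb : b ∈ s18_chart O S) : b ∈ V := by
  have hadj : ∀ z ∈ Algebra.adjoin O S, z ∈ V := by
    intro z hz
    induction hz using Algebra.adjoin_induction with
    | mem x hx => exact hSV x hx
    | algebraMap r => exact hO r
    | add x y _ _ hx hy => exact V.add_mem _ _ hx hy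
    | mul x y _ _ hx hy => exact V.mul_mem _ _ hx hy
  obtain ⟨p, hp, hpx⟩ := (s18_mem_chart_iff O).1 hb
  let f : ↥(Algebra.adjoin O S) →+* ↥V :=
    { toFun := fun a => ⟨(a : F), hadj a a.2⟩
      map_one' := rfl
      map_mul' := fun _ _ => rfl
      map_zero' := rfl
      map_add' := fun _ _ => rfl }
  have hcomp : (algebraMap ↥V F).comp f = algebraMap ↥(Algebra.adjoin O S) F := rfl
  have hint : IsIntegral ↥V b := by
    refine ⟨p.map f, hp.map f, ?_⟩
    rw [Polynomial.eval₂_map, hcomp]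
    exact hpx
  obtain ⟨v, hv⟩ := IsIntegrallyClosed.isIntegral_iff.mp hint
  rw [← hv]
  exact v.2

include hWO hWS in
/-- `W` maps the chart of a `W`-stable set into itself. -/
theorem s34nd_W_mem_chart (b : F) (hb : b ∈ s18_chart O S) : W b ∈ s18_chart O S := by
  have hadj : ∀ z ∈ Algebra.adjoin O S, W z ∈ Algebra.adjoin O S := by
    intro z hz
    induction hz using Algebra.adjoin_induction with
    | mem x hx => exact Algebra.subset_adjoin (hWS x hx)
    | algebraMap r => rw [hWO]; exact Subalgebra.algebraMap_mem _ r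
    | add x y _ _ hx hy => rw [map_add]; exact add_mem hx hy
    | mul x y _ _ hx hy => rw [map_mul]; exact mul_mem hx hy
  obtain ⟨p, hp, hpx⟩ := (s18_mem_chart_iff O).1 hb
  let f : ↥(Algebra.adjoin O S) →+* ↥(Algebra.adjoin O S) :=
    { toFun := fun a => ⟨W (a : F), hadj a a.2⟩
      map_one' := Subtype.ext (map_one W)
      map_mul' := fun _ _ => Subtype.ext (map_mul W _ _)
      map_zero' := Subtype.ext (map_zero W)
      map_add' := fun _ _ => Subtype.ext (map_add W _ _) }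
  have hcomp : (algebraMap ↥(Algebra.adjoin O S) F).comp f =
      (W : F →+* F).comp (algebraMap ↥(Algebra.adjoin O S) F) := rfl
  rw [s18_mem_chart_iff]
  refine ⟨p.map f, hp.map f, ?_⟩
  rw [Polynomial.eval₂_map, hcomp]
  have h1 := Polynomial.hom_eval₂ p (algebraMap ↥(Algebra.adjoin O S) F) (W : F →+* F) b
  rw [hpx, map_zero] at h1
  exact h1.symm

/-- **The restriction of `W` to the chart.** -/
def s34nd_WB (hWW : ∀ x, W (W x) = x) : ↥(s18_chart O S) ≃+* ↥(s18_chart O S) where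
  toFun b := ⟨W (b : F), s34nd_W_mem_chart W hWO S hWS b b.2⟩
  invFun b := ⟨W (b : F), s34nd_W_mem_chart W hWO S hWS b b.2⟩
  left_inv _ := Subtype.ext (hWW _)
  right_inv _ := Subtype.ext (hWW _)
  map_mul' _ _ := Subtype.ext (map_mul W _ _)
  map_add' _ _ := Subtype.ext (map_add W _ _)

theorem s34nd_WB_coe (hWW : ∀ x, W (W x) = x) (b : ↥(s18_chart O S)) :
    ((s34nd_WB W hWO S hWS hWW b : ↥(s18_chart O S)) : F) = W (b : F) := rfl

theorem s34nd_WB_WB (hWW : ∀ x, W (W x) = x) (b : ↥(s18_chart O S)) :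
    s34nd_WB W hWO S hWS hWW (s34nd_WB W hWO S hWS hWW b) = b :=
  Subtype.ext (hWW _)

theorem s34nd_WB_algebraMap (hWW : ∀ x, W (W x) = x) (a : O) :
    s34nd_WB W hWO S hWS hWW (algebraMap O ↥(s18_chart O S) a) =
      algebraMap O ↥(s18_chart O S) a :=
  Subtype.ext (hWO a)

variable {L : Type*} [CommRing L] (ρ : ↥V →+* L)

/-- **The restriction of `ρ` to the chart.** -/
def s34nd_rhoB : ↥(s18_chart O S) →+* L :=
  ρ.comp
    { toFun := fun b => (⟨(b : F), s34nd_chart_le V hO S hSV b b.2⟩ : ↥V)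
      map_one' := rfl
      map_mul' := fun _ _ => rfl
      map_zero' := rfl
      map_add' := fun _ _ => rfl }

theorem s34nd_rhoB_apply (b : ↥(s18_chart O S)) :
    s34nd_rhoB V hO S hSV ρ b = ρ ⟨(b : F), s34nd_chart_le V hO S hSV b b.2⟩ := rfl

theorem s34nd_rhoB_eq (b : ↥(s18_chart O S)) (v : ↥V) (h : (v : F) = (b : F)) :
    s34nd_rhoB V hO S hSV ρ b = ρ v := by
  rw [s34nd_rhoB_apply]
  congr 1
  exact Subtype.ext h.symm

end Chart

section Main

variable {O : Type*} [CommRing O] {F : Type*} [Field F] [Algebra O F]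
  (V : ValuationSubring F) (hO : ∀ a : O, algebraMap O F a ∈ V)
  (W : F ≃+* F) (hWO : ∀ a : O, W (algebraMap O F a) = algebraMap O F a)
  (hWW : ∀ x, W (W x) = x)
  (S : Set F) (hSV : ∀ t ∈ S, t ∈ V) (hWS : ∀ t ∈ S, W t ∈ S)
  {A κ : Type*} [CommRing A] [IsDedekindDomain A] [Field κ] [Finite κ]
  (q : ℕ) [NeZero q] [Fact q.Prime] [CharP κ q]
  (ρ : ↥V →+* LaurentSeries κ) (e : A →+* LaurentSeries κ)

include q in
/-- **[SS-NODE] for a chart.**  Every prime `n ∋ π` of the chart `B = s18_chart O S` is a node of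
the special fibre (`𝔭_∞ = (π, y)`, `𝔭_0 = (π, x)`, `n = (π, x, y)` locally at `n`, `x y ∈ π B`)
or has one local equation (`n = (π, h)` locally at `n`). -/
theorem s34nd_chart (π : O)
    (hcap : ∀ b : ↥(s18_chart O S), s34nd_rhoB V hO S hSV ρ b = 0 →
      s34nd_rhoB V hO S hSV ρ (s34nd_WB W hWO S hWS hWW b) = 0 →
      ∃ c : ↥(s18_chart O S), b = algebraMap O ↥(s18_chart O S) π * c)
    (he : Function.Injective e)
    (hsub : ∀ b : ↥(s18_chart O S), ∃ a : A, e a = s34nd_rhoB V hO S hSV ρ b)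
    (hsup : ∀ a : A, ∃ b : ↥(s18_chart O S), s34nd_rhoB V hO S hSV ρ b = e a)
    (hne : ∃ b : ↥(s18_chart O S), s34nd_rhoB V hO S hSV ρ (s34nd_WB W hWO S hWS hWW b) = 0 ∧
      s34nd_rhoB V hO S hSV ρ b ≠ 0)
    (hlift : ∀ b : ↥(s18_chart O S), ∃ b' : ↥(s18_chart O S),
      s34nd_rhoB V hO S hSV ρ b' = s34nd_rhoB V hO S hSV ρ b ∧
      s34nd_rhoB V hO S hSV ρ (s34nd_WB W hWO S hWS hWW b') =
        qExpand κ q (s34nd_rhoB V hO S hSV ρ b))
    (n : Ideal ↥(s18_chart O S)) [hn : n.IsPrime]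
    (hπn : algebraMap O ↥(s18_chart O S) π ∈ n) :
    (∃ x y : ↥(s18_chart O S), s34nd_IsNode (algebraMap O ↥(s18_chart O S) π)
        (RingHom.ker (s34nd_rhoB V hO S hSV ρ))
        (RingHom.ker ((s34nd_rhoB V hO S hSV ρ).comp
          (s34nd_WB W hWO S hWS hWW : ↥(s18_chart O S) →+* ↥(s18_chart O S)))) n x y) ∨
      (∃ h : ↥(s18_chart O S), s34nd_IsSmooth (algebraMap O ↥(s18_chart O S) π) n h) := by
  refine s34nd_series_of_range q (algebraMap O ↥(s18_chart O S) π) (s34nd_rhoB V hO S hSV ρ) e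
    (s34nd_WB W hWO S hWS hWW) he hsub hsup (s34nd_WB_WB W hWO S hWS hWW)
    (s34nd_WB_algebraMap W hWO S hWS hWW π) ?_ hne hlift n hπn
  intro b h1 h2
  obtain ⟨c, hc⟩ := hcap b h1 h2
  rw [hc]
  exact Ideal.mul_mem_right _ _ (Ideal.mem_span_singleton_self _)

end Main

end Fermat.Agent.S34
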