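/-
S34, leaf [SS-NODE] = (D3) (owner: helper23).  Prefix `s34nd_`.
THE FROBENIUS INPUT: over a FINITE field `κ` of characteristic `q` with `q ^ f` elements the
`f`-th iterate of `Φ = qExpand κ q` (`T ↦ T^q`) is the `q^f`-th power map of `κ((T))`.
(From helper11's `S37.s37cg_frob`: `x ^ q = Φ (coeffMap frob x)`.)
-/
import Mathlib
import Fermat.Agent.S37.EsCong

set_option autoImplicit false

open ModularCurve

noncomputable section

namespace Fermat.Agent.S34

section Frob

variable {κ : Type*} [Field κ] (q : ℕ) [NeZero q] [Fact q.Prime] [CharP κ q]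

/-- `x ^ (q ^ f) = Φ^f (coeffMap (frob^f) x)`. -/
theorem s34nd_frob_iter (f : ℕ) (x : LaurentSeries κ) :
    x ^ q ^ f = (qExpand κ q)^[f] (coeffMap (iterateFrobenius κ q f) x) := by
  induction f generalizing x with
  | zero =>
    have h : (iterateFrobenius κ q 0) = RingHom.id κ := by
      ext a
      simp
    rw [pow_zero, pow_one, Function.iterate_zero, id, h, coeffMap_id]
  | succ f ih =>
    rw [pow_succ, pow_mul, ih, Function.iterate_succ_apply', S37.s37cg_frob q]
    congr 1
    -- `coeffMap frob` commutes with `Φ`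
    have hcomm : ∀ (k : ℕ) (y : LaurentSeries κ),
        coeffMap (frobenius κ q) ((qExpand κ q)^[k] y) =
          (qExpand κ q)^[k] (coeffMap (frobenius κ q) y) := by
      intro k
      induction k with
      | zero => intro y; rfl
      | succ k ihk =>
        intro y
        rw [Function.iterate_succ_apply', Function.iterate_succ_apply', ← ihk,
          coeffMap_qExpand]
    rw [hcomm, coeffMap_coeffMap]
    congr 1
    apply coeffMap_congr
    ext a
    simp [iterateFrobenius_def, frobenius_def, pow_succ, pow_mul]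

/-- Over a finite field with `q ^ f` elements: `Φ^f x = x ^ (q ^ f)`. -/
theorem s34nd_qExpand_iter [Finite κ] {f : ℕ} (hf : Nat.card κ = q ^ f)
    (x : LaurentSeries κ) : (qExpand κ q)^[f] x = x ^ q ^ f := by
  rw [s34nd_frob_iter q f x]
  congr 1
  have h : iterateFrobenius κ q f = RingHom.id κ := by
    ext a
    rw [iterateFrobenius_def, RingHom.id_apply, ← hf]
    have := Fintype.ofFinite κ
    rw [Nat.card_eq_fintype_card]
    exact FiniteField.pow_card a
  rw [h, coeffMap_id]

/-- Over a finite field with `q ^ f` elements: `(Φ ∘ Φ)^f x = x ^ (q ^ (2 f))`. -/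
theorem s34nd_qExpand_iter2 [Finite κ] {f : ℕ} (hf : Nat.card κ = q ^ f)
    (x : LaurentSeries κ) :
    (fun c => qExpand κ q (qExpand κ q c))^[f] x = x ^ q ^ (2 * f) := by
  have h1 : (fun c => qExpand κ q (qExpand κ q c)) = (qExpand κ q)^[2] := by
    funext c
    rfl
  rw [h1, ← Function.iterate_mul, two_mul, Function.iterate_add_apply,
    s34nd_qExpand_iter q hf, s34nd_qExpand_iter q hf, ← pow_mul, ← pow_add]

omit [NeZero q] [Fact q.Prime] in
/-- The number of elements of a finite field of characteristic `q` is a power `q ^ f`,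
`f ≥ 1`. -/
theorem s34nd_card_eq [Finite κ] : ∃ f : ℕ, 0 < f ∧ Nat.card κ = q ^ f := by
  have := Fintype.ofFinite κ
  obtain ⟨⟨n, hn⟩, h⟩ := FiniteField.card κ q
  exact ⟨n, hn, by rw [Nat.card_eq_fintype_card]; exact h.2⟩

end Frob

end Fermat.Agent.S34
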