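/-
S34, leaf [SS-NODE] = (D3) (owner: helper23).  Prefix `s34nd_`.
THE RESIDUE FIELD OF A VALUATION RING OF A NUMBER FIELD IS FINITE.  Mathlib only.

`K` finite-dimensional over `ℚ`, `O` a valuation subring of `K` with `q ∈ 𝔪_O` (`q` a prime
number): lifts of `𝔽_q`-linearly independent residue classes are `ℚ`-linearly independent, so
`[κ : 𝔽_q] ≤ [K : ℚ]`.
-/
import Mathlib

set_option autoImplicit false

noncomputable section

namespace Fermat.Agent.S34

section Res

variable {K : Type*} [Field K] [CharZero K] (O : ValuationSubring K) (q : ℕ) [hq : Fact q.Prime]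

omit [CharZero K] in
/-- The residue field has characteristic `q`. -/
theorem s34nd_charP (h : (q : ↥O) ∈ IsLocalRing.maximalIdeal ↥O) :
    CharP (IsLocalRing.ResidueField ↥O) q := by
  have hchar0 : ((q : ℕ) : IsLocalRing.ResidueField ↥O) = 0 := by
    have := (IsLocalRing.residue_eq_zero_iff (q : ↥O)).2 h
    simpa using this
  exact (CharP.charP_iff_prime_eq_zero hq.out).2 hchar0

/-- Lifts of `𝔽_q`-linearly independent residue classes are `ℤ`-linearly independent. -/
theorem s34nd_lift_indep {ι : Type*} (x : ι → ↥O)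
    (hx : ∀ (t : Finset ι) (g : ι → ℤ),
      ∑ i ∈ t, ((g i : ℤ) : IsLocalRing.ResidueField ↥O) * IsLocalRing.residue ↥O (x i) = 0 →
      ∀ i ∈ t, (q : ℤ) ∣ g i) :
    LinearIndependent ℤ (fun i => ((x i : ↥O) : K)) := by
  rw [linearIndependent_iff']
  intro t g hg
  by_contra hne
  push Not at hne
  obtain ⟨i₀, hi₀, hgi₀⟩ := hne
  obtain ⟨g', hg', hgcd⟩ := Finset.extract_gcd g ⟨i₀, hi₀⟩
  have hd : t.gcd g ≠ 0 := by
    intro h0
    exact hgi₀ ((Finset.gcd_eq_zero_iff.1 h0) i₀ hi₀)
  -- the relation for `g'`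
  have hrel : ∑ i ∈ t, (g' i : ↥O) * x i = 0 := by
    apply Subtype.ext
    have h1 : ((t.gcd g : ℤ) : K) * ∑ i ∈ t, ((g' i : ℤ) : K) * ((x i : ↥O) : K) = 0 := by
      rw [Finset.mul_sum, ← hg]
      refine Finset.sum_congr rfl fun i hi => ?_
      rw [hg' i hi, zsmul_eq_mul]
      push_cast
      ring
    have h2 : ((t.gcd g : ℤ) : K) ≠ 0 := by exact_mod_cast hd
    have h3 := (mul_eq_zero.1 h1).resolve_left h2
    push_cast
    exact h3
  have hred : ∑ i ∈ t, ((g' i : ℤ) : IsLocalRing.ResidueField ↥O) *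
      IsLocalRing.residue ↥O (x i) = 0 := by
    have := congrArg (IsLocalRing.residue ↥O) hrel
    rw [map_sum, map_zero] at this
    rw [← this]
    refine Finset.sum_congr rfl fun i _ => ?_
    rw [map_mul, map_intCast]
  have hdvd := hx t g' hred
  have h1 : (q : ℤ) ∣ t.gcd g' := Finset.dvd_gcd hdvd
  rw [hgcd] at h1
  have hq1 : (q : ℤ) ∣ 1 := h1
  have hq2 : q ∣ 1 := by exact_mod_cast hq1
  exact hq.out.one_lt.ne' (Nat.dvd_one.1 hq2)

/-- **The residue field of a valuation ring over `q` of a number field is finite.** -/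
theorem s34nd_residue_finite [FiniteDimensional ℚ K]
    (h : (q : ↥O) ∈ IsLocalRing.maximalIdeal ↥O) :
    Finite (IsLocalRing.ResidueField ↥O) := by
  classical
  have hcp : CharP (IsLocalRing.ResidueField ↥O) q := s34nd_charP O q h
  let _ : Algebra (ZMod q) (IsLocalRing.ResidueField ↥O) := ZMod.algebra _ q
  have hrank : Module.rank (ZMod q) (IsLocalRing.ResidueField ↥O) ≤
      (Module.finrank ℚ K : ℕ) := by
    apply rank_le
    intro s hs
    -- lifts
    let x : {a // a ∈ s} → ↥O := fun a =>
      Function.surjInv (IsLocalRing.residue_surjective (R := ↥O)) (a : IsLocalRing.ResidueField ↥O)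
    have hxa : ∀ a, IsLocalRing.residue ↥O (x a) = (a : IsLocalRing.ResidueField ↥O) :=
      fun a => Function.surjInv_eq _ _
    have hli : LinearIndependent ℤ (fun a => ((x a : ↥O) : K)) := by
      apply s34nd_lift_indep O q x
      intro t g hsum i hi
      have hs' := linearIndependent_iff'.1 hs t (fun a => ((g a : ℤ) : ZMod q)) (by
        rw [← hsum]
        refine Finset.sum_congr rfl fun a _ => ?_
        rw [hxa, Algebra.smul_def]
        congr 1
        simp) i hi
      exact (ZMod.intCast_zmod_eq_zero_iff_dvd _ _).1 hs'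
    have hli' : LinearIndependent ℚ (fun a => ((x a : ↥O) : K)) :=
      (LinearIndependent.iff_fractionRing ℤ ℚ).1 hli
    have := hli'.fintype_card_le_finrank
    simpa using this
  have hfin : Module.Finite (ZMod q) (IsLocalRing.ResidueField ↥O) := by
    rw [← Module.rank_lt_aleph0_iff]
    exact lt_of_le_of_lt hrank (Cardinal.natCast_lt_aleph0)
  exact Module.finite_of_finite (ZMod q)

end Res

end Fermat.Agent.S34
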