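/-
S34, leaf [SS-NODE] = (D3) (owner: helper23).  Prefix `s34nd_`.
THE GENERIC WIRING OF THE DICHOTOMY.

`O` a discrete valuation ring with finite residue field `κ` of characteristic `q`, `K = Frac O`
of characteristic `0`, levels `M` and `M q`, `α = heckeAlphaBar`, `β = heckeBetaBar`,
`W` a `K`-automorphism of `F_K(M q)` with `W W = 1`, `W α = β`.  For a chart
`B = s18_chart O S` of level `M q` (`S = {J}` or `{J⁻¹}`) and the chart `B_M = s18_chart O T`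
of level `M` (`T = {j}` or `{j⁻¹}`), `e = s34g_fibreMap : B_M / π B_M → κ((T))`:

`s34nd_dich_unif` : every prime `n ∋ π` of `B` is a node or has one local equation
(`s34lg_IsNode π n ∨ s34lg_IsSmooth π n`), from
  - the fibre `B_M / π B_M` is a Dedekind domain and `e` is injective (`ker ρ_M = π B_M`),
  - `hα`    : `α B_M ⊆ B`,
  - `hsub`  : every `ρ_∞ b`, `b ∈ B`, is `ρ_M b₀` for some `b₀ ∈ B_M`      ((D2), [SS-BRANCH]),
  - `hne`   : some `b ∈ B` has `ρ_∞ (W b) = 0`, `ρ_∞ b ≠ 0`,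
  - `hsat`  : `B` is saturated in `V_∞ ∩ V_0`                               ((D1), [K-ISW]).
-/
import Mathlib
import Fermat.Agent.S34.SsNodeChart
import Fermat.Agent.S34.SsGaussAB
import Fermat.Agent.S34.SsGaussFib
import Fermat.Agent.S34.LocGlobNd

set_option autoImplicit false
set_option linter.unusedSectionVars false
set_option linter.unusedVariables false
set_option linter.style.haveILetI false
set_option warn.classDefReducibility false
set_option synthInstance.maxHeartbeats 400000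
set_option maxHeartbeats 400000

open AlgebraicCurve ModularCurve IntermediateField
open Fermat.Agent.S18

noncomputable section

namespace Fermat.Agent.S34

section Unif

variable {O K : Type} [CommRing O] [IsDomain O] [IsDiscreteValuationRing O] [Field K]
  [CharZero K] [Algebra O K] [IsFractionRing O K] (M q : ℕ) [NeZero M] [NeZero q]
  [NeZero (M * q)] [Fact q.Prime] [Finite (IsLocalRing.ResidueField O)]
  (hqO : (q : O) ∈ IsLocalRing.maximalIdeal O)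
  (W : ↥(s18_F K (M * q)) ≃ₐ[K] ↥(s18_F K (M * q)))
  (hWW : ∀ f, W (W f) = f)
  (hWα : ∀ f : ↥(s18_F K M), W (heckeAlphaBar K M q f) = heckeBetaBar K M q f)
  {ϖ : O} (hϖ : Irreducible ϖ)
  (S : Set ↥(s18_F K (M * q))) (hSV : ∀ s ∈ S, s ∈ s34g_V O K (M * q))
  (hWS : ∀ s ∈ S, W s ∈ S)
  (T : Set ↥(s18_F K M)) (hTV : ∀ t ∈ T, t ∈ s34g_V O K M)

include hqO hWW hWα hϖ hSV hWS in
/-- **The dichotomy on a chart of the model, generic wiring.** -/
theorem s34nd_dich_unif :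
    letI := s18_algOF O K M
    letI := s18_algOF O K (M * q)
    IsDedekindDomain (s18_fibre O T) →
    Function.Injective (s34g_fibreMap (O := O) M T hTV) →
    (∀ b₀ ∈ s18_chart O T, heckeAlphaBar K M q b₀ ∈ s18_chart O S) →
    (∀ b ∈ s18_chart O S, ∀ hbV : b ∈ s34g_V O K (M * q),
      ∃ b₀ ∈ s18_chart O T, ∃ hb₀ : b₀ ∈ s34g_V O K M,
        s34g_rho O K (M * q) ⟨b, hbV⟩ = s34g_rho O K M ⟨b₀, hb₀⟩) →
    (∃ b ∈ s18_chart O S, ∃ (hb : b ∈ s34g_V O K (M * q))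
      (hWb : W b ∈ s34g_V O K (M * q)),
      s34g_rho O K (M * q) ⟨W b, hWb⟩ = 0 ∧ s34g_rho O K (M * q) ⟨b, hb⟩ ≠ 0) →
    (∀ w ∈ s34g_W2 O W, algebraMap O ↥(s18_F K (M * q)) ϖ * w ∈ s18_chart O S →
      w ∈ s18_chart O S) →
    ∀ n : Ideal ↥(s18_chart O S), n.IsPrime → algebraMap O ↥(s18_chart O S) ϖ ∈ n →
      s34lg_IsNode (algebraMap O ↥(s18_chart O S) ϖ) n ∨
        s34lg_IsSmooth (algebraMap O ↥(s18_chart O S) ϖ) n := by
  letI := s18_algOF O K M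
  letI := s18_algOF O K (M * q)
  intro hDed he hα hsub hne hsat n hn hπn
  haveI := s18gq_charP O q hqO
  haveI := hDed
  haveI := hn
  have hO : ∀ a : O, algebraMap O ↥(s18_F K (M * q)) a ∈ s34g_V O K (M * q) :=
    fun a => s34g_algebraMap_mem a
  have hWO : ∀ a : O, W.toRingEquiv (algebraMap O ↥(s18_F K (M * q)) a) =
      algebraMap O ↥(s18_F K (M * q)) a := fun a => s34g_W_algebraMap (W := W) a
  have hWW' : ∀ x, W.toRingEquiv (W.toRingEquiv x) = x := hWW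
  have hWS' : ∀ s ∈ S, W.toRingEquiv s ∈ S := hWS
  have hle : ∀ b : ↥(s18_chart O S), (b : ↥(s18_F K (M * q))) ∈ s34g_V O K (M * q) :=
    fun b => s34nd_chart_le (s34g_V O K (M * q)) hO S hSV b b.2
  have hleM : ∀ b ∈ s18_chart O T, b ∈ s34g_V O K M :=
    fun b hb => s34g_chart_le T hTV b hb
  have hπ0 : algebraMap O ↥(s18_F K (M * q)) ϖ ≠ 0 := s34g_algebraMap_ne_zero hϖ.ne_zero
  have key := s34nd_chart (s34g_V O K (M * q)) hO W.toRingEquiv hWO hWW' S hSV hWS' q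
    (s34g_rho O K (M * q)) (s34g_fibreMap (O := O) M T hTV) ϖ ?_ he ?_ ?_ ?_ ?_ n hπn
  · refine s34lg_dichotomy _ _ _ ?_ ?_ n key
    · rw [s34nd_rhoB_eq _ hO S hSV _ _ ⟨algebraMap O ↥(s18_F K (M * q)) ϖ, hO ϖ⟩ rfl]
      exact s34g_rho_pi hϖ _ rfl
    · exact s34nd_WB_algebraMap W.toRingEquiv hWO S hWS' hWW' ϖ
  · -- (D1)
    intro b h1 h2
    have h1' : s34g_rho O K (M * q) ⟨(b : ↥(s18_F K (M * q))), hle b⟩ = 0 := h1
    have hWb : W (b : ↥(s18_F K (M * q))) ∈ s34g_V O K (M * q) :=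
      hle (s34nd_WB W.toRingEquiv hWO S hWS' hWW' b)
    have h2' : s34g_rho O K (M * q) ⟨W (b : ↥(s18_F K (M * q))), hWb⟩ = 0 := h2
    have hd1 := s34g_rho_eq_zero hϖ _ h1'
    have hd2 := s34g_rho_eq_zero hϖ _ h2'
    have hw : (b : ↥(s18_F K (M * q))) / algebraMap O ↥(s18_F K (M * q)) ϖ ∈ s34g_W2 O W := by
      refine (s34g_mem_W2_iff _).2 ⟨hd1, ?_⟩
      rw [map_div₀, s34g_W_algebraMap (W := W)]
      exact hd2
    have hmem := hsat _ hw (by rw [mul_div_cancel₀ _ hπ0]; exact b.2)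
    refine ⟨⟨_, hmem⟩, Subtype.ext ?_⟩
    show (b : ↥(s18_F K (M * q))) = algebraMap O ↥(s18_F K (M * q)) ϖ *
      ((b : ↥(s18_F K (M * q))) / algebraMap O ↥(s18_F K (M * q)) ϖ)
    rw [mul_div_cancel₀ _ hπ0]
  · -- hsub
    intro b
    obtain ⟨b₀, hb₀, hb₀V, h⟩ := hsub b b.2 (hle b)
    exact ⟨Ideal.Quotient.mk _ ⟨b₀, hb₀⟩, h.symm⟩
  · -- hsup
    intro a
    obtain ⟨b₀, rfl⟩ := Ideal.Quotient.mk_surjective a
    refine ⟨⟨heckeAlphaBar K M q (b₀ : ↥(s18_F K M)), hα b₀ b₀.2⟩, ?_⟩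
    exact s34g_rho_alpha M q ⟨(b₀ : ↥(s18_F K M)), hleM b₀ b₀.2⟩
  · -- hne
    obtain ⟨b, hb, hbV, hWbV, h1, h2⟩ := hne
    exact ⟨⟨b, hb⟩, h1, h2⟩
  · -- hlift
    intro b
    obtain ⟨b₀, hb₀, hb₀V, h⟩ := hsub b b.2 (hle b)
    refine ⟨⟨heckeAlphaBar K M q b₀, hα b₀ hb₀⟩, ?_, ?_⟩
    · show s34g_rho O K (M * q) ⟨heckeAlphaBar K M q b₀, _⟩ =
        s34g_rho O K (M * q) ⟨(b : ↥(s18_F K (M * q))), hle b⟩
      rw [h]
      exact s34g_rho_alpha M q ⟨b₀, hb₀V⟩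
    · show s34g_rho O K (M * q) ⟨W (heckeAlphaBar K M q b₀), _⟩ =
        qExpand (IsLocalRing.ResidueField O) q
          (s34g_rho O K (M * q) ⟨(b : ↥(s18_F K (M * q))), hle b⟩)
      rw [h, ← s34g_rho_beta M q ⟨b₀, hb₀V⟩]
      congr 1
      exact Subtype.ext (hWα b₀)

end Unif

end Fermat.Agent.S34
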