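/-
S34, leaf [SS-W] (helper8), complements.  Prefix `s34w_`.

  `s34w_sd_of_comm` : a ring homomorphism of `F_L(N)` which commutes with `τ` commutes with the
                      second difference `s34_sd N τ`;
  `s34w_W_sd`       : `W (s34_sd τ0 f) = s34_sd τ0 (W f)` for the Atkin-Lehner involution;
  `s34w_Wr`         : the involution as a `RingEquiv` (no `Algebra ↥K0 _` instance in its type),
                      with the facts of `SsWMain.lean` restated.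
-/
import Mathlib
import Fermat.Agent.S34.Defs
import Fermat.Agent.S34.SsWMain

set_option autoImplicit false
set_option linter.unusedSectionVars false
set_option linter.unusedVariables false

open AlgebraicCurve ModularCurve IntermediateField
open Fermat.Agent.S18 Fermat.Agent.S24

noncomputable section

namespace Fermat.Agent.S34

/-- A ring homomorphism which commutes with `τ` commutes with the second difference. -/
theorem s34w_sd_of_comm {L : Type*} [Field L] [Algebra ℚ L] (N : ℕ) (τ : L ≃ₐ[ℚ] L)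
    (φ : ↥(laurentBaseChange L (modularFunctionFieldFull N)) →+*
      ↥(laurentBaseChange L (modularFunctionFieldFull N)))
    (hφ : ∀ f, φ (arithmeticGalois (modularFunctionFieldFull N) τ • f) =
      arithmeticGalois (modularFunctionFieldFull N) τ • φ f)
    (f : ↥(laurentBaseChange L (modularFunctionFieldFull N))) :
    φ (s34_sd N τ f) = s34_sd N τ (φ f) := by
  unfold s34_sd
  rw [map_div₀, map_mul, map_pow, hφ, hφ]

section Ring

variable (M q : ℕ) [NeZero M] [NeZero q] (K0 : IntermediateField ℚ (AlgebraicClosure ℚ))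

/-- The Atkin-Lehner involution `W_q` of `F_{K0}(M q)` as a ring automorphism. -/
def s34w_Wr (hq : q.Prime) (hM : ¬ q ∣ M) :
    ↥(s18_F ↥K0 (M * q)) ≃+* ↥(s18_F ↥K0 (M * q)) :=
  @AlgEquiv.toRingEquiv _ _ _ _ _ _ _ _ (s34w_W M q K0 hq hM)

variable {M q K0}
variable (hq : q.Prime) (hM : ¬ q ∣ M)

theorem s34w_Wr_apply (f : ↥(s18_F ↥K0 (M * q))) :
    s34w_Wr M q K0 hq hM f = s34w_W M q K0 hq hM f := rfl

theorem s34w_Wr_symm_apply (f : ↥(s18_F ↥K0 (M * q))) :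
    (s34w_Wr M q K0 hq hM).symm f = s34w_Wr M q K0 hq hM f := rfl

theorem s34w_Wr_Wr (f : ↥(s18_F ↥K0 (M * q))) :
    s34w_Wr M q K0 hq hM (s34w_Wr M q K0 hq hM f) = f :=
  s34w_W_W hq hM f

theorem s34w_Wr_alpha (f : ↥(s18_F ↥K0 M)) :
    s34w_Wr M q K0 hq hM (heckeAlphaBar ↥K0 M q f) = heckeBetaBar ↥K0 M q f :=
  s34w_W_alpha hq hM f

theorem s34w_Wr_beta (f : ↥(s18_F ↥K0 M)) :
    s34w_Wr M q K0 hq hM (heckeBetaBar ↥K0 M q f) = heckeAlphaBar ↥K0 M q f :=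
  s34w_W_beta hq hM f

theorem s34w_Wr_jd (d : ℕ) [NeZero d] [NeZero (d * q)] (hd : d ∣ M) :
    s34w_Wr M q K0 hq hM (s34g_jd ↥K0 (M * q) d (hd.trans (dvd_mul_right M q))) =
      s34g_jd ↥K0 (M * q) (d * q) (Nat.mul_dvd_mul_right hd q) :=
  s34w_W_jd hq hM d hd

theorem s34w_Wr_jdq (d : ℕ) [NeZero d] [NeZero (d * q)] (hd : d ∣ M) :
    s34w_Wr M q K0 hq hM (s34g_jd ↥K0 (M * q) (d * q) (Nat.mul_dvd_mul_right hd q)) =
      s34g_jd ↥K0 (M * q) d (hd.trans (dvd_mul_right M q)) :=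
  s34w_W_jdq hq hM d hd

theorem s34w_Wr_j [NeZero (M * q)] :
    s34w_Wr M q K0 hq hM (s18_j ↥K0 (M * q)) = s34g_jd ↥K0 (M * q) q (dvd_mul_left q M) :=
  s34w_W_j hq hM

theorem s34w_Wr_jq [NeZero (M * q)] :
    s34w_Wr M q K0 hq hM (s34g_jd ↥K0 (M * q) q (dvd_mul_left q M)) = s18_j ↥K0 (M * q) :=
  s34w_W_jq hq hM

theorem s34w_Wr_galois (τ0 : ↥K0 ≃ₐ[ℚ] ↥K0) (f : ↥(s18_F ↥K0 (M * q))) :
    s34w_Wr M q K0 hq hM (arithmeticGalois (modularFunctionFieldFull (M * q)) τ0 • f) =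
      arithmeticGalois (modularFunctionFieldFull (M * q)) τ0 • s34w_Wr M q K0 hq hM f :=
  s34w_W_galois hq hM τ0 f

/-- **`W` commutes with the second difference** `(τ - 1)²`. -/
theorem s34w_Wr_sd (τ0 : ↥K0 ≃ₐ[ℚ] ↥K0) (f : ↥(s18_F ↥K0 (M * q))) :
    s34w_Wr M q K0 hq hM (s34_sd (M * q) τ0 f) =
      s34_sd (M * q) τ0 (s34w_Wr M q K0 hq hM f) :=
  s34w_sd_of_comm (M * q) τ0 (s34w_Wr M q K0 hq hM).toRingHom (s34w_Wr_galois hq hM τ0) f

/-- **`W` commutes with the second difference** `(τ - 1)²`. -/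
theorem s34w_W_sd (τ0 : ↥K0 ≃ₐ[ℚ] ↥K0) (f : ↥(s18_F ↥K0 (M * q))) :
    s34w_W M q K0 hq hM (s34_sd (M * q) τ0 f) =
      s34_sd (M * q) τ0 (s34w_W M q K0 hq hM f) :=
  s34w_Wr_sd hq hM τ0 f

end Ring

end Fermat.Agent.S34
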